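import Fermat.Agent.GAL.h65_S31Levels

/-!
# S33 : the ONE per-level geometric statement (interface between the machine and the geometry)

`h9_GeomStmt N p A σ0 n` : on `M := J₀(N)[p ^ n]` (with its Galois action `h65_torsRep`) there
are subgroups `Ynew ≤ X0` with

1. `Ynew` Galois-stable;
2. `Ynew ≤ X0`;
3. `(σ - 1) M ⊆ X0` for `σ` in the inertia group `I` of `A`;
4. (h_new) the only `p`-torsion, `σ0`-fixed element of `Ynew ∩ (I - 1) M` is `0`;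
5. (h_old) `X0 / Ynew` has no `I`-stable subgroup with a nonzero `I`-trivial quotient:
   `Ynew ≤ Z ≤ X' ≤ X0`, `X'` `I`-stable, `(I - 1) X' ⊆ Z`  ⟹  `X' ≤ Z`.

Consumer: `h91_SplitStmt` (helper91's machine instance) via the transport `W ↪ M`.
Producer: the old part (`h9_ordOld` + the degeneracy maps `h52_push*`) and the new part
(`h70_NewMin`).
-/

set_option autoImplicit false

namespace Fermat.Agent.S33

open ModularCurve Fermat.Agent.GAL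

local notation "Qb" => AlgebraicClosure ℚ
local notation "Γℚ" => (AlgebraicClosure ℚ ≃ₐ[ℚ] AlgebraicClosure ℚ)

/-- **The per-level geometric statement of S33** on `J₀(N)[p ^ n]`. -/
def h9_GeomStmt (N p : ℕ) [NeZero N] (A : ValuationSubring Qb) (σ0 : Γℚ) (n : ℕ) : Prop :=
  ∃ Ynew X0 : AddSubgroup ↥(h65_tors (JZero N) (p ^ n)),
    (∀ g : Γℚ, ∀ y ∈ Ynew, h65_torsRep Γℚ (JZero N) (p ^ n) g y ∈ Ynew) ∧
    Ynew ≤ X0 ∧
    (∀ σ ∈ A.inertiaSubgroupIn ℚ, ∀ y : ↥(h65_tors (JZero N) (p ^ n)),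
      h65_torsRep Γℚ (JZero N) (p ^ n) σ y - y ∈ X0) ∧
    (∀ z ∈ Ynew, p • z = 0 → h65_torsRep Γℚ (JZero N) (p ^ n) σ0 z = z →
      z ∈ AddSubgroup.closure {w : ↥(h65_tors (JZero N) (p ^ n)) |
        ∃ σ ∈ A.inertiaSubgroupIn ℚ, ∃ y : ↥(h65_tors (JZero N) (p ^ n)),
          w = h65_torsRep Γℚ (JZero N) (p ^ n) σ y - y} → z = 0) ∧
    ∀ X' Z : AddSubgroup ↥(h65_tors (JZero N) (p ^ n)), Ynew ≤ Z → Z ≤ X' → X' ≤ X0 →
      (∀ σ ∈ A.inertiaSubgroupIn ℚ, ∀ v ∈ X', h65_torsRep Γℚ (JZero N) (p ^ n) σ v ∈ X') →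
      (∀ σ ∈ A.inertiaSubgroupIn ℚ, ∀ v ∈ X', h65_torsRep Γℚ (JZero N) (p ^ n) σ v - v ∈ Z) →
      X' ≤ Z

end Fermat.Agent.S33
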