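import Fermat.Agent.S33.h91_OrdLevels
import Fermat.Agent.S33.h9_GeomStmt
import Fermat.Agent.S54.Frob

/-!
# S33, GEOM BRIDGE (helper48)

* `h48_hecke_stable` : on a Galois-stable piece `W` of a level module `M` on which the Hecke
  algebra acts compatibly with the operators `tM ℓ` of `M`, the Eichler-Shimura relation makes
  every Galois-stable subgroup of `W` stable under the whole Hecke algebra
  (`T_ℓ = σ + ℓ σ⁻¹` on `W` for a Frobenius element `σ` at `ℓ`).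
* `h48_geom_level` : subgroups `Ynew ≤ X0` of `M` (Galois-stable new part, "old" envelope with
  the no-trivial-subquotient property, no Hecke condition at all) give the per-level input of
  the split form of the ordinary core on `W`.
* `h48_split_of_geom` : ROW TRANSPORT, `h9_GeomStmt N p P σ0 n → h91_SplitStmt .. n` for the
  level data of `S32/h91_Top.lean` (`h48_split_of_geom_abs` : the same for abstract level data).
-/

set_option autoImplicit false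

namespace Fermat.Agent.S33

open Fermat.Agent.GAL Fermat.Agent.S32

local notation "Qb" => AlgebraicClosure ℚ
local notation "Γℚ" => (AlgebraicClosure ℚ ≃ₐ[ℚ] AlgebraicClosure ℚ)

section stable

variable {N : ℕ} [NeZero N] {S : Finset ℕ}

/-- **Galois-stable ⟹ Hecke-stable.** -/
theorem h48_hecke_stable (hNS : ∀ q : ℕ, q.Prime → q ∣ N → q ∈ S)
    {M : Type} [AddCommGroup M] (r : Γℚ →* AddMonoid.End M) (tM : Nat.Primes → M →+ M)
    (hfrob : ∀ (ℓ : ℕ) (hℓ : ℓ.Prime), ¬ ℓ ∣ N → ℓ ∉ (↑S : Set ℕ) →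
      ∀ A : ValuationSubring (AlgebraicClosure ℚ), A.LiesOverPrime ℓ →
      ∀ σ : Γℚ, A.IsFrobeniusAt σ ℓ →
        ∀ m : M, r σ (r σ m) + ℓ • m = tM ⟨ℓ, hℓ⟩ (r σ m))
    (W : AddSubgroup M) (rW : Γℚ →* AddMonoid.End ↥W)
    (hrW : ∀ (g : Γℚ) (w : ↥W), ((rW g w : ↥W) : M) = r g (w : M))
    (act : CuspForm.heckeAlgebra N 2 (↑S : Set ℕ) →+* AddMonoid.End ↥W)
    (hcompat : ∀ (ℓ : ℕ) (hℓ : ℓ.Prime) (hℓN : ¬ ℓ ∣ N) (hℓS : ℓ ∉ (↑S : Set ℕ)) (w : ↥W),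
      ((act (CuspForm.heckeAlgebra.T hℓ hℓN hℓS) w : ↥W) : M) = tM ⟨ℓ, hℓ⟩ (w : M))
    (Ns : AddSubgroup ↥W) (hNs : ∀ (g : Γℚ), ∀ w ∈ Ns, rW g w ∈ Ns)
    (z : CuspForm.heckeAlgebra N 2 (↑S : Set ℕ)) : ∀ w ∈ Ns, act z w ∈ Ns := by
  obtain ⟨z, hz⟩ := z
  induction hz using Algebra.adjoin_induction with
  | mem x hx =>
    rcases hx with ⟨ℓ, hℓ, hℓN, hℓS, rfl⟩ | ⟨q', hqN, hq, hqS, rfl⟩
    · intro w hw
      obtain ⟨A, hA⟩ := Fermat.Agent.S54.exists_liesOverPrime ℓ hℓ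
      obtain ⟨σ, hσ⟩ := Fermat.Agent.S54.exists_isFrobeniusAt_of_liesOverPrime A ℓ hℓ hA
      have h1 := hfrob ℓ hℓ hℓN hℓS A hA σ hσ ((rW σ⁻¹ w : ↥W) : M)
      have h2 : r σ ((rW σ⁻¹ w : ↥W) : M) = (w : M) := by
        rw [hrW, ← Fermat.Agent.GAL.h31_r_mul, mul_inv_cancel, Fermat.Agent.GAL.h31_r_one]
      rw [h2] at h1
      have h3 : act (CuspForm.heckeAlgebra.T hℓ hℓN hℓS) w = rW σ w + ℓ • rW σ⁻¹ w := by
        apply Subtype.ext
        rw [hcompat, ← h1, AddSubgroup.coe_add, AddSubgroup.coe_nsmul, hrW, hrW]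
      have h4 : (⟨CuspForm.heckeTLin 2 hℓ hℓN, Algebra.subset_adjoin (Or.inl ⟨ℓ, hℓ, hℓN, hℓS, rfl⟩)⟩ :
          CuspForm.heckeAlgebra N 2 (↑S : Set ℕ)) = CuspForm.heckeAlgebra.T hℓ hℓN hℓS := rfl
      rw [h4, h3]
      exact Ns.add_mem (hNs σ w hw) (Ns.nsmul_mem (hNs σ⁻¹ w hw) ℓ)
    · exact absurd (Finset.mem_coe.2 (hNS q' hq hqN)) hqS
  | algebraMap n =>
    intro w hw
    have e : (⟨algebraMap ℤ _ n, Subalgebra.algebraMap_mem _ n⟩ :
        CuspForm.heckeAlgebra N 2 (↑S : Set ℕ)) = (n : CuspForm.heckeAlgebra N 2 (↑S : Set ℕ)) := by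
      apply Subtype.ext
      simp
    rw [e, map_intCast]
    have e2 : ((n : AddMonoid.End ↥W)) w = n • w := by
      simp
    rw [e2]
    exact Ns.zsmul_mem hw n
  | add x y hx hy ihx ihy =>
    intro w hw
    have e : (⟨x + y, Subalgebra.add_mem _ hx hy⟩ : CuspForm.heckeAlgebra N 2 (↑S : Set ℕ)) =
        ⟨x, hx⟩ + ⟨y, hy⟩ := rfl
    rw [e, map_add]
    exact Ns.add_mem (ihx w hw) (ihy w hw)
  | mul x y hx hy ihx ihy =>
    intro w hw
    have e : (⟨x * y, Subalgebra.mul_mem _ hx hy⟩ : CuspForm.heckeAlgebra N 2 (↑S : Set ℕ)) =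
        ⟨x, hx⟩ * ⟨y, hy⟩ := rfl
    rw [e, map_mul]
    exact ihx _ (ihy w hw)

end stable

section prim

variable {R0 : Type} [CommRing R0] {W : Type} [AddCommGroup W] (act : R0 →+* AddMonoid.End W)
  (J : Ideal R0)

theorem h48_prim_zero : ∃ j, ∀ c ∈ J ^ j, act c (0 : W) = 0 :=
  ⟨0, fun _ _ => map_zero _⟩

theorem h48_prim_add {x y : W} (hx : ∃ j, ∀ c ∈ J ^ j, act c x = 0)
    (hy : ∃ j, ∀ c ∈ J ^ j, act c y = 0) : ∃ j, ∀ c ∈ J ^ j, act c (x + y) = 0 := by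
  obtain ⟨i, hi⟩ := hx
  obtain ⟨j, hj⟩ := hy
  refine ⟨max i j, fun c hc => ?_⟩
  rw [map_add, hi c (Ideal.pow_le_pow_right (le_max_left i j) hc),
    hj c (Ideal.pow_le_pow_right (le_max_right i j) hc), add_zero]

theorem h48_prim_neg {x : W} (hx : ∃ j, ∀ c ∈ J ^ j, act c x = 0) :
    ∃ j, ∀ c ∈ J ^ j, act c (-x) = 0 := by
  obtain ⟨i, hi⟩ := hx
  exact ⟨i, fun c hc => by rw [map_neg, hi c hc, neg_zero]⟩

theorem h48_prim_sub {x y : W} (hx : ∃ j, ∀ c ∈ J ^ j, act c x = 0)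
    (hy : ∃ j, ∀ c ∈ J ^ j, act c y = 0) : ∃ j, ∀ c ∈ J ^ j, act c (x - y) = 0 := by
  rw [sub_eq_add_neg]
  exact h48_prim_add act J hx (h48_prim_neg act J hy)

theorem h48_prim_map (f : W →+ W) (hf : ∀ c w, act c (f w) = f (act c w)) {x : W}
    (hx : ∃ j, ∀ c ∈ J ^ j, act c x = 0) : ∃ j, ∀ c ∈ J ^ j, act c (f x) = 0 := by
  obtain ⟨i, hi⟩ := hx
  exact ⟨i, fun c hc => by rw [hf, hi c hc, map_zero]⟩

theorem h48_prim_act (b : R0) {x : W} (hx : ∃ j, ∀ c ∈ J ^ j, act c x = 0) :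
    ∃ j, ∀ c ∈ J ^ j, act c (act b x) = 0 := by
  obtain ⟨i, hi⟩ := hx
  refine ⟨i, fun c hc => ?_⟩
  have h1 : act c (act b x) = act b (act c x) := by
    have e1 : act c (act b x) = act (c * b) x := by rw [map_mul]; rfl
    have e2 : act b (act c x) = act (b * c) x := by rw [map_mul]; rfl
    rw [e1, e2, mul_comm]
  rw [h1, hi c hc, map_zero]

end prim

section level

/-- **GEOM BRIDGE, abstract form.** `W` is a Galois module with a commuting action of a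
commutative ring `R0` such that Galois-stable subgroups are `R0`-stable (`h48_hecke_stable`),
`ι : W → M` an injective equivariant map into a Galois module `M`. Subgroups `Ynew ≤ X0` of `M`
with `Ynew` Galois-stable, `(σ - 1) ι W ⊆ X0` for `σ ∈ I`, the new-part input on `Ynew` and the
no-trivial-subquotient property of `X0` modulo `Ynew` give the per-level input of the split form
of the ordinary core on `W` (for any ideal `J` of `R0`). -/
theorem h48_geom_level {G : Type} [Group G] {W : Type} [AddCommGroup W]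
    (rW : G →* AddMonoid.End W) {R0 : Type} [CommRing R0] (act : R0 →+* AddMonoid.End W)
    (hcomm : ∀ (c : R0) (g : G) (w : W), act c (rW g w) = rW g (act c w))
    (hstab : ∀ Ns : AddSubgroup W, (∀ g : G, ∀ w ∈ Ns, rW g w ∈ Ns) →
      ∀ (b : R0), ∀ w ∈ Ns, act b w ∈ Ns)
    (J : Ideal R0) (I : Subgroup G) (σ0 : G) (p : ℕ)
    {M : Type} [AddCommGroup M] (r : G →* AddMonoid.End M)
    (ι : W →+ M) (hι : Function.Injective ι) (hιr : ∀ (g : G) (w : W), ι (rW g w) = r g (ι w))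
    (Ynew X0 : AddSubgroup M)
    (hYG : ∀ g : G, ∀ y ∈ Ynew, r g y ∈ Ynew)
    (hYX : Ynew ≤ X0)
    (hIX : ∀ σ ∈ I, ∀ w : W, r σ (ι w) - ι w ∈ X0)
    (hnew : ∀ z ∈ Ynew, p • z = 0 → r σ0 z = z →
      z ∈ AddSubgroup.closure {w : M | ∃ σ ∈ I, ∃ y : W, w = r σ (ι y) - ι y} → z = 0)
    (hNT : ∀ X' Z : AddSubgroup M, Ynew ≤ Z → Z ≤ X' → X' ≤ X0 →
      (∀ σ ∈ I, ∀ v ∈ X', r σ v ∈ X') → (∀ σ ∈ I, ∀ v ∈ X', r σ v - v ∈ Z) → X' ≤ Z) :
    ∃ Yns : AddSubgroup W,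
      (∀ z ∈ Yns, ∃ j, ∀ c ∈ J ^ j, act c z = 0) ∧
      (∀ g : G, ∀ y ∈ Yns, rW g y ∈ Yns) ∧
      (∀ b : R0, ∀ y ∈ Yns, act b y ∈ Yns) ∧
      (∀ z ∈ Yns, p • z = 0 → rW σ0 z = z →
        z ∈ AddSubgroup.closure {w : W | ∃ σ ∈ I, ∃ y : W,
          (∃ j, ∀ c ∈ J ^ j, act c y = 0) ∧ w = rW σ y - y} → z = 0) ∧
      (∃ X0' : AddSubgroup W, Yns ≤ X0' ∧
        (∀ σ ∈ I, ∀ y : W, (∃ j, ∀ c ∈ J ^ j, act c y = 0) → rW σ y - y ∈ X0') ∧
        ∀ X' Z : AddSubgroup W, Yns ≤ Z → Z ≤ X' → X' ≤ X0' →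
          (∀ σ ∈ I, ∀ v ∈ X', rW σ v ∈ X') → (∀ σ ∈ I, ∀ v ∈ X', rW σ v - v ∈ Z) → X' ≤ Z) := by
  -- the primary part of a subgroup of `M`
  let prim : AddSubgroup M → AddSubgroup W := fun Q =>
    { carrier := {w : W | (∃ j, ∀ c ∈ J ^ j, act c w = 0) ∧ ι w ∈ Q}
      zero_mem' := ⟨h48_prim_zero act J, by rw [map_zero]; exact Q.zero_mem⟩
      add_mem' := fun {a b} ha hb =>
        ⟨h48_prim_add act J ha.1 hb.1, by rw [map_add]; exact Q.add_mem ha.2 hb.2⟩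
      neg_mem' := fun {a} ha => ⟨h48_prim_neg act J ha.1, by rw [map_neg]; exact Q.neg_mem ha.2⟩ }
  have hPG : ∀ (g : G) {w : W}, (∃ j, ∀ c ∈ J ^ j, act c w = 0) →
      ∃ j, ∀ c ∈ J ^ j, act c (rW g w) = 0 := fun g w hw =>
    h48_prim_map act J (rW g) (fun c' w' => hcomm c' g w') hw
  refine ⟨prim Ynew, fun z hz => hz.1, ?_, ?_, ?_, prim X0, ?_, ?_, ?_⟩
  · -- Galois-stable
    intro g y hy
    exact ⟨hPG g hy.1, by rw [hιr]; exact hYG g _ hy.2⟩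
  · -- stable under `R0`
    intro b y hy
    refine ⟨h48_prim_act act J b hy.1, ?_⟩
    have h := hstab (Ynew.comap ι) (fun g w hw => by
      rw [AddSubgroup.mem_comap] at hw ⊢
      rw [hιr]; exact hYG g _ hw) b y hy.2
    exact h
  · -- the new-part input
    intro z hz hpz hσz hcl
    apply hι
    rw [map_zero]
    refine hnew (ι z) hz.2 (by rw [← map_nsmul, hpz, map_zero]) (by rw [← hιr, hσz]) ?_
    have hle : AddSubgroup.closure {w : W | ∃ σ ∈ I, ∃ y : W,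
        (∃ j, ∀ c ∈ J ^ j, act c y = 0) ∧ w = rW σ y - y} ≤
        (AddSubgroup.closure {w : M | ∃ σ ∈ I, ∃ y : W, w = r σ (ι y) - ι y}).comap ι := by
      rw [AddSubgroup.closure_le]
      rintro w ⟨σ, hσ, y, -, rfl⟩
      rw [SetLike.mem_coe, AddSubgroup.mem_comap, map_sub, hιr]
      exact AddSubgroup.subset_closure ⟨σ, hσ, y, rfl⟩
    exact hle hcl
  · -- `Yns ≤ X0'`
    intro w hw
    exact ⟨hw.1, hYX hw.2⟩
  · -- `(σ - 1) Y ⊆ X0'`
    intro σ hσ y hy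
    refine ⟨h48_prim_sub act J (hPG σ hy) hy, ?_⟩
    rw [map_sub, hιr]
    exact hIX σ hσ y
  · -- no trivial subquotient
    intro X' Z hYZ hZX hX0 hst hI x hx
    have key := hNT (X'.map ι ⊔ Ynew) (Z.map ι ⊔ Ynew) le_sup_right
      (sup_le_sup_right (AddSubgroup.map_mono hZX) _)
      (sup_le (by
        rintro _ ⟨v, hv, rfl⟩
        exact (hX0 hv).2) hYX)
      (by
        intro σ hσ v hv
        obtain ⟨a, ha, b, hb, rfl⟩ := AddSubgroup.mem_sup.1 hv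
        obtain ⟨a', ha', rfl⟩ := ha
        rw [map_add, ← hιr]
        exact AddSubgroup.mem_sup.2 ⟨_, AddSubgroup.mem_map_of_mem ι (hst σ hσ a' ha'), _,
          hYG σ b hb, rfl⟩)
      (by
        intro σ hσ v hv
        obtain ⟨a, ha, b, hb, rfl⟩ := AddSubgroup.mem_sup.1 hv
        obtain ⟨a', ha', rfl⟩ := ha
        have e : r σ (ι a' + b) - (ι a' + b) = ι (rW σ a' - a') + (r σ b - b) := by
          rw [map_add, map_sub, hιr]; abel
        rw [e]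
        exact AddSubgroup.mem_sup.2 ⟨_, AddSubgroup.mem_map_of_mem ι (hI σ hσ a' ha'), _,
          Ynew.sub_mem (hYG σ b hb) hb, rfl⟩)
    have hx' : ι x ∈ Z.map ι ⊔ Ynew :=
      key (AddSubgroup.mem_sup_left (AddSubgroup.mem_map_of_mem ι hx))
    obtain ⟨a, ha, b, hb, hab⟩ := AddSubgroup.mem_sup.1 hx'
    obtain ⟨z, hz, rfl⟩ := ha
    have hxz : x - z ∈ X' := X'.sub_mem hx (hZX hz)
    have hb' : ι (x - z) = b := by rw [map_sub, ← hab]; abel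
    have h1 : x - z ∈ prim Ynew := ⟨(hX0 hxz).1, by rw [hb']; exact hb⟩
    have h2 := Z.add_mem (hYZ h1) hz
    rwa [sub_add_cancel] at h2

end level

section inst

open ModularCurve

variable {p : ℕ} {N : ℕ} [NeZero N] {S : Finset ℕ}
  {𝒪 : Type} [CommRing 𝒪] [IsDomain 𝒪] [IsDiscreteValuationRing 𝒪]
  [IsAdicComplete (IsLocalRing.maximalIdeal 𝒪) 𝒪]
  {θ : CuspForm.heckeAlgebra N 2 (↑S : Set ℕ) →+* IsLocalRing.ResidueField 𝒪}
  {T : Type} [CommRing T] [IsLocalRing T] [IsNoetherianRing T]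
  [IsAdicComplete (IsLocalRing.maximalIdeal T) T] [Algebra 𝒪 T] [IsLocalHom (algebraMap 𝒪 T)]
  [Module.Finite 𝒪 T] [Module.Free 𝒪 T]

/-- **TRANSPORT, abstract level data.** For level data `(M, qM, r, tM)` satisfying the
Eichler-Shimura relation at level `n`, subgroups `Ynew ≤ X0` of `M n` with the five geometric
clauses give the split hypothesis `h91_SplitStmt` at level `n` (on the Galois span of
`qM n Λ`, for every admissible Hecke action). -/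
theorem h48_split_of_geom_abs (hNS : ∀ q : ℕ, q.Prime → q ∣ N → q ∈ S)
    (H : CuspForm.HeckeGaloisRepDatum N (↑S : Set ℕ) 𝒪 θ T)
    {Λ : Type} [AddCommGroup Λ]
    (M : ℕ → Type) [instM : ∀ n, AddCommGroup (M n)] (qM : ∀ n, Λ →+ M n)
    (r : ∀ n, Γℚ →* AddMonoid.End (M n)) (tM : ∀ n, Nat.Primes → M n →+ M n)
    (P : ValuationSubring Qb) (σ0 : Γℚ) (n : ℕ)
    (hfrob : ∀ (ℓ : ℕ) (hℓ : ℓ.Prime), ¬ ℓ ∣ N → ℓ ∉ (↑S : Set ℕ) →
      ∀ A : ValuationSubring Qb, A.LiesOverPrime ℓ →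
      ∀ σ : Γℚ, A.IsFrobeniusAt σ ℓ →
        ∀ m : M n, r n σ (r n σ m) + ℓ • m = tM n ⟨ℓ, hℓ⟩ (r n σ m))
    (hgeom : ∃ Ynew X0 : AddSubgroup (M n),
      (∀ g : Γℚ, ∀ y ∈ Ynew, r n g y ∈ Ynew) ∧ Ynew ≤ X0 ∧
      (∀ σ ∈ P.inertiaSubgroupIn ℚ, ∀ y : M n, r n σ y - y ∈ X0) ∧
      (∀ z ∈ Ynew, p • z = 0 → r n σ0 z = z →
        z ∈ AddSubgroup.closure {w : M n | ∃ σ ∈ P.inertiaSubgroupIn ℚ, ∃ y : M n,
          w = r n σ y - y} → z = 0) ∧
      ∀ X' Z : AddSubgroup (M n), Ynew ≤ Z → Z ≤ X' → X' ≤ X0 →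
        (∀ σ ∈ P.inertiaSubgroupIn ℚ, ∀ v ∈ X', r n σ v ∈ X') →
        (∀ σ ∈ P.inertiaSubgroupIn ℚ, ∀ v ∈ X', r n σ v - v ∈ Z) → X' ≤ Z) :
    h91_SplitStmt p H M qM r tM P σ0 n := by
  obtain ⟨Ynew, X0, hYG, hYX, hIX, hnew, hNT⟩ := hgeom
  intro act hcomm hcompat
  exact h48_geom_level (h91_rW (qM n) (r n)) act hcomm
    (fun Ns hNs b w hw => h48_hecke_stable hNS (r n) (tM n) hfrob (h91_W (qM n) (r n))
      (h91_rW (qM n) (r n)) (fun _ _ => rfl) act hcompat Ns hNs b w hw)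
    (Ideal.comap H.π (IsLocalRing.maximalIdeal T)) (P.inertiaSubgroupIn ℚ) σ0 p (r n)
    (h91_W (qM n) (r n)).subtype (AddSubgroup.subtype_injective _) (fun _ _ => rfl)
    Ynew X0 hYG hYX (fun σ hσ w => hIX σ hσ _)
    (fun z hz hpz hσz hcl => hnew z hz hpz hσz (AddSubgroup.closure_mono (by
      rintro w ⟨σ, hσ, y, rfl⟩
      exact ⟨σ, hσ, _, rfl⟩) hcl))
    hNT

/-- **ROW TRANSPORT.** For the level data of `S32/h91_Top.lean` (`M n = J₀(N)[p ^ n]` with its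
Galois action and the Hecke operators `heckeOperatorBar`, any `qM` making it a level
structure), the geometric statement `h9_GeomStmt` gives the split hypothesis
`h91_SplitStmt`. -/
theorem h48_split_of_geom (hNS : ∀ q : ℕ, q.Prime → q ∣ N → q ∈ S)
    (H : CuspForm.HeckeGaloisRepDatum N (↑S : Set ℕ) 𝒪 θ T)
    {Λ : Type} [AddCommGroup Λ]
    (ι : CuspForm.heckeAlgebra N 2 (↑S : Set ℕ) →+* Module.End ℤ Λ)
    (qM : ∀ n, Λ →+ ↥(h65_tors (JZero N) (p ^ n)))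
    (P : ValuationSubring Qb) (σ0 : Γℚ) (n : ℕ)
    (hlevel : h31_IsLevel p N S ι n (qM n) (h65_torsRep Γℚ (JZero N) (p ^ n))
      (fun ℓ => h65_torsEnd (p ^ n) (heckeOperatorBar N ℓ).toAddMonoidHom))
    (hgeom : h9_GeomStmt N p P σ0 n) :
    h91_SplitStmt p H (fun n => ↥(h65_tors (JZero N) (p ^ n))) qM
      (fun n => h65_torsRep Γℚ (JZero N) (p ^ n))
      (fun n ℓ => h65_torsEnd (p ^ n) (heckeOperatorBar N ℓ).toAddMonoidHom) P σ0 n := by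
  obtain ⟨-, -, -, -, hfrob, -, -⟩ := hlevel
  exact h48_split_of_geom_abs hNS H (fun n => ↥(h65_tors (JZero N) (p ^ n))) qM
    (fun n => h65_torsRep Γℚ (JZero N) (p ^ n))
    (fun n ℓ => h65_torsEnd (p ^ n) (heckeOperatorBar N ℓ).toAddMonoidHom) P σ0 n hfrob hgeom

end inst

end Fermat.Agent.S33
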