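import Mathlib

/-!
# S33 (D1), group theory: "no trivial quotient" passes to pull-backs along a pair of maps

`K ≤ G` has *no trivial quotient* (for a family of operators `act s`, e.g. the inertia group) if
every `act`-stable subgroup `X' ≤ K` is contained in every subgroup `Z` containing all
`act s x - x`, `x ∈ X'` (i.e. `X' / (X' ∩ Z)` with trivial action is zero).  This is the output
of CRUX (`h9_crux_abs`) for `K = ker(red)` in the points of a Hopf order.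

`h24_notriv_pair` : if `K₁ ≤ G₁` and `K₂ ≤ G₂` have no trivial quotient and `f₁ : W →+ G₁`,
`f₂ : W →+ G₂` are equivariant, then `X0 := f₁⁻¹ K₁ ⊓ f₂⁻¹ K₂` has no trivial quotient modulo
`ker f₁ ⊓ ker f₂`: every stable `X' ≤ X0` is contained in every `Z ⊇ ker f₁ ⊓ ker f₂` that
contains all `act s x - x`, `x ∈ X'`.  (So the old part `(α_*, β_*) : J₀(Mp) → J₀(M)²` needs CRUX
only for `J₀(M)[p^n]` itself, not for a product of orders.)

`h24_notriv_one` : the same for one map.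
-/

set_option autoImplicit false

namespace Fermat.Agent.S33

/-- `K` has no quotient with trivial action: every stable subgroup `X' ≤ K` lies in every
subgroup `Z` containing `act s x - x` for all `x ∈ X'`. -/
def h24_NoTriv {G ι : Type*} [AddCommGroup G] (act : ι → G → G) (K : AddSubgroup G) : Prop :=
  ∀ X' Z : AddSubgroup G, X' ≤ K → (∀ s, ∀ x ∈ X', act s x ∈ X') →
    (∀ s, ∀ x ∈ X', act s x - x ∈ Z) → X' ≤ Z

/-- the same modulo a subgroup `Y₀` (only `Z ⊇ Y₀` are tested). -/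
def h24_NoTrivMod {G ι : Type*} [AddCommGroup G] (act : ι → G → G) (Y₀ K : AddSubgroup G) :
    Prop :=
  ∀ X' Z : AddSubgroup G, Y₀ ≤ Z → X' ≤ K → (∀ s, ∀ x ∈ X', act s x ∈ X') →
    (∀ s, ∀ x ∈ X', act s x - x ∈ Z) → X' ≤ Z

theorem h24_NoTriv.mod {G ι : Type*} [AddCommGroup G] {act : ι → G → G} {K : AddSubgroup G}
    (h : h24_NoTriv act K) (Y₀ : AddSubgroup G) : h24_NoTrivMod act Y₀ K :=
  fun X' Z _ hX' hst hI => h X' Z hX' hst hI

theorem h24_NoTriv.mono {G ι : Type*} [AddCommGroup G] {act : ι → G → G} {K K' : AddSubgroup G}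
    (h : h24_NoTriv act K) (hK : K' ≤ K) : h24_NoTriv act K' :=
  fun X' Z hX' hst hI => h X' Z (hX'.trans hK) hst hI

theorem h24_NoTrivMod.mono {G ι : Type*} [AddCommGroup G] {act : ι → G → G}
    {Y₀ Y₀' K K' : AddSubgroup G} (h : h24_NoTrivMod act Y₀ K) (hY : Y₀ ≤ Y₀') (hK : K' ≤ K) :
    h24_NoTrivMod act Y₀' K' :=
  fun X' Z hZ hX' hst hI => h X' Z (hY.trans hZ) (hX'.trans hK) hst hI

/-- **pull-back along one equivariant map**. -/
theorem h24_notriv_one {W G ι : Type*} [AddCommGroup W] [AddCommGroup G]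
    (act : ι → W → W) (act₁ : ι → G → G) (f : W →+ G)
    (hf : ∀ s w, f (act s w) = act₁ s (f w))
    (K : AddSubgroup G) (hK : h24_NoTriv act₁ K) :
    h24_NoTrivMod act f.ker (K.comap f) := by
  intro X' Z hYZ hX' hstab hI
  have h := hK (X'.map f) ((Z ⊓ X').map f) ?_ ?_ ?_
  · intro x hx
    obtain ⟨z, ⟨hzZ, hzX⟩, hz⟩ := h (AddSubgroup.mem_map_of_mem f hx)
    have h1 : x - z ∈ Z := hYZ (AddMonoidHom.mem_ker.mpr (by rw [map_sub, hz, sub_self]))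
    have h2 := Z.add_mem h1 hzZ
    rwa [sub_add_cancel] at h2
  · rintro _ ⟨x, hx, rfl⟩
    exact hX' hx
  · rintro s _ ⟨x, hx, rfl⟩
    exact ⟨act s x, hstab s x hx, hf s x⟩
  · rintro s _ ⟨x, hx, rfl⟩
    exact ⟨act s x - x, ⟨hI s x hx, X'.sub_mem (hstab s x hx) hx⟩, by rw [map_sub, hf]⟩

/-- **pull-back along a pair of equivariant maps**: no product of orders is needed. -/
theorem h24_notriv_pair {W G₁ G₂ ι : Type*} [AddCommGroup W] [AddCommGroup G₁] [AddCommGroup G₂]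
    (act : ι → W → W) (act₁ : ι → G₁ → G₁) (act₂ : ι → G₂ → G₂)
    (f₁ : W →+ G₁) (f₂ : W →+ G₂)
    (hf₁ : ∀ s w, f₁ (act s w) = act₁ s (f₁ w)) (hf₂ : ∀ s w, f₂ (act s w) = act₂ s (f₂ w))
    (h₁0 : ∀ s, act₁ s 0 = 0)
    (K₁ : AddSubgroup G₁) (K₂ : AddSubgroup G₂)
    (hK₁ : h24_NoTriv act₁ K₁) (hK₂ : h24_NoTriv act₂ K₂) :
    h24_NoTrivMod act (f₁.ker ⊓ f₂.ker) (K₁.comap f₁ ⊓ K₂.comap f₂) := by
  intro X' Z hYZ hX' hstab hI
  -- Step 1: `X' ⊓ ker f₁ ≤ Z`, by `hK₂`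
  have step1 : ∀ x ∈ X', f₁ x = 0 → x ∈ Z := by
    have h := hK₂ ((X' ⊓ f₁.ker).map f₂) ((Z ⊓ f₁.ker).map f₂) ?_ ?_ ?_
    · intro x hx hx1
      obtain ⟨z, ⟨hzZ, hz1⟩, hz⟩ := h (AddSubgroup.mem_map_of_mem f₂ ⟨hx, hx1⟩)
      have hz1' : f₁ z = 0 := hz1
      have h1 : x - z ∈ Z := hYZ (AddSubgroup.mem_inf.mpr
        ⟨AddMonoidHom.mem_ker.mpr (by rw [map_sub, hx1, hz1', sub_self]),
          AddMonoidHom.mem_ker.mpr (by rw [map_sub, hz, sub_self])⟩)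
      have h2 := Z.add_mem h1 hzZ
      rwa [sub_add_cancel] at h2
    · rintro _ ⟨x, ⟨hx, -⟩, rfl⟩
      exact (hX' hx).2
    · rintro s _ ⟨x, ⟨hx, hx1⟩, rfl⟩
      have hx1' : f₁ x = 0 := hx1
      refine ⟨act s x, ⟨hstab s x hx, ?_⟩, hf₂ s x⟩
      show f₁ (act s x) = 0
      rw [hf₁, hx1', h₁0]
    · rintro s _ ⟨x, ⟨hx, hx1⟩, rfl⟩
      have hx1' : f₁ x = 0 := hx1
      refine ⟨act s x - x, ⟨hI s x hx, ?_⟩, by rw [map_sub, hf₂]⟩
      show f₁ (act s x - x) = 0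
      rw [map_sub, hf₁, hx1', h₁0, sub_self]
  -- Step 2: `f₁ X'`, by `hK₁`
  have h := hK₁ (X'.map f₁) ((Z ⊓ X').map f₁) ?_ ?_ ?_
  · intro x hx
    obtain ⟨z, ⟨hzZ, hzX⟩, hz⟩ := h (AddSubgroup.mem_map_of_mem f₁ hx)
    have h1 : x - z ∈ Z := step1 (x - z) (X'.sub_mem hx hzX) (by rw [map_sub, hz, sub_self])
    have h2 := Z.add_mem h1 hzZ
    rwa [sub_add_cancel] at h2
  · rintro _ ⟨x, hx, rfl⟩
    exact (hX' hx).1
  · rintro s _ ⟨x, hx, rfl⟩
    exact ⟨act s x, hstab s x hx, hf₁ s x⟩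
  · rintro s _ ⟨x, hx, rfl⟩
    exact ⟨act s x - x, ⟨hI s x hx, X'.sub_mem (hstab s x hx) hx⟩, by rw [map_sub, hf₁]⟩

end Fermat.Agent.S33
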