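import Mathlib
import Fermat.Agent.GAL.h67_GalHecke
import Fermat.Agent.GAL.h67_CorrPrincipal
import Fermat.Agent.GAL.h65_S31Levels
import Fermat.Agent.S35.h67_NewDefs
import Fermat.Agent.S35.h29_PullNew
import Fermat.Agent.S37.h88_HICore
import Fermat.Agent.S37.h85_NormFormula
import Fermat.Agent.S37.h60_Final
import Fermat.Agent.S54.Frob

/-!
# S33, INTERFACE (helper52): the two degeneracy maps `J₀(N q) → J₀(N)` on `JZero`

For `N q : ℕ` (both nonzero) the push-forwards of divisors along the two degeneracy maps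
`heckeAlphaBar`, `heckeBetaBar : F(N) → F(N q)` descend to additive maps

* `h52_pushAlpha N q`, `h52_pushBeta N q : JZero (N * q) →+ JZero N`

(the norm formula sends principal divisors to principal divisors).  We prove

* `h52_jnew_iff` : the `q`-new classes `h67_Jnew N q` of S35 are exactly the common kernel;
* `h52_pushAlpha_smul`, `h52_pushBeta_smul` : Galois-equivariance;
* `h52_pushAlpha_hecke`, `h52_pushBeta_hecke` : on `p`-power torsion the push-forwards commute
  with the Hecke operators `T_ℓ`, `ℓ ∤ N q p` (Eichler–Shimura at both levels and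
  Galois-equivariance; no commutation of correspondences is needed);
* the `h65_tors`-restricted forms `h52_pushAlphaTors`, `h52_pushBetaTors`.
-/

set_option autoImplicit false
set_option linter.style.haveILetI false
set_option linter.unusedSectionVars false

noncomputable section

namespace Fermat.Agent.S33

open AlgebraicCurve ModularCurve
open Fermat.Agent.GAL Fermat.Agent.S35 Fermat.Agent.S37

local notation "Qb" => AlgebraicClosure ℚ
local notation "Γℚ" => (AlgebraicClosure ℚ ≃ₐ[ℚ] AlgebraicClosure ℚ)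

/-! ## Generic: push-forward on `Pic0` -/

section Generic

variable {K F F' : Type*} [Field K] [Field F] [Field F'] [Algebra K F] [Algebra K F']
variable (ψ : F →ₐ[K] F') (hψ : ψ.toRingHom.IsIntegral)

/-- push-forward on degree-zero divisors -/
def h52_degZeroPush :
    Divisor.degZero (K := K) (F := F') →+ Divisor.degZero (K := K) (F := F) :=
  ((Divisor.pushforwardAlong ψ hψ).domRestrict
    (Divisor.degZero (K := K) (F := F'))).codRestrict _
    (fun D => Divisor.pushforwardAlong_mem_degZero ψ hψ D.2)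

@[simp]
theorem h52_coe_degZeroPush (D : Divisor.degZero (K := K) (F := F')) :
    (h52_degZeroPush ψ hψ D : Divisor K F) =
      Divisor.pushforwardAlong ψ hψ (D : Divisor K F') :=
  rfl

variable (hfin : FiniteAlong K ψ) (hN : NormFormulaAlong K ψ hfin)

/-- **push-forward on `Pic0`** along `ψ : F → F'`, given the norm formula. -/
def h52_pic0Push : Pic0 K F' →+ Pic0 K F :=
  QuotientAddGroup.map _ _ (h52_degZeroPush ψ hψ) (by
    rintro ⟨D, hD0⟩ hD
    simp only [AddSubgroup.mem_addSubgroupOf] at hD ⊢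
    exact Divisor.isPrincipal_pushforwardAlong ψ hψ hfin hN hD)

theorem h52_pic0Push_mk (D : Divisor.degZero (K := K) (F := F')) :
    h52_pic0Push ψ hψ hfin hN (Pic0.mk D) = Pic0.mk (h52_degZeroPush ψ hψ D) :=
  rfl

/-- the kernel of the push-forward on `Pic0`: classes with a representative whose push-forward
is principal (equivalently: all representatives). -/
theorem h52_pic0Push_eq_zero_iff (D : Divisor.degZero (K := K) (F := F')) :
    h52_pic0Push ψ hψ hfin hN (Pic0.mk D) = 0 ↔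
      (Divisor.pushforwardAlong ψ hψ (D : Divisor K F')).IsPrincipal := by
  rw [h52_pic0Push_mk]
  constructor
  · intro h
    have h1 : h52_degZeroPush ψ hψ D ∈
        (Divisor.principal (K := K) (F := F)).addSubgroupOf
          (Divisor.degZero (K := K) (F := F)) :=
      (QuotientAddGroup.eq_zero_iff _).mp h
    exact Divisor.mem_principal.mp (AddSubgroup.mem_addSubgroupOf.mp h1)
  · intro h
    refine (QuotientAddGroup.eq_zero_iff _).mpr ?_
    exact AddSubgroup.mem_addSubgroupOf.mpr (Divisor.mem_principal.mpr h)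

/-- **The push-forward on `Pic0` is equivariant** for intertwined semilinear automorphisms. -/
theorem h52_pic0Push_smul {g : SemilinearAut K F} {g' : SemilinearAut K F'}
    (h : SemilinearAut.IntertwinesAlong (ψ : F →+* F') g g') (x : Pic0 K F') :
    h52_pic0Push ψ hψ hfin hN (g' • x) = g • h52_pic0Push ψ hψ hfin hN x := by
  obtain ⟨D, rfl⟩ := Pic0.mk_surjective x
  rw [SemilinearAut.pic0_smul_mk, h52_pic0Push_mk, h52_pic0Push_mk, SemilinearAut.pic0_smul_mk]
  refine congrArg Pic0.mk (Subtype.ext ?_)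
  rw [h52_coe_degZeroPush, SemilinearAut.coe_degZeroSMulHom, SemilinearAut.coe_degZeroSMulHom,
    h52_coe_degZeroPush, h67_pushforwardAlong_smul ψ hψ h]

end Generic

/-! ## The two degeneracy maps on `JZero` -/

section Modular

variable (N q : ℕ) [NeZero N] [NeZero q]

/-- the norm formula along `α` (any `N`, `q`) -/
theorem h52_NF_alpha :
    NormFormulaAlong Qb (heckeAlphaBar Qb N q) (h88_finiteAlong_alpha N q) := by
  letI := algebraAlong (heckeAlphaBar Qb N q)
  haveI := isScalarTower_along (heckeAlphaBar Qb N q)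
  haveI : FiniteDimensional (modularFunctionFieldBar N) (modularFunctionFieldBar (N * q)) :=
    h88_finiteAlong_alpha N q
  exact h85_NF (h88_isFF N)

/-- the norm formula along `β` (any `N`, `q`) -/
theorem h52_NF_beta :
    NormFormulaAlong Qb (heckeBetaBar Qb N q) (h88_finiteAlong_beta N q) := by
  letI := algebraAlong (heckeBetaBar Qb N q)
  haveI := isScalarTower_along (heckeBetaBar Qb N q)
  haveI : FiniteDimensional (modularFunctionFieldBar N) (modularFunctionFieldBar (N * q)) :=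
    h88_finiteAlong_beta N q
  exact h85_NF (h88_isFF N)

/-- **`α_* : J₀(N q) → J₀(N)`**, the push-forward of divisor classes along `heckeAlphaBar`. -/
def h52_pushAlpha : JZero (N * q) →+ JZero N :=
  h52_pic0Push (heckeAlphaBar Qb N q) (h88_alphaIntegral N q) (h88_finiteAlong_alpha N q)
    (h52_NF_alpha N q)

/-- **`β_* : J₀(N q) → J₀(N)`**, the push-forward of divisor classes along `heckeBetaBar`. -/
def h52_pushBeta : JZero (N * q) →+ JZero N :=
  h52_pic0Push (heckeBetaBar Qb N q) (h88_betaIntegral N q) (h88_finiteAlong_beta N q)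
    (h52_NF_beta N q)

theorem h52_pushAlpha_mk
    (D : Divisor.degZero (K := Qb) (F := modularFunctionFieldBar (N * q))) :
    h52_pushAlpha N q (Pic0.mk D) =
      Pic0.mk ⟨Divisor.pushforwardAlong (heckeAlphaBar Qb N q) (h88_alphaIntegral N q)
          (D : Divisor Qb (modularFunctionFieldBar (N * q))),
        Divisor.pushforwardAlong_mem_degZero _ _ D.2⟩ :=
  rfl

theorem h52_pushBeta_mk
    (D : Divisor.degZero (K := Qb) (F := modularFunctionFieldBar (N * q))) :
    h52_pushBeta N q (Pic0.mk D) =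
      Pic0.mk ⟨Divisor.pushforwardAlong (heckeBetaBar Qb N q) (h88_betaIntegral N q)
          (D : Divisor Qb (modularFunctionFieldBar (N * q))),
        Divisor.pushforwardAlong_mem_degZero _ _ D.2⟩ :=
  rfl

theorem h52_pushAlpha_eq_zero_iff
    (D : Divisor.degZero (K := Qb) (F := modularFunctionFieldBar (N * q))) :
    h52_pushAlpha N q (Pic0.mk D) = 0 ↔
      (Divisor.pushforwardAlong (heckeAlphaBar Qb N q) (h88_alphaIntegral N q)
        (D : Divisor Qb (modularFunctionFieldBar (N * q)))).IsPrincipal :=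
  h52_pic0Push_eq_zero_iff _ _ _ _ D

theorem h52_pushBeta_eq_zero_iff
    (D : Divisor.degZero (K := Qb) (F := modularFunctionFieldBar (N * q))) :
    h52_pushBeta N q (Pic0.mk D) = 0 ↔
      (Divisor.pushforwardAlong (heckeBetaBar Qb N q) (h88_betaIntegral N q)
        (D : Divisor Qb (modularFunctionFieldBar (N * q)))).IsPrincipal :=
  h52_pic0Push_eq_zero_iff _ _ _ _ D

/-- **The `q`-new classes of S35 are the common kernel of `α_*` and `β_*`.** -/
theorem h52_jnew_iff (x : JZero (N * q)) :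
    h67_Jnew N q x ↔ h52_pushAlpha N q x = 0 ∧ h52_pushBeta N q x = 0 := by
  constructor
  · rintro ⟨D, rfl, h⟩
    exact ⟨(h52_pushAlpha_eq_zero_iff N q D).mpr (h67_divNew_alpha h _),
      (h52_pushBeta_eq_zero_iff N q D).mpr (h67_divNew_beta h _)⟩
  · rintro ⟨h1, h2⟩
    obtain ⟨D, rfl⟩ := Pic0.mk_surjective x
    exact ⟨D, rfl, h67_divNew_intro _ _ ((h52_pushAlpha_eq_zero_iff N q D).mp h1)
      ((h52_pushBeta_eq_zero_iff N q D).mp h2)⟩

/-- **`α_*` is Galois-equivariant.** -/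
theorem h52_pushAlpha_smul (σ : Γℚ) (x : JZero (N * q)) :
    h52_pushAlpha N q (σ • x) = σ • h52_pushAlpha N q x := by
  rw [galois_smul_pic0_def, galois_smul_pic0_def]
  exact h52_pic0Push_smul _ _ _ _ (h67_intertwines_alpha N q σ) x

/-- **`β_*` is Galois-equivariant.** -/
theorem h52_pushBeta_smul (σ : Γℚ) (x : JZero (N * q)) :
    h52_pushBeta N q (σ • x) = σ • h52_pushBeta N q x := by
  rw [galois_smul_pic0_def, galois_smul_pic0_def]
  exact h52_pic0Push_smul _ _ _ _ (h67_intertwines_beta N q σ) x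

end Modular

/-! ## Eichler–Shimura on torsion and Hecke-equivariance of the degeneracy maps -/

section ES

/-- **Eichler–Shimura on torsion, pointwise form**: for `ℓ ∤ N m`, a Frobenius element `σ` at
`ℓ` and an `m`-torsion class `x` of `J₀(N)`:  `T_ℓ x = σ x + ℓ σ⁻¹ x`. -/
theorem h52_es (N : ℕ) [NeZero N] (m : ℕ) (ℓ : ℕ) (hℓ : ℓ.Prime) (hℓN : ¬ ℓ ∣ N * m)
    (A : ValuationSubring Qb) (hA : A.LiesOverPrime ℓ) (σ : Γℚ) (hσ : A.IsFrobeniusAt σ ℓ)
    (x : JZero N) (hx : m • x = 0) :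
    heckeOperatorBar N ⟨ℓ, hℓ⟩ x = σ • x + ℓ • σ⁻¹ • x := by
  obtain ⟨Jbar, _, red, φ, hI, hF, hT, hinj⟩ := h60_redData N m ℓ hℓ hℓN A hA
  have h1 : red (σ⁻¹ • x) = φ.symm (red x) := by
    rw [AddEquiv.eq_symm_apply, ← hF σ hσ, smul_inv_smul]
  have h2 : red (heckeOperatorBar N ⟨ℓ, hℓ⟩ x - (σ • x + ℓ • σ⁻¹ • x)) = 0 := by
    rw [map_sub, map_add, map_nsmul, hT, hF σ hσ, h1, sub_self]
  have hσm : ∀ (τ : Γℚ) (y : JZero N), m • y = 0 → m • (τ • y) = 0 := by
    intro τ y hy
    have e := map_nsmul (DistribSMul.toAddMonoidHom (JZero N) τ) m y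
    simp only [DistribSMul.toAddMonoidHom_apply] at e
    rw [← e, hy, smul_zero]
  have a1 : m • heckeOperatorBar N ⟨ℓ, hℓ⟩ x = 0 := by rw [← map_nsmul, hx, map_zero]
  have a2 : m • (σ • x) = 0 := hσm σ x hx
  have a3 : m • (ℓ • σ⁻¹ • x) = 0 := by
    rw [← mul_nsmul', mul_comm, mul_nsmul', hσm σ⁻¹ x hx, nsmul_zero]
  have h3 : m ^ 1 • (heckeOperatorBar N ⟨ℓ, hℓ⟩ x - (σ • x + ℓ • σ⁻¹ • x)) = 0 := by
    rw [pow_one, nsmul_sub, nsmul_add, a1, a2, a3, add_zero, sub_zero]
  exact sub_eq_zero.mp (hinj _ ⟨1, h3⟩ h2)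

variable (N q : ℕ) [NeZero N] [NeZero q]

/-- **`α_*` commutes with `T_ℓ` on `m`-torsion**, `ℓ ∤ N q m`. -/
theorem h52_pushAlpha_hecke (m : ℕ) (ℓ : Nat.Primes) (hℓ : ¬ (ℓ : ℕ) ∣ N * q * m)
    (x : JZero (N * q)) (hx : m • x = 0) :
    h52_pushAlpha N q (heckeOperatorBar (N * q) ℓ x) =
      heckeOperatorBar N ℓ (h52_pushAlpha N q x) := by
  obtain ⟨A, σ, hA, hσ⟩ := Fermat.Agent.S54.exists_isFrobeniusAt ℓ ℓ.2
  have hℓN : ¬ (ℓ : ℕ) ∣ N * m := fun h => hℓ (by
    obtain ⟨c, hc⟩ := h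
    exact ⟨c * q, by rw [show N * q * m = N * m * q by ring, hc]; ring⟩)
  have h1 : heckeOperatorBar (N * q) ℓ x = σ • x + (ℓ : ℕ) • σ⁻¹ • x :=
    h52_es (N * q) m ℓ ℓ.2 hℓ A hA σ hσ x hx
  have h2 : heckeOperatorBar N ℓ (h52_pushAlpha N q x) =
      σ • h52_pushAlpha N q x + (ℓ : ℕ) • σ⁻¹ • h52_pushAlpha N q x :=
    h52_es N m ℓ ℓ.2 hℓN A hA σ hσ (h52_pushAlpha N q x)
      (by rw [← map_nsmul, hx, map_zero])
  rw [h1, h2, map_add, map_nsmul, h52_pushAlpha_smul, h52_pushAlpha_smul]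

/-- **`β_*` commutes with `T_ℓ` on `m`-torsion**, `ℓ ∤ N q m`. -/
theorem h52_pushBeta_hecke (m : ℕ) (ℓ : Nat.Primes) (hℓ : ¬ (ℓ : ℕ) ∣ N * q * m)
    (x : JZero (N * q)) (hx : m • x = 0) :
    h52_pushBeta N q (heckeOperatorBar (N * q) ℓ x) =
      heckeOperatorBar N ℓ (h52_pushBeta N q x) := by
  obtain ⟨A, σ, hA, hσ⟩ := Fermat.Agent.S54.exists_isFrobeniusAt ℓ ℓ.2
  have hℓN : ¬ (ℓ : ℕ) ∣ N * m := fun h => hℓ (by
    obtain ⟨c, hc⟩ := h
    exact ⟨c * q, by rw [show N * q * m = N * m * q by ring, hc]; ring⟩)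
  have h1 : heckeOperatorBar (N * q) ℓ x = σ • x + (ℓ : ℕ) • σ⁻¹ • x :=
    h52_es (N * q) m ℓ ℓ.2 hℓ A hA σ hσ x hx
  have h2 : heckeOperatorBar N ℓ (h52_pushBeta N q x) =
      σ • h52_pushBeta N q x + (ℓ : ℕ) • σ⁻¹ • h52_pushBeta N q x :=
    h52_es N m ℓ ℓ.2 hℓN A hA σ hσ (h52_pushBeta N q x)
      (by rw [← map_nsmul, hx, map_zero])
  rw [h1, h2, map_add, map_nsmul, h52_pushBeta_smul, h52_pushBeta_smul]

end ES

/-! ## The `q`-new subgroup, the pair map, and the torsion-restricted forms -/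

section Tors

variable (N q : ℕ) [NeZero N] [NeZero q]

/-- the pair `(α_*, β_*) : J₀(N q) → J₀(N) × J₀(N)` -/
def h52_pushPair : JZero (N * q) →+ JZero N × JZero N :=
  (h52_pushAlpha N q).prod (h52_pushBeta N q)

theorem h52_pushPair_apply (x : JZero (N * q)) :
    h52_pushPair N q x = (h52_pushAlpha N q x, h52_pushBeta N q x) :=
  rfl

/-- the `q`-new classes as a subgroup: the common kernel of `α_*` and `β_*` -/
def h52_new : AddSubgroup (JZero (N * q)) :=
  (h52_pushAlpha N q).ker ⊓ (h52_pushBeta N q).ker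

theorem h52_mem_new (x : JZero (N * q)) : x ∈ h52_new N q ↔ h67_Jnew N q x := by
  rw [h52_jnew_iff]
  exact Iff.rfl

theorem h52_mem_new' (x : JZero (N * q)) :
    x ∈ h52_new N q ↔ h52_pushAlpha N q x = 0 ∧ h52_pushBeta N q x = 0 :=
  Iff.rfl

theorem h52_pushPair_ker : (h52_pushPair N q).ker = h52_new N q := by
  ext x
  rw [AddMonoidHom.mem_ker, h52_pushPair_apply, Prod.mk_eq_zero]
  exact Iff.rfl

/-- the new classes are Galois-stable -/
theorem h52_new_smul (σ : Γℚ) {x : JZero (N * q)} (hx : x ∈ h52_new N q) :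
    σ • x ∈ h52_new N q := by
  obtain ⟨h1, h2⟩ := (h52_mem_new' N q x).mp hx
  refine (h52_mem_new' N q _).mpr ⟨?_, ?_⟩
  · rw [h52_pushAlpha_smul, h1]
    exact smul_zero (A := JZero N) σ
  · rw [h52_pushBeta_smul, h2]
    exact smul_zero (A := JZero N) σ

/-- the new `m`-torsion classes are stable under `T_ℓ`, `ℓ ∤ N q m` -/
theorem h52_new_hecke (m : ℕ) (ℓ : Nat.Primes) (hℓ : ¬ (ℓ : ℕ) ∣ N * q * m)
    {x : JZero (N * q)} (hx : x ∈ h52_new N q) (hm : m • x = 0) :
    heckeOperatorBar (N * q) ℓ x ∈ h52_new N q := by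
  obtain ⟨h1, h2⟩ := (h52_mem_new' N q x).mp hx
  refine (h52_mem_new' N q _).mpr ⟨?_, ?_⟩
  · rw [h52_pushAlpha_hecke N q m ℓ hℓ x hm, h1, map_zero]
  · rw [h52_pushBeta_hecke N q m ℓ hℓ x hm, h2, map_zero]

variable (m : ℕ)

/-- `α_*` on `m`-torsion, in the `h65_tors` shape of the GAL layer -/
def h52_pushAlphaTors : ↥(h65_tors (JZero (N * q)) m) →+ ↥(h65_tors (JZero N) m) where
  toFun x := ⟨h52_pushAlpha N q (x : JZero (N * q)), by
    show m • h52_pushAlpha N q (x : JZero (N * q)) = 0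
    rw [← map_nsmul, (x.2 : m • (x : JZero (N * q)) = 0), map_zero]⟩
  map_zero' := Subtype.ext (map_zero (h52_pushAlpha N q))
  map_add' x y := Subtype.ext (map_add (h52_pushAlpha N q) (x : JZero (N * q)) y)

/-- `β_*` on `m`-torsion, in the `h65_tors` shape of the GAL layer -/
def h52_pushBetaTors : ↥(h65_tors (JZero (N * q)) m) →+ ↥(h65_tors (JZero N) m) where
  toFun x := ⟨h52_pushBeta N q (x : JZero (N * q)), by
    show m • h52_pushBeta N q (x : JZero (N * q)) = 0
    rw [← map_nsmul, (x.2 : m • (x : JZero (N * q)) = 0), map_zero]⟩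
  map_zero' := Subtype.ext (map_zero (h52_pushBeta N q))
  map_add' x y := Subtype.ext (map_add (h52_pushBeta N q) (x : JZero (N * q)) y)

theorem h52_pushAlphaTors_coe (x : ↥(h65_tors (JZero (N * q)) m)) :
    ((h52_pushAlphaTors N q m x : ↥(h65_tors (JZero N) m)) : JZero N) =
      h52_pushAlpha N q (x : JZero (N * q)) :=
  rfl

theorem h52_pushBetaTors_coe (x : ↥(h65_tors (JZero (N * q)) m)) :
    ((h52_pushBetaTors N q m x : ↥(h65_tors (JZero N) m)) : JZero N) =
      h52_pushBeta N q (x : JZero (N * q)) :=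
  rfl

/-- Galois-equivariance on torsion -/
theorem h52_pushAlphaTors_rep (σ : Γℚ) (x : ↥(h65_tors (JZero (N * q)) m)) :
    h52_pushAlphaTors N q m (h65_torsRep Γℚ (JZero (N * q)) m σ x) =
      h65_torsRep Γℚ (JZero N) m σ (h52_pushAlphaTors N q m x) :=
  Subtype.ext (h52_pushAlpha_smul N q σ (x : JZero (N * q)))

theorem h52_pushBetaTors_rep (σ : Γℚ) (x : ↥(h65_tors (JZero (N * q)) m)) :
    h52_pushBetaTors N q m (h65_torsRep Γℚ (JZero (N * q)) m σ x) =
      h65_torsRep Γℚ (JZero N) m σ (h52_pushBetaTors N q m x) :=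
  Subtype.ext (h52_pushBeta_smul N q σ (x : JZero (N * q)))

/-- Hecke-equivariance on torsion, `ℓ ∤ N q m` -/
theorem h52_pushAlphaTors_hecke (ℓ : Nat.Primes) (hℓ : ¬ (ℓ : ℕ) ∣ N * q * m)
    (x : ↥(h65_tors (JZero (N * q)) m)) :
    h52_pushAlphaTors N q m (h65_torsEnd m (heckeOperatorBar (N * q) ℓ).toAddMonoidHom x) =
      h65_torsEnd m (heckeOperatorBar N ℓ).toAddMonoidHom (h52_pushAlphaTors N q m x) :=
  Subtype.ext (h52_pushAlpha_hecke N q m ℓ hℓ (x : JZero (N * q)) x.2)

theorem h52_pushBetaTors_hecke (ℓ : Nat.Primes) (hℓ : ¬ (ℓ : ℕ) ∣ N * q * m)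
    (x : ↥(h65_tors (JZero (N * q)) m)) :
    h52_pushBetaTors N q m (h65_torsEnd m (heckeOperatorBar (N * q) ℓ).toAddMonoidHom x) =
      h65_torsEnd m (heckeOperatorBar N ℓ).toAddMonoidHom (h52_pushBetaTors N q m x) :=
  Subtype.ext (h52_pushBeta_hecke N q m ℓ hℓ (x : JZero (N * q)) x.2)

/-- the kernel of the pair on torsion is the new torsion -/
theorem h52_pushTors_ker (x : ↥(h65_tors (JZero (N * q)) m)) :
    (h52_pushAlphaTors N q m x = 0 ∧ h52_pushBetaTors N q m x = 0) ↔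
      h67_Jnew N q (x : JZero (N * q)) := by
  rw [h52_jnew_iff]
  constructor
  · rintro ⟨h1, h2⟩
    exact ⟨congrArg Subtype.val h1, congrArg Subtype.val h2⟩
  · rintro ⟨h1, h2⟩
    exact ⟨Subtype.ext h1, Subtype.ext h2⟩

end Tors

end Fermat.Agent.S33
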