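import Mathlib
import Fermat.Agent.S35.h29_GeomFinal
import Fermat.Agent.S19.h54_LvlInj
import Fermat.Agent.S37.h60_RedInj

/-!
# S33: auxiliary-level descent of the new-part input (helper70)

The geometric foundation (two reductions of `X₀(M p)` at `p`) exists at the levels `M p` with
`5 ≤ p`, or `2 ∣ M`, or `3 ∣ M`.  For `p = 3` and `M` odd we raise the level by the auxiliary
prime `2`.  The level map `π^* : J₀(N) → J₀(N c)` is additive, Galois-equivariant, injective on
torsion of ANY order (`h54_lvl_inj`) and maps `p`-new torsion classes to `p`-new classes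
(`h29_pullNew`), so the descent loses nothing.

* `h70_aux_package` : the level map with these four properties;
* `h70_NewMin L p A σ0` : the new-part input of S33 at level `L`: a `p`-new class `z` killed by
  `p`, fixed by `σ0`, lying in `(I_A - 1) J₀(L)[p^∞]`, is zero;
* `h70_newMin_descent` : `h70_NewMin (N p c) → h70_NewMin (N p)`;
* `h70_newMin_of_charted` : `h70_NewMin` at all levels `N`, `p ∥ N`, from the charted levels.
-/

set_option autoImplicit false
set_option synthInstance.maxHeartbeats 400000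

noncomputable section

open ModularCurve AlgebraicCurve

namespace Fermat.Agent.S33

open Fermat.Agent.S37 Fermat.Agent.S19 Fermat.Agent.S35

local notation "Qb" => AlgebraicClosure ℚ
local notation "Γℚ" => (AlgebraicClosure ℚ ≃ₐ[ℚ] AlgebraicClosure ℚ)

/-- **The auxiliary level map.** For primes `q ∤ N` and `c ∤ N q` the pull-back
`J₀(N q) → J₀(N q c)` is injective on torsion, Galois-equivariant and preserves `q`-new torsion
classes. -/
theorem h70_aux_package (N q c : ℕ) [NeZero N] [NeZero q] [NeZero c] (hq : q.Prime)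
    (hqN : ¬ q ∣ N) (hc : c.Prime) (hcNq : ¬ c ∣ N * q) :
    ∃ φ : JZero (N * q) →+ JZero (N * q * c),
      (∀ n : ℕ, 0 < n → ∀ x : JZero (N * q), n • x = 0 → φ x = 0 → x = 0) ∧
      (∀ (σ : Γℚ) (x : JZero (N * q)), φ (σ • x) = σ • φ x) ∧
      (∀ n : ℕ, 0 < n → ∀ x : JZero (N * q), n • x = 0 → h67_Jnew N q x →
        h67_JnewAt (N * q * c) q (φ x)) := by
  haveI : HasPrincipalDivisors Qb (modularFunctionFieldBar (N * q * c)) :=
    h88_hasPrincipalDivisors (N * q * c)
  have hα := h88_alphaIntegral (N * q) c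
  have hFI := h60_FI_alpha (N * q) c
  refine ⟨h87_pullPic0 (heckeAlphaBar Qb (N * q) c) hα hFI,
    fun n hn x hx h0 => h54_lvl_inj (N * q) c hα hFI hc hcNq n hn x hx h0,
    fun σ x => h54_pull_galois (N * q) c hα hFI σ x,
    fun n hn x hx hnew => h29_pullNew N q c hq hqN hc hcNq hα hFI n hn x hx hnew⟩

/-- The subgroup `(I_A - 1) J₀(L)[p^∞]`: generated by the `τ y - y`, `τ` in the inertia group of
`A`, `y` of `p`-power order. -/
def h70_IAug (L p : ℕ) (A : ValuationSubring Qb) : AddSubgroup (JZero L) :=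
  AddSubgroup.closure {w : JZero L | ∃ τ ∈ A.inertiaSubgroupIn ℚ, ∃ (y : JZero L) (n : ℕ),
    p ^ n • y = 0 ∧ w = τ • y - y}

theorem h70_mem_IAug {L p : ℕ} {A : ValuationSubring Qb} {τ : Γℚ}
    (hτ : τ ∈ A.inertiaSubgroupIn ℚ) (y : JZero L) (n : ℕ) (hy : p ^ n • y = 0) :
    τ • y - y ∈ h70_IAug L p A :=
  AddSubgroup.subset_closure ⟨τ, hτ, y, n, hy, rfl⟩

/-- **The new-part input of S33 at level `L`** (for a place `A` and an element `σ0`): a `p`-new
class killed by `p`, fixed by `σ0` and lying in `(I_A - 1) J₀(L)[p^∞]` vanishes. -/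
def h70_NewMin (L p : ℕ) [NeZero p] (A : ValuationSubring Qb) (σ0 : Γℚ) : Prop :=
  ∀ z : JZero L, p • z = 0 → h67_JnewAt L p z → σ0 • z = z → z ∈ h70_IAug L p A → z = 0

/-- transport of the input along an equality of levels. -/
theorem h70_newMin_congr {L L' : ℕ} (p : ℕ) [NeZero p] (A : ValuationSubring Qb) (σ0 : Γℚ)
    (hL : L = L') (h : h70_NewMin L p A σ0) : h70_NewMin L' p A σ0 := by
  subst hL
  exact h

/-- an additive Galois-equivariant map preserving `p`-power torsion maps `(I_A - 1) J[p^∞]`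
into `(I_A - 1) J[p^∞]`. -/
theorem h70_map_IAug {L L' p : ℕ} (A : ValuationSubring Qb) (φ : JZero L →+ JZero L')
    (hφ : ∀ (σ : Γℚ) (x : JZero L), φ (σ • x) = σ • φ x) {z : JZero L}
    (hz : z ∈ h70_IAug L p A) : φ z ∈ h70_IAug L' p A := by
  unfold h70_IAug at hz
  induction hz using AddSubgroup.closure_induction with
  | mem w hw =>
    obtain ⟨τ, hτ, y, n, hy, rfl⟩ := hw
    rw [map_sub, hφ]
    exact h70_mem_IAug hτ (φ y) n (by rw [← map_nsmul, hy, map_zero])
  | zero => rw [map_zero]; exact AddSubgroup.zero_mem _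
  | add a b _ _ ha hb => rw [map_add]; exact AddSubgroup.add_mem _ ha hb
  | neg a _ ha => rw [map_neg]; exact AddSubgroup.neg_mem _ ha

/-- **One step of the descent**: the input at level `N p c` gives the input at level `N p`. -/
theorem h70_newMin_descent (N p c : ℕ) [NeZero N] [NeZero p] [NeZero c] (hp : p.Prime)
    (hpN : ¬ p ∣ N) (hc : c.Prime) (hcNp : ¬ c ∣ N * p) (A : ValuationSubring Qb) (σ0 : Γℚ)
    (h : h70_NewMin (N * p * c) p A σ0) : h70_NewMin (N * p) p A σ0 := by
  obtain ⟨φ, hinj, hgal, hnew⟩ := h70_aux_package N p c hp hpN hc hcNp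
  intro z hpz hz hσ hI
  have hz' : h67_Jnew N p z := (h67_jnewAt_iff N p z).1 hz
  refine hinj p hp.pos z hpz (h (φ z) ?_ (hnew p hp.pos z hpz hz') ?_ (h70_map_IAug A φ hgal hI))
  · rw [← map_nsmul, hpz, map_zero]
  · rw [← hgal, hσ]

/-- **The new-part input at all levels `N`, `p ∥ N`, from the charted levels.** -/
theorem h70_newMin_of_charted (p : ℕ) [NeZero p] (hp : p.Prime) (A : ValuationSubring Qb)
    (σ0 : Γℚ)
    (hmain : ∀ (M : ℕ) [NeZero M], ¬ p ∣ M → (5 ≤ p ∨ 2 ∣ M ∨ 3 ∣ M) →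
      h70_NewMin (M * p) p A σ0)
    (N : ℕ) [NeZero N] (hpN : p ∣ N) (hp2 : ¬ p ^ 2 ∣ N) : h70_NewMin N p A σ0 := by
  haveI : Fact p.Prime := ⟨hp⟩
  obtain ⟨M, hM⟩ := hpN
  have hM' : N = M * p := by rw [hM, mul_comm]
  have hM0 : M ≠ 0 := by
    rintro rfl
    rw [zero_mul] at hM'
    exact NeZero.ne N hM'
  haveI : NeZero M := ⟨hM0⟩
  have hpM : ¬ p ∣ M := by
    rintro ⟨M', rfl⟩
    apply hp2
    rw [hM]
    exact ⟨M', by ring⟩
  refine h70_newMin_congr p A σ0 hM'.symm ?_
  rcases h60_lvl_cases M p hpM with ⟨hch, -⟩ | ⟨h3, h2M, -⟩ | ⟨h2, h3M, -⟩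
  · exact hmain M hpM hch
  · -- `p = 3`, auxiliary prime `2`
    have hc : ¬ 2 ∣ M * p := by
      intro h
      rcases (Nat.Prime.dvd_mul Nat.prime_two).1 h with h' | h'
      · exact h2M h'
      · rw [h3] at h'
        omega
    have hpM2 : ¬ p ∣ M * 2 := by
      intro h
      rcases (Nat.Prime.dvd_mul hp).1 h with h' | h'
      · exact hpM h'
      · rw [h3] at h'
        omega
    refine h70_newMin_descent M p 2 hp hpM Nat.prime_two hc A σ0 ?_
    refine h70_newMin_congr p A σ0 (by ring : M * 2 * p = M * p * 2) ?_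
    exact hmain (M * 2) hpM2 (Or.inr (Or.inl (Dvd.intro_left M rfl)))
  · -- `p = 2`, auxiliary prime `3`
    have hc : ¬ 3 ∣ M * p := by
      intro h
      rcases (Nat.Prime.dvd_mul Nat.prime_three).1 h with h' | h'
      · exact h3M h'
      · rw [h2] at h'
        omega
    have hpM3 : ¬ p ∣ M * 3 := by
      intro h
      rcases (Nat.Prime.dvd_mul hp).1 h with h' | h'
      · exact hpM h'
      · rw [h2] at h'
        omega
    refine h70_newMin_descent M p 3 hp hpM Nat.prime_three hc A σ0 ?_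
    refine h70_newMin_congr p A σ0 (by ring : M * 3 * p = M * p * 3) ?_
    exact hmain (M * 3) hpM3 (Or.inr (Or.inr (Dvd.intro_left M rfl)))

end Fermat.Agent.S33

end
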