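import Mathlib
import Fermat.Agent.S33.h52_Degen
import Fermat.Agent.S33.h24_NoTrivPair
import Fermat.Agent.S33.h70_AuxLevel
import Fermat.Agent.S33.h9_GeomStmt

/-!
# S33 (helper52): the JZero-level split datum at level `M p`

From

* a subgroup `K ≤ J₀(M)` ("kernel of reduction" of the S19 order at level `M`) containing
  `σ y - y` for `σ` in the inertia group `I_A` and `y ∈ J₀(M)[p^n]`, with no `I_A`-trivial
  quotient (`h24_NoTriv`; the output of CRUX at level `M`), and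
* the new-part input `h70_NewMin (M * p) p A σ0` (the output of N-min),

we produce, on `J₀(M p)[p^n]` (in the `h65_tors` / `h65_torsRep` shape of the GAL layer), the
two subgroups

* `Ynew := ker α_* ⊓ ker β_*` (the `p`-new classes) and
* `X0 := (α_*)⁻¹ K ⊓ (β_*)⁻¹ K`

with the five clauses consumed by the split count (`h52_geom_inst`), and the same at every level
`N` with `p ∥ N` (`h52_geom_inst_N`).
-/

set_option autoImplicit false
set_option linter.unusedSectionVars false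
set_option linter.style.haveILetI false

noncomputable section

namespace Fermat.Agent.S33

open AlgebraicCurve ModularCurve
open Fermat.Agent.GAL Fermat.Agent.S35

local notation "Qb" => AlgebraicClosure ℚ
local notation "Γℚ" => (AlgebraicClosure ℚ ≃ₐ[ℚ] AlgebraicClosure ℚ)

/-- the five clauses of the split datum on `J₀(L)[p^n]` for the inertia group of `A` and `σ0` -/
def h52_SplitDatum (L p n : ℕ) (A : ValuationSubring Qb) (σ0 : Γℚ)
    (Ynew X0 : AddSubgroup ↥(h65_tors (JZero L) (p ^ n))) : Prop :=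
  (∀ g : Γℚ, ∀ y ∈ Ynew, h65_torsRep Γℚ (JZero L) (p ^ n) g y ∈ Ynew) ∧
  Ynew ≤ X0 ∧
  (∀ σ ∈ A.inertiaSubgroupIn ℚ, ∀ y : ↥(h65_tors (JZero L) (p ^ n)),
    h65_torsRep Γℚ (JZero L) (p ^ n) σ y - y ∈ X0) ∧
  (∀ z ∈ Ynew, p • z = 0 → h65_torsRep Γℚ (JZero L) (p ^ n) σ0 z = z →
    z ∈ AddSubgroup.closure {w : ↥(h65_tors (JZero L) (p ^ n)) |
      ∃ σ ∈ A.inertiaSubgroupIn ℚ, ∃ y : ↥(h65_tors (JZero L) (p ^ n)),
        w = h65_torsRep Γℚ (JZero L) (p ^ n) σ y - y} → z = 0) ∧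
  (∀ X' Z : AddSubgroup ↥(h65_tors (JZero L) (p ^ n)), Ynew ≤ Z → X' ≤ X0 →
    (∀ σ ∈ A.inertiaSubgroupIn ℚ, ∀ v ∈ X', h65_torsRep Γℚ (JZero L) (p ^ n) σ v ∈ X') →
    (∀ σ ∈ A.inertiaSubgroupIn ℚ, ∀ v ∈ X', h65_torsRep Γℚ (JZero L) (p ^ n) σ v - v ∈ Z) →
    X' ≤ Z)

/-- transport of the split datum along an equality of levels -/
theorem h52_splitDatum_congr {L L' : ℕ} (hL : L = L') (p n : ℕ) (A : ValuationSubring Qb)
    (σ0 : Γℚ)
    (h : ∃ Ynew X0 : AddSubgroup ↥(h65_tors (JZero L) (p ^ n)), h52_SplitDatum L p n A σ0 Ynew X0) :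
    ∃ Ynew X0 : AddSubgroup ↥(h65_tors (JZero L') (p ^ n)),
      h52_SplitDatum L' p n A σ0 Ynew X0 := by
  subst hL
  exact h

section inst

variable (M p : ℕ) [NeZero M] [NeZero p] (n : ℕ)

/-- the inclusion of the torsion, as a hom -/
def h52_torsIncl (L m : ℕ) : ↥(h65_tors (JZero L) m) →+ JZero L :=
  (h65_tors (JZero L) m).subtype

theorem h52_torsIncl_apply (L m : ℕ) (x : ↥(h65_tors (JZero L) m)) :
    h52_torsIncl L m x = (x : JZero L) := rfl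

/-- `(I_A - 1) J₀(L)[p^n]`, computed inside the torsion, lies in `h70_IAug`. -/
theorem h52_closure_mem_IAug (L : ℕ) (A : ValuationSubring Qb)
    {z : ↥(h65_tors (JZero L) (p ^ n))}
    (hz : z ∈ AddSubgroup.closure {w : ↥(h65_tors (JZero L) (p ^ n)) |
      ∃ σ ∈ A.inertiaSubgroupIn ℚ, ∃ y : ↥(h65_tors (JZero L) (p ^ n)),
        w = h65_torsRep Γℚ (JZero L) (p ^ n) σ y - y}) :
    (z : JZero L) ∈ h70_IAug L p A := by
  induction hz using AddSubgroup.closure_induction with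
  | mem w hw =>
    obtain ⟨σ, hσ, y, rfl⟩ := hw
    rw [AddSubgroup.coe_sub, h65_torsRep_coe]
    exact h70_mem_IAug hσ (y : JZero L) n y.2
  | zero => exact AddSubgroup.zero_mem _
  | add a b _ _ ha hb => rw [AddSubgroup.coe_add]; exact AddSubgroup.add_mem _ ha hb
  | neg a _ ha => rw [AddSubgroup.coe_neg]; exact AddSubgroup.neg_mem _ ha

/-- **The split datum at level `M p`** from the old-part subgroup `K` at level `M` and the
new-part input at level `M p`. -/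
theorem h52_geom_inst (A : ValuationSubring Qb) (σ0 : Γℚ)
    (K : AddSubgroup (JZero M))
    (hK1 : ∀ σ ∈ A.inertiaSubgroupIn ℚ, ∀ y : JZero M, ((p : ℤ) ^ n) • y = 0 → σ • y - y ∈ K)
    (hK2 : h24_NoTriv (fun (σ : ↥(A.inertiaSubgroupIn ℚ)) (y : JZero M) => (σ : Γℚ) • y) K)
    (hnew : h70_NewMin (M * p) p A σ0) :
    ∃ Ynew X0 : AddSubgroup ↥(h65_tors (JZero (M * p)) (p ^ n)),
      h52_SplitDatum (M * p) p n A σ0 Ynew X0 := by
  -- the two maps on the torsion, with values in `J₀(M)`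
  let f₁ : ↥(h65_tors (JZero (M * p)) (p ^ n)) →+ JZero M :=
    (h52_pushAlpha M p).comp (h52_torsIncl (M * p) (p ^ n))
  let f₂ : ↥(h65_tors (JZero (M * p)) (p ^ n)) →+ JZero M :=
    (h52_pushBeta M p).comp (h52_torsIncl (M * p) (p ^ n))
  have hf₁ : ∀ x, f₁ x = h52_pushAlpha M p (x : JZero (M * p)) := fun _ => rfl
  have hf₂ : ∀ x, f₂ x = h52_pushBeta M p (x : JZero (M * p)) := fun _ => rfl
  have hf₁σ : ∀ (σ : Γℚ) x, f₁ (h65_torsRep Γℚ (JZero (M * p)) (p ^ n) σ x) = σ • f₁ x :=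
    fun σ x => h52_pushAlpha_smul M p σ (x : JZero (M * p))
  have hf₂σ : ∀ (σ : Γℚ) x, f₂ (h65_torsRep Γℚ (JZero (M * p)) (p ^ n) σ x) = σ • f₂ x :=
    fun σ x => h52_pushBeta_smul M p σ (x : JZero (M * p))
  have htors₁ : ∀ x, ((p : ℤ) ^ n) • f₁ x = 0 := by
    intro x
    have h1 : (p ^ n) • f₁ x = 0 := by
      rw [hf₁, ← map_nsmul, (x.2 : (p ^ n) • (x : JZero (M * p)) = 0), map_zero]
    have h2 : ((p : ℤ) ^ n) = ((p ^ n : ℕ) : ℤ) := by push_cast; rfl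
    rw [h2, natCast_zsmul]
    exact h1
  have htors₂ : ∀ x, ((p : ℤ) ^ n) • f₂ x = 0 := by
    intro x
    have h1 : (p ^ n) • f₂ x = 0 := by
      rw [hf₂, ← map_nsmul, (x.2 : (p ^ n) • (x : JZero (M * p)) = 0), map_zero]
    have h2 : ((p : ℤ) ^ n) = ((p ^ n : ℕ) : ℤ) := by push_cast; rfl
    rw [h2, natCast_zsmul]
    exact h1
  have hzero : ∀ σ : Γℚ, σ • (0 : JZero M) = 0 := fun σ => smul_zero (A := JZero M) σ
  refine ⟨f₁.ker ⊓ f₂.ker, K.comap f₁ ⊓ K.comap f₂, ?_, ?_, ?_, ?_, ?_⟩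
  · -- Galois-stable
    intro g y hy
    obtain ⟨h1, h2⟩ := AddSubgroup.mem_inf.mp hy
    have h1' : f₁ y = 0 := h1
    have h2' : f₂ y = 0 := h2
    refine AddSubgroup.mem_inf.mpr ⟨?_, ?_⟩
    · show f₁ _ = 0
      rw [hf₁σ, h1', hzero]
    · show f₂ _ = 0
      rw [hf₂σ, h2', hzero]
  · -- Ynew ≤ X0
    intro y hy
    obtain ⟨h1, h2⟩ := AddSubgroup.mem_inf.mp hy
    have h1' : f₁ y = 0 := h1
    have h2' : f₂ y = 0 := h2
    refine AddSubgroup.mem_inf.mpr ⟨?_, ?_⟩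
    · show f₁ y ∈ K
      rw [h1']; exact K.zero_mem
    · show f₂ y ∈ K
      rw [h2']; exact K.zero_mem
  · -- (σ - 1) y ∈ X0
    intro σ hσ y
    refine AddSubgroup.mem_inf.mpr ⟨?_, ?_⟩
    · show f₁ _ ∈ K
      rw [map_sub, hf₁σ]
      exact hK1 σ hσ (f₁ y) (htors₁ y)
    · show f₂ _ ∈ K
      rw [map_sub, hf₂σ]
      exact hK1 σ hσ (f₂ y) (htors₂ y)
  · -- (h_new)
    intro z hz hpz hσz hcl
    obtain ⟨h1, h2⟩ := AddSubgroup.mem_inf.mp hz
    have h1' : h52_pushAlpha M p (z : JZero (M * p)) = 0 := h1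
    have h2' : h52_pushBeta M p (z : JZero (M * p)) = 0 := h2
    have hz0 : (z : JZero (M * p)) = 0 := by
      refine hnew (z : JZero (M * p)) ?_ ?_ ?_ ?_
      · have := congrArg (fun w : ↥(h65_tors (JZero (M * p)) (p ^ n)) => (w : JZero (M * p))) hpz
        simpa using this
      · exact (h67_jnewAt_iff M p _).mpr ((h52_jnew_iff M p _).mpr ⟨h1', h2'⟩)
      · have := congrArg (fun w : ↥(h65_tors (JZero (M * p)) (p ^ n)) => (w : JZero (M * p))) hσz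
        exact this
      · exact h52_closure_mem_IAug p n (M * p) A hcl
    exact Subtype.ext hz0
  · -- (h_old)
    intro X' Z hYZ hX' hstab hI
    have hpair := h24_notriv_pair
      (fun (σ : ↥(A.inertiaSubgroupIn ℚ)) (w : ↥(h65_tors (JZero (M * p)) (p ^ n))) =>
        h65_torsRep Γℚ (JZero (M * p)) (p ^ n) (σ : Γℚ) w)
      (fun (σ : ↥(A.inertiaSubgroupIn ℚ)) (y : JZero M) => (σ : Γℚ) • y)
      (fun (σ : ↥(A.inertiaSubgroupIn ℚ)) (y : JZero M) => (σ : Γℚ) • y)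
      f₁ f₂ (fun s w => hf₁σ (s : Γℚ) w) (fun s w => hf₂σ (s : Γℚ) w)
      (fun s => hzero (s : Γℚ)) K K hK2 hK2
    exact hpair X' Z hYZ hX' (fun s x hx => hstab (s : Γℚ) s.2 x hx)
      (fun s x hx => hI (s : Γℚ) s.2 x hx)

end inst

/-- **The split datum at every level `N` with `p ∥ N`.** -/
theorem h52_geom_inst_N (N p : ℕ) [NeZero N] [NeZero p] (hpN : p ∣ N) (hp2 : ¬ p ^ 2 ∣ N)
    (n : ℕ) (A : ValuationSubring Qb) (σ0 : Γℚ)
    (hold : ∀ (M : ℕ) [NeZero M], ¬ p ∣ M → ∃ K : AddSubgroup (JZero M),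
      (∀ σ ∈ A.inertiaSubgroupIn ℚ, ∀ y : JZero M, ((p : ℤ) ^ n) • y = 0 → σ • y - y ∈ K) ∧
      h24_NoTriv (fun (σ : ↥(A.inertiaSubgroupIn ℚ)) (y : JZero M) => (σ : Γℚ) • y) K)
    (hnew : h70_NewMin N p A σ0) :
    ∃ Ynew X0 : AddSubgroup ↥(h65_tors (JZero N) (p ^ n)), h52_SplitDatum N p n A σ0 Ynew X0 := by
  obtain ⟨M, hM⟩ := hpN
  have hN : N = M * p := by rw [hM, mul_comm]
  have hM0 : M ≠ 0 := by
    rintro rfl
    exact NeZero.ne N (by rw [hN, zero_mul])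
  haveI : NeZero M := ⟨hM0⟩
  have hpM : ¬ p ∣ M := by
    rintro ⟨c, rfl⟩
    exact hp2 ⟨c, by rw [hN]; ring⟩
  obtain ⟨K, hK1, hK2⟩ := hold M hpM
  exact h52_splitDatum_congr hN.symm p n A σ0
    (h52_geom_inst M p n A σ0 K hK1 hK2 (h70_newMin_congr p A σ0 hN hnew))

/-- the split datum gives the named interface `h9_GeomStmt` (its `(h_old)` clause is the weaker
form with `Z ≤ X'`). -/
theorem h52_geomStmt_of_split {N p n : ℕ} [NeZero N] {A : ValuationSubring Qb} {σ0 : Γℚ}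
    (h : ∃ Ynew X0 : AddSubgroup ↥(h65_tors (JZero N) (p ^ n)),
      h52_SplitDatum N p n A σ0 Ynew X0) : h9_GeomStmt N p A σ0 n := by
  obtain ⟨Ynew, X0, h1, h2, h3, h4, h5⟩ := h
  exact ⟨Ynew, X0, h1, h2, h3, h4, fun X' Z hYZ _ hX' hst hI => h5 X' Z hYZ hX' hst hI⟩

/-- **`h9_GeomStmt` at every level `N` with `p ∥ N`** from the old-part subgroups at the levels
prime to `p` and the new-part input at level `N`. -/
theorem h52_geomStmt_N (N p : ℕ) [NeZero N] [NeZero p] (hpN : p ∣ N) (hp2 : ¬ p ^ 2 ∣ N)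
    (n : ℕ) (A : ValuationSubring Qb) (σ0 : Γℚ)
    (hold : ∀ (M : ℕ) [NeZero M], ¬ p ∣ M → ∃ K : AddSubgroup (JZero M),
      (∀ σ ∈ A.inertiaSubgroupIn ℚ, ∀ y : JZero M, ((p : ℤ) ^ n) • y = 0 → σ • y - y ∈ K) ∧
      h24_NoTriv (fun (σ : ↥(A.inertiaSubgroupIn ℚ)) (y : JZero M) => (σ : Γℚ) • y) K)
    (hnew : h70_NewMin N p A σ0) : h9_GeomStmt N p A σ0 n :=
  h52_geomStmt_of_split (h52_geom_inst_N N p hpN hp2 n A σ0 hold hnew)

end Fermat.Agent.S33
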