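import Mathlib
import Fermat.Agent.S34.h60_Pair
import Fermat.Agent.S34.h87_Toric
import Fermat.Agent.S34.h87_ToricGal
import Fermat.Agent.S35.h29_GeomIface
import Fermat.Agent.S35.h60_ToricBridge

/-!
# S33 row (F): `(τ - 1) J₀(Mq)[m]` consists of formal (= toric) classes, for EVERY `m ≠ 0`

Level `M q`, `q` prime, `q ∤ M`, `A` a valuation subring of `ℚ̄` over `q`, `τ` in the inertia group
of `A`.  For every `m ≠ 0` (in particular `m = q ^ n`, the case S33 needs) and every
`x ∈ J₀(M q)(ℚ̄)` with `m • x = 0`, the class `τ • x - x` is `h29_Toric M q hqM A hA m`: it has a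
representative `E` with `m E = div u`, `u` a unit of reduction `1` at both reductions `R₁`, `R₂`
of `F(M q)`.

This is the generic free inclusion `h87_toric_of_torsion` (which never uses that `m` is prime to
the residue characteristic) at the pair `h60_pair`.
-/

set_option autoImplicit false
set_option synthInstance.maxHeartbeats 400000

noncomputable section

open ModularCurve AlgebraicCurve

namespace Fermat.Agent.S33

open Fermat.Agent.S34 Fermat.Agent.S35 Fermat.Agent.S18 Fermat.Agent.S37 Fermat.Agent.S24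

local notation "Qb" => AlgebraicClosure ℚ

/-- Generic wrapper of `h87_toric_of_torsion` for a family of S18 reduction data of `F(N)` over
`A` (all statements in the `redF` language). -/
theorem h39_formal_generic (N : ℕ) [NeZero N] {q : ℕ} (hq : q.Prime)
    (A : ValuationSubring Qb) (hA : A.LiesOverPrime q)
    {ι : Type} [Fintype ι] [Nonempty ι] {k Fb : Type} [Field k] [Field Fb] [Algebra k Fb]
    (R : ι → h39_RedDatum Qb (modularFunctionFieldBar N) k Fb)
    (hRA : ∀ i, (R i).A = A)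
    (hsep : ∀ i, ∃ t : modularFunctionFieldBar N, (∀ j, t ∈ (R j).O) ∧ (R i).redF t = 1 ∧
      ∀ j, j ≠ i → (R j).redF t = 0)
    (τ : Qb ≃ₐ[ℚ] Qb) (hτ : τ ∈ A.inertiaSubgroupIn ℚ)
    (hgal : ∀ i (f : modularFunctionFieldBar N), f ∈ (R i).O →
      arithmeticRingAut (modularFunctionFieldFull N) τ f ∈ (R i).O ∧
      (R i).redF (arithmeticRingAut (modularFunctionFieldFull N) τ f) = (R i).redF f)
    (m : ℕ) (hm : m ≠ 0) (x : Pic0 Qb (modularFunctionFieldBar N)) (hx : (m : ℤ) • x = 0) :
    h87_IsToric (fun i => (R i).O) (fun i => (R i).red) m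
      (arithmeticGalois (modularFunctionFieldFull N) τ • x - x) := by
  have hPD : HasPrincipalDivisors Qb (modularFunctionFieldBar N) :=
    Fermat.Agent.S37.h88_hasPrincipalDivisors N
  have hscale : ∀ i (f : modularFunctionFieldBar N), f ≠ 0 → ∃ c : Qb, c ≠ 0 ∧
      algebraMap Qb (modularFunctionFieldBar N) c * f ∈ (R i).O ∧
      (algebraMap Qb (modularFunctionFieldBar N) c * f)⁻¹ ∈ (R i).O :=
    fun i f hf => (R i).exists_scale f hf
  have hsep' : ∀ i, ∃ t : modularFunctionFieldBar N, ∃ ht : ∀ j, t ∈ (R j).O,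
      (R i).red ⟨t, ht i⟩ = 1 ∧ ∀ j, j ≠ i → (R j).red ⟨t, ht j⟩ = 0 := by
    intro i
    obtain ⟨t, ht, ht1, ht0⟩ := hsep i
    refine ⟨t, ht, ?_, fun j hj => ?_⟩
    · rw [← (R i).redF_of_mem (ht i)]
      exact ht1
    · rw [← (R j).redF_of_mem (ht j)]
      exact ht0 j hj
  have hconst : ∀ i (a : Qb), a ∈ A → algebraMap Qb (modularFunctionFieldBar N) a ∈ (R i).O := by
    intro i a ha
    have h1 : a ∈ (R i).A := by
      rw [hRA i]
      exact ha
    exact ((R i).mem_iff a).mp h1
  have hgal' : ∀ i (f : modularFunctionFieldBar N) (h : f ∈ (R i).O),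
      ∃ h' : arithmeticRingAut (modularFunctionFieldFull N) τ f ∈ (R i).O,
        (R i).red ⟨arithmeticRingAut (modularFunctionFieldFull N) τ f, h'⟩ = (R i).red ⟨f, h⟩ := by
    intro i f hf
    obtain ⟨h1, h2⟩ := hgal i f hf
    refine ⟨h1, ?_⟩
    rw [← (R i).redF_of_mem h1, ← (R i).redF_of_mem hf]
    exact h2
  have hst := h87_redStable_of_inertia hq A hA (fun i => (R i).O) (fun i => (R i).red) hconst
    τ hτ hgal'
  exact h87_toric_of_torsion (fun i => (R i).O) (fun i => (R i).red) m hm hscale hsep'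
    (fun c => IsAlgClosed.exists_pow_nat_eq c (Nat.pos_of_ne_zero hm))
    (arithmeticGalois (modularFunctionFieldFull N) τ) hst x hx

/-- **(F), family form**: `τ • x - x` is toric for the pair `![R₁, R₂]`, any exponent `m ≠ 0`. -/
theorem h39_formal_family (M q : ℕ) [NeZero M] [NeZero q] [Fact q.Prime] (hqM : ¬ q ∣ M)
    (A : ValuationSubring Qb) (hA : A.LiesOverPrime q) (τ : Qb ≃ₐ[ℚ] Qb)
    (hτ : τ ∈ A.inertiaSubgroupIn ℚ) (m : ℕ) (hm : m ≠ 0) (x : JZero (M * q))
    (hx : m • x = 0) :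
    h87_IsToric (fun i => (h60_pair M q hqM A hA i).O) (fun i => (h60_pair M q hqM A hA i).red)
      m (τ • x - x) := by
  have hq : q.Prime := Fact.out
  obtain ⟨hRA, hsep, hgal⟩ := h60_pair_spec M q hqM A hA
  have hx' : (m : ℤ) • x = 0 := by
    rw [natCast_zsmul]
    exact hx
  exact h39_formal_generic (M * q) hq A hA (h60_pair M q hqM A hA) hRA hsep τ hτ (hgal τ hτ)
    m hm x hx'

/-- **(F)**: for `τ` in the inertia group of `A` and `m • x = 0`, `m ≠ 0` arbitrary, the class
`τ • x - x` of `J₀(M q)(ℚ̄)` is toric (= formal) at `A` for the exponent `m`. -/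
theorem h39_formal_of_inertia (M q : ℕ) [NeZero M] [NeZero q] [Fact q.Prime] (hqM : ¬ q ∣ M)
    (A : ValuationSubring Qb) (hA : A.LiesOverPrime q) (τ : Qb ≃ₐ[ℚ] Qb)
    (hτ : τ ∈ A.inertiaSubgroupIn ℚ) (m : ℕ) (hm : m ≠ 0) (x : JZero (M * q))
    (hx : m • x = 0) :
    h29_Toric M q hqM A hA m (τ • x - x) :=
  (h60_toric_iff M q hqM A hA m (τ • x - x)).mpr
    (h39_formal_family M q hqM A hA τ hτ m hm x hx)

end Fermat.Agent.S33

end
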