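import Mathlib
import Fermat.Agent.S33.h39_Formal
import Fermat.Agent.S18.h19_ResField
import Fermat.Agent.S37.h70_LVL

/-!
# S33: the toric (= formal) classes form a subgroup; change of exponent

Generic part (`h87_IsToric` for a family of valuation rings `O i` with reductions `red i`):

* `h39_isToric_zero`, `h39_isToric_add`, `h39_isToric_neg`, `h39_isToric_sub`,
  `h39_isToric_closure` : the toric classes for a fixed exponent form a subgroup;
* `h39_isToric_mul` : toric for `m` ⟹ toric for `m * e` (`u ↦ u ^ e`);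
* `h39_isToric_of_mul` : toric for `m * e` and killed by `m` ⟹ toric for `m`, provided
  `x ^ e = 1 → x = 1` in the residue fields (e.g. `e` a power of the residue characteristic).

Modular part (`h29_Toric M p hpM A hA m`, the level `M p` pair at `A` over `p`):

* `h39_toric_zero`, `h39_toric_add`, `h39_toric_neg`, `h39_toric_sub`, `h39_toric_closure`,
  `h39_toric_mul`;
* `h39_toric_pow_to_p` : toric for `p ^ n` (`1 ≤ n`) and killed by `p` ⟹ toric for `p`;
* `h39_formal_closure` : every element of the subgroup generated by the `τ • y - y`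
  (`τ` in the inertia group of `A`, `p ^ n • y = 0`) which is killed by `p` is toric for `p`.
-/

set_option autoImplicit false
set_option synthInstance.maxHeartbeats 400000

noncomputable section

open ModularCurve AlgebraicCurve

namespace Fermat.Agent.S33

open Fermat.Agent.S34 Fermat.Agent.S35 Fermat.Agent.S18 Fermat.Agent.S37 Fermat.Agent.S24

section Generic

variable {K F : Type*} [Field K] [Field F] [Algebra K F]
variable {ι : Type*} {κ : ι → Type*} [∀ i, Field (κ i)]
variable (O : ι → ValuationSubring F) (red : ∀ i, O i →+* κ i)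

/-- The zero class is toric. -/
theorem h39_isToric_zero (m : ℕ) : h87_IsToric (K := K) O red m 0 := by
  refine ⟨0, 1, one_ne_zero, rfl, fun v => ?_, fun i => ⟨(O i).one_mem, ?_⟩⟩
  · simp
  · have : (⟨1, (O i).one_mem⟩ : O i) = 1 := rfl
    rw [this, map_one]

/-- Sums of toric classes are toric. -/
theorem h39_isToric_add (m : ℕ) {y y' : Pic0 K F} (hy : h87_IsToric O red m y)
    (hy' : h87_IsToric O red m y') : h87_IsToric O red m (y + y') := by
  obtain ⟨E, u, hu, rfl, hdiv, hred⟩ := hy
  obtain ⟨E', u', hu', rfl, hdiv', hred'⟩ := hy'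
  refine ⟨E + E', u * u', mul_ne_zero hu hu', rfl, fun v => ?_, fun i => ?_⟩
  · rw [v.ord_mul hu hu', ← hdiv v, ← hdiv' v]
    simp only [AddSubgroup.coe_add, Finsupp.coe_add, Pi.add_apply]
    ring
  · obtain ⟨h, h1⟩ := hred i
    obtain ⟨h', h1'⟩ := hred' i
    refine ⟨(O i).mul_mem _ _ h h', ?_⟩
    have : (⟨u * u', (O i).mul_mem _ _ h h'⟩ : O i) = ⟨u, h⟩ * ⟨u', h'⟩ := rfl
    rw [this, map_mul, h1, h1', one_mul]

/-- Negatives of toric classes are toric (the reductions kill exactly the non-units). -/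
theorem h39_isToric_neg
    (hunit : ∀ i (f : F) (h : f ∈ O i), red i ⟨f, h⟩ ≠ 0 → f⁻¹ ∈ O i)
    (m : ℕ) {y : Pic0 K F} (hy : h87_IsToric O red m y) : h87_IsToric O red m (-y) := by
  obtain ⟨E, u, hu, rfl, hdiv, hred⟩ := hy
  refine ⟨-E, u⁻¹, inv_ne_zero hu, rfl, fun v => ?_, fun i => ?_⟩
  · rw [v.ord_inv, ← hdiv v]
    simp only [NegMemClass.coe_neg, Finsupp.coe_neg, Pi.neg_apply]
    ring
  · obtain ⟨h, h1⟩ := hred i
    have hinv : u⁻¹ ∈ O i := hunit i u h (by rw [h1]; exact one_ne_zero)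
    refine ⟨hinv, ?_⟩
    have h2 : (⟨u, h⟩ * ⟨u⁻¹, hinv⟩ : O i) = 1 := Subtype.ext (by simp [hu])
    have h3 := congrArg (red i) h2
    rw [map_mul, h1, one_mul, map_one] at h3
    exact h3

/-- Differences of toric classes are toric. -/
theorem h39_isToric_sub
    (hunit : ∀ i (f : F) (h : f ∈ O i), red i ⟨f, h⟩ ≠ 0 → f⁻¹ ∈ O i)
    (m : ℕ) {y y' : Pic0 K F} (hy : h87_IsToric O red m y) (hy' : h87_IsToric O red m y') :
    h87_IsToric O red m (y - y') := by
  rw [sub_eq_add_neg]
  exact h39_isToric_add O red m hy (h39_isToric_neg O red hunit m hy')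

/-- The subgroup generated by toric classes consists of toric classes. -/
theorem h39_isToric_closure
    (hunit : ∀ i (f : F) (h : f ∈ O i), red i ⟨f, h⟩ ≠ 0 → f⁻¹ ∈ O i)
    (m : ℕ) (S : Set (Pic0 K F)) (hS : ∀ y ∈ S, h87_IsToric O red m y) :
    ∀ y ∈ AddSubgroup.closure S, h87_IsToric O red m y := by
  intro y hy
  induction hy using AddSubgroup.closure_induction with
  | mem x hx => exact hS x hx
  | zero => exact h39_isToric_zero O red m
  | add x z _ _ hx hz => exact h39_isToric_add O red m hx hz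
  | neg x _ hx => exact h39_isToric_neg O red hunit m hx

/-- Toric for the exponent `m` implies toric for every multiple `m * e`. -/
theorem h39_isToric_mul (m e : ℕ) {y : Pic0 K F} (hy : h87_IsToric O red m y) :
    h87_IsToric O red (m * e) y := by
  obtain ⟨E, u, hu, rfl, hdiv, hred⟩ := hy
  refine ⟨E, u ^ e, pow_ne_zero e hu, rfl, fun v => ?_, fun i => ?_⟩
  · have hpow : v.ord (u ^ e) = (e : ℤ) * v.ord u := by
      have := v.ord_zpow u (e : ℤ)
      simpa using this
    rw [hpow, ← hdiv v]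
    push_cast
    ring
  · obtain ⟨h, h1⟩ := hred i
    refine ⟨(O i).pow_mem h e, ?_⟩
    have : (⟨u ^ e, (O i).pow_mem h e⟩ : O i) = ⟨u, h⟩ ^ e := rfl
    rw [this, map_pow, h1, one_pow]

/-- **Change of exponent, descending.**  A class which is toric for `m * e` and killed by `m` is
toric for `m`, as soon as `e`-th roots of `1` are trivial in the residue fields, `K` has `e`-th
roots and the functions without zeros and poles are constants. -/
theorem h39_isToric_of_mul
    (hunit : ∀ i (f : F) (h : f ∈ O i), red i ⟨f, h⟩ ≠ 0 → f⁻¹ ∈ O i)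
    (hconst : ∀ g : F, (∀ v : Place K F, v.ord g = 0) → g ∈ Set.range (algebraMap K F))
    (m e : ℕ) (he : e ≠ 0) (hκ : ∀ i (x : κ i), x ^ e = 1 → x = 1)
    (hroot : ∀ c : K, ∃ d : K, d ^ e = c)
    {y : Pic0 K F} (hy : h87_IsToric O red (m * e) y) (hmy : (m : ℤ) • y = 0) :
    h87_IsToric O red m y := by
  obtain ⟨E, u, hu, rfl, hdiv, hred⟩ := hy
  -- `m E = div f`
  have hprin : ((m : ℤ) • E : Divisor.degZero (K := K) (F := F)) ∈
      (Divisor.principal (K := K) (F := F)).addSubgroupOf (Divisor.degZero (K := K) (F := F)) := by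
    have h0 : Pic0.mk ((m : ℤ) • E) = 0 := hmy
    exact (QuotientAddGroup.eq_zero_iff _).mp h0
  obtain ⟨f, hf, hfE⟩ := hprin
  have hfE' : ∀ v : Place K F, (m : ℤ) * (E : Divisor K F) v = v.ord f := by
    intro v
    have := hfE v
    simpa using this
  have hpow : ∀ (g : F) (v : Place K F), v.ord (g ^ e) = (e : ℤ) * v.ord g := by
    intro g v
    have := v.ord_zpow g (e : ℤ)
    simpa using this
  -- `u / f ^ e` is a constant
  have hfe : f ^ e ≠ 0 := pow_ne_zero e hf
  have hg0 : ∀ v : Place K F, v.ord (u * (f ^ e)⁻¹) = 0 := by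
    intro v
    rw [v.ord_mul hu (inv_ne_zero hfe), v.ord_inv, hpow, ← hdiv v, ← hfE' v]
    push_cast
    ring
  obtain ⟨c, hc⟩ := hconst _ hg0
  obtain ⟨d, hd⟩ := hroot c
  have hu1 : (algebraMap K F d * f) ^ e = u := by
    rw [mul_pow, ← map_pow, hd, hc]
    field_simp
  have hc0 : c ≠ 0 := by
    rintro rfl
    rw [map_zero] at hc
    exact mul_ne_zero hu (inv_ne_zero hfe) hc.symm
  have hd0 : d ≠ 0 := by
    rintro rfl
    rw [zero_pow he] at hd
    exact hc0 hd.symm
  have hdF : algebraMap K F d ≠ 0 := (map_ne_zero _).mpr hd0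
  have hu10 : algebraMap K F d * f ≠ 0 := mul_ne_zero hdF hf
  refine ⟨E, algebraMap K F d * f, hu10, rfl, fun v => ?_, fun i => ?_⟩
  · have h1 := hpow (algebraMap K F d * f) v
    rw [hu1, ← hdiv v] at h1
    have he' : (e : ℤ) ≠ 0 := by exact_mod_cast he
    have h2 : (e : ℤ) * ((m : ℤ) * (E : Divisor K F) v) =
        (e : ℤ) * v.ord (algebraMap K F d * f) := by
      rw [← h1]
      push_cast
      ring
    exact mul_left_cancel₀ he' h2
  · obtain ⟨h, h1⟩ := hred i
    have hinv : u⁻¹ ∈ O i := hunit i u h (by rw [h1]; exact one_ne_zero)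
    have hmem := (h87_root_mem O he hu1 h hinv hu).1
    refine ⟨hmem, hκ i _ ?_⟩
    rw [← map_pow, ← h1]
    congr 1
    exact Subtype.ext hu1

end Generic

local notation "Qb" => AlgebraicClosure ℚ

section Modular

variable (M p : ℕ) [NeZero M] [NeZero p] [Fact p.Prime] (hpM : ¬ p ∣ M)
  (A : ValuationSubring Qb) (hA : A.LiesOverPrime p)

/-- The reductions of the pair kill exactly the non-units. -/
theorem h39_pair_hunit (i : Fin 2) (f : ↥(modularFunctionFieldBar (M * p)))
    (h : f ∈ (h60_pair M p hpM A hA i).O) (h1 : (h60_pair M p hpM A hA i).red ⟨f, h⟩ ≠ 0) :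
    f⁻¹ ∈ (h60_pair M p hpM A hA i).O := by
  by_contra hcon
  apply h1
  rw [← (h60_pair M p hpM A hA i).redF_of_mem h]
  exact (h39_redF_eq_zero_iff (h60_pair M p hpM A hA i) h).mpr (Or.inr hcon)

theorem h39_toric_zero (m : ℕ) : h29_Toric M p hpM A hA m 0 :=
  (h60_toric_iff M p hpM A hA m 0).mpr (h39_isToric_zero _ _ m)

theorem h39_toric_add (m : ℕ) {y y' : JZero (M * p)} (hy : h29_Toric M p hpM A hA m y)
    (hy' : h29_Toric M p hpM A hA m y') : h29_Toric M p hpM A hA m (y + y') :=
  (h60_toric_iff M p hpM A hA m _).mpr (h39_isToric_add _ _ m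
    ((h60_toric_iff M p hpM A hA m y).mp hy) ((h60_toric_iff M p hpM A hA m y').mp hy'))

theorem h39_toric_neg (m : ℕ) {y : JZero (M * p)} (hy : h29_Toric M p hpM A hA m y) :
    h29_Toric M p hpM A hA m (-y) :=
  (h60_toric_iff M p hpM A hA m _).mpr (h39_isToric_neg _ _ (h39_pair_hunit M p hpM A hA) m
    ((h60_toric_iff M p hpM A hA m y).mp hy))

theorem h39_toric_sub (m : ℕ) {y y' : JZero (M * p)} (hy : h29_Toric M p hpM A hA m y)
    (hy' : h29_Toric M p hpM A hA m y') : h29_Toric M p hpM A hA m (y - y') :=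
  (h60_toric_iff M p hpM A hA m _).mpr (h39_isToric_sub _ _ (h39_pair_hunit M p hpM A hA) m
    ((h60_toric_iff M p hpM A hA m y).mp hy) ((h60_toric_iff M p hpM A hA m y').mp hy'))

theorem h39_toric_closure (m : ℕ) (S : Set (JZero (M * p)))
    (hS : ∀ y ∈ S, h29_Toric M p hpM A hA m y) :
    ∀ y ∈ AddSubgroup.closure S, h29_Toric M p hpM A hA m y := fun y hy =>
  (h60_toric_iff M p hpM A hA m y).mpr (h39_isToric_closure _ _ (h39_pair_hunit M p hpM A hA) m S
    (fun z hz => (h60_toric_iff M p hpM A hA m z).mp (hS z hz)) y hy)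

theorem h39_toric_mul (m e : ℕ) {y : JZero (M * p)} (hy : h29_Toric M p hpM A hA m y) :
    h29_Toric M p hpM A hA (m * e) y :=
  (h60_toric_iff M p hpM A hA (m * e) y).mpr (h39_isToric_mul _ _ m e
    ((h60_toric_iff M p hpM A hA m y).mp hy))

/-- **Toric for `p ^ n` and killed by `p` ⟹ toric for `p`** (`1 ≤ n`). -/
theorem h39_toric_pow_to_p (n : ℕ) (hn : 1 ≤ n) {y : JZero (M * p)}
    (hy : h29_Toric M p hpM A hA (p ^ n) y) (hpy : p • y = 0) : h29_Toric M p hpM A hA p y := by
  have hp : p.Prime := Fact.out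
  have hk : CharP (IsLocalRing.ResidueField A) p := h19_residueField_charP A p hA
  have hFb : CharP ↥(modularFunctionFieldFullC (IsLocalRing.ResidueField A) M) p :=
    charP_of_injective_algebraMap
      (algebraMap (IsLocalRing.ResidueField A)
        ↥(modularFunctionFieldFullC (IsLocalRing.ResidueField A) M)).injective p
  have hexp : p ^ n = p * p ^ (n - 1) := by
    rw [← pow_succ']
    congr 1
    omega
  have hy' := (h60_toric_iff M p hpM A hA (p ^ n) y).mp hy
  rw [hexp] at hy'
  have hpy' : ((p : ℕ) : ℤ) • y = 0 := by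
    rw [natCast_zsmul]
    exact hpy
  refine (h60_toric_iff M p hpM A hA p y).mpr
    (h39_isToric_of_mul _ _ (h39_pair_hunit M p hpM A hA)
      (fun g hg => h70_const_of_ord_zero (h88_isFF (M * p)) g hg) p (p ^ (n - 1))
      (pow_ne_zero _ hp.ne_zero) (fun i x hx => ?_)
      (fun c => IsAlgClosed.exists_pow_nat_eq c (pow_pos hp.pos _)) hy' hpy')
  have h1 : (x - 1) ^ p ^ (n - 1) = 0 := by
    rw [sub_pow_char_pow, hx, one_pow, sub_self]
  exact sub_eq_zero.mp (pow_eq_zero_iff (pow_ne_zero _ hp.ne_zero) |>.mp h1)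

/-- **The formal classes of S33 (N-min form).**  Every element of the subgroup generated by the
`τ • y - y` (`τ` in the inertia group of `A`, `y` of `p`-power order) which is killed by `p` is
toric for the exponent `p`. -/
theorem h39_formal_closure (z : JZero (M * p))
    (hz : z ∈ AddSubgroup.closure {w : JZero (M * p) | ∃ τ ∈ A.inertiaSubgroupIn ℚ,
      ∃ (y : JZero (M * p)) (n : ℕ), p ^ n • y = 0 ∧ w = τ • y - y})
    (hpz : p • z = 0) : h29_Toric M p hpM A hA p z := by
  have hp : p.Prime := Fact.out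
  -- every generator is toric for some `p ^ n`; the closure is a directed union over `n`
  have key : ∀ w ∈ AddSubgroup.closure {w : JZero (M * p) | ∃ τ ∈ A.inertiaSubgroupIn ℚ,
      ∃ (y : JZero (M * p)) (n : ℕ), p ^ n • y = 0 ∧ w = τ • y - y},
      ∃ n : ℕ, 1 ≤ n ∧ h29_Toric M p hpM A hA (p ^ n) w := by
    intro w hw
    induction hw using AddSubgroup.closure_induction with
    | mem x hx =>
      obtain ⟨τ, hτ, y, n, hy, rfl⟩ := hx
      refine ⟨n + 1, by omega, ?_⟩
      have hy' : p ^ (n + 1) • y = 0 := by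
        rw [pow_succ, mul_comm (p ^ n) p, mul_smul, hy, smul_zero]
      exact h39_formal_of_inertia M p hpM A hA τ hτ (p ^ (n + 1)) (pow_ne_zero _ hp.ne_zero) y hy'
    | zero => exact ⟨1, le_refl 1, h39_toric_zero M p hpM A hA _⟩
    | add x z _ _ hx hz =>
      obtain ⟨n, hn, hxn⟩ := hx
      obtain ⟨n', hn', hzn⟩ := hz
      refine ⟨n + n', by omega, ?_⟩
      have h1 := h39_toric_mul M p hpM A hA (p ^ n) (p ^ n') hxn
      have h2 := h39_toric_mul M p hpM A hA (p ^ n') (p ^ n) hzn
      rw [← pow_add] at h1 h2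
      rw [add_comm n' n] at h2
      exact h39_toric_add M p hpM A hA _ h1 h2
    | neg x _ hx =>
      obtain ⟨n, hn, hxn⟩ := hx
      exact ⟨n, hn, h39_toric_neg M p hpM A hA _ hxn⟩
  obtain ⟨n, hn, hzn⟩ := key z hz
  exact h39_toric_pow_to_p M p hpM A hA n hn hzn hpz

end Modular

end Fermat.Agent.S33

end
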