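import Mathlib
import Fermat.Agent.S33.h70_AuxLevel
import Fermat.Agent.S33.h39_ToricGrp

/-!
# S33: the new-part input at all levels from (N*) at the charted levels (helper70)

* `h70_newMin_of_toric` : at a level `M p`, the statement (N*) in toric form
  ("a toric `p`-new class killed by `p` and fixed by `σ0` vanishes") gives `h70_NewMin (M p)`:
  the classes of `(I_A - 1) J₀(M p)[p^∞]` killed by `p` are toric (`h39_formal_closure`);
* `h70_newMin_all` : (N*) at the charted levels `M p` (`5 ≤ p`, or `2 ∣ M`, or `3 ∣ M`) gives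
  `h70_NewMin N p A σ0` at every level `N` with `p ∥ N` (lossless auxiliary-level descent
  `h70_newMin_of_charted`);
* `h70_hnew` : the form consumed by the count: for subgroups `Yns`, `D` of `J₀(N)` consisting of
  `p`-new classes, resp. contained in `(I_A - 1) J₀(N)[p^∞]`, no nonzero `z ∈ Yns ⊓ D` is killed
  by `p` and fixed by `σ0`.
-/

set_option autoImplicit false
set_option synthInstance.maxHeartbeats 400000

noncomputable section

open ModularCurve AlgebraicCurve

namespace Fermat.Agent.S33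

open Fermat.Agent.S35

local notation "Qb" => AlgebraicClosure ℚ
local notation "Γℚ" => (AlgebraicClosure ℚ ≃ₐ[ℚ] AlgebraicClosure ℚ)

/-- **(N*) in toric form gives the new-part input** at the level `M p`. -/
theorem h70_newMin_of_toric (M p : ℕ) [NeZero M] [NeZero p] [Fact p.Prime] (hpM : ¬ p ∣ M)
    (A : ValuationSubring Qb) (hA : A.LiesOverPrime p) (σ0 : Γℚ)
    (hN : ∀ z : JZero (M * p), p • z = 0 → h29_Toric M p hpM A hA p z → h67_Jnew M p z →
      σ0 • z = z → z = 0) :
    h70_NewMin (M * p) p A σ0 := by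
  intro z hpz hz hσ hI
  exact hN z hpz (h39_formal_closure M p hpM A hA z hI hpz) ((h67_jnewAt_iff M p z).1 hz) hσ

/-- **The new-part input of S33 at every level `N`, `p ∥ N`**, from (N*) at the charted
levels. -/
theorem h70_newMin_all (p : ℕ) [NeZero p] [Fact p.Prime] (A : ValuationSubring Qb)
    (hA : A.LiesOverPrime p) (σ0 : Γℚ)
    (hstar : ∀ (M : ℕ) [NeZero M] (hpM : ¬ p ∣ M), (5 ≤ p ∨ 2 ∣ M ∨ 3 ∣ M) →
      ∀ z : JZero (M * p), p • z = 0 → h29_Toric M p hpM A hA p z → h67_Jnew M p z →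
        σ0 • z = z → z = 0)
    (N : ℕ) [NeZero N] (hpN : p ∣ N) (hp2 : ¬ p ^ 2 ∣ N) : h70_NewMin N p A σ0 :=
  h70_newMin_of_charted p Fact.out A σ0
    (fun M _ hpM hch => h70_newMin_of_toric M p hpM A hA σ0 (hstar M hpM hch)) N hpN hp2

/-- **The form consumed by the count** (`(h_new)`): if `Yns` consists of `p`-new classes and `D`
is contained in `(I_A - 1) J₀(N)[p^∞]`, then no nonzero element of `Yns ⊓ D` is killed by `p` and
fixed by `σ0`. -/
theorem h70_hnew {N p : ℕ} [NeZero p] {A : ValuationSubring Qb} {σ0 : Γℚ}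
    (h : h70_NewMin N p A σ0) (Yns D : AddSubgroup (JZero N))
    (hYns : ∀ z ∈ Yns, h67_JnewAt N p z) (hD : D ≤ h70_IAug N p A)
    (z : JZero N) (hz : z ∈ Yns ⊓ D) (hpz : p • z = 0) (hσ : σ0 • z = z) : z = 0 :=
  h z hpz (hYns z hz.1) hσ (hD hz.2)

/-- `(I_A - 1) Y ⊆ (I_A - 1) J₀(N)[p^∞]` for every set `Y` of classes of `p`-power order. -/
theorem h70_closure_le_IAug {N p : ℕ} {A : ValuationSubring Qb} (Y : Set (JZero N))
    (hY : ∀ y ∈ Y, ∃ n : ℕ, p ^ n • y = 0) :
    AddSubgroup.closure {w : JZero N | ∃ τ ∈ A.inertiaSubgroupIn ℚ, ∃ y ∈ Y, w = τ • y - y}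
      ≤ h70_IAug N p A := by
  rw [AddSubgroup.closure_le]
  rintro w ⟨τ, hτ, y, hy, rfl⟩
  obtain ⟨n, hn⟩ := hY y hy
  exact h70_mem_IAug hτ y n hn

end Fermat.Agent.S33

end
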