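/-
S33 (helper14), row UNR: the maximal ideal of a place of `ℚ̄` over `p` meets the inertia-fixed
field in `p` times the valuation ring:
  `a ∈ 𝔪_A`, `a` fixed by the inertia group of `A`  ⟹  `a / p ∈ A`.
Route: conjugate `A` to `padicPlace p`; inside `Ω = PadicAlgCl p` every element acting trivially
on the residue field of `L = ℚ_p(x)` comes from the global inertia group on `ℚ(a)`; so `x` lies in
the unramified part `K₀(L)` whose value group is `p^ℤ`.
-/
import Mathlib
import Fermat.Prelude.Def_GaloisRep_CompletionBridge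
import Fermat.Agent.S13.h24_Unram
import Fermat.Agent.S55.h56_Levels
import Fermat.Agent.S56.h30_FrobIndep
import Fermat.Agent.S56.h62_W3Basics
import Fermat.Agent.S56.h49_K0Res
import Fermat.Agent.S56.h28_K0Unram

set_option autoImplicit false

namespace Fermat.Agent.S33

open scoped Pointwise
open Fermat.Agent.S56 IntermediateField

local notation "Qb" => AlgebraicClosure ℚ

variable (p : ℕ) [Fact p.Prime]

/-! ### local core -/

/-- an element of `Ω` fixed by every automorphism acting trivially on the residue field of the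
finite extension `L` lies in the unramified part `K₀(L)`. -/
theorem h14_unr_mem_K0 (L : IntermediateField ℚ_[p] (PadicAlgCl p)) [FiniteDimensional ℚ_[p] L]
    (x : PadicAlgCl p)
    (hx : ∀ g : h78_G p, (∀ y ∈ L, ‖y‖ ≤ 1 → ‖g y - y‖ < 1) → g x = x) :
    x ∈ h78_K0 p L := by
  have hK0L : h78_K0 p L ≤ L := h49_K0_le p L
  haveI : FiniteDimensional ℚ_[p] (h78_K0 p L) :=
    FiniteDimensional.of_injective (IntermediateField.inclusion hK0L).toLinearMap
      (IntermediateField.inclusion hK0L).injective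
  refine h62_mem_of_fixed p (h78_K0 p L) x (fun g hg => hx g (fun y hy hy1 => ?_))
  exact h49_J_res p L g (fun c => hg c.1 c.2) y hy hy1

theorem h14_unr_norm (L : IntermediateField ℚ_[p] (PadicAlgCl p)) [FiniteDimensional ℚ_[p] L]
    (x : PadicAlgCl p)
    (hx : ∀ g : h78_G p, (∀ y ∈ L, ‖y‖ ≤ 1 → ‖g y - y‖ < 1) → g x = x) (hx1 : ‖x‖ < 1) :
    ‖x‖ ≤ (p : ℝ)⁻¹ := by
  have hp1 : (1 : ℝ) < p := by exact_mod_cast (Fact.out : p.Prime).one_lt
  by_cases hx0 : x = 0
  · rw [hx0, norm_zero]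
    exact inv_nonneg.2 (by linarith)
  obtain ⟨n, hn⟩ := h28_K0_unram p L x (h14_unr_mem_K0 p L x hx) hx0
  rw [hn] at hx1 ⊢
  have hn' : n < 0 := by
    by_contra h
    exact absurd hx1 (not_lt.2 (one_le_zpow₀ hp1.le (not_lt.1 h)))
  calc (p : ℝ) ^ n ≤ (p : ℝ) ^ (-1 : ℤ) := zpow_le_zpow_right₀ hp1.le (by omega)
    _ = (p : ℝ)⁻¹ := zpow_neg_one _

/-! ### dictionary for `padicPlace p` -/

theorem h14_unr_mem_place {y : Qb} : y ∈ padicPlace p ↔ ‖padicEmbedding p y‖ ≤ 1 := by
  rw [mem_padicPlace_iff, ← NNReal.coe_le_coe, coe_nnnorm, NNReal.coe_one]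

theorem h14_unr_mem_nonunits {y : Qb} :
    y ∈ (padicPlace p).nonunits ↔ ‖padicEmbedding p y‖ < 1 := by
  rw [ValuationSubring.mem_nonunits_iff_or]
  constructor
  · rintro (rfl | h)
    · rw [map_zero, norm_zero]; exact one_pos
    · rw [h14_unr_mem_place, map_inv₀, norm_inv, not_le] at h
      by_contra hle
      have h1 : (1 : ℝ) ≤ ‖padicEmbedding p y‖ := not_lt.1 hle
      exact absurd h (not_lt.2 (inv_le_one_of_one_le₀ h1))
  · intro h
    by_cases hy : y = 0
    · exact Or.inl hy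
    · right
      rw [h14_unr_mem_place, map_inv₀, norm_inv, not_le]
      have h0 : 0 < ‖padicEmbedding p y‖ :=
        norm_pos_iff.2 (fun h0 => hy ((map_eq_zero (padicEmbedding p)).1 h0))
      exact (one_lt_inv₀ h0).2 h

theorem h14_unr_mem_of_isIntegral (A : ValuationSubring Qb) {x : Qb} (hx : IsIntegral ℤ x) :
    x ∈ A := by
  have h1 : IsIntegral A x := hx.tower_top
  obtain ⟨y, rfl⟩ := (IsIntegrallyClosed.isIntegral_iff (R := A) (K := Qb)).1 h1
  exact y.2

theorem h14_unr_place_lies : (padicPlace p).LiesOverPrime p := by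
  show ((p : ℕ) : Qb) ∈ (padicPlace p).nonunits
  rw [h14_unr_mem_nonunits, map_natCast, h62_norm_p]
  exact inv_lt_one_of_one_lt₀ (by exact_mod_cast (Fact.out : p.Prime).one_lt)

/-! ### UNR for the distinguished place -/

theorem h14_unr_padicPlace (a : Qb) (ha : a ∈ (padicPlace p).nonunits)
    (hfix : ∀ σ ∈ (padicPlace p).inertiaSubgroupIn ℚ, σ a = a) :
    a / (p : Qb) ∈ padicPlace p := by
  set x : PadicAlgCl p := padicEmbedding p a with hx
  have hxalg : IsIntegral ℚ_[p] x := Algebra.IsIntegral.isIntegral x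
  haveI : FiniteDimensional ℚ_[p] ℚ_[p]⟮x⟯ := IntermediateField.adjoin.finiteDimensional hxalg
  have hx1 : ‖x‖ < 1 := (h14_unr_mem_nonunits p).1 ha
  have hEL : ∀ y ∈ ℚ⟮a⟯, padicEmbedding p y ∈ ℚ_[p]⟮x⟯ := by
    have h := IntermediateField.adjoin_le_subfield (F := ℚ) (S := {a})
      (K := (ℚ_[p]⟮x⟯).toSubfield.comap (padicEmbedding p).toRingHom) ?_ ?_
    · intro y hy
      exact h hy
    · rintro _ ⟨q, rfl⟩
      show padicEmbedding p (algebraMap ℚ Qb q) ∈ ℚ_[p]⟮x⟯
      rw [AlgHom.commutes, eq_ratCast]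
      exact SubfieldClass.ratCast_mem _ q
    · rintro _ rfl
      exact IntermediateField.mem_adjoin_simple_self ℚ_[p] x
  have key : ∀ g : h78_G p, (∀ y ∈ ℚ_[p]⟮x⟯, ‖y‖ ≤ 1 → ‖g y - y‖ < 1) → g x = x := by
    intro g hg
    have hτ : ∀ y ∈ ℚ⟮a⟯, IsIntegral ℤ y →
        localGaloisToGlobal p g y - y ∈ (padicPlace p).nonunits := by
      intro y hy hyint
      have hy1 : ‖padicEmbedding p y‖ ≤ 1 :=
        (h14_unr_mem_place p).1 (h14_unr_mem_of_isIntegral (padicPlace p) hyint)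
      rw [h14_unr_mem_nonunits, map_sub, padicEmbedding_localGaloisToGlobal]
      exact hg _ (hEL y hy) hy1
    obtain ⟨σ, hσ, hσE⟩ :=
      Fermat.Agent.S13.h24_exists_inertia_lift_Qbar ℚ⟮a⟯ (padicPlace p) (localGaloisToGlobal p g) hτ
    have h2 : localGaloisToGlobal p g a = a := by
      rw [← hσE a (IntermediateField.mem_adjoin_simple_self ℚ a)]
      exact hfix σ hσ
    calc g x = padicEmbedding p (localGaloisToGlobal p g a) :=
          (padicEmbedding_localGaloisToGlobal p g a).symm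
      _ = x := by rw [h2]
  have hle := h14_unr_norm p ℚ_[p]⟮x⟯ x key hx1
  have hp0 : (0 : ℝ) < p := by exact_mod_cast (Fact.out : p.Prime).pos
  rw [h14_unr_mem_place, map_div₀, map_natCast, norm_div, h62_norm_p, div_le_one (inv_pos.2 hp0)]
  exact hle

/-! ### UNR -/

/-- **UNR**: an element of the maximal ideal of a place `A` of `ℚ̄` over `p` which is fixed by the
inertia group of `A` is divisible by `p` in `A` (the inertia field is unramified). -/
theorem h14_unr (A : ValuationSubring Qb) (hA : A.LiesOverPrime p) (a : Qb)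
    (ha : a ∈ A.nonunits) (hfix : ∀ σ ∈ A.inertiaSubgroupIn ℚ, σ a = a) :
    ∃ b ∈ A, a = (p : Qb) * b ∧ ∀ σ ∈ A.inertiaSubgroupIn ℚ, σ b = b := by
  have hp : p.Prime := Fact.out
  have hpQ : (p : Qb) ≠ 0 := by exact_mod_cast hp.ne_zero
  obtain ⟨g, rfl⟩ := h30_exists_smul_eq (padicPlace p) A p hp (h14_unr_place_lies p) hA
  have ha' : g⁻¹ a ∈ (padicPlace p).nonunits := by
    have h1 := Fermat.Agent.S55.h56_smul_mem_nonunits (g • padicPlace p) g⁻¹ ha
    rwa [inv_smul_smul] at h1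
  have hfix' : ∀ σ ∈ (padicPlace p).inertiaSubgroupIn ℚ, σ (g⁻¹ a) = g⁻¹ a := by
    intro σ hσ
    have h1 := Fermat.Agent.S55.h56_conj_mem_inertia (padicPlace p) g σ hσ
    have h2 : g (σ (g⁻¹ a)) = a := hfix _ h1
    calc σ (g⁻¹ a) = g⁻¹ (g (σ (g⁻¹ a))) := by
          show σ (g⁻¹ a) = (g⁻¹ * g) (σ (g⁻¹ a))
          rw [inv_mul_cancel]; rfl
      _ = g⁻¹ a := by rw [h2]
  have hb' := h14_unr_padicPlace p (g⁻¹ a) ha' hfix'
  refine ⟨a / (p : Qb), ?_, by field_simp, fun σ hσ => by rw [map_div₀, hfix σ hσ, map_natCast]⟩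
  rw [ValuationSubring.mem_pointwise_smul_iff_inv_smul_mem]
  have h3 : g⁻¹ • (a / (p : Qb)) = g⁻¹ a / (p : Qb) := by
    rw [AlgEquiv.smul_def, map_div₀, map_natCast]
  rw [h3]
  exact hb'

end Fermat.Agent.S33
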