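import Mathlib
import Fermat.Agent.S56.h71_ConvLift

/-!
# S33 / CRUX: points in the kernel of reduction have no inertia-trivial quotient

(helper9; board #2807, #2873.)  Mathlib + `h71_rigid` only.

`H` a commutative cocommutative bialgebra over `O`, `Ω` a field over `O`.  `A ⊆ Ω` a subring,
`m` an additive subgroup with `m A ⊆ m` (the maximal ideal), `I` a set of `O`-algebra
endomorphisms of `Ω` (the inertia group) such that

* `hunr` : an `I`-invariant element of `m` is divisible by `p` in `A` (the inertia field is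
  unramified), and
* `hsep` : `A` is `p`-adically separated.

`N` a finite `I`-stable group of `A`-valued points, `x` a point congruent to the unit point
modulo `m` with `x ^ p ∈ N` and `σ x ∈ x N` for all `σ ∈ I`.  Then `x ∈ N` (`p` odd).

The proof lives in the commutative convolution ring `C = WithConv (H →ₗ[O] Ω)`: on the additive
group `M` of `A`-valued, `I`-invariant, `N`-invariant functionals, multiplication by `x` is an
automorphism `u` with `u ^ p = 1` and `u ≡ 1 mod p`; rigidity gives `u = 1`, so `x * e = e` for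
`e = ∑_{n ∈ N} n`, and linear independence of characters gives `x ∈ N`.
-/

set_option autoImplicit false

namespace Fermat.Agent.S33

open WithConv TensorProduct Coalgebra Fermat.Agent.S56

section crux

variable {O : Type*} [CommRing O] {H : Type*} [CommRing H] [Bialgebra O H]
  {Ω : Type*} [Field Ω] [Algebra O Ω]

/-- The functional attached to a point. -/
noncomputable def h9_pt (y : WithConv (H →ₐ[O] Ω)) : WithConv (H →ₗ[O] Ω) :=
  toConv y.ofConv.toLinearMap

theorem h9_pt_apply (y : WithConv (H →ₐ[O] Ω)) (h : H) : h9_pt y h = y.ofConv h := rfl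

theorem h9_pt_one : h9_pt (1 : WithConv (H →ₐ[O] Ω)) = 1 := rfl

theorem h9_pt_mul (y z : WithConv (H →ₐ[O] Ω)) : h9_pt (y * z) = h9_pt y * h9_pt z := rfl

theorem h9_pt_pow (y : WithConv (H →ₐ[O] Ω)) (n : ℕ) : h9_pt (y ^ n) = h9_pt y ^ n :=
  AlgHom.toLinearMap_convPow y n

theorem h9_pt_injective : Function.Injective (h9_pt (O := O) (H := H) (Ω := Ω)) := by
  intro y z hyz
  apply WithConv.ofConv_injective
  apply AlgHom.toLinearMap_injective
  exact congrArg WithConv.ofConv hyz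

/-- The Galois conjugate of a point. -/
noncomputable def h9_conj (σ : Ω →ₐ[O] Ω) (y : WithConv (H →ₐ[O] Ω)) : WithConv (H →ₐ[O] Ω) :=
  toConv (σ.comp y.ofConv)

theorem h9_post_pt (σ : Ω →ₐ[O] Ω) (y : WithConv (H →ₐ[O] Ω)) :
    h71_post σ (h9_pt y) = h9_pt (h9_conj σ y) := rfl

theorem h9_post_algebraMap (σ : Ω →ₐ[O] Ω) (c : Ω) :
    h71_post (B := H) σ (algebraMap Ω (WithConv (H →ₗ[O] Ω)) c)
      = algebraMap Ω (WithConv (H →ₗ[O] Ω)) (σ c) := by
  apply WithConv.ofConv_injective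
  ext h
  show σ (c • algebraMap O Ω (counit (R := O) h)) = σ c • algebraMap O Ω (counit (R := O) h)
  rw [smul_eq_mul, smul_eq_mul, map_mul, σ.commutes]

theorem h9_val_mul (S T : Set Ω) (U : AddSubmonoid Ω)
    (hSTU : ∀ a ∈ S, ∀ b ∈ T, a * b ∈ U)
    (F G : WithConv (H →ₗ[O] Ω)) (hF : ∀ h, F h ∈ S) (hG : ∀ h, G h ∈ T) (h : H) :
    (F * G) h ∈ U := by
  rw [LinearMap.convMul_apply]
  generalize comul (R := O) h = t
  induction t using TensorProduct.induction_on with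
  | zero => simp
  | tmul a b =>
    simp only [TensorProduct.map_tmul, LinearMap.mul'_apply]
    exact hSTU _ (hF a) _ (hG b)
  | add t₁ t₂ h₁ h₂ =>
    rw [map_add, map_add]
    exact U.add_mem h₁ h₂

end crux

section main

variable {O : Type*} [CommRing O] {H : Type*} [CommRing H] [Bialgebra O H]
  [Coalgebra.IsCocomm O H] {Ω : Type*} [Field Ω] [Algebra O Ω]

/-- `A`-valued, `I`-invariant, `N`-invariant functionals. -/
def h9_Minv (A : Subring Ω) (I : Set (Ω →ₐ[O] Ω)) (N : Finset (WithConv (H →ₐ[O] Ω)))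
    (F : WithConv (H →ₗ[O] Ω)) : Prop :=
  (∀ h, F h ∈ A) ∧ (∀ σ ∈ I, h71_post σ F = F) ∧ (∀ n ∈ N, h9_pt n * F = F)

omit [Coalgebra.IsCocomm O H] in
theorem h9_Minv_zero (A : Subring Ω) (I : Set (Ω →ₐ[O] Ω)) (N : Finset (WithConv (H →ₐ[O] Ω))) :
    h9_Minv A I N (0 : WithConv (H →ₗ[O] Ω)) :=
  ⟨fun _ => A.zero_mem, fun _ _ => map_zero _, fun _ _ => mul_zero _⟩

omit [Coalgebra.IsCocomm O H] in
theorem h9_Minv_add (A : Subring Ω) (I : Set (Ω →ₐ[O] Ω)) (N : Finset (WithConv (H →ₐ[O] Ω)))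
    {F G : WithConv (H →ₗ[O] Ω)} (hF : h9_Minv A I N F) (hG : h9_Minv A I N G) :
    h9_Minv A I N (F + G) :=
  ⟨fun h => A.add_mem (hF.1 h) (hG.1 h),
    fun σ hσ => by rw [map_add, hF.2.1 σ hσ, hG.2.1 σ hσ],
    fun n hn => by rw [mul_add, hF.2.2 n hn, hG.2.2 n hn]⟩

omit [Coalgebra.IsCocomm O H] in
theorem h9_Minv_neg (A : Subring Ω) (I : Set (Ω →ₐ[O] Ω)) (N : Finset (WithConv (H →ₐ[O] Ω)))
    {F : WithConv (H →ₗ[O] Ω)} (hF : h9_Minv A I N F) : h9_Minv A I N (-F) :=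
  ⟨fun h => A.neg_mem (hF.1 h),
    fun σ hσ => by rw [map_neg, hF.2.1 σ hσ],
    fun n hn => by rw [mul_neg, hF.2.2 n hn]⟩

/-- The multiplier ring of the module of invariant functionals. -/
def h9_mult (A : Subring Ω) (I : Set (Ω →ₐ[O] Ω)) (N : Finset (WithConv (H →ₐ[O] Ω))) :
    Subring (WithConv (H →ₗ[O] Ω)) where
  carrier := {G | ∀ F, h9_Minv A I N F → h9_Minv A I N (G * F)}
  mul_mem' {G G'} hG hG' F hF := by
    rw [mul_assoc]; exact hG _ (hG' _ hF)
  one_mem' F hF := by rw [one_mul]; exact hF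
  add_mem' {G G'} hG hG' F hF := by
    rw [add_mul]; exact h9_Minv_add A I N (hG _ hF) (hG' _ hF)
  zero_mem' F _ := by rw [zero_mul]; exact h9_Minv_zero A I N
  neg_mem' {G} hG F hF := by
    rw [neg_mul]; exact h9_Minv_neg A I N (hG _ hF)

/-- The annihilator of the module of invariant functionals in its multiplier ring. -/
def h9_ann (A : Subring Ω) (I : Set (Ω →ₐ[O] Ω)) (N : Finset (WithConv (H →ₐ[O] Ω))) :
    Ideal (h9_mult A I N) where
  carrier := {G | ∀ F, h9_Minv A I N F → (G : WithConv (H →ₗ[O] Ω)) * F = 0}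
  add_mem' {G G'} hG hG' F hF := by
    show ((G : WithConv (H →ₗ[O] Ω)) + G') * F = 0
    rw [add_mul, hG F hF, hG' F hF, add_zero]
  zero_mem' F _ := by
    show (0 : WithConv (H →ₗ[O] Ω)) * F = 0
    exact zero_mul _
  smul_mem' c {G} hG F hF := by
    show ((c : WithConv (H →ₗ[O] Ω)) * G) * F = 0
    rw [mul_assoc, hG F hF, mul_zero]

omit [Coalgebra.IsCocomm O H] in
theorem h9_conj_injective (σ : Ω →ₐ[O] Ω) :
    Function.Injective (h9_conj (H := H) σ) := by
  intro y z hyz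
  apply WithConv.ofConv_injective
  ext h
  have h1 : (h9_conj σ y).ofConv h = (h9_conj σ z).ofConv h := by rw [hyz]
  exact σ.toRingHom.injective h1

/-- **CRUX**, abstract form. -/
theorem h9_crux_abs (p : ℕ) (hp : p.Prime) (hp2 : p ≠ 2) (hpΩ : (p : Ω) ≠ 0)
    (A : Subring Ω) (m : AddSubgroup Ω) (hmA : ∀ a ∈ m, ∀ b ∈ A, a * b ∈ m)
    (I : Set (Ω →ₐ[O] Ω))
    (hunr : ∀ a ∈ m, (∀ σ ∈ I, σ a = a) → ∃ b ∈ A, a = (p : Ω) * b)
    (hsep : ∀ a : Ω, (∀ n : ℕ, ∃ b ∈ A, a = (p : Ω) ^ n * b) → a = 0)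
    (N : Finset (WithConv (H →ₐ[O] Ω))) (h1 : 1 ∈ N)
    (hmul : ∀ a ∈ N, ∀ b ∈ N, a * b ∈ N)
    (hinv : ∀ a ∈ N, ∃ b ∈ N, a * b = 1)
    (hNA : ∀ n ∈ N, ∀ h, n.ofConv h ∈ A)
    (hNI : ∀ σ ∈ I, ∀ n ∈ N, h9_conj σ n ∈ N)
    (x : WithConv (H →ₐ[O] Ω))
    (hxA : ∀ h, x.ofConv h ∈ A)
    (hx1 : ∀ h, x.ofConv h - algebraMap O Ω (counit (R := O) h) ∈ m)
    (hxp : x ^ p ∈ N)
    (hxI : ∀ σ ∈ I, ∃ n ∈ N, h9_conj σ x = x * n) :
    x ∈ N := by
  classical
  set X : WithConv (H →ₗ[O] Ω) := h9_pt x with hXdef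
  set E : WithConv (H →ₗ[O] Ω) := ∑ n ∈ N, h9_pt n with hEdef
  -- translation by `n ∈ N` permutes `N`
  have hNE : ∀ n ∈ N, h9_pt n * E = E := by
    intro n hn
    obtain ⟨n', hn', hnn'⟩ := hinv n hn
    rw [hEdef, Finset.mul_sum]
    refine Finset.sum_nbij' (fun a => n * a) (fun a => n' * a) ?_ ?_ ?_ ?_ ?_
    · intro a ha; exact hmul n hn a ha
    · intro a ha; exact hmul n' hn' a ha
    · intro a _
      show n' * (n * a) = a
      rw [← mul_assoc, mul_comm n' n, hnn', one_mul]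
    · intro a _
      show n * (n' * a) = a
      rw [← mul_assoc, hnn', one_mul]
    · intro a _
      exact (h9_pt_mul n a).symm
  -- Galois permutes `N`
  have hIE : ∀ σ ∈ I, h71_post σ E = E := by
    intro σ hσ
    have himg : N.image (h9_conj σ) = N := by
      apply Finset.eq_of_subset_of_card_le
      · intro y hy
        obtain ⟨n, hn, rfl⟩ := Finset.mem_image.1 hy
        exact hNI σ hσ n hn
      · rw [Finset.card_image_of_injective _ (h9_conj_injective σ)]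
    rw [hEdef, map_sum]
    calc ∑ n ∈ N, h71_post σ (h9_pt n) = ∑ n ∈ N, h9_pt (h9_conj σ n) := rfl
      _ = ∑ y ∈ N.image (h9_conj σ), h9_pt y :=
        (Finset.sum_image (fun a _ b _ hab => h9_conj_injective σ hab)).symm
      _ = ∑ y ∈ N, h9_pt y := by rw [himg]
  have hEM : h9_Minv A I N E := by
    refine ⟨fun h => ?_, hIE, hNE⟩
    rw [hEdef]
    have : (∑ n ∈ N, h9_pt n) h = ∑ n ∈ N, (h9_pt n) h := by
      change (WithConv.ofConv (∑ n ∈ N, h9_pt n)) h = _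
      rw [show WithConv.ofConv (∑ n ∈ N, h9_pt n) = ∑ n ∈ N, WithConv.ofConv (h9_pt n) from
        map_sum (WithConv.addEquiv (H →ₗ[O] Ω)) _ _]
      rw [LinearMap.sum_apply]
    rw [this]
    exact A.sum_mem (fun n hn => hNA n hn h)
  -- `X` is a multiplier
  have hXinv : ∀ F, h9_Minv A I N F → ∀ σ ∈ I, h71_post σ (X * F) = X * F := by
    intro F hF σ hσ
    obtain ⟨n, hn, hxn⟩ := hxI σ hσ
    rw [map_mul, hF.2.1 σ hσ, hXdef, h9_post_pt, hxn, h9_pt_mul, mul_assoc, hF.2.2 n hn]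
  have hX : X ∈ h9_mult A I N := by
    intro F hF
    refine ⟨fun h => ?_, hXinv F hF, fun n hn => ?_⟩
    · exact h9_val_mul (A : Set Ω) (A : Set Ω) A.toAddSubmonoid
        (fun a ha b hb => A.mul_mem ha hb) X F hxA hF.1 h
    · rw [mul_left_comm, hF.2.2 n hn]
  -- `W = (X - 1) / p` is a multiplier
  set W : WithConv (H →ₗ[O] Ω) :=
    algebraMap Ω (WithConv (H →ₗ[O] Ω)) ((p : Ω)⁻¹) * (X - 1) with hWdef
  have hX1 : ∀ h, (X - 1) h ∈ m := hx1
  have hG : ∀ F, h9_Minv A I N F → ∀ h, ∃ b ∈ A, ((X - 1) * F) h = (p : Ω) * b := by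
    intro F hF h
    apply hunr
    · exact h9_val_mul (m : Set Ω) (A : Set Ω) m.toAddSubmonoid hmA (X - 1) F hX1 hF.1 h
    · intro σ hσ
      have h2 : h71_post σ ((X - 1) * F) = (X - 1) * F := by
        rw [sub_mul, one_mul, map_sub, hXinv F hF σ hσ, hF.2.1 σ hσ]
      have h3 := h71_post_apply σ ((X - 1) * F) h
      rw [h2] at h3
      exact h3.symm
  have hW : W ∈ h9_mult A I N := by
    intro F hF
    refine ⟨fun h => ?_, fun σ hσ => ?_, fun n hn => ?_⟩
    · obtain ⟨b, hb, hbe⟩ := hG F hF h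
      have h2 : (W * F) h = (p : Ω)⁻¹ * ((X - 1) * F) h := by
        rw [hWdef, mul_assoc]
        exact h71_algebraMap_mul_apply _ _ h
      rw [h2, hbe, ← mul_assoc, inv_mul_cancel₀ hpΩ, one_mul]
      exact hb
    · have h2 : h71_post σ ((X - 1) * F) = (X - 1) * F := by
        rw [sub_mul, one_mul, map_sub, hXinv F hF σ hσ, hF.2.1 σ hσ]
      rw [hWdef, mul_assoc, map_mul, h2, h9_post_algebraMap, map_inv₀, map_natCast]
    · rw [mul_left_comm, hF.2.2 n hn]
  have hpC : ((p : ℕ) : WithConv (H →ₗ[O] Ω)) = algebraMap Ω (WithConv (H →ₗ[O] Ω)) (p : Ω) :=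
    (map_natCast _ p).symm
  have hpW : ((p : ℕ) : WithConv (H →ₗ[O] Ω)) * W = X - 1 := by
    rw [hWdef, hpC, ← mul_assoc, ← map_mul, mul_inv_cancel₀ hpΩ, map_one, one_mul]
  -- the quotient ring
  let Xr : h9_mult A I N := ⟨X, hX⟩
  let Wr : h9_mult A I N := ⟨W, hW⟩
  have hXW : Xr - 1 = ((p : ℕ) : h9_mult A I N) * Wr := by
    apply Subtype.ext
    show X - 1 = ((p : ℕ) : WithConv (H →ₗ[O] Ω)) * W
    exact hpW.symm
  let u : (h9_mult A I N) ⧸ (h9_ann A I N) := Ideal.Quotient.mk _ Xr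
  have hup : u ^ p = 1 := by
    show (Ideal.Quotient.mk (h9_ann A I N) Xr) ^ p = 1
    rw [← map_pow, ← map_one (Ideal.Quotient.mk (h9_ann A I N)), Ideal.Quotient.eq]
    intro F hF
    show (X ^ p - 1) * F = 0
    rw [hXdef, ← h9_pt_pow, sub_mul, one_mul, hF.2.2 _ hxp, sub_self]
  have hdiv : ((p : ℕ) : (h9_mult A I N) ⧸ (h9_ann A I N)) ^ 1 ∣ u - 1 := by
    refine ⟨Ideal.Quotient.mk _ Wr, ?_⟩
    show Ideal.Quotient.mk (h9_ann A I N) Xr - 1 = _
    rw [pow_one, ← map_one (Ideal.Quotient.mk (h9_ann A I N)), ← map_sub, hXW, map_mul,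
      map_natCast]
  have hreg : ∀ z : (h9_mult A I N) ⧸ (h9_ann A I N),
      ((p : ℕ) : (h9_mult A I N) ⧸ (h9_ann A I N)) * z = 0 → z = 0 := by
    intro z hz
    obtain ⟨G, rfl⟩ := Ideal.Quotient.mk_surjective z
    rw [← map_natCast (Ideal.Quotient.mk (h9_ann A I N)), ← map_mul,
      Ideal.Quotient.eq_zero_iff_mem] at hz
    rw [Ideal.Quotient.eq_zero_iff_mem]
    intro F hF
    have h2 : ((p : ℕ) : WithConv (H →ₗ[O] Ω)) * (G : WithConv (H →ₗ[O] Ω)) * F = 0 := hz F hF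
    rw [hpC, mul_assoc] at h2
    exact h71_conv_reg (p : Ω) (fun z hz => (mul_eq_zero.1 hz).resolve_left hpΩ) _ h2
  have hH : ∀ z : (h9_mult A I N) ⧸ (h9_ann A I N),
      (∀ n : ℕ, ((p : ℕ) : (h9_mult A I N) ⧸ (h9_ann A I N)) ^ n ∣ z) → z = 0 := by
    intro z hz
    obtain ⟨G, rfl⟩ := Ideal.Quotient.mk_surjective z
    rw [Ideal.Quotient.eq_zero_iff_mem]
    intro F hF
    apply WithConv.ofConv_injective
    ext h
    show ((G : WithConv (H →ₗ[O] Ω)) * F) h = 0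
    apply hsep
    intro n
    obtain ⟨zn, hzn⟩ := hz n
    obtain ⟨Gn, rfl⟩ := Ideal.Quotient.mk_surjective zn
    rw [← map_natCast (Ideal.Quotient.mk (h9_ann A I N)), ← map_pow, ← map_mul,
      Ideal.Quotient.eq] at hzn
    have h2 : ((G : WithConv (H →ₗ[O] Ω)) - ((p : ℕ) : WithConv (H →ₗ[O] Ω)) ^ n * Gn) * F = 0 :=
      hzn F hF
    have h3 : (G : WithConv (H →ₗ[O] Ω)) * F
        = algebraMap Ω (WithConv (H →ₗ[O] Ω)) ((p : Ω) ^ n) * ((Gn : WithConv (H →ₗ[O] Ω)) * F) := by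
      rw [map_pow, ← hpC, ← mul_assoc]
      rw [sub_mul] at h2
      exact sub_eq_zero.1 h2
    refine ⟨((Gn : WithConv (H →ₗ[O] Ω)) * F) h, (Gn.2 F hF).1 h, ?_⟩
    rw [h3]
    exact h71_algebraMap_mul_apply _ _ h
  have hp3 : 1 < (p - 1) * 1 := by
    have := hp.two_le
    omega
  have hu1 : u = 1 :=
    h71_rigid p hp ((p : ℕ) : (h9_mult A I N) ⧸ (h9_ann A I N)) 1 1 1 isUnit_one (by simp) hp3
      hreg hH u hup hdiv
  have hXE : X * E = E := by
    have h2 : Xr - 1 ∈ h9_ann A I N := by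
      rw [← Ideal.Quotient.eq, map_one]
      exact hu1
    have h3 : (X - 1) * E = 0 := h2 E hEM
    rw [sub_mul, one_mul] at h3
    exact sub_eq_zero.1 h3
  -- linear independence of characters
  by_contra hxN
  have hno : ∀ n ∈ N, x * n ≠ 1 := by
    intro n hn hxn
    obtain ⟨n', hn', hnn'⟩ := hinv n hn
    apply hxN
    have : x = n' := by
      calc x = x * (n * n') := by rw [hnn', mul_one]
        _ = (x * n) * n' := by rw [mul_assoc]
        _ = n' := by rw [hxn, one_mul]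
    rw [this]; exact hn'
  let φ : WithConv (H →ₐ[O] Ω) → (H →* Ω) := fun y => (y.ofConv : H →* Ω)
  have hφ : Function.Injective φ := by
    intro y z hyz
    apply WithConv.ofConv_injective
    ext h
    exact DFunLike.congr_fun hyz h
  have hli := linearIndependent_monoidHom H Ω
  rw [linearIndependent_iff_injective_finsuppLinearCombination] at hli
  let l₁ : (H →* Ω) →₀ Ω := ∑ n ∈ N, Finsupp.single (φ (x * n)) (1 : Ω)
  let l₂ : (H →* Ω) →₀ Ω := ∑ n ∈ N, Finsupp.single (φ n) (1 : Ω)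
  have hl : l₁ = l₂ := by
    apply hli
    show Finsupp.linearCombination Ω _ (∑ n ∈ N, Finsupp.single (φ (x * n)) (1 : Ω))
      = Finsupp.linearCombination Ω _ (∑ n ∈ N, Finsupp.single (φ n) (1 : Ω))
    rw [map_sum, map_sum]
    simp only [Finsupp.linearCombination_single, one_smul]
    funext h
    rw [Finset.sum_apply, Finset.sum_apply]
    have h2 : (X * E) h = E h := by rw [hXE]
    have h4 : ∀ F : Finset (WithConv (H →ₐ[O] Ω)), ∀ g : WithConv (H →ₐ[O] Ω) → WithConv (H →ₗ[O] Ω),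
        (∑ n ∈ F, g n) h = ∑ n ∈ F, (g n) h := by
      intro F g
      change (WithConv.ofConv (∑ n ∈ F, g n)) h = _
      rw [show WithConv.ofConv (∑ n ∈ F, g n) = ∑ n ∈ F, WithConv.ofConv (g n) from
        map_sum (WithConv.addEquiv (H →ₗ[O] Ω)) _ _]
      rw [LinearMap.sum_apply]
    rw [hEdef, Finset.mul_sum, h4, h4] at h2
    exact h2
  have h2 : l₂ (φ 1) = 1 := by
    show (∑ n ∈ N, Finsupp.single (φ n) (1 : Ω)) (φ 1) = 1
    rw [Finsupp.finsetSum_apply]
    simp only [Finsupp.single_apply, hφ.eq_iff]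
    rw [Finset.sum_ite_eq' N 1 (fun _ => (1 : Ω)), if_pos h1]
  have h3 : l₁ (φ 1) = 0 := by
    show (∑ n ∈ N, Finsupp.single (φ (x * n)) (1 : Ω)) (φ 1) = 0
    rw [Finsupp.finsetSum_apply]
    apply Finset.sum_eq_zero
    intro n hn
    rw [Finsupp.single_apply, if_neg]
    intro h
    exact hno n hn (hφ h)
  rw [hl, h2] at h3
  exact one_ne_zero h3

end main

end Fermat.Agent.S33
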