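import Mathlib
import Fermat.Prelude.Def_GaloisRep_Flat
import Fermat.Agent.S05.h26_Inertia
import Fermat.Agent.S56.h71_LocDVR
import Fermat.Agent.S33.h9_Crux
import Fermat.Agent.S33.h14_Unr
import Fermat.Agent.S19.h54_Fin

/-!
# S33 / (D1): the old part — the kernel of reduction has no inertia-trivial quotient

(helper9; board #2807, #3000.)

`h9_NoTriv I X` : every `I`-stable subgroup `X' ≤ X` is contained in every subgroup `Z`
containing `(σ - 1) X'` for all `σ ∈ I` (i.e. `X' = (I - 1) X'`: no nonzero `I`-trivial quotient).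

`h9_ordOld_abs` : let `H` be a finite commutative cocommutative bialgebra over `ℤ_(p)`, `p` odd,
whose group of `ℚ̄`-points is identified (`e`, additive and Galois-equivariant, exactly the shape of
the frozen S19 statement) with a finite `p`-primary subgroup `W` of a Galois module `J`.  For every
valuation subring `A` of `ℚ̄` over `p` with inertia group `I`, the subgroup `X0 ≤ W` of points
congruent to the unit point modulo `𝔪_A` is `I`-stable, contains `σ w - w` for all `w ∈ W`,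
`σ ∈ I`, and satisfies `h9_NoTriv I X0`.

Proof: `h9_crux_abs` (convolution-ring rigidity) + `h14_unr` (the inertia field is unramified).
-/

set_option autoImplicit false
set_option linter.unusedSectionVars false

namespace Fermat.Agent.S33

open scoped Pointwise
open WithConv Coalgebra Fermat.Agent.S56 Fermat.Agent.S13 Fermat.Agent.S05

local notation "Qb" => AlgebraicClosure ℚ
local notation "Γℚ" => (AlgebraicClosure ℚ ≃ₐ[ℚ] AlgebraicClosure ℚ)

/-- No nonzero quotient with trivial `I`-action, for all `I`-stable subgroups of `X`. -/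
def h9_NoTriv {G : Type*} {V : Type*} [AddCommGroup V] [SMul G V] (I : Set G)
    (X : AddSubgroup V) : Prop :=
  ∀ X' Z : AddSubgroup V, X' ≤ X → (∀ σ ∈ I, ∀ x ∈ X', σ • x ∈ X') →
    (∀ σ ∈ I, ∀ x ∈ X', σ • x - x ∈ Z) → X' ≤ Z

theorem h9_NoTriv.mono {G : Type*} {V : Type*} [AddCommGroup V] [SMul G V] {I : Set G}
    {X Y : AddSubgroup V} (h : h9_NoTriv I X) (hYX : Y ≤ X) : h9_NoTriv I Y :=
  fun X' Z hX' hst hZ => h X' Z (hX'.trans hYX) hst hZ

section noTriv

variable {G : Type*} {V V' : Type*} [AddCommGroup V] [AddCommGroup V'] [SMul G V] [SMul G V']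
  {I : Set G}

/-- `h9_NoTriv` relative to an equivariant map: an `I`-stable subgroup `X''` mapping into `X0`
is contained in every subgroup `Z` containing `(σ - 1) X''` and `X'' ∩ ker φ`. -/
theorem h9_NoTriv.rel {X0 : AddSubgroup V'} (h : h9_NoTriv I X0) (φ : V →+ V')
    (hφ : ∀ σ ∈ I, ∀ v : V, φ (σ • v) = σ • φ v) (X'' Z : AddSubgroup V)
    (hX : ∀ x ∈ X'', φ x ∈ X0) (hst : ∀ σ ∈ I, ∀ x ∈ X'', σ • x ∈ X'')
    (hZ : ∀ σ ∈ I, ∀ x ∈ X'', σ • x - x ∈ Z) (hker : ∀ x ∈ X'', φ x = 0 → x ∈ Z) :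
    X'' ≤ Z := by
  have h1 : X''.map φ ≤ (Z ⊓ X'').map φ := by
    apply h (X''.map φ) ((Z ⊓ X'').map φ)
    · rintro _ ⟨x, hx, rfl⟩
      exact hX x hx
    · rintro σ hσ _ ⟨x, hx, rfl⟩
      exact ⟨σ • x, hst σ hσ x hx, hφ σ hσ x⟩
    · rintro σ hσ _ ⟨x, hx, rfl⟩
      refine ⟨σ • x - x, ⟨hZ σ hσ x hx, X''.sub_mem (hst σ hσ x hx) hx⟩, ?_⟩
      rw [map_sub, hφ σ hσ x]
  intro x hx
  obtain ⟨z, ⟨hzZ, hzX⟩, hzx⟩ := h1 ⟨x, hx, rfl⟩
  have h2 : x - z ∈ Z := by
    apply hker _ (X''.sub_mem hx hzX)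
    rw [map_sub, hzx, sub_self]
  have : x = (x - z) + z := by abel
  rw [this]
  exact Z.add_mem h2 hzZ

theorem h9_noTriv_bot : h9_NoTriv I (⊥ : AddSubgroup V) := by
  intro X' Z hX' _ _ x hx
  have : x = 0 := (AddSubgroup.mem_bot).1 (hX' hx)
  rw [this]
  exact Z.zero_mem

/-- `h9_NoTriv` for an extension. -/
theorem h9_NoTriv.of_map {G : Type*} {V V' : Type*} [AddCommGroup V] [AddCommGroup V']
    [Monoid G] [DistribMulAction G V] [DistribMulAction G V'] {I : Set G}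
    {X : AddSubgroup V} (φ : V →+ V')
    (hφ : ∀ σ ∈ I, ∀ v : V, φ (σ • v) = σ • φ v) (h1 : h9_NoTriv I (X.map φ))
    (h2 : h9_NoTriv I (X ⊓ φ.ker)) : h9_NoTriv I X := by
  intro X' Z hX' hst hZ
  apply h1.rel φ hφ X' Z (fun x hx => ⟨x, hX' hx, rfl⟩) hst hZ
  have h3 : X' ⊓ φ.ker ≤ Z := by
    apply h2 (X' ⊓ φ.ker) Z
    · exact inf_le_inf_right _ hX'
    · rintro σ hσ x ⟨hx, hxk⟩
      refine ⟨hst σ hσ x hx, ?_⟩
      have hxk' : φ x = 0 := hxk
      show φ (σ • x) = 0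
      rw [hφ σ hσ x, hxk', smul_zero]
    · intro σ hσ x hx
      exact hZ σ hσ x hx.1
  intro x hx hxk
  exact h3 ⟨hx, hxk⟩

/-- `h9_NoTriv` for a product. -/
theorem h9_NoTriv.prod {G : Type*} {V₁ V₂ : Type*} [AddCommGroup V₁] [AddCommGroup V₂]
    [Monoid G] [DistribMulAction G V₁] [DistribMulAction G V₂] {I : Set G}
    {X₁ : AddSubgroup V₁} {X₂ : AddSubgroup V₂} (h1 : h9_NoTriv I X₁) (h2 : h9_NoTriv I X₂) :
    h9_NoTriv I (X₁.prod X₂) := by
  apply h9_NoTriv.of_map (AddMonoidHom.fst V₁ V₂) (fun _ _ _ => rfl)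
  · apply h1.mono
    rintro _ ⟨x, hx, rfl⟩
    exact hx.1
  · apply h9_NoTriv.of_map (AddMonoidHom.snd V₁ V₂) (fun _ _ _ => rfl)
    · apply h2.mono
      rintro _ ⟨x, hx, rfl⟩
      exact hx.1.2
    · apply h9_noTriv_bot.mono
      rintro x ⟨⟨_, hx1⟩, hx2⟩
      have hx1' : x.1 = 0 := hx1
      have hx2' : x.2 = 0 := hx2
      rw [AddSubgroup.mem_bot]
      exact Prod.ext hx1' hx2'

end noTriv

section sep

variable (p : ℕ) [Fact p.Prime]

/-- A valuation subring of `ℚ̄` over `p` is `p`-adically separated. -/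
theorem h9_sep (A : ValuationSubring Qb) (hA : A.LiesOverPrime p) (a : Qb)
    (h : ∀ n : ℕ, ∃ b ∈ A, a = (p : Qb) ^ n * b) : a = 0 := by
  have hp : p.Prime := Fact.out
  obtain ⟨g, rfl⟩ := h30_exists_smul_eq (padicPlace p) A p hp (h14_unr_place_lies p) hA
  have hp1 : (1 : ℝ) < p := by exact_mod_cast hp.one_lt
  have hle : ∀ n : ℕ, ‖padicEmbedding p (g⁻¹ a)‖ ≤ ((p : ℝ)⁻¹) ^ n := by
    intro n
    obtain ⟨b, hb, hab⟩ := h n
    rw [ValuationSubring.mem_pointwise_smul_iff_inv_smul_mem] at hb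
    have hb' : ‖padicEmbedding p (g⁻¹ b)‖ ≤ 1 := (h14_unr_mem_place p).1 hb
    rw [hab, map_mul, map_pow, map_natCast, map_mul, map_pow, map_natCast, norm_mul, norm_pow,
      h62_norm_p]
    calc ((p : ℝ)⁻¹) ^ n * ‖padicEmbedding p (g⁻¹ b)‖ ≤ ((p : ℝ)⁻¹) ^ n * 1 := by
          apply mul_le_mul_of_nonneg_left hb'
          positivity
      _ = ((p : ℝ)⁻¹) ^ n := mul_one _
  have h0 : ‖padicEmbedding p (g⁻¹ a)‖ = 0 := by
    by_contra hne
    have hpos : 0 < ‖padicEmbedding p (g⁻¹ a)‖ := lt_of_le_of_ne (norm_nonneg _) (Ne.symm hne)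
    obtain ⟨n, hn⟩ := exists_pow_lt_of_lt_one hpos (inv_lt_one_of_one_lt₀ hp1)
    exact absurd (hle n) (not_le.2 hn)
  rw [norm_eq_zero] at h0
  have h1 : g⁻¹ a = 0 := by
    apply (padicEmbedding p).toRingHom.injective
    rw [map_zero]
    exact h0
  have h2 : g (g⁻¹ a) = a := by
    show (g * g⁻¹) a = a
    rw [mul_inv_cancel]; rfl
  rw [← h2, h1, map_zero]

end sep

section main

variable (p : ℕ) [Fact p.Prime]

/-- The `ℤ_(p)`-algebra endomorphism of `ℚ̄` attached to a Galois element. -/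
noncomputable def h9_al (σ : Γℚ) : Qb →ₐ[GaloisRep.ratLocalizedAt p] Qb :=
  h71_ratLoc_algHom p (σ : Qb →+* Qb)

theorem h9_al_apply (σ : Γℚ) (x : Qb) : h9_al p σ x = σ x := rfl

/-- The maximal ideal of a valuation subring as an additive subgroup of the field. -/
def h9_mA (A : ValuationSubring Qb) : AddSubgroup Qb where
  carrier := A.nonunits
  add_mem' ha hb := h24_add_mem_nonunits A ha hb
  zero_mem' := h24_zero_mem_nonunits A
  neg_mem' ha := h24_neg_mem_nonunits A ha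

theorem h9_mem_mA (A : ValuationSubring Qb) (x : Qb) : x ∈ h9_mA A ↔ x ∈ A.nonunits := Iff.rfl

/-- Constants of `ℤ_(p)` lie in every valuation subring over `p`. -/
theorem h9_const_mem (A : ValuationSubring Qb) (hA : A.LiesOverPrime p)
    (c : GaloisRep.ratLocalizedAt p) : algebraMap (GaloisRep.ratLocalizedAt p) Qb c ∈ A := by
  have hp : p.Prime := Fact.out
  have h1 : algebraMap (GaloisRep.ratLocalizedAt p) Qb c = ((c : ℚ) : Qb) := by
    have : algebraMap (GaloisRep.ratLocalizedAt p) Qb c = algebraMap ℚ Qb (c : ℚ) := rfl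
    rw [this, eq_ratCast]
  rw [h1]
  apply h26_ratCast_mem A hp hA
  intro hdvd
  have hc : (c : ℚ).den.Coprime p := c.2
  have h2 : p ∣ Nat.gcd (c : ℚ).den p := Nat.dvd_gcd hdvd dvd_rfl
  rw [hc] at h2
  exact hp.one_lt.ne' (Nat.dvd_one.1 h2)

/-- Points of a finite `ℤ_(p)`-algebra have values in every valuation subring over `p`. -/
theorem h9_point_mem {H : Type*} [CommRing H] [Algebra (GaloisRep.ratLocalizedAt p) H]
    [Module.Finite (GaloisRep.ratLocalizedAt p) H] (A : ValuationSubring Qb)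
    (hA : A.LiesOverPrime p) (γ : H →ₐ[GaloisRep.ratLocalizedAt p] Qb) (h : H) : γ h ∈ A := by
  have hint : IsIntegral (GaloisRep.ratLocalizedAt p) h := Algebra.IsIntegral.isIntegral h
  obtain ⟨Q, hQ, hQ0⟩ := hint
  let ι : GaloisRep.ratLocalizedAt p →+* A :=
    { toFun := fun c => ⟨algebraMap (GaloisRep.ratLocalizedAt p) Qb c, h9_const_mem p A hA c⟩
      map_one' := Subtype.ext (map_one _)
      map_mul' := fun x y => Subtype.ext (map_mul _ x y)
      map_zero' := Subtype.ext (map_zero _)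
      map_add' := fun x y => Subtype.ext (map_add _ x y) }
  have hcomp : (algebraMap A Qb).comp ι = algebraMap (GaloisRep.ratLocalizedAt p) Qb := rfl
  have hint' : IsIntegral A (γ h) := by
    refine ⟨Q.map ι, hQ.map ι, ?_⟩
    rw [Polynomial.eval₂_map, hcomp, ← Polynomial.aeval_def, Polynomial.aeval_algHom_apply,
      Polynomial.aeval_def, hQ0, map_zero]
  obtain ⟨y, hy⟩ := IsIntegrallyClosed.isIntegral_iff.mp hint'
  rw [← hy]
  exact y.2

/-- A point congruent to the unit point modulo the maximal ideal of `A`. -/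
def h9_Cong {H : Type*} [CommRing H] [Bialgebra (GaloisRep.ratLocalizedAt p) H]
    (A : ValuationSubring Qb) (f : WithConv (H →ₐ[GaloisRep.ratLocalizedAt p] Qb)) : Prop :=
  ∀ h : H, f.ofConv h - algebraMap (GaloisRep.ratLocalizedAt p) Qb
    (counit (R := GaloisRep.ratLocalizedAt p) h) ∈ A.nonunits

section cong

variable {H : Type*} [CommRing H] [Bialgebra (GaloisRep.ratLocalizedAt p) H]
  [Coalgebra.IsCocomm (GaloisRep.ratLocalizedAt p) H] (A : ValuationSubring Qb)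

omit [Fact p.Prime] in
theorem h9_cong_one : h9_Cong p A (1 : WithConv (H →ₐ[GaloisRep.ratLocalizedAt p] Qb)) := by
  intro h
  have : (1 : WithConv (H →ₐ[GaloisRep.ratLocalizedAt p] Qb)).ofConv h
      = algebraMap (GaloisRep.ratLocalizedAt p) Qb (counit (R := GaloisRep.ratLocalizedAt p) h) :=
    rfl
  rw [this, sub_self]
  exact h24_zero_mem_nonunits A

omit [Fact p.Prime] in
theorem h9_cong_iff (f : WithConv (H →ₐ[GaloisRep.ratLocalizedAt p] Qb)) :
    h9_Cong p A f ↔ ∀ h : H, (h9_pt f - 1) h ∈ h9_mA A := Iff.rfl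

omit [Fact p.Prime] in
theorem h9_cong_mul (f g : WithConv (H →ₐ[GaloisRep.ratLocalizedAt p] Qb))
    (hf : h9_Cong p A f) (hg : h9_Cong p A g) (hgA : ∀ h, g.ofConv h ∈ A) :
    h9_Cong p A (f * g) := by
  rw [h9_cong_iff] at hf hg ⊢
  intro h
  have e1 : h9_pt (f * g) - 1 = (h9_pt f - 1) * h9_pt g + (h9_pt g - 1) := by
    rw [h9_pt_mul]; ring
  rw [e1]
  have h2 : ((h9_pt f - 1) * h9_pt g) h ∈ (h9_mA A).toAddSubmonoid :=
    h9_val_mul (h9_mA A : Set Qb) (A : Set Qb) (h9_mA A).toAddSubmonoid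
      (fun a ha b hb => h26_mul_mem_nonunits_right A ha hb) _ _ hf hgA h
  exact (h9_mA A).add_mem h2 (hg h)

omit [Fact p.Prime] in
theorem h9_cong_of_mul_eq_one (f f' : WithConv (H →ₐ[GaloisRep.ratLocalizedAt p] Qb))
    (hff' : f * f' = 1) (hf : h9_Cong p A f) (hf'A : ∀ h, f'.ofConv h ∈ A) :
    h9_Cong p A f' := by
  rw [h9_cong_iff] at hf ⊢
  intro h
  have e0 : h9_pt f * h9_pt f' = 1 := by rw [← h9_pt_mul, hff', h9_pt_one]
  have e1 : h9_pt f' - 1 = -(h9_pt f' * (h9_pt f - 1)) := by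
    have : h9_pt f' * h9_pt f = 1 := by rw [mul_comm]; exact e0
    rw [mul_sub, this]; ring
  rw [e1]
  have h2 : (h9_pt f' * (h9_pt f - 1)) h ∈ (h9_mA A).toAddSubmonoid :=
    h9_val_mul (A : Set Qb) (h9_mA A : Set Qb) (h9_mA A).toAddSubmonoid
      (fun a ha b hb => h26_mul_mem_nonunits_left A ha hb) _ _ hf'A hf h
  exact (h9_mA A).neg_mem h2

theorem h9_cong_conj (σ : Γℚ) (hσ : σ ∈ A.inertiaSubgroupIn ℚ)
    (f : WithConv (H →ₐ[GaloisRep.ratLocalizedAt p] Qb)) (hf : h9_Cong p A f) :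
    h9_Cong p A (h9_conj (h9_al p σ) f) := by
  intro h
  have e1 : (h9_conj (h9_al p σ) f).ofConv h - algebraMap (GaloisRep.ratLocalizedAt p) Qb
      (counit (R := GaloisRep.ratLocalizedAt p) h)
      = σ (f.ofConv h - algebraMap (GaloisRep.ratLocalizedAt p) Qb
        (counit (R := GaloisRep.ratLocalizedAt p) h)) := by
    rw [map_sub]
    congr 1
    exact ((h9_al p σ).commutes _).symm
  rw [e1]
  have h2 := Fermat.Agent.S55.h56_smul_mem_nonunits A σ (hf h)
  rwa [h26_smul_eq_of_mem_inertia A hσ] at h2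

theorem h9_cong_conj_mul (σ : Γℚ) (hσ : σ ∈ A.inertiaSubgroupIn ℚ)
    (f f' : WithConv (H →ₐ[GaloisRep.ratLocalizedAt p] Qb)) (hff' : f * f' = 1)
    (hfA : ∀ h, f.ofConv h ∈ A) (hf'A : ∀ h, f'.ofConv h ∈ A) :
    h9_Cong p A (h9_conj (h9_al p σ) f * f') := by
  rw [h9_cong_iff]
  intro h
  have e0 : h9_pt f * h9_pt f' = 1 := by rw [← h9_pt_mul, hff', h9_pt_one]
  have e1 : h9_pt (h9_conj (h9_al p σ) f * f') - 1
      = (h9_pt (h9_conj (h9_al p σ) f) - h9_pt f) * h9_pt f' := by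
    rw [h9_pt_mul, sub_mul, e0]
  rw [e1]
  have h1 : ∀ h, (h9_pt (h9_conj (h9_al p σ) f) - h9_pt f) h ∈ (h9_mA A : Set Qb) := by
    intro h
    exact h26_sub_mem_nonunits_of_mem_inertia A hσ (hfA h)
  exact h9_val_mul (h9_mA A : Set Qb) (A : Set Qb) (h9_mA A).toAddSubmonoid
    (fun a ha b hb => h26_mul_mem_nonunits_right A ha hb) _ _ h1 hf'A h

end cong

section ordOld

variable {H : Type*} [CommRing H] [Bialgebra (GaloisRep.ratLocalizedAt p) H]
  [Coalgebra.IsCocomm (GaloisRep.ratLocalizedAt p) H]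
  [Module.Finite (GaloisRep.ratLocalizedAt p) H]
  {J : Type*} [AddCommGroup J] [DistribMulAction Γℚ J]

/-- **(D1), abstract form.**  The points congruent to `1` modulo `𝔪_A` form an inertia-stable
subgroup `X0` of `W` containing `(σ - 1) W` and with no inertia-trivial quotient. -/
theorem h9_ordOld_abs (hp2 : p ≠ 2) (A : ValuationSubring Qb) (hA : A.LiesOverPrime p)
    (W : Submodule ℤ J) [Finite W] (hWp : ∀ w ∈ W, ∃ k : ℕ, p ^ k • w = 0)
    (e : WithConv (H →ₐ[GaloisRep.ratLocalizedAt p] Qb) ≃ W)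
    (he : ∀ f g, e (f * g) = e f + e g)
    (heσ : ∀ (σ : Γℚ) (f g : WithConv (H →ₐ[GaloisRep.ratLocalizedAt p] Qb)),
      (∀ h : H, g h = σ (f h)) → ((e g : J)) = σ • (e f : J)) :
    ∃ X0 : AddSubgroup J, (∀ x ∈ X0, x ∈ W) ∧
      (∀ σ ∈ A.inertiaSubgroupIn ℚ, ∀ x ∈ X0, σ • x ∈ X0) ∧
      (∀ σ ∈ A.inertiaSubgroupIn ℚ, ∀ w ∈ W, σ • w - w ∈ X0) ∧
      h9_NoTriv (A.inertiaSubgroupIn ℚ : Set Γℚ) X0 := by
  classical
  have hp : p.Prime := Fact.out
  have hpQ : ((p : ℕ) : Qb) ≠ 0 := by exact_mod_cast hp.ne_zero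
  -- basic facts on `e`
  have hconj : ∀ (σ : Γℚ) (f : WithConv (H →ₐ[GaloisRep.ratLocalizedAt p] Qb)),
      (e (h9_conj (h9_al p σ) f) : J) = σ • (e f : J) := fun σ f => heσ σ f _ (fun _ => rfl)
  have he1 : e 1 = 0 := by
    have h := he 1 1
    rw [mul_one] at h
    exact left_eq_add.mp h
  have hval : ∀ (f : WithConv (H →ₐ[GaloisRep.ratLocalizedAt p] Qb)) (h : H), f.ofConv h ∈ A :=
    fun f h => h9_point_mem p A hA f.ofConv h
  have hpow : ∀ (f : WithConv (H →ₐ[GaloisRep.ratLocalizedAt p] Qb)) (k : ℕ),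
      e (f ^ k) = k • e f := by
    intro f k
    induction k with
    | zero => rw [pow_zero, zero_smul, he1]
    | succ k ih => rw [pow_succ, he, ih, succ_nsmul]
  have hsymm_add : ∀ w w' : W, e.symm (w + w') = e.symm w * e.symm w' := by
    intro w w'
    apply e.injective
    rw [he, e.apply_symm_apply, e.apply_symm_apply, e.apply_symm_apply]
  have hsymm_zero : e.symm 0 = 1 := by
    apply e.injective
    rw [e.apply_symm_apply, he1]
  have hmul_neg : ∀ w : W, e.symm w * e.symm (-w) = 1 := by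
    intro w
    rw [← hsymm_add, add_neg_cancel, hsymm_zero]
  -- the subgroup `X0`
  let X0 : AddSubgroup J :=
    { carrier := {w | ∃ hw : w ∈ W, h9_Cong p A (e.symm ⟨w, hw⟩)}
      zero_mem' := by
        refine ⟨W.zero_mem, ?_⟩
        have : e.symm ⟨0, W.zero_mem⟩ = 1 := hsymm_zero
        rw [this]
        exact h9_cong_one p A
      add_mem' := by
        rintro a b ⟨ha, hca⟩ ⟨hb, hcb⟩
        refine ⟨W.add_mem ha hb, ?_⟩
        have : e.symm ⟨a + b, W.add_mem ha hb⟩ = e.symm ⟨a, ha⟩ * e.symm ⟨b, hb⟩ :=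
          hsymm_add ⟨a, ha⟩ ⟨b, hb⟩
        rw [this]
        exact h9_cong_mul p A _ _ hca hcb (hval _)
      neg_mem' := by
        rintro a ⟨ha, hca⟩
        refine ⟨W.neg_mem ha, ?_⟩
        have h1 : e.symm ⟨a, ha⟩ * e.symm ⟨-a, W.neg_mem ha⟩ = 1 := hmul_neg ⟨a, ha⟩
        exact h9_cong_of_mul_eq_one p A _ _ h1 hca (hval _) }
  have hX0W : ∀ x ∈ X0, x ∈ W := fun x hx => hx.1
  have hσW : ∀ (σ : Γℚ) (w : J) (hw : w ∈ W), ∃ hw' : σ • w ∈ W,
      e.symm ⟨σ • w, hw'⟩ = h9_conj (h9_al p σ) (e.symm ⟨w, hw⟩) := by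
    intro σ w hw
    have h1 := hconj σ (e.symm ⟨w, hw⟩)
    rw [e.apply_symm_apply] at h1
    have hw' : σ • w ∈ W := by
      have : σ • w = (e (h9_conj (h9_al p σ) (e.symm ⟨w, hw⟩)) : J) := h1.symm
      rw [this]
      exact (e _).2
    refine ⟨hw', ?_⟩
    apply e.injective
    rw [e.apply_symm_apply]
    exact Subtype.ext h1.symm
  have hX0st : ∀ σ ∈ A.inertiaSubgroupIn ℚ, ∀ x ∈ X0, σ • x ∈ X0 := by
    rintro σ hσ x ⟨hx, hcx⟩
    obtain ⟨hw', he'⟩ := hσW σ x hx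
    refine ⟨hw', ?_⟩
    rw [he']
    exact h9_cong_conj p A σ hσ _ hcx
  have hX0sub : ∀ σ ∈ A.inertiaSubgroupIn ℚ, ∀ w ∈ W, σ • w - w ∈ X0 := by
    intro σ hσ w hw
    obtain ⟨hw', he'⟩ := hσW σ w hw
    have hmem : σ • w - w ∈ W := W.sub_mem hw' hw
    refine ⟨hmem, ?_⟩
    have h1 : e.symm ⟨σ • w - w, hmem⟩
        = h9_conj (h9_al p σ) (e.symm ⟨w, hw⟩) * e.symm (-⟨w, hw⟩) := by
      rw [← he', ← hsymm_add]
      congr 1
      apply Subtype.ext
      show σ • w - w = σ • w + -w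
      rw [sub_eq_add_neg]
    rw [h1]
    exact h9_cong_conj_mul p A σ hσ _ _ (hmul_neg ⟨w, hw⟩) (hval _) (hval _)
  refine ⟨X0, hX0W, hX0st, hX0sub, ?_⟩
  -- no inertia-trivial quotient
  intro X' Z hX' hst hZ
  let N : AddSubgroup J :=
    AddSubgroup.closure {y | ∃ σ ∈ A.inertiaSubgroupIn ℚ, ∃ x ∈ X', y = σ • x - x}
  have hNZ : N ≤ Z := by
    rw [AddSubgroup.closure_le]
    rintro y ⟨σ, hσ, x, hx, rfl⟩
    exact hZ σ hσ x hx
  have hNX' : N ≤ X' := by
    rw [AddSubgroup.closure_le]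
    rintro y ⟨σ, hσ, x, hx, rfl⟩
    exact X'.sub_mem (hst σ hσ x hx) hx
  have hNst : ∀ τ ∈ A.inertiaSubgroupIn ℚ, ∀ y ∈ N, τ • y ∈ N := by
    intro τ hτ y hy
    induction hy using AddSubgroup.closure_induction with
    | mem y hy =>
      obtain ⟨σ, hσ, x, hx, rfl⟩ := hy
      apply AddSubgroup.subset_closure
      refine ⟨τ * σ * τ⁻¹, ?_, τ • x, hst τ hτ x hx, ?_⟩
      · exact (A.inertiaSubgroupIn ℚ).mul_mem ((A.inertiaSubgroupIn ℚ).mul_mem hτ hσ)
          ((A.inertiaSubgroupIn ℚ).inv_mem hτ)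
      · rw [smul_sub, mul_smul, mul_smul, inv_smul_smul]
    | zero => rw [smul_zero]; exact N.zero_mem
    | add a b _ _ ha hb => rw [smul_add]; exact N.add_mem ha hb
    | neg a _ ha => rw [smul_neg]; exact N.neg_mem ha
  have hNsub : ∀ σ ∈ A.inertiaSubgroupIn ℚ, ∀ x ∈ X', σ • x - x ∈ N := by
    intro σ hσ x hx
    exact AddSubgroup.subset_closure ⟨σ, hσ, x, hx, rfl⟩
  suffices hX'N : X' ≤ N from hX'N.trans hNZ
  by_contra hne
  obtain ⟨x, hxX', hxN⟩ := SetLike.not_le_iff_exists.1 hne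
  -- reduce to `p • y ∈ N`
  have hxW : x ∈ W := hX0W x (hX' hxX')
  obtain ⟨K, hK⟩ := hWp x hxW
  have hex : ∃ k : ℕ, p ^ k • x ∈ N := ⟨K, by rw [hK]; exact N.zero_mem⟩
  have hk0 : Nat.find hex ≠ 0 := by
    intro h0
    have := Nat.find_spec hex
    rw [h0, pow_zero, one_smul] at this
    exact hxN this
  obtain ⟨k, hk⟩ := Nat.exists_eq_succ_of_ne_zero hk0
  set y : J := p ^ k • x with hy
  have hyX' : y ∈ X' := X'.nsmul_mem hxX' _
  have hyN : y ∉ N := by
    have := Nat.find_min hex (show k < Nat.find hex by rw [hk]; exact Nat.lt_succ_self k)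
    exact this
  have hpyN : p • y ∈ N := by
    have := Nat.find_spec hex
    rw [hk, pow_succ', mul_smul] at this
    exact this
  obtain ⟨hyW, hcy⟩ := hX' hyX'
  -- the finite set of points attached to `N`
  have : Finite (WithConv (H →ₐ[GaloisRep.ratLocalizedAt p] Qb)) := Finite.of_equiv _ e.symm
  have : Fintype (WithConv (H →ₐ[GaloisRep.ratLocalizedAt p] Qb)) := Fintype.ofFinite _
  let Nf : Finset (WithConv (H →ₐ[GaloisRep.ratLocalizedAt p] Qb)) :=
    Finset.univ.filter (fun f => (e f : J) ∈ N)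
  have hNf : ∀ f, f ∈ Nf ↔ (e f : J) ∈ N := fun f => by
    simp only [Nf, Finset.mem_filter, Finset.mem_univ, true_and]
  have hNW : ∀ z ∈ N, z ∈ W := fun z hz => hX0W z (hX' (hNX' hz))
  have key : e.symm ⟨y, hyW⟩ ∈ Nf := by
    apply h9_crux_abs p hp hp2 hpQ A.toSubring (h9_mA A)
      (fun a ha b hb => h26_mul_mem_nonunits_right A ha hb)
      {φ | ∃ σ ∈ A.inertiaSubgroupIn ℚ, φ = h9_al p σ}
    · -- hunr
      intro a ha hfix
      obtain ⟨b, hb, hab, -⟩ := h14_unr p A hA a ha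
        (fun σ hσ => hfix (h9_al p σ) ⟨σ, hσ, rfl⟩)
      exact ⟨b, hb, hab⟩
    · -- hsep
      intro a ha
      exact h9_sep p A hA a ha
    · -- 1 ∈ Nf
      rw [hNf, he1]
      exact N.zero_mem
    · -- mul
      intro a ha b hb
      rw [hNf] at ha hb ⊢
      rw [he]
      exact N.add_mem ha hb
    · -- inv
      intro a ha
      rw [hNf] at ha
      refine ⟨e.symm (-(e a)), ?_, ?_⟩
      · rw [hNf, e.apply_symm_apply]
        exact N.neg_mem ha
      · have := hmul_neg (e a)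
        rwa [e.symm_apply_apply] at this
    · -- values
      intro n _ h
      exact hval n h
    · -- Galois stable
      rintro φ ⟨σ, hσ, rfl⟩ n hn
      rw [hNf] at hn ⊢
      rw [hconj]
      exact hNst σ hσ _ hn
    · exact hval _
    · exact hcy
    · -- x ^ p ∈ Nf
      rw [hNf, hpow, e.apply_symm_apply]
      exact hpyN
    · -- inertia acts trivially modulo `N`
      rintro φ ⟨σ, hσ, rfl⟩
      have hmem : σ • y - y ∈ N := hNsub σ hσ y hyX'
      refine ⟨e.symm ⟨σ • y - y, hNW _ hmem⟩, ?_, ?_⟩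
      · rw [hNf, e.apply_symm_apply]
        exact hmem
      · apply e.injective
        apply Subtype.ext
        rw [hconj, he, e.apply_symm_apply, e.apply_symm_apply]
        show σ • y = y + (σ • y - y)
        abel
  rw [hNf, e.apply_symm_apply] at key
  exact hyN key

end ordOld

section JZero

open ModularCurve

/-- The conclusion of the frozen statement S19 at level `M`, prime `p`, exponent `n`
(verbatim shape). -/
def h9_S19At (M : ℕ) [NeZero M] (p : ℕ) (n : ℕ) : Prop :=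
  ∃ (H : Type) (_ : CommRing H) (_ : HopfAlgebra (GaloisRep.ratLocalizedAt p) H),
    Module.Finite (GaloisRep.ratLocalizedAt p) H ∧ Module.Flat (GaloisRep.ratLocalizedAt p) H ∧
    Coalgebra.IsCocomm (GaloisRep.ratLocalizedAt p) H ∧
    ∃ e : WithConv (H →ₐ[GaloisRep.ratLocalizedAt p] AlgebraicClosure ℚ) ≃
        ↥(Submodule.torsionBy ℤ (JZero M) ((p : ℤ) ^ n)),
      (∀ f g, e (f * g) = e f + e g) ∧
      ∀ (σ : AlgebraicClosure ℚ ≃ₐ[ℚ] AlgebraicClosure ℚ)
        (f g : WithConv (H →ₐ[GaloisRep.ratLocalizedAt p] AlgebraicClosure ℚ)),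
        (∀ h : H, g h = σ (f h)) → ((e g : JZero M)) = σ • (e f : JZero M)

/-- **(D1) for `J₀(M)[p ^ n]`** from the frozen S19 statement: for every place `A` of `ℚ̄` over
the odd prime `p` there is an inertia-stable subgroup `X0 ≤ J₀(M)[p ^ n]` containing
`σ w - w` (`σ` in the inertia group, `w ∈ J₀(M)[p ^ n]`) and without inertia-trivial quotient. -/
theorem h9_ordOld (M : ℕ) [NeZero M] (hp2 : p ≠ 2) (n : ℕ) (hS19 : h9_S19At M p n)
    (A : ValuationSubring Qb) (hA : A.LiesOverPrime p) :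
    ∃ X0 : AddSubgroup (JZero M), (∀ x ∈ X0, p ^ n • x = 0) ∧
      (∀ σ ∈ A.inertiaSubgroupIn ℚ, ∀ x ∈ X0, σ • x ∈ X0) ∧
      (∀ σ ∈ A.inertiaSubgroupIn ℚ, ∀ w : JZero M, p ^ n • w = 0 → σ • w - w ∈ X0) ∧
      h9_NoTriv (A.inertiaSubgroupIn ℚ : Set Γℚ) X0 := by
  have hp : p.Prime := Fact.out
  obtain ⟨H, _, _, hfin, -, hcc, e, he, heσ⟩ := hS19
  have hpow : ((p : ℤ) ^ n) ≠ 0 := pow_ne_zero _ (Int.natCast_ne_zero.mpr hp.ne_zero)
  have hfinW : Finite ↥(Submodule.torsionBy ℤ (JZero M) ((p : ℤ) ^ n)) :=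
    Fermat.Agent.S19.h54_finite_torsionBy M _ hpow
  have hmem : ∀ w : JZero M, w ∈ Submodule.torsionBy ℤ (JZero M) ((p : ℤ) ^ n) ↔
      p ^ n • w = 0 := by
    intro w
    rw [Submodule.mem_torsionBy_iff]
    have : ((p : ℤ) ^ n) • w = (p ^ n : ℕ) • w := by
      rw [← natCast_zsmul]; push_cast; rfl
    rw [this]
  obtain ⟨X0, h1, h2, h3, h4⟩ := h9_ordOld_abs p hp2 A hA
    (Submodule.torsionBy ℤ (JZero M) ((p : ℤ) ^ n))
    (fun w hw => ⟨n, (hmem w).1 hw⟩) e he heσ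
  exact ⟨X0, fun x hx => (hmem x).1 (h1 x hx), h2, fun σ hσ w hw => h3 σ hσ w ((hmem w).2 hw), h4⟩

end JZero

end main

end Fermat.Agent.S33
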