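import Mathlib
import Fermat.Agent.S33.h9_OrdOld
import Fermat.Agent.S33.h24_NoTrivPair
import Fermat.Agent.S19.h38_Final

/-!
# S33 (D1), consumer shape: `h82_ord_old`

The kernel of reduction `K ≤ J₀(M)[p ^ n]` at a place `A` of `ℚ̄` over an odd prime `p ∤ M`:
killed by `p ^ n`, contains `(σ - 1) J₀(M)[p ^ n]` for `σ` in the inertia group of `A`, and has
no inertia-trivial quotient, in the `h24_NoTriv` shape consumed by `h24_notriv_pair`.

Pure bridge: `h9_ordOld` (helper9, abstract statement with the frozen S19 shape as hypothesis)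
applied to `Fermat.Agent.S19.h38_S19` (S19 on main), plus the `h9_NoTriv → h24_NoTriv` and
`ℕ`-smul / `ℤ`-smul conversions.
-/

set_option autoImplicit false

namespace Fermat.Agent.S33

open ModularCurve

local notation "Qb" => AlgebraicClosure ℚ
local notation "Γℚ" => (AlgebraicClosure ℚ ≃ₐ[ℚ] AlgebraicClosure ℚ)

/-- `h9_NoTriv` (set of group elements acting through `SMul`) gives `h24_NoTriv` for the action
of the subtype. -/
theorem h82_noTriv_of_h9 {G : Type*} {V : Type*} [AddCommGroup V] [SMul G V] (I : Set G)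
    (X : AddSubgroup V) (h : h9_NoTriv I X) :
    h24_NoTriv (fun (σ : ↥I) (z : V) => (σ : G) • z) X :=
  fun X' Z hX' hst hZ => h X' Z hX' (fun σ hσ x hx => hst ⟨σ, hσ⟩ x hx)
    (fun σ hσ x hx => hZ ⟨σ, hσ⟩ x hx)

/-- **(D1), consumer shape.** -/
theorem h82_ord_old (M : ℕ) [NeZero M] (p : ℕ) [Fact p.Prime] (hp2 : p ≠ 2) (hpM : ¬ p ∣ M)
    (n : ℕ) (A : ValuationSubring Qb) (hA : A.LiesOverPrime p) :
    ∃ K : AddSubgroup (JZero M), (∀ z ∈ K, ((p : ℤ) ^ n) • z = 0) ∧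
      (∀ σ ∈ A.inertiaSubgroupIn ℚ, ∀ z ∈ K, σ • z ∈ K) ∧
      (∀ σ ∈ A.inertiaSubgroupIn ℚ, ∀ z : JZero M, ((p : ℤ) ^ n) • z = 0 → σ • z - z ∈ K) ∧
      h24_NoTriv (fun (σ : ↥(A.inertiaSubgroupIn ℚ)) (z : JZero M) => (σ : Γℚ) • z) K := by
  have hconv : ∀ w : JZero M, ((p : ℤ) ^ n) • w = p ^ n • w := by
    intro w
    have : ((p : ℤ) ^ n) = ((p ^ n : ℕ) : ℤ) := by push_cast; rfl
    rw [this, natCast_zsmul]
  obtain ⟨X0, h1, h2, h3, h4⟩ :=
    h9_ordOld p M hp2 n (Fermat.Agent.S19.h38_S19 M p hpM n) A hA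
  refine ⟨X0, fun z hz => ?_, h2, fun σ hσ z hz => ?_, ?_⟩
  · rw [hconv]; exact h1 z hz
  · exact h3 σ hσ z (by rw [← hconv]; exact hz)
  · exact h82_noTriv_of_h9 _ X0 h4

end Fermat.Agent.S33
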