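import Mathlib
import Fermat.Agent.S33.h52_GeomInst
import Fermat.Agent.S33.h82_OrdOld
import Fermat.Agent.S33.h70_NewBridge

/-!
# S33, row GEOM-J (helper52): the per-level geometric statement `h9_GeomStmt` on `J₀(N)[p^n]`

* `h52_geomStmt` : for `p` odd, `p ∥ N`, a place `A` over `p` and any `σ0`:
  `h70_NewMin N p A σ0 → h9_GeomStmt N p A σ0 n` for every `n`
  (old part: `h82_ord_old` at the level `N / p`; degeneracy maps: `h52_Degen`);
* `h52_geomStmt_of_star` : the same from (N*) at the charted levels (`h70_newMin_all`).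
-/

set_option autoImplicit false
set_option linter.unusedSectionVars false

namespace Fermat.Agent.S33

open ModularCurve Fermat.Agent.GAL Fermat.Agent.S35

local notation "Qb" => AlgebraicClosure ℚ
local notation "Γℚ" => (AlgebraicClosure ℚ ≃ₐ[ℚ] AlgebraicClosure ℚ)

/-- **Row GEOM-J.** The per-level geometric statement from the new-part input at level `N`. -/
theorem h52_geomStmt (N p : ℕ) [NeZero N] [NeZero p] [Fact p.Prime] (hp2 : p ≠ 2)
    (hpN : p ∣ N) (hp2N : ¬ p ^ 2 ∣ N) (A : ValuationSubring Qb) (hA : A.LiesOverPrime p)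
    (σ0 : Γℚ) (hnew : h70_NewMin N p A σ0) (n : ℕ) : h9_GeomStmt N p A σ0 n := by
  refine h52_geomStmt_N N p hpN hp2N n A σ0 (fun M _ hpM => ?_) hnew
  obtain ⟨K, -, -, hK1, hK2⟩ := h82_ord_old M p hp2 hpM n A hA
  exact ⟨K, hK1, hK2⟩

/-- **Row GEOM-J from (N*)**: the per-level geometric statement at every level `N` with `p ∥ N`
from the toric statement (N*) at the charted levels `M p`. -/
theorem h52_geomStmt_of_star (p : ℕ) [NeZero p] [Fact p.Prime] (hp2 : p ≠ 2)
    (A : ValuationSubring Qb) (hA : A.LiesOverPrime p) (σ0 : Γℚ)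
    (hstar : ∀ (M : ℕ) [NeZero M] (hpM : ¬ p ∣ M), (5 ≤ p ∨ 2 ∣ M ∨ 3 ∣ M) →
      ∀ z : JZero (M * p), p • z = 0 → h29_Toric M p hpM A hA p z → h67_Jnew M p z →
        σ0 • z = z → z = 0)
    (N : ℕ) [NeZero N] (hpN : p ∣ N) (hp2N : ¬ p ^ 2 ∣ N) (n : ℕ) : h9_GeomStmt N p A σ0 n :=
  h52_geomStmt N p hp2 hpN hp2N A hA σ0 (h70_newMin_all p A hA σ0 hstar N hpN hp2N) n

end Fermat.Agent.S33
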