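import Mathlib
import Fermat.Agent.S34.h60_SerRed

/-!
# S33, row (N1), series level (helper10): the depth of the norm `K((q)) → K((q^p))`

`K` a field, `A` a valuation subring, `h60_Os A ⊆ K((q))` the ring of ratios of `A`-integral
Laurent series with nonzero reduced denominator (S34, helper60).

* `h10_J A d` : the additive subgroup `d · h60_Os A` of `K((q))`;
* `h10_twist_sub_mem` : `Y(ζ^b q) - Y(q) ∈ (ζ - 1) · h60_Os A` for `Y ∈ h60_Os A`, `ζ` a unit of `A`;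
* `h10_depth_ser` : if `s ∈ 1 + c · Os`, `g(q^p) = ∏_{b<p} s(ζ^b q)` and `d` divides `(ζ - 1) c`
  and `c ^ p` in `A`, then `g ∈ 1 + d · Os` (`p` the residue characteristic, `ζ` a primitive `p`-th
  root of unity in `A`).
-/

set_option autoImplicit false
set_option synthInstance.maxHeartbeats 400000

noncomputable section

open ModularCurve

namespace Fermat.Agent.S33

open Fermat.Agent.S18 Fermat.Agent.S37 Fermat.Agent.S34

section Ser

variable {K : Type*} [Field K] (A : ValuationSubring K)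

/-- `d · Os`, as an additive subgroup of `K((q))`. -/
def h10_J (d : K) : AddSubgroup (LaurentSeries K) where
  carrier := {X | ∃ Z ∈ h60_Os A, X = algebraMap K (LaurentSeries K) d * Z}
  zero_mem' := ⟨0, zero_mem _, by rw [mul_zero]⟩
  add_mem' := by
    rintro _ _ ⟨Z, hZ, rfl⟩ ⟨Z', hZ', rfl⟩
    exact ⟨Z + Z', add_mem hZ hZ', by rw [mul_add]⟩
  neg_mem' := by
    rintro _ ⟨Z, hZ, rfl⟩
    exact ⟨-Z, neg_mem hZ, by rw [mul_neg]⟩

theorem h10_mem_J {d : K} {X : LaurentSeries K} :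
    X ∈ h10_J A d ↔ ∃ Z ∈ h60_Os A, X = algebraMap K (LaurentSeries K) d * Z := Iff.rfl

theorem h10_J_mul {d : K} {X W : LaurentSeries K} (hX : X ∈ h10_J A d) (hW : W ∈ h60_Os A) :
    X * W ∈ h10_J A d := by
  obtain ⟨Z, hZ, rfl⟩ := hX
  exact ⟨Z * W, mul_mem hZ hW, by rw [mul_assoc]⟩

theorem h10_J_mul' {d : K} {X W : LaurentSeries K} (hX : X ∈ h10_J A d) (hW : W ∈ h60_Os A) :
    W * X ∈ h10_J A d := by
  rw [mul_comm]
  exact h10_J_mul A hX hW

/-- `d · Os ⊆ d' · Os` if `d = d' a` with `a ∈ A`. -/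
theorem h10_J_mono {d d' a : K} (ha : a ∈ A) (h : d = d' * a) {X : LaurentSeries K}
    (hX : X ∈ h10_J A d) : X ∈ h10_J A d' := by
  obtain ⟨Z, hZ, rfl⟩ := hX
  exact ⟨algebraMap K (LaurentSeries K) a * Z, mul_mem (h60_const_mem A ha) hZ, by
    rw [h, map_mul, mul_assoc]⟩

theorem h10_J_const_mul {d : K} (c : K) {X : LaurentSeries K} (hX : X ∈ h10_J A d) :
    algebraMap K (LaurentSeries K) c * X ∈ h10_J A (c * d) := by
  obtain ⟨Z, hZ, rfl⟩ := hX
  exact ⟨Z, hZ, by rw [map_mul, mul_assoc]⟩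

theorem h10_J_of_mem {d : K} {Z : LaurentSeries K} (hZ : Z ∈ h60_Os A) :
    algebraMap K (LaurentSeries K) d * Z ∈ h10_J A d := ⟨Z, hZ, rfl⟩

/-- `ζ^m - 1` is divisible by `ζ - 1` in `A`, for every integer `m`. -/
theorem h10_zpow_sub_one (ζ : Aˣ) (m : ℤ) :
    ∃ g : A, ((ζ ^ m : Aˣ) : A) - 1 = ((ζ : A) - 1) * g := by
  have hnat : ∀ n : ℕ, ∃ g : A, ((ζ ^ n : Aˣ) : A) - 1 = ((ζ : A) - 1) * g := by
    intro n
    obtain ⟨g, hg⟩ := sub_dvd_pow_sub_pow (ζ : A) 1 n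
    refine ⟨g, ?_⟩
    rw [Units.val_pow_eq_pow_val, ← hg, one_pow]
  obtain ⟨n, rfl | rfl⟩ := m.eq_nat_or_neg
  · obtain ⟨g, hg⟩ := hnat n
    exact ⟨g, by rw [zpow_natCast]; exact hg⟩
  · obtain ⟨g, hg⟩ := hnat n
    refine ⟨-(((ζ ^ n)⁻¹ : Aˣ) : A) * g, ?_⟩
    have h1 : (((ζ ^ n)⁻¹ : Aˣ) : A) * ((ζ ^ n : Aˣ) : A) = 1 := Units.inv_mul _
    rw [zpow_neg, zpow_natCast]
    calc (((ζ ^ n)⁻¹ : Aˣ) : A) - 1
        = (((ζ ^ n)⁻¹ : Aˣ) : A) - (((ζ ^ n)⁻¹ : Aˣ) : A) * ((ζ ^ n : Aˣ) : A) := by rw [h1]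
      _ = -(((ζ ^ n)⁻¹ : Aˣ) : A) * (((ζ ^ n : Aˣ) : A) - 1) := by ring
      _ = ((ζ : A) - 1) * (-(((ζ ^ n)⁻¹ : Aˣ) : A) * g) := by rw [hg]; ring

/-- For an `A`-integral series `y`, `y(ζ^b q) - y(q)` is divisible by `ζ - 1`. -/
theorem h10_twist_int (ζ : Aˣ) (b : ℕ) (y : LaurentSeries A) :
    ∃ z : LaurentSeries A,
      h87_twist (ζ ^ b) y - y = HahnSeries.single 0 ((ζ : A) - 1) * z := by
  have h : ∀ n : ℤ, ∃ g : A, (((ζ ^ b) ^ n : Aˣ) : A) - 1 = ((ζ : A) - 1) * g := by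
    intro n
    obtain ⟨g, hg⟩ := h10_zpow_sub_one A ζ ((b : ℤ) * n)
    refine ⟨g, ?_⟩
    rw [← hg, zpow_mul, zpow_natCast]
  choose g hg using h
  have hsupp : (Function.support fun n : ℤ => g n * y.coeff n) ⊆ y.support := by
    intro n hn
    rw [Function.mem_support] at hn
    rw [HahnSeries.mem_support]
    intro h0
    exact hn (by rw [h0, mul_zero])
  refine ⟨⟨fun n => g n * y.coeff n, y.isPWO_support.mono hsupp⟩, ?_⟩
  refine HahnSeries.ext (funext fun n => ?_)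
  rw [HahnSeries.coeff_sub, h87_twist_coeff, HahnSeries.coeff_single_zero_mul]
  show (((ζ ^ b) ^ n : Aˣ) : A) * y.coeff n - y.coeff n = ((ζ : A) - 1) * (g n * y.coeff n)
  rw [← mul_assoc, ← hg n]
  ring

/-- For `Y ∈ Os`, `Y(ζ^b q) - Y(q) ∈ (ζ - 1) · Os`. -/
theorem h10_twist_sub_mem (ζ : Aˣ) (b : ℕ) {Y : LaurentSeries K} (hY : Y ∈ h60_Os A) :
    h87_twist (Units.map ((A.subtype : A →+* K) : A →* K) ζ ^ b) Y - Y
      ∈ h10_J A (((ζ : A) : K) - 1) := by
  obtain ⟨y₁, y₂, hy, hYy⟩ := hY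
  obtain ⟨z₁, hz₁⟩ := h10_twist_int A ζ b y₁
  obtain ⟨z₂, hz₂⟩ := h10_twist_int A ζ b y₂
  set T := h87_twist (Units.map ((A.subtype : A →+* K) : A →* K) ζ ^ b) with hT
  have hπA : ((ζ : A) : K) - 1 ∈ A := A.sub_mem (ζ : A).2 A.one_mem
  have hπ : (⟨((ζ : A) : K) - 1, hπA⟩ : A) = (ζ : A) - 1 := Subtype.ext rfl
  have hTy : ∀ (y z : LaurentSeries A),
      h87_twist (ζ ^ b) y - y = HahnSeries.single 0 ((ζ : A) - 1) * z →
      T (coeffMap A.subtype y) = coeffMap A.subtype y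
        + algebraMap K (LaurentSeries K) (((ζ : A) : K) - 1) * coeffMap A.subtype z := by
    intro y z hz
    have h1 : T (coeffMap A.subtype y) = coeffMap A.subtype (h87_twist (ζ ^ b) y) := by
      rw [h87_coeffMap_twist, hT, map_pow]
    have h2 : h87_twist (ζ ^ b) y = y + HahnSeries.single 0 ((ζ : A) - 1) * z := by
      rw [← hz]
      ring
    rw [h1, h2, map_add, ← hπ, h19_coeffMap_const_mul hπA]
  have hTY : T Y ∈ h60_Os A := by
    have := h60_twist_mem A (ζ ^ b) (f := Y) ⟨y₁, y₂, hy, hYy⟩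
    rw [map_pow] at this
    exact this
  have hy2rs : h60_rs A ⟨coeffMap A.subtype y₂, h60_int_mem A y₂⟩ ≠ 0 := by
    rw [h60_rs_int]
    exact hy
  have hinv : (coeffMap A.subtype y₂)⁻¹ ∈ h60_Os A :=
    h60_inv_mem A ⟨coeffMap A.subtype y₂, h60_int_mem A y₂⟩ hy2rs
  have hy20 : coeffMap A.subtype y₂ ≠ 0 := h60_ne_zero_of_rs A hy2rs
  refine ⟨(coeffMap A.subtype z₁ - T Y * coeffMap A.subtype z₂) * (coeffMap A.subtype y₂)⁻¹,
    mul_mem (sub_mem (h60_int_mem A z₁) (mul_mem hTY (h60_int_mem A z₂))) hinv, ?_⟩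
  have e1 : T Y * T (coeffMap A.subtype y₂) = T (coeffMap A.subtype y₁) := by
    rw [← map_mul, hYy]
  rw [hTy y₁ z₁ hz₁, hTy y₂ z₂ hz₂, ← hYy] at e1
  rw [eq_comm, ← mul_assoc, mul_inv_eq_iff_eq_mul₀ hy20]
  linear_combination -e1

end Ser

section Depth

variable {K : Type*} [Field K] (A : ValuationSubring K) (p : ℕ) [Fact p.Prime] [NeZero p]
  [CharP (IsLocalRing.ResidueField A) p]

omit [NeZero p] [CharP (IsLocalRing.ResidueField A) p] in
/-- `p ∈ (ζ - 1) A` for a primitive `p`-th root of unity `ζ`. -/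
theorem h10_p_mem (ζ : Aˣ) (hζ : IsPrimitiveRoot ζ p) :
    ∃ g : A, (p : A) = ((ζ : A) - 1) * g := by
  have h : ∀ n : ℕ, ∃ g : A, ((ζ ^ n : Aˣ) : A) - 1 = ((ζ : A) - 1) * g := fun n => by
    obtain ⟨g, hg⟩ := h10_zpow_sub_one A ζ (n : ℤ)
    exact ⟨g, by rw [← hg, zpow_natCast]⟩
  choose g hg using h
  have hζ' : IsPrimitiveRoot (ζ : A) p := IsPrimitiveRoot.coe_units_iff.mpr hζ
  have hsum : ∑ i ∈ Finset.range p, (ζ : A) ^ i = 0 :=
    hζ'.geom_sum_eq_zero (Fact.out : p.Prime).one_lt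
  refine ⟨-∑ i ∈ Finset.range p, g i, ?_⟩
  have h1 : ∑ i ∈ Finset.range p, (((ζ : A) ^ i) - 1) = -(p : A) := by
    rw [Finset.sum_sub_distrib, hsum, Finset.sum_const, Finset.card_range, nsmul_eq_mul, mul_one,
      zero_sub]
  have h2 : ∑ i ∈ Finset.range p, (((ζ : A) ^ i) - 1) = ((ζ : A) - 1) * ∑ i ∈ Finset.range p, g i := by
    rw [Finset.mul_sum]
    refine Finset.sum_congr rfl fun i _ => ?_
    rw [← hg i, Units.val_pow_eq_pow_val]
  rw [mul_neg, ← h2, h1, neg_neg]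

/-- **Depth of the norm `K((q)) → K((q^p))`.** If `s = 1 + c Y` with `Y ∈ Os`, and
`g(q^p) = ∏_{b<p} s(ζ^b q)`, then `g = 1 + d Z` with `Z ∈ Os`, whenever `d ≠ 0` divides
`(ζ - 1) c` and `c ^ p` in `A`. -/
theorem h10_depth_ser (ζ : Aˣ) (hζ : IsPrimitiveRoot ζ p) {c d : K} (hc : c ∈ A)
    (hd0 : d ≠ 0) (h1 : (((ζ : A) : K) - 1) * c * d⁻¹ ∈ A) (h2 : c ^ p * d⁻¹ ∈ A)
    (s g : LaurentSeries K) (hs : s - 1 ∈ h10_J A c)
    (hg : qExpand K p g = ∏ b ∈ Finset.range p,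
      h87_twist (Units.map ((A.subtype : A →+* K) : A →* K) ζ ^ b) s) :
    g - 1 ∈ h10_J A d := by
  set C := algebraMap K (LaurentSeries K) with hC
  set ζK := Units.map ((A.subtype : A →+* K) : A →* K) ζ with hζK
  obtain ⟨Y, hY, hsY⟩ := hs
  have hsO : s ∈ h60_Os A := by
    have : s = 1 + C c * Y := by rw [← hsY]; ring
    rw [this]
    exact add_mem (one_mem _) (mul_mem (h60_const_mem A hc) hY)
  -- twists fix constants
  have htwC : ∀ (b : ℕ) (x : K), h87_twist (ζK ^ b) (C x) = C x := by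
    intro b x
    rw [hC, algebraMap_laurentSeries_eq_single, h87_twist_single, zpow_zero, Units.val_one, one_mul]
  have htwO : ∀ b : ℕ, h87_twist (ζK ^ b) s ∈ h60_Os A := by
    intro b
    have := h60_twist_mem A (ζ ^ b) hsO
    rw [map_pow] at this
    exact this
  -- each twist is congruent to `s` modulo `d`
  have hcong : ∀ b : ℕ, h87_twist (ζK ^ b) s - s ∈ h10_J A d := by
    intro b
    have e1 : h87_twist (ζK ^ b) s - s = C c * (h87_twist (ζK ^ b) Y - Y) := by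
      have hs' : s = 1 + C c * Y := by rw [← hsY]; ring
      rw [hs', map_add, map_one, map_mul, htwC]
      ring
    rw [e1]
    have e2 := h10_J_const_mul A c (h10_twist_sub_mem A ζ b hY)
    refine h10_J_mono A h1 ?_ e2
    field_simp
  -- the product is congruent to `s ^ p`
  have hprod : ∀ n : ℕ, (∏ b ∈ Finset.range n, h87_twist (ζK ^ b) s) - s ^ n ∈ h10_J A d := by
    intro n
    induction n with
    | zero => simp
    | succ n ih =>
      have hPO : (∏ b ∈ Finset.range n, h87_twist (ζK ^ b) s) ∈ h60_Os A :=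
        Subring.prod_mem _ fun b _ => htwO b
      have e : (∏ b ∈ Finset.range (n + 1), h87_twist (ζK ^ b) s) - s ^ (n + 1)
          = ((∏ b ∈ Finset.range n, h87_twist (ζK ^ b) s) - s ^ n) * h87_twist (ζK ^ n) s
            + (h87_twist (ζK ^ n) s - s) * s ^ n := by
        rw [Finset.prod_range_succ, pow_succ]
        ring
      rw [e]
      exact add_mem (h10_J_mul A ih (htwO n)) (h10_J_mul A (hcong n) (pow_mem hsO n))
  -- `s ^ p ≡ 1`
  have hpow : s ^ p - 1 ∈ h10_J A d := by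
    set yO : h60_Os A := ⟨C c * Y, mul_mem (h60_const_mem A hc) hY⟩ with hyO
    obtain ⟨r, hr⟩ := exists_add_pow_prime_eq (Fact.out : p.Prime) (1 : h60_Os A) yO
    have hr' := congrArg (Subtype.val : h60_Os A → LaurentSeries K) hr
    push_cast at hr'
    have hs' : s = 1 + C c * Y := by rw [← hsY]; ring
    have e : s ^ p - 1 = C (c ^ p) * Y ^ p + C ((p : K) * c) * (Y * (r : LaurentSeries K)) := by
      rw [hs', hr', hyO]
      simp only [one_pow, map_mul, map_pow, map_natCast]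
      ring
    rw [e]
    refine add_mem ?_ ?_
    · refine h10_J_mono A h2 ?_ (h10_J_of_mem A (pow_mem hY p))
      field_simp
    · obtain ⟨gp, hgp⟩ := h10_p_mem A p ζ hζ
      have hgpK : (p : K) = (((ζ : A) : K) - 1) * (gp : K) := by
        have := congrArg (Subtype.val : A → K) hgp
        push_cast at this
        exact this
      have hmem : (gp : K) * ((((ζ : A) : K) - 1) * c * d⁻¹) ∈ A := A.mul_mem _ _ gp.2 h1
      refine h10_J_mono A hmem ?_ (h10_J_of_mem A (mul_mem hY r.2))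
      rw [hgpK]
      field_simp
  -- conclusion, by descent along `q ↦ q^p`
  have hP1 : qExpand K p g - 1 ∈ h10_J A d := by
    rw [hg]
    have := add_mem (hprod p) hpow
    rwa [sub_add_sub_cancel] at this
  obtain ⟨Z, hZ, hZe⟩ := hP1
  have hZq : Z = qExpand K p (C d⁻¹ * (g - 1)) := by
    have hCq : qExpand K p (C d⁻¹) = C d⁻¹ := by
      rw [hC, algebraMap_laurentSeries_eq_single, qExpand_single, mul_zero]
    rw [map_mul, hCq, map_sub, map_one, hZe, ← mul_assoc, ← map_mul, inv_mul_cancel₀ hd0, map_one,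
      one_mul]
  have hdesc : C d⁻¹ * (g - 1) ∈ h60_Os A := by
    apply h60_descent A p ζ hζ
    rw [← hZq]
    exact hZ
  refine ⟨C d⁻¹ * (g - 1), hdesc, ?_⟩
  rw [← mul_assoc, ← map_mul, mul_inv_cancel₀ hd0, map_one, one_mul]

end Depth

end Fermat.Agent.S33
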