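import Mathlib
import Fermat.Agent.S33.h10_N1Ser
import Fermat.Agent.S34.h60_R2
import Fermat.Agent.S35.h49_NormBC
import Fermat.Agent.S18.h64_RankOneW

/-!
# S33, row (N1), concrete (helper10): `u` is an `e`-th power up to deep units at `v₁` and `v₂`

Level `M p`, `p ∤ M`; `F = F(Mp)`, `E = F(M)`, `α = heckeAlphaBar`, `w = h60_w` the swap,
`O₁ = (h60_R1 ..).O` the `q`-expansion valuation ring, `O₂ = (h60_R2 ..).O = w⁻¹ O₁`.

* `h10_Nop` : the multiplicative operator `𝒩 f = α(N_α(w f)) / (w f)` on `F`;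
* `h10_Nop_qexp` : `(𝒩 f)(q^p) = ∏_{b<p} f(ζ^b q)` on `q`-expansions;
* `h10_Nop_identity` : if `N_α u = h^e` and `N_α(w u) = h'^e` then `u = g₁^e · 𝒩(𝒩 u)`;
* `h10_N1_approx` : **(N1), approximate form.** If moreover `u - 1 = a g` with `a` a non-unit of `A`
  and `g ∈ O₁ ∩ O₂`, then for every `D` there are `G₁, G₂ ∈ F^×`, units of `O₁` resp. `O₂`, with
  `u / G_j^e ∈ 1 + p^D O_j`.

No completion, no decomposition of `O / p^D`, no local norms: the two "local norm" maps of the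
classical argument are the single global operator `𝒩`.
-/

set_option autoImplicit false
set_option synthInstance.maxHeartbeats 400000

noncomputable section

open ModularCurve AlgebraicCurve IntermediateField

namespace Fermat.Agent.S33

open Fermat.Agent.S18 Fermat.Agent.S37 Fermat.Agent.S34 Fermat.Agent.S35 Fermat.Agent.S24

local notation "Qb" => AlgebraicClosure ℚ

section Nop

variable (M p : ℕ) [NeZero M] [NeZero p] [Fact p.Prime] (hpM : ¬ p ∣ M)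

/-- The norm along `α = heckeAlphaBar`, as a monoid hom. -/
def h10_normA : ↥(modularFunctionFieldBar (M * p)) →* ↥(modularFunctionFieldBar M) :=
  @Algebra.norm ↥(modularFunctionFieldBar M) ↥(modularFunctionFieldBar (M * p)) _ _
    (algebraAlong (heckeAlphaBar Qb M p))

/-- `𝒩 f := α(N_α(w f)) / (w f)`. -/
def h10_Nop : ↥(modularFunctionFieldBar (M * p)) →*₀ ↥(modularFunctionFieldBar (M * p)) where
  toFun f := heckeAlphaBar Qb M p (h10_normA M p (h60_w M p hpM f)) / h60_w M p hpM f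
  map_zero' := by rw [map_zero, div_zero]
  map_one' := by rw [map_one, map_one, map_one, div_one]
  map_mul' f g := by rw [map_mul, map_mul, map_mul, mul_div_mul_comm]

theorem h10_Nop_apply (f : ↥(modularFunctionFieldBar (M * p))) :
    h10_Nop M p hpM f
      = heckeAlphaBar Qb M p (h10_normA M p (h60_w M p hpM f)) / h60_w M p hpM f := rfl

/-- On `q`-expansions, `𝒩` is the norm from `K((q))` to `K((q^p))`. -/
theorem h10_Nop_qexp (ζ : Qbˣ) (hζ : IsPrimitiveRoot ζ p)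
    (f : ↥(modularFunctionFieldBar (M * p))) (hf : f ≠ 0) :
    qExpand Qb p ((h10_Nop M p hpM f : ↥(modularFunctionFieldBar (M * p))) : LaurentSeries Qb)
      = ∏ b ∈ Finset.range p, h87_twist (ζ ^ b) (f : LaurentSeries Qb) := by
  have hp : p.Prime := Fact.out
  have key := h49_norm_alpha_qexp M p hp hpM (h49_exists_bezout
    ((Nat.Prime.coprime_iff_not_dvd (Fact.out : p.Prime)).mpr hpM)).choose_spec.choose_spec
    ζ hζ (h60_w M p hpM f)
  have hww : h49_swapF (h49_exists_bezout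
      ((Nat.Prime.coprime_iff_not_dvd (Fact.out : p.Prime)).mpr hpM)).choose_spec.choose_spec
      h78_iota hp (h60_w M p hpM f) = f := h60_w_w M p hpM f
  rw [hww] at key
  have hw0 : ((h60_w M p hpM f : ↥(modularFunctionFieldBar (M * p))) : LaurentSeries Qb) ≠ 0 := by
    intro h0
    exact (map_ne_zero (h60_w M p hpM)).mpr hf (Subtype.ext h0)
  have hcoe : ((h10_Nop M p hpM f : ↥(modularFunctionFieldBar (M * p))) : LaurentSeries Qb)
      = ((h10_normA M p (h60_w M p hpM f) : ↥(modularFunctionFieldBar M)) : LaurentSeries Qb)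
        / ((h60_w M p hpM f : ↥(modularFunctionFieldBar (M * p))) : LaurentSeries Qb) := by
    rw [h10_Nop_apply, IntermediateField.coe_div, coe_heckeAlphaBar]
  rw [hcoe, map_div₀]
  have key' : qExpand Qb p
      ((h10_normA M p (h60_w M p hpM f) : ↥(modularFunctionFieldBar M)) : LaurentSeries Qb)
      = qExpand Qb p ((h60_w M p hpM f : ↥(modularFunctionFieldBar (M * p))) : LaurentSeries Qb)
        * ∏ c : Fin p, h87_twist (ζ ^ (c : ℕ)) (f : LaurentSeries Qb) := key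
  rw [key', Fin.prod_univ_eq_prod_range (fun b => h87_twist (ζ ^ b) (f : LaurentSeries Qb)) p,
    mul_div_cancel_left₀]
  exact (map_ne_zero _).2 hw0

/-- `𝒩 f ≠ 0` for `f ≠ 0`. -/
theorem h10_Nop_ne_zero (f : ↥(modularFunctionFieldBar (M * p))) (hf : f ≠ 0) :
    h10_Nop M p hpM f ≠ 0 := by
  obtain ⟨ζ₀, hζ₀⟩ := HasEnoughRootsOfUnity.exists_primitiveRoot Qb p
  obtain ⟨ζ, rfl⟩ := hζ₀.isUnit (NeZero.ne p)
  have hζ : IsPrimitiveRoot ζ p := IsPrimitiveRoot.coe_units_iff.1 hζ₀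
  have key := h10_Nop_qexp M p hpM ζ hζ f hf
  intro h0
  rw [h0] at key
  have hfK : (f : LaurentSeries Qb) ≠ 0 := fun h => hf (Subtype.ext h)
  have hprod : ∏ b ∈ Finset.range p, h87_twist (ζ ^ b) (f : LaurentSeries Qb) ≠ 0 :=
    Finset.prod_ne_zero_iff.mpr fun b _ => (map_ne_zero _).2 hfK
  apply hprod
  rw [← key]
  simp

theorem h10_Nop_iterate_ne_zero (f : ↥(modularFunctionFieldBar (M * p))) (hf : f ≠ 0) (j : ℕ) :
    (h10_Nop M p hpM)^[j] f ≠ 0 := by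
  induction j with
  | zero => exact hf
  | succ j ih =>
    rw [Function.iterate_succ_apply']
    exact h10_Nop_ne_zero M p hpM _ ih

/-- **The exact identity**: `u = g₁^e · 𝒩(𝒩 u)` if both norms of `u` are `e`-th powers. -/
theorem h10_Nop_identity (e : ℕ) (u : ↥(modularFunctionFieldBar (M * p))) (hu0 : u ≠ 0)
    (h h' : ↥(modularFunctionFieldBar M)) (hα : h10_normA M p u = h ^ e)
    (hβ : h10_normA M p (h60_w M p hpM u) = h' ^ e) :
    u = (heckeAlphaBar Qb M p h / h10_Nop M p hpM (heckeAlphaBar Qb M p h')) ^ e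
        * h10_Nop M p hpM (h10_Nop M p hpM u) := by
  have hw0 : h60_w M p hpM u ≠ 0 := (map_ne_zero (h60_w M p hpM)).mpr hu0
  have hN0 : h10_Nop M p hpM u ≠ 0 := h10_Nop_ne_zero M p hpM u hu0
  have hNN0 : h10_Nop M p hpM (h10_Nop M p hpM u) ≠ 0 := h10_Nop_ne_zero M p hpM _ hN0
  have h1 : h10_Nop M p hpM u * h60_w M p hpM u = heckeAlphaBar Qb M p h' ^ e := by
    rw [h10_Nop_apply, div_mul_cancel₀ _ hw0, hβ, map_pow]
  have h2 : h10_Nop M p hpM (h60_w M p hpM u) * u = heckeAlphaBar Qb M p h ^ e := by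
    rw [h10_Nop_apply, h60_w_w, div_mul_cancel₀ _ hu0, hα, map_pow]
  have h3 : h60_w M p hpM u = heckeAlphaBar Qb M p h' ^ e / h10_Nop M p hpM u := by
    rw [← h1, mul_div_cancel_left₀ _ hN0]
  have hX0 : h10_Nop M p hpM (heckeAlphaBar Qb M p h') ^ e ≠ 0 := by
    rw [← map_pow, ← h1]
    exact h10_Nop_ne_zero M p hpM _ (mul_ne_zero hN0 hw0)
  have h4 : h10_Nop M p hpM (h60_w M p hpM u)
      = h10_Nop M p hpM (heckeAlphaBar Qb M p h') ^ e / h10_Nop M p hpM (h10_Nop M p hpM u) := by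
    rw [h3, map_div₀, map_pow]
  rw [h4] at h2
  rw [div_pow, ← h2]
  field_simp

/-- Iteration: `u = G^e · 𝒩^(2k)(u)`. -/
theorem h10_Nop_iter (e : ℕ) (u : ↥(modularFunctionFieldBar (M * p))) (hu0 : u ≠ 0)
    (h h' : ↥(modularFunctionFieldBar M)) (hα : h10_normA M p u = h ^ e)
    (hβ : h10_normA M p (h60_w M p hpM u) = h' ^ e) (k : ℕ) :
    ∃ G : ↥(modularFunctionFieldBar (M * p)), u = G ^ e * (h10_Nop M p hpM)^[2 * k] u := by
  induction k with
  | zero => exact ⟨1, by rw [one_pow, one_mul]; rfl⟩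
  | succ k ih =>
    obtain ⟨G, hG⟩ := ih
    have hid := h10_Nop_identity M p hpM e u hu0 h h' hα hβ
    set g₁ := heckeAlphaBar Qb M p h / h10_Nop M p hpM (heckeAlphaBar Qb M p h') with hg₁
    have h3 : (h10_Nop M p hpM)^[2 * k] u
        = ((h10_Nop M p hpM)^[2 * k] g₁) ^ e * (h10_Nop M p hpM)^[2 * (k + 1)] u := by
      conv_lhs => rw [hid]
      rw [iterate_map_mul, iterate_map_pow]
      congr 1
    exact ⟨G * (h10_Nop M p hpM)^[2 * k] g₁, by rw [mul_pow, mul_assoc, ← h3]; exact hG⟩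

end Nop

section Depth

variable (M p : ℕ) [NeZero M] [NeZero p] [Fact p.Prime] (hpM : ¬ p ∣ M)
  (A : ValuationSubring Qb) (hA : A.LiesOverPrime p)

/-- `f - 1 ∈ d O₁` in terms of `q`-expansions. -/
theorem h10_deep_iff {d : Qb} (hd0 : d ≠ 0) (f : ↥(modularFunctionFieldBar (M * p))) :
    (∃ t ∈ (h60_R1 M p hpM A hA).O,
        f = 1 + algebraMap Qb ↥(modularFunctionFieldBar (M * p)) d * t)
      ↔ (f : LaurentSeries Qb) - 1 ∈ h10_J A d := by
  constructor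
  · rintro ⟨t, ht, rfl⟩
    refine ⟨(t : LaurentSeries Qb), (h60_R1_mem_iff_Os M p hpM A hA t).mp ht, ?_⟩
    push_cast
    rw [add_sub_cancel_left]
  · rintro ⟨Z, hZ, hZe⟩
    have hd0' : algebraMap Qb ↥(modularFunctionFieldBar (M * p)) d ≠ 0 := (map_ne_zero _).2 hd0
    have hd0'' : algebraMap Qb (LaurentSeries Qb) d ≠ 0 := (map_ne_zero _).2 hd0
    refine ⟨(f - 1) / algebraMap Qb ↥(modularFunctionFieldBar (M * p)) d, ?_, ?_⟩
    · rw [h60_R1_mem_iff_Os]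
      have : (((f - 1) / algebraMap Qb ↥(modularFunctionFieldBar (M * p)) d :
          ↥(modularFunctionFieldBar (M * p))) : LaurentSeries Qb) = Z := by
        push_cast
        rw [hZe]
        exact mul_div_cancel_left₀ Z hd0''
      rw [this]
      exact hZ
    · rw [mul_div_cancel₀ _ hd0']
      ring

/-- the residue of a constant `c ∈ A` with `c⁻¹ ∉ A` vanishes. -/
theorem h10_residue_eq_zero {c : Qb} (hc : c ∈ A) (hc' : c⁻¹ ∉ A) :
    IsLocalRing.residue A ⟨c, hc⟩ = 0 := by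
  rw [IsLocalRing.residue_eq_zero_iff, IsLocalRing.mem_maximalIdeal, mem_nonunits_iff]
  rintro ⟨v, hv⟩
  apply hc'
  have h1 : c * ((v⁻¹ : Aˣ) : Qb) = 1 := by
    have h2 : ((v : A) : Qb) = c := congrArg Subtype.val hv
    rw [← h2]
    have h3 : (v : A) * ((v⁻¹ : Aˣ) : A) = 1 := Units.mul_inv v
    exact_mod_cast congrArg Subtype.val h3
  have h4 : c⁻¹ = ((v⁻¹ : Aˣ) : Qb) := inv_eq_of_mul_eq_one_right h1
  rw [h4]
  exact ((v⁻¹ : Aˣ) : A).2

/-- A series in `1 + c Os` with `c` of zero residue is a unit of `Os`. -/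
theorem h10_unit_of_deep {c : Qb} (hc : c ∈ A) (hres : IsLocalRing.residue A ⟨c, hc⟩ = 0)
    {X : LaurentSeries Qb} (hX : X - 1 ∈ h10_J A c) : X ≠ 0 ∧ X ∈ h60_Os A ∧ X⁻¹ ∈ h60_Os A := by
  obtain ⟨Z, hZ, hZe⟩ := hX
  have hXe : X = 1 + algebraMap Qb (LaurentSeries Qb) c * Z := by rw [← hZe]; ring
  have hXO : X ∈ h60_Os A := by
    rw [hXe]
    exact add_mem (one_mem _) (mul_mem (h60_const_mem A hc) hZ)
  have hrs : h60_rs A ⟨X, hXO⟩ = 1 := by
    have e : (⟨X, hXO⟩ : h60_Os A)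
        = 1 + ⟨algebraMap Qb (LaurentSeries Qb) c, h60_const_mem A hc⟩ * ⟨Z, hZ⟩ :=
      Subtype.ext hXe
    rw [e, map_add, map_one, map_mul, h60_rs_const A hc, hres, map_zero, zero_mul, add_zero]
  have hrs0 : h60_rs A ⟨X, hXO⟩ ≠ 0 := by rw [hrs]; exact one_ne_zero
  exact ⟨h60_ne_zero_of_rs A hrs0, hXO, h60_inv_mem A ⟨X, hXO⟩ hrs0⟩

include hA in
/-- **Depth of `𝒩`**: `f ∈ 1 + c O₁` implies `𝒩 f ∈ 1 + d O₁` when `d` divides `(ζ - 1) c` and
`c ^ p`. -/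
theorem h10_Nop_depth (ζ : Aˣ) (hζ : IsPrimitiveRoot ζ p) {c d : Qb} (hc : c ∈ A) (hd0 : d ≠ 0)
    (h1 : (((ζ : A) : Qb) - 1) * c * d⁻¹ ∈ A) (h2 : c ^ p * d⁻¹ ∈ A)
    (f : ↥(modularFunctionFieldBar (M * p))) (hf0 : f ≠ 0)
    (hf : (f : LaurentSeries Qb) - 1 ∈ h10_J A c) :
    ((h10_Nop M p hpM f : ↥(modularFunctionFieldBar (M * p))) : LaurentSeries Qb) - 1
      ∈ h10_J A d := by
  have : CharP (IsLocalRing.ResidueField A) p := h19_residueField_charP A p hA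
  have hζQ : IsPrimitiveRoot (Units.map ((A.subtype : A →+* Qb) : A →* Qb) ζ) p :=
    hζ.map_of_injective
      (Units.map_injective (f := ((A.subtype : A →+* Qb) : A →* Qb)) Subtype.val_injective)
  exact h10_depth_ser A p ζ hζ hc hd0 h1 h2 _ _ hf (h10_Nop_qexp M p hpM _ hζQ f hf0)

include hA in
/-- The chain: `u ∈ 1 + e₀ O₁` with `e₀ ∣ ζ - 1` implies `𝒩^j(u) ∈ 1 + e₀^(j+1) O₁`. -/
theorem h10_Nop_iter_depth (ζ : Aˣ) (hζ : IsPrimitiveRoot ζ p) {e₀ : Qb} (he₀A : e₀ ∈ A)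
    (he₀ : e₀ ≠ 0) (hπ : (((ζ : A) : Qb) - 1) * e₀⁻¹ ∈ A)
    (u : ↥(modularFunctionFieldBar (M * p))) (hu0 : u ≠ 0)
    (hu : (u : LaurentSeries Qb) - 1 ∈ h10_J A e₀) (j : ℕ) :
    (((h10_Nop M p hpM)^[j] u : ↥(modularFunctionFieldBar (M * p))) : LaurentSeries Qb) - 1
      ∈ h10_J A (e₀ ^ (j + 1)) := by
  induction j with
  | zero => rw [zero_add, pow_one]; exact hu
  | succ j ih =>
    rw [Function.iterate_succ_apply']
    have hp2 : 2 ≤ p := (Fact.out : p.Prime).two_le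
    refine h10_Nop_depth M p hpM A hA ζ hζ (c := e₀ ^ (j + 1)) (A.pow_mem he₀A _)
      (pow_ne_zero _ he₀) ?_ ?_ _ (h10_Nop_iterate_ne_zero M p hpM u hu0 j) ih
    · have : (((ζ : A) : Qb) - 1) * e₀ ^ (j + 1) * (e₀ ^ (j + 1 + 1))⁻¹
          = (((ζ : A) : Qb) - 1) * e₀⁻¹ := by
        rw [pow_succ e₀ (j + 1)]
        field_simp
      rw [this]
      exact hπ
    · obtain ⟨m, hm⟩ : ∃ m, (j + 1) * p = (j + 1 + 1) + m :=
        Nat.exists_eq_add_of_le (by nlinarith)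
      have : (e₀ ^ (j + 1)) ^ p * (e₀ ^ (j + 1 + 1))⁻¹ = e₀ ^ m := by
        rw [← pow_mul, hm, pow_add]
        field_simp
      rw [this]
      exact A.pow_mem he₀A _

end Depth

/-- In a valuation ring, `G^e` a unit (`e ≠ 0`) implies `G` a unit. -/
theorem h10_unit_of_pow_unit {F : Type*} [Field F] (O : ValuationSubring F) {G : F} {e : ℕ}
    (he : e ≠ 0) (h1 : G ^ e ∈ O) (h2 : (G ^ e)⁻¹ ∈ O) : G ∈ O ∧ G⁻¹ ∈ O := by
  by_cases hG0 : G = 0
  · rw [hG0, inv_zero]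
    exact ⟨O.zero_mem, O.zero_mem⟩
  obtain ⟨m, rfl⟩ := Nat.exists_eq_succ_of_ne_zero he
  have e1 : G⁻¹ = G ^ m * (G ^ (m + 1))⁻¹ := by
    rw [pow_succ, mul_inv, ← mul_assoc, mul_inv_cancel₀ (pow_ne_zero m hG0), one_mul]
  have e2 : G = G⁻¹ ^ m * G ^ (m + 1) := by
    rw [pow_succ, ← mul_assoc, ← mul_pow, inv_mul_cancel₀ hG0, one_pow, one_mul]
  rcases O.mem_or_inv_mem G with h | h
  · exact ⟨h, by rw [e1]; exact O.mul_mem _ _ (O.pow_mem h m) h2⟩
  · exact ⟨by rw [e2]; exact O.mul_mem _ _ (O.pow_mem h m) h1, h⟩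

section Main

variable (M p : ℕ) [NeZero M] [NeZero p] [Fact p.Prime] (hpM : ¬ p ∣ M)
  (A : ValuationSubring Qb) (hA : A.LiesOverPrime p)

/-- **(N1) at `v₁`.** If `N_α u = h^e`, `N_α (w u) = h'^e` and `u ∈ 1 + a O₁` with `a` a non-unit
of `A`, then for every `D` there is a unit `G` of `O₁` with `u / G^e ∈ 1 + p^D O₁`. -/
theorem h10_N1_one (e : ℕ) (he : e ≠ 0) (u : ↥(modularFunctionFieldBar (M * p)))
    (h h' : ↥(modularFunctionFieldBar M)) (hα : h10_normA M p u = h ^ e)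
    (hβ : h10_normA M p (h60_w M p hpM u) = h' ^ e)
    (a : Qb) (ha : a ∈ A.nonunits) (g : ↥(modularFunctionFieldBar (M * p)))
    (hg : g ∈ (h60_R1 M p hpM A hA).O)
    (hu : u - 1 = algebraMap Qb ↥(modularFunctionFieldBar (M * p)) a * g) (D : ℕ) :
    ∃ G : ↥(modularFunctionFieldBar (M * p)), G ≠ 0 ∧ G ∈ (h60_R1 M p hpM A hA).O ∧
      G⁻¹ ∈ (h60_R1 M p hpM A hA).O ∧ ∃ t ∈ (h60_R1 M p hpM A hA).O,
        u = G ^ e * (1 + algebraMap Qb ↥(modularFunctionFieldBar (M * p)) ((p : Qb) ^ D) * t) := by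
  have hp : p.Prime := Fact.out
  have : CharP (IsLocalRing.ResidueField A) p := h19_residueField_charP A p hA
  -- a primitive `p`-th root of unity in `A`
  obtain ⟨ζ, -, hζQ⟩ := h87_exists_zeta A p
  have hζ : IsPrimitiveRoot ζ p :=
    IsPrimitiveRoot.of_map_of_injective
      (f := Units.map ((A.subtype : A →+* Qb) : A →* Qb)) hζQ
      (Units.map_injective (f := ((A.subtype : A →+* Qb) : A →* Qb)) Subtype.val_injective)
  set π : Qb := ((ζ : A) : Qb) - 1 with hπdef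
  have hπA : π ∈ A := sub_mem (ζ : A).2 A.one_mem
  have hπ0 : π ≠ 0 := by
    intro h0
    have h1 : (ζ : A) = 1 := Subtype.ext (sub_eq_zero.mp h0)
    exact hζ.ne_one hp.one_lt (Units.ext h1)
  have hπinv : π⁻¹ ∉ A := by
    intro hmem
    have hres : IsLocalRing.residue A ((ζ : A) - 1) = 0 := by
      have h1 := h60_units_map_residue A p ζ hζ.pow_eq_one
      have h2 : IsLocalRing.residue A (ζ : A) = 1 := by
        have := congrArg Units.val h1
        simpa using this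
      rw [map_sub, h2, map_one, sub_self]
    have hunit : IsUnit ((ζ : A) - 1) := by
      refine IsUnit.of_mul_eq_one ⟨π⁻¹, hmem⟩ (Subtype.ext ?_)
      show π * π⁻¹ = 1
      exact mul_inv_cancel₀ hπ0
    rw [IsLocalRing.residue_eq_zero_iff, IsLocalRing.mem_maximalIdeal, mem_nonunits_iff] at hres
    exact hres hunit
  -- the depth unit `e₀`, dividing `a` and `ζ - 1`
  obtain ⟨e₀, he₀A, he₀, he₀inv, hae₀, hπe₀⟩ :
      ∃ e₀ : Qb, e₀ ∈ A ∧ e₀ ≠ 0 ∧ e₀⁻¹ ∉ A ∧ a * e₀⁻¹ ∈ A ∧ π * e₀⁻¹ ∈ A := by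
    by_cases h1 : a * π⁻¹ ∈ A
    · exact ⟨π, hπA, hπ0, hπinv, h1, by rw [mul_inv_cancel₀ hπ0]; exact A.one_mem⟩
    · have ha0 : a ≠ 0 := by
        rintro rfl
        exact h1 (by rw [zero_mul]; exact A.zero_mem)
      have h2 : (a * π⁻¹)⁻¹ ∈ A := (A.mem_or_inv_mem _).resolve_left h1
      rw [mul_inv, inv_inv, mul_comm] at h2
      have hainv : a⁻¹ ∉ A :=
        ((ValuationSubring.mem_nonunits_iff_or A).mp ha).resolve_left ha0
      exact ⟨a, ValuationSubring.nonunits_subset ha, ha0, hainv,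
        by rw [mul_inv_cancel₀ ha0]; exact A.one_mem, h2⟩
  have hgOs : (g : LaurentSeries Qb) ∈ h60_Os A := (h60_R1_mem_iff_Os M p hpM A hA g).mp hg
  have hucoe : (u : LaurentSeries Qb) - 1
      = algebraMap Qb (LaurentSeries Qb) a * (g : LaurentSeries Qb) := by
    have := congrArg (Subtype.val : ↥(modularFunctionFieldBar (M * p)) → LaurentSeries Qb) hu
    push_cast at this
    exact this
  have hudeep : (u : LaurentSeries Qb) - 1 ∈ h10_J A e₀ := by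
    rw [hucoe]
    refine h10_J_mono A hae₀ ?_ (h10_J_of_mem A hgOs)
    field_simp
  have hres₀ : IsLocalRing.residue A ⟨e₀, he₀A⟩ = 0 := h10_residue_eq_zero A he₀A he₀inv
  have hrespow : ∀ m : ℕ, IsLocalRing.residue A ⟨e₀ ^ (m + 1), A.pow_mem he₀A _⟩ = 0 := by
    intro m
    have e1 : (⟨e₀ ^ (m + 1), A.pow_mem he₀A _⟩ : A) = ⟨e₀, he₀A⟩ ^ (m + 1) := Subtype.ext rfl
    rw [e1, map_pow, hres₀, zero_pow (Nat.succ_ne_zero m)]
  obtain ⟨hu0K, huO, huinv⟩ := h10_unit_of_deep A he₀A hres₀ hudeep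
  have hu0 : u ≠ 0 := fun h0 => hu0K (by rw [h0]; rfl)
  -- rank one
  have hpD0 : (p : Qb) ^ D ≠ 0 := pow_ne_zero _ (Nat.cast_ne_zero.mpr hp.ne_zero)
  obtain ⟨n, hn⟩ := h64_rankOne_h39 hp A hA e₀ he₀A he₀inv ((p : Qb) ^ D) hpD0
  obtain ⟨G, hG⟩ := h10_Nop_iter M p hpM e u hu0 h h' hα hβ n
  set U := (h10_Nop M p hpM)^[2 * n] u with hU
  have hUdeep : (U : LaurentSeries Qb) - 1 ∈ h10_J A (e₀ ^ (2 * n + 1)) :=
    h10_Nop_iter_depth M p hpM A hA ζ hζ he₀A he₀ hπe₀ u hu0 hudeep (2 * n)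
  have hUp : (U : LaurentSeries Qb) - 1 ∈ h10_J A ((p : Qb) ^ D) := by
    have hmem : e₀ ^ n * ((p : Qb) ^ D)⁻¹ * e₀ ^ (n + 1) ∈ A :=
      A.mul_mem _ _ hn (A.pow_mem he₀A _)
    refine h10_J_mono A hmem ?_ hUdeep
    have : 2 * n + 1 = n + (n + 1) := by ring
    rw [this, pow_add]
    field_simp
  obtain ⟨t, ht, hUt⟩ := (h10_deep_iff M p hpM A hA hpD0 U).mpr hUp
  obtain ⟨hU0K, hUO, hUinv⟩ := h10_unit_of_deep A (A.pow_mem he₀A _) (hrespow (2 * n)) hUdeep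
  have hU0 : U ≠ 0 := fun h0 => hU0K (by rw [h0]; rfl)
  have hG0 : G ≠ 0 := by
    rintro rfl
    rw [zero_pow he, zero_mul] at hG
    exact hu0 hG
  have hGe : G ^ e = u * U⁻¹ := by
    rw [hG, mul_assoc, mul_inv_cancel₀ hU0, mul_one]
  have hGe1 : G ^ e ∈ (h60_R1 M p hpM A hA).O := by
    rw [hGe, h60_R1_mem_iff_Os]
    push_cast
    exact mul_mem huO hUinv
  have hGe2 : (G ^ e)⁻¹ ∈ (h60_R1 M p hpM A hA).O := by
    rw [hGe, mul_inv, inv_inv, h60_R1_mem_iff_Os]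
    push_cast
    exact mul_mem huinv hUO
  obtain ⟨hGO, hGinv⟩ := h10_unit_of_pow_unit (h60_R1 M p hpM A hA).O he hGe1 hGe2
  exact ⟨G, hG0, hGO, hGinv, t, ht, by rw [← hUt]; exact hG⟩

/-- **(N1), approximate form, at both valuations.** Level `M p`, `p ∤ M`. If the norms of `u`
along `α` and along `β` are `e`-th powers (`e ≠ 0`) and `u - 1 = a g` with `a` a non-unit of `A`
and `g ∈ O₁ ∩ O₂`, then for every `D` there are units `G₁` of `O₁` and `G₂` of `O₂` with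
`u = G_j^e (1 + p^D t_j)`, `t_j ∈ O_j`. -/
theorem h10_N1_approx (e : ℕ) (he : e ≠ 0) (u : ↥(modularFunctionFieldBar (M * p)))
    (h h' : ↥(modularFunctionFieldBar M))
    (hα : @Algebra.norm ↥(modularFunctionFieldBar M) ↥(modularFunctionFieldBar (M * p)) _ _
      (algebraAlong (heckeAlphaBar Qb M p)) u = h ^ e)
    (hβ : @Algebra.norm ↥(modularFunctionFieldBar M) ↥(modularFunctionFieldBar (M * p)) _ _
      (algebraAlong (heckeBetaBar Qb M p)) u = h' ^ e)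
    (a : Qb) (ha : a ∈ A.nonunits) (g : ↥(modularFunctionFieldBar (M * p)))
    (hg1 : g ∈ (h60_R1 M p hpM A hA).O) (hg2 : g ∈ (h60_R2 M p hpM A hA).O)
    (hu : u - 1 = algebraMap Qb ↥(modularFunctionFieldBar (M * p)) a * g) (D : ℕ) :
    ∃ G₁ G₂ : ↥(modularFunctionFieldBar (M * p)), G₁ ≠ 0 ∧ G₂ ≠ 0 ∧
      G₁ ∈ (h60_R1 M p hpM A hA).O ∧ G₁⁻¹ ∈ (h60_R1 M p hpM A hA).O ∧
      G₂ ∈ (h60_R2 M p hpM A hA).O ∧ G₂⁻¹ ∈ (h60_R2 M p hpM A hA).O ∧
      (∃ t ∈ (h60_R1 M p hpM A hA).O,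
        u = G₁ ^ e * (1 + algebraMap Qb ↥(modularFunctionFieldBar (M * p)) ((p : Qb) ^ D) * t)) ∧
      (∃ t ∈ (h60_R2 M p hpM A hA).O,
        u = G₂ ^ e * (1 + algebraMap Qb ↥(modularFunctionFieldBar (M * p)) ((p : Qb) ^ D) * t)) := by
  have hp : p.Prime := Fact.out
  have hα' : h10_normA M p u = h ^ e := hα
  have hβ' : h10_normA M p (h60_w M p hpM u) = h' ^ e := by
    rw [← hβ]
    exact (h49_norm_beta_eq M p hp (h49_exists_bezout
      ((Nat.Prime.coprime_iff_not_dvd (Fact.out : p.Prime)).mpr hpM)).choose_spec.choose_spec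
      u).symm
  obtain ⟨G₁, hG₁0, hG₁O, hG₁inv, t₁, ht₁, hu₁⟩ :=
    h10_N1_one M p hpM A hA e he u h h' hα' hβ' a ha g hg1 hu D
  -- the same for `w u`
  have hα'' : h10_normA M p (h60_w M p hpM (h60_w M p hpM u)) = h ^ e := by
    rw [h60_w_w]
    exact hα'
  have huw : h60_w M p hpM u - 1
      = algebraMap Qb ↥(modularFunctionFieldBar (M * p)) a * h60_w M p hpM g := by
    rw [← h60_w_algebraMap M p hpM a, ← map_mul, ← hu, map_sub, map_one]
  obtain ⟨G', hG'0, hG'O, hG'inv, t', ht', hu'⟩ :=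
    h10_N1_one M p hpM A hA e he (h60_w M p hpM u) h' h hβ' hα'' a ha (h60_w M p hpM g)
      ((h60_R2_mem_iff M p hpM A hA g).mp hg2) huw D
  refine ⟨G₁, h60_w M p hpM G', hG₁0, (map_ne_zero (h60_w M p hpM)).mpr hG'0, hG₁O, hG₁inv,
    ?_, ?_, ⟨t₁, ht₁, hu₁⟩, ⟨h60_w M p hpM t', ?_, ?_⟩⟩
  · rw [h60_R2_mem_iff, h60_w_w]
    exact hG'O
  · rw [h60_R2_mem_iff, map_inv₀, h60_w_w]
    exact hG'inv
  · rw [h60_R2_mem_iff, h60_w_w]
    exact ht'
  · have := congrArg (h60_w M p hpM) hu'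
    rw [h60_w_w, map_mul, map_pow, map_add, map_one, map_mul, h60_w_algebraMap] at this
    exact this

end Main

end Fermat.Agent.S33
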