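import Mathlib
import Fermat.Agent.S33.h10_N1
import Fermat.Agent.S34.h60_Pair
import Fermat.Agent.S18.GR_RedAPI

/-!
# S33, row (N1), glued form (helper10)

* `h10_glue` : generic two-valuation glue. For two reduction data `R₁, R₂` on `F` with the same
  rank-one constants and a separating element (`red₁ t = 1`, `red₂ t = 0`), any `G₁, G₂ ∈ F^×` and
  any depth `c ≠ 0`: there is `W` with `W / G₁ ∈ 1 + c O₁` and `W / G₂ ∈ 1 + c O₂`.
* `h10_N1_glued` : **(N1), glued.** Level `M p`: if the norms of `u` along `α` and `β` are `e`-th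
  powers and `red₁ u = 1 = red₂ u`, then for every constant `cstar ≠ 0` there is a unit `gt` of
  `O₁ ∩ O₂` with `u = gt^e (1 + cstar t)`, `t ∈ O₁ ∩ O₂`; moreover `(red_i gt)^e = 1`.
* `h10_N1_final` : the same with norm hypotheses `N u = a g^e` (`a` a constant) and the conclusion
  `(u - gt^e) / cstar ∈ O₁ ∩ O₂`; `h10_N1_final_pow` : for `e = p^n`, also `red_i gt = 1`.
-/

set_option autoImplicit false
set_option synthInstance.maxHeartbeats 400000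

noncomputable section

open ModularCurve AlgebraicCurve IntermediateField

namespace Fermat.Agent.S33

open Fermat.Agent.S18 Fermat.Agent.S37 Fermat.Agent.S34 Fermat.Agent.S35 Fermat.Agent.S24

local notation "Qb" => AlgebraicClosure ℚ

section Generic

variable {K F k Fb : Type*} [Field K] [Field F] [Algebra K F] [Field k] [Field Fb] [Algebra k Fb]
  (R : h39_RedDatum K F k Fb)

/-- Every `f` becomes integral after scaling by a nonzero constant of `A`. -/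
theorem h10_exists_scale_mem (f : F) :
    ∃ κ : K, κ ∈ R.A ∧ κ ≠ 0 ∧ algebraMap K F κ * f ∈ R.O := by
  by_cases hf : f = 0
  · exact ⟨1, R.A.one_mem, one_ne_zero, by rw [hf, mul_zero]; exact R.O.zero_mem⟩
  obtain ⟨c, hc, h1, -⟩ := R.exists_scale f hf
  rcases R.A.mem_or_inv_mem c with h | h
  · exact ⟨c, h, hc, h1⟩
  · refine ⟨1, R.A.one_mem, one_ne_zero, ?_⟩
    have : algebraMap K F 1 * f = algebraMap K F c⁻¹ * (algebraMap K F c * f) := by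
      rw [map_one, one_mul, ← mul_assoc, ← map_mul, inv_mul_cancel₀ hc, map_one, one_mul]
    rw [this]
    exact R.O.mul_mem _ _ ((R.mem_iff _).mp h) h1

/-- Rank one for constants of zero residue (including `0`). -/
theorem h10_rankOne_pow (hrk : h39_RankOne R.A) {a : K} (ha : a ∈ R.A) (hres : R.resK a = 0)
    {δ : K} (hδ : δ ≠ 0) : ∃ N : ℕ, ∀ n, N ≤ n → a ^ n * δ⁻¹ ∈ R.A := by
  rcases (h39_resK_eq_zero_iff R ha).mp hres with h | h
  · refine ⟨1, fun n hn => ?_⟩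
    rw [h, zero_pow (by omega), zero_mul]
    exact R.A.zero_mem
  · obtain ⟨N, hN⟩ := hrk a ha h δ hδ
    refine ⟨N, fun n hn => ?_⟩
    obtain ⟨m, rfl⟩ := Nat.exists_eq_add_of_le hn
    have : a ^ (N + m) * δ⁻¹ = a ^ m * (a ^ N * δ⁻¹) := by rw [pow_add]; ring
    rw [this]
    exact R.A.mul_mem _ _ (R.A.pow_mem ha m) hN

/-- Constants of zero residue are non-units of `O`. -/
theorem h10_algebraMap_mem_nonunits {c : K} (hc : c ∈ R.A) (hres : R.resK c = 0) :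
    algebraMap K F c ∈ R.O.nonunits := by
  rw [ValuationSubring.mem_nonunits_iff_or]
  rcases (h39_resK_eq_zero_iff R hc).mp hres with h | h
  · left
    rw [h, map_zero]
  · right
    rw [← map_inv₀, ← R.mem_iff]
    exact h

end Generic

/-- Unit arithmetic in a valuation ring: `(1 + c t) / (1 + c s)^e ∈ 1 + c O` for a non-unit
`c`. -/
theorem h10_quot_deep {F : Type*} [Field F] (O : ValuationSubring F) {c s t : F}
    (hc : c ∈ O.nonunits) (hs : s ∈ O) (ht : t ∈ O) (e : ℕ) :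
    1 + c * s ≠ 0 ∧ 1 + c * s ∈ O ∧ (1 + c * s)⁻¹ ∈ O ∧
      ∃ r ∈ O, 1 + c * t = (1 + c * s) ^ e * (1 + c * r) := by
  have hcO : c ∈ O := ValuationSubring.nonunits_subset hc
  have hv : O.valuation (c * s) < 1 := by
    rw [map_mul]
    calc O.valuation c * O.valuation s ≤ O.valuation c * 1 :=
          mul_le_mul' le_rfl ((O.valuation_le_one_iff s).mpr hs)
      _ = O.valuation c := mul_one _
      _ < 1 := (ValuationSubring.mem_nonunits_iff O).mp hc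
  have hU1v : O.valuation (1 + c * s) = 1 := O.valuation.map_one_add_of_lt hv
  set U := 1 + c * s with hU
  have hU0 : U ≠ 0 := by
    intro h0
    rw [h0, map_zero] at hU1v
    exact zero_ne_one hU1v
  have hUO : U ∈ O := (O.valuation_le_one_iff U).mp hU1v.le
  have hUinv : U⁻¹ ∈ O := by
    rw [← O.valuation_le_one_iff, map_inv₀, hU1v, inv_one]
  refine ⟨hU0, hUO, hUinv, ?_⟩
  set S := ∑ i ∈ Finset.range e, U ^ i with hS
  have hSO : S ∈ O := sum_mem fun i _ => O.pow_mem hUO i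
  have hgeom : S * (U - 1) = U ^ e - 1 := geom_sum_mul U e
  have hUs : U - 1 = c * s := by rw [hU]; ring
  set I := U⁻¹ ^ e with hI
  have hII : U ^ e * I = 1 := by rw [hI, ← mul_pow, mul_inv_cancel₀ hU0, one_pow]
  refine ⟨(t - s * S) * I, O.mul_mem _ _ (sub_mem ht (O.mul_mem _ _ hs hSO))
    (O.pow_mem hUinv e), ?_⟩
  linear_combination (-(c * (t - s * S))) * hII + hgeom - S * hUs

section Glue

variable {K F k Fb₁ Fb₂ : Type*} [Field K] [Field F] [Algebra K F] [Field k] [Field Fb₁]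
  [Algebra k Fb₁] [Field Fb₂] [Algebra k Fb₂]
  (R₁ : h39_RedDatum K F k Fb₁) (R₂ : h39_RedDatum K F k Fb₂)

/-- Deep separating elements: `T ∈ 1 + δ O₁`, `T ∈ δ O₂`, for any constant `δ ≠ 0`. -/
theorem h10_sep_deep (hA : R₁.A = R₂.A) (hrk : h39_RankOne R₁.A)
    (hsep : ∃ t : F, t ∈ R₁.O ∧ t ∈ R₂.O ∧ R₁.redF t = 1 ∧ R₂.redF t = 0) {δ : K} (hδ : δ ≠ 0) :
    ∃ T : F, (∃ s ∈ R₁.O, T - 1 = algebraMap K F δ * s) ∧ (∃ s ∈ R₂.O, T = algebraMap K F δ * s) := by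
  obtain ⟨t, ht1, ht2, hr1, hr2⟩ := hsep
  have h1 : R₁.redF (t - 1) = 0 := by
    rw [h39_redF_sub R₁ ht1 R₁.O.one_mem, hr1, h39_redF_one, sub_self]
  obtain ⟨a₁, f₁, ha₁, hres₁, hf₁, e₁⟩ :=
    h39_exists_factor_of_redF_eq_zero R₁ (sub_mem ht1 R₁.O.one_mem) h1
  obtain ⟨a₂, f₂, ha₂, hres₂, hf₂, e₂⟩ := h39_exists_factor_of_redF_eq_zero R₂ ht2 hr2
  have hrk₂ : h39_RankOne R₂.A := hA ▸ hrk
  obtain ⟨N₁, hN₁⟩ := h10_rankOne_pow R₁ hrk ha₁ hres₁ hδ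
  obtain ⟨N₂, hN₂⟩ := h10_rankOne_pow R₂ hrk₂ ha₂ hres₂ hδ
  set N := max N₁ N₂ with hN
  have hδF : algebraMap K F δ ≠ 0 := (map_ne_zero _).2 hδ
  refine ⟨1 - (1 - t ^ N) ^ N, ?_, ?_⟩
  · set S := ∑ i ∈ Finset.range N, t ^ i with hS
    have hSO : S ∈ R₁.O := sum_mem fun i _ => R₁.O.pow_mem ht1 i
    have hgeom : S * (t - 1) = t ^ N - 1 := geom_sum_mul t N
    have hmem : algebraMap K F (a₁ ^ N * δ⁻¹) ∈ R₁.O :=
      (R₁.mem_iff _).mp (hN₁ N (le_max_left _ _))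
    have hmap : algebraMap K F δ * algebraMap K F (a₁ ^ N * δ⁻¹) = algebraMap K F a₁ ^ N := by
      rw [← map_mul, ← map_pow]
      congr 1
      field_simp
    refine ⟨algebraMap K F (a₁ ^ N * δ⁻¹) * (-(-(S * f₁)) ^ N),
      R₁.O.mul_mem _ _ hmem (R₁.O.neg_mem _ (R₁.O.pow_mem (R₁.O.neg_mem _
        (R₁.O.mul_mem _ _ hSO hf₁)) N)), ?_⟩
    have h1t : 1 - t ^ N = -(S * (algebraMap K F a₁ * f₁)) := by
      rw [← e₁]
      linear_combination hgeom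
    rw [← mul_assoc, hmap, sub_sub_cancel_left, h1t]
    ring
  · set y := 1 - t ^ N with hy
    have hyO : y ∈ R₂.O := sub_mem R₂.O.one_mem (R₂.O.pow_mem ht2 N)
    set S := ∑ i ∈ Finset.range N, y ^ i with hS
    have hSO : S ∈ R₂.O := sum_mem fun i _ => R₂.O.pow_mem hyO i
    have hgeom : S * (y - 1) = y ^ N - 1 := geom_sum_mul y N
    have hmem : algebraMap K F (a₂ ^ N * δ⁻¹) ∈ R₂.O :=
      (R₂.mem_iff _).mp (hN₂ N (le_max_right _ _))
    have hmap : algebraMap K F δ * algebraMap K F (a₂ ^ N * δ⁻¹) = algebraMap K F a₂ ^ N := by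
      rw [← map_mul, ← map_pow]
      congr 1
      field_simp
    refine ⟨algebraMap K F (a₂ ^ N * δ⁻¹) * (S * f₂ ^ N),
      R₂.O.mul_mem _ _ hmem (R₂.O.mul_mem _ _ hSO (R₂.O.pow_mem hf₂ N)), ?_⟩
    have hy1 : y - 1 = -(algebraMap K F a₂ * f₂) ^ N := by
      rw [hy, ← e₂]
      ring
    rw [← mul_assoc, hmap]
    have : (1 : F) - y ^ N = -(S * (y - 1)) := by rw [hgeom]; ring
    rw [this, hy1]
    ring

/-- **Two-valuation glue.** -/
theorem h10_glue (hA : R₁.A = R₂.A) (hrk : h39_RankOne R₁.A)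
    (hsep : ∃ t : F, t ∈ R₁.O ∧ t ∈ R₂.O ∧ R₁.redF t = 1 ∧ R₂.redF t = 0)
    (G₁ G₂ : F) (hG₁ : G₁ ≠ 0) (hG₂ : G₂ ≠ 0) {c : K} (hc : c ≠ 0) :
    ∃ W : F, (∃ s ∈ R₁.O, W = G₁ * (1 + algebraMap K F c * s)) ∧
      (∃ s ∈ R₂.O, W = G₂ * (1 + algebraMap K F c * s)) := by
  obtain ⟨κ₁, hκ₁A, hκ₁0, hκ₁⟩ := h10_exists_scale_mem R₁ (G₂ / G₁ - 1)
  obtain ⟨κ₂, hκ₂A, hκ₂0, hκ₂⟩ := h10_exists_scale_mem R₂ (G₁ / G₂ - 1)
  have hδ : c * κ₁ * κ₂ ≠ 0 := mul_ne_zero (mul_ne_zero hc hκ₁0) hκ₂0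
  obtain ⟨T, ⟨s₁, hs₁, hT₁⟩, ⟨s₂, hs₂, hT₂⟩⟩ := h10_sep_deep R₁ R₂ hA hrk hsep hδ
  rw [map_mul, map_mul] at hT₁ hT₂
  have hκ₂O₁ : algebraMap K F κ₂ ∈ R₁.O := (R₁.mem_iff _).mp (hA ▸ hκ₂A)
  have hκ₁O₂ : algebraMap K F κ₁ ∈ R₂.O := (R₂.mem_iff _).mp (hA ▸ hκ₁A)
  set Q₁ := G₂ / G₁ - 1 with hQ₁
  set Q₂ := G₁ / G₂ - 1 with hQ₂
  have eb₁ : G₁ * Q₁ = G₂ - G₁ := by rw [hQ₁]; field_simp
  have eb₂ : G₂ * Q₂ = G₁ - G₂ := by rw [hQ₂]; field_simp
  refine ⟨T * G₁ + (1 - T) * G₂, ⟨-(algebraMap K F κ₂ * s₁ * (algebraMap K F κ₁ * Q₁)), ?_, ?_⟩,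
    ⟨algebraMap K F κ₁ * s₂ * (algebraMap K F κ₂ * Q₂), ?_, ?_⟩⟩
  · exact R₁.O.neg_mem _ (R₁.O.mul_mem _ _ (R₁.O.mul_mem _ _ hκ₂O₁ hs₁) hκ₁)
  · linear_combination (algebraMap K F c * algebraMap K F κ₁ * algebraMap K F κ₂ * s₁) * eb₁
      + (G₁ - G₂) * hT₁
  · exact R₂.O.mul_mem _ _ (R₂.O.mul_mem _ _ hκ₁O₂ hs₂) hκ₂
  · linear_combination (-(algebraMap K F c * algebraMap K F κ₁ * algebraMap K F κ₂ * s₂)) * eb₂
      + (G₁ - G₂) * hT₂

end Glue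

section Main

variable (M p : ℕ) [NeZero M] [NeZero p] [Fact p.Prime] (hpM : ¬ p ∣ M)
  (A : ValuationSubring Qb) (hA : A.LiesOverPrime p)

/-- `red₁ f = 1` gives `f - 1 = a g` with `a` a non-unit of `A` and `g ∈ O₁`. -/
theorem h10_factor_of_redF_one (f : ↥(modularFunctionFieldBar (M * p)))
    (hf : (h60_R1 M p hpM A hA).redF f = 1) :
    ∃ (a : Qb) (g : ↥(modularFunctionFieldBar (M * p))), a ∈ A.nonunits ∧
      g ∈ (h60_R1 M p hpM A hA).O ∧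
      f - 1 = algebraMap Qb ↥(modularFunctionFieldBar (M * p)) a * g := by
  set R1 := h60_R1 M p hpM A hA with hR1
  have hfO : f ∈ R1.O := h39_mem_of_redF_ne_zero R1 (by rw [hf]; exact one_ne_zero)
  have h1 : R1.redF (f - 1) = 0 := by
    rw [h39_redF_sub R1 hfO R1.O.one_mem, hf, h39_redF_one, sub_self]
  obtain ⟨a, g, ha, hres, hg, e⟩ :=
    h39_exists_factor_of_redF_eq_zero R1 (sub_mem hfO R1.O.one_mem) h1
  refine ⟨a, g, ?_, hg, e⟩
  have h2 := (h39_resK_eq_zero_iff R1 ha).mp hres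
  rw [h60_R1_A] at h2
  exact (ValuationSubring.mem_nonunits_iff_or A).mpr h2

/-- **(N1), glued form.** If `N_α u = h^e`, `N_α (w u) = h'^e` (`e ≠ 0`) and
`red₁ u = 1 = red₂ u`, then for every constant `cstar ≠ 0` there is a unit `gt` of `O₁ ∩ O₂` and
`t ∈ O₁ ∩ O₂` with `u = gt^e (1 + cstar t)`; moreover `(red_i gt)^e = 1`. -/
theorem h10_N1_glued (e : ℕ) (he : e ≠ 0) (u : ↥(modularFunctionFieldBar (M * p)))
    (h h' : ↥(modularFunctionFieldBar M)) (hα : h10_normA M p u = h ^ e)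
    (hβ : h10_normA M p (h60_w M p hpM u) = h' ^ e)
    (hu1 : (h60_R1 M p hpM A hA).redF u = 1) (hu2 : (h60_R2 M p hpM A hA).redF u = 1)
    (cstar : Qb) (hcs : cstar ≠ 0) :
    ∃ gt : ↥(modularFunctionFieldBar (M * p)), gt ≠ 0 ∧
      gt ∈ (h60_R1 M p hpM A hA).O ∧ gt⁻¹ ∈ (h60_R1 M p hpM A hA).O ∧
      gt ∈ (h60_R2 M p hpM A hA).O ∧ gt⁻¹ ∈ (h60_R2 M p hpM A hA).O ∧
      (h60_R1 M p hpM A hA).redF gt ^ e = 1 ∧ (h60_R2 M p hpM A hA).redF gt ^ e = 1 ∧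
      ∃ t : ↥(modularFunctionFieldBar (M * p)), t ∈ (h60_R1 M p hpM A hA).O ∧
        t ∈ (h60_R2 M p hpM A hA).O ∧
        u = gt ^ e * (1 + algebraMap Qb ↥(modularFunctionFieldBar (M * p)) cstar * t) := by
  have hp : p.Prime := Fact.out
  set R1 := h60_R1 M p hpM A hA with hR1
  set R2 := h60_R2 M p hpM A hA with hR2
  set w := h60_w M p hpM with hw
  have hR1A : R1.A = A := h60_R1_A M p hpM A hA
  have hR2A : R2.A = A := h60_R2_A M p hpM A hA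
  have hrk : h39_RankOne A := h64_rankOne_h39 hp A hA
  -- the depth constant `c = p^(D+1)`
  have hp0 : (p : Qb) ≠ 0 := Nat.cast_ne_zero.mpr hp.ne_zero
  have hpA : (p : Qb) ∈ A := ValuationSubring.nonunits_subset hA
  have hpinv : (p : Qb)⁻¹ ∉ A :=
    ((ValuationSubring.mem_nonunits_iff_or A).mp hA).resolve_left hp0
  obtain ⟨D, hD⟩ := hrk (p : Qb) hpA hpinv cstar hcs
  set c : Qb := (p : Qb) ^ (D + 1) with hc
  have hc0 : c ≠ 0 := pow_ne_zero _ hp0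
  have hcA : c ∈ A := A.pow_mem hpA _
  have hcinv : c⁻¹ ∉ A := by
    intro hmem
    apply hpinv
    have : (p : Qb)⁻¹ = (p : Qb) ^ D * c⁻¹ := by
      rw [hc, pow_succ]
      field_simp
    rw [this]
    exact A.mul_mem _ _ (A.pow_mem hpA D) hmem
  have hccs : c * cstar⁻¹ ∈ A := by
    have : c * cstar⁻¹ = (p : Qb) * ((p : Qb) ^ D * cstar⁻¹) := by rw [hc, pow_succ]; ring
    rw [this]
    exact A.mul_mem _ _ hpA hD
  have hcA1 : c ∈ R1.A := by rw [hR1A]; exact hcA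
  have hcA2 : c ∈ R2.A := by rw [hR2A]; exact hcA
  have hrk1 : h39_RankOne R1.A := by rw [hR1A]; exact hrk
  have hccs1 : c * cstar⁻¹ ∈ R1.A := by rw [hR1A]; exact hccs
  have hccs2 : c * cstar⁻¹ ∈ R2.A := by rw [hR2A]; exact hccs
  have hres1 : R1.resK c = 0 :=
    (h39_resK_eq_zero_iff R1 hcA1).mpr (Or.inr (by rw [hR1A]; exact hcinv))
  have hres2 : R2.resK c = 0 :=
    (h39_resK_eq_zero_iff R2 hcA2).mpr (Or.inr (by rw [hR2A]; exact hcinv))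
  have hcF1 : algebraMap Qb ↥(modularFunctionFieldBar (M * p)) c ∈ R1.O.nonunits :=
    h10_algebraMap_mem_nonunits R1 hcA1 hres1
  have hcF2 : algebraMap Qb ↥(modularFunctionFieldBar (M * p)) c ∈ R2.O.nonunits :=
    h10_algebraMap_mem_nonunits R2 hcA2 hres2
  have hcF0 : algebraMap Qb ↥(modularFunctionFieldBar (M * p)) c ≠ 0 := (map_ne_zero _).2 hc0
  have hredc1 : R1.redF (algebraMap Qb ↥(modularFunctionFieldBar (M * p)) c) = 0 := by
    rw [h39_redF_algebraMap R1 hcA1, hres1, map_zero]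
  have hredc2 : R2.redF (algebraMap Qb ↥(modularFunctionFieldBar (M * p)) c) = 0 := by
    rw [h39_redF_algebraMap R2 hcA2, hres2, map_zero]
  -- (N1) at `v₁`
  obtain ⟨a₁, f₁, ha₁, hf₁, e₁⟩ := h10_factor_of_redF_one M p hpM A hA u hu1
  obtain ⟨G₁, hG₁0, hG₁O, hG₁inv, t₁, ht₁, hu₁⟩ :=
    h10_N1_one M p hpM A hA e he u h h' hα hβ a₁ ha₁ f₁ hf₁ e₁ (D + 1)
  -- (N1) at `v₂`, i.e. at `v₁` for `w u`
  have hwu1 : R1.redF (w u) = 1 := by
    rw [← hu2]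
    exact (h60_R2_redF M p hpM A hA u).symm
  obtain ⟨a₂, f₂, ha₂, hf₂, e₂⟩ := h10_factor_of_redF_one M p hpM A hA (w u) hwu1
  have hα'' : h10_normA M p (h60_w M p hpM (w u)) = h ^ e := by
    rw [hw, h60_w_w]
    exact hα
  obtain ⟨G', hG'0, hG'O, hG'inv, t', ht', hu'⟩ :=
    h10_N1_one M p hpM A hA e he (w u) h' h hβ hα'' a₂ ha₂ f₂ hf₂ e₂ (D + 1)
  set G₂ := w G' with hG₂
  set t₂ := w t' with ht₂
  have hG₂0 : G₂ ≠ 0 := (map_ne_zero w).mpr hG'0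
  have hG₂O : G₂ ∈ R2.O := by
    rw [hR2, h60_R2_mem_iff, hG₂, hw, h60_w_w]
    exact hG'O
  have hG₂inv : G₂⁻¹ ∈ R2.O := by
    rw [hR2, h60_R2_mem_iff, hG₂, map_inv₀, hw, h60_w_w]
    exact hG'inv
  have ht₂O : t₂ ∈ R2.O := by
    rw [hR2, h60_R2_mem_iff, ht₂, hw, h60_w_w]
    exact ht'
  have hu₂ : u = G₂ ^ e * (1 + algebraMap Qb ↥(modularFunctionFieldBar (M * p)) c * t₂) := by
    have := congrArg w hu'
    rw [hw, h60_w_w, map_mul, map_pow, map_add, map_one, map_mul, h60_w_algebraMap] at this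
    exact this
  -- glue
  obtain ⟨W, ⟨s₁, hs₁, hW₁⟩, ⟨s₂, hs₂, hW₂⟩⟩ :=
    h10_glue R1 R2 (hR1A.trans hR2A.symm) hrk1 (h60_exists_sep M p hpM A hA)
      G₁ G₂ hG₁0 hG₂0 hc0
  obtain ⟨hU₁0, hU₁O, hU₁inv, r₁, hr₁, hq₁⟩ := h10_quot_deep R1.O hcF1 hs₁ ht₁ e
  obtain ⟨hU₂0, hU₂O, hU₂inv, r₂, hr₂, hq₂⟩ := h10_quot_deep R2.O hcF2 hs₂ ht₂O e
  have hW0 : W ≠ 0 := by rw [hW₁]; exact mul_ne_zero hG₁0 hU₁0
  have huW₁ : u = W ^ e * (1 + algebraMap Qb ↥(modularFunctionFieldBar (M * p)) c * r₁) := by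
    rw [hu₁, hW₁, mul_pow, mul_assoc, ← hq₁]
  have huW₂ : u = W ^ e * (1 + algebraMap Qb ↥(modularFunctionFieldBar (M * p)) c * r₂) := by
    rw [hu₂, hW₂, mul_pow, mul_assoc, ← hq₂]
  have hr12 : r₁ = r₂ := by
    have h3 := huW₁.symm.trans huW₂
    have h4 := mul_left_cancel₀ (pow_ne_zero e hW0) h3
    exact mul_left_cancel₀ hcF0 (add_left_cancel h4)
  have hWO1 : W ∈ R1.O := by rw [hW₁]; exact R1.O.mul_mem _ _ hG₁O hU₁O
  have hWinv1 : W⁻¹ ∈ R1.O := by rw [hW₁, mul_inv]; exact R1.O.mul_mem _ _ hG₁inv hU₁inv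
  have hWO2 : W ∈ R2.O := by rw [hW₂]; exact R2.O.mul_mem _ _ hG₂O hU₂O
  have hWinv2 : W⁻¹ ∈ R2.O := by rw [hW₂, mul_inv]; exact R2.O.mul_mem _ _ hG₂inv hU₂inv
  have hcO1 : algebraMap Qb ↥(modularFunctionFieldBar (M * p)) c ∈ R1.O :=
    ValuationSubring.nonunits_subset hcF1
  have hcO2 : algebraMap Qb ↥(modularFunctionFieldBar (M * p)) c ∈ R2.O :=
    ValuationSubring.nonunits_subset hcF2
  have hredW1 : R1.redF W ^ e = 1 := by
    rw [← h39_redF_pow R1 hWO1, ← hu1, huW₁,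
      h39_redF_mul R1 (R1.O.pow_mem hWO1 e) (add_mem R1.O.one_mem (R1.O.mul_mem _ _ hcO1 hr₁)),
      h39_redF_add R1 R1.O.one_mem (R1.O.mul_mem _ _ hcO1 hr₁), h39_redF_mul R1 hcO1 hr₁, hredc1,
      zero_mul, add_zero, h39_redF_one, mul_one]
  have hredW2 : R2.redF W ^ e = 1 := by
    rw [← h39_redF_pow R2 hWO2, ← hu2, huW₂,
      h39_redF_mul R2 (R2.O.pow_mem hWO2 e) (add_mem R2.O.one_mem (R2.O.mul_mem _ _ hcO2 hr₂)),
      h39_redF_add R2 R2.O.one_mem (R2.O.mul_mem _ _ hcO2 hr₂), h39_redF_mul R2 hcO2 hr₂, hredc2,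
      zero_mul, add_zero, h39_redF_one, mul_one]
  have hκ1 : algebraMap Qb ↥(modularFunctionFieldBar (M * p)) (c * cstar⁻¹) ∈ R1.O :=
    (R1.mem_iff _).mp hccs1
  have hκ2 : algebraMap Qb ↥(modularFunctionFieldBar (M * p)) (c * cstar⁻¹) ∈ R2.O :=
    (R2.mem_iff _).mp hccs2
  refine ⟨W, hW0, hWO1, hWinv1, hWO2, hWinv2, hredW1, hredW2,
    algebraMap Qb ↥(modularFunctionFieldBar (M * p)) (c * cstar⁻¹) * r₁,
    R1.O.mul_mem _ _ hκ1 hr₁, ?_, ?_⟩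
  · rw [hr12]
    exact R2.O.mul_mem _ _ hκ2 hr₂
  · rw [← mul_assoc, ← map_mul]
    have : cstar * (c * cstar⁻¹) = c := by field_simp
    rw [this]
    exact huW₁

/-- **(N1), final form** (consumer shape): norm hypotheses up to constants, conclusion with
`(u - gt^e) / cstar ∈ O₁ ∩ O₂`. -/
theorem h10_N1_final (e : ℕ) (he : e ≠ 0) (u : ↥(modularFunctionFieldBar (M * p)))
    (hu1 : (h60_R1 M p hpM A hA).redF u = 1) (hu2 : (h60_R2 M p hpM A hA).redF u = 1)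
    (hα : ∃ (a : Qb) (g : ↥(modularFunctionFieldBar M)),
      @Algebra.norm ↥(modularFunctionFieldBar M) ↥(modularFunctionFieldBar (M * p)) _ _
        (algebraAlong (heckeAlphaBar Qb M p)) u = algebraMap Qb ↥(modularFunctionFieldBar M) a * g ^ e)
    (hβ : ∃ (a : Qb) (g : ↥(modularFunctionFieldBar M)),
      @Algebra.norm ↥(modularFunctionFieldBar M) ↥(modularFunctionFieldBar (M * p)) _ _
        (algebraAlong (heckeBetaBar Qb M p)) u = algebraMap Qb ↥(modularFunctionFieldBar M) a * g ^ e)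
    (cstar : Qb) (hcs : cstar ≠ 0) :
    ∃ gt : ↥(modularFunctionFieldBar (M * p)), gt ≠ 0 ∧
      gt ∈ (h60_R1 M p hpM A hA).O ∧ gt⁻¹ ∈ (h60_R1 M p hpM A hA).O ∧
      gt ∈ (h60_R2 M p hpM A hA).O ∧ gt⁻¹ ∈ (h60_R2 M p hpM A hA).O ∧
      (h60_R1 M p hpM A hA).redF gt ^ e = 1 ∧ (h60_R2 M p hpM A hA).redF gt ^ e = 1 ∧
      (u - gt ^ e) / algebraMap Qb ↥(modularFunctionFieldBar (M * p)) cstar
        ∈ (h60_R1 M p hpM A hA).O ∧
      (u - gt ^ e) / algebraMap Qb ↥(modularFunctionFieldBar (M * p)) cstar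
        ∈ (h60_R2 M p hpM A hA).O ∧
      ∃ t : ↥(modularFunctionFieldBar (M * p)), t ∈ (h60_R1 M p hpM A hA).O ∧
        t ∈ (h60_R2 M p hpM A hA).O ∧
        u = gt ^ e * (1 + algebraMap Qb ↥(modularFunctionFieldBar (M * p)) cstar * t) := by
  have hp : p.Prime := Fact.out
  obtain ⟨a, g, hag⟩ := hα
  obtain ⟨a', g', hag'⟩ := hβ
  obtain ⟨b, hb⟩ := IsAlgClosed.exists_pow_nat_eq a (Nat.pos_of_ne_zero he)
  obtain ⟨b', hb'⟩ := IsAlgClosed.exists_pow_nat_eq a' (Nat.pos_of_ne_zero he)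
  have hα' : h10_normA M p u = (algebraMap Qb ↥(modularFunctionFieldBar M) b * g) ^ e := by
    rw [mul_pow, ← map_pow, hb]
    exact hag
  have hβ' : h10_normA M p (h60_w M p hpM u)
      = (algebraMap Qb ↥(modularFunctionFieldBar M) b' * g') ^ e := by
    rw [mul_pow, ← map_pow, hb', ← hag']
    exact (h49_norm_beta_eq M p hp (h49_exists_bezout
      ((Nat.Prime.coprime_iff_not_dvd (Fact.out : p.Prime)).mpr hpM)).choose_spec.choose_spec
      u).symm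
  obtain ⟨gt, hgt0, h1, h2, h3, h4, h5, h6, t, ht1, ht2, hu⟩ :=
    h10_N1_glued M p hpM A hA e he u _ _ hα' hβ' hu1 hu2 cstar hcs
  have hcF0 : algebraMap Qb ↥(modularFunctionFieldBar (M * p)) cstar ≠ 0 := (map_ne_zero _).2 hcs
  have hq : (u - gt ^ e) / algebraMap Qb ↥(modularFunctionFieldBar (M * p)) cstar = gt ^ e * t := by
    rw [div_eq_iff hcF0]
    rw [hu]
    ring
  refine ⟨gt, hgt0, h1, h2, h3, h4, h5, h6, ?_, ?_, t, ht1, ht2, hu⟩
  · rw [hq]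
    exact mul_mem (pow_mem h1 e) ht1
  · rw [hq]
    exact mul_mem (pow_mem h3 e) ht2

/-- In characteristic `p`, `x^(p^n) = 1` implies `x = 1`. -/
theorem h10_eq_one_of_pow_char {L : Type*} [Field L] (q : ℕ) [Fact q.Prime] [CharP L q] (n : ℕ)
    {x : L} (h : x ^ (q ^ n) = 1) : x = 1 := by
  have h1 : (x - 1) ^ (q ^ n) = 0 := by rw [sub_pow_char_pow, h, one_pow, sub_self]
  exact sub_eq_zero.mp
    ((pow_eq_zero_iff (pow_ne_zero n (Fact.out : q.Prime).ne_zero)).mp h1)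

/-- **(N1), final form for `e = p^n`**: moreover `red₁ gt = 1 = red₂ gt`. -/
theorem h10_N1_final_pow (n : ℕ) (u : ↥(modularFunctionFieldBar (M * p)))
    (hu1 : (h60_R1 M p hpM A hA).redF u = 1) (hu2 : (h60_R2 M p hpM A hA).redF u = 1)
    (hα : ∃ (a : Qb) (g : ↥(modularFunctionFieldBar M)),
      @Algebra.norm ↥(modularFunctionFieldBar M) ↥(modularFunctionFieldBar (M * p)) _ _
        (algebraAlong (heckeAlphaBar Qb M p)) u
          = algebraMap Qb ↥(modularFunctionFieldBar M) a * g ^ (p ^ n))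
    (hβ : ∃ (a : Qb) (g : ↥(modularFunctionFieldBar M)),
      @Algebra.norm ↥(modularFunctionFieldBar M) ↥(modularFunctionFieldBar (M * p)) _ _
        (algebraAlong (heckeBetaBar Qb M p)) u
          = algebraMap Qb ↥(modularFunctionFieldBar M) a * g ^ (p ^ n))
    (cstar : Qb) (hcs : cstar ≠ 0) :
    ∃ gt : ↥(modularFunctionFieldBar (M * p)), gt ≠ 0 ∧
      gt ∈ (h60_R1 M p hpM A hA).O ∧ gt⁻¹ ∈ (h60_R1 M p hpM A hA).O ∧
      gt ∈ (h60_R2 M p hpM A hA).O ∧ gt⁻¹ ∈ (h60_R2 M p hpM A hA).O ∧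
      (h60_R1 M p hpM A hA).redF gt = 1 ∧ (h60_R2 M p hpM A hA).redF gt = 1 ∧
      (u - gt ^ (p ^ n)) / algebraMap Qb ↥(modularFunctionFieldBar (M * p)) cstar
        ∈ (h60_R1 M p hpM A hA).O ∧
      (u - gt ^ (p ^ n)) / algebraMap Qb ↥(modularFunctionFieldBar (M * p)) cstar
        ∈ (h60_R2 M p hpM A hA).O ∧
      ∃ t : ↥(modularFunctionFieldBar (M * p)), t ∈ (h60_R1 M p hpM A hA).O ∧
        t ∈ (h60_R2 M p hpM A hA).O ∧
        u = gt ^ (p ^ n) * (1 + algebraMap Qb ↥(modularFunctionFieldBar (M * p)) cstar * t) := by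
  have hp : p.Prime := Fact.out
  have : CharP (IsLocalRing.ResidueField A) p := h19_residueField_charP A p hA
  have : CharP ↥(modularFunctionFieldFullC (IsLocalRing.ResidueField A) M) p :=
    charP_of_injective_algebraMap (algebraMap (IsLocalRing.ResidueField A)
      ↥(modularFunctionFieldFullC (IsLocalRing.ResidueField A) M)).injective p
  obtain ⟨gt, hgt0, h1, h2, h3, h4, h5, h6, h7, h8, h9⟩ :=
    h10_N1_final M p hpM A hA (p ^ n) (pow_ne_zero n hp.ne_zero) u hu1 hu2 hα hβ cstar hcs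
  exact ⟨gt, hgt0, h1, h2, h3, h4, h10_eq_one_of_pow_char p n h5, h10_eq_one_of_pow_char p n h6,
    h7, h8, h9⟩

end Main

end Fermat.Agent.S33
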