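import Mathlib
import Fermat.Agent.S34.h22_LatON
import Fermat.Agent.S34.h22_FrameTower

/-!
# S33 (N2), row (W1): the split-extension lattice step ("AS-LAT")

Generic (Mathlib + the S34 lattice layer `h22_Lat`).  `D : h22_Lat K F k Rb` a lattice datum on
`F`, `F'/F` a field extension with a power basis `1, y, …, y^(n-1)`, where `y` is a root of a
monic `P ∈ O[Y]` of degree `n` whose reduction has `n` distinct roots `r a ∈ k` (`a : Fin n`).
Then

  `O' := O[y] = ⊕_{j<n} O y^j`,  `Rb' := Fin n → Rb`,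
  `red' (∑ a_j y^j) a := ∑ red(a_j) (r a)^j`

is a lattice datum on `F'` (`h15_asLat`): `red'` is a ring hom because `red P (r a) = 0`;
`exists_scale` and `ker` follow from the Vandermonde determinant of the nodes `r a`.

Application (S33, the wild Kummer step): `ζ` a primitive `p`-th root of unity, `π = ζ - 1`,
`θ^p = u`, `u ≡ g^p mod π^p 𝔪_A O`, `y := (θ - g)/π`; then `P = ((πY + g)^p - u)/π^p` has
reduction `Y^p - Y` and the nodes are `r a = a ∈ 𝔽_p`: the sheets of the cover are labelled by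
the residues of the Artin–Schreier generator `y`, not by residues of `θ`.
-/

set_option autoImplicit false

noncomputable section

open Polynomial Module

namespace Fermat.Agent.S33

open Fermat.Agent.S34

variable {K F k Rb : Type*} [Field K] [Field F] [Algebra K F] [Field k] [CommRing Rb]
  [Algebra k Rb]

/-- the inclusion `O → F'` -/
def h15_incl (D : h22_Lat K F k Rb) (F' : Type*) [Field F'] [Algebra F F'] : D.O →+* F' :=
  (algebraMap F F').comp D.O.subtype

theorem h15_incl_apply (D : h22_Lat K F k Rb) (F' : Type*) [Field F'] [Algebra F F'] (c : D.O) :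
    h15_incl D F' c = algebraMap F F' (c : F) := rfl

/-- the polynomial with prescribed coefficients -/
def h15_poly {R : Type*} [CommRing R] {n : ℕ} (c : Fin n → R) : Polynomial R :=
  ∑ j : Fin n, Polynomial.C (c j) * Polynomial.X ^ (j : ℕ)

/-- the coordinates of an element of the base field: `(f, 0, …, 0)` -/
def h15_coordF {R : Type*} [Zero R] (n : ℕ) (f : R) : Fin n → R :=
  fun j => if (j : ℕ) = 0 then f else 0

/-- scaling a finite family of elements of `F`, not all zero, into `O` with one nonzero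
reduction -/
theorem h15_exists_scale_family (D : h22_Lat K F k Rb) {n : ℕ} (c : Fin n → F) (hc : ∃ j, c j ≠ 0) :
    ∃ d : K, d ≠ 0 ∧ ∃ h : ∀ j, algebraMap K F d * c j ∈ D.O,
      ∃ j, D.red ⟨algebraMap K F d * c j, h j⟩ ≠ 0 := by
  classical
  have hex : ∀ j, ∃ d : K, c j ≠ 0 → d ≠ 0 ∧ ∃ h : algebraMap K F d * c j ∈ D.O,
      D.red ⟨algebraMap K F d * c j, h⟩ ≠ 0 := by
    intro j
    by_cases hj : c j = 0
    · exact ⟨0, fun h => absurd hj h⟩
    · obtain ⟨d, hd, h⟩ := D.exists_scale (c j) hj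
      exact ⟨d, fun _ => ⟨hd, h⟩⟩
  choose d hd using hex
  set J : Finset (Fin n) := Finset.univ.filter fun j => c j ≠ 0 with hJ
  have hJne : J.Nonempty := by
    obtain ⟨j, hj⟩ := hc
    exact ⟨j, by rw [hJ, Finset.mem_filter]; exact ⟨Finset.mem_univ _, hj⟩⟩
  obtain ⟨j₀, hj₀, hmin⟩ := Finset.exists_min_image J (fun j => D.A.valuation (d j)) hJne
  have hj₀' : c j₀ ≠ 0 := by
    rw [hJ, Finset.mem_filter] at hj₀
    exact hj₀.2
  obtain ⟨hd₀, hm₀, hr₀⟩ := hd j₀ hj₀'
  have hall : ∀ j, algebraMap K F (d j₀) * c j ∈ D.O := by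
    intro j
    by_cases hj : c j = 0
    · rw [hj, mul_zero]
      exact D.O.zero_mem
    · obtain ⟨hdj, hmj, -⟩ := hd j hj
      have hjJ : j ∈ J := by rw [hJ, Finset.mem_filter]; exact ⟨Finset.mem_univ _, hj⟩
      have hle := hmin j hjJ
      have hq : d j₀ / d j ∈ D.A := by
        rw [← D.A.valuation_le_one_iff, map_div₀]
        have hpos : 0 < D.A.valuation (d j) := by
          rw [pos_iff_ne_zero, Ne, map_eq_zero]
          exact hdj
        exact (div_le_one₀ hpos).mpr hle
      have he : algebraMap K F (d j₀) * c j =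
          algebraMap K F (d j₀ / d j) * (algebraMap K F (d j) * c j) := by
        rw [← mul_assoc, ← map_mul, div_mul_cancel₀ _ hdj]
      rw [he]
      exact D.O.mul_mem ((D.mem_iff _).mp hq) hmj
  exact ⟨d j₀, hd₀, hall, j₀, hr₀⟩

/-- The data of a split extension step over a lattice datum `D`. -/
structure h15_ASData (D : h22_Lat K F k Rb) (F' : Type*) [Field F'] [Algebra F F'] (n : ℕ) where
  /-- the generator -/
  y : F'
  /-- its monic equation over `O` -/
  P : Polynomial D.O
  monic : P.Monic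
  natDegree_eq : P.natDegree = n
  pos : 0 < n
  root : Polynomial.eval₂ (h15_incl D F') y P = 0
  li : LinearIndependent F (fun j : Fin n => y ^ (j : ℕ))
  span : ∀ f : F', ∃ c : Fin n → F, f = ∑ j, algebraMap F F' (c j) * y ^ (j : ℕ)
  /-- the nodes: roots of the reduction of `P` -/
  r : Fin n → k
  r_injective : Function.Injective r
  red_root : ∀ a, Polynomial.eval₂ D.red (algebraMap k Rb (r a)) P = 0

namespace h15_ASData

variable {D : h22_Lat K F k Rb} {F' : Type*} [Field F'] [Algebra F F'] {n : ℕ}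
  (S : h15_ASData D F' n)

/-- evaluation at `y` -/
def ev : Polynomial D.O →+* F' := Polynomial.eval₂RingHom (h15_incl D F') S.y

theorem ev_apply (q : Polynomial D.O) : S.ev q = Polynomial.eval₂ (h15_incl D F') S.y q := rfl

theorem ev_P : S.ev S.P = 0 := S.root

/-- evaluation of the reductions at the nodes -/
def Φ : Polynomial D.O →+* (Fin n → Rb) :=
  RingHom.pi fun a => Polynomial.eval₂RingHom D.red (algebraMap k Rb (S.r a))

theorem Φ_apply (q : Polynomial D.O) (a : Fin n) :
    S.Φ q a = Polynomial.eval₂ D.red (algebraMap k Rb (S.r a)) q := rfl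

theorem Φ_P : S.Φ S.P = 0 := by
  funext a
  exact S.red_root a

theorem ev_modByMonic (q : Polynomial D.O) : S.ev (q %ₘ S.P) = S.ev q :=
  Polynomial.eval₂_modByMonic_eq_self_of_root S.root

theorem Φ_modByMonic (q : Polynomial D.O) : S.Φ (q %ₘ S.P) = S.Φ q := by
  funext a
  exact Polynomial.eval₂_modByMonic_eq_self_of_root (S.red_root a)

theorem P_ne_one : S.P ≠ 1 := by
  intro h
  have := S.natDegree_eq
  rw [h, natDegree_one] at this
  exact absurd this (Nat.ne_of_lt S.pos)

theorem natDegree_mod_lt (q : Polynomial D.O) : (q %ₘ S.P).natDegree < n := by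
  have := Polynomial.natDegree_modByMonic_lt q S.monic S.P_ne_one
  rwa [S.natDegree_eq] at this

/-- `ev q` as a sum over the power basis, for `deg q < n`. -/
theorem ev_eq_sum {q : Polynomial D.O} (hq : q.natDegree < n) :
    S.ev q = ∑ j : Fin n, algebraMap F F' ((q.coeff j : D.O) : F) * S.y ^ (j : ℕ) := by
  rw [ev_apply, Polynomial.eval₂_eq_sum_range' (h15_incl D F') hq, Finset.sum_range]
  rfl

/-- `Φ q` as a sum, for `deg q < n`. -/
theorem Φ_eq_sum {q : Polynomial D.O} (hq : q.natDegree < n) (a : Fin n) :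
    S.Φ q a = ∑ j : Fin n, D.red (q.coeff j) * algebraMap k Rb (S.r a) ^ (j : ℕ) := by
  rw [Φ_apply, Polynomial.eval₂_eq_sum_range' D.red hq, Finset.sum_range]

/-- independence of the power basis, in the form used below -/
theorem coeff_eq_zero_of_sum {c : Fin n → F}
    (h : ∑ j, algebraMap F F' (c j) * S.y ^ (j : ℕ) = 0) (j : Fin n) : c j = 0 := by
  have h1 : ∑ j, c j • S.y ^ (j : ℕ) = 0 := by
    rw [← h]
    exact Finset.sum_congr rfl fun j _ => by rw [Algebra.smul_def]
  exact (Fintype.linearIndependent_iff.mp S.li) c h1 j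

theorem eq_zero_of_ev {q : Polynomial D.O} (hq : q.natDegree < n) (h : S.ev q = 0) : q = 0 := by
  rw [S.ev_eq_sum hq] at h
  ext i
  rw [coeff_zero]
  by_cases hi : i < n
  · have := S.coeff_eq_zero_of_sum (c := fun j => ((q.coeff j : D.O) : F)) h ⟨i, hi⟩
    exact this
  · rw [Polynomial.coeff_eq_zero_of_natDegree_lt (lt_of_lt_of_le hq (not_lt.mp hi))]

theorem ker_ev_le : RingHom.ker S.ev ≤ RingHom.ker S.Φ := by
  intro q hq
  rw [RingHom.mem_ker] at hq ⊢
  have h1 : S.ev (q %ₘ S.P) = 0 := by rw [S.ev_modByMonic, hq]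
  have h2 : q %ₘ S.P = 0 := S.eq_zero_of_ev (S.natDegree_mod_lt q) h1
  rw [← S.Φ_modByMonic, h2, map_zero]

/-- the Vandermonde lemma over `Rb` -/
theorem vdm (ρ : Fin n → Rb)
    (h : ∀ a, ∑ j : Fin n, ρ j * algebraMap k Rb (S.r a) ^ (j : ℕ) = 0) : ρ = 0 := by
  classical
  set V : Matrix (Fin n) (Fin n) k := Matrix.vandermonde S.r with hV
  have hdet : IsUnit V.det :=
    (Matrix.det_vandermonde_ne_zero_iff.mpr S.r_injective).isUnit
  have h1 : V⁻¹ * V = 1 := Matrix.nonsing_inv_mul V hdet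
  have h2 : (V⁻¹).map (algebraMap k Rb) * V.map (algebraMap k Rb) = 1 := by
    rw [← Matrix.map_mul, h1, Matrix.map_one _ (map_zero _) (map_one _)]
  have h3 : (V.map (algebraMap k Rb)).mulVec ρ = 0 := by
    funext a
    rw [Matrix.mulVec, dotProduct, Pi.zero_apply, ← h a]
    refine Finset.sum_congr rfl fun j _ => ?_
    rw [Matrix.map_apply, hV, Matrix.vandermonde_apply, map_pow, mul_comm]
  have h4 : ρ = ((V⁻¹).map (algebraMap k Rb) * V.map (algebraMap k Rb)).mulVec ρ := by
    rw [h2, Matrix.one_mulVec]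
  rw [h4, ← Matrix.mulVec_mulVec, h3, Matrix.mulVec_zero]

/-- the subring `O' = O[y]` -/
def O' : Subring F' := S.ev.range

theorem mem_O' (f : F') : f ∈ S.O' ↔ ∃ q : Polynomial D.O, S.ev q = f := RingHom.mem_range

/-- every element of `O'` is `ev q` with `deg q < n` -/
theorem exists_rep {f : F'} (hf : f ∈ S.O') :
    ∃ q : Polynomial D.O, q.natDegree < n ∧ S.ev q = f := by
  obtain ⟨q, rfl⟩ := (S.mem_O' f).mp hf
  exact ⟨q %ₘ S.P, S.natDegree_mod_lt q, S.ev_modByMonic q⟩

/-- the reduction map of `O'` -/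
def red' : S.O' →+* (Fin n → Rb) :=
  RingHom.liftOfSurjective S.ev.rangeRestrict S.ev.rangeRestrict_surjective
    ⟨S.Φ, by
      intro q hq
      rw [RingHom.mem_ker] at hq
      exact S.ker_ev_le (by
        rw [RingHom.mem_ker]
        have := congrArg Subtype.val hq
        exact this)⟩

theorem red'_ev (q : Polynomial D.O) (h : S.ev q ∈ S.O') : S.red' ⟨S.ev q, h⟩ = S.Φ q := by
  have := RingHom.liftOfRightInverse_comp_apply S.ev.rangeRestrict
    (Function.surjInv S.ev.rangeRestrict_surjective)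
    (Function.rightInverse_surjInv S.ev.rangeRestrict_surjective)
    (C := Fin n → Rb) ⟨S.Φ, by
      intro q hq
      rw [RingHom.mem_ker] at hq
      exact S.ker_ev_le (by
        rw [RingHom.mem_ker]
        have := congrArg Subtype.val hq
        exact this)⟩ q
  exact this

theorem ev_poly (c : Fin n → D.O) :
    S.ev (h15_poly c) = ∑ j : Fin n, algebraMap F F' ((c j : D.O) : F) * S.y ^ (j : ℕ) := by
  unfold h15_poly
  rw [map_sum]
  refine Finset.sum_congr rfl fun j _ => ?_
  rw [map_mul, map_pow, ev_apply, ev_apply, Polynomial.eval₂_C, Polynomial.eval₂_X]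
  rfl

theorem Φ_poly (c : Fin n → D.O) (a : Fin n) :
    S.Φ (h15_poly c) a = ∑ j : Fin n, D.red (c j) * algebraMap k Rb (S.r a) ^ (j : ℕ) := by
  unfold h15_poly
  rw [map_sum, Finset.sum_apply]
  refine Finset.sum_congr rfl fun j _ => ?_
  rw [map_mul, map_pow, Pi.mul_apply, Pi.pow_apply, Φ_apply, Φ_apply, Polynomial.eval₂_C,
    Polynomial.eval₂_X]

/-- **Coordinates.** `∑ c_j y^j ∈ O'` iff all `c_j ∈ O`. -/
theorem sum_mem_O'_iff (c : Fin n → F) :
    (∑ j, algebraMap F F' (c j) * S.y ^ (j : ℕ)) ∈ S.O' ↔ ∀ j, c j ∈ D.O := by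
  constructor
  · intro h j
    obtain ⟨q, hq, hqe⟩ := S.exists_rep h
    rw [S.ev_eq_sum hq] at hqe
    have h0 : ∑ j : Fin n, algebraMap F F' (((q.coeff j : D.O) : F) - c j) * S.y ^ (j : ℕ) = 0 := by
      simp only [map_sub, sub_mul, Finset.sum_sub_distrib]
      rw [hqe, sub_self]
    have := S.coeff_eq_zero_of_sum h0 j
    rw [sub_eq_zero] at this
    rw [← this]
    exact (q.coeff j).2
  · intro h
    rw [mem_O']
    exact ⟨h15_poly fun j => ⟨c j, h j⟩, S.ev_poly _⟩

/-- the reduction of `∑ c_j y^j` -/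
theorem red'_sum (c : Fin n → F) (hc : ∀ j, c j ∈ D.O)
    (h : (∑ j, algebraMap F F' (c j) * S.y ^ (j : ℕ)) ∈ S.O') (a : Fin n) :
    S.red' ⟨∑ j, algebraMap F F' (c j) * S.y ^ (j : ℕ), h⟩ a =
      ∑ j : Fin n, D.red ⟨c j, hc j⟩ * algebraMap k Rb (S.r a) ^ (j : ℕ) := by
  have h1 : S.ev (h15_poly fun j => ⟨c j, hc j⟩) = ∑ j, algebraMap F F' (c j) * S.y ^ (j : ℕ) :=
    S.ev_poly _
  have h2 : (⟨∑ j, algebraMap F F' (c j) * S.y ^ (j : ℕ), h⟩ : S.O') =
      ⟨S.ev (h15_poly fun j => ⟨c j, hc j⟩), by rw [h1]; exact h⟩ := Subtype.ext h1.symm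
  rw [h2, S.red'_ev, S.Φ_poly]

theorem sum_coordF (f : F) :
    ∑ j, algebraMap F F' (h15_coordF n f j) * S.y ^ (j : ℕ) = algebraMap F F' f := by
  rw [Finset.sum_eq_single (⟨0, S.pos⟩ : Fin n)]
  · simp [h15_coordF]
  · intro j _ hj
    have : (j : ℕ) ≠ 0 := fun h => hj (Fin.ext h)
    simp [h15_coordF, this]
  · intro h
    exact absurd (Finset.mem_univ _) h

/-- `O' ∩ F = O` -/
theorem algebraMap_mem_O'_iff (f : F) : algebraMap F F' f ∈ S.O' ↔ f ∈ D.O := by
  rw [← S.sum_coordF f, S.sum_mem_O'_iff]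
  constructor
  · intro h
    have := h ⟨0, S.pos⟩
    simpa [h15_coordF] using this
  · intro h j
    unfold h15_coordF
    split_ifs
    · exact h
    · exact D.O.zero_mem

/-- `red'` restricted to `O` is the diagonal of `red` -/
theorem red'_algebraMap (f : F) (hf : f ∈ D.O) (h : algebraMap F F' f ∈ S.O') (a : Fin n) :
    S.red' ⟨algebraMap F F' f, h⟩ a = D.red ⟨f, hf⟩ := by
  have hc : ∀ j, h15_coordF n f j ∈ D.O := by
    intro j
    unfold h15_coordF
    split_ifs
    · exact hf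
    · exact D.O.zero_mem
  have h1 := S.sum_coordF f
  have h2 : (⟨algebraMap F F' f, h⟩ : S.O') =
      ⟨∑ j, algebraMap F F' (h15_coordF n f j) * S.y ^ (j : ℕ), by rw [h1]; exact h⟩ :=
    Subtype.ext h1.symm
  rw [h2, S.red'_sum _ hc, Finset.sum_eq_single (⟨0, S.pos⟩ : Fin n)]
  · have : (⟨h15_coordF n f ⟨0, S.pos⟩, hc ⟨0, S.pos⟩⟩ : D.O) = ⟨f, hf⟩ := by
      apply Subtype.ext
      simp [h15_coordF]
    rw [this]
    simp
  · intro j _ hj
    have hj' : (j : ℕ) ≠ 0 := fun h => hj (Fin.ext h)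
    have : (⟨h15_coordF n f j, hc j⟩ : D.O) = 0 := by
      apply Subtype.ext
      simp [h15_coordF, hj']
    rw [this, map_zero, zero_mul]
  · intro h
    exact absurd (Finset.mem_univ _) h

variable [Algebra K F'] [IsScalarTower K F F']

theorem algebraMap_K_mem_O'_iff (a : K) : algebraMap K F' a ∈ S.O' ↔ a ∈ D.A := by
  rw [IsScalarTower.algebraMap_apply K F F', S.algebraMap_mem_O'_iff, ← D.mem_iff]

/-- **The lattice datum of a split extension step.** -/
def lat : h22_Lat K F' k (Fin n → Rb) where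
  A := D.A
  O := S.O'
  res := D.res
  red := S.red'
  res_surjective := D.res_surjective
  mem_iff a := (S.algebraMap_K_mem_O'_iff a).symm
  red_algebraMap a ha ha' := by
    funext i
    have h1 : algebraMap K F' a = algebraMap F F' (algebraMap K F a) :=
      IsScalarTower.algebraMap_apply K F F' a
    have hF : algebraMap K F a ∈ D.O := (D.mem_iff a).mp ha
    have h2 : (⟨algebraMap K F' a, ha'⟩ : S.O') =
        ⟨algebraMap F F' (algebraMap K F a), by rw [← h1]; exact ha'⟩ := Subtype.ext h1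
    rw [h2, S.red'_algebraMap _ hF, D.red_algebraMap a ha hF]
    rfl
  exists_scale f hf := by
    obtain ⟨c, rfl⟩ := S.span f
    have hc : ∃ j, c j ≠ 0 := by
      by_contra hcon
      simp only [not_exists, not_not] at hcon
      apply hf
      exact Finset.sum_eq_zero fun j _ => by rw [hcon j, map_zero, zero_mul]
    obtain ⟨d, hd, hall, j₀, hj₀⟩ := h15_exists_scale_family D c hc
    have he : algebraMap K F' d * ∑ j, algebraMap F F' (c j) * S.y ^ (j : ℕ) =
        ∑ j, algebraMap F F' (algebraMap K F d * c j) * S.y ^ (j : ℕ) := by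
      rw [Finset.mul_sum]
      refine Finset.sum_congr rfl fun j _ => ?_
      rw [map_mul, ← IsScalarTower.algebraMap_apply K F F', mul_assoc]
    have hmem : (∑ j, algebraMap F F' (algebraMap K F d * c j) * S.y ^ (j : ℕ)) ∈ S.O' :=
      (S.sum_mem_O'_iff _).mpr hall
    refine ⟨d, hd, by rw [he]; exact hmem, ?_⟩
    intro h0
    have h1 : (⟨algebraMap K F' d * ∑ j, algebraMap F F' (c j) * S.y ^ (j : ℕ),
        by rw [he]; exact hmem⟩ : S.O') =
        ⟨∑ j, algebraMap F F' (algebraMap K F d * c j) * S.y ^ (j : ℕ), hmem⟩ := Subtype.ext he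
    rw [h1] at h0
    have h2 : (fun j => D.red ⟨algebraMap K F d * c j, hall j⟩) = 0 := by
      apply S.vdm
      intro a
      rw [← S.red'_sum _ hall hmem a, h0]
      rfl
    exact hj₀ (congrFun h2 j₀)
  ker f hf h0 := by
    classical
    obtain ⟨q, hq, rfl⟩ := S.exists_rep hf
    rw [S.red'_ev] at h0
    have h1 : (fun j : Fin n => D.red (q.coeff j)) = 0 := by
      apply S.vdm
      intro a
      rw [← S.Φ_eq_sum hq a, h0]
      rfl
    have h2 : ∀ j : Fin n, ∃ a : K, a ∈ D.A.nonunits ∧ ∃ g : F, g ∈ D.O ∧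
        ((q.coeff j : D.O) : F) = algebraMap K F a * g := by
      intro j
      exact D.ker _ (q.coeff j).2 (congrFun h1 j)
    choose a ha g hg hag using h2
    obtain ⟨i₀, hi₀⟩ := h22_exists_pivot D.A a ⟨0, S.pos⟩
    by_cases ha0 : a i₀ = 0
    · refine ⟨0, ?_, 0, S.O'.zero_mem, ?_⟩
      · rw [ValuationSubring.mem_nonunits_iff, map_zero]
        exact zero_lt_one
      · rw [map_zero, zero_mul, S.ev_eq_sum hq]
        refine Finset.sum_eq_zero fun j _ => ?_
        have hj : a j = 0 := by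
          have := hi₀ j
          rw [ha0, map_zero] at this
          exact (map_eq_zero _).mp (le_antisymm this zero_le)
        rw [hag j, hj, map_zero, zero_mul, map_zero, zero_mul]
    · have hb : ∀ j, a j / a i₀ ∈ D.A := by
        intro j
        rw [← D.A.valuation_le_one_iff, map_div₀]
        have hpos : 0 < D.A.valuation (a i₀) := by
          rw [pos_iff_ne_zero, Ne, map_eq_zero]
          exact ha0
        exact (div_le_one₀ hpos).mpr (hi₀ j)
      have hmem : ∀ j, algebraMap K F (a j / a i₀) * g j ∈ D.O := fun j =>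
        D.O.mul_mem ((D.mem_iff _).mp (hb j)) (hg j)
      refine ⟨a i₀, ha i₀, ∑ j, algebraMap F F' (algebraMap K F (a j / a i₀) * g j) *
        S.y ^ (j : ℕ), (S.sum_mem_O'_iff _).mpr hmem, ?_⟩
      rw [S.ev_eq_sum hq, Finset.mul_sum]
      refine Finset.sum_congr rfl fun j _ => ?_
      rw [hag j, IsScalarTower.algebraMap_apply K F F', ← mul_assoc, ← map_mul, ← mul_assoc,
        ← map_mul, mul_div_cancel₀ _ ha0]

theorem lat_A : S.lat.A = D.A := rfl

theorem lat_O : S.lat.O = S.O' := rfl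

theorem lat_res : S.lat.res = D.res := rfl

theorem mem_lat_O (f : F') : f ∈ S.lat.O ↔ f ∈ S.O' := Iff.rfl

/-- the reduction of the lattice datum on `∑ c_j y^j` -/
theorem lat_red_sum (c : Fin n → F) (hc : ∀ j, c j ∈ D.O)
    (h : (∑ j, algebraMap F F' (c j) * S.y ^ (j : ℕ)) ∈ S.lat.O) (a : Fin n) :
    S.lat.red ⟨∑ j, algebraMap F F' (c j) * S.y ^ (j : ℕ), h⟩ a =
      ∑ j : Fin n, D.red ⟨c j, hc j⟩ * algebraMap k Rb (S.r a) ^ (j : ℕ) :=
  S.red'_sum c hc h a

/-- the reduction of the lattice datum on `F` is the diagonal of `red` -/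
theorem lat_red_algebraMap (f : F) (hf : f ∈ D.O) (h : algebraMap F F' f ∈ S.lat.O) (a : Fin n) :
    S.lat.red ⟨algebraMap F F' f, h⟩ a = D.red ⟨f, hf⟩ :=
  S.red'_algebraMap f hf h a

omit [Algebra K F'] [IsScalarTower K F F'] in
theorem y_mem : S.y ∈ S.O' := by
  rw [mem_O']
  exact ⟨Polynomial.X, by rw [ev_apply, Polynomial.eval₂_X]⟩

/-- the generator reduces to the nodes -/
theorem lat_red_y (h : S.y ∈ S.lat.O) (a : Fin n) :
    S.lat.red ⟨S.y, h⟩ a = algebraMap k Rb (S.r a) := by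
  have h1 : S.ev Polynomial.X = S.y := by rw [ev_apply, Polynomial.eval₂_X]
  have h2 : (⟨S.y, h⟩ : S.O') = ⟨S.ev Polynomial.X, by rw [h1]; exact h⟩ := Subtype.ext h1.symm
  show S.red' ⟨S.y, h⟩ a = _
  rw [h2, S.red'_ev, S.Φ_apply, Polynomial.eval₂_X]

/-- **(ON) for the split extension step**, from a `K(x)`-frame of `D`. -/
theorem lat_on {x : F}
    (hG : ∀ p : K[X], aeval x p ∈ D.O ↔ ∀ i, p.coeff i ∈ D.A)
    (hU : ∀ p : K[X], aeval x p ≠ 0 → ∃ c : K, c ≠ 0 ∧ algebraMap K F c * aeval x p ∈ D.O ∧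
      (algebraMap K F c * aeval x p)⁻¹ ∈ D.O)
    {ι : Type*} [Fintype ι] (b : Module.Basis ι (IntermediateField.adjoin K {x}) F)
    (hb : ∀ f : F, f ∈ D.O ↔
      ∀ i, ((b.repr f i : IntermediateField.adjoin K {x}) : F) ∈ D.O) :
    h22_ON S.lat := by
  set α : F →ₐ[K] F' := IsScalarTower.toAlgHom K F F' with hα
  have hαa : ∀ f : F, α f = algebraMap F F' f := fun f => rfl
  obtain ⟨B, -, -, hB⟩ := h22_frame_tower_mem α x b (fun j : Fin n => S.y ^ (j : ℕ))
    (fun f => S.span f)
    (fun a h j => S.coeff_eq_zero_of_sum h j)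
    {g | g ∈ D.O} {f | f ∈ S.lat.O} hb
    (fun a => S.sum_mem_O'_iff a)
    (fun t => (S.algebraMap_mem_O'_iff (t : F)).symm)
  have hG' : ∀ p : K[X], aeval (α x) p ∈ S.lat.O ↔ ∀ i, p.coeff i ∈ S.lat.A := by
    intro p
    rw [Polynomial.aeval_algHom_apply, hαa, mem_lat_O, S.algebraMap_mem_O'_iff, hG p]
    rfl
  have hU' : ∀ p : K[X], aeval (α x) p ≠ 0 → ∃ c : K, c ≠ 0 ∧
      algebraMap K F' c * aeval (α x) p ∈ S.lat.O ∧
      (algebraMap K F' c * aeval (α x) p)⁻¹ ∈ S.lat.O := by
    intro p hp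
    rw [Polynomial.aeval_algHom_apply, hαa] at hp ⊢
    have hp' : aeval x p ≠ 0 := fun h => hp (by rw [h, map_zero])
    obtain ⟨c, hc, h1, h2⟩ := hU p hp'
    refine ⟨c, hc, ?_, ?_⟩
    · rw [IsScalarTower.algebraMap_apply K F F', ← map_mul, mem_lat_O, S.algebraMap_mem_O'_iff]
      exact h1
    · rw [IsScalarTower.algebraMap_apply K F F', ← map_mul, ← map_inv₀, mem_lat_O,
        S.algebraMap_mem_O'_iff]
      exact h2
  exact h22_on_of_basis S.lat hG' hU' B hB

end h15_ASData

end Fermat.Agent.S33
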