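import Mathlib
import Fermat.Agent.S33.h15_ASLat

/-!
# S33 (N2), row (W1b): the Artin–Schreier instance of the split extension step

`D : h22_Lat K F k Rb` a lattice datum, `char k = p`, `ζ ∈ K` a primitive `p`-th root of unity,
`λ := ζ - 1`.  Let `u = 1 + λ^p h` with `h ∈ O`, `red h = 0` ("`u` is deep") and let `F' = F(θ)`,
`θ^p = u`, of degree `p`.  Then the Artin–Schreier generator

  `y := (θ - 1)/λ`

is a root of `P := ∏_{i<p} (X - [i]_ζ) - h ∈ O[X]`, `[i]_ζ = 1 + ζ + … + ζ^(i-1)`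
(because `λ^p ∏ (y - [i]_ζ) = ∏ (θ - ζ^i) = θ^p - 1`), and the reduction of `P` is
`∏_{i ∈ 𝔽_p} (X - i) = X^p - X`.  So `(y, P, r a := a)` is an `h15_ASData D F' p`
(`h15_asInst`): the sheets of the wild Kummer cover are labelled by `𝔽_p`.
-/

set_option autoImplicit false

noncomputable section

open Polynomial Module

namespace Fermat.Agent.S33

open Fermat.Agent.S34

section cyclo

variable {K : Type*} [Field K]

/-- `[i]_ζ = 1 + ζ + … + ζ^(i-1)` -/
def h15_qint (ζ : K) (i : ℕ) : K := ∑ t ∈ Finset.range i, ζ ^ t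

theorem h15_qint_mul (ζ : K) (i : ℕ) : (ζ - 1) * h15_qint ζ i = ζ ^ i - 1 := mul_geom_sum ζ i

/-- `X^p - 1 = ∏_{i<p} (X - ζ^i)` for a primitive `p`-th root of unity. -/
theorem h15_X_pow_sub_one {p : ℕ} (hp : 0 < p) {ζ : K} (hζ : IsPrimitiveRoot ζ p) :
    (X ^ p - 1 : K[X]) = ∏ i ∈ Finset.range p, (X - C (ζ ^ i)) := by
  classical
  rw [X_pow_sub_one_eq_prod hp hζ]
  have himg : nthRootsFinset p (1 : K) = (Finset.range p).image (fun i => ζ ^ i) := by
    symm
    apply Finset.eq_of_subset_of_card_le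
    · intro x hx
      obtain ⟨i, -, rfl⟩ := Finset.mem_image.mp hx
      rw [mem_nthRootsFinset hp, ← pow_mul, mul_comm, pow_mul, hζ.pow_eq_one, one_pow]
    · rw [hζ.card_nthRootsFinset, Finset.card_image_of_injOn hζ.injOn_pow, Finset.card_range]
  rw [himg, Finset.prod_image]
  intro a ha b hb hab
  exact hζ.injOn_pow ha hb hab

/-- `∏_{i<p} (x - ζ^i) = x^p - 1` in every commutative `K`-algebra. -/
theorem h15_prod_sub_pow {p : ℕ} (hp : 0 < p) {ζ : K} (hζ : IsPrimitiveRoot ζ p)
    {R : Type*} [CommRing R] [Algebra K R] (x : R) :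
    ∏ i ∈ Finset.range p, (x - algebraMap K R (ζ ^ i)) = x ^ p - 1 := by
  have h := congrArg (Polynomial.aeval x) (h15_X_pow_sub_one hp hζ)
  rw [map_sub, map_pow, aeval_X, map_one, map_prod] at h
  rw [h]
  refine Finset.prod_congr rfl fun i _ => ?_
  rw [map_sub, aeval_X, aeval_C]

/-- the Artin–Schreier identity: `λ^p ∏_{i<p} (y - [i]_ζ) = (1 + λ y)^p - 1`, in the form used
below (`θ = 1 + λ y`). -/
theorem h15_as_identity {p : ℕ} (hp : 0 < p) {ζ : K} (hζ : IsPrimitiveRoot ζ p)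
    {R : Type*} [CommRing R] [Algebra K R] (θ y : R)
    (hy : algebraMap K R (ζ - 1) * y = θ - 1) :
    algebraMap K R ((ζ - 1) ^ p) * ∏ i ∈ Finset.range p, (y - algebraMap K R (h15_qint ζ i)) =
      θ ^ p - 1 := by
  rw [← h15_prod_sub_pow hp hζ θ, map_pow]
  have hconst : algebraMap K R (ζ - 1) ^ p =
      ∏ _i ∈ Finset.range p, algebraMap K R (ζ - 1) := by
    rw [Finset.prod_const, Finset.card_range]
  rw [hconst, ← Finset.prod_mul_distrib]
  refine Finset.prod_congr rfl fun i _ => ?_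
  rw [mul_sub, hy, ← map_mul, h15_qint_mul, map_sub, map_one]
  ring

end cyclo

section powers

variable {F F' : Type*} [Field F] [Field F'] [Algebra F F']

theorem h15_poly_coeff {R : Type*} [CommRing R] {n : ℕ} (c : Fin n → R) (j : Fin n) :
    (h15_poly c).coeff (j : ℕ) = c j := by
  classical
  unfold h15_poly
  rw [Polynomial.finsetSum_coeff, Finset.sum_eq_single j]
  · rw [Polynomial.coeff_C_mul_X_pow, if_pos rfl]
  · intro i _ hij
    rw [Polynomial.coeff_C_mul_X_pow, if_neg]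
    intro h
    exact hij (Fin.ext h.symm)
  · intro h
    exact absurd (Finset.mem_univ _) h

theorem h15_poly_natDegree_lt {R : Type*} [CommRing R] {n : ℕ} (hn : 0 < n) (c : Fin n → R) :
    (h15_poly c).natDegree < n := by
  unfold h15_poly
  have h1 : (∑ j : Fin n, Polynomial.C (c j) * Polynomial.X ^ (j : ℕ)).natDegree ≤ n - 1 := by
    apply Polynomial.natDegree_sum_le_of_forall_le
    intro j _
    refine le_trans (Polynomial.natDegree_C_mul_X_pow_le _ _) ?_
    have := j.2
    omega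
  omega

theorem h15_aeval_poly {n : ℕ} (c : Fin n → F) (θ : F') :
    Polynomial.aeval θ (h15_poly c) = ∑ j : Fin n, c j • θ ^ (j : ℕ) := by
  unfold h15_poly
  rw [map_sum]
  refine Finset.sum_congr rfl fun j _ => ?_
  rw [map_mul, map_pow, Polynomial.aeval_C, Polynomial.aeval_X, Algebra.smul_def]

/-- linear independence of the first `n` powers, polynomial form -/
theorem h15_li_iff {n : ℕ} (hn : 0 < n) (θ : F') :
    LinearIndependent F (fun j : Fin n => θ ^ (j : ℕ)) ↔
      ∀ q : F[X], q.natDegree < n → Polynomial.aeval θ q = 0 → q = 0 := by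
  constructor
  · intro hli q hq h0
    rw [Polynomial.aeval_eq_sum_range' hq, Finset.sum_range] at h0
    have h1 := (Fintype.linearIndependent_iff.mp hli) (fun j : Fin n => q.coeff j) h0
    ext i
    rw [Polynomial.coeff_zero]
    by_cases hi : i < n
    · exact h1 ⟨i, hi⟩
    · exact Polynomial.coeff_eq_zero_of_natDegree_lt (lt_of_lt_of_le hq (not_lt.mp hi))
  · intro h
    rw [Fintype.linearIndependent_iff]
    intro c hc j
    have h1 := h (h15_poly c) (h15_poly_natDegree_lt hn c) (by rw [h15_aeval_poly, hc])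
    rw [← h15_poly_coeff c j, h1, Polynomial.coeff_zero]

/-- transport of a power basis along an affine change of generator `y = a (θ - 1)`, `a ≠ 0` -/
theorem h15_li_affine {n : ℕ} (hn : 0 < n) (θ : F')
    (hli : LinearIndependent F (fun j : Fin n => θ ^ (j : ℕ))) (a : F) (ha : a ≠ 0) :
    LinearIndependent F (fun j : Fin n => (algebraMap F F' a * (θ - 1)) ^ (j : ℕ)) := by
  rw [h15_li_iff hn] at hli ⊢
  intro q hq h0
  set ℓ : F[X] := Polynomial.C a * (Polynomial.X - 1) with hℓ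
  have hℓdeg : ℓ.natDegree = 1 := by
    rw [hℓ, Polynomial.natDegree_C_mul ha]
    exact Polynomial.natDegree_X_sub_C (1 : F)
  have hev : Polynomial.aeval θ ℓ = algebraMap F F' a * (θ - 1) := by
    rw [hℓ, map_mul, Polynomial.aeval_C, map_sub, Polynomial.aeval_X, map_one]
  have h1 : Polynomial.aeval θ (q.comp ℓ) = 0 := by
    rw [Polynomial.aeval_comp, hev, h0]
  have h2 : (q.comp ℓ).natDegree < n := by
    rw [Polynomial.natDegree_comp, hℓdeg, mul_one]
    exact hq
  have h3 := hli _ h2 h1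
  rcases Polynomial.comp_eq_zero_iff.mp h3 with h4 | ⟨-, h5⟩
  · exact h4
  · exfalso
    have := congrArg Polynomial.natDegree h5
    rw [hℓdeg, Polynomial.natDegree_C] at this
    exact one_ne_zero this

/-- a linearly independent family of `n = [F' : F]` powers spans -/
theorem h15_span_of_li {n : ℕ} (hn : 0 < n) (θ y : F')
    (hliθ : LinearIndependent F (fun j : Fin n => θ ^ (j : ℕ)))
    (hspanθ : ∀ f : F', ∃ c : Fin n → F, f = ∑ j, algebraMap F F' (c j) * θ ^ (j : ℕ))
    (hliy : LinearIndependent F (fun j : Fin n => y ^ (j : ℕ))) (f : F') :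
    ∃ c : Fin n → F, f = ∑ j, algebraMap F F' (c j) * y ^ (j : ℕ) := by
  have htop : ⊤ ≤ Submodule.span F (Set.range fun j : Fin n => θ ^ (j : ℕ)) := by
    intro g _
    obtain ⟨c, rfl⟩ := hspanθ g
    refine Submodule.sum_mem _ fun j _ => ?_
    rw [← Algebra.smul_def]
    exact Submodule.smul_mem _ _ (Submodule.subset_span ⟨j, rfl⟩)
  let Bθ : Module.Basis (Fin n) F F' := Module.Basis.mk hliθ htop
  have hfr : Module.finrank F F' = n := by
    rw [Module.finrank_eq_card_basis Bθ, Fintype.card_fin]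
  have : Nonempty (Fin n) := ⟨⟨0, hn⟩⟩
  let By : Module.Basis (Fin n) F F' :=
    basisOfLinearIndependentOfCardEqFinrank hliy (by rw [Fintype.card_fin, hfr])
  refine ⟨fun j => By.repr f j, ?_⟩
  conv_lhs => rw [← By.sum_repr f]
  refine Finset.sum_congr rfl fun j _ => ?_
  rw [Algebra.smul_def, coe_basisOfLinearIndependentOfCardEqFinrank]

end powers

section inst

variable {K F k Rb : Type*} [Field K] [Field F] [Algebra K F] [Field k] [CommRing Rb]
  [Algebra k Rb]

/-- a root of unity lies in every valuation subring -/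
theorem h15_root_mem (A : ValuationSubring K) {p : ℕ} (hp : 0 < p) {ζ : K} (h : ζ ^ p = 1) :
    ζ ∈ A := by
  rcases A.mem_or_inv_mem ζ with h1 | h1
  · exact h1
  · have h2 : ζ * ζ ^ (p - 1) = 1 := by rw [← pow_succ', Nat.sub_add_cancel hp, h]
    have h3 : ζ = (ζ ^ (p - 1))⁻¹ := eq_inv_of_mul_eq_one_left h2
    rw [h3, ← inv_pow]
    exact A.pow_mem h1 _

variable (D : h22_Lat K F k Rb) (p : ℕ) [hp : Fact p.Prime] [CharP k p]
  {ζ : K} (hζ : IsPrimitiveRoot ζ p)

/-- `ζ` as an element of `A` -/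
def h15_zetaA : D.A := ⟨ζ, h15_root_mem D.A hp.out.pos hζ.pow_eq_one⟩

theorem h15_res_zeta : D.res (h15_zetaA D p hζ) = 1 := by
  have h1 : (h15_zetaA D p hζ) ^ p = 1 := Subtype.ext (by
    show ζ ^ p = 1
    exact hζ.pow_eq_one)
  have h2 : D.res (h15_zetaA D p hζ) ^ p = 1 := by rw [← map_pow, h1, map_one]
  have : ExpChar k p := ExpChar.prime hp.out
  apply frobenius_inj k p
  rw [frobenius_def, frobenius_def, h2, one_pow]

/-- `[i]_ζ` as an element of `A` -/
def h15_qA (i : ℕ) : D.A := ∑ t ∈ Finset.range i, (h15_zetaA D p hζ) ^ t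

omit [CharP k p] in
theorem h15_qA_coe (i : ℕ) : ((h15_qA D p hζ i : D.A) : K) = h15_qint ζ i := by
  unfold h15_qA h15_qint
  rw [AddSubmonoidClass.coe_finsetSum]
  rfl

theorem h15_res_qA (i : ℕ) : D.res (h15_qA D p hζ i) = (i : k) := by
  unfold h15_qA
  rw [map_sum]
  simp only [map_pow, h15_res_zeta, one_pow, Finset.sum_const, Finset.card_range, nsmul_eq_mul,
    mul_one]

/-- `[i]_ζ` as an element of `O` -/
def h15_qO (i : ℕ) : D.O :=
  ⟨algebraMap K F (h15_qA D p hζ i : K), (D.mem_iff _).mp (h15_qA D p hζ i).2⟩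

theorem h15_red_qO (i : ℕ) : D.red (h15_qO D p hζ i) = algebraMap k Rb (i : k) := by
  unfold h15_qO
  rw [D.red_algebraMap _ (h15_qA D p hζ i).2, Subtype.coe_eta, h15_res_qA]

/-- the Artin–Schreier polynomial `∏_{i<p} (X - [i]_ζ) - h` -/
def h15_asPoly (h : D.O) : Polynomial D.O :=
  ∏ i ∈ Finset.range p, (Polynomial.X - Polynomial.C (h15_qO D p hζ i)) - Polynomial.C h

omit [CharP k p] in
theorem h15_asPoly_prod_monic :
    (∏ i ∈ Finset.range p, (Polynomial.X - Polynomial.C (h15_qO D p hζ i))).Monic :=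
  Polynomial.monic_prod_of_monic _ _ fun _ _ => Polynomial.monic_X_sub_C _

omit [CharP k p] in
theorem h15_asPoly_prod_natDegree :
    (∏ i ∈ Finset.range p, (Polynomial.X - Polynomial.C (h15_qO D p hζ i))).natDegree = p := by
  rw [Polynomial.natDegree_prod_of_monic _ _ fun i _ => Polynomial.monic_X_sub_C _]
  simp only [Polynomial.natDegree_X_sub_C, Finset.sum_const, Finset.card_range, smul_eq_mul,
    mul_one]

omit [CharP k p] in
theorem h15_asPoly_natDegree (h : D.O) : (h15_asPoly D p hζ h).natDegree = p := by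
  unfold h15_asPoly
  rw [Polynomial.natDegree_sub_eq_left_of_natDegree_lt, h15_asPoly_prod_natDegree]
  rw [h15_asPoly_prod_natDegree, Polynomial.natDegree_C]
  exact hp.out.pos

omit [CharP k p] in
theorem h15_asPoly_monic (h : D.O) : (h15_asPoly D p hζ h).Monic := by
  unfold h15_asPoly
  apply Polynomial.Monic.sub_of_left (h15_asPoly_prod_monic D p hζ)
  rw [Polynomial.degree_eq_natDegree (h15_asPoly_prod_monic D p hζ).ne_zero,
    h15_asPoly_prod_natDegree]
  exact lt_of_le_of_lt Polynomial.degree_C_le (by exact_mod_cast hp.out.pos)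

/-- the reduction of the Artin–Schreier polynomial vanishes on `𝔽_p` -/
theorem h15_asPoly_red_root (h : D.O) (hred : D.red h = 0) (a : Fin p) :
    Polynomial.eval₂ D.red (algebraMap k Rb (((a : ℕ) : k))) (h15_asPoly D p hζ h) = 0 := by
  unfold h15_asPoly
  rw [Polynomial.eval₂_sub, Polynomial.eval₂_C, hred, sub_zero, Polynomial.eval₂_finsetProd]
  apply Finset.prod_eq_zero (Finset.mem_range.mpr a.2)
  rw [Polynomial.eval₂_sub, Polynomial.eval₂_X, Polynomial.eval₂_C, h15_red_qO, sub_self]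

omit hp in
theorem h15_natCast_injective : Function.Injective (fun a : Fin p => (((a : ℕ) : k))) := by
  intro a b hab
  have h1 : ((a : ℕ) : k) = ((b : ℕ) : k) := hab
  rw [CharP.natCast_eq_natCast k p] at h1
  exact Fin.ext (Nat.ModEq.eq_of_lt_of_lt h1 a.2 b.2)

variable {F' : Type*} [Field F'] [Algebra F F'] [Algebra K F'] [IsScalarTower K F F']

/-- the Artin–Schreier generator `y = (θ - 1)/(ζ - 1)` -/
def h15_asGen (ζ : K) (θ : F') : F' := algebraMap F F' (algebraMap K F (ζ - 1))⁻¹ * (θ - 1)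

include hζ in
theorem h15_asGen_mul (θ : F') :
    algebraMap K F' (ζ - 1) * h15_asGen (F := F) ζ θ = θ - 1 := by
  have hne : ζ - 1 ≠ 0 := sub_ne_zero.mpr (hζ.ne_one hp.out.one_lt)
  have hne' : algebraMap K F (ζ - 1) ≠ 0 := by
    rw [Ne, map_eq_zero]
    exact hne
  unfold h15_asGen
  rw [IsScalarTower.algebraMap_apply K F F', ← mul_assoc, ← map_mul, mul_inv_cancel₀ hne',
    map_one, one_mul]

omit [CharP k p] in
/-- the Artin–Schreier generator is a root of the Artin–Schreier polynomial -/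
theorem h15_asPoly_root (h : D.O) (θ : F')
    (hθ : θ ^ p - 1 = algebraMap K F' ((ζ - 1) ^ p) * algebraMap F F' (h : F)) :
    Polynomial.eval₂ (h15_incl D F') (h15_asGen (F := F) ζ θ) (h15_asPoly D p hζ h) = 0 := by
  have hne : ζ - 1 ≠ 0 := sub_ne_zero.mpr (hζ.ne_one hp.out.one_lt)
  have hne' : algebraMap K F' ((ζ - 1) ^ p) ≠ 0 := by
    rw [Ne, map_eq_zero]
    exact pow_ne_zero _ hne
  have hid := h15_as_identity hp.out.pos hζ θ (h15_asGen (F := F) ζ θ) (h15_asGen_mul p hζ θ)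
  rw [hθ] at hid
  have hprod := mul_left_cancel₀ hne' hid
  unfold h15_asPoly
  rw [Polynomial.eval₂_sub, Polynomial.eval₂_C, Polynomial.eval₂_finsetProd, h15_incl_apply,
    ← hprod, sub_eq_zero]
  refine Finset.prod_congr rfl fun i _ => ?_
  rw [Polynomial.eval₂_sub, Polynomial.eval₂_X, Polynomial.eval₂_C, h15_incl_apply]
  congr 1
  show algebraMap F F' (algebraMap K F (h15_qA D p hζ i : K)) = _
  rw [h15_qA_coe, ← IsScalarTower.algebraMap_apply]

/-- **The Artin–Schreier instance of the split extension step.**  `u = 1 + (ζ-1)^p h` with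
`h ∈ O`, `red h = 0`; `θ^p = u` with power basis `1, …, θ^(p-1)` of `F'/F`.  Then
`y = (θ - 1)/(ζ - 1)` gives an `h15_ASData D F' p` with nodes `r a = a ∈ 𝔽_p`. -/
def h15_asInst (h : D.O) (hred : D.red h = 0) (θ : F')
    (hθ : θ ^ p - 1 = algebraMap K F' ((ζ - 1) ^ p) * algebraMap F F' (h : F))
    (hli : LinearIndependent F (fun j : Fin p => θ ^ (j : ℕ)))
    (hspan : ∀ f : F', ∃ c : Fin p → F, f = ∑ j, algebraMap F F' (c j) * θ ^ (j : ℕ)) :
    h15_ASData D F' p where
  y := h15_asGen (F := F) ζ θ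
  P := h15_asPoly D p hζ h
  monic := h15_asPoly_monic D p hζ h
  natDegree_eq := h15_asPoly_natDegree D p hζ h
  pos := hp.out.pos
  root := h15_asPoly_root D p hζ h θ hθ
  li := by
    have hne : (algebraMap K F (ζ - 1))⁻¹ ≠ 0 := by
      rw [Ne, inv_eq_zero, map_eq_zero]
      exact sub_ne_zero.mpr (hζ.ne_one hp.out.one_lt)
    exact h15_li_affine hp.out.pos θ hli _ hne
  span := by
    have hne : (algebraMap K F (ζ - 1))⁻¹ ≠ 0 := by
      rw [Ne, inv_eq_zero, map_eq_zero]
      exact sub_ne_zero.mpr (hζ.ne_one hp.out.one_lt)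
    exact h15_span_of_li hp.out.pos θ _ hli hspan (h15_li_affine hp.out.pos θ hli _ hne)
  r := fun a => (((a : ℕ) : k))
  r_injective := h15_natCast_injective p
  red_root := h15_asPoly_red_root D p hζ h hred

section basics

variable (h : D.O) (hred : D.red h = 0) (θ : F')
  (hθ : θ ^ p - 1 = algebraMap K F' ((ζ - 1) ^ p) * algebraMap F F' (h : F))
  (hli : LinearIndependent F (fun j : Fin p => θ ^ (j : ℕ)))
  (hspan : ∀ f : F', ∃ c : Fin p → F, f = ∑ j, algebraMap F F' (c j) * θ ^ (j : ℕ))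

theorem h15_asInst_y :
    (h15_asInst D p hζ h hred θ hθ hli hspan).y = h15_asGen (F := F) ζ θ := rfl

theorem h15_asInst_r (a : Fin p) :
    (h15_asInst D p hζ h hred θ hθ hli hspan).r a = (((a : ℕ) : k)) := rfl

/-- `θ = 1 + (ζ - 1) y` -/
theorem h15_asInst_theta :
    θ = algebraMap F F' (algebraMap K F (ζ - 1)) * (h15_asInst D p hζ h hred θ hθ hli hspan).y
      + 1 := by
  rw [h15_asInst_y, ← IsScalarTower.algebraMap_apply, h15_asGen_mul p hζ θ]
  ring

include hζ in
omit [CharP k p] in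
theorem h15_zeta_sub_one_mem : ζ - 1 ∈ D.A :=
  D.A.sub_mem (h15_root_mem D.A hp.out.pos hζ.pow_eq_one) D.A.one_mem

theorem h15_res_zeta_sub_one : D.res ⟨ζ - 1, h15_zeta_sub_one_mem D p hζ⟩ = 0 := by
  have h1 : (⟨ζ - 1, h15_zeta_sub_one_mem D p hζ⟩ : D.A) = h15_zetaA D p hζ - 1 := rfl
  rw [h1, map_sub, h15_res_zeta, map_one, sub_self]

/-- `θ ∈ O'` -/
theorem h15_asInst_theta_mem :
    θ ∈ (h15_asInst D p hζ h hred θ hθ hli hspan).lat.O := by
  set S := h15_asInst D p hζ h hred θ hθ hli hspan with hS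
  have h1 := h15_asInst_theta D p hζ h hred θ hθ hli hspan
  rw [← hS] at h1
  rw [h1]
  refine S.O'.add_mem (S.O'.mul_mem ?_ S.y_mem) S.O'.one_mem
  rw [S.algebraMap_mem_O'_iff]
  exact (D.mem_iff _).mp (h15_zeta_sub_one_mem D p hζ)

/-- `θ` reduces to `1` on every sheet -/
theorem h15_asInst_red_theta
    (hm : θ ∈ (h15_asInst D p hζ h hred θ hθ hli hspan).lat.O) :
    (h15_asInst D p hζ h hred θ hθ hli hspan).lat.red ⟨θ, hm⟩ = 1 := by
  set S := h15_asInst D p hζ h hred θ hθ hli hspan with hS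
  have h1 := h15_asInst_theta D p hζ h hred θ hθ hli hspan
  rw [← hS] at h1
  have hlamO : algebraMap K F (ζ - 1) ∈ D.O := (D.mem_iff _).mp (h15_zeta_sub_one_mem D p hζ)
  have hlam : algebraMap F F' (algebraMap K F (ζ - 1)) ∈ S.lat.O :=
    (S.algebraMap_mem_O'_iff _).mpr hlamO
  have hy : S.y ∈ S.lat.O := S.y_mem
  have h2 : (⟨θ, hm⟩ : S.lat.O) =
      ⟨algebraMap F F' (algebraMap K F (ζ - 1)), hlam⟩ * ⟨S.y, hy⟩ + 1 := Subtype.ext h1
  rw [h2, map_add, map_mul, map_one]
  have h3 : S.lat.red ⟨algebraMap F F' (algebraMap K F (ζ - 1)), hlam⟩ = 0 := by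
    funext a
    rw [S.lat_red_algebraMap _ hlamO, D.red_algebraMap _ (h15_zeta_sub_one_mem D p hζ),
      h15_res_zeta_sub_one D p hζ, map_zero]
    rfl
  rw [h3, zero_mul, zero_add]

end basics

end inst

end Fermat.Agent.S33
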