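import Mathlib
import Fermat.Agent.S33.h15_ASInst

/-!
# S33 (N2), row (W2) SHEET-ACT: action of (semilinear) automorphisms on the sheets

Generic part (any `S : h15_ASData D F' n`): a ring endomorphism `ψ` of `F'` which extends an
endomorphism `σ` of `F` preserving `O`, and which maps the generator `y` into `O' = O[y]`,
preserves `O'` (`map_mem`); its effect on the reductions is determined by the reduction of
`ψ y` (`red_map`): if `q (red'(ψ y) a) = τ (r b)` and `q ∘ red ∘ σ = τ ∘ red` on `O` then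
`q (red'(ψ f) a) = τ (red'(f) b)` for all `f ∈ O'`.
-/

set_option autoImplicit false

noncomputable section

open Polynomial Module

namespace Fermat.Agent.S33

open Fermat.Agent.S34

variable {K F k Rb : Type*} [Field K] [Field F] [Algebra K F] [Field k] [CommRing Rb]
  [Algebra k Rb]

namespace h15_ASData

variable {D : h22_Lat K F k Rb} {F' : Type*} [Field F'] [Algebra F F'] {n : ℕ}
  (S : h15_ASData D F' n)

/-- **(E1)** an endomorphism `ψ` of `F'` over an endomorphism `σ` of `F` with `σ O ⊆ O` and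
`ψ y ∈ O'` preserves `O'`. -/
theorem map_mem (ψ : F' →+* F') (σ : F →+* F)
    (hψ : ∀ x, ψ (algebraMap F F' x) = algebraMap F F' (σ x))
    (hσ : ∀ x ∈ D.O, σ x ∈ D.O) (hy : ψ S.y ∈ S.O') {f : F'} (hf : f ∈ S.O') :
    ψ f ∈ S.O' := by
  obtain ⟨q, rfl⟩ := (S.mem_O' f).mp hf
  rw [ev_apply, Polynomial.hom_eval₂, Polynomial.eval₂_eq_sum_range]
  refine S.O'.sum_mem fun i _ => S.O'.mul_mem ?_ (S.O'.pow_mem hy i)
  rw [RingHom.comp_apply, h15_incl_apply, hψ, S.algebraMap_mem_O'_iff]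
  exact hσ _ (q.coeff i).2

/-- `ψ` restricted to `O'` -/
def mapO' (ψ : F' →+* F') (σ : F →+* F)
    (hψ : ∀ x, ψ (algebraMap F F' x) = algebraMap F F' (σ x))
    (hσ : ∀ x ∈ D.O, σ x ∈ D.O) (hy : ψ S.y ∈ S.O') : S.O' →+* S.O' :=
  (ψ.comp S.O'.subtype).codRestrict S.O' fun x => S.map_mem ψ σ hψ hσ hy x.2

theorem mapO'_coe (ψ : F' →+* F') (σ : F →+* F)
    (hψ : ∀ x, ψ (algebraMap F F' x) = algebraMap F F' (σ x))
    (hσ : ∀ x ∈ D.O, σ x ∈ D.O) (hy : ψ S.y ∈ S.O') (x : S.O') :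
    ((S.mapO' ψ σ hψ hσ hy x : S.O') : F') = ψ x := rfl

/-- evaluation at `y`, as a map to `O'` -/
def evO' : Polynomial D.O →+* S.O' := S.ev.rangeRestrict

theorem evO'_coe (Q : Polynomial D.O) : ((S.evO' Q : S.O') : F') = S.ev Q := rfl

/-- **(E2)** the effect of `ψ` on the reductions is determined by the reduction of `ψ y`. -/
theorem red_map {L : Type*} [CommRing L] (ψ : F' →+* F') (σ : F →+* F)
    (hψ : ∀ x, ψ (algebraMap F F' x) = algebraMap F F' (σ x))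
    (hσ : ∀ x ∈ D.O, σ x ∈ D.O) (hy : ψ S.y ∈ S.O')
    (q τ : Rb →+* L)
    (hred : ∀ x (hx : x ∈ D.O), q (D.red ⟨σ x, hσ x hx⟩) = τ (D.red ⟨x, hx⟩))
    (a b : Fin n)
    (hya : q (S.red' ⟨ψ S.y, hy⟩ a) = τ (algebraMap k Rb (S.r b)))
    {f : F'} (hf : f ∈ S.O') (hm : ψ f ∈ S.O') :
    q (S.red' ⟨ψ f, hm⟩ a) = τ (S.red' ⟨f, hf⟩ b) := by
  -- two ring homomorphisms on `O[X]`
  let Φ₁ : Polynomial D.O →+* L :=
    (q.comp ((Pi.evalRingHom (fun _ : Fin n => Rb) a).comp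
      (S.red'.comp (S.mapO' ψ σ hψ hσ hy)))).comp S.evO'
  let Φ₂ : Polynomial D.O →+* L :=
    τ.comp ((Pi.evalRingHom (fun _ : Fin n => Rb) b).comp S.Φ)
  have key : Φ₁ = Φ₂ := by
    apply Polynomial.ringHom_ext
    · intro c
      show q (S.red' (S.mapO' ψ σ hψ hσ hy (S.evO' (Polynomial.C c))) a) =
        τ (S.Φ (Polynomial.C c) b)
      have h1 : S.ev (Polynomial.C c) = algebraMap F F' (c : F) := by
        rw [ev_apply, Polynomial.eval₂_C]
        rfl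
      have hmem : algebraMap F F' (σ (c : F)) ∈ S.O' :=
        (S.algebraMap_mem_O'_iff _).mpr (hσ _ c.2)
      have h2 : S.mapO' ψ σ hψ hσ hy (S.evO' (Polynomial.C c)) =
          ⟨algebraMap F F' (σ (c : F)), hmem⟩ := by
        apply Subtype.ext
        rw [mapO'_coe, evO'_coe, h1, hψ]
      rw [h2, S.red'_algebraMap _ (hσ _ c.2), hred _ c.2, Φ_apply, Polynomial.eval₂_C]
    · show q (S.red' (S.mapO' ψ σ hψ hσ hy (S.evO' Polynomial.X)) a) =
        τ (S.Φ Polynomial.X b)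
      have h1 : S.ev Polynomial.X = S.y := by
        rw [ev_apply, Polynomial.eval₂_X]
      have h2 : S.mapO' ψ σ hψ hσ hy (S.evO' Polynomial.X) = ⟨ψ S.y, hy⟩ := by
        apply Subtype.ext
        rw [mapO'_coe, evO'_coe, h1]
      rw [h2, hya, Φ_apply, Polynomial.eval₂_X]
  obtain ⟨Q, rfl⟩ := (S.mem_O' f).mp hf
  have h3 : Φ₁ Q = Φ₂ Q := by rw [key]
  have h4 : Φ₁ Q = q (S.red' ⟨ψ (S.ev Q), hm⟩ a) := rfl
  have h5 : Φ₂ Q = τ (S.Φ Q b) := rfl
  rw [h4, h5] at h3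
  rw [h3, S.red'_ev]

/-- reduction of a constant of `A` on the sheets -/
theorem lat_red_const [Algebra K F'] [IsScalarTower K F F'] (c : K) (hc : c ∈ D.A)
    (hm : algebraMap K F' c ∈ S.lat.O) (a : Fin n) :
    S.lat.red ⟨algebraMap K F' c, hm⟩ a = algebraMap k Rb (D.res ⟨c, hc⟩) := by
  have h1 := S.lat.red_algebraMap c hc hm
  rw [h1]
  rfl

end h15_ASData

/-! ### Generic lattice lemmas -/

section lattice

variable (D : h22_Lat K F k Rb)

theorem h15_nonunit_of_inv_not_mem (A : ValuationSubring K) {c : K} (h : c⁻¹ ∉ A) :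
    c ∈ A.nonunits := by
  rw [ValuationSubring.mem_nonunits_iff]
  by_contra hlt
  rw [not_lt] at hlt
  apply h
  rw [← A.valuation_le_one_iff, map_inv₀]
  exact inv_le_one_of_one_le₀ hlt

/-- reduction of a non-unit multiple vanishes -/
theorem h15_red_nonunit_mul {c : K} (hc : c ∈ D.A.nonunits) {g : F} (hg : g ∈ D.O)
    (hm : algebraMap K F c * g ∈ D.O) : D.red ⟨algebraMap K F c * g, hm⟩ = 0 := by
  have h1 := (h22_redF_eq_zero_iff D hm).mpr ⟨c, hc, g, hg, rfl⟩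
  rwa [D.redF_of_mem hm] at h1

include D in
theorem h15_lat_nontrivial : Nontrivial Rb := by
  obtain ⟨c, -, hm, hne⟩ := D.exists_scale 1 one_ne_zero
  exact ⟨⟨_, 0, hne⟩⟩

/-- **Units lift**: an element of `O` with reduction `1` is a unit of `O`. -/
theorem h15_inv_mem_of_red_one {x : F} (hx : x ∈ D.O) (h1 : D.red ⟨x, hx⟩ = 1) :
    ∃ hm : x⁻¹ ∈ D.O, D.red ⟨x⁻¹, hm⟩ = 1 := by
  have hnt : Nontrivial Rb := h15_lat_nontrivial D
  have hx0 : x ≠ 0 := by
    rintro rfl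
    have h2 : (⟨0, hx⟩ : D.O) = 0 := rfl
    rw [h2, map_zero] at h1
    exact zero_ne_one h1
  have hmem : x⁻¹ ∈ D.O := by
    obtain ⟨c, hc0, hm, hne⟩ := D.exists_scale x⁻¹ (inv_ne_zero hx0)
    by_cases hd : c⁻¹ ∈ D.A
    · have h2 : x⁻¹ = algebraMap K F c⁻¹ * (algebraMap K F c * x⁻¹) := by
        rw [← mul_assoc, ← map_mul, inv_mul_cancel₀ hc0, map_one, one_mul]
      rw [h2]
      exact D.O.mul_mem ((D.mem_iff _).mp hd) hm
    · exfalso
      have hcn : c ∈ D.A.nonunits := h15_nonunit_of_inv_not_mem D.A hd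
      have hcA : c ∈ D.A := D.A.nonunits_le hcn
      have hcO : algebraMap K F c ∈ D.O := (D.mem_iff _).mp hcA
      have h2 : (⟨algebraMap K F c, hcO⟩ : D.O) = ⟨algebraMap K F c * x⁻¹, hm⟩ * ⟨x, hx⟩ := by
        apply Subtype.ext
        show algebraMap K F c = algebraMap K F c * x⁻¹ * x
        rw [mul_assoc, inv_mul_cancel₀ hx0, mul_one]
      have h3 := congrArg D.red h2
      rw [map_mul, h1, mul_one, D.red_algebraMap c hcA, (h22_res_eq_zero_iff D ⟨c, hcA⟩).mpr hcn,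
        map_zero] at h3
      exact hne h3.symm
  refine ⟨hmem, ?_⟩
  have h2 : (⟨x⁻¹, hmem⟩ : D.O) * ⟨x, hx⟩ = 1 := Subtype.ext (inv_mul_cancel₀ hx0)
  have h3 := congrArg D.red h2
  rwa [map_mul, h1, mul_one, map_one] at h3

end lattice

/-! ### Deep `p`-th roots -/

section deep

/-- `∏_{i<p} (c (x - 1) - c (ζ - 1) [i]_ζ) = c^p (x^p - 1)` -/
theorem h15_scaled_identity {p : ℕ} (hp : 0 < p) {ζ : K} (hζ : IsPrimitiveRoot ζ p)
    {R : Type*} [CommRing R] [Algebra K R] (c : K) (x : R) :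
    ∏ i ∈ Finset.range p,
        (algebraMap K R c * (x - 1) - algebraMap K R (c * ((ζ - 1) * h15_qint ζ i))) =
      algebraMap K R (c ^ p) * (x ^ p - 1) := by
  have h1 : ∀ i ∈ Finset.range p,
      algebraMap K R c * (x - 1) - algebraMap K R (c * ((ζ - 1) * h15_qint ζ i)) =
        algebraMap K R c * (x - algebraMap K R (ζ ^ i)) := by
    intro i _
    rw [h15_qint_mul, map_mul, map_sub, map_one]
    ring
  rw [Finset.prod_congr rfl h1, Finset.prod_mul_distrib, Finset.prod_const, Finset.card_range,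
    h15_prod_sub_pow hp hζ, map_pow]

variable (D : h22_Lat K F k Rb) (p : ℕ) [hp : Fact p.Prime] [CharP k p]
  {ζ : K} (hζ : IsPrimitiveRoot ζ p)

omit [CharP k p] in
theorem h15_qO_coe (i : ℕ) : ((h15_qO D p hζ i : D.O) : F) = algebraMap K F (h15_qint ζ i) := by
  show algebraMap K F (h15_qA D p hζ i : K) = _
  rw [h15_qA_coe]

include hζ in
omit [CharP k p] in
/-- **Deep `p`-th roots are deep.**  If `H^p = 1 + (ζ-1)^p h'` with `h' ∈ O`, `red h' = 0`, then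
`H = 1 + (ζ-1) w` with `w ∈ O`. -/
theorem h15_deep_root_mem [IsReduced Rb] (H : F) (h' : D.O) (hh' : D.red h' = 0)
    (hH : H ^ p - 1 = algebraMap K F ((ζ - 1) ^ p) * (h' : F)) :
    ∃ w : D.O, H - 1 = algebraMap K F (ζ - 1) * (w : F) := by
  have hp0 : 0 < p := hp.out.pos
  have hlam : ζ - 1 ≠ 0 := sub_ne_zero.mpr (hζ.ne_one hp.out.one_lt)
  by_cases ht : H - 1 = 0
  · exact ⟨0, by rw [ht]; simp⟩
  · obtain ⟨c, hc0, hcm, hcr⟩ := D.exists_scale (H - 1) ht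
    have hν : (c * (ζ - 1))⁻¹ ∈ D.A := by
      by_contra hν
      have hμ : c * (ζ - 1) ∈ D.A.nonunits := h15_nonunit_of_inv_not_mem D.A hν
      have hμA : c * (ζ - 1) ∈ D.A := D.A.nonunits_le hμ
      obtain ⟨μO, hμO, hμred⟩ : ∃ m : D.O, (m : F) = algebraMap K F (c * (ζ - 1)) ∧
          D.red m = 0 := by
        refine ⟨⟨_, (D.mem_iff _).mp hμA⟩, rfl, ?_⟩
        rw [D.red_algebraMap _ hμA, (h22_res_eq_zero_iff D ⟨_, hμA⟩).mpr hμ, map_zero]
      obtain ⟨W, hW, hWred⟩ : ∃ m : D.O, (m : F) = algebraMap K F c * (H - 1) ∧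
          D.red m ≠ 0 := ⟨⟨_, hcm⟩, rfl, hcr⟩
      have hid := h15_scaled_identity hp0 hζ (R := F) c H
      rw [hH] at hid
      have hidO : ∏ i ∈ Finset.range p, (W - μO * h15_qO D p hζ i) = μO ^ p * h' := by
        apply Subtype.ext
        rw [SubmonoidClass.coe_finsetProd]
        show ∏ i ∈ Finset.range p, ((W : F) - (μO : F) * ((h15_qO D p hζ i : D.O) : F)) =
          (μO : F) ^ p * (h' : F)
        have h2 : ∀ i ∈ Finset.range p, (W : F) - (μO : F) * ((h15_qO D p hζ i : D.O) : F) =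
            algebraMap K F c * (H - 1) - algebraMap K F (c * ((ζ - 1) * h15_qint ζ i)) := by
          intro i _
          rw [h15_qO_coe, hW, hμO, ← map_mul, mul_assoc]
        rw [Finset.prod_congr rfl h2, hid, hμO, ← mul_assoc, ← map_mul, ← map_pow, mul_pow]
      have hredO := congrArg D.red hidO
      rw [map_prod, map_mul, map_pow, hμred, hh', mul_zero] at hredO
      simp only [map_sub, map_mul, hμred, zero_mul, sub_zero, Finset.prod_const,
        Finset.card_range] at hredO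
      exact hWred (IsReduced.eq_zero _ ⟨p, hredO⟩)
    refine ⟨⟨algebraMap K F (c * (ζ - 1))⁻¹ * (algebraMap K F c * (H - 1)),
      D.O.mul_mem ((D.mem_iff _).mp hν) hcm⟩, ?_⟩
    show H - 1 = algebraMap K F (ζ - 1) * (algebraMap K F (c * (ζ - 1))⁻¹ *
      (algebraMap K F c * (H - 1)))
    rw [← mul_assoc, ← mul_assoc, ← map_mul, ← map_mul]
    have h3 : (ζ - 1) * (c * (ζ - 1))⁻¹ * c = 1 := by
      field_simp
    rw [h3, map_one, one_mul]

include hζ in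
/-- the Artin–Schreier equation of the reduction of a deep `p`-th root -/
theorem h15_deep_root_red (H : F) (h' : D.O) (hh' : D.red h' = 0)
    (hH : H ^ p - 1 = algebraMap K F ((ζ - 1) ^ p) * (h' : F))
    (w : D.O) (hw : H - 1 = algebraMap K F (ζ - 1) * (w : F)) :
    ∏ i ∈ Finset.range p, (D.red w - algebraMap k Rb (i : k)) = 0 := by
  have hp0 : 0 < p := hp.out.pos
  have hlam : ζ - 1 ≠ 0 := sub_ne_zero.mpr (hζ.ne_one hp.out.one_lt)
  have hid := h15_scaled_identity hp0 hζ (R := F) (ζ - 1)⁻¹ H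
  rw [hH, hw] at hid
  have hidO : ∏ i ∈ Finset.range p, (w - h15_qO D p hζ i) = h' := by
    apply Subtype.ext
    rw [SubmonoidClass.coe_finsetProd]
    show ∏ i ∈ Finset.range p, ((w : F) - ((h15_qO D p hζ i : D.O) : F)) = (h' : F)
    have h2 : ∀ i ∈ Finset.range p, (w : F) - ((h15_qO D p hζ i : D.O) : F) =
        algebraMap K F (ζ - 1)⁻¹ * (algebraMap K F (ζ - 1) * (w : F)) -
          algebraMap K F ((ζ - 1)⁻¹ * ((ζ - 1) * h15_qint ζ i)) := by
      intro i _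
      rw [h15_qO_coe, ← mul_assoc, ← map_mul, inv_mul_cancel₀ hlam, map_one, one_mul,
        ← mul_assoc, inv_mul_cancel₀ hlam, one_mul]
    rw [Finset.prod_congr rfl h2, hid, ← mul_assoc, ← map_mul, inv_pow,
      inv_mul_cancel₀ (pow_ne_zero p hlam), map_one, one_mul]
  have hredO := congrArg D.red hidO
  rw [map_prod, hh'] at hredO
  rw [← hredO]
  refine Finset.prod_congr rfl fun i _ => ?_
  rw [map_sub, h15_red_qO]

include hζ in
/-- in a quotient domain, the reduction of a deep `p`-th root is in `𝔽_p` -/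
theorem h15_deep_root_Fp {L : Type*} [CommRing L] [IsDomain L] (q : Rb →+* L)
    (H : F) (h' : D.O) (hh' : D.red h' = 0)
    (hH : H ^ p - 1 = algebraMap K F ((ζ - 1) ^ p) * (h' : F))
    (w : D.O) (hw : H - 1 = algebraMap K F (ζ - 1) * (w : F)) :
    ∃ b : Fin p, q (D.red w) = q (algebraMap k Rb (((b : ℕ) : k))) := by
  have h1 := congrArg q (h15_deep_root_red D p hζ H h' hh' hH w hw)
  rw [map_prod, map_zero, Finset.prod_eq_zero_iff] at h1
  obtain ⟨i, hi, h2⟩ := h1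
  rw [map_sub, sub_eq_zero] at h2
  exact ⟨⟨i, Finset.mem_range.mp hi⟩, h2⟩

end deep

/-! ### The Artin–Schreier instance: the generator `g` and a semilinear lift -/

section inst

variable (D : h22_Lat K F k Rb) (p : ℕ) [hp : Fact p.Prime] [CharP k p]
  {ζ : K} (hζ : IsPrimitiveRoot ζ p)
  {F' : Type*} [Field F'] [Algebra F F'] [Algebra K F'] [IsScalarTower K F F']

include hζ in
/-- `g θ = ζ θ` gives `g y = ζ y + 1`. -/
theorem h15_asGen_shift (θ : F') (g : F' →+* F')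
    (hg : ∀ x, g (algebraMap F F' x) = algebraMap F F' x)
    (hgθ : g θ = algebraMap K F' ζ * θ) :
    g (h15_asGen (F := F) ζ θ) = algebraMap K F' ζ * h15_asGen (F := F) ζ θ + 1 := by
  have hne : algebraMap K F' (ζ - 1) ≠ 0 := by
    rw [Ne, map_eq_zero]
    exact sub_ne_zero.mpr (hζ.ne_one hp.out.one_lt)
  have hgK : ∀ c : K, g (algebraMap K F' c) = algebraMap K F' c := fun c => by
    rw [IsScalarTower.algebraMap_apply K F F', hg]
  apply mul_left_cancel₀ hne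
  have h1 : algebraMap K F' (ζ - 1) * g (h15_asGen (F := F) ζ θ) = algebraMap K F' ζ * θ - 1 := by
    rw [← hgK (ζ - 1), ← map_mul, h15_asGen_mul p hζ θ, map_sub, map_one, hgθ]
  rw [h1, mul_add, mul_one, mul_left_comm, h15_asGen_mul p hζ θ, map_sub, map_one]
  ring

variable (h : D.O) (hred : D.red h = 0) (θ : F')
  (hθ : θ ^ p - 1 = algebraMap K F' ((ζ - 1) ^ p) * algebraMap F F' (h : F))
  (hli : LinearIndependent F (fun j : Fin p => θ ^ (j : ℕ)))
  (hspan : ∀ f : F', ∃ c : Fin p → F, f = ∑ j, algebraMap F F' (c j) * θ ^ (j : ℕ))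

/-- **(G) the generator shifts the sheets by one.**  `g` an endomorphism of `F'` over `F` with
`g θ = ζ θ`.  Then `g O' ⊆ O'` and `red'(g f)(a) = red'(f)(a + 1)`. -/
theorem h15_asInst_shift (g : F' →+* F')
    (hg : ∀ x, g (algebraMap F F' x) = algebraMap F F' x)
    (hgθ : g θ = algebraMap K F' ζ * θ) {f : F'}
    (hf : f ∈ (h15_asInst D p hζ h hred θ hθ hli hspan).lat.O) :
    ∃ hm : g f ∈ (h15_asInst D p hζ h hred θ hθ hli hspan).lat.O, ∀ a b : Fin p,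
      (((b : ℕ) : k)) = ((a : ℕ) : k) + 1 →
      (h15_asInst D p hζ h hred θ hθ hli hspan).lat.red ⟨g f, hm⟩ a =
        (h15_asInst D p hζ h hred θ hθ hli hspan).lat.red ⟨f, hf⟩ b := by
  set S := h15_asInst D p hζ h hred θ hθ hli hspan with hS
  have hζA : ζ ∈ D.A := h15_root_mem D.A hp.out.pos hζ.pow_eq_one
  have hζO : algebraMap K F' ζ ∈ S.lat.O := (S.algebraMap_K_mem_O'_iff ζ).mpr hζA
  have hyO : S.y ∈ S.lat.O := S.y_mem
  have hgy : g S.y = algebraMap K F' ζ * S.y + 1 := h15_asGen_shift p hζ θ g hg hgθ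
  have hy : g S.y ∈ S.O' := by
    rw [hgy]
    exact S.O'.add_mem (S.O'.mul_mem hζO hyO) S.O'.one_mem
  have hψ : ∀ x, g (algebraMap F F' x) = algebraMap F F' (RingHom.id F x) := hg
  have hσ : ∀ x ∈ D.O, RingHom.id F x ∈ D.O := fun x hx => hx
  have hm : g f ∈ S.O' := S.map_mem g (RingHom.id F) hψ hσ hy hf
  refine ⟨hm, fun a b hab => ?_⟩
  have hya : RingHom.id Rb (S.red' ⟨g S.y, hy⟩ a) =
      RingHom.id Rb (algebraMap k Rb (S.r b)) := by
    have h1 : (⟨g S.y, hy⟩ : S.lat.O) = ⟨algebraMap K F' ζ, hζO⟩ * ⟨S.y, hyO⟩ + 1 :=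
      Subtype.ext hgy
    show S.lat.red ⟨g S.y, hy⟩ a = algebraMap k Rb (S.r b)
    rw [h1, map_add, map_mul, map_one, Pi.add_apply, Pi.mul_apply, Pi.one_apply,
      S.lat_red_const ζ hζA, S.lat_red_y]
    have h2 : D.res ⟨ζ, hζA⟩ = 1 := h15_res_zeta D p hζ
    have h3 : S.r b = S.r a + 1 := hab
    rw [h2, h3, map_one, one_mul, map_add, map_one]
  exact S.red_map g (RingHom.id F) hψ hσ hy (RingHom.id Rb) (RingHom.id Rb)
    (fun x hx => rfl) a b hya hf hm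

include hζ in
/-- `ψ θ = θ (1 + (ζ-1) w)` and `σ ζ = ζ^a0` give `[a0]_ζ ψ y = y + w + (ζ-1) y w`. -/
theorem h15_asGen_semilinear (θ : F') (ψ : F' →+* F') (σ : F →+* F)
    (hψ : ∀ x, ψ (algebraMap F F' x) = algebraMap F F' (σ x)) (a0 : ℕ)
    (hσζ : σ (algebraMap K F ζ) = algebraMap K F (ζ ^ a0))
    (w : F) (hψθ : ψ θ = θ * algebraMap F F' (1 + algebraMap K F (ζ - 1) * w)) :
    algebraMap K F' (h15_qint ζ a0) * ψ (h15_asGen (F := F) ζ θ) =
      h15_asGen (F := F) ζ θ + algebraMap F F' w +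
        algebraMap K F' (ζ - 1) * h15_asGen (F := F) ζ θ * algebraMap F F' w := by
  have hne : algebraMap K F' (ζ - 1) ≠ 0 := by
    rw [Ne, map_eq_zero]
    exact sub_ne_zero.mpr (hζ.ne_one hp.out.one_lt)
  apply mul_left_cancel₀ hne
  have h0 : ψ (algebraMap K F' (ζ - 1)) = algebraMap K F' ((ζ - 1) * h15_qint ζ a0) := by
    have hA : algebraMap K F' (ζ - 1) = algebraMap F F' (algebraMap K F ζ - 1) := by
      rw [IsScalarTower.algebraMap_apply K F F', map_sub, map_one]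
    rw [hA, hψ, map_sub σ, map_one σ, hσζ, h15_qint_mul, IsScalarTower.algebraMap_apply K F F',
      map_sub (algebraMap K F), map_one]
  have h1 : algebraMap K F' (ζ - 1) * (algebraMap K F' (h15_qint ζ a0) *
      ψ (h15_asGen (F := F) ζ θ)) =
      θ * algebraMap F F' (1 + algebraMap K F (ζ - 1) * w) - 1 := by
    rw [← mul_assoc, ← map_mul, ← h0, ← map_mul, h15_asGen_mul p hζ θ, map_sub, map_one, hψθ]
  have h2 := h15_asGen_mul (F := F) p hζ θ
  rw [h1, map_add, map_one, map_mul, ← IsScalarTower.algebraMap_apply K F F']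
  linear_combination (-(1 + algebraMap K F' (ζ - 1) * algebraMap F F' w)) * h2

/-- **(T) a semilinear lift acts on the sheets by an affine map of `𝔽_p`** (hypothesis form:
`ψ θ = θ (1 + (ζ-1) w)` with `w ∈ O` whose reduction is `b ∈ 𝔽_p` in the quotient `q`). -/
theorem h15_asInst_semilinear (ψ : F' →+* F') (σ : F →+* F)
    (hψ : ∀ x, ψ (algebraMap F F' x) = algebraMap F F' (σ x))
    (hσO : ∀ x ∈ D.O, σ x ∈ D.O) (a0 : ℕ) (ha0 : ¬ p ∣ a0)
    (hσζ : σ (algebraMap K F ζ) = algebraMap K F (ζ ^ a0))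
    (w : D.O) (hψθ : ψ θ = θ * algebraMap F F' (1 + algebraMap K F (ζ - 1) * (w : F)))
    {L : Type*} [CommRing L] (q : Rb →+* L)
    (hredσ : ∀ x (hx : x ∈ D.O), q (D.red ⟨σ x, hσO x hx⟩) = q (D.red ⟨x, hx⟩))
    (b : Fin p) (hb : q (D.red w) = q (algebraMap k Rb (((b : ℕ) : k))))
    (a a' : Fin p) (haa' : (((a' : ℕ) : k)) * (a0 : k) = ((a : ℕ) : k) + ((b : ℕ) : k))
    {f : F'} (hf : f ∈ (h15_asInst D p hζ h hred θ hθ hli hspan).lat.O) :
    ∃ hm : ψ f ∈ (h15_asInst D p hζ h hred θ hθ hli hspan).lat.O,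
      q ((h15_asInst D p hζ h hred θ hθ hli hspan).lat.red ⟨ψ f, hm⟩ a) =
        q ((h15_asInst D p hζ h hred θ hθ hli hspan).lat.red ⟨f, hf⟩ a') := by
  set S := h15_asInst D p hζ h hred θ hθ hli hspan with hS
  -- the unit `[a0]_ζ`
  have ha0k : ((a0 : ℕ) : k) ≠ 0 := by
    rw [Ne, CharP.cast_eq_zero_iff k p]
    exact ha0
  have hεA : h15_qint ζ a0 ∈ D.A := by
    rw [← h15_qA_coe D p hζ a0]
    exact (h15_qA D p hζ a0).2
  have hεres : D.res ⟨h15_qint ζ a0, hεA⟩ = (a0 : k) := by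
    rw [← h15_res_qA D p hζ a0]
    congr 1
    exact Subtype.ext (h15_qA_coe D p hζ a0).symm
  have hεnn : h15_qint ζ a0 ∉ D.A.nonunits := by
    intro hn
    have := (h22_res_eq_zero_iff D ⟨_, hεA⟩).mpr hn
    rw [hεres] at this
    exact ha0k this
  have hε0 : h15_qint ζ a0 ≠ 0 := by
    intro h0
    apply ha0k
    rw [← hεres]
    have : (⟨h15_qint ζ a0, hεA⟩ : D.A) = 0 := Subtype.ext h0
    rw [this, map_zero]
  have heA : (h15_qint ζ a0)⁻¹ ∈ D.A := by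
    by_contra hc
    exact hεnn (h15_nonunit_of_inv_not_mem D.A hc)
  have heres : D.res ⟨(h15_qint ζ a0)⁻¹, heA⟩ = ((a0 : ℕ) : k)⁻¹ := by
    have h1 : (⟨(h15_qint ζ a0)⁻¹, heA⟩ : D.A) * ⟨h15_qint ζ a0, hεA⟩ = 1 :=
      Subtype.ext (inv_mul_cancel₀ hε0)
    have h2 := congrArg D.res h1
    rw [map_mul, map_one, hεres] at h2
    exact eq_inv_of_mul_eq_one_left h2
  -- membership
  have hlamA : ζ - 1 ∈ D.A := h15_zeta_sub_one_mem D p hζ
  have heO : algebraMap K F' (h15_qint ζ a0)⁻¹ ∈ S.lat.O := (S.algebraMap_K_mem_O'_iff _).mpr heA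
  have hlamO : algebraMap K F' (ζ - 1) ∈ S.lat.O := (S.algebraMap_K_mem_O'_iff _).mpr hlamA
  have hyO : S.y ∈ S.lat.O := S.y_mem
  have hwO : algebraMap F F' (w : F) ∈ S.lat.O := (S.algebraMap_mem_O'_iff _).mpr w.2
  have hψy : ψ S.y = algebraMap K F' (h15_qint ζ a0)⁻¹ * (S.y + algebraMap F F' (w : F) +
      algebraMap K F' (ζ - 1) * S.y * algebraMap F F' (w : F)) := by
    have h1 := h15_asGen_semilinear p hζ θ ψ σ hψ a0 hσζ (w : F) hψθ
    have h2 : S.y = h15_asGen (F := F) ζ θ := rfl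
    rw [h2, ← h1, ← mul_assoc, ← map_mul, inv_mul_cancel₀ hε0, map_one, one_mul]
  have hy : ψ S.y ∈ S.O' := by
    rw [hψy]
    exact S.O'.mul_mem heO (S.O'.add_mem (S.O'.add_mem hyO hwO)
      (S.O'.mul_mem (S.O'.mul_mem hlamO hyO) hwO))
  have hm : ψ f ∈ S.O' := S.map_mem ψ σ hψ hσO hy hf
  refine ⟨hm, ?_⟩
  have hya : q (S.red' ⟨ψ S.y, hy⟩ a) = q (algebraMap k Rb (S.r a')) := by
    have h1 : (⟨ψ S.y, hy⟩ : S.lat.O) = ⟨algebraMap K F' (h15_qint ζ a0)⁻¹, heO⟩ *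
        (⟨S.y, hyO⟩ + ⟨algebraMap F F' (w : F), hwO⟩ +
          ⟨algebraMap K F' (ζ - 1), hlamO⟩ * ⟨S.y, hyO⟩ * ⟨algebraMap F F' (w : F), hwO⟩) :=
      Subtype.ext hψy
    show q (S.lat.red ⟨ψ S.y, hy⟩ a) = _
    rw [h1, map_mul, map_add, map_add, map_mul, map_mul, Pi.mul_apply, Pi.add_apply,
      Pi.add_apply, Pi.mul_apply, Pi.mul_apply, S.lat_red_const _ heA, S.lat_red_const _ hlamA,
      S.lat_red_y, S.lat_red_algebraMap _ w.2, h15_res_zeta_sub_one D p hζ, heres, map_zero,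
      zero_mul, zero_mul, add_zero, map_mul, map_add, Subtype.coe_eta, hb]
    have hk : S.r a' = ((a0 : ℕ) : k)⁻¹ * (S.r a + ((b : ℕ) : k)) := by
      show ((a' : ℕ) : k) = ((a0 : ℕ) : k)⁻¹ * (((a : ℕ) : k) + ((b : ℕ) : k))
      rw [← haa', mul_comm, mul_assoc, mul_inv_cancel₀ ha0k, mul_one]
    rw [hk, map_mul (algebraMap k Rb), map_add (algebraMap k Rb), map_mul q, map_add q]
  exact S.red_map ψ σ hψ hσO hy q q hredσ a a' hya hf hm

include hζ in
omit [CharP k p] in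
/-- **The quotient `σ(u)/u` of a deep `u` is deep.**  `u = 1 + (ζ-1)^p h`, `red h = 0`,
`σ` an endomorphism of `F` preserving `O`, compatible with `red`, with `σ ζ = ζ^a0`:
if `σ u = u H^p` then `H^p - 1 = (ζ-1)^p h'` with `h' ∈ O`, `red h' = 0`. -/
theorem h15_deep_quot (h : D.O) (hred : D.red h = 0) (σ : F →+* F)
    (hσO : ∀ x ∈ D.O, σ x ∈ D.O)
    (hσred : ∀ x (hx : x ∈ D.O), D.red ⟨σ x, hσO x hx⟩ = D.red ⟨x, hx⟩)
    (a0 : ℕ) (hσζ : σ (algebraMap K F ζ) = algebraMap K F (ζ ^ a0))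
    (H : F)
    (hH : σ (1 + algebraMap K F ((ζ - 1) ^ p) * (h : F)) =
      (1 + algebraMap K F ((ζ - 1) ^ p) * (h : F)) * H ^ p) :
    ∃ h' : D.O, D.red h' = 0 ∧ H ^ p - 1 = algebraMap K F ((ζ - 1) ^ p) * (h' : F) := by
  have hlamA : ζ - 1 ∈ D.A := h15_zeta_sub_one_mem D p hζ
  have hlampA : (ζ - 1) ^ p ∈ D.A := D.A.pow_mem hlamA p
  obtain ⟨Λ, hΛ⟩ : ∃ m : D.O, (m : F) = algebraMap K F ((ζ - 1) ^ p) :=
    ⟨⟨_, (D.mem_iff _).mp hlampA⟩, rfl⟩
  obtain ⟨u, hu⟩ : ∃ m : D.O, m = 1 + Λ * h := ⟨_, rfl⟩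
  have hured : D.red u = 1 := by
    rw [hu, map_add, map_one, map_mul, hred, mul_zero, add_zero]
  have huF : (u : F) = 1 + algebraMap K F ((ζ - 1) ^ p) * (h : F) := by
    rw [hu, ← hΛ]
    rfl
  obtain ⟨huinv, huinvred⟩ := h15_inv_mem_of_red_one D u.2 hured
  have hu0 : (u : F) ≠ 0 := by
    intro h0
    have hnt : Nontrivial Rb := h15_lat_nontrivial D
    have : u = 0 := Subtype.ext h0
    rw [this, map_zero] at hured
    exact zero_ne_one hured
  -- `σ ((ζ-1)^p) = (ζ-1)^p [a0]^p`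
  have hεA : h15_qint ζ a0 ^ p ∈ D.A := by
    refine D.A.pow_mem ?_ p
    rw [← h15_qA_coe D p hζ a0]
    exact (h15_qA D p hζ a0).2
  obtain ⟨E, hE⟩ : ∃ m : D.O, (m : F) = algebraMap K F (h15_qint ζ a0 ^ p) :=
    ⟨⟨_, (D.mem_iff _).mp hεA⟩, rfl⟩
  have hσlam : σ (algebraMap K F ((ζ - 1) ^ p)) =
      algebraMap K F ((ζ - 1) ^ p) * algebraMap K F (h15_qint ζ a0 ^ p) := by
    have hA : algebraMap K F ((ζ - 1) ^ p) * algebraMap K F (h15_qint ζ a0 ^ p) =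
        (algebraMap K F (ζ ^ a0) - 1) ^ p := by
      rw [← map_mul, ← mul_pow, h15_qint_mul, map_pow, map_sub, map_one]
    rw [hA, map_pow, map_sub, map_one, map_pow σ, map_sub σ, map_one σ, hσζ]
  obtain ⟨sh, hsh, hshred⟩ : ∃ m : D.O, (m : F) = σ (h : F) ∧ D.red m = 0 := by
    refine ⟨⟨σ (h : F), hσO _ h.2⟩, rfl, ?_⟩
    rw [hσred _ h.2]
    exact hred
  refine ⟨(E * sh - h) * ⟨(u : F)⁻¹, huinv⟩, ?_, ?_⟩
  · rw [map_mul, map_sub, map_mul, hshred, hred, mul_zero, sub_zero, zero_mul]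
  · show H ^ p - 1 = algebraMap K F ((ζ - 1) ^ p) * (((E : F) * (sh : F) - (h : F)) * (u : F)⁻¹)
    rw [← huF] at hH
    have h1 : H ^ p = σ (u : F) * (u : F)⁻¹ := by
      rw [hH, mul_comm (u : F), mul_assoc, mul_inv_cancel₀ hu0, mul_one]
    have h2 : σ (u : F) = 1 + algebraMap K F ((ζ - 1) ^ p) * ((E : F) * (sh : F)) := by
      rw [huF, map_add, map_one, map_mul, hσlam, hE, hsh, mul_assoc]
    rw [h1, h2]
    have h3 : (1 : F) = (u : F) * (u : F)⁻¹ := (mul_inv_cancel₀ hu0).symm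
    nth_rewrite 2 [h3]
    rw [huF]
    ring

variable (h : D.O) (hred : D.red h = 0) (θ : F')
  (hθ : θ ^ p - 1 = algebraMap K F' ((ζ - 1) ^ p) * algebraMap F F' (h : F))
  (hli : LinearIndependent F (fun j : Fin p => θ ^ (j : ℕ)))
  (hspan : ∀ f : F', ∃ c : Fin p → F, f = ∑ j, algebraMap F F' (c j) * θ ^ (j : ℕ))

/-- **(T) a semilinear lift acts on the sheets by affine maps of `𝔽_p`.**
`ψ` an endomorphism of `F'` over an endomorphism `σ` of `F` which preserves `O`, commutes with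
`red`, and has `σ ζ = ζ^a0`, `p ∤ a0`; `ψ θ = θ H` with `H ∈ F`.  Then for every quotient domain
`q : Rb → L` there is `b ∈ 𝔽_p` such that `q (red'(ψ f)(a)) = q (red'(f)((a + b)/a0))`. -/
theorem h15_asInst_sheet_perm [IsReduced Rb] (ψ : F' →+* F') (σ : F →+* F)
    (hψ : ∀ x, ψ (algebraMap F F' x) = algebraMap F F' (σ x))
    (hσO : ∀ x ∈ D.O, σ x ∈ D.O)
    (hσred : ∀ x (hx : x ∈ D.O), D.red ⟨σ x, hσO x hx⟩ = D.red ⟨x, hx⟩)
    (a0 : ℕ) (ha0 : ¬ p ∣ a0)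
    (hσζ : σ (algebraMap K F ζ) = algebraMap K F (ζ ^ a0))
    (H : F) (hψθ : ψ θ = θ * algebraMap F F' H)
    {L : Type*} [CommRing L] [IsDomain L] (q : Rb →+* L) :
    ∃ b : Fin p, ∀ a a' : Fin p,
      (((a' : ℕ) : k)) * (a0 : k) = ((a : ℕ) : k) + ((b : ℕ) : k) →
      ∀ (f : F') (hf : f ∈ (h15_asInst D p hζ h hred θ hθ hli hspan).lat.O),
      ∃ hm : ψ f ∈ (h15_asInst D p hζ h hred θ hθ hli hspan).lat.O,
        q ((h15_asInst D p hζ h hred θ hθ hli hspan).lat.red ⟨ψ f, hm⟩ a) =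
          q ((h15_asInst D p hζ h hred θ hθ hli hspan).lat.red ⟨f, hf⟩ a') := by
  -- `θ^p = u`
  have hθu : θ ^ p = algebraMap F F' (1 + algebraMap K F ((ζ - 1) ^ p) * (h : F)) := by
    rw [map_add, map_one, map_mul, ← IsScalarTower.algebraMap_apply K F F', ← hθ]
    ring
  have hσu : σ (1 + algebraMap K F ((ζ - 1) ^ p) * (h : F)) =
      (1 + algebraMap K F ((ζ - 1) ^ p) * (h : F)) * H ^ p := by
    apply (algebraMap F F').injective
    calc algebraMap F F' (σ (1 + algebraMap K F ((ζ - 1) ^ p) * (h : F)))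
        = ψ (algebraMap F F' (1 + algebraMap K F ((ζ - 1) ^ p) * (h : F))) := (hψ _).symm
      _ = ψ (θ ^ p) := by rw [hθu]
      _ = (ψ θ) ^ p := map_pow ψ θ p
      _ = θ ^ p * (algebraMap F F' H) ^ p := by rw [hψθ, mul_pow]
      _ = algebraMap F F' (1 + algebraMap K F ((ζ - 1) ^ p) * (h : F)) *
            algebraMap F F' (H ^ p) := by rw [hθu, map_pow (algebraMap F F') H]
      _ = _ := (map_mul _ _ _).symm
  obtain ⟨h', hh', hH⟩ := h15_deep_quot D p hζ h hred σ hσO hσred a0 hσζ H hσu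
  obtain ⟨w, hw⟩ := h15_deep_root_mem D p hζ H h' hh' hH
  obtain ⟨b, hb⟩ := h15_deep_root_Fp D p hζ q H h' hh' hH w hw
  have hψθ' : ψ θ = θ * algebraMap F F' (1 + algebraMap K F (ζ - 1) * (w : F)) := by
    rw [hψθ, ← hw]
    congr 2
    ring
  exact ⟨b, fun a a' haa' f hf =>
    h15_asInst_semilinear D p hζ h hred θ hθ hli hspan ψ σ hψ hσO a0 ha0 hσζ w hψθ' q
      (fun x hx => by rw [hσred]) b hb a a' haa' hf⟩

/-! ### Consumer forms (sheet maps `s : Fin p → Fin p`) -/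

omit [Algebra k Rb] in
/-- affine maps of `𝔽_p` as maps of `Fin p`: `c · s(a) = a + β`. -/
theorem h15_exists_affine (k : Type*) [Field k] [CharP k p] (c : ℕ) (hc : ¬ p ∣ c) (β : ℕ) :
    ∃ s : Fin p → Fin p, ∀ a : Fin p, (c : k) * ((s a : ℕ) : k) = ((a : ℕ) : k) + (β : k) := by
  have hc' : ((c : ℕ) : ZMod p) ≠ 0 := by
    rw [Ne, ZMod.natCast_eq_zero_iff]
    exact hc
  let φ : ZMod p →+* k := ZMod.castHom (dvd_refl p) k
  have h1 : ∀ z : ZMod p, ((z.val : ℕ) : k) = φ z := fun z => by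
    rw [ZMod.castHom_apply, ZMod.natCast_val]
  refine ⟨fun a => ⟨((((a : ℕ) : ZMod p) + (β : ZMod p)) * ((c : ℕ) : ZMod p)⁻¹).val,
    ZMod.val_lt _⟩, fun a => ?_⟩
  show (c : k) * ((((((a : ℕ) : ZMod p) + (β : ZMod p)) * ((c : ℕ) : ZMod p)⁻¹).val : ℕ) : k) = _
  rw [h1, ← map_natCast φ c, ← map_mul, mul_comm, inv_mul_cancel_right₀ hc', map_add,
    map_natCast, map_natCast]

/-- **(G), consumer form.** -/
theorem h15_asInst_shift_exists (g : F' →+* F')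
    (hg : ∀ x, g (algebraMap F F' x) = algebraMap F F' x)
    (hgθ : g θ = algebraMap K F' ζ * θ) :
    ∃ s : Fin p → Fin p, (∀ a, (h15_asInst D p hζ h hred θ hθ hli hspan).r (s a) =
        (h15_asInst D p hζ h hred θ hθ hli hspan).r a + 1) ∧
      ∀ (f : F') (hf : f ∈ (h15_asInst D p hζ h hred θ hθ hli hspan).lat.O),
      ∃ hm : g f ∈ (h15_asInst D p hζ h hred θ hθ hli hspan).lat.O, ∀ a : Fin p,
        (h15_asInst D p hζ h hred θ hθ hli hspan).lat.red ⟨g f, hm⟩ a =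
          (h15_asInst D p hζ h hred θ hθ hli hspan).lat.red ⟨f, hf⟩ (s a) := by
  obtain ⟨s, hs⟩ := h15_exists_affine p k 1 (fun h1 => hp.out.one_lt.ne' (Nat.dvd_one.mp h1)) 1
  have hs' : ∀ a : Fin p, ((s a : ℕ) : k) = ((a : ℕ) : k) + 1 := fun a => by
    have := hs a
    rwa [Nat.cast_one, one_mul] at this
  refine ⟨s, hs', fun f hf => ?_⟩
  obtain ⟨hm, hsh⟩ := h15_asInst_shift D p hζ h hred θ hθ hli hspan g hg hgθ hf
  exact ⟨hm, fun a => hsh a (s a) (hs' a)⟩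

/-- **(T), consumer form** (one quotient domain). -/
theorem h15_asInst_sheet_perm_exists [IsReduced Rb] (ψ : F' →+* F') (σ : F →+* F)
    (hψ : ∀ x, ψ (algebraMap F F' x) = algebraMap F F' (σ x))
    (hσO : ∀ x ∈ D.O, σ x ∈ D.O)
    (hσred : ∀ x (hx : x ∈ D.O), D.red ⟨σ x, hσO x hx⟩ = D.red ⟨x, hx⟩)
    (a0 : ℕ) (ha0 : ¬ p ∣ a0)
    (hσζ : σ (algebraMap K F ζ) = algebraMap K F (ζ ^ a0))
    (H : F) (hψθ : ψ θ = θ * algebraMap F F' H)
    {L : Type*} [CommRing L] [IsDomain L] (q : Rb →+* L) :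
    ∃ (s : Fin p → Fin p) (β : ℕ),
      (∀ a, (a0 : k) * (h15_asInst D p hζ h hred θ hθ hli hspan).r (s a) =
        (h15_asInst D p hζ h hred θ hθ hli hspan).r a + (β : k)) ∧
      ∀ (f : F') (hf : f ∈ (h15_asInst D p hζ h hred θ hθ hli hspan).lat.O),
      ∃ hm : ψ f ∈ (h15_asInst D p hζ h hred θ hθ hli hspan).lat.O, ∀ a : Fin p,
        q ((h15_asInst D p hζ h hred θ hθ hli hspan).lat.red ⟨ψ f, hm⟩ a) =
          q ((h15_asInst D p hζ h hred θ hθ hli hspan).lat.red ⟨f, hf⟩ (s a)) := by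
  obtain ⟨b, hb⟩ := h15_asInst_sheet_perm D p hζ h hred θ hθ hli hspan ψ σ hψ hσO hσred a0 ha0
    hσζ H hψθ q
  obtain ⟨s, hs⟩ := h15_exists_affine p k a0 ha0 (b : ℕ)
  refine ⟨s, (b : ℕ), hs, fun f hf => ?_⟩
  have hm : ψ f ∈ (h15_asInst D p hζ h hred θ hθ hli hspan).lat.O := by
    obtain ⟨a⟩ : Nonempty (Fin p) := ⟨⟨0, hp.out.pos⟩⟩
    exact (hb a (s a) (by rw [mul_comm]; exact hs a) f hf).1
  refine ⟨hm, fun a => ?_⟩
  obtain ⟨_, h2⟩ := hb a (s a) (by rw [mul_comm]; exact hs a) f hf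
  exact h2

end inst

/-! ### The two-component case `Rb = Fb × Fb` -/

section two

variable {Fb : Type*} [Field Fb] [Algebra k Fb]
  (D : h22_Lat K F k (Fb × Fb)) (p : ℕ) [hp : Fact p.Prime] [CharP k p]
  {ζ : K} (hζ : IsPrimitiveRoot ζ p)
  {F' : Type*} [Field F'] [Algebra F F'] [Algebra K F'] [IsScalarTower K F F']
  (h : D.O) (hred : D.red h = 0) (θ : F')
  (hθ : θ ^ p - 1 = algebraMap K F' ((ζ - 1) ^ p) * algebraMap F F' (h : F))
  (hli : LinearIndependent F (fun j : Fin p => θ ^ (j : ℕ)))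
  (hspan : ∀ f : F', ∃ c : Fin p → F, f = ∑ j, algebraMap F F' (c j) * θ ^ (j : ℕ))

/-- **(T) for two components**: a semilinear lift `ψ` (over `σ` with `red ∘ σ = red`,
`σ ζ = ζ^c`, `p ∤ c`, `ψ θ = θ H`) permutes the sheets of component `i` by the affine map
`s_i`, `c · s_i(a) = a + β_i`. -/
theorem h15_asInst_sheet_perm_two (ψ : F' →+* F') (σ : F →+* F)
    (hψ : ∀ x, ψ (algebraMap F F' x) = algebraMap F F' (σ x))
    (hσO : ∀ x ∈ D.O, σ x ∈ D.O)
    (hσred : ∀ x (hx : x ∈ D.O), D.red ⟨σ x, hσO x hx⟩ = D.red ⟨x, hx⟩)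
    (c : ℕ) (hc : ¬ p ∣ c)
    (hσζ : σ (algebraMap K F ζ) = algebraMap K F (ζ ^ c))
    (H : F) (hψθ : ψ θ = θ * algebraMap F F' H) :
    ∃ (s1 s2 : Fin p → Fin p) (β1 β2 : k),
      (∀ a, (c : k) * (h15_asInst D p hζ h hred θ hθ hli hspan).r (s1 a) =
        (h15_asInst D p hζ h hred θ hθ hli hspan).r a + β1) ∧
      (∀ a, (c : k) * (h15_asInst D p hζ h hred θ hθ hli hspan).r (s2 a) =
        (h15_asInst D p hζ h hred θ hθ hli hspan).r a + β2) ∧
      ∀ (f : F') (hf : f ∈ (h15_asInst D p hζ h hred θ hθ hli hspan).lat.O),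
      ∃ hm : ψ f ∈ (h15_asInst D p hζ h hred θ hθ hli hspan).lat.O, ∀ a : Fin p,
        (h15_asInst D p hζ h hred θ hθ hli hspan).lat.red ⟨ψ f, hm⟩ a =
          (((h15_asInst D p hζ h hred θ hθ hli hspan).lat.red ⟨f, hf⟩ (s1 a)).1,
            ((h15_asInst D p hζ h hred θ hθ hli hspan).lat.red ⟨f, hf⟩ (s2 a)).2) := by
  obtain ⟨s1, β1, hs1, h1⟩ := h15_asInst_sheet_perm_exists D p hζ h hred θ hθ hli hspan ψ σ hψ
    hσO hσred c hc hσζ H hψθ (RingHom.fst Fb Fb)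
  obtain ⟨s2, β2, hs2, h2⟩ := h15_asInst_sheet_perm_exists D p hζ h hred θ hθ hli hspan ψ σ hψ
    hσO hσred c hc hσζ H hψθ (RingHom.snd Fb Fb)
  refine ⟨s1, s2, (β1 : k), (β2 : k), hs1, hs2, fun f hf => ?_⟩
  obtain ⟨hm, h1'⟩ := h1 f hf
  obtain ⟨_, h2'⟩ := h2 f hf
  exact ⟨hm, fun a => Prod.ext (h1' a) (h2' a)⟩

end two

end Fermat.Agent.S33
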