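import Mathlib
import Fermat.Prelude.Def_AlgebraicCurve_DivisorPushPull
import Fermat.Prelude.Def_AlgebraicCurve_BaseChangeGalois
import Fermat.Agent.S34.h51_Glue

/-!
# S33 (N2), row RR-STAB: pull-back of divisors is equivariant under lifted semilinear
automorphisms

`F'/F` an integral extension of function fields over `K` (with the instance `[Algebra F F']`
used by `Divisor.pullback F'`), `σ : SemilinearAut K F`, `σ' : SemilinearAut K F'` a lift
(`σ' • algebraMap F F' f = algebraMap F F' (σ • f)`).  Then

* `h35_restrict_smul` : `(σ' • w).restrict F = σ • w.restrict F`;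
* `h35_ramificationIndex_smul` : `e(σ' • w) = e(w)`;
* `h35_pullback_smul` : `π^*(σ • E) = σ' • π^* E`;
* `h35_smul_mem_rr_pullback` : if `σ • E = E` then `σ'` preserves `L_{F'}(π^* E)`;
* `h35_Rd_stable` : if moreover `σ'` preserves the ring `O'` of a lattice datum `D'` on `F'` and
  acts on the reductions through a map `T`, then `T` preserves `red' (L_{F'}(π^* E) ∩ O')`;
* `h35_algAut`, `h35_algAut_smul`, `h35_algAut_lift` : an `F`-algebra automorphism `g` of `F'`
  as a `K`-semilinear automorphism lifting `1`; `h35_algAut_mem_rr_pullback`,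
  `h35_algAut_Rd_stable` : the same two stability statements for `g` (no hypothesis on `E`).

(Twin of `GAL/h67_GalPlace` — stated there for `pullbackAlong` — for the instance form.)
-/

set_option autoImplicit false

noncomputable section

open AlgebraicCurve
open scoped Pointwise

namespace Fermat.Agent.S33

open Fermat.Agent.S34

section Generic

variable {K F F' : Type*} [Field K] [Field F] [Field F'] [Algebra K F] [Algebra K F']
  [Algebra F F'] [IsScalarTower K F F']

/-- the inverses of a lift form a lift -/
theorem h35_lift_inv {σ : SemilinearAut K F} {σ' : SemilinearAut K F'}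
    (h : ∀ f : F, σ' • algebraMap F F' f = algebraMap F F' (σ • f)) (f : F) :
    σ'⁻¹ • algebraMap F F' f = algebraMap F F' (σ⁻¹ • f) := by
  rw [inv_smul_eq_iff, h, smul_inv_smul]

/-- membership in a translated place -/
theorem h35_mem_smul_place (g : SemilinearAut K F) (v : Place K F) (x : F) :
    x ∈ (g • v).toValuationSubring ↔ g⁻¹ • x ∈ v.toValuationSubring := by
  rw [SemilinearAut.smul_toValuationSubring]
  exact ValuationSubring.mem_pointwise_smul_iff_inv_smul_mem

theorem h35_ord_lift_smul {σ : SemilinearAut K F} {σ' : SemilinearAut K F'}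
    (h : ∀ f : F, σ' • algebraMap F F' f = algebraMap F F' (σ • f)) (w : Place K F') (f : F) :
    (σ' • w).ord (algebraMap F F' (σ • f)) = w.ord (algebraMap F F' f) := by
  rw [← h f]
  exact SemilinearAut.ord_smul σ' w (algebraMap F F' f)

/-- **Ramification indices are invariant.** -/
theorem h35_ramificationIndex_smul {σ : SemilinearAut K F} {σ' : SemilinearAut K F'}
    (h : ∀ f : F, σ' • algebraMap F F' f = algebraMap F F' (σ • f)) (w : Place K F') :
    (σ' • w).ramificationIndex F = w.ramificationIndex F := by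
  unfold Place.ramificationIndex
  congr 1
  ext n
  simp only [Set.mem_setOf_eq]
  constructor
  · rintro ⟨hn, f, hf, hfo⟩
    refine ⟨hn, σ⁻¹ • f, ?_, ?_⟩
    · intro h0
      apply hf
      have := congrArg (σ • ·) h0
      simpa using this
    · rw [← hfo, ← h35_ord_lift_smul h w (σ⁻¹ • f), smul_inv_smul]
  · rintro ⟨hn, f, hf, hfo⟩
    refine ⟨hn, σ • f, ?_, ?_⟩
    · intro h0
      apply hf
      have := congrArg (σ⁻¹ • ·) h0
      simpa using this
    · rw [← hfo, h35_ord_lift_smul h w f]

variable [Algebra.IsIntegral F F']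

/-- **Restriction of places is equivariant.** -/
theorem h35_restrict_smul {σ : SemilinearAut K F} {σ' : SemilinearAut K F'}
    (h : ∀ f : F, σ' • algebraMap F F' f = algebraMap F F' (σ • f)) (w : Place K F') :
    (σ' • w).restrict F = σ • w.restrict F := by
  apply Place.ext
  ext x
  change x ∈ ((σ' • w).restrict F).toValuationSubring ↔ x ∈ (σ • w.restrict F).toValuationSubring
  rw [Place.mem_restrict_iff, h35_mem_smul_place, h35_mem_smul_place, Place.mem_restrict_iff,
    h35_lift_inv h]

variable [HasPrincipalDivisors K F']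

/-- **Pull-back of divisors is equivariant.** -/
theorem h35_pullback_smul {σ : SemilinearAut K F} {σ' : SemilinearAut K F'}
    (h : ∀ f : F, σ' • algebraMap F F' f = algebraMap F F' (σ • f)) (E : Divisor K F) :
    Divisor.pullback F' (σ • E) = σ' • Divisor.pullback F' E := by
  ext w
  rw [Divisor.pullback_apply, SemilinearAut.divisor_smul_apply,
    SemilinearAut.divisor_smul_apply, Divisor.pullback_apply,
    h35_restrict_smul (h35_lift_inv h), h35_ramificationIndex_smul (h35_lift_inv h)]

/-- **A lift of `σ` preserves `L_{F'}(π^* E)` when `σ • E = E`.** -/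
theorem h35_smul_mem_rr_pullback {σ : SemilinearAut K F} {σ' : SemilinearAut K F'}
    (h : ∀ f : F, σ' • algebraMap F F' f = algebraMap F F' (σ • f)) (E : Divisor K F)
    (hE : σ • E = E) {f : F'} (hf : f ∈ riemannRochSpace (Divisor.pullback F' E)) :
    σ' • f ∈ riemannRochSpace (Divisor.pullback F' E) := by
  have h1 := h51_smul_mem_rr σ' hf
  rw [← h35_pullback_smul h, hE] at h1
  exact h1

/-- **Stability of `red' (L_{F'}(π^* E) ∩ O')`**: if the lift `σ'` preserves `O'` and acts on the
reductions through `T`, then `T` preserves `h51_Rd D' (π^* E)`. -/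
theorem h35_Rd_stable {k Rb' : Type*} [Field k] [CommRing Rb'] [Algebra k Rb']
    (D' : h22_Lat K F' k Rb') {σ : SemilinearAut K F} {σ' : SemilinearAut K F'}
    (h : ∀ f : F, σ' • algebraMap F F' f = algebraMap F F' (σ • f)) (E : Divisor K F)
    (hE : σ • E = E) (T : Rb' → Rb')
    (hT : ∀ f : F', f ∈ D'.O → σ' • f ∈ D'.O ∧ D'.redF (σ' • f) = T (D'.redF f)) :
    ∀ a ∈ h51_Rd D' (Divisor.pullback F' E), T a ∈ h51_Rd D' (Divisor.pullback F' E) := by
  rintro a ⟨f, hf, hfO, rfl⟩
  exact ⟨σ' • f, h35_smul_mem_rr_pullback h E hE hf, (hT f hfO).1, (hT f hfO).2⟩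

end Generic

section AlgAut

variable {K F F' : Type*} [Field K] [Field F] [Field F'] [Algebra K F] [Algebra K F']
  [Algebra F F'] [IsScalarTower K F F']

/-- An `F`-algebra automorphism of `F'` as a `K`-semilinear automorphism (trivial on `K`). -/
def h35_algAut (g : F' ≃ₐ[F] F') : SemilinearAut K F' :=
  SemilinearAut.ofAlgAut (g.restrictScalars K)

theorem h35_algAut_smul (g : F' ≃ₐ[F] F') (f : F') : (h35_algAut (K := K) g) • f = g f := rfl

/-- it lifts the identity of `F` -/
theorem h35_algAut_lift (g : F' ≃ₐ[F] F') (f : F) :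
    (h35_algAut (K := K) g) • algebraMap F F' f = algebraMap F F' ((1 : SemilinearAut K F) • f) := by
  rw [h35_algAut_smul, one_smul]
  exact g.commutes f

variable [Algebra.IsIntegral F F'] [HasPrincipalDivisors K F']

/-- An `F`-automorphism of `F'` preserves `L_{F'}(π^* E)`. -/
theorem h35_algAut_mem_rr_pullback (g : F' ≃ₐ[F] F') (E : Divisor K F) {f : F'}
    (hf : f ∈ riemannRochSpace (Divisor.pullback F' E)) :
    g f ∈ riemannRochSpace (Divisor.pullback F' E) := by
  have h := h35_smul_mem_rr_pullback (σ := (1 : SemilinearAut K F))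
    (σ' := h35_algAut (K := K) g) (h35_algAut_lift g) E (one_smul _ E) hf
  rwa [h35_algAut_smul] at h

/-- Stability of `red' (L_{F'}(π^* E) ∩ O')` under an `F`-automorphism acting on the reductions
through `T`. -/
theorem h35_algAut_Rd_stable {k Rb' : Type*} [Field k] [CommRing Rb'] [Algebra k Rb']
    (D' : h22_Lat K F' k Rb') (g : F' ≃ₐ[F] F') (E : Divisor K F) (T : Rb' → Rb')
    (hT : ∀ f : F', f ∈ D'.O → g f ∈ D'.O ∧ D'.redF (g f) = T (D'.redF f)) :
    ∀ a ∈ h51_Rd D' (Divisor.pullback F' E), T a ∈ h51_Rd D' (Divisor.pullback F' E) := by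
  rintro a ⟨f, hf, hfO, rfl⟩
  exact ⟨g f, h35_algAut_mem_rr_pullback g E hf, (hT f hfO).1, (hT f hfO).2⟩

end AlgAut

end Fermat.Agent.S33
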