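import Mathlib
import Fermat.Agent.S33.h15_ASSheet
import Fermat.Agent.S33.h35_PullEquiv

/-!
# S33 (N2), row R9 (TAU), glue: a semilinear lift of the inertia element stabilises the
reductions of `L'(n π^* D0) ∩ O'` through affine sheet maps

`S := h15_asInst ..` the Artin–Schreier model of `F' = F(θ)`, `θ^p = 1 + (ζ-1)^p h`.
Given a `K`-semilinear automorphism `g'` of `F` preserving `O`, the reduction and `D0`, with
`g' ζ = ζ^c`, and a lift `τ'` to `F'` with `τ' θ = H θ`, `H ∈ F`: there are sheet maps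
`s1, s2 : Fin p → Fin p`, `c · s_i(a) = a + β_i`, such that `f ↦ (a ↦ ((f (s1 a)).1, (f (s2 a)).2))`
preserves `h51_Rd S.lat (n • π^* D0)` for all `n`.
(= `h85sk_tau_stab` of the N-min skeleton, with the lift as a hypothesis.)
-/

set_option autoImplicit false

noncomputable section

open AlgebraicCurve

namespace Fermat.Agent.S33

open Fermat.Agent.S34

variable {K F k Fb : Type*} [Field K] [Field F] [Algebra K F] [Field k] [Field Fb] [Algebra k Fb]
variable {F' : Type*} [Field F'] [Algebra F F'] [Algebra K F'] [IsScalarTower K F F']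
variable [Algebra.IsIntegral F F'] [HasPrincipalDivisors K F']

theorem h15_tau_stab_of_lift (D : h22_Lat K F k (Fb × Fb)) (p : ℕ) [hp : Fact p.Prime]
    [CharP k p] {ζ : K} (hζ : IsPrimitiveRoot ζ p) (h : D.O) (hred : D.red h = 0) (θ : F')
    (hθ : θ ^ p - 1 = algebraMap K F' ((ζ - 1) ^ p) * algebraMap F F' (h : F))
    (hli : LinearIndependent F (fun j : Fin p => θ ^ (j : ℕ)))
    (hspan : ∀ f : F', ∃ c : Fin p → F, f = ∑ j, algebraMap F F' (c j) * θ ^ (j : ℕ))
    (g' : SemilinearAut K F) (hgO : ∀ f, f ∈ D.O → g' • f ∈ D.O)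
    (hgred : ∀ f, f ∈ D.O → D.redF (g' • f) = D.redF f)
    (D0 : Divisor K F) (hgD0 : g' • D0 = D0)
    (c : ℕ) (hgζ : SemilinearAut.baseAut g' ζ = ζ ^ c)
    (τ' : SemilinearAut K F')
    (hlift : ∀ f : F, τ' • algebraMap F F' f = algebraMap F F' (g' • f))
    (H : F) (hτθ : τ' • θ = algebraMap F F' H * θ) :
    ∃ (s1 s2 : Fin p → Fin p) (β1 β2 : k),
      (∀ a, (c : k) * (h15_asInst D p hζ h hred θ hθ hli hspan).r (s1 a) =
        (h15_asInst D p hζ h hred θ hθ hli hspan).r a + β1) ∧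
      (∀ a, (c : k) * (h15_asInst D p hζ h hred θ hθ hli hspan).r (s2 a) =
        (h15_asInst D p hζ h hred θ hθ hli hspan).r a + β2) ∧
      ∀ n : ℕ, ∀ f ∈ h51_Rd (h15_asInst D p hζ h hred θ hθ hli hspan).lat
          (n • Divisor.pullback F' D0),
        (fun a => ((f (s1 a)).1, (f (s2 a)).2)) ∈
          h51_Rd (h15_asInst D p hζ h hred θ hθ hli hspan).lat (n • Divisor.pullback F' D0) := by
  set S := h15_asInst D p hζ h hred θ hθ hli hspan with hS
  -- `p ∤ c`
  have hc : ¬ p ∣ c := by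
    intro hdvd
    have h1 : ζ ^ c = 1 := (hζ.pow_eq_one_iff_dvd c).mpr hdvd
    rw [h1] at hgζ
    have h2 : ζ = 1 := by
      have := (SemilinearAut.baseAut g').injective (hgζ.trans (map_one _).symm)
      exact this
    exact hζ.ne_one hp.out.one_lt h2
  -- the ring homomorphisms
  have hσO : ∀ x ∈ D.O, ((SemilinearAut.toRingAut g' : F ≃+* F) : F →+* F) x ∈ D.O :=
    fun x hx => hgO x hx
  have hσred : ∀ x (hx : x ∈ D.O),
      D.red ⟨((SemilinearAut.toRingAut g' : F ≃+* F) : F →+* F) x, hσO x hx⟩ = D.red ⟨x, hx⟩ := by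
    intro x hx
    have h1 := hgred x hx
    rw [D.redF_of_mem (hgO x hx), D.redF_of_mem hx] at h1
    exact h1
  have hσζ : ((SemilinearAut.toRingAut g' : F ≃+* F) : F →+* F) (algebraMap K F ζ) =
      algebraMap K F (ζ ^ c) := by
    have h1 := SemilinearAut.commutes g' ζ
    rw [hgζ] at h1
    exact h1
  have hψ : ∀ x, ((SemilinearAut.toRingAut τ' : F' ≃+* F') : F' →+* F') (algebraMap F F' x) =
      algebraMap F F' (((SemilinearAut.toRingAut g' : F ≃+* F) : F →+* F) x) := hlift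
  have hψθ : ((SemilinearAut.toRingAut τ' : F' ≃+* F') : F' →+* F') θ = θ * algebraMap F F' H := by
    rw [mul_comm]
    exact hτθ
  obtain ⟨s1, s2, β1, β2, hs1, hs2, hact⟩ := h15_asInst_sheet_perm_two D p hζ h hred θ hθ hli
    hspan _ _ hψ hσO hσred c hc hσζ H hψθ
  refine ⟨s1, s2, β1, β2, hs1, hs2, ?_⟩
  intro n f hf
  rw [← map_nsmul] at hf ⊢
  have hE : g' • (n • D0) = n • D0 := by
    rw [smul_comm, hgD0]
  refine h35_Rd_stable S.lat hlift (n • D0) hE
    (fun f a => ((f (s1 a)).1, (f (s2 a)).2)) ?_ f hf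
  intro f' hf'
  obtain ⟨hm, hval⟩ := hact f' hf'
  refine ⟨hm, ?_⟩
  rw [S.lat.redF_of_mem (show τ' • f' ∈ S.lat.O from hm), S.lat.redF_of_mem hf']
  funext a
  exact hval a

end Fermat.Agent.S33
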