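import Mathlib
import Fermat.Agent.S34.h34_CoverCount
import Fermat.Agent.S34.h20_ChartSF

/-!
# S33 / (N2) COUNT (helper19): the dimension count for a cover lattice

Generic (no modular input).  `F'/F` an integral extension of function fields over an algebraically
closed `K`, `xF` a chart of `F`, `D'` a lattice datum on `F'` with orthonormal bases
(`h22_ON D'`), `t a ∈ F'` (`a ∈ ι`) linearly independent over `F` with
`div_{F'} (t a) = π^* (Dt a)`, `deg (Dt a) = 0` (the Kummer monomials `θ^j`).  Then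

* `h19_cover_count_rr` : `card ι * (deg E + 1 - g_F) ≤ dim_k red' (L_{F'}(π^* E) ∩ O')`
  (`h34_cover_count_deg_zero` + `h51_finrank_Rd`);
* `h19_finrank_P` : `dim_k (L(n Qinf) × L(n Qinf)) = 2 (n + 1 - g_b)` for `n ≥ 2 g_b`;
* `h19_cover_count` : for `deg D0 = 2` and `n ≥ 2 g_b`
  `card ι * dim P(n) ≤ dim_k red' (L_{F'}(n π^* D0) ∩ O') + card ι * (g_F - 2 g_b + 1)`;
* `h19_cover_count_nat` : the same in `ℕ` with `g_F - 2 g_b + 1 = c` (the number of nodes), i.e.
  the hypothesis `hcount` of the node row of the cover;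
* `h19_cover_count_chart`, `h19_cover_count_nat_chart` : the same with the finiteness of the
  Riemann-Roch spaces of `F'` taken from a chart of `F'`.
-/

set_option autoImplicit false

noncomputable section

open AlgebraicCurve Module

namespace Fermat.Agent.S33

open Fermat.Agent.S18 Fermat.Agent.S27 Fermat.Agent.S34

/-- `dim (L × L) = dim L + dim L` for a submodule `L`. -/
theorem h19_finrank_prod_self {k V : Type*} [Field k] [AddCommGroup V] [Module k V]
    (L : Submodule k V) [FiniteDimensional k L] :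
    finrank k (L.prod L) = finrank k L + finrank k L := by
  have e : (L.prod L) ≃ₗ[k] (L × L) :=
    { toFun := fun x => (⟨x.1.1, x.2.1⟩, ⟨x.1.2, x.2.2⟩)
      invFun := fun y => ⟨(y.1.1, y.2.1), ⟨y.1.2, y.2.2⟩⟩
      map_add' := fun _ _ => rfl
      map_smul' := fun _ _ => rfl
      left_inv := fun _ => rfl
      right_inv := fun _ => rfl }
  rw [e.finrank_eq, Module.finrank_prod]

section Base

variable {k Fb : Type*} [Field k] [IsAlgClosed k] [Field Fb] [Algebra k Fb]

/-- `dim_k (L(n Qinf) × L(n Qinf)) = 2 (n + 1 - g_b)` for `n ≥ 2 g_b`. -/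
theorem h19_finrank_P {xb : Fb} (hxb : h75_IsChart k xb) (Qinf : Place k Fb) (n : ℕ)
    (hn : 2 * h75_genus k xb ≤ n) :
    (finrank k (h20_P Qinf n) : ℤ) = 2 * ((n : ℤ) + 1 - h75_genus k xb) := by
  have hf : FiniteDimensional k (riemannRochSpace (h20_Dinf Qinf n)) := (h75_riemann hxb _).1
  have hd : Divisor.degree (h20_Dinf Qinf n) = (n : ℤ) := by
    unfold h20_Dinf
    rw [map_nsmul, Divisor.degree_single, h75_deg_eq_one hxb Qinf, nsmul_eq_mul]
    push_cast
    ring
  have hg : 2 * (h75_genus k xb : ℤ) ≤ n := by exact_mod_cast hn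
  have h2 := h15_finrank_rr_of_deg hxb (h20_Dinf Qinf n) (by rw [hd]; linarith)
  rw [hd] at h2
  unfold h20_P
  rw [h19_finrank_prod_self]
  push_cast
  rw [h2]
  ring

end Base

variable {K F F' : Type*} [Field K] [Field F] [Field F']
  [Algebra K F] [Algebra K F'] [Algebra F F'] [IsScalarTower K F F']
  [Algebra.IsIntegral F F'] [HasPrincipalDivisors K F'] [IsAlgClosed K]

/-- (COUNT), lattice form: `card ι * (deg E + 1 - g_F) ≤ dim_k red' (L_{F'}(π^* E) ∩ O')`. -/
theorem h19_cover_count_rr {k Rb' : Type*} [Field k] [CommRing Rb'] [Algebra k Rb']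
    {xF : F} (hxF : h75_IsChart K xF) {ι : Type*} [Fintype ι]
    (D' : h22_Lat K F' k Rb') (hON' : h22_ON D')
    (t : ι → F') (hli : LinearIndependent F t) (Dt : ι → Divisor K F)
    (hdeg : ∀ a, Divisor.degree (Dt a) = 0)
    (hDt : ∀ (a : ι) (w : Place K F'), w.ord (t a) = Divisor.pullback F' (Dt a) w)
    (E : Divisor K F) (hfin : Module.Finite K ↥(riemannRochSpace (Divisor.pullback F' E))) :
    (Fintype.card ι : ℤ) * (Divisor.degree E + 1 - (h75_genus K xF : ℤ)) ≤
      (finrank k (h51_Rd D' (Divisor.pullback F' E)) : ℤ) := by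
  haveI : FiniteDimensional K ↥(riemannRochSpace (Divisor.pullback F' E)) := hfin
  rw [h51_finrank_Rd D' hON']
  exact h34_cover_count_deg_zero hxF t hli Dt hdeg hDt E hfin

variable {k Fb : Type*} [Field k] [IsAlgClosed k] [Field Fb] [Algebra k Fb]

/-- (COUNT) for the cover lattice, `ℤ`-form: for `deg D0 = 2` and `n ≥ 2 g_b`,
`card ι * dim P(n) ≤ dim_k red' (L_{F'}(n π^* D0) ∩ O') + card ι * (g_F - 2 g_b + 1)`. -/
theorem h19_cover_count {Rb' : Type*} [CommRing Rb'] [Algebra k Rb']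
    {xF : F} (hxF : h75_IsChart K xF) {xb : Fb} (hxb : h75_IsChart k xb)
    (D0 : Divisor K F) (hdegD0 : Divisor.degree D0 = 2)
    {ι : Type*} [Fintype ι] (D' : h22_Lat K F' k Rb') (hON' : h22_ON D')
    (t : ι → F') (hli : LinearIndependent F t) (Dt : ι → Divisor K F)
    (hdeg : ∀ a, Divisor.degree (Dt a) = 0)
    (hDt : ∀ (a : ι) (w : Place K F'), w.ord (t a) = Divisor.pullback F' (Dt a) w)
    (hfin : ∀ n : ℕ, Module.Finite K ↥(riemannRochSpace (n • Divisor.pullback F' D0)))
    (Qinf : Place k Fb) (n : ℕ) (hn : 2 * h75_genus k xb ≤ n) :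
    (Fintype.card ι : ℤ) * (finrank k (h20_P Qinf n) : ℤ) ≤
      (finrank k (h51_Rd D' (n • Divisor.pullback F' D0)) : ℤ) +
        (Fintype.card ι : ℤ) * ((h75_genus K xF : ℤ) - 2 * h75_genus k xb + 1) := by
  have hpb : Divisor.pullback F' (n • D0) = n • Divisor.pullback F' D0 := map_nsmul _ _ _
  have hfin' : Module.Finite K ↥(riemannRochSpace (Divisor.pullback F' (n • D0))) := by
    rw [hpb]
    exact hfin n
  have h1 := h19_cover_count_rr (k := k) hxF D' hON' t hli Dt hdeg hDt (n • D0) hfin'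
  rw [hpb] at h1
  have hd1 : Divisor.degree (n • D0) = 2 * (n : ℤ) := by
    rw [map_nsmul, hdegD0, nsmul_eq_mul]
    ring
  rw [hd1] at h1
  rw [h19_finrank_P hxb Qinf n hn]
  have hc : (0 : ℤ) ≤ (Fintype.card ι : ℤ) := Int.natCast_nonneg _
  nlinarith [h1]

/-- (COUNT) for the cover lattice, `ℕ`-form with `c` nodes (`c = g_F - 2 g_b + 1`): the
hypothesis `hcount` of the node row of the cover, with `D0' := π^* D0`. -/
theorem h19_cover_count_nat {Rb' : Type*} [CommRing Rb'] [Algebra k Rb']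
    {xF : F} (hxF : h75_IsChart K xF) {xb : Fb} (hxb : h75_IsChart k xb)
    (D0 : Divisor K F) (hdegD0 : Divisor.degree D0 = 2)
    {ι : Type*} [Fintype ι] (D' : h22_Lat K F' k Rb') (hON' : h22_ON D')
    (t : ι → F') (hli : LinearIndependent F t) (Dt : ι → Divisor K F)
    (hdeg : ∀ a, Divisor.degree (Dt a) = 0)
    (hDt : ∀ (a : ι) (w : Place K F'), w.ord (t a) = Divisor.pullback F' (Dt a) w)
    (hfin : ∀ n : ℕ, Module.Finite K ↥(riemannRochSpace (n • Divisor.pullback F' D0)))
    (Qinf : Place k Fb) (c : ℕ)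
    (hc : (c : ℤ) = (h75_genus K xF : ℤ) - 2 * h75_genus k xb + 1) :
    ∀ n, 2 * h75_genus k xb ≤ n →
      Fintype.card ι * finrank k (h20_P Qinf n) ≤
        finrank k (h51_Rd D' (n • Divisor.pullback F' D0)) + Fintype.card ι * c := by
  intro n hn
  have h := h19_cover_count hxF hxb D0 hdegD0 D' hON' t hli Dt hdeg hDt hfin Qinf n hn
  rw [← hc] at h
  exact_mod_cast h

/-- `h19_cover_count` with the finiteness taken from a chart of `F'`. -/
theorem h19_cover_count_chart {Rb' : Type*} [CommRing Rb'] [Algebra k Rb']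
    {xF : F} (hxF : h75_IsChart K xF) {xb : Fb} (hxb : h75_IsChart k xb)
    {x' : F'} (hx' : h75_IsChart K x')
    (D0 : Divisor K F) (hdegD0 : Divisor.degree D0 = 2)
    {ι : Type*} [Fintype ι] (D' : h22_Lat K F' k Rb') (hON' : h22_ON D')
    (t : ι → F') (hli : LinearIndependent F t) (Dt : ι → Divisor K F)
    (hdeg : ∀ a, Divisor.degree (Dt a) = 0)
    (hDt : ∀ (a : ι) (w : Place K F'), w.ord (t a) = Divisor.pullback F' (Dt a) w)
    (Qinf : Place k Fb) (n : ℕ) (hn : 2 * h75_genus k xb ≤ n) :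
    (Fintype.card ι : ℤ) * (finrank k (h20_P Qinf n) : ℤ) ≤
      (finrank k (h51_Rd D' (n • Divisor.pullback F' D0)) : ℤ) +
        (Fintype.card ι : ℤ) * ((h75_genus K xF : ℤ) - 2 * h75_genus k xb + 1) :=
  h19_cover_count hxF hxb D0 hdegD0 D' hON' t hli Dt hdeg hDt
    (fun m => (h75_riemann hx' _).1) Qinf n hn

/-- `h19_cover_count_nat` with the finiteness taken from a chart of `F'`. -/
theorem h19_cover_count_nat_chart {Rb' : Type*} [CommRing Rb'] [Algebra k Rb']
    {xF : F} (hxF : h75_IsChart K xF) {xb : Fb} (hxb : h75_IsChart k xb)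
    {x' : F'} (hx' : h75_IsChart K x')
    (D0 : Divisor K F) (hdegD0 : Divisor.degree D0 = 2)
    {ι : Type*} [Fintype ι] (D' : h22_Lat K F' k Rb') (hON' : h22_ON D')
    (t : ι → F') (hli : LinearIndependent F t) (Dt : ι → Divisor K F)
    (hdeg : ∀ a, Divisor.degree (Dt a) = 0)
    (hDt : ∀ (a : ι) (w : Place K F'), w.ord (t a) = Divisor.pullback F' (Dt a) w)
    (Qinf : Place k Fb) (c : ℕ)
    (hc : (c : ℤ) = (h75_genus K xF : ℤ) - 2 * h75_genus k xb + 1) :
    ∀ n, 2 * h75_genus k xb ≤ n →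
      Fintype.card ι * finrank k (h20_P Qinf n) ≤
        finrank k (h51_Rd D' (n • Divisor.pullback F' D0)) + Fintype.card ι * c :=
  h19_cover_count_nat hxF hxb D0 hdegD0 D' hON' t hli Dt hdeg hDt
    (fun m => (h75_riemann hx' _).1) Qinf c hc

end Fermat.Agent.S33

end
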