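import Mathlib
import Fermat.Agent.S33.h15_ASLat
import Fermat.Agent.S33.h19_CoverCount
import Fermat.Agent.S34.h20_ChartNode

/-!
# S33 / (N2) row COUNT in the shape of the N-min skeleton (helper19)

* `h19_nodeEv` : the node evaluation `P(n) → k^Sg`, `a ↦ (a.2(Q) - a.1(Φ Q))_Q`;
* `h19_base_node_count` : on the base, if `red (L(n D0) ∩ O)` is cut out of `P(n)` by the node
  conditions at `(Sg, Φ)` and `n ≥ 2 g_b + #Sg`, then `dim P(n) = dim red (L(n D0) ∩ O) + #Sg`;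
* `h19_count` : the row COUNT of the skeleton, verbatim (`hnode` unfolded): for the AS model
  `S : h15_ASData D F' p` and `n ≥ n0`,
  `p * dim P(n) ≤ dim red' (L'(n π^* D0) ∩ O') + p * #Sg`.
-/

set_option autoImplicit false

noncomputable section

open AlgebraicCurve Module Polynomial IntermediateField

namespace Fermat.Agent.S33

open Fermat.Agent.S18 Fermat.Agent.S24 Fermat.Agent.S27 Fermat.Agent.S34

variable {K F k Fb : Type*} [Field K] [Field F] [Algebra K F] [Field k] [Field Fb] [Algebra k Fb]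

section Base

variable [IsAlgClosed k] {xb : Fb} (hx : h75_IsChart k xb) (Qinf : Place k Fb)
  (Sg : Finset (Place k Fb)) (Φ : Place k Fb → Place k Fb)
  (hSg : ∀ Q ∈ Sg, Q ≠ Qinf ∧ Φ Q ≠ Qinf)

/-- The node evaluation `P(n) → k^Sg`: the difference of the values at the two branches. -/
def h19_nodeEv (n : ℕ) : ↥(h20_P Qinf n) →ₗ[k] ({Q // Q ∈ Sg} → k) where
  toFun a ν :=
    h20_e2 hx Qinf (h20_nodeQ2 Sg) (h20_nodeQ2_ne Qinf Sg Φ hSg) ν
        ⟨a.1, h20_P_le_Bs Qinf n a.1 a.2⟩ -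
      h20_e1 hx Qinf (h20_nodeQ1 Sg Φ) (h20_nodeQ1_ne Qinf Sg Φ hSg) ν
        ⟨a.1, h20_P_le_Bs Qinf n a.1 a.2⟩
  map_add' a b := by
    funext ν
    have h : (⟨(a + b).1, h20_P_le_Bs Qinf n (a + b).1 (a + b).2⟩ : h20_Bs Qinf) =
        ⟨a.1, h20_P_le_Bs Qinf n a.1 a.2⟩ + ⟨b.1, h20_P_le_Bs Qinf n b.1 b.2⟩ := rfl
    simp only [Pi.add_apply]
    rw [h, map_add, map_add]
    ring
  map_smul' c a := by
    funext ν
    have h : (⟨(c • a).1, h20_P_le_Bs Qinf n (c • a).1 (c • a).2⟩ : h20_Bs Qinf) =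
        c • ⟨a.1, h20_P_le_Bs Qinf n a.1 a.2⟩ := rfl
    simp only [Pi.smul_apply, RingHom.id_apply, smul_eq_mul]
    rw [h, map_smul, map_smul, smul_eq_mul, smul_eq_mul]
    ring

theorem h19_nodeEv_apply (n : ℕ) (a : ↥(h20_P Qinf n)) (ν : {Q // Q ∈ Sg}) :
    h19_nodeEv hx Qinf Sg Φ hSg n a ν =
      h20_e2 hx Qinf (h20_nodeQ2 Sg) (h20_nodeQ2_ne Qinf Sg Φ hSg) ν
          ⟨a.1, h20_P_le_Bs Qinf n a.1 a.2⟩ -
        h20_e1 hx Qinf (h20_nodeQ1 Sg Φ) (h20_nodeQ1_ne Qinf Sg Φ hSg) ν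
          ⟨a.1, h20_P_le_Bs Qinf n a.1 a.2⟩ := rfl

theorem h19_nodeEv_surjective (hΦ : Function.Injective Φ) (n : ℕ)
    (hn : 2 * h75_genus k xb + Sg.card ≤ n) :
    Function.Surjective (h19_nodeEv hx Qinf Sg Φ hSg n) := by
  intro t
  obtain ⟨a, h, h1, h2⟩ := h20_chart_hind_nodes hx Qinf Sg Φ hSg hΦ n hn 0 t
  refine ⟨⟨a, h⟩, ?_⟩
  funext ν
  rw [h19_nodeEv_apply, h1 ν, h2 ν, Pi.zero_apply, sub_zero]

theorem h19_mem_ker_nodeEv (n : ℕ) (a : ↥(h20_P Qinf n)) :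
    a ∈ LinearMap.ker (h19_nodeEv hx Qinf Sg Φ hSg n) ↔
      ∀ Q ∈ Sg, ∃ c : k, h39_Val (Φ Q) a.1.1 c ∧ h39_Val Q a.1.2 c := by
  rw [LinearMap.mem_ker, h20_node_iff hx Qinf Sg Φ hSg n a.1 a.2]
  constructor
  · intro h ν
    have h' := congrFun h ν
    rw [h19_nodeEv_apply, Pi.zero_apply, sub_eq_zero] at h'
    exact h'
  · intro h
    funext ν
    rw [h19_nodeEv_apply, Pi.zero_apply, sub_eq_zero]
    exact h ν

include hx hSg in
/-- The base node count: `dim P(n) = dim red (L(n D0) ∩ O) + #Sg`. -/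
theorem h19_base_node_count (hΦ : Function.Injective Φ)
    (D : h22_Lat K F k (Fb × Fb)) (D0 : Divisor K F) (n : ℕ)
    (hn : 2 * h75_genus k xb + Sg.card ≤ n)
    (hnode : ∀ a : Fb × Fb, a ∈ h51_Rd D (n • D0) ↔
      (a ∈ h20_P Qinf n ∧ ∀ Q ∈ Sg, ∃ c : k, h39_Val (Φ Q) a.1 c ∧ h39_Val Q a.2 c)) :
    finrank k (h20_P Qinf n) = finrank k (h51_Rd D (n • D0)) + Sg.card := by
  haveI : FiniteDimensional k (h20_P Qinf n) := h20_P_finite hx Qinf n
  have hker : (LinearMap.ker (h19_nodeEv hx Qinf Sg Φ hSg n)).map (h20_P Qinf n).subtype =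
      h51_Rd D (n • D0) := by
    ext a
    rw [hnode a]
    constructor
    · rintro ⟨b, hb, rfl⟩
      exact ⟨b.2, (h19_mem_ker_nodeEv hx Qinf Sg Φ hSg n b).mp hb⟩
    · rintro ⟨haP, hc⟩
      exact ⟨⟨a, haP⟩, (h19_mem_ker_nodeEv hx Qinf Sg Φ hSg n ⟨a, haP⟩).mpr hc, rfl⟩
  have h1 := LinearMap.finrank_range_add_finrank_ker (h19_nodeEv hx Qinf Sg Φ hSg n)
  have h2 : LinearMap.range (h19_nodeEv hx Qinf Sg Φ hSg n) = ⊤ :=
    LinearMap.range_eq_top.mpr (h19_nodeEv_surjective hx Qinf Sg Φ hSg hΦ n hn)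
  rw [h2, finrank_top, Module.finrank_fintype_fun_eq_card, Fintype.card_coe,
    ← Submodule.finrank_map_subtype_eq, hker] at h1
  omega

end Base

section Cover

variable {F' : Type*} [Field F'] [Algebra F F'] [Algebra K F'] [IsScalarTower K F F']
variable [Algebra.IsIntegral F F'] [HasPrincipalDivisors K F']
variable {p : ℕ} {D : h22_Lat K F k (Fb × Fb)} (S : h15_ASData D F' p)

/-- **ROW COUNT** of the N-min skeleton (`hcount` of the node row of the cover). -/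
theorem h19_count [IsAlgClosed K] [IsAlgClosed k] {xF : F} (hxF : h75_IsChart K xF)
    {xb : Fb} (hxb : h75_IsChart k xb) (hON : h22_ON D) (hON' : h22_ON S.lat)
    (hfin' : ∀ B : Divisor K F', Module.Finite K (riemannRochSpace B))
    (D0 : Divisor K F) (hD0 : ∀ v, 0 ≤ D0 v) (hdegD0 : 1 ≤ Divisor.degree D0)
    (Qinf : Place k Fb) (Sg : Finset (Place k Fb)) (Φ : Place k Fb → Place k Fb)
    (hΦ : Function.Injective Φ) (hSg : ∀ Q ∈ Sg, Q ≠ Qinf ∧ Φ Q ≠ Qinf)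
    (n0 : ℕ) (hn0F : 2 * h75_genus K xF ≤ n0) (hn0b : 2 * h75_genus k xb + Sg.card ≤ n0)
    (hnode : ∀ n, n0 ≤ n → ∀ a : Fb × Fb, a ∈ h51_Rd D (n • D0) ↔
      (a ∈ h20_P Qinf n ∧ ∀ Q ∈ Sg, ∃ c : k, h39_Val (Φ Q) a.1 c ∧ h39_Val Q a.2 c))
    (θ : F') (hli : LinearIndependent F (fun j : Fin p => θ ^ (j : ℕ)))
    (E₀ : Divisor K F) (hE₀ : Divisor.degree E₀ = 0)
    (hθ : ∀ w : Place K F', w.ord θ = Divisor.pullback F' E₀ w) :
    ∀ n, n0 ≤ n → p * Module.finrank k (h20_P Qinf n) ≤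
      Module.finrank k (h51_Rd S.lat (n • Divisor.pullback F' D0)) + p * Sg.card := by
  intro n hn
  -- the base
  have hbase := h19_base_node_count hxb Qinf Sg Φ hSg hΦ D D0 n (hn0b.trans hn) (hnode n hn)
  haveI hfinF : FiniteDimensional K (riemannRochSpace (n • D0)) := (h75_riemann hxF _).1
  have hRd : finrank k (h51_Rd D (n • D0)) = finrank K (riemannRochSpace (n • D0)) :=
    h51_finrank_Rd D hON (n • D0)
  have hdeg : Divisor.degree (n • D0) = (n : ℤ) * Divisor.degree D0 := by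
    rw [map_nsmul, nsmul_eq_mul]
  have hn1 : (2 * h75_genus K xF : ℤ) ≤ (n : ℤ) := by exact_mod_cast hn0F.trans hn
  have hn0' : (0 : ℤ) ≤ (n : ℤ) := Int.natCast_nonneg n
  have hlt : 2 * (h75_genus K xF : ℤ) - 2 < Divisor.degree (n • D0) := by
    rw [hdeg]
    nlinarith
  have hrr := h15_finrank_rr_of_deg hxF (n • D0) hlt
  -- the cover
  have hpb : Divisor.pullback F' (n • D0) = n • Divisor.pullback F' D0 := map_nsmul _ _ _
  have hcov := h19_cover_count_rr (k := k) hxF S.lat hON' (fun j : Fin p => θ ^ (j : ℕ)) hli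
    (fun j : Fin p => (j : ℕ) • E₀) (fun j => by rw [map_nsmul, hE₀, smul_zero])
    (fun j w => by
      rw [← zpow_natCast, w.ord_zpow, hθ w, map_nsmul, Finsupp.smul_apply, nsmul_eq_mul])
    (n • D0) (hfin' _)
  rw [hpb, Fintype.card_fin] at hcov
  have hfinal : (p : ℤ) * (finrank k (h20_P Qinf n) : ℤ) ≤
      (finrank k (h51_Rd S.lat (n • Divisor.pullback F' D0)) : ℤ) + (p : ℤ) * (Sg.card : ℤ) := by
    rw [hbase, hRd]
    push_cast
    rw [hrr]
    linarith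
  exact_mod_cast hfinal

end Cover

end Fermat.Agent.S33

end
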