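import Mathlib
import Fermat.Agent.S33.h19_CoverCount

/-!
# S33 / (N2) COUNT, Kummer instance (helper19)

`F'/F` an integral extension of function fields over `K`, `θ ∈ F'` with `θ ^ m = u ∈ F`,
`div_F u = m E`.  Then `div_{F'} θ = π^* E`, `div_{F'} (θ ^ j) = π^* (j E)`, and the monomials
`θ ^ j` (`j < d`, linearly independent over `F`) feed the count `h19_cover_count_nat`:

* `h19_kummer_ord` : `w.ord θ = (π^* E) w`;
* `h19_kummer_ord_pow` : `w.ord (θ ^ j) = (π^* (j • E)) w`;
* `h19_cover_count_kummer` : `d * dim P(n) ≤ dim_k red' (L_{F'}(n π^* D0) ∩ O') + d * c`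
  for `n ≥ 2 g_b` (`c = g_F - 2 g_b + 1` the number of nodes of the base);
* `h19_cover_count_kummer_card` : the same with `d` replaced by `Fintype.card ι` for a type of
  sheets `ι` with `Fintype.card ι = d`.
-/

set_option autoImplicit false

noncomputable section

open AlgebraicCurve Module

namespace Fermat.Agent.S33

open Fermat.Agent.S18 Fermat.Agent.S27 Fermat.Agent.S34

variable {K F F' : Type*} [Field K] [Field F] [Field F']
  [Algebra K F] [Algebra K F'] [Algebra F F'] [IsScalarTower K F F']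
  [Algebra.IsIntegral F F'] [HasPrincipalDivisors K F']

/-- `div_{F'} θ = π^* E` when `θ ^ m = u ∈ F` and `div_F u = m E`. -/
theorem h19_kummer_ord {θ : F'} {u : F} {m : ℕ} (hm : m ≠ 0)
    (hθ : θ ^ m = algebraMap F F' u) (E : Divisor K F)
    (hE : ∀ v : Place K F, (m : ℤ) * E v = v.ord u) (w : Place K F') :
    w.ord θ = Divisor.pullback F' E w := by
  have h1 : w.ord (θ ^ m) = (m : ℤ) * w.ord θ := by
    rw [← zpow_natCast, w.ord_zpow]
  rw [hθ, w.ord_restrict, ← hE] at h1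
  rw [Divisor.pullback_apply]
  have hm' : (m : ℤ) ≠ 0 := by exact_mod_cast hm
  have h2 : (m : ℤ) * w.ord θ =
      (m : ℤ) * ((w.ramificationIndex F : ℤ) * E (w.restrict F)) := by
    rw [← h1]
    ring
  exact mul_left_cancel₀ hm' h2

/-- `div_{F'} (θ ^ j) = π^* (j E)` when `θ ^ m = u ∈ F` and `div_F u = m E`. -/
theorem h19_kummer_ord_pow {θ : F'} {u : F} {m : ℕ} (hm : m ≠ 0)
    (hθ : θ ^ m = algebraMap F F' u) (E : Divisor K F)
    (hE : ∀ v : Place K F, (m : ℤ) * E v = v.ord u) (j : ℕ) (w : Place K F') :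
    w.ord (θ ^ j) = Divisor.pullback F' (j • E) w := by
  rw [← zpow_natCast, w.ord_zpow, h19_kummer_ord hm hθ E hE w, map_nsmul, Finsupp.smul_apply,
    nsmul_eq_mul]

variable [IsAlgClosed K]
  {k Fb : Type*} [Field k] [IsAlgClosed k] [Field Fb] [Algebra k Fb]

/-- (COUNT) for a Kummer cover: `θ ^ m = u`, `div u = m E`, `deg E = 0`, the monomials `θ ^ j`
(`j < d`) linearly independent over `F`. -/
theorem h19_cover_count_kummer {Rb' : Type*} [CommRing Rb'] [Algebra k Rb']
    {xF : F} (hxF : h75_IsChart K xF) {xb : Fb} (hxb : h75_IsChart k xb)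
    (D0 : Divisor K F) (hdegD0 : Divisor.degree D0 = 2)
    (D' : h22_Lat K F' k Rb') (hON' : h22_ON D')
    {θ : F'} {u : F} {m : ℕ} (hm : m ≠ 0) (hθ : θ ^ m = algebraMap F F' u)
    (E : Divisor K F) (hdegE : Divisor.degree E = 0)
    (hE : ∀ v : Place K F, (m : ℤ) * E v = v.ord u)
    (d : ℕ) (hli : LinearIndependent F (fun j : Fin d => θ ^ (j : ℕ)))
    (hfin : ∀ n : ℕ, Module.Finite K ↥(riemannRochSpace (n • Divisor.pullback F' D0)))
    (Qinf : Place k Fb) (c : ℕ)
    (hc : (c : ℤ) = (h75_genus K xF : ℤ) - 2 * h75_genus k xb + 1) :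
    ∀ n, 2 * h75_genus k xb ≤ n →
      d * finrank k (h20_P Qinf n) ≤
        finrank k (h51_Rd D' (n • Divisor.pullback F' D0)) + d * c := by
  intro n hn
  have h := h19_cover_count_nat hxF hxb D0 hdegD0 D' hON' (fun j : Fin d => θ ^ (j : ℕ)) hli
    (fun j : Fin d => (j : ℕ) • E) (fun j => by rw [map_nsmul, hdegE, smul_zero])
    (fun j w => h19_kummer_ord_pow hm hθ E hE (j : ℕ) w) hfin Qinf c hc n hn
  rwa [Fintype.card_fin] at h

/-- `h19_cover_count_kummer` with `d = Fintype.card ι` for a type of sheets `ι`. -/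
theorem h19_cover_count_kummer_card {Rb' : Type*} [CommRing Rb'] [Algebra k Rb']
    {xF : F} (hxF : h75_IsChart K xF) {xb : Fb} (hxb : h75_IsChart k xb)
    (D0 : Divisor K F) (hdegD0 : Divisor.degree D0 = 2)
    (D' : h22_Lat K F' k Rb') (hON' : h22_ON D')
    {θ : F'} {u : F} {m : ℕ} (hm : m ≠ 0) (hθ : θ ^ m = algebraMap F F' u)
    (E : Divisor K F) (hdegE : Divisor.degree E = 0)
    (hE : ∀ v : Place K F, (m : ℤ) * E v = v.ord u)
    {ι : Type*} [Fintype ι]
    (hli : LinearIndependent F (fun j : Fin (Fintype.card ι) => θ ^ (j : ℕ)))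
    (hfin : ∀ n : ℕ, Module.Finite K ↥(riemannRochSpace (n • Divisor.pullback F' D0)))
    (Qinf : Place k Fb) (c : ℕ)
    (hc : (c : ℤ) = (h75_genus K xF : ℤ) - 2 * h75_genus k xb + 1) :
    ∀ n, 2 * h75_genus k xb ≤ n →
      Fintype.card ι * finrank k (h20_P Qinf n) ≤
        finrank k (h51_Rd D' (n • Divisor.pullback F' D0)) + Fintype.card ι * c :=
  h19_cover_count_kummer hxF hxb D0 hdegD0 D' hON' hm hθ E hdegE hE (Fintype.card ι) hli hfin
    Qinf c hc

end Fermat.Agent.S33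

end
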