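import Mathlib
import Fermat.Agent.S34.h20_NodeFinal
import Fermat.Agent.S34.h98_Pairing
import Fermat.Agent.S34.h19_UnionCodim

/-!
# S33 / (N2) row NODE' (helper20): the nodes of a cover lattice

`Fb / k` the residue function field with chart `xb`, `Qinf` the cusp, `Sg` the nodes of the base
with partner map `Φ` (`h20_ChartNode`).  `D' : h22_Lat K F' k (ι → Fb × Fb)` a lattice datum on a
cover `F'` whose reductions are `ι`-tuples ("sheets") of pairs.  Hypotheses: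

* `hpole` : `red' (L'(n D0') ∩ O')` consists of tuples of pairs in `L(n Qinf) × L(n Qinf)`;
* `hsym`  : at every node `Q` of the base, the polynomials `∏ₐ (X - f_{1,a}(Φ Q))` and
  `∏ₐ (X - f_{2,a}(Q))` coincide (symmetric functions of the sheets satisfy the base node
  conditions);
* `hcount` : `d · dim (L(n Qinf) × L(n Qinf)) ≤ dim red' (L'(n D0') ∩ O') + d · #Sg`.

Conclusion (`h20_cover_node`): there are bijections `σ ν` of the sheets, one for each node, with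

  `f ∈ red' (L'(n D0') ∩ O') ↔ (∀ a, f a ∈ L(n Qinf)²) ∧ ∀ Q ∈ Sg, ∀ a, f_{1,a}(Φ Q) = f_{2,σ_Q a}(Q)`

for all large `n`.
-/

set_option autoImplicit false

noncomputable section

open AlgebraicCurve Module Polynomial

namespace Fermat.Agent.S33

open Fermat.Agent.S34 Fermat.Agent.S18 Fermat.Agent.S24 Fermat.Agent.S27

variable {K F' k Fb : Type*} [Field K] [Field F'] [Algebra K F'] [Field k] [Field Fb] [Algebra k Fb]

/-! ### Sheetwise objects -/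

section Sheets

variable (Qinf : Place k Fb) (ι : Type*)

/-- Tuples of pairs in `L(n Qinf) × L(n Qinf)`. -/
def h20_PPi (n : ℕ) : Submodule k (ι → Fb × Fb) :=
  Submodule.pi Set.univ (fun _ => h20_P Qinf n)

/-- Tuples of pairs of functions regular off `Qinf`. -/
def h20_BsPi : Subalgebra k (ι → Fb × Fb) :=
  Subalgebra.pi Set.univ (fun _ => h20_Bs Qinf)

variable {Qinf ι}

theorem h20_mem_PPi {n : ℕ} {f : ι → Fb × Fb} :
    f ∈ h20_PPi Qinf ι n ↔ ∀ a, f a ∈ h20_P Qinf n :=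
  ⟨fun h a => h a (Set.mem_univ a), fun h a _ => h a⟩

theorem h20_mem_BsPi {f : ι → Fb × Fb} :
    f ∈ h20_BsPi Qinf ι ↔ ∀ a, f a ∈ h20_Bs Qinf :=
  ⟨fun h a => h a (Set.mem_univ a), fun h a _ => h a⟩

variable (Qinf ι)

theorem h20_PPi_le_BsPi (n : ℕ) : ∀ f ∈ h20_PPi Qinf ι n, f ∈ h20_BsPi Qinf ι :=
  fun f hf => h20_mem_BsPi.mpr fun a => h20_P_le_Bs Qinf n (f a) (h20_mem_PPi.mp hf a)

theorem h20_PPi_mono : Monotone (h20_PPi Qinf ι) := fun _ _ hnn _ hf =>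
  h20_mem_PPi.mpr fun a => h20_P_mono Qinf hnn (h20_mem_PPi.mp hf a)

theorem h20_exists_PPi [Finite ι] {f : ι → Fb × Fb} (hf : f ∈ h20_BsPi Qinf ι) :
    ∃ n, f ∈ h20_PPi Qinf ι n := by
  classical
  cases nonempty_fintype ι
  have h1 : ∀ a, ∃ n, f a ∈ h20_P Qinf n := by
    intro a
    have ha := h20_mem_Bs.mp (h20_mem_BsPi.mp hf a)
    obtain ⟨n, hn⟩ := (h20_exists_P_iff Qinf (f a)).mpr
      (fun Q hQ => ⟨ha.1 Q hQ, ha.2 Q hQ⟩)
    exact ⟨n, h20_mem_P_Linf.mpr hn⟩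
  choose m hm using h1
  exact ⟨Finset.univ.sup m, h20_mem_PPi.mpr fun a =>
    h20_P_mono Qinf (Finset.le_sup (Finset.mem_univ a)) (hm a)⟩

/-- `h20_PPi n` is the product of the `h20_P n`. -/
def h20_PPiEquiv (n : ℕ) : h20_PPi Qinf ι n ≃ₗ[k] (ι → h20_P Qinf n) where
  toFun f a := ⟨f.1 a, h20_mem_PPi.mp f.2 a⟩
  invFun g := ⟨fun a => (g a).1, h20_mem_PPi.mpr fun a => (g a).2⟩
  map_add' _ _ := rfl
  map_smul' _ _ := rfl
  left_inv _ := rfl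
  right_inv _ := rfl

end Sheets

/-! ### Evaluation at the nodes -/

section Nodes

variable [IsAlgClosed k] {xb : Fb} (hx : h75_IsChart k xb) (Qinf : Place k Fb)
  (Sg : Finset (Place k Fb)) (Φ : Place k Fb → Place k Fb)
  (hSg : ∀ Q ∈ Sg, Q ≠ Qinf ∧ Φ Q ≠ Qinf) (ι : Type*)

/-- The projection to a sheet. -/
def h20_sheet (a : ι) : h20_BsPi Qinf ι →ₐ[k] h20_Bs Qinf :=
  AlgHom.codRestrict ((Pi.evalAlgHom k (fun _ : ι => Fb × Fb) a).comp (h20_BsPi Qinf ι).val)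
    (h20_Bs Qinf) (fun f => h20_mem_BsPi.mp f.2 a)

omit [IsAlgClosed k] in
theorem h20_sheet_coe (a : ι) (f : h20_BsPi Qinf ι) :
    ((h20_sheet Qinf ι a f : h20_Bs Qinf) : Fb × Fb) = f.1 a := rfl

/-- The value of the first coordinate of the sheet `a` at the first branch of the node `ν`. -/
def h20_cev1 (ν : {Q // Q ∈ Sg}) (a : ι) : h20_BsPi Qinf ι →ₐ[k] k :=
  (h20_e1 hx Qinf (h20_nodeQ1 Sg Φ) (h20_nodeQ1_ne Qinf Sg Φ hSg) ν).comp (h20_sheet Qinf ι a)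

/-- The value of the second coordinate of the sheet `a` at the second branch of the node `ν`. -/
def h20_cev2 (ν : {Q // Q ∈ Sg}) (a : ι) : h20_BsPi Qinf ι →ₐ[k] k :=
  (h20_e2 hx Qinf (h20_nodeQ2 Sg) (h20_nodeQ2_ne Qinf Sg Φ hSg) ν).comp (h20_sheet Qinf ι a)

theorem h20_cev1_spec (ν : {Q // Q ∈ Sg}) (a : ι) (f : h20_BsPi Qinf ι) :
    h39_Val (Φ ν.1) (f.1 a).1 (h20_cev1 hx Qinf Sg Φ hSg ι ν a f) :=
  h20_e1_spec hx Qinf (h20_nodeQ1 Sg Φ) (h20_nodeQ1_ne Qinf Sg Φ hSg) ν (h20_sheet Qinf ι a f)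

theorem h20_cev2_spec (ν : {Q // Q ∈ Sg}) (a : ι) (f : h20_BsPi Qinf ι) :
    h39_Val ν.1 (f.1 a).2 (h20_cev2 hx Qinf Sg Φ hSg ι ν a f) :=
  h20_e2_spec hx Qinf (h20_nodeQ2 Sg) (h20_nodeQ2_ne Qinf Sg Φ hSg) ν (h20_sheet Qinf ι a f)

theorem h20_cev1_eq (ν : {Q // Q ∈ Sg}) (a : ι) (f : h20_BsPi Qinf ι) {c : k}
    (h : h39_Val (Φ ν.1) (f.1 a).1 c) : h20_cev1 hx Qinf Sg Φ hSg ι ν a f = c :=
  h20_e1_eq hx Qinf (h20_nodeQ1 Sg Φ) (h20_nodeQ1_ne Qinf Sg Φ hSg) ν (h20_sheet Qinf ι a f) h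

theorem h20_cev2_eq (ν : {Q // Q ∈ Sg}) (a : ι) (f : h20_BsPi Qinf ι) {c : k}
    (h : h39_Val ν.1 (f.1 a).2 c) : h20_cev2 hx Qinf Sg Φ hSg ι ν a f = c :=
  h20_e2_eq hx Qinf (h20_nodeQ2 Sg) (h20_nodeQ2_ne Qinf Sg Φ hSg) ν (h20_sheet Qinf ι a f) h

/-- The joint evaluation at the node `ν`: the first branch on `Sum.inl`, the second on
`Sum.inr`. -/
def h20_cev (ν : {Q // Q ∈ Sg}) : h20_BsPi Qinf ι →ₐ[k] (ι ⊕ ι → k) :=
  AlgHom.pi
    (fun w => Sum.elim (h20_cev1 hx Qinf Sg Φ hSg ι ν) (h20_cev2 hx Qinf Sg Φ hSg ι ν) w)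

theorem h20_cev_inl (ν : {Q // Q ∈ Sg}) (f : h20_BsPi Qinf ι) (a : ι) :
    h20_cev hx Qinf Sg Φ hSg ι ν f (Sum.inl a) = h20_cev1 hx Qinf Sg Φ hSg ι ν a f := rfl

theorem h20_cev_inr (ν : {Q // Q ∈ Sg}) (f : h20_BsPi Qinf ι) (a : ι) :
    h20_cev hx Qinf Sg Φ hSg ι ν f (Sum.inr a) = h20_cev2 hx Qinf Sg Φ hSg ι ν a f := rfl

/-- Joint surjectivity of the evaluations at the nodes, already on `h20_PPi n` for
`n ≥ 2 g + #Sg`. -/
theorem h20_cev_surjective (hΦ : Function.Injective Φ) (n : ℕ)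
    (hn : 2 * h75_genus k xb + Sg.card ≤ n) (t : {Q // Q ∈ Sg} → (ι ⊕ ι → k)) :
    ∃ f : h20_BsPi Qinf ι, f.1 ∈ h20_PPi Qinf ι n ∧
      ∀ ν, h20_cev hx Qinf Sg Φ hSg ι ν f = t ν := by
  have h1 : ∀ a : ι, ∃ y, ∃ h : y ∈ h20_P Qinf n,
      (∀ ν, h20_e1 hx Qinf (h20_nodeQ1 Sg Φ) (h20_nodeQ1_ne Qinf Sg Φ hSg) ν
        ⟨y, h20_P_le_Bs Qinf n y h⟩ = t ν (Sum.inl a)) ∧
      (∀ ν, h20_e2 hx Qinf (h20_nodeQ2 Sg) (h20_nodeQ2_ne Qinf Sg Φ hSg) ν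
        ⟨y, h20_P_le_Bs Qinf n y h⟩ = t ν (Sum.inr a)) := fun a =>
    h20_chart_hind_nodes hx Qinf Sg Φ hSg hΦ n hn (fun ν => t ν (Sum.inl a))
      (fun ν => t ν (Sum.inr a))
  choose y hy h1' h2' using h1
  have hyP : y ∈ h20_PPi Qinf ι n := h20_mem_PPi.mpr hy
  refine ⟨⟨y, h20_PPi_le_BsPi Qinf ι n y hyP⟩, hyP, fun ν => ?_⟩
  funext w
  rcases w with a | a
  · exact h1' a ν
  · exact h2' a ν

end Nodes

/-! ### Linear algebra helpers -/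

section Helpers

variable {V : Type*} [CommRing V] [Algebra k V]

/-- The preimage in a subalgebra `Bs` of a subspace contained in `Bs`. -/
def h20_comapEquiv (Bs : Subalgebra k V) (S : Submodule k V) (hS : ∀ x ∈ S, x ∈ Bs) :
    (S.comap Bs.val.toLinearMap) ≃ₗ[k] S where
  toFun x := ⟨(x.1 : V), x.2⟩
  invFun y := ⟨⟨y.1, hS y.1 y.2⟩, y.2⟩
  map_add' _ _ := rfl
  map_smul' _ _ := rfl
  left_inv _ := rfl
  right_inv _ := rfl

end Helpers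

theorem h20_finrank_PPi [IsAlgClosed k] {xb : Fb} (hx : h75_IsChart k xb) (Qinf : Place k Fb)
    (ι : Type*) [Fintype ι] (n : ℕ) :
    FiniteDimensional k (h20_PPi Qinf ι n) ∧
      Module.finrank k (h20_PPi Qinf ι n) = Fintype.card ι * Module.finrank k (h20_P Qinf n) := by
  have hfin : FiniteDimensional k (h20_P Qinf n) := h20_P_finite hx Qinf n
  refine ⟨Module.Finite.equiv (h20_PPiEquiv Qinf ι n).symm, ?_⟩
  rw [(h20_PPiEquiv Qinf ι n).finrank_eq, Module.finrank_pi_fintype, Finset.sum_const,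
    Finset.card_univ, smul_eq_mul]

/-! ### The node theorem for the cover -/

section Main

variable [IsAlgClosed k] {xb : Fb} (hx : h75_IsChart k xb) (Qinf : Place k Fb)
  (Sg : Finset (Place k Fb)) (Φ : Place k Fb → Place k Fb) (hΦ : Function.Injective Φ)
  (hSg : ∀ Q ∈ Sg, Q ≠ Qinf ∧ Φ Q ≠ Qinf) {ι : Type*} [Fintype ι]

include hΦ in
/-- **(NODE') for a cover lattice**, evaluation form. -/
theorem h20_cover_node_ev (D' : h22_Lat K F' k (ι → Fb × Fb)) (D0' : Divisor K F')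
    (hD0' : 0 ≤ D0')
    (hpole : ∀ n : ℕ, ∀ f ∈ h51_Rd D' (n • D0'), f ∈ h20_PPi Qinf ι n)
    (hsym : ∀ n : ℕ, ∀ f ∈ h51_Rd D' (n • D0'), ∀ Q ∈ Sg, ∀ v1 v2 : ι → k,
      (∀ a, h39_Val (Φ Q) (f a).1 (v1 a)) → (∀ a, h39_Val Q (f a).2 (v2 a)) →
      ∏ a, (X - C (v1 a)) = ∏ a, (X - C (v2 a)))
    (N1 : ℕ) (hcount : ∀ n, N1 ≤ n → Fintype.card ι * Module.finrank k (h20_P Qinf n) ≤
      Module.finrank k (h51_Rd D' (n • D0')) + Fintype.card ι * Sg.card) :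
    ∃ σ : {Q // Q ∈ Sg} → Equiv.Perm ι,
      ∀ n, max N1 (2 * h75_genus k xb + Sg.card) ≤ n → ∀ f : ι → Fb × Fb,
        f ∈ h51_Rd D' (n • D0') ↔
          ∃ hf : f ∈ h20_PPi Qinf ι n, ∀ ν a,
            h20_cev1 hx Qinf Sg Φ hSg ι ν a ⟨f, h20_PPi_le_BsPi Qinf ι n f hf⟩ =
              h20_cev2 hx Qinf Sg Φ hSg ι ν (σ ν a) ⟨f, h20_PPi_le_BsPi Qinf ι n f hf⟩ := by
  classical
  -- the union ring inside the ring of tuples regular off `Qinf`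
  let B' : Subalgebra k (h20_BsPi Qinf ι) :=
    (h20_unionAlg D' D0' hD0').comap (h20_BsPi Qinf ι).val
  have hB'mem : ∀ f : h20_BsPi Qinf ι, f ∈ B' ↔
      ∃ n : ℕ, (f : ι → Fb × Fb) ∈ h51_Rd D' (n • D0') := fun f => Iff.rfl
  -- the levels
  let Pn : ℕ → Submodule k (h20_BsPi Qinf ι) := fun n =>
    (h20_PPi Qinf ι n).comap (h20_BsPi Qinf ι).val.toLinearMap
  let Bn : ℕ → Submodule k (h20_BsPi Qinf ι) := fun n =>
    (h51_Rd D' (n • D0')).comap (h20_BsPi Qinf ι).val.toLinearMap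
  have hPn_fin : ∀ n, FiniteDimensional k (Pn n) := by
    intro n
    have := (h20_finrank_PPi hx Qinf ι n).1
    exact Module.Finite.equiv
      (h20_comapEquiv (h20_BsPi Qinf ι) (h20_PPi Qinf ι n) (h20_PPi_le_BsPi Qinf ι n)).symm
  have hPn_rank : ∀ n, Module.finrank k (Pn n) =
      Fintype.card ι * Module.finrank k (h20_P Qinf n) := by
    intro n
    rw [← (h20_finrank_PPi hx Qinf ι n).2]
    exact (h20_comapEquiv (h20_BsPi Qinf ι) (h20_PPi Qinf ι n)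
      (h20_PPi_le_BsPi Qinf ι n)).finrank_eq
  have hBn_rank : ∀ n, Module.finrank k (Bn n) = Module.finrank k (h51_Rd D' (n • D0')) := by
    intro n
    exact (h20_comapEquiv (h20_BsPi Qinf ι) (h51_Rd D' (n • D0'))
      (fun f hf => h20_PPi_le_BsPi Qinf ι n f (hpole n f hf))).finrank_eq
  have hPmono : Monotone Pn := fun n n' hnn f hf => h20_PPi_mono Qinf ι hnn hf
  have hBnPn : ∀ n, Bn n ≤ Pn n := fun n f hf => hpole n _ hf
  have hPtop : ∀ f : h20_BsPi Qinf ι, ∃ n, f ∈ Pn n := fun f => h20_exists_PPi Qinf ι f.2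
  obtain ⟨hfin, hle⟩ := h19_finrank_quot_le_of_union Pn Bn hPmono hBnPn hPtop
    (Subalgebra.toSubmodule B') (fun f => hB'mem f) (Fintype.card ι * Sg.card) N1
    (fun n hn => by
      rw [hPn_rank, hBn_rank]
      exact hcount n hn)
  -- the pairing lemma
  have hcardν : Fintype.card {Q // Q ∈ Sg} = Sg.card := Fintype.card_coe Sg
  have hsurj : Function.Surjective
      (fun (f : h20_BsPi Qinf ι) (ν : {Q // Q ∈ Sg}) => h20_cev hx Qinf Sg Φ hSg ι ν f) := by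
    intro t
    obtain ⟨f, -, hf⟩ := h20_cev_surjective hx Qinf Sg Φ hSg ι hΦ
      (2 * h75_genus k xb + Sg.card) le_rfl t
    exact ⟨f, funext hf⟩
  have hBsym : ∀ f ∈ B', ∀ ν : {Q // Q ∈ Sg},
      ∏ w : ι, (X - C (h20_cev hx Qinf Sg Φ hSg ι ν f (Sum.inl w))) =
        ∏ w : ι, (X - C (h20_cev hx Qinf Sg Φ hSg ι ν f (Sum.inr w))) := by
    rintro f ⟨n, hn⟩ ν
    exact hsym n f.1 hn ν.1 ν.2 (fun a => h20_cev1 hx Qinf Sg Φ hSg ι ν a f)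
      (fun a => h20_cev2 hx Qinf Sg Φ hSg ι ν a f)
      (fun a => h20_cev1_spec hx Qinf Sg Φ hSg ι ν a f)
      (fun a => h20_cev2_spec hx Qinf Sg Φ hSg ι ν a f)
  obtain ⟨σ, hσ⟩ := h98_pairing_global (k := k) (Ω₁ := ι) (Ω₂ := ι) B'
    (h20_cev hx Qinf Sg Φ hSg ι) hsurj hBsym (by rw [hcardν]; exact hle)
  refine ⟨σ, fun n hn f => ?_⟩
  have hn1 : N1 ≤ n := le_trans (le_max_left _ _) hn
  have hn2 : 2 * h75_genus k xb + Sg.card ≤ n := le_trans (le_max_right _ _) hn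
  -- the level `n`
  have hWfin := (h20_finrank_PPi hx Qinf ι n).1
  have hWrank := (h20_finrank_PPi hx Qinf ι n).2
  let i_n : h20_PPi Qinf ι n →ₗ[k] h20_BsPi Qinf ι :=
    { toFun := fun f => ⟨f.1, h20_PPi_le_BsPi Qinf ι n f.1 f.2⟩
      map_add' := fun _ _ => rfl
      map_smul' := fun _ _ => rfl }
  let Lr : h20_BsPi Qinf ι →ₗ[k] ({Q // Q ∈ Sg} × ι → k) :=
    LinearMap.pi (fun x => (h20_cev1 hx Qinf Sg Φ hSg ι x.1 x.2).toLinearMap -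
      (h20_cev2 hx Qinf Sg Φ hSg ι x.1 (σ x.1 x.2)).toLinearMap)
  have hLr : ∀ (g : h20_BsPi Qinf ι) (x : {Q // Q ∈ Sg} × ι), Lr g x =
      h20_cev1 hx Qinf Sg Φ hSg ι x.1 x.2 g - h20_cev2 hx Qinf Sg Φ hSg ι x.1 (σ x.1 x.2) g :=
    fun g x => rfl
  let ev_n : h20_PPi Qinf ι n →ₗ[k] ({Q // Q ∈ Sg} × ι → k) := Lr ∘ₗ i_n
  have hev_surj : Function.Surjective ev_n := by
    intro t
    obtain ⟨g, hgP, hg⟩ := h20_cev_surjective hx Qinf Sg Φ hSg ι hΦ n hn2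
      (fun ν => Sum.elim (fun a => t (ν, a)) (fun _ => 0))
    refine ⟨⟨g.1, hgP⟩, ?_⟩
    funext x
    have h1 : h20_cev1 hx Qinf Sg Φ hSg ι x.1 x.2 g = t (x.1, x.2) := by
      rw [← h20_cev_inl, hg x.1]
      rfl
    have h2 : h20_cev2 hx Qinf Sg Φ hSg ι x.1 (σ x.1 x.2) g = 0 := by
      rw [← h20_cev_inr, hg x.1]
      rfl
    show Lr g x = t x
    rw [hLr, h1, h2, sub_zero]
  let B_n : Submodule k (h20_PPi Qinf ι n) :=
    (h51_Rd D' (n • D0')).comap (h20_PPi Qinf ι n).subtype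
  have hBker : B_n ≤ (⊥ : Submodule k ({Q // Q ∈ Sg} × ι → k)).comap ev_n := by
    intro g hg
    have hgB : i_n g ∈ B' := ⟨n, hg⟩
    have h := (hσ (i_n g)).mp hgB
    show ev_n g ∈ (⊥ : Submodule k ({Q // Q ∈ Sg} × ι → k))
    rw [Submodule.mem_bot]
    funext x
    show Lr (i_n g) x = 0
    rw [hLr, sub_eq_zero]
    exact h x.1 x.2
  have hBn_rank' : Module.finrank k B_n = Module.finrank k (h51_Rd D' (n • D0')) :=
    (Submodule.comapSubtypeEquivOfLe (hpole n)).finrank_eq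
  have hquot : Module.finrank k (h20_PPi Qinf ι n ⧸ B_n) ≤
      Module.finrank k (({Q // Q ∈ Sg} × ι → k) ⧸
        (⊥ : Submodule k ({Q // Q ∈ Sg} × ι → k))) := by
    have h1 := Submodule.finrank_quotient_add_finrank B_n
    have h2 := Submodule.finrank_quotient_add_finrank
      (⊥ : Submodule k ({Q // Q ∈ Sg} × ι → k))
    rw [finrank_bot, add_zero, Module.finrank_fintype_fun_eq_card, Fintype.card_prod,
      hcardν] at h2
    have h3 := hcount n hn1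
    rw [h2]
    rw [hBn_rank', hWrank] at h1
    have h4 : Sg.card * Fintype.card ι = Fintype.card ι * Sg.card := Nat.mul_comm _ _
    omega
  have hBeq := (h19_eq_comap_of_finrank_le ev_n hev_surj ⊥ B_n hBker hquot).1
  constructor
  · intro hf
    have hfP := hpole n f hf
    refine ⟨hfP, fun ν a => ?_⟩
    have hmem : (⟨f, hfP⟩ : h20_PPi Qinf ι n) ∈ B_n := hf
    rw [hBeq] at hmem
    have h0 : ev_n ⟨f, hfP⟩ = 0 := (Submodule.mem_bot k).mp hmem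
    have h1 := congrFun h0 (ν, a)
    have h2 : Lr (i_n ⟨f, hfP⟩) (ν, a) = 0 := h1
    rw [hLr, sub_eq_zero] at h2
    exact h2
  · rintro ⟨hfP, h⟩
    have hmem : (⟨f, hfP⟩ : h20_PPi Qinf ι n) ∈
        (⊥ : Submodule k ({Q // Q ∈ Sg} × ι → k)).comap ev_n := by
      show ev_n ⟨f, hfP⟩ ∈ (⊥ : Submodule k ({Q // Q ∈ Sg} × ι → k))
      rw [Submodule.mem_bot]
      funext x
      show Lr (i_n ⟨f, hfP⟩) x = 0
      rw [hLr, sub_eq_zero]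
      exact h x.1 x.2
    rw [← hBeq] at hmem
    exact hmem

include hΦ hx hSg in
/-- **(NODE') for a cover lattice**, place language: for all large `n`,
`f ∈ red' (L'(n D0') ∩ O')` iff every sheet of `f` is a pair in `L(n Qinf)²` and
`f_{1,a}(Φ Q) = f_{2,σ_Q a}(Q)` for every node `Q` and every sheet `a`. -/
theorem h20_cover_node (D' : h22_Lat K F' k (ι → Fb × Fb)) (D0' : Divisor K F')
    (hD0' : 0 ≤ D0')
    (hpole : ∀ n : ℕ, ∀ f ∈ h51_Rd D' (n • D0'), ∀ a, f a ∈ h20_P Qinf n)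
    (hsym : ∀ n : ℕ, ∀ f ∈ h51_Rd D' (n • D0'), ∀ Q ∈ Sg, ∀ v1 v2 : ι → k,
      (∀ a, h39_Val (Φ Q) (f a).1 (v1 a)) → (∀ a, h39_Val Q (f a).2 (v2 a)) →
      ∏ a, (X - C (v1 a)) = ∏ a, (X - C (v2 a)))
    (N1 : ℕ) (hcount : ∀ n, N1 ≤ n → Fintype.card ι * Module.finrank k (h20_P Qinf n) ≤
      Module.finrank k (h51_Rd D' (n • D0')) + Fintype.card ι * Sg.card) :
    ∃ σ : {Q // Q ∈ Sg} → Equiv.Perm ι,
      ∀ n, max N1 (2 * h75_genus k xb + Sg.card) ≤ n → ∀ f : ι → Fb × Fb,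
        f ∈ h51_Rd D' (n • D0') ↔
          (∀ a, f a ∈ h20_P Qinf n) ∧ ∀ (Q : Place k Fb) (hQ : Q ∈ Sg) (a : ι), ∃ c : k,
            h39_Val (Φ Q) (f a).1 c ∧ h39_Val Q (f (σ ⟨Q, hQ⟩ a)).2 c := by
  obtain ⟨σ, hσ⟩ := h20_cover_node_ev hx Qinf Sg Φ hΦ hSg D' D0' hD0'
    (fun n f hf => h20_mem_PPi.mpr (hpole n f hf)) hsym N1 hcount
  refine ⟨σ, fun n hn f => ?_⟩
  rw [hσ n hn f]
  constructor
  · rintro ⟨hf, h⟩
    refine ⟨h20_mem_PPi.mp hf, fun Q hQ a => ?_⟩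
    refine ⟨_, h20_cev1_spec hx Qinf Sg Φ hSg ι ⟨Q, hQ⟩ a
      ⟨f, h20_PPi_le_BsPi Qinf ι n f hf⟩, ?_⟩
    rw [h ⟨Q, hQ⟩ a]
    exact h20_cev2_spec hx Qinf Sg Φ hSg ι ⟨Q, hQ⟩ (σ ⟨Q, hQ⟩ a)
      ⟨f, h20_PPi_le_BsPi Qinf ι n f hf⟩
  · rintro ⟨hf, h⟩
    refine ⟨h20_mem_PPi.mpr hf, fun ν a => ?_⟩
    obtain ⟨c, hc1, hc2⟩ := h ν.1 ν.2 a
    rw [h20_cev1_eq hx Qinf Sg Φ hSg ι ν a _ hc1,
      h20_cev2_eq hx Qinf Sg Φ hSg ι ν (σ ν a) _ hc2]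

end Main

end Fermat.Agent.S33

end
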