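import Mathlib
import Fermat.Agent.S33.h20_CoverNode
import Fermat.Agent.S33.h15_ASLat

/-!
# S33 (N2), row NODE' (R8 of the N-min skeleton): COMMUTE and the `S.lat` instance (helper20)

* `h20_cover_commute`: any family of partner bijections `σ ν` describing
  `red'(L'(n D0') ∩ O')` in the shape of `h20_cover_node` commutes with every pair of sheet maps
  `(s1, s2)` stabilising that space: `σ ν (s1 a) = s2 (σ ν a)`.
* `h20_node'`: the row R8 of the skeleton for the Artin-Schreier model `S.lat`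
  (`ι := Fin p`), node description + COMMUTE for the same `σ`.
-/

set_option autoImplicit false

noncomputable section

open AlgebraicCurve Module Polynomial

namespace Fermat.Agent.S33

open Fermat.Agent.S34 Fermat.Agent.S18 Fermat.Agent.S24 Fermat.Agent.S27

variable {K F' k Fb : Type*} [Field K] [Field F'] [Algebra K F'] [Field k] [Field Fb]
  [Algebra k Fb]

section Commute

variable [IsAlgClosed k] {xb : Fb} (hx : h75_IsChart k xb) (Qinf : Place k Fb)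
  (Sg : Finset (Place k Fb)) (Φ : Place k Fb → Place k Fb) (hΦ : Function.Injective Φ)
  (hSg : ∀ Q ∈ Sg, Q ≠ Qinf ∧ Φ Q ≠ Qinf) {ι : Type*}

include hx hΦ hSg in
/-- **COMMUTE.**  If `σ` describes `red'(L'(n D0') ∩ O')` at ONE level `n ≥ 2 g + #Sg` in the
shape of `h20_cover_node`, and `(s1, s2)` is a pair of sheet maps (first / second component)
stabilising that space, then `σ ν ∘ s1 = s2 ∘ σ ν` for every node `ν`. -/
theorem h20_cover_commute (D' : h22_Lat K F' k (ι → Fb × Fb)) (D0' : Divisor K F')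
    (σ : {Q // Q ∈ Sg} → Equiv.Perm ι) (n : ℕ) (hn : 2 * h75_genus k xb + Sg.card ≤ n)
    (hσ : ∀ f : ι → Fb × Fb, f ∈ h51_Rd D' (n • D0') ↔
      (∀ a, f a ∈ h20_P Qinf n) ∧ ∀ (Q : Place k Fb) (hQ : Q ∈ Sg) (a : ι), ∃ c : k,
        h39_Val (Φ Q) (f a).1 c ∧ h39_Val Q (f (σ ⟨Q, hQ⟩ a)).2 c)
    (s1 s2 : ι → ι)
    (hs : ∀ f ∈ h51_Rd D' (n • D0'),
      (fun a => ((f (s1 a)).1, (f (s2 a)).2)) ∈ h51_Rd D' (n • D0')) :
    ∀ ν a, σ ν (s1 a) = s2 (σ ν a) := by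
  classical
  intro ν a
  -- the test tuple: value `1` on the pair of branches `(σ ν)⁻¹ b0 — b0` of the node `ν`
  obtain ⟨f, hfP, hft⟩ := h20_cev_surjective hx Qinf Sg Φ hSg ι hΦ n hn
    (fun ν' => Sum.elim (fun a' => if ν' = ν ∧ σ ν a' = σ ν (s1 a) then (1 : k) else 0)
      (fun b => if ν' = ν ∧ b = σ ν (s1 a) then (1 : k) else 0))
  have h1 : ∀ ν' a', h20_cev1 hx Qinf Sg Φ hSg ι ν' a' f =
      if ν' = ν ∧ σ ν a' = σ ν (s1 a) then (1 : k) else 0 := by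
    intro ν' a'
    rw [← h20_cev_inl, hft ν']
    rfl
  have h2 : ∀ ν' b, h20_cev2 hx Qinf Sg Φ hSg ι ν' b f =
      if ν' = ν ∧ b = σ ν (s1 a) then (1 : k) else 0 := by
    intro ν' b
    rw [← h20_cev_inr, hft ν']
    rfl
  -- it lies in the reduction
  have hfR : (f : ι → Fb × Fb) ∈ h51_Rd D' (n • D0') := by
    rw [hσ]
    refine ⟨h20_mem_PPi.mp hfP, fun Q hQ a' =>
      ⟨_, h20_cev1_spec hx Qinf Sg Φ hSg ι ⟨Q, hQ⟩ a' f, ?_⟩⟩
    have h := h20_cev2_spec hx Qinf Sg Φ hSg ι ⟨Q, hQ⟩ (σ ⟨Q, hQ⟩ a') f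
    rw [h2] at h
    rw [h1]
    by_cases hν : (⟨Q, hQ⟩ : {Q // Q ∈ Sg}) = ν
    · subst hν
      exact h
    · rw [if_neg (fun hh => hν hh.1)] at h ⊢
      exact h
  -- the twisted tuple
  obtain ⟨-, hg⟩ := (hσ _).mp (hs _ hfR)
  obtain ⟨c, hc1, hc2⟩ := hg ν.1 ν.2 a
  have e1 : h20_cev1 hx Qinf Sg Φ hSg ι ν (s1 a) f = c :=
    h20_cev1_eq hx Qinf Sg Φ hSg ι ν (s1 a) f hc1
  have e2 : h20_cev2 hx Qinf Sg Φ hSg ι ν (s2 (σ ν a)) f = c :=
    h20_cev2_eq hx Qinf Sg Φ hSg ι ν (s2 (σ ν a)) f hc2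
  rw [h1, if_pos ⟨rfl, rfl⟩] at e1
  rw [h2, ← e1] at e2
  by_contra hne
  rw [if_neg (fun hh => hne hh.2.symm)] at e2
  exact zero_ne_one e2

end Commute

/-! ### The row R8 for the Artin-Schreier model -/

section ASModel

variable {F : Type*} [Field F] [Algebra K F] [Algebra F F'] [IsScalarTower K F F']
  {p : ℕ} {D : h22_Lat K F k (Fb × Fb)} (S : h15_ASData D F' p)

/-- **ROW NODE' (R8 of the N-min skeleton)** for `S.lat`: the node description of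
`red'(L'(n D0') ∩ O')` (`h20_cover_node` with `ι := Fin p`) together with COMMUTE for the same
partner bijections.  The only hypothesis added to the skeleton statement is `hD0' : 0 ≤ D0'`. -/
theorem h20_node' [IsAlgClosed k] {xb : Fb} (hxb : h75_IsChart k xb)
    (D0' : Divisor K F') (hD0' : 0 ≤ D0') (Qinf : Place k Fb) (Sg : Finset (Place k Fb))
    (Φ : Place k Fb → Place k Fb) (hΦ : Function.Injective Φ)
    (hSg : ∀ Q ∈ Sg, Q ≠ Qinf ∧ Φ Q ≠ Qinf)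
    (hpole : ∀ n : ℕ, ∀ f ∈ h51_Rd S.lat (n • D0'), ∀ a : Fin p, f a ∈ h20_P Qinf n)
    (hsym : ∀ n : ℕ, ∀ f ∈ h51_Rd S.lat (n • D0'), ∀ Q ∈ Sg,
      ∀ v1 v2 : Fin p → k, (∀ a, h39_Val (Φ Q) (f a).1 (v1 a)) →
        (∀ a, h39_Val Q (f a).2 (v2 a)) → ∏ a, (X - C (v1 a)) = ∏ a, (X - C (v2 a)))
    (N1 : ℕ) (hcount : ∀ n, N1 ≤ n → p * Module.finrank k (h20_P Qinf n) ≤
      Module.finrank k (h51_Rd S.lat (n • D0')) + p * Sg.card) :
    ∃ σ : {Q // Q ∈ Sg} → Equiv.Perm (Fin p),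
      (∀ n, max N1 (2 * h75_genus k xb + Sg.card) ≤ n → ∀ f : Fin p → Fb × Fb,
        f ∈ h51_Rd S.lat (n • D0') ↔ (∀ a, f a ∈ h20_P Qinf n) ∧
          ∀ Q (hQ : Q ∈ Sg), ∀ a, ∃ c : k, h39_Val (Φ Q) (f a).1 c ∧
            h39_Val Q (f (σ ⟨Q, hQ⟩ a)).2 c) ∧
      (∀ s1 s2 : Fin p → Fin p,
        (∀ n : ℕ, ∀ f ∈ h51_Rd S.lat (n • D0'),
          (fun a => ((f (s1 a)).1, (f (s2 a)).2)) ∈ h51_Rd S.lat (n • D0')) →
        ∀ ν a, σ ν (s1 a) = s2 (σ ν a)) := by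
  obtain ⟨σ, hσ⟩ := h20_cover_node hxb Qinf Sg Φ hΦ hSg S.lat D0' hD0' hpole hsym N1
    (by simpa using hcount)
  refine ⟨σ, hσ, fun s1 s2 hs => ?_⟩
  have hn : max N1 (2 * h75_genus k xb + Sg.card) ≤ max N1 (2 * h75_genus k xb + Sg.card) :=
    le_rfl
  exact h20_cover_commute hxb Qinf Sg Φ hΦ hSg S.lat D0' σ _ (le_max_right _ _)
    (hσ _ hn) s1 s2 (hs _)

end ASModel

end Fermat.Agent.S33

end
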