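import Mathlib
import Fermat.Prelude.Def_AlgebraicCurve_DivisorPushPull
import Fermat.Prelude.Def_AlgebraicCurve_BaseChangeGalois
import Fermat.Agent.S18.RR_Riemann

/-!
# S33 (N2), row KUM-FF: the concrete Kummer cover `F' = F[X]/(X^p - u)` as a function field

Generic.  `K` a field, `F/K` a function field with a chart `x` (`h75_IsChart K x`), `p` a prime,
`u : F` not a `p`-th power.

* `h22_isChart_of_finite` : a chart of `F` is a chart of every finite extension `F'/F`
  (characteristic zero), hence `F'` has principal divisors, finite Riemann–Roch spaces and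
  `L(0) = K`.
* `h22_KumF p u := AdjoinRoot (X ^ p - C u)`, `h22_kum_irreducible`;
  `h22_kumTheta`, `h22_kumTheta_pow`, `h22_kum_li`, `h22_kum_span`, `h22_kum_finrank`.
* `h22_ord_kummer` : `div θ^a = π^* (a • E)` when `p • E = div u`.
* `h22_kumGen` : the generator `g θ = ζ θ` of `Gal(F'/F)`.
* `h22_kum_exists_lift` : a semilinear automorphism `σ` of `F` with `σ u = h^p u` lifts to `F'`
  with `σ' θ = h θ`.
* `h22_exists_root_of_principal`, `h22_not_pow_of_not_principal` : the divisor/`p`-th power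
  dictionary on `F`.
-/

set_option autoImplicit false

noncomputable section

open Polynomial AlgebraicCurve IntermediateField

namespace Fermat.Agent.S33

open Fermat.Agent.S18

/-! ### Charts of finite extensions -/

section Chart

variable {K F F' : Type*} [Field K] [Field F] [Field F'] [Algebra K F] [Algebra K F']
  [Algebra F F'] [IsScalarTower K F F'] [FiniteDimensional F F']

/-- `F'` is finite over `K(x')`, `x'` the image of `x`, when `F` is finite over `K(x)`. -/
theorem h22_finite_adjoin_of_finite {x : F} (hfin : FiniteDimensional K⟮x⟯ F) :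
    FiniteDimensional K⟮algebraMap F F' x⟯ F' := by
  let f : F →ₐ[K] F' := IsScalarTower.toAlgHom K F F'
  have hmap : (K⟮x⟯).map f = K⟮algebraMap F F' x⟯ := by
    rw [IntermediateField.adjoin_map, Set.image_singleton]
    rfl
  let φ : K⟮x⟯ →+* K⟮algebraMap F F' x⟯ :=
    { toFun := fun a => ⟨f a, by rw [← hmap]; exact ⟨a, a.2, rfl⟩⟩
      map_one' := Subtype.ext (map_one f)
      map_mul' := fun a b => Subtype.ext (map_mul f (a : F) (b : F))
      map_zero' := Subtype.ext (map_zero f)
      map_add' := fun a b => Subtype.ext (map_add f (a : F) (b : F)) }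
  let _ : Algebra K⟮x⟯ K⟮algebraMap F F' x⟯ := φ.toAlgebra
  have : IsScalarTower K⟮x⟯ K⟮algebraMap F F' x⟯ F' :=
    IsScalarTower.of_algebraMap_eq (fun a => rfl)
  have : Module.Finite K⟮x⟯ F' := Module.Finite.trans F F'
  exact Module.Finite.of_restrictScalars_finite K⟮x⟯ K⟮algebraMap F F' x⟯ F'

/-- **A chart of `F` is a chart of every finite extension** (characteristic zero). -/
theorem h22_isChart_of_finite [CharZero K] {x : F} (hx : h75_IsChart K x) :
    h75_IsChart K (algebraMap F F' x) := by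
  have hfin : FiniteDimensional K⟮algebraMap F F' x⟯ F' := h22_finite_adjoin_of_finite hx.fin
  refine ⟨?_, hfin, ?_⟩
  · intro halg
    exact hx.tr ((isAlgebraic_algebraMap_iff (algebraMap F F').injective).mp halg)
  · have : CharZero K⟮algebraMap F F' x⟯ :=
      charZero_of_injective_algebraMap (algebraMap K K⟮algebraMap F F' x⟯).injective
    exact Algebra.IsAlgebraic.isSeparable_of_perfectField

end Chart

/-! ### The Kummer extension `F[X]/(X^p - u)` -/

section Kummer

variable {F : Type*} [Field F]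

/-- The Kummer extension `F[X]/(X^p - u)`. -/
abbrev h22_KumF (p : ℕ) (u : F) : Type _ := AdjoinRoot (X ^ p - C u : F[X])

/-- `X^p - u` is irreducible when `u` is not a `p`-th power (`p` prime). -/
theorem h22_kum_irreducible {p : ℕ} (hp : p.Prime) {u : F} (hu : ∀ h : F, h ^ p ≠ u) :
    Irreducible (X ^ p - C u : F[X]) :=
  X_pow_sub_C_irreducible_of_prime hp hu

/-- The Kummer generator `θ`. -/
abbrev h22_kumTheta (p : ℕ) (u : F) : h22_KumF p u := AdjoinRoot.root (X ^ p - C u : F[X])

theorem h22_kumTheta_pow (p : ℕ) (u : F) :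
    h22_kumTheta p u ^ p = algebraMap F (h22_KumF p u) u := by
  have h := AdjoinRoot.eval₂_root (X ^ p - C u : F[X])
  rw [eval₂_sub, eval₂_X_pow, eval₂_C, sub_eq_zero] at h
  exact h

theorem h22_kum_ne_zero {p : ℕ} (hp : 0 < p) (u : F) : (X ^ p - C u : F[X]) ≠ 0 :=
  (monic_X_pow_sub_C u hp.ne').ne_zero

theorem h22_kum_natDegree (p : ℕ) (u : F) :
    (X ^ p - C u : F[X]).natDegree = p :=
  natDegree_X_pow_sub_C

/-- The power basis `1, θ, …, θ^(p-1)` indexed by `Fin p`. -/
def h22_kumBasis {p : ℕ} (hp : 0 < p) (u : F) : Module.Basis (Fin p) F (h22_KumF p u) :=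
  (AdjoinRoot.powerBasis (h22_kum_ne_zero hp u)).basis.reindex
    (finCongr (h22_kum_natDegree p u))

theorem h22_kumBasis_apply {p : ℕ} (hp : 0 < p) (u : F) (j : Fin p) :
    h22_kumBasis hp u j = h22_kumTheta p u ^ (j : ℕ) := by
  unfold h22_kumBasis
  rw [Module.Basis.reindex_apply, PowerBasis.coe_basis]
  simp

/-- `1, θ, …, θ^(p-1)` is linearly independent over `F`. -/
theorem h22_kum_li {p : ℕ} (hp : 0 < p) (u : F) :
    LinearIndependent F (fun j : Fin p => h22_kumTheta p u ^ (j : ℕ)) := by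
  have h := (h22_kumBasis hp u).linearIndependent
  have he : (⇑(h22_kumBasis hp u) : Fin p → h22_KumF p u) =
      fun j : Fin p => h22_kumTheta p u ^ (j : ℕ) := funext (h22_kumBasis_apply hp u)
  rwa [he] at h

/-- `1, θ, …, θ^(p-1)` spans `F'` over `F`. -/
theorem h22_kum_span {p : ℕ} (hp : 0 < p) (u : F) (f : h22_KumF p u) :
    ∃ c : Fin p → F, f = ∑ j, algebraMap F (h22_KumF p u) (c j) * h22_kumTheta p u ^ (j : ℕ) := by
  refine ⟨fun j => (h22_kumBasis hp u).repr f j, ?_⟩
  conv_lhs => rw [← (h22_kumBasis hp u).sum_repr f]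
  refine Finset.sum_congr rfl fun j _ => ?_
  rw [h22_kumBasis_apply, Algebra.smul_def]

theorem h22_kum_finite {p : ℕ} (hp : 0 < p) (u : F) : FiniteDimensional F (h22_KumF p u) :=
  Module.Finite.of_basis (h22_kumBasis hp u)

theorem h22_kum_finrank {p : ℕ} (hp : 0 < p) (u : F) : Module.finrank F (h22_KumF p u) = p := by
  rw [Module.finrank_eq_card_basis (h22_kumBasis hp u), Fintype.card_fin]

end Kummer

/-! ### The generator of the Galois group and semilinear lifts -/

section Galois

variable {K F : Type*} [Field K] [Field F] [Algebra K F]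

/-- The `F`-algebra endomorphism `θ ↦ ζ θ` of the Kummer extension. -/
def h22_kumGenHom (p : ℕ) (u : F) (ζ : K) (hζ : ζ ^ p = 1) :
    h22_KumF p u →ₐ[F] h22_KumF p u :=
  AdjoinRoot.liftAlgHom (X ^ p - C u : F[X]) (Algebra.ofId F (h22_KumF p u))
    (algebraMap K (h22_KumF p u) ζ * h22_kumTheta p u) (by
      rw [eval₂_sub, eval₂_X_pow, eval₂_C, mul_pow, ← map_pow, hζ, map_one, one_mul,
        h22_kumTheta_pow]
      exact sub_self _)

theorem h22_kumGenHom_theta (p : ℕ) (u : F) (ζ : K) (hζ : ζ ^ p = 1) :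
    h22_kumGenHom p u ζ hζ (h22_kumTheta p u) =
      algebraMap K (h22_KumF p u) ζ * h22_kumTheta p u :=
  AdjoinRoot.liftAlgHom_root _ _ _ _

/-- **The generator** `g θ = ζ θ` of the Galois group of the Kummer extension. -/
def h22_kumGen {p : ℕ} (hp : 0 < p) (u : F) [Fact (Irreducible (X ^ p - C u : F[X]))] (ζ : K)
    (hζ : ζ ^ p = 1) : h22_KumF p u ≃ₐ[F] h22_KumF p u :=
  haveI := h22_kum_finite hp u
  AlgEquiv.ofBijective (h22_kumGenHom p u ζ hζ) (AlgHom.bijective _)

theorem h22_kumGen_theta {p : ℕ} (hp : 0 < p) (u : F) [Fact (Irreducible (X ^ p - C u : F[X]))]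
    (ζ : K) (hζ : ζ ^ p = 1) :
    h22_kumGen hp u ζ hζ (h22_kumTheta p u) =
      algebraMap K (h22_KumF p u) ζ * h22_kumTheta p u :=
  h22_kumGenHom_theta p u ζ hζ

theorem h22_kumGen_pow_theta {p : ℕ} (hp : 0 < p) (u : F)
    [Fact (Irreducible (X ^ p - C u : F[X]))] (ζ : K) (hζ : ζ ^ p = 1) (i : ℕ) :
    (h22_kumGen hp u ζ hζ ^ i) (h22_kumTheta p u) =
      algebraMap K (h22_KumF p u) (ζ ^ i) * h22_kumTheta p u := by
  induction i with
  | zero => simp
  | succ i ih =>
    rw [pow_succ', AlgEquiv.mul_apply, ih, map_mul, h22_kumGen_theta]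
    have hc : h22_kumGen hp u ζ hζ (algebraMap K (h22_KumF p u) (ζ ^ i)) =
        algebraMap K (h22_KumF p u) (ζ ^ i) := by
      rw [IsScalarTower.algebraMap_apply K F (h22_KumF p u), AlgEquiv.commutes]
    rw [hc, pow_succ', map_mul]
    ring

end Galois

/-! ### Semilinear lifts -/

section Lift

variable {K F : Type*} [Field K] [Field F] [Algebra K F]

/-- The ring endomorphism of the Kummer extension lifting `τ` with `θ ↦ h θ`
(`τ u = h^p u`). -/
def h22_kumLiftHom (p : ℕ) (u : F) (τ : F ≃+* F) (h : F) (hτ : τ u = h ^ p * u) :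
    h22_KumF p u →+* h22_KumF p u :=
  AdjoinRoot.lift ((algebraMap F (h22_KumF p u)).comp (τ : F →+* F))
    (algebraMap F (h22_KumF p u) h * h22_kumTheta p u) (by
      rw [eval₂_sub, eval₂_X_pow, eval₂_C, mul_pow, h22_kumTheta_pow, RingHom.comp_apply,
        RingEquiv.coe_toRingHom, hτ, ← map_pow, ← map_mul]
      exact sub_self _)

theorem h22_kumLiftHom_algebraMap (p : ℕ) (u : F) (τ : F ≃+* F) (h : F)
    (hτ : τ u = h ^ p * u) (a : F) :
    h22_kumLiftHom p u τ h hτ (algebraMap F (h22_KumF p u) a) =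
      algebraMap F (h22_KumF p u) (τ a) := by
  have h1 : algebraMap F (h22_KumF p u) a = AdjoinRoot.of (X ^ p - C u : F[X]) a := rfl
  rw [h1]
  unfold h22_kumLiftHom
  rw [AdjoinRoot.lift_of]
  rfl

theorem h22_kumLiftHom_theta (p : ℕ) (u : F) (τ : F ≃+* F) (h : F) (hτ : τ u = h ^ p * u) :
    h22_kumLiftHom p u τ h hτ (h22_kumTheta p u) =
      algebraMap F (h22_KumF p u) h * h22_kumTheta p u :=
  AdjoinRoot.lift_root _

theorem h22_kumLiftHom_bijective {p : ℕ} (u : F) [Fact (Irreducible (X ^ p - C u : F[X]))]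
    (τ : F ≃+* F) (h : F) (hh : h ≠ 0) (hτ : τ u = h ^ p * u) :
    Function.Bijective (h22_kumLiftHom p u τ h hτ) := by
  refine ⟨RingHom.injective _, ?_⟩
  have hof : ∀ a : F, algebraMap F (h22_KumF p u) a ∈ (h22_kumLiftHom p u τ h hτ).range := by
    intro a
    exact ⟨algebraMap F (h22_KumF p u) (τ.symm a), by
      rw [h22_kumLiftHom_algebraMap, RingEquiv.apply_symm_apply]⟩
  have hθ : h22_kumTheta p u ∈ (h22_kumLiftHom p u τ h hτ).range := by
    have h1 : algebraMap F (h22_KumF p u) h * h22_kumTheta p u ∈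
        (h22_kumLiftHom p u τ h hτ).range := ⟨_, h22_kumLiftHom_theta p u τ h hτ⟩
    have h2 := mul_mem (hof h⁻¹) h1
    rwa [← mul_assoc, ← map_mul, inv_mul_cancel₀ hh, map_one, one_mul] at h2
  intro y
  induction y using AdjoinRoot.induction_on with
  | ih q =>
    show AdjoinRoot.mk _ q ∈ (h22_kumLiftHom p u τ h hτ).range
    induction q using Polynomial.induction_on with
    | C a =>
      rw [AdjoinRoot.mk_C, ← AdjoinRoot.algebraMap_eq]
      exact hof a
    | add q r hq hr =>
      rw [map_add]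
      exact add_mem hq hr
    | monomial n a ih =>
      rw [pow_succ, ← mul_assoc, map_mul, AdjoinRoot.mk_X]
      exact mul_mem ih hθ

/-- **The semilinear lift**: a semilinear automorphism `σ` of `F/K` with `σ u = h^p u` lifts to
the Kummer extension, with `θ ↦ h θ`. -/
def h22_kumLift {p : ℕ} (u : F) [Fact (Irreducible (X ^ p - C u : F[X]))]
    (σ : SemilinearAut K F) (h : F) (hh : h ≠ 0) (hσ : σ • u = h ^ p * u) :
    SemilinearAut K (h22_KumF p u) :=
  ⟨(RingEquiv.ofBijective (h22_kumLiftHom p u (SemilinearAut.toRingAut σ) h hσ)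
      (h22_kumLiftHom_bijective u _ h hh hσ), SemilinearAut.baseAut σ), fun a => by
    show h22_kumLiftHom p u (SemilinearAut.toRingAut σ) h hσ (algebraMap K (h22_KumF p u) a) =
      algebraMap K (h22_KumF p u) (SemilinearAut.baseAut σ a)
    rw [IsScalarTower.algebraMap_apply K F (h22_KumF p u), h22_kumLiftHom_algebraMap,
      SemilinearAut.commutes, ← IsScalarTower.algebraMap_apply]⟩

theorem h22_kumLift_algebraMap {p : ℕ} (u : F) [Fact (Irreducible (X ^ p - C u : F[X]))]
    (σ : SemilinearAut K F) (h : F) (hh : h ≠ 0) (hσ : σ • u = h ^ p * u) (f : F) :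
    h22_kumLift u σ h hh hσ • algebraMap F (h22_KumF p u) f =
      algebraMap F (h22_KumF p u) (σ • f) :=
  h22_kumLiftHom_algebraMap p u _ h hσ f

theorem h22_kumLift_theta {p : ℕ} (u : F) [Fact (Irreducible (X ^ p - C u : F[X]))]
    (σ : SemilinearAut K F) (h : F) (hh : h ≠ 0) (hσ : σ • u = h ^ p * u) :
    h22_kumLift u σ h hh hσ • h22_kumTheta p u =
      algebraMap F (h22_KumF p u) h * h22_kumTheta p u :=
  h22_kumLiftHom_theta p u _ h hσ

theorem h22_kumLift_baseAut {p : ℕ} (u : F) [Fact (Irreducible (X ^ p - C u : F[X]))]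
    (σ : SemilinearAut K F) (h : F) (hh : h ≠ 0) (hσ : σ • u = h ^ p * u) :
    SemilinearAut.baseAut (h22_kumLift u σ h hh hσ) = SemilinearAut.baseAut σ := rfl

theorem h22_kumLift_algebraMapK {p : ℕ} (u : F) [Fact (Irreducible (X ^ p - C u : F[X]))]
    (σ : SemilinearAut K F) (h : F) (hh : h ≠ 0) (hσ : σ • u = h ^ p * u) (a : K) :
    h22_kumLift u σ h hh hσ • algebraMap K (h22_KumF p u) a =
      algebraMap K (h22_KumF p u) (SemilinearAut.baseAut σ a) :=
  SemilinearAut.smul_algebraMap _ a

end Lift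

/-! ### Orders of the Kummer generator; lifts and pulled-back divisors -/

section Ord

variable {K F F' : Type*} [Field K] [Field F] [Field F'] [Algebra K F] [Algebra K F']
  [Algebra F F'] [IsScalarTower K F F'] [Algebra.IsIntegral F F'] [HasPrincipalDivisors K F']

/-- **`div θ^a = π^* (a • E)`** when `θ^p = u` and `p • E = div u`. -/
theorem h22_ord_kummer {p : ℕ} (hp : p ≠ 0) {u : F} {θ : F'} (hθ : θ ^ p = algebraMap F F' u)
    (E : Divisor K F) (hdiv : ∀ v : Place K F, (p : ℤ) * E v = v.ord u) (a : ℕ)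
    (w : Place K F') : w.ord (θ ^ a) = Divisor.pullback F' (a • E) w := by
  have h1 : (p : ℤ) * w.ord θ = (p : ℤ) * ((w.ramificationIndex F : ℤ) * E (w.restrict F)) := by
    have h2 : w.ord (θ ^ p) = (p : ℤ) * w.ord θ := by
      rw [← zpow_natCast, w.ord_zpow]
    rw [← h2, hθ, w.ord_restrict, ← hdiv]
    ring
  have h3 : w.ord θ = (w.ramificationIndex F : ℤ) * E (w.restrict F) :=
    mul_left_cancel₀ (Nat.cast_ne_zero.mpr hp) h1
  rw [← zpow_natCast, w.ord_zpow, h3, Divisor.pullback_apply, Finsupp.smul_apply]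
  simp only [nsmul_eq_mul]
  ring

variable (σ' : SemilinearAut K F') (σ : SemilinearAut K F)

omit [Algebra.IsIntegral F F'] [HasPrincipalDivisors K F'] [IsScalarTower K F F'] in
/-- A lift of `σ` to `F'`: the inverse lifts the inverse. -/
theorem h22_lift_inv (hlift : ∀ f : F, σ' • algebraMap F F' f = algebraMap F F' (σ • f))
    (f : F) : σ'⁻¹ • algebraMap F F' f = algebraMap F F' (σ⁻¹ • f) := by
  rw [inv_smul_eq_iff, hlift, smul_inv_smul]

omit [HasPrincipalDivisors K F'] in
/-- A lift of `σ` to `F'` commutes with the restriction of places. -/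
theorem h22_restrict_smul (hlift : ∀ f : F, σ' • algebraMap F F' f = algebraMap F F' (σ • f))
    (w : Place K F') : (σ' • w).restrict F = σ • (w.restrict F) := by
  apply Place.ext
  ext f
  rw [Place.mem_restrict_iff, SemilinearAut.smul_toValuationSubring,
    SemilinearAut.smul_toValuationSubring,
    ValuationSubring.mem_pointwise_smul_iff_inv_smul_mem,
    ValuationSubring.mem_pointwise_smul_iff_inv_smul_mem, h22_lift_inv σ' σ hlift,
    Place.mem_restrict_iff]

omit [Algebra.IsIntegral F F'] [HasPrincipalDivisors K F'] [IsScalarTower K F F'] in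
/-- A lift of `σ` to `F'` preserves ramification indices. -/
theorem h22_ramificationIndex_smul
    (hlift : ∀ f : F, σ' • algebraMap F F' f = algebraMap F F' (σ • f)) (w : Place K F') :
    (σ' • w).ramificationIndex F = w.ramificationIndex F := by
  unfold Place.ramificationIndex
  congr 1
  ext n
  simp only [Set.mem_ofPred_eq]
  refine and_congr_right fun _ => ⟨?_, ?_⟩
  · rintro ⟨f, hf, hn⟩
    refine ⟨σ⁻¹ • f, ?_, ?_⟩
    · intro h0
      apply hf
      have := congrArg (σ • ·) h0
      simpa using this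
    · rw [← hn, ← h22_lift_inv σ' σ hlift]
      conv_rhs => rw [← smul_inv_smul σ' (algebraMap F F' f)]
      rw [SemilinearAut.ord_smul]
  · rintro ⟨f, hf, hn⟩
    refine ⟨σ • f, ?_, ?_⟩
    · intro h0
      apply hf
      have := congrArg (σ⁻¹ • ·) h0
      simpa using this
    · rw [← hlift, SemilinearAut.ord_smul]
      exact hn

/-- **A lift of `σ` to `F'` carries `π^* D` to `π^* (σ • D)`.** -/
theorem h22_smul_pullback (hlift : ∀ f : F, σ' • algebraMap F F' f = algebraMap F F' (σ • f))
    (D : Divisor K F) : σ' • Divisor.pullback F' D = Divisor.pullback F' (σ • D) := by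
  ext w
  have hinv : ∀ f : F, σ'⁻¹ • algebraMap F F' f = algebraMap F F' (σ⁻¹ • f) :=
    h22_lift_inv σ' σ hlift
  rw [SemilinearAut.divisor_smul_apply, Divisor.pullback_apply, Divisor.pullback_apply,
    h22_restrict_smul σ'⁻¹ σ⁻¹ hinv, h22_ramificationIndex_smul σ'⁻¹ σ⁻¹ hinv,
    SemilinearAut.divisor_smul_apply]

/-- An automorphism of `F'` over `F`, as a semilinear automorphism of `F'/K`. -/
def h22_semilinOfAlgEquiv (g : F' ≃ₐ[F] F') : SemilinearAut K F' :=
  SemilinearAut.ofAlgAut (g.restrictScalars K)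

omit [Algebra.IsIntegral F F'] [HasPrincipalDivisors K F'] in
theorem h22_semilinOfAlgEquiv_smul (g : F' ≃ₐ[F] F') (f : F') :
    (h22_semilinOfAlgEquiv (K := K) g) • f = g f := rfl

omit [Algebra.IsIntegral F F'] [HasPrincipalDivisors K F'] in
theorem h22_semilinOfAlgEquiv_baseAut (g : F' ≃ₐ[F] F') :
    SemilinearAut.baseAut (h22_semilinOfAlgEquiv (K := K) g) = 1 := rfl

/-- Automorphisms of `F'` over `F` fix pulled-back divisors. -/
theorem h22_algEquiv_smul_pullback (g : F' ≃ₐ[F] F') (D : Divisor K F) :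
    (h22_semilinOfAlgEquiv (K := K) g) • Divisor.pullback F' D = Divisor.pullback F' D := by
  have h := h22_smul_pullback (h22_semilinOfAlgEquiv (K := K) g) (1 : SemilinearAut K F)
    (fun f => by rw [h22_semilinOfAlgEquiv_smul, AlgEquiv.commutes, one_smul]) D
  rwa [one_smul] at h

end Ord

/-! ### Divisors and `p`-th powers on `F` -/

section Dict

variable {K F : Type*} [Field K] [Field F] [Algebra K F]

/-- If `p • E = div u` and `u` is a `p`-th power, then `E` is principal. -/
theorem h22_not_pow_of_not_principal {p : ℕ} (hp : p ≠ 0) {u : F} (hu : u ≠ 0)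
    (E : Divisor K F) (hdiv : ∀ v : Place K F, (p : ℤ) * E v = v.ord u)
    (hE : E ∉ Divisor.principal (K := K) (F := F)) : ∀ h : F, h ^ p ≠ u := by
  intro h hh
  apply hE
  have hh0 : h ≠ 0 := by
    rintro rfl
    rw [zero_pow hp] at hh
    exact hu hh.symm
  refine ⟨h, hh0, fun v => ?_⟩
  have h1 : (p : ℤ) * E v = (p : ℤ) * v.ord h := by
    rw [hdiv, ← hh, ← zpow_natCast, v.ord_zpow]
  exact mul_left_cancel₀ (Nat.cast_ne_zero.mpr hp) h1

/-- If `p • D = div w` and `D` is principal, then `w` is a `p`-th power (`K` algebraically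
closed, `F` with a chart). -/
theorem h22_exists_root_of_principal [IsAlgClosed K] {x : F} (hx : h75_IsChart K x) {p : ℕ}
    (hp : p ≠ 0) {w : F} (hw : w ≠ 0) (D : Divisor K F)
    (hD : ∀ v : Place K F, (p : ℤ) * D v = v.ord w)
    (hprin : D ∈ Divisor.principal (K := K) (F := F)) : ∃ h : F, h ≠ 0 ∧ w = h ^ p := by
  obtain ⟨h0, hh0, hD0⟩ := hprin
  have hpow0 : h0 ^ p ≠ 0 := pow_ne_zero p hh0
  set t : F := w * (h0 ^ p)⁻¹ with ht
  have ht0 : t ≠ 0 := mul_ne_zero hw (inv_ne_zero hpow0)
  have hord : ∀ v : Place K F, v.ord t = 0 := by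
    intro v
    rw [ht, v.ord_mul hw (inv_ne_zero hpow0), v.ord_inv, ← zpow_natCast, v.ord_zpow, ← hD,
      hD0 v]
    ring
  have hmem : t ∈ riemannRochSpace (0 : Divisor K F) := by
    rw [mem_riemannRochSpace_iff]
    intro v
    right
    rw [hord v]
    simp
  rw [h7_rr_zero_eq hx, Submodule.mem_span_singleton] at hmem
  obtain ⟨c, hc⟩ := hmem
  have hc0 : c ≠ 0 := by
    rintro rfl
    rw [zero_smul] at hc
    exact ht0 hc.symm
  obtain ⟨c0, hc0'⟩ := IsAlgClosed.exists_pow_nat_eq c (Nat.pos_of_ne_zero hp)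
  have hc00 : c0 ≠ 0 := by
    rintro rfl
    rw [zero_pow hp] at hc0'
    exact hc0 hc0'.symm
  refine ⟨algebraMap K F c0 * h0, mul_ne_zero ((_root_.map_ne_zero _).mpr hc00) hh0, ?_⟩
  have h1 : w = t * h0 ^ p := by
    rw [ht, mul_assoc, inv_mul_cancel₀ hpow0, mul_one]
  rw [h1, ← hc, mul_pow, ← map_pow, hc0', Algebra.smul_def, mul_one]

end Dict

/-! ### The Kummer extension as a function field -/

section KumFF

variable {K F : Type*} [Field K] [Field F] [Algebra K F]

/-- A chart of `F` is a chart of the Kummer extension. -/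
theorem h22_kum_isChart [CharZero K] {x : F} (hx : h75_IsChart K x) {p : ℕ} (hp : 0 < p)
    (u : F) [Fact (Irreducible (X ^ p - C u : F[X]))] :
    h75_IsChart K (algebraMap F (h22_KumF p u) x) :=
  haveI := h22_kum_finite hp u
  h22_isChart_of_finite hx

theorem h22_kum_isIntegral {p : ℕ} (hp : 0 < p) (u : F)
    [Fact (Irreducible (X ^ p - C u : F[X]))] : Algebra.IsIntegral F (h22_KumF p u) :=
  haveI := h22_kum_finite hp u
  Algebra.IsIntegral.of_finite F (h22_KumF p u)

theorem h22_kum_hasPrincipalDivisors [IsAlgClosed K] [CharZero K] {x : F} (hx : h75_IsChart K x) {p : ℕ}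
    (hp : 0 < p) (u : F) [Fact (Irreducible (X ^ p - C u : F[X]))] :
    HasPrincipalDivisors K (h22_KumF p u) :=
  h75_hasPrincipalDivisors (h22_kum_isChart hx hp u)

end KumFF

/-! ### The packaged existence statement -/

section Package

universe uK uF

variable {K : Type uK} {F : Type uF} [Field K] [Field F] [Algebra K F]

/-- **KUM-FF**: the degree-`p` Kummer cover of a function field `F/K` attached to a
non-principal divisor `E` with `p • E = div u`, with all the structure used by the cover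
argument: a chart, principal divisors, the power basis of `θ`, `div θ^a = π^*(a • E)`, the
generator of the Galois group and the lifts of semilinear automorphisms. -/
theorem h22_kum_cover_exists [IsAlgClosed K] [CharZero K] {x : F} (hx : h75_IsChart K x)
    {p : ℕ} (hp : p.Prime) (ζ : K) (hζ : ζ ^ p = 1) (u : F) (hu : u ≠ 0) (E : Divisor K F)
    (hdiv : ∀ v : Place K F, (p : ℤ) * E v = v.ord u)
    (hE : E ∉ Divisor.principal (K := K) (F := F)) :
    ∃ (F' : Type uF) (_ : Field F') (_ : Algebra F F') (_ : Algebra K F')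
      (_ : IsScalarTower K F F') (_ : FiniteDimensional F F') (_ : Algebra.IsIntegral F F')
      (_ : HasPrincipalDivisors K F') (θ : F'),
      h75_IsChart K (algebraMap F F' x) ∧ Module.finrank F F' = p ∧
      θ ^ p = algebraMap F F' u ∧
      LinearIndependent F (fun j : Fin p => θ ^ (j : ℕ)) ∧
      (∀ f : F', ∃ c : Fin p → F, f = ∑ j, algebraMap F F' (c j) * θ ^ (j : ℕ)) ∧
      (∀ (a : ℕ) (w : Place K F'), w.ord (θ ^ a) = Divisor.pullback F' (a • E) w) ∧
      (∃ g : F' ≃ₐ[F] F', g θ = algebraMap K F' ζ * θ) ∧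
      (∀ (σ : SemilinearAut K F) (h : F), h ≠ 0 → σ • u = h ^ p * u →
        ∃ σ' : SemilinearAut K F',
          (∀ f : F, σ' • algebraMap F F' f = algebraMap F F' (σ • f)) ∧
          σ' • θ = algebraMap F F' h * θ ∧
          SemilinearAut.baseAut σ' = SemilinearAut.baseAut σ) := by
  have hirr : Irreducible (X ^ p - C u : F[X]) :=
    h22_kum_irreducible hp (h22_not_pow_of_not_principal hp.ne_zero hu E hdiv hE)
  have : Fact (Irreducible (X ^ p - C u : F[X])) := ⟨hirr⟩
  have hfin : FiniteDimensional F (h22_KumF p u) := h22_kum_finite hp.pos u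
  have hint : Algebra.IsIntegral F (h22_KumF p u) := h22_kum_isIntegral hp.pos u
  have hPD : HasPrincipalDivisors K (h22_KumF p u) :=
    h22_kum_hasPrincipalDivisors hx hp.pos u
  refine ⟨h22_KumF p u, inferInstance, inferInstance, inferInstance, inferInstance, hfin, hint,
    hPD, h22_kumTheta p u, h22_kum_isChart hx hp.pos u, h22_kum_finrank hp.pos u,
    h22_kumTheta_pow p u, h22_kum_li hp.pos u, h22_kum_span hp.pos u, ?_, ?_, ?_⟩
  · intro a w
    exact h22_ord_kummer hp.ne_zero (h22_kumTheta_pow p u) E hdiv a w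
  · exact ⟨h22_kumGen hp.pos u ζ hζ, h22_kumGen_theta hp.pos u ζ hζ⟩
  · intro σ h hh hσ
    exact ⟨h22_kumLift u σ h hh hσ, h22_kumLift_algebraMap u σ h hh hσ,
      h22_kumLift_theta u σ h hh hσ, h22_kumLift_baseAut u σ h hh hσ⟩

end Package

end Fermat.Agent.S33
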