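import Mathlib
import Fermat.Agent.S33.h15_ASLat

/-!
# S33 (N2): the integral elements of a lattice datum with reduced reduction ring

Generic (Mathlib + `h22_Lat` + helper15's `h15_ASData`).

* `h35_lat_mem_of_monic`, `h35_lat_mem_of_isIntegral` : if `Rb` is reduced, the ring `O` of a
  lattice datum `D : h22_Lat K F k Rb` is integrally closed in `F`: an element of `F` that is a
  root of a monic polynomial with coefficients in `O` lies in `O`.
  (Scale `f` by a constant `c` so that `c f ∈ O` has nonzero reduction; if `c` were a non-unit of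
  `A`, the scaled equation would reduce to `red (c f) ^ n = 0`.)
* `h35_as_map_mem` : for the split step `S : h15_ASData D F' n` (reduction ring `Fin n → Rb`,
  reduced): a ring endomorphism `ψ` of `F'` that maps `O` into `O'` maps `O'` into `O'`
  (`ψ y` is a root of a monic polynomial over `O'`).  This is the hypothesis "`ψ y ∈ O'`" of the
  sheet action of a semilinear lift `τ~` of an inertia element.
* `h35_as_map_mem_iff` : for an automorphism `ψ` with `ψ` and `ψ⁻¹` preserving `O`:
  `ψ f ∈ O' ↔ f ∈ O'`.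
-/

set_option autoImplicit false

noncomputable section

open Polynomial Module

namespace Fermat.Agent.S33

open Fermat.Agent.S34

variable {K F k Rb : Type*} [Field K] [Field F] [Algebra K F] [Field k] [CommRing Rb]
  [Algebra k Rb]

/-- **`O` is integrally closed in `F`** (monic-equation form) when the reduction ring is
reduced. -/
theorem h35_lat_mem_of_monic (D : h22_Lat K F k Rb) [IsReduced Rb] {f : F}
    (P : Polynomial D.O) (hP : P.Monic) (hroot : Polynomial.eval₂ D.O.subtype f P = 0) :
    f ∈ D.O := by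
  rcases eq_or_ne f 0 with rfl | hf0
  · exact D.O.zero_mem
  obtain ⟨c, hc, hmem, hred⟩ := D.exists_scale f hf0
  by_cases hcinv : c⁻¹ ∈ D.A
  · have h1 : f = algebraMap K F c⁻¹ * (algebraMap K F c * f) := by
      rw [← mul_assoc, ← map_mul, inv_mul_cancel₀ hc, map_one, one_mul]
    rw [h1]
    exact D.O.mul_mem ((D.mem_iff _).mp hcinv) hmem
  exfalso
  have hcA : c ∈ D.A := (D.A.mem_or_inv_mem c).resolve_right hcinv
  have hcnu : c ∈ D.A.nonunits := by
    rw [ValuationSubring.mem_nonunits_iff]
    by_contra hlt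
    apply hcinv
    rw [← D.A.valuation_le_one_iff, map_inv₀]
    exact inv_le_one_of_one_le₀ (not_lt.mp hlt)
  have hcO : algebraMap K F c ∈ D.O := (D.mem_iff c).mp hcA
  set s : D.O := ⟨algebraMap K F c, hcO⟩ with hs
  set g : D.O := ⟨algebraMap K F c * f, hmem⟩ with hg
  have hreds : D.red s = 0 := by
    rw [hs, D.red_algebraMap c hcA hcO, (h22_res_eq_zero_iff D ⟨c, hcA⟩).mpr hcnu, map_zero]
  -- the scaled equation
  have h1 : Polynomial.eval₂ D.O.subtype (D.O.subtype s * f) (Polynomial.scaleRoots P s) = 0 :=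
    Polynomial.scaleRoots_eval₂_eq_zero D.O.subtype hroot
  have h2 : Polynomial.eval₂ D.O.subtype (D.O.subtype g) (Polynomial.scaleRoots P s) = 0 := h1
  have h3 : Polynomial.eval g (Polynomial.scaleRoots P s) = 0 := by
    apply Subtype.ext
    have := Polynomial.hom_eval₂ (Polynomial.scaleRoots P s) (RingHom.id D.O) D.O.subtype g
    rw [RingHom.comp_id, Polynomial.eval₂_id] at this
    show D.O.subtype (Polynomial.eval g (Polynomial.scaleRoots P s)) = _
    rw [this, h2]
    rfl
  have h4 : Polynomial.eval (D.red g) ((Polynomial.scaleRoots P s).map D.red) = 0 := by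
    rw [Polynomial.eval_map]
    have h5 := Polynomial.hom_eval₂ (Polynomial.scaleRoots P s) (RingHom.id D.O) D.red g
    rw [RingHom.comp_id, Polynomial.eval₂_id, h3, map_zero] at h5
    exact h5.symm
  rcases subsingleton_or_nontrivial Rb with hsub | hnt
  · exact hred (Subsingleton.elim _ _)
  have hlead : D.red P.leadingCoeff ≠ 0 := by
    rw [hP.leadingCoeff, map_one]
    exact one_ne_zero
  rw [Polynomial.map_scaleRoots P s D.red hlead, hreds, Polynomial.scaleRoots_zero,
    (hP.map D.red).leadingCoeff, one_smul, Polynomial.eval_pow, Polynomial.eval_X] at h4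
  exact hred (IsReduced.eq_zero _ ⟨_, h4⟩)

/-- `O` is integrally closed in `F` when the reduction ring is reduced. -/
theorem h35_lat_mem_of_isIntegral (D : h22_Lat K F k Rb) [IsReduced Rb] {f : F}
    (hf : IsIntegral D.O f) : f ∈ D.O := by
  obtain ⟨P, hP, hroot⟩ := hf
  exact h35_lat_mem_of_monic D P hP hroot

/-- Ring-hom form: an element integral over a subring `O₀ ≤ O` (through any ring hom into `O`)
lies in `O`. -/
theorem h35_lat_mem_of_monic_hom (D : h22_Lat K F k Rb) [IsReduced Rb] {R : Type*} [CommRing R]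
    (φ : R →+* F) (hφ : ∀ r, φ r ∈ D.O) {f : F} (P : Polynomial R) (hP : P.Monic)
    (hroot : Polynomial.eval₂ φ f P = 0) : f ∈ D.O := by
  set φ' : R →+* D.O := φ.codRestrict D.O hφ with hφ'
  have hcomp : D.O.subtype.comp φ' = φ := by
    ext r
    rfl
  apply h35_lat_mem_of_monic D (P.map φ') (hP.map φ')
  rw [Polynomial.eval₂_map, hcomp]
  exact hroot

section AS

variable {D : h22_Lat K F k Rb} {F' : Type*} [Field F'] [Algebra F F'] {n : ℕ}
  [Algebra K F'] [IsScalarTower K F F']

/-- A ring endomorphism of `F'` that maps `O` into `O'` maps the generator `y` into `O'`. -/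
theorem h35_as_map_y_mem (S : h15_ASData D F' n) [IsReduced Rb] (ψ : F' →+* F')
    (hψ : ∀ f : F, f ∈ D.O → ψ (algebraMap F F' f) ∈ S.O') : ψ S.y ∈ S.O' := by
  have h1 : ∀ r : D.O, (ψ.comp (h15_incl D F')) r ∈ S.lat.O := fun r => hψ r.1 r.2
  refine h35_lat_mem_of_monic_hom S.lat (ψ.comp (h15_incl D F')) h1 S.P S.monic ?_
  rw [← Polynomial.hom_eval₂, S.root, map_zero]

/-- **A ring endomorphism of `F'` that maps `O` into `O'` maps `O'` into `O'`.** -/
theorem h35_as_map_mem (S : h15_ASData D F' n) [IsReduced Rb] (ψ : F' →+* F')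
    (hψ : ∀ f : F, f ∈ D.O → ψ (algebraMap F F' f) ∈ S.O') {f : F'} (hf : f ∈ S.O') :
    ψ f ∈ S.O' := by
  obtain ⟨q, rfl⟩ := (S.mem_O' f).mp hf
  rw [S.ev_apply, Polynomial.hom_eval₂, Polynomial.eval₂_eq_sum_range]
  refine Subring.sum_mem _ fun i _ => ?_
  exact S.O'.mul_mem (hψ _ (q.coeff i).2) (S.O'.pow_mem (h35_as_map_y_mem S ψ hψ) i)

/-- For an automorphism `ψ` of `F'` such that `ψ` and `ψ⁻¹` map `O` into `O'`:
`ψ f ∈ O' ↔ f ∈ O'`. -/
theorem h35_as_map_mem_iff (S : h15_ASData D F' n) [IsReduced Rb] (ψ : F' ≃+* F')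
    (hψ : ∀ f : F, f ∈ D.O → ψ (algebraMap F F' f) ∈ S.O')
    (hψ' : ∀ f : F, f ∈ D.O → ψ.symm (algebraMap F F' f) ∈ S.O') (f : F') :
    ψ f ∈ S.O' ↔ f ∈ S.O' := by
  constructor
  · intro h
    have := h35_as_map_mem S (ψ.symm : F' →+* F') hψ' h
    simpa using this
  · intro h
    exact h35_as_map_mem S (ψ : F' →+* F') hψ h

end AS

end Fermat.Agent.S33
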