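import Mathlib
import Fermat.Agent.S33.h15_ASLat
import Fermat.Agent.S33.h35_LatIntClosed
import Fermat.Agent.S33.h35_PullEquiv

/-!
# S33 (N2), row R2 (SHIFT) of the "N-min" skeleton: the deck transformation moves the sheets by
`a ↦ a + 1` and preserves `red' (L'(n π^* D0) ∩ O')`

Generic pieces (any split step `S : h15_ASData D F' n`):

* `h35_inclO`, `h35_as_hom_ext` : two ring homs out of `O' = O[y]` that agree on `O` and at `y`
  are equal;
* `h35_as_red_of_y` : for a ring endomorphism `ψ` of `F'` preserving `O'`, compatible with the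
  reduction on `O` after a ring hom `q : Rb →+* L`, the value of `q (red' (ψ y) a)` determines
  the action on the sheets: `q (red' (ψ y) a) = q (r b)` implies
  `q (red' (ψ f) a) = q (red' f b)` for all `f ∈ O'`;
* `h35_exists_deck` : the deck transformation `g θ = ζ θ` of `F' = F(θ)`, `θ^p = u₀`;
* `h35_deck_y` : `g y = ζ y + 1` for `y = (θ - 1)/(ζ - 1)`;
* `h35_res_zeta` : `res ζ = 1`.

Row R2: `h35_shift_stab` = `h85sk_shift_stab` of the skeleton (helper85, d0b399b), verbatim.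
-/

set_option autoImplicit false

noncomputable section

open AlgebraicCurve Module Polynomial

namespace Fermat.Agent.S33

open Fermat.Agent.S34

section Generic

variable {K F k Rb : Type*} [Field K] [Field F] [Algebra K F] [Field k] [CommRing Rb]
  [Algebra k Rb]
variable {D : h22_Lat K F k Rb} {F' : Type*} [Field F'] [Algebra F F'] {n : ℕ}
  [Algebra K F'] [IsScalarTower K F F']

/-- the inclusion `O → O'` -/
def h35_inclO (S : h15_ASData D F' n) : D.O →+* S.O' :=
  (h15_incl D F').codRestrict S.O' (fun c => (S.algebraMap_mem_O'_iff (c : F)).mpr c.2)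

theorem h35_inclO_coe (S : h15_ASData D F' n) (c : D.O) :
    ((h35_inclO S c : S.O') : F') = algebraMap F F' (c : F) := rfl

/-- every element of `O'` is a polynomial in `y` with coefficients in `O`, inside `O'` -/
theorem h35_as_eq_eval₂ (S : h15_ASData D F' n) (q : Polynomial D.O) (hf : S.ev q ∈ S.O') :
    (⟨S.ev q, hf⟩ : S.O') = Polynomial.eval₂ (h35_inclO S) ⟨S.y, S.y_mem⟩ q := by
  apply Subtype.ext
  have h1 := Polynomial.hom_eval₂ q (h35_inclO S) S.O'.subtype ⟨S.y, S.y_mem⟩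
  have h2 : S.O'.subtype.comp (h35_inclO S) = h15_incl D F' := RingHom.ext fun c => rfl
  rw [h2] at h1
  exact h1.symm

/-- **Two ring homs out of `O'` that agree on `O` and at `y` are equal.** -/
theorem h35_as_hom_ext (S : h15_ASData D F' n) {R : Type*} [CommRing R] (α β : S.O' →+* R)
    (hO : ∀ c : D.O, α (h35_inclO S c) = β (h35_inclO S c))
    (hy : α ⟨S.y, S.y_mem⟩ = β ⟨S.y, S.y_mem⟩) : α = β := by
  have h1 : α.comp (h35_inclO S) = β.comp (h35_inclO S) := RingHom.ext hO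
  ext ⟨f, hf⟩
  obtain ⟨q, rfl⟩ := (S.mem_O' f).mp hf
  rw [h35_as_eq_eval₂ S q hf, Polynomial.hom_eval₂, Polynomial.hom_eval₂, h1, hy]

/-- **The sheet action of a ring endomorphism preserving `O'`** is determined by the reduction
of the image of `y`. -/
theorem h35_as_red_of_y (S : h15_ASData D F' n) {L : Type*} [CommRing L] (q : Rb →+* L)
    (ψ : F' →+* F') (hψ : ∀ f ∈ S.O', ψ f ∈ S.O')
    (hO : ∀ (x : F) (hx : x ∈ D.O) (hx' : ψ (algebraMap F F' x) ∈ S.O') (a : Fin n),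
      q (S.red' ⟨ψ (algebraMap F F' x), hx'⟩ a) = q (D.red ⟨x, hx⟩))
    (a b : Fin n)
    (hy : q (S.red' ⟨ψ S.y, hψ _ S.y_mem⟩ a) = q (algebraMap k Rb (S.r b)))
    (f : F') (hf : f ∈ S.O') :
    q (S.red' ⟨ψ f, hψ f hf⟩ a) = q (S.red' ⟨f, hf⟩ b) := by
  set ψO : S.O' →+* S.O' := (ψ.comp S.O'.subtype).codRestrict S.O' (fun f => hψ f.1 f.2)
    with hψO
  set α : S.O' →+* L := (q.comp (Pi.evalRingHom (fun _ : Fin n => Rb) a)).comp (S.red'.comp ψO)
    with hα
  set β : S.O' →+* L := (q.comp (Pi.evalRingHom (fun _ : Fin n => Rb) b)).comp S.red' with hβ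
  have key : α = β := by
    apply h35_as_hom_ext S α β
    · intro c
      have h1 : α (h35_inclO S c) = q (S.red' ⟨ψ (algebraMap F F' (c : F)),
          hψ _ ((S.algebraMap_mem_O'_iff (c : F)).mpr c.2)⟩ a) := rfl
      have h2 : β (h35_inclO S c) = q (S.red' ⟨algebraMap F F' (c : F),
          (S.algebraMap_mem_O'_iff (c : F)).mpr c.2⟩ b) := rfl
      rw [h1, h2, hO (c : F) c.2, S.red'_algebraMap (c : F) c.2]
    · have h1 : α ⟨S.y, S.y_mem⟩ = q (S.red' ⟨ψ S.y, hψ _ S.y_mem⟩ a) := rfl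
      have h2 : β ⟨S.y, S.y_mem⟩ = q (S.red' ⟨S.y, S.y_mem⟩ b) := rfl
      rw [h1, h2, hy]
      have h3 := S.lat_red_y S.y_mem b
      have h4 : S.lat.red ⟨S.y, S.y_mem⟩ b = S.red' ⟨S.y, S.y_mem⟩ b := rfl
      rw [← h4, h3]
  have h5 := congrArg (fun φ : S.O' →+* L => φ ⟨f, hf⟩) key
  exact h5

end Generic

section Deck

variable {K F : Type*} [Field K] [Field F] [Algebra K F]
variable {F' : Type*} [Field F'] [Algebra F F'] [Algebra K F'] [IsScalarTower K F F']

/-- **The deck transformation** of `F' = F(θ)`, `θ^p = u₀` (power basis `θ^j`, `j < p`, of an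
extension of degree `p`): `g θ = ζ θ`. -/
theorem h35_exists_deck {p : ℕ} (hp0 : 0 < p) (hfr : Module.finrank F F' = p)
    (ζ : K) (hζ : ζ ^ p = 1) (θ : F') (u₀ : F) (hθ : θ ^ p = algebraMap F F' u₀)
    (hli : LinearIndependent F (fun j : Fin p => θ ^ (j : ℕ))) :
    ∃ g : F' ≃ₐ[F] F', g θ = algebraMap K F' ζ * θ := by
  haveI : Nonempty (Fin p) := ⟨⟨0, hp0⟩⟩
  haveI : FiniteDimensional F F' := Module.finite_of_finrank_pos (by rw [hfr]; exact hp0)
  have hcard : Fintype.card (Fin p) = Module.finrank F F' := by rw [Fintype.card_fin, hfr]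
  set bθ : Module.Basis (Fin p) F F' := basisOfLinearIndependentOfCardEqFinrank hli hcard
    with hbθ
  have hbθc : ∀ i : Fin p, bθ i = θ ^ (i : ℕ) := fun i => by
    rw [hbθ, coe_basisOfLinearIndependentOfCardEqFinrank]
  set pb : PowerBasis F F' := ⟨θ, p, bθ, hbθc⟩ with hpb
  have hgen : pb.gen = θ := rfl
  have hdim : pb.dim = p := rfl
  -- the minimal polynomial
  have hroot : Polynomial.aeval θ (X ^ p - C u₀ : F[X]) = 0 := by
    rw [map_sub, map_pow, Polynomial.aeval_X, Polynomial.aeval_C, hθ, sub_self]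
  have hmonic : (X ^ p - C u₀ : F[X]).Monic := Polynomial.monic_X_pow_sub_C u₀ hp0.ne'
  have hnd : (X ^ p - C u₀ : F[X]).natDegree = p := Polynomial.natDegree_X_pow_sub_C
  have hmin : (X ^ p - C u₀ : F[X]) = minpoly F θ := by
    have hint : IsIntegral F θ := ⟨_, hmonic, by rw [← Polynomial.aeval_def]; exact hroot⟩
    refine Polynomial.eq_of_monic_of_dvd_of_natDegree_le (minpoly.monic hint) hmonic
      (minpoly.dvd F θ hroot) ?_
    rw [hnd, ← hgen, pb.natDegree_minpoly]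
  have hy : Polynomial.aeval (algebraMap K F' ζ * θ) (minpoly F pb.gen) = 0 := by
    rw [hgen, ← hmin, map_sub, map_pow, Polynomial.aeval_X, Polynomial.aeval_C, mul_pow, hθ,
      ← map_pow, hζ, map_one, one_mul, sub_self]
  set φ : F' →ₐ[F] F' := pb.lift (algebraMap K F' ζ * θ) hy with hφ
  refine ⟨AlgEquiv.ofBijective φ (AlgHom.bijective φ), ?_⟩
  show φ θ = _
  exact pb.lift_gen _ hy

/-- `g y = ζ y + 1` for `y = (θ - 1)/(ζ - 1)`. -/
theorem h35_deck_y (g : F' ≃ₐ[F] F') (ζ : K) (hζ1 : ζ ≠ 1) (θ : F')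
    (hg : g θ = algebraMap K F' ζ * θ) :
    g ((θ - 1) / algebraMap K F' (ζ - 1)) =
      algebraMap K F' ζ * ((θ - 1) / algebraMap K F' (ζ - 1)) + 1 := by
  have h1 : ∀ c : K, g (algebraMap K F' c) = algebraMap K F' c := fun c => by
    rw [IsScalarTower.algebraMap_apply K F F']
    exact g.commutes _
  have h0 : algebraMap K F' (ζ - 1) ≠ 0 := by
    rw [Ne, map_eq_zero]
    exact sub_ne_zero.mpr hζ1
  rw [map_div₀, map_sub, map_one, hg, h1]
  have h2 : algebraMap K F' (ζ - 1) = algebraMap K F' ζ - 1 := by rw [map_sub, map_one]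
  rw [h2] at h0 ⊢
  field_simp
  ring

end Deck

section Res

variable {K F k Rb : Type*} [Field K] [Field F] [Algebra K F] [Field k] [CommRing Rb]
  [Algebra k Rb]

/-- a root of unity lies in the valuation ring -/
theorem h35_root_mem (A : ValuationSubring K) {p : ℕ} (hp0 : 0 < p) (ζ : K) (hζ : ζ ^ p = 1) :
    ζ ∈ A := by
  rcases A.mem_or_inv_mem ζ with h | h
  · exact h
  · have h1 : ζ = ζ⁻¹ ^ (p - 1) := by
      have hζ0 : ζ ≠ 0 := by
        rintro rfl
        rw [zero_pow hp0.ne'] at hζ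
        exact zero_ne_one hζ
      have h2 : ζ ^ (p - 1) * ζ = 1 := by
        rw [← pow_succ, Nat.sub_add_cancel hp0, hζ]
      rw [inv_pow]
      exact (eq_inv_of_mul_eq_one_right h2)
    rw [h1]
    exact A.pow_mem h _

/-- `res ζ = 1` for a `p`-th root of unity, `p = char k` prime. -/
theorem h35_res_zeta (D : h22_Lat K F k Rb) {p : ℕ} (hp : p.Prime) [CharP k p] (ζ : K)
    (hζ : ζ ^ p = 1) (hζA : ζ ∈ D.A) : D.res ⟨ζ, hζA⟩ = 1 := by
  haveI := Fact.mk hp
  have h1 : D.res ⟨ζ, hζA⟩ ^ p = 1 := by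
    rw [← map_pow]
    have : (⟨ζ, hζA⟩ : D.A) ^ p = 1 := Subtype.ext hζ
    rw [this, map_one]
  have h2 : (D.res ⟨ζ, hζA⟩ - 1) ^ p = 0 := by
    rw [sub_pow_char, h1, one_pow, sub_self]
  exact sub_eq_zero.mp (pow_eq_zero_iff hp.ne_zero |>.mp h2)

end Res

section Row

variable {K F k Fb : Type*} [Field K] [Field F] [Algebra K F] [Field k] [Field Fb] [Algebra k Fb]
variable {F' : Type*} [Field F'] [Algebra F F'] [Algebra K F'] [IsScalarTower K F F']
variable [Algebra.IsIntegral F F'] [HasPrincipalDivisors K F']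
variable {p : ℕ} {D : h22_Lat K F k (Fb × Fb)} (S : h15_ASData D F' p)

/-- **ROW R2 (SHIFT)** of the "N-min" skeleton (`h85sk_shift_stab`, verbatim).  The deck
transformation `g θ = ζ θ` moves the sheets by `a ↦ a + 1` and preserves
`red' (L'(n π^* D0) ∩ O')`. -/
theorem h35_shift_stab (hp : p.Prime) [CharP k p] (ζ : K) (hζ : IsPrimitiveRoot ζ p)
    (θ : F') (u₀ : F) (hθ : θ ^ p = algebraMap F F' u₀)
    (hli : LinearIndependent F (fun j : Fin p => θ ^ (j : ℕ)))
    (hSy : S.y = (θ - 1) / algebraMap K F' (ζ - 1)) (hSr : ∀ a : Fin p, S.r a = ((a : ℕ) : k))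
    (D0 : Divisor K F) :
    ∃ s : Fin p → Fin p, (∀ a, S.r (s a) = S.r a + 1) ∧
      ∀ n : ℕ, ∀ f ∈ h51_Rd S.lat (n • Divisor.pullback F' D0),
        (fun a => f (s a)) ∈ h51_Rd S.lat (n • Divisor.pullback F' D0) := by
  classical
  have hp0 : 0 < p := hp.pos
  -- the degree of `F'/F`
  have hspanY : ⊤ ≤ Submodule.span F (Set.range fun j : Fin p => S.y ^ (j : ℕ)) := by
    intro f _
    obtain ⟨c, rfl⟩ := S.span f
    refine Submodule.sum_mem _ fun j _ => ?_
    rw [← Algebra.smul_def]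
    exact Submodule.smul_mem _ _ (Submodule.subset_span ⟨j, rfl⟩)
  have hfr : Module.finrank F F' = p := by
    rw [Module.finrank_eq_card_basis (Module.Basis.mk S.li hspanY), Fintype.card_fin]
  -- the deck transformation
  obtain ⟨g, hg⟩ := h35_exists_deck hp0 hfr ζ hζ.pow_eq_one θ u₀ hθ hli
  have hζ1 : ζ ≠ 1 := hζ.ne_one hp.one_lt
  have hgy : g S.y = algebraMap K F' ζ * S.y + 1 := by
    rw [hSy]
    exact h35_deck_y g ζ hζ1 θ hg
  -- the sheet map
  set s : Fin p → Fin p := fun a => ⟨((a : ℕ) + 1) % p, Nat.mod_lt _ hp0⟩ with hs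
  have hsr : ∀ a, S.r (s a) = S.r a + 1 := by
    intro a
    rw [hSr, hSr]
    show (((((a : ℕ) + 1) % p : ℕ)) : k) = ((a : ℕ) : k) + 1
    rw [← CharP.natCast_eq_natCast_mod k p]
    push_cast
    rfl
  refine ⟨s, hsr, ?_⟩
  -- `g` preserves `O'`
  have hgO : ∀ f ∈ S.O', (g : F' →+* F') f ∈ S.O' := fun f hf =>
    h35_as_map_mem S (g : F' →+* F')
      (fun x hx => by
        show g (algebraMap F F' x) ∈ S.O'
        rw [g.commutes]
        exact (S.algebraMap_mem_O'_iff x).mpr hx) hf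
  -- the reduction of `g y`
  have hζA : ζ ∈ D.A := h35_root_mem D.A hp0 ζ hζ.pow_eq_one
  have hζO' : algebraMap K F' ζ ∈ S.O' := (S.algebraMap_K_mem_O'_iff ζ).mpr hζA
  have hredζ : ∀ a : Fin p, S.red' ⟨algebraMap K F' ζ, hζO'⟩ a = 1 := by
    intro a
    have h1 := S.lat.red_algebraMap ζ hζA hζO'
    have h2 : S.lat.red ⟨algebraMap K F' ζ, hζO'⟩ = S.red' ⟨algebraMap K F' ζ, hζO'⟩ := rfl
    rw [← h2, h1]
    have h3 : S.lat.res ⟨ζ, hζA⟩ = D.res ⟨ζ, hζA⟩ := rfl
    rw [h3, h35_res_zeta D hp ζ hζ.pow_eq_one hζA, map_one]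
    rfl
  have hredy : ∀ a : Fin p, S.red' ⟨S.y, S.y_mem⟩ a = algebraMap k (Fb × Fb) (S.r a) := by
    intro a
    exact S.lat_red_y S.y_mem a
  have hredgy : ∀ a : Fin p, S.red' ⟨(g : F' →+* F') S.y, hgO _ S.y_mem⟩ a =
      algebraMap k (Fb × Fb) (S.r (s a)) := by
    intro a
    have h1 : (⟨(g : F' →+* F') S.y, hgO _ S.y_mem⟩ : S.O') =
        ⟨algebraMap K F' ζ, hζO'⟩ * ⟨S.y, S.y_mem⟩ + 1 := Subtype.ext hgy
    rw [h1, map_add, map_mul, map_one, Pi.add_apply, Pi.mul_apply, Pi.one_apply, hredζ, hredy,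
      one_mul, hsr, map_add, map_one]
  -- the action on the sheets
  have hact : ∀ (f : F') (hf : f ∈ S.O') (a : Fin p),
      S.red' ⟨(g : F' →+* F') f, hgO f hf⟩ a = S.red' ⟨f, hf⟩ (s a) := by
    intro f hf a
    refine h35_as_red_of_y S (RingHom.id (Fb × Fb)) (g : F' →+* F') hgO ?_ a (s a) (hredgy a) f hf
    intro x hx hx' a'
    have h1 : (⟨(g : F' →+* F') (algebraMap F F' x), hx'⟩ : S.O') =
        ⟨algebraMap F F' x, (S.algebraMap_mem_O'_iff x).mpr hx⟩ := Subtype.ext (g.commutes x)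
    rw [h1, S.red'_algebraMap x hx]
  -- stability of the reductions
  intro n f hf
  rw [← map_nsmul] at hf ⊢
  refine h35_algAut_Rd_stable S.lat g (n • D0) (fun f a => f (s a)) ?_ f hf
  intro f' hf'
  have hf'' : f' ∈ S.O' := hf'
  refine ⟨hgO f' hf'', ?_⟩
  rw [S.lat.redF_of_mem (show g f' ∈ S.lat.O from hgO f' hf''), S.lat.redF_of_mem hf']
  funext a
  exact hact f' hf'' a

end Row

end Fermat.Agent.S33
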