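import Mathlib
import Fermat.Agent.S34.h53_CycFinal

/-!
# S33 / (N2) ZAR' (helper53): Zariski connectedness on a balanced chart, for any lattice datum

Generic in the lattice datum `D : h22_Lat K F k Rb` (so it applies verbatim to the lattice of a
cover `F'` of `F`, e.g. helper15's `h15_ASData.lat`).

Setting: orthonormal bases (`h22_ON D`), rank-one constants, a balanced chart function `x`
(`h53_Chart D x D1 D2`: `x`, `1/x` integral, `D1 = (x)_∞`, `D2 = (x)_0`), constants are the only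
functions without poles (`hconst`), and the special fibre of the first chart is generated in
degree one from `n0` on (`hgen`, the same hypothesis as in `h53_cyc_final`).

* `h53_zar_const` : an element `φ` of the reduction ring which is idempotent, lies in
  `red (L(n D1) ∩ O)` and has `x̄ ^ n * φ ∈ red (L(n D1) ∩ O)` (i.e. `φ` is also the reduction of
  an integral function with poles on `D2` only) is a constant: `φ = algebraMap k Rb r`.
* `h53_zar_idem` : hence `φ = 0` or `φ = 1`.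

Proof: `h53_dec` (at `E = 0`) gives the decomposition (DEC) of the chart lattices, and the
cyclic patching theorem `h53_cyc_zar` at `m = 1` patches the two local lifts of `φ` to a function
in `L(n D1) ∩ L(n' D2) ∩ O = L(0) ∩ O`, a constant.
-/

set_option autoImplicit false

noncomputable section

open AlgebraicCurve Module IsLocalRing
open Fermat.Agent.S18 Fermat.Agent.S34

namespace Fermat.Agent.S33

variable {K F k Rb : Type*} [Field K] [Field F] [Algebra K F] [Field k] [CommRing Rb]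
  [Algebra k Rb]

/-- **ZAR', constant form.**  An idempotent of the special fibre that is the reduction of an
integral function on each of the two charts of a balanced chart function is a constant. -/
theorem h53_zar_const (D : h22_Lat K F k Rb) (hON : h22_ON D)
    (hfinL : ∀ B : Divisor K F, Module.Finite K (riemannRochSpace B))
    (hR1 : h39_RankOne D.A) (π : K) (hπ : π ∈ D.A.nonunits) (hπ0 : π ≠ 0)
    {x : F} {D1 D2 : Divisor K F} (C : h53_Chart D x D1 D2)
    (hconst : ∀ f ∈ riemannRochSpace (0 : Divisor K F), ∃ c : K, f = algebraMap K F c)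
    (n0 : ℕ)
    (hgen : ∀ n, n0 ≤ n → ∀ a ∈ h51_Rd D ((n + 1) • D1),
      ∃ b ∈ h51_Rd D (n • D1), ∃ c ∈ h51_Rd D (n • D1), a = b + D.redF x * c)
    (φ : Rb) (hφ : φ * φ = φ) (n : ℕ) (h1 : φ ∈ h51_Rd D (n • D1))
    (h2 : D.redF x ^ n * φ ∈ h51_Rd D (n • D1)) :
    ∃ r : k, φ = algebraMap k Rb r := by
  classical
  -- we work with the families of `h53_CycFinal` at `E = 0`, `j = 0`
  have hBd : ∀ a : ℕ, h53_Bd D1 D2 (0 : Divisor K F) a 0 0 = a • D1 := by
    intro a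
    rw [h53_Bd, zero_smul, zero_smul, add_zero, add_zero]
  have hG : ∀ (a : ℕ) (c : Rb), c ∈ h51_Rd D (a • D1) ↔
      ∃ h ∈ h53_Lint D (h53_Bd D1 D2 (0 : Divisor K F) a 0 0), D.redF h = c := by
    intro a c
    rw [hBd]
    constructor
    · rintro ⟨f, hf, hfO, rfl⟩
      exact ⟨f, ⟨hf, hfO⟩, rfl⟩
    · rintro ⟨f, ⟨hf, hfO⟩, rfl⟩
      exact ⟨f, hf, hfO, rfl⟩
  have hgenj : ∀ a, n0 ≤ a → ∀ c : F,
      c ∈ h53_Lint D (h53_Bd D1 D2 (0 : Divisor K F) (a + 1) 0 0) →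
      ∃ c1 ∈ h53_Lint D (h53_Bd D1 D2 (0 : Divisor K F) a 0 0),
        ∃ c2 ∈ h53_Lint D (h53_Bd D1 D2 (0 : Divisor K F) a 0 0),
        D.redF c = D.redF c1 + D.redF x * D.redF c2 := by
    intro a ha c hc
    have h1 : D.redF c ∈ h51_Rd D ((a + 1) • D1) := (hG (a + 1) _).mpr ⟨c, hc, rfl⟩
    obtain ⟨b', hb', c', hc', hbc⟩ := hgen a ha _ h1
    obtain ⟨c1, hc1, rfl⟩ := (hG a _).mp hb'
    obtain ⟨c2, hc2, rfl⟩ := (hG a _).mp hc'
    exact ⟨c1, hc1, c2, hc2, hbc⟩
  -- the two local lifts of `φ`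
  obtain ⟨e₁, he₁, he₁φ⟩ := (hG n φ).mp h1
  obtain ⟨h₂, hh₂, hh₂φ⟩ := (hG n _).mp h2
  have he₂ : h₂ * x⁻¹ ^ n ∈ h53_Lint D (h53_Bd D1 D2 (0 : Divisor K F) 0 n 0) := by
    have h := h53_shift_down C (0 : Divisor K F) (b := n) le_rfl hh₂
    rwa [Nat.sub_self] at h
  have he₂φ : D.redF (h₂ * x⁻¹ ^ n) = φ := by
    rw [h51_redF_mul D hh₂.2 (D.O.pow_mem C.inv_mem _), hh₂φ, h51_redF_pow D C.inv_mem,
      mul_comm (D.redF x ^ n) φ, mul_assoc, ← mul_pow, C.red_mul_inv, one_pow, mul_one]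
  -- the constants
  let π' : ↥D.A := ⟨π, D.A.nonunits_le hπ⟩
  have hπ' : π' ∈ maximalIdeal ↥D.A := ValuationSubring.coe_mem_nonunits_iff.mp hπ
  have hπ0' : π' ≠ 0 := fun h => hπ0 (congrArg Subtype.val h)
  have hπinv : π⁻¹ ∉ D.A := (D.A.mem_nonunits_iff_or.mp hπ).resolve_left hπ0
  have hrk : ∀ a : ↥D.A, a ≠ 0 → ∃ n : ℕ, a ∣ π' ^ n := by
    intro a ha
    have ha0 : (a : K) ≠ 0 := fun h => ha (Subtype.ext h)
    obtain ⟨n, hn⟩ := hR1 π (D.A.nonunits_le hπ) hπinv (a : K) ha0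
    refine ⟨n, ⟨⟨π ^ n * (a : K)⁻¹, hn⟩, Subtype.ext ?_⟩⟩
    show π ^ n = (a : K) * (π ^ n * (a : K)⁻¹)
    field_simp
  have hrk' : ∀ a ∈ maximalIdeal ↥D.A, ∃ n : ℕ, π' ∣ a ^ n := by
    intro a ha
    rcases eq_or_ne (a : K) 0 with h0 | h0
    · refine ⟨1, ?_⟩
      rw [pow_one, show a = 0 from Subtype.ext h0]
      exact dvd_zero _
    · have ha' : (a : K) ∈ D.A.nonunits := ValuationSubring.coe_mem_nonunits_iff.mpr ha
      have hainv : (a : K)⁻¹ ∉ D.A := (D.A.mem_nonunits_iff_or.mp ha').resolve_left h0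
      obtain ⟨n, hn⟩ := hR1 (a : K) a.2 hainv π hπ0
      refine ⟨n, ⟨⟨(a : K) ^ n * π⁻¹, hn⟩, Subtype.ext ?_⟩⟩
      show (a : K) ^ n = π * ((a : K) ^ n * π⁻¹)
      field_simp
  have hdiv : ∀ v : Place K F, ((1 : ℕ) : ℤ) * (0 : Divisor K F) v = v.ord (1 : F) := by
    intro v
    rw [v.ord_one]
    simp
  -- the patching theorem at `m = 1`
  obtain ⟨f, hf1, hf2, hfg⟩ := h53_cyc_zar (A := ↥D.A) (F := F) π' hπ' hπ0' hrk hrk' 1
    one_ne_zero 1 (by simp) (1 : F)
    (h53_Fam D D1 D2 (0 : Divisor K F) 1 0) (h53_Fam D D1 D2 (0 : Divisor K F) 0 1)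
    (h53_Fam D D1 D2 (0 : Divisor K F) 1 1)
    (fun j => h53_Lint D (h53_Bd D1 D2 (0 : Divisor K F) n0 n0 j))
    (fun j _ => iSup_le fun n => (h53_Lint_mono D fun v =>
      h53_Bd_mono C.nonneg₁ C.nonneg₂ (0 : Divisor K F) le_rfl (by simp) j v).trans
        (h53_le_Fam D D1 D2 (0 : Divisor K F) 1 1 j n))
    (fun j _ => iSup_le fun n => (h53_Lint_mono D fun v =>
      h53_Bd_mono C.nonneg₁ C.nonneg₂ (0 : Divisor K F) (by simp) le_rfl j v).trans
        (h53_le_Fam D D1 D2 (0 : Divisor K F) 1 1 j n))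
    (fun j _ => h53_le_Fam11 D D1 D2 (0 : Divisor K F) j n0)
    (fun j _ => by
      have := hfinL (h53_Bd D1 D2 (0 : Divisor K F) n0 n0 j)
      exact h53_Lint_fg D hON _)
    (fun j hj => iSup_le fun n => by
      obtain rfl : j = 0 := by omega
      exact h53_dec D hON hfinL C (0 : Divisor K F) 0 n0 hgenj _ (n * 1) (n * 1) rfl)
    (h53_le_Fam D D1 D2 (0 : Divisor K F) 1 0 0 0
      (h53_one_mem_Lint D C.nonneg₁ C.nonneg₂ (0 : Divisor K F) _ _))
    (h53_le_Fam D D1 D2 (0 : Divisor K F) 0 1 0 0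
      (h53_one_mem_Lint D C.nonneg₁ C.nonneg₂ (0 : Divisor K F) _ _))
    (h53_fam_mul D C.nonneg₁ C.nonneg₂ (0 : Divisor K F) one_ne_zero D.O.one_mem hdiv 1 0)
    (h53_fam_mul D C.nonneg₁ C.nonneg₂ (0 : Divisor K F) one_ne_zero D.O.one_mem hdiv 0 1)
    (h53_fam_mul D C.nonneg₁ C.nonneg₂ (0 : Divisor K F) one_ne_zero D.O.one_mem hdiv 1 1)
    (fun _ => e₁) (fun _ => h₂ * x⁻¹ ^ n)
    (fun j hj => by
      obtain rfl : j = 0 := by omega
      exact h53_le_Fam10 D D1 D2 (0 : Divisor K F) 0 n he₁)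
    (fun j hj => by
      obtain rfl : j = 0 := by omega
      exact h53_le_Fam01 D D1 D2 (0 : Divisor K F) 0 n he₂)
    (fun i hi j hj => by
      obtain rfl : i = 0 := by omega
      obtain rfl : j = 0 := by omega
      refine ⟨fun _ => ?_, fun h => absurd h (by omega)⟩
      have hxy : e₁ * e₁ ∈ h53_Lint D (h53_Bd D1 D2 (0 : Divisor K F) (n + n) 0 0) := by
        refine h53_Lint_mul D he₁ he₁ fun v => ?_
        rw [h53_Bd_apply, h53_Bd_apply]
        push_cast
        linarith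
      have hmono : e₁ ∈ h53_Lint D (h53_Bd D1 D2 (0 : Divisor K F) (n + n) 0 0) :=
        h53_Lint_mono D (fun v => h53_Bd_mono C.nonneg₁ C.nonneg₂ (0 : Divisor K F)
          (Nat.le_add_right n n) le_rfl 0 v) he₁
      have hred : D.redF (e₁ * e₁ - e₁) = 0 := by
        rw [h53_redF_sub D hxy.2 he₁.2, h51_redF_mul D he₁.2 he₁.2, he₁φ, hφ, sub_self]
      exact Submodule.smul_mono le_rfl (h53_le_Fam10 D D1 D2 (0 : Divisor K F) 0 (n + n))
        (h53_Lint_ker D _ (Submodule.sub_mem _ hxy hmono) hred))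
    (fun i hi j hj => by
      obtain rfl : i = 0 := by omega
      obtain rfl : j = 0 := by omega
      refine ⟨fun _ => ?_, fun h => absurd h (by omega)⟩
      have hxy : (h₂ * x⁻¹ ^ n) * (h₂ * x⁻¹ ^ n) ∈
          h53_Lint D (h53_Bd D1 D2 (0 : Divisor K F) 0 (n + n) 0) := by
        refine h53_Lint_mul D he₂ he₂ fun v => ?_
        rw [h53_Bd_apply, h53_Bd_apply]
        push_cast
        linarith
      have hmono : h₂ * x⁻¹ ^ n ∈ h53_Lint D (h53_Bd D1 D2 (0 : Divisor K F) 0 (n + n) 0) :=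
        h53_Lint_mono D (fun v => h53_Bd_mono C.nonneg₁ C.nonneg₂ (0 : Divisor K F)
          le_rfl (Nat.le_add_right n n) 0 v) he₂
      have hred : D.redF ((h₂ * x⁻¹ ^ n) * (h₂ * x⁻¹ ^ n) - h₂ * x⁻¹ ^ n) = 0 := by
        rw [h53_redF_sub D hxy.2 he₂.2, h51_redF_mul D he₂.2 he₂.2, he₂φ, hφ, sub_self]
      exact Submodule.smul_mono le_rfl (h53_le_Fam01 D D1 D2 (0 : Divisor K F) 0 (n + n))
        (h53_Lint_ker D _ (Submodule.sub_mem _ hxy hmono) hred))
    (fun j hj => by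
      obtain rfl : j = 0 := by omega
      have ha : e₁ ∈ h53_Lint D (h53_Bd D1 D2 (0 : Divisor K F) n n 0) :=
        h53_Lint_mono D (fun v => h53_Bd_mono C.nonneg₁ C.nonneg₂ (0 : Divisor K F) le_rfl
          (Nat.zero_le _) 0 v) he₁
      have hb : h₂ * x⁻¹ ^ n ∈ h53_Lint D (h53_Bd D1 D2 (0 : Divisor K F) n n 0) :=
        h53_Lint_mono D (fun v => h53_Bd_mono C.nonneg₁ C.nonneg₂ (0 : Divisor K F)
          (Nat.zero_le _) le_rfl 0 v) he₂
      have hred : D.redF (e₁ - h₂ * x⁻¹ ^ n) = 0 := by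
        rw [h53_redF_sub D ha.2 hb.2, he₁φ, he₂φ, sub_self]
      exact Submodule.smul_mono le_rfl (h53_le_Fam11 D D1 D2 (0 : Divisor K F) 0 n)
        (h53_Lint_ker D _ (Submodule.sub_mem _ ha hb) hred))
    0 (by omega)
  -- `f ∈ L(0) ∩ O`
  obtain ⟨n1, hfn1⟩ := (h53_mem_Fam D C.nonneg₁ C.nonneg₂ (0 : Divisor K F) 1 0 0).mp hf1
  obtain ⟨n2, hfn2⟩ := (h53_mem_Fam D C.nonneg₁ C.nonneg₂ (0 : Divisor K F) 0 1 0).mp hf2
  have hfO : f ∈ D.O := hfn1.2
  have hf0 : f ∈ riemannRochSpace (0 : Divisor K F) := by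
    rw [mem_riemannRochSpace_iff]
    intro v
    rcases mem_riemannRochSpace_iff.mp hfn1.1 v with h | ha
    · exact Or.inl h
    rcases mem_riemannRochSpace_iff.mp hfn2.1 v with h | hb
    · exact Or.inl h
    right
    rw [h53_Bd_apply] at ha hb
    simp only [mul_one, mul_zero, Nat.cast_zero, zero_mul, add_zero, zero_add,
      Finsupp.coe_zero, Pi.zero_apply] at ha hb
    simp only [Finsupp.coe_zero, Pi.zero_apply, neg_zero]
    rcases C.disj v with h | h
    · rw [h, mul_zero, neg_zero] at ha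
      exact ha
    · rw [h, mul_zero, neg_zero] at hb
      exact hb
  obtain ⟨c, rfl⟩ := hconst f hf0
  have hcA : c ∈ D.A := (D.mem_iff c).mpr hfO
  -- the reduction of `f` is `φ`
  have hred := h53_redF_of_mem_smul D (h53_Fam D D1 D2 (0 : Divisor K F) 1 0 0)
    (h53_Fam_integral D D1 D2 (0 : Divisor K F) 1 0 0) hfg
  rw [map_one, one_mul] at hred
  have h3 := h53_redF_sub D hfO he₁.2
  rw [hred.2, he₁φ] at h3
  refine ⟨D.res ⟨c, hcA⟩, ?_⟩
  rw [← D.red_algebraMap c hcA hfO, ← D.redF_of_mem hfO]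
  exact (sub_eq_zero.mp h3.symm).symm

/-- **ZAR'.**  An idempotent of the special fibre that is the reduction of an integral function
on each of the two charts of a balanced chart function is `0` or `1`. -/
theorem h53_zar_idem (D : h22_Lat K F k Rb) (hON : h22_ON D)
    (hfinL : ∀ B : Divisor K F, Module.Finite K (riemannRochSpace B))
    (hR1 : h39_RankOne D.A) (π : K) (hπ : π ∈ D.A.nonunits) (hπ0 : π ≠ 0)
    {x : F} {D1 D2 : Divisor K F} (C : h53_Chart D x D1 D2)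
    (hconst : ∀ f ∈ riemannRochSpace (0 : Divisor K F), ∃ c : K, f = algebraMap K F c)
    (n0 : ℕ)
    (hgen : ∀ n, n0 ≤ n → ∀ a ∈ h51_Rd D ((n + 1) • D1),
      ∃ b ∈ h51_Rd D (n • D1), ∃ c ∈ h51_Rd D (n • D1), a = b + D.redF x * c)
    (φ : Rb) (hφ : φ * φ = φ) (n : ℕ) (h1 : φ ∈ h51_Rd D (n • D1))
    (h2 : D.redF x ^ n * φ ∈ h51_Rd D (n • D1)) :
    φ = 0 ∨ φ = 1 := by
  obtain ⟨r, rfl⟩ := h53_zar_const D hON hfinL hR1 π hπ hπ0 C hconst n0 hgen φ hφ n h1 h2
  by_cases hnt : (1 : Rb) = 0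
  · left
    have : algebraMap k Rb r = algebraMap k Rb r * 1 := (mul_one _).symm
    rw [this, hnt, mul_zero]
  · have hinj : Function.Injective (algebraMap k Rb) := by
      have : Nontrivial Rb := ⟨⟨1, 0, hnt⟩⟩
      exact (algebraMap k Rb).injective
    have hr : r * r = r := by
      apply hinj
      rw [map_mul]
      exact hφ
    have hr' : r * (r - 1) = 0 := by rw [mul_sub, hr, mul_one, sub_self]
    rcases mul_eq_zero.mp hr' with h | h
    · left
      rw [h, map_zero]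
    · right
      rw [sub_eq_zero.mp h, map_one]

end Fermat.Agent.S33

end
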