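import Mathlib
import Fermat.Agent.S33.h53_ZarIdem

/-!
# S33 / (N2) ZAR' in the node shape (helper53)

`h53_zar_node`: the consumer form of `h53_zar_idem` for a lattice datum `D` whose special fibre
has a node description in helper51's binder shape (`P`, `Bs`, `e1`, `e2`, `hnode` of
`h51_strict_of_chart` / `h51_trivial_gluing`):

an idempotent `φ` of the reduction ring which is "a constant on every sheet" (`φ ∈ P 0`) and
satisfies the node conditions (`e2 ν φ = e1 ν φ` for all nodes `ν`) is `0` or `1`.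

For the lattice of a cover (`Rb = ι → Fb × Fb`, `P n` sheetwise, nodes `Z × ι`) the idempotents
`φ ∈ P 0` satisfying the node conditions are exactly the indicator functions of the unions of
connected components of the sheet graph, so this is the connectedness of the sheet graph.
-/

set_option autoImplicit false

noncomputable section

open AlgebraicCurve Module IsLocalRing
open Fermat.Agent.S18 Fermat.Agent.S34

namespace Fermat.Agent.S33

variable {K F k Rb : Type*} [Field K] [Field F] [Algebra K F] [Field k] [CommRing Rb]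
  [Algebra k Rb]

/-- **ZAR', node shape.**  `D0 ≥ 0`, `x` a balanced chart function with `(x)_∞ = c • D0`, the
special fibre `red (L(n D0) ∩ O)` described by nodes from `n0` on (`hnode`) and generated in
degree one along `x` (`hgen`, the conclusion of `h51_strict_of_chart`); `P 0 · P n ⊆ P n`.
Then every idempotent `φ ∈ P 0` satisfying the node conditions is `0` or `1`. -/
theorem h53_zar_node (D : h22_Lat K F k Rb) (hON : h22_ON D)
    (hfinL : ∀ B : Divisor K F, Module.Finite K (riemannRochSpace B))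
    (hR1 : h39_RankOne D.A) (π : K) (hπ : π ∈ D.A.nonunits) (hπ0 : π ≠ 0)
    (D0 D2 : Divisor K F) (c : ℕ) (hc : 0 < c) {x : F} (C : h53_Chart D x (c • D0) D2)
    (hconst : ∀ f ∈ riemannRochSpace (0 : Divisor K F), ∃ a : K, f = algebraMap K F a)
    (P : ℕ → Submodule k Rb) (Bs : Subalgebra k Rb) (hPB : ∀ n, ∀ a ∈ P n, a ∈ Bs)
    {Z : Type*} (e1 e2 : Z → (Bs →ₐ[k] k)) (n0 : ℕ)
    (hnode : ∀ n, n0 ≤ n → ∀ a : Rb, a ∈ h51_Rd D (n • D0) ↔
        ∃ h : a ∈ P n, ∀ ν, e2 ν ⟨a, hPB n a h⟩ = e1 ν ⟨a, hPB n a h⟩)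
    (hPmono : ∀ n, P 0 ≤ P n)
    (hPmul : ∀ n, ∀ a ∈ P 0, ∀ b ∈ P n, a * b ∈ P n)
    (n1 : ℕ)
    (hgen : ∀ n, n1 ≤ n → ∀ a ∈ h51_Rd D ((n + 1) • (c • D0)),
      ∃ b ∈ h51_Rd D (n • (c • D0)), ∃ c' ∈ h51_Rd D (n • (c • D0)), a = b + D.redF x * c')
    (φ : Rb) (hφ : φ * φ = φ) (hφP : φ ∈ P 0)
    (hφnode : ∀ ν, e2 ν ⟨φ, hPB 0 φ hφP⟩ = e1 ν ⟨φ, hPB 0 φ hφP⟩) :
    φ = 0 ∨ φ = 1 := by
  -- a level `n` with `n * c ≥ n0`
  have hn0c : n0 ≤ n0 * c := Nat.le_mul_of_pos_right n0 hc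
  have hsm : n0 • (c • D0) = (n0 * c) • D0 := smul_smul n0 c D0
  -- `φ` itself
  have h1 : φ ∈ h51_Rd D (n0 • (c • D0)) := by
    rw [hsm]
    exact (hnode (n0 * c) hn0c φ).mpr ⟨hPmono _ hφP, hφnode⟩
  -- `x̄ ^ n0`
  have hxmem : D.redF x ^ n0 ∈ h51_Rd D (n0 • (c • D0)) := by
    have h := h53_shift_up C (0 : Divisor K F)
      (h53_one_mem_Lint D C.nonneg₁ C.nonneg₂ (0 : Divisor K F) 0 n0)
    rw [zero_add, one_mul] at h
    have hBd : h53_Bd (c • D0) D2 (0 : Divisor K F) n0 0 0 = n0 • (c • D0) := by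
      rw [h53_Bd, zero_smul, zero_smul, add_zero, add_zero]
    rw [hBd] at h
    exact ⟨x ^ n0, h.1, h.2, h51_redF_pow D C.mem n0⟩
  have h2 : D.redF x ^ n0 * φ ∈ h51_Rd D (n0 • (c • D0)) := by
    rw [hsm] at hxmem ⊢
    obtain ⟨hxP, hxnode⟩ := (hnode (n0 * c) hn0c _).mp hxmem
    have hmulP : D.redF x ^ n0 * φ ∈ P (n0 * c) := by
      rw [mul_comm (D.redF x ^ n0) φ]
      exact hPmul _ φ hφP _ hxP
    refine (hnode (n0 * c) hn0c _).mpr ⟨hmulP, fun ν => ?_⟩
    have hsplit : (⟨D.redF x ^ n0 * φ, hPB _ _ hmulP⟩ : Bs) =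
        ⟨D.redF x ^ n0, hPB _ _ hxP⟩ * ⟨φ, hPB 0 φ hφP⟩ := rfl
    rw [hsplit, map_mul, map_mul, hxnode ν, hφnode ν]
  exact h53_zar_idem D hON hfinL hR1 π hπ hπ0 C hconst n1 hgen φ hφ n0 h1 h2

end Fermat.Agent.S33

end
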