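import Mathlib
import Fermat.Agent.S33.h53_ZarNode
import Fermat.Agent.S34.h51_Mid
import Fermat.Prelude.Def_AlgebraicCurve_DivisorPushPull

/-!
# S33 / (N2) ZAR' as one call on a charted lattice (helper53)

* `h53_conn_of_chart` : for a lattice datum `D` on a function field `F` with a chart, in the
  binder shape of helper51's `h51_G_of_chart` (`D0`, `D2`, `N`, `x`, `P`, `Bs`, `e1`, `e2`,
  `hnode`, `hPx`): every idempotent `φ ∈ P 0` of the special fibre satisfying the node conditions
  is `0` or `1`.  (Strictness comes from `h51_strict_of_chart`, constants from `h7_rr_zero_eq`,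
  the patching from `h53_zar_node`.)  Applied to the lattice of a cover `F'` this is the
  connectedness of the sheet graph.
* `h53_chart_pullback` : a balanced chart function of `F` stays one on any lattice of an integral
  extension `F'/F` whose integral elements contain those of `F` (divisors pulled back).
* `h53_ord_pullback` : the `hxdiv` binder for the pulled-back chart function.
-/

set_option autoImplicit false

noncomputable section

open AlgebraicCurve Module IsLocalRing
open Fermat.Agent.S18 Fermat.Agent.S34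

namespace Fermat.Agent.S33

section Conn

variable {K F k Rb : Type*} [Field K] [Field F] [Algebra K F] [Field k] [CommRing Rb]
  [Algebra k Rb]

/-- **Connectedness of the special fibre of a charted lattice.** -/
theorem h53_conn_of_chart [IsAlgClosed K] {xF : F} (hxF : h75_IsChart K xF)
    (D : h22_Lat K F k Rb) (hON : h22_ON D)
    (hRk : h39_RankOne D.A) (π : K) (hπ : π ∈ D.A.nonunits) (hπ0 : π ≠ 0)
    (D0 D2 : Divisor K F) (hD0 : ∀ v, 0 ≤ D0 v) (hdegD0 : 1 ≤ Divisor.degree D0)
    (hD2 : ∀ v, 0 ≤ D2 v) (hdisj : ∀ v, D0 v = 0 ∨ D2 v = 0)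
    (N : ℕ) (hN : 1 ≤ N)
    (x : F) (hx0 : x ≠ 0) (hxO : x ∈ D.O) (hxinvO : x⁻¹ ∈ D.O)
    (hxdiv : ∀ v : Place K F, v.ord x = D2 v - (N : ℤ) * D0 v)
    (P : ℕ → Submodule k Rb)
    (Bs : Subalgebra k Rb) (hPB : ∀ n, ∀ a ∈ P n, a ∈ Bs)
    {Z : Type*} (e1 e2 : Z → (Bs →ₐ[k] k)) (n0 : ℕ)
    (hnode : ∀ n, n0 ≤ n → ∀ a : Rb, a ∈ h51_Rd D (n • D0) ↔
        ∃ h : a ∈ P n, ∀ ν, e2 ν ⟨a, hPB n a h⟩ = e1 ν ⟨a, hPB n a h⟩)
    (hPx : ∀ (n : ℕ) (a : Rb), a ∈ P (n + N) → D.redF x * a ∈ P (n + N) → a ∈ P n)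
    (hPmono : ∀ n, P 0 ≤ P n)
    (hPmul : ∀ n, ∀ a ∈ P 0, ∀ b ∈ P n, a * b ∈ P n)
    (φ : Rb) (hφ : φ * φ = φ) (hφP : φ ∈ P 0)
    (hφnode : ∀ ν, e2 ν ⟨φ, hPB 0 φ hφP⟩ = e1 ν ⟨φ, hPB 0 φ hφP⟩) :
    φ = 0 ∨ φ = 1 := by
  have : HasPrincipalDivisors K F := h75_hasPrincipalDivisors hxF
  have hfin : ∀ B : Divisor K F, Module.Finite K (riemannRochSpace B) :=
    fun B => (h75_riemann hxF B).1
  have hN0 : 0 < N := hN
  -- the polar divisor
  have hD1 : ∀ v, 0 ≤ (N • D0) v := by
    intro v
    rw [Finsupp.smul_apply, nsmul_eq_mul]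
    exact mul_nonneg (Nat.cast_nonneg N) (hD0 v)
  have hdisj' : ∀ v, (N • D0) v = 0 ∨ D2 v = 0 := by
    intro v
    rcases hdisj v with h | h
    · left
      rw [Finsupp.smul_apply, h, smul_zero]
    · exact Or.inr h
  have hxdiv' : ∀ v : Place K F, v.ord x = D2 v - (N • D0) v := by
    intro v
    rw [hxdiv v, Finsupp.smul_apply, nsmul_eq_mul]
  have hxL : x ∈ riemannRochSpace (N • D0) := by
    rw [mem_riemannRochSpace_iff]
    intro v
    right
    rw [hxdiv' v]
    have := hD2 v
    linarith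
  -- the dimension formula
  have hdegN : 1 ≤ Divisor.degree (N • D0) := by
    rw [map_nsmul, nsmul_eq_mul]
    have h1 : (1 : ℤ) ≤ (N : ℤ) := by exact_mod_cast hN
    nlinarith
  have hdim : ∀ n, 2 * h75_genus K xF ≤ n →
      (Module.finrank K (riemannRochSpace (n • (N • D0))) : ℤ) =
        Divisor.degree (N • D0) * n + (1 - (h75_genus K xF : ℤ)) := by
    intro n hn
    have h := h20_finrank_nsmul_add hxF (N • D0) hdegN n hn 0 (map_zero _)
    rw [add_zero] at h
    rw [h]
    ring
  -- strictness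
  have hstr : ∀ n, max (2 * h75_genus K xF) n0 + 1 ≤ n →
      ∀ a ∈ h51_Rd D ((n + 1) • (N • D0)), ∃ b ∈ h51_Rd D (n • (N • D0)),
        ∃ c ∈ h51_Rd D (n • (N • D0)), a = b + D.redF x * c := by
    intro n hn
    exact h51_strict_of_chart D hON D0 hD0 P Bs hPB e1 e2 n0 hnode N hN0 x hxO hxL hPx
      (fun n => hfin _) (Divisor.degree (N • D0)) (1 - (h75_genus K xF : ℤ))
      (2 * h75_genus K xF) hdim n
      (le_trans (Nat.succ_le_succ (le_max_left _ _)) hn)
      (le_trans (Nat.succ_le_succ (le_max_right _ _)) hn)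
  -- constants
  have hconst : ∀ f ∈ riemannRochSpace (0 : Divisor K F), ∃ a : K, f = algebraMap K F a := by
    intro f hf
    rw [h7_rr_zero_eq hxF, Submodule.mem_span_singleton] at hf
    obtain ⟨a, rfl⟩ := hf
    exact ⟨a, by rw [Algebra.smul_def, mul_one]⟩
  -- the chart
  have C : h53_Chart D x (N • D0) D2 := ⟨hx0, hxO, hxinvO, hD1, hD2, hdisj', hxdiv'⟩
  exact h53_zar_node D hON hfin hRk π hπ hπ0 D0 D2 N hN0 C hconst P Bs hPB e1 e2 n0 hnode
    hPmono hPmul (max (2 * h75_genus K xF) n0 + 1) hstr φ hφ hφP hφnode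

end Conn

section Pullback

variable {K F F' k Rb Rb' : Type*} [Field K] [Field F] [Field F']
  [Algebra K F] [Algebra K F'] [Algebra F F'] [IsScalarTower K F F']
  [Algebra.IsIntegral F F'] [HasPrincipalDivisors K F']
  [Field k] [CommRing Rb] [Algebra k Rb] [CommRing Rb'] [Algebra k Rb']

/-- The order of a pulled-back function in terms of pulled-back divisors (the `hxdiv` binder). -/
theorem h53_ord_pullback {x : F} {D0 D2 : Divisor K F} (N : ℕ)
    (hxdiv : ∀ v : Place K F, v.ord x = D2 v - (N : ℤ) * D0 v) (w : Place K F') :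
    w.ord (algebraMap F F' x) =
      Divisor.pullback F' D2 w - (N : ℤ) * Divisor.pullback F' D0 w := by
  rw [Place.ord_restrict, hxdiv, Divisor.pullback_apply, Divisor.pullback_apply]
  ring

/-- A balanced chart function of `F` is a balanced chart function for every lattice datum of an
integral extension `F'` whose integral elements contain those of `F`. -/
theorem h53_chart_pullback (D : h22_Lat K F k Rb) (D' : h22_Lat K F' k Rb')
    (hO : ∀ f : F, f ∈ D.O → algebraMap F F' f ∈ D'.O)
    {x : F} {D1 D2 : Divisor K F} (C : h53_Chart D x D1 D2) :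
    h53_Chart D' (algebraMap F F' x) (Divisor.pullback F' D1) (Divisor.pullback F' D2) where
  ne_zero := by
    rw [Ne, map_eq_zero]
    exact C.ne_zero
  mem := hO x C.mem
  inv_mem := by
    rw [← map_inv₀]
    exact hO _ C.inv_mem
  nonneg₁ := fun w => by
    rw [Divisor.pullback_apply]
    exact mul_nonneg (Int.natCast_nonneg _) (C.nonneg₁ _)
  nonneg₂ := fun w => by
    rw [Divisor.pullback_apply]
    exact mul_nonneg (Int.natCast_nonneg _) (C.nonneg₂ _)
  disj := fun w => by
    rw [Divisor.pullback_apply, Divisor.pullback_apply]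
    rcases C.disj (w.restrict F) with h | h
    · left
      rw [h, mul_zero]
    · right
      rw [h, mul_zero]
  ord_eq := fun w => by
    rw [Place.ord_restrict, C.ord_eq, Divisor.pullback_apply, Divisor.pullback_apply]
    ring

end Pullback

end Fermat.Agent.S33

end
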