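import Mathlib
import Fermat.Agent.S33.h15_ASLat

/-!
# S33 (N2), row (W3a): reduction of the characteristic polynomial on a split step (helper75)

Context: helper15's split-extension step `S : h15_ASData D F' n` over a lattice datum
`D : h22_Lat K F k Rb` (`O' = ⊕_{j<n} O y^j`, `red' : O' → (Fin n → Rb)`, the sheets are labelled by
the nodes `S.r a`).

* `h75_asBasis S` : the power basis `1, y, …, y^(n-1)` of `F'/F` as a `Module.Basis`;
* `h75_mulMat S f hf` : for `f ∈ O'` the matrix of multiplication by `f` in that basis has entries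
  in `O` (`h75_mulMat_map`);
* `h75_charpoly_red` : its characteristic polynomial reduces to `∏_a (X - red' f a)`
  (`V · red(M_f) = diag(red' f) · V` with `V` the Vandermonde matrix of the nodes, a unit);
* `h75_charpoly_coeff_mem`, `h75_charpoly_coeff_red` : the coefficients of the characteristic
  polynomial of `f` over `F` are in `O`, with the expected reductions;
* `h75_aeval_charpoly` : Cayley–Hamilton for `f`;
* `h75_prod_eq_of_coeff` : if two ring homs `e₁ e₂ : Rb → L` agree on the reductions of all these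
  coefficients, then `∏_a (X - e₁ (red' f a)) = ∏_a (X - e₂ (red' f a))`
  (the input `hV` of `h98_count_eq` / `h98_pairing_global`: equal multisets of sheet values).

Mathlib + `h15_ASLat` only.
-/

set_option autoImplicit false

noncomputable section

open Polynomial Module

namespace Fermat.Agent.S33

open Fermat.Agent.S34

variable {K F k Rb : Type*} [Field K] [Field F] [Algebra K F] [Field k] [CommRing Rb]
  [Algebra k Rb]
variable {D : h22_Lat K F k Rb} {F' : Type*} [Field F'] [Algebra F F'] {n : ℕ}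
  (S : h15_ASData D F' n)

/-- The power basis `1, y, …, y^(n-1)` of `F'` over `F`. -/
def h75_asBasis : Module.Basis (Fin n) F F' :=
  Module.Basis.mk S.li (by
    intro f _
    obtain ⟨c, hc⟩ := S.span f
    rw [hc]
    refine Submodule.sum_mem _ fun j _ => ?_
    rw [← Algebra.smul_def]
    exact Submodule.smul_mem _ _ (Submodule.subset_span ⟨j, rfl⟩))

theorem h75_asBasis_apply (j : Fin n) : h75_asBasis S j = S.y ^ (j : ℕ) := by
  unfold h75_asBasis
  rw [Module.Basis.mk_apply]

/-- expansion in the power basis -/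
theorem h75_sum_repr (f : F') :
    ∑ j, algebraMap F F' ((h75_asBasis S).repr f j) * S.y ^ (j : ℕ) = f := by
  conv_rhs => rw [← (h75_asBasis S).sum_repr f]
  refine Finset.sum_congr rfl fun j _ => ?_
  rw [Algebra.smul_def, h75_asBasis_apply]

/-- the coordinates of an element of `O'` lie in `O` -/
theorem h75_repr_mem {f : F'} (hf : f ∈ S.O') (j : Fin n) :
    (h75_asBasis S).repr f j ∈ D.O := by
  have h : (∑ j, algebraMap F F' ((h75_asBasis S).repr f j) * S.y ^ (j : ℕ)) ∈ S.O' := by
    rw [h75_sum_repr]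
    exact hf
  exact (S.sum_mem_O'_iff _).mp h j

theorem h75_mul_pow_mem {f : F'} (hf : f ∈ S.O') (j : ℕ) : f * S.y ^ j ∈ S.O' :=
  S.O'.mul_mem hf (S.O'.pow_mem S.y_mem j)

/-- The matrix of multiplication by `f ∈ O'` in the power basis, with entries in `O`. -/
def h75_mulMat (f : F') (hf : f ∈ S.O') : Matrix (Fin n) (Fin n) D.O :=
  fun i j => ⟨(h75_asBasis S).repr (f * S.y ^ (j : ℕ)) i,
    h75_repr_mem S (h75_mul_pow_mem S hf j) i⟩

theorem h75_mulMat_apply (f : F') (hf : f ∈ S.O') (i j : Fin n) :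
    ((h75_mulMat S f hf i j : D.O) : F) = (h75_asBasis S).repr (f * S.y ^ (j : ℕ)) i := rfl

theorem h75_mulMat_map (f : F') (hf : f ∈ S.O') :
    (h75_mulMat S f hf).map D.O.subtype = Algebra.leftMulMatrix (h75_asBasis S) f := by
  ext i j
  rw [Matrix.map_apply, Algebra.leftMulMatrix_eq_repr_mul, h75_asBasis_apply]
  rfl

/-- the generator reduces to the nodes -/
theorem h75_red'_y (a : Fin n) : S.red' ⟨S.y, S.y_mem⟩ a = algebraMap k Rb (S.r a) := by
  have h1 : S.ev Polynomial.X = S.y := by rw [S.ev_apply, Polynomial.eval₂_X]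
  have h2 : (⟨S.y, S.y_mem⟩ : S.O') = ⟨S.ev Polynomial.X, by rw [h1]; exact S.y_mem⟩ :=
    Subtype.ext h1.symm
  rw [h2, S.red'_ev, S.Φ_apply, Polynomial.eval₂_X]

/-- the reduction of the `j`-th column of the multiplication matrix, evaluated at the node `a` -/
theorem h75_red'_col (f : F') (hf : f ∈ S.O') (a j : Fin n) :
    ∑ i, D.red (h75_mulMat S f hf i j) * algebraMap k Rb (S.r a) ^ (i : ℕ) =
      S.red' ⟨f, hf⟩ a * algebraMap k Rb (S.r a) ^ (j : ℕ) := by
  have hmem := h75_mul_pow_mem S hf (j : ℕ)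
  have hsum := h75_sum_repr S (f * S.y ^ (j : ℕ))
  have hc : ∀ i, (h75_asBasis S).repr (f * S.y ^ (j : ℕ)) i ∈ D.O := h75_repr_mem S hmem
  have h1 := S.red'_sum (fun i => (h75_asBasis S).repr (f * S.y ^ (j : ℕ)) i) hc
    (by rw [hsum]; exact hmem) a
  have h2 : (⟨∑ i, algebraMap F F' ((h75_asBasis S).repr (f * S.y ^ (j : ℕ)) i) * S.y ^ (i : ℕ),
      by rw [hsum]; exact hmem⟩ : S.O') = ⟨f, hf⟩ * ⟨S.y, S.y_mem⟩ ^ (j : ℕ) :=
    Subtype.ext hsum
  rw [h2, map_mul, map_pow, Pi.mul_apply, Pi.pow_apply, h75_red'_y] at h1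
  rw [h1]
  rfl

/-- **Reduction of the characteristic polynomial.** For `f ∈ O'` the characteristic polynomial
of multiplication by `f` (computed over `O`) reduces to `∏_a (X - red' f a)`. -/
theorem h75_charpoly_red (f : F') (hf : f ∈ S.O') :
    (h75_mulMat S f hf).charpoly.map D.red = ∏ a : Fin n, (X - C (S.red' ⟨f, hf⟩ a)) := by
  classical
  set Vk : Matrix (Fin n) (Fin n) k := Matrix.vandermonde S.r with hVk
  have hdet : IsUnit Vk.det := (Matrix.det_vandermonde_ne_zero_iff.mpr S.r_injective).isUnit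
  have hWV : (Vk⁻¹).map (algebraMap k Rb) * Vk.map (algebraMap k Rb) = 1 := by
    rw [← Matrix.map_mul, Matrix.nonsing_inv_mul Vk hdet, Matrix.map_one _ (map_zero _) (map_one _)]
  have hVW : Vk.map (algebraMap k Rb) * (Vk⁻¹).map (algebraMap k Rb) = 1 := by
    rw [← Matrix.map_mul, Matrix.mul_nonsing_inv Vk hdet, Matrix.map_one _ (map_zero _) (map_one _)]
  have hkey : Vk.map (algebraMap k Rb) * (h75_mulMat S f hf).map D.red =
      Matrix.diagonal (S.red' ⟨f, hf⟩) * Vk.map (algebraMap k Rb) := by
    ext a j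
    rw [Matrix.mul_apply, Matrix.diagonal_mul, Matrix.map_apply, hVk, Matrix.vandermonde_apply,
      map_pow, ← h75_red'_col S f hf a j]
    refine Finset.sum_congr rfl fun i _ => ?_
    rw [Matrix.map_apply, Matrix.map_apply, Matrix.vandermonde_apply, map_pow, mul_comm]
  have hM : (h75_mulMat S f hf).map D.red = (Vk⁻¹).map (algebraMap k Rb) *
      (Matrix.diagonal (S.red' ⟨f, hf⟩) * Vk.map (algebraMap k Rb)) := by
    rw [← hkey, ← Matrix.mul_assoc, hWV, Matrix.one_mul]
  rw [← Matrix.charpoly_map, hM, Matrix.charpoly_mul_comm, Matrix.mul_assoc, hVW, Matrix.mul_one,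
    Matrix.charpoly_diagonal]

/-- The characteristic polynomial of `f ∈ O'` over `F` comes from `O[X]`. -/
theorem h75_charpoly_eq (f : F') (hf : f ∈ S.O') :
    (Algebra.leftMulMatrix (h75_asBasis S) f).charpoly =
      (h75_mulMat S f hf).charpoly.map D.O.subtype := by
  rw [← h75_mulMat_map S f hf, Matrix.charpoly_map]

/-- The coefficients of the characteristic polynomial of `f ∈ O'` over `F` lie in `O`. -/
theorem h75_charpoly_coeff_mem (f : F') (hf : f ∈ S.O') (i : ℕ) :
    (Algebra.leftMulMatrix (h75_asBasis S) f).charpoly.coeff i ∈ D.O := by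
  rw [h75_charpoly_eq S f hf, Polynomial.coeff_map]
  exact ((h75_mulMat S f hf).charpoly.coeff i).2

/-- ... and they reduce to the coefficients of `∏_a (X - red' f a)`. -/
theorem h75_charpoly_coeff_red (f : F') (hf : f ∈ S.O') (i : ℕ) :
    D.red ⟨(Algebra.leftMulMatrix (h75_asBasis S) f).charpoly.coeff i,
        h75_charpoly_coeff_mem S f hf i⟩ =
      (∏ a : Fin n, (X - C (S.red' ⟨f, hf⟩ a))).coeff i := by
  rw [← h75_charpoly_red S f hf, Polynomial.coeff_map]
  congr 1
  apply Subtype.ext
  change (Algebra.leftMulMatrix (h75_asBasis S) f).charpoly.coeff i = _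
  rw [h75_charpoly_eq S f hf, Polynomial.coeff_map]
  rfl

/-- The same in `redF` form. -/
theorem h75_charpoly_coeff_redF (f : F') (hf : f ∈ S.O') (i : ℕ) :
    D.redF ((Algebra.leftMulMatrix (h75_asBasis S) f).charpoly.coeff i) =
      (∏ a : Fin n, (X - C (S.red' ⟨f, hf⟩ a))).coeff i := by
  rw [D.redF_of_mem (h75_charpoly_coeff_mem S f hf i)]
  exact h75_charpoly_coeff_red S f hf i

/-- Cayley–Hamilton: `f` is a root of its characteristic polynomial over `F`. -/
theorem h75_aeval_charpoly (f : F') :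
    aeval f (Algebra.leftMulMatrix (h75_asBasis S) f).charpoly = 0 := by
  apply Algebra.leftMulMatrix_injective (h75_asBasis S)
  rw [map_zero, ← Polynomial.aeval_algHom_apply]
  exact Matrix.aeval_self_charpoly _

/-- The characteristic polynomial of `f` over `F` is monic of degree `n`. -/
theorem h75_charpoly_monic (f : F') : (Algebra.leftMulMatrix (h75_asBasis S) f).charpoly.Monic :=
  Matrix.charpoly_monic _

theorem h75_charpoly_natDegree (f : F') :
    (Algebra.leftMulMatrix (h75_asBasis S) f).charpoly.natDegree = n := by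
  rw [Matrix.charpoly_natDegree_eq_dim, Fintype.card_fin]

/-- **Node comparison.** If two ring homs `e₁ e₂ : Rb → L` agree on the reductions of all
coefficients of the characteristic polynomial of `f ∈ O'` over `F`, the two families of sheet
values of `f` have the same polynomial `∏ (X - value)`. -/
theorem h75_prod_eq_of_coeff {L : Type*} [CommRing L] (e₁ e₂ : Rb →+* L) (f : F') (hf : f ∈ S.O')
    (h : ∀ i, e₁ (D.redF ((Algebra.leftMulMatrix (h75_asBasis S) f).charpoly.coeff i)) =
      e₂ (D.redF ((Algebra.leftMulMatrix (h75_asBasis S) f).charpoly.coeff i))) :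
    ∏ a : Fin n, (X - C (e₁ (S.red' ⟨f, hf⟩ a))) = ∏ a : Fin n, (X - C (e₂ (S.red' ⟨f, hf⟩ a))) := by
  have h1 : ∀ e : Rb →+* L, (∏ a : Fin n, (X - C (S.red' ⟨f, hf⟩ a))).map e =
      ∏ a : Fin n, (X - C (e (S.red' ⟨f, hf⟩ a))) := by
    intro e
    rw [Polynomial.map_prod]
    refine Finset.prod_congr rfl fun a _ => ?_
    rw [Polynomial.map_sub, Polynomial.map_X, Polynomial.map_C]
  rw [← h1 e₁, ← h1 e₂]
  ext i
  rw [Polynomial.coeff_map, Polynomial.coeff_map, ← h75_charpoly_coeff_redF S f hf i]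
  exact h i

/-- The same with the multisets of values, over a domain. -/
theorem h75_values_eq_of_coeff {L : Type*} [CommRing L] [IsDomain L] (e₁ e₂ : Rb →+* L) (f : F')
    (hf : f ∈ S.O')
    (h : ∀ i, e₁ (D.redF ((Algebra.leftMulMatrix (h75_asBasis S) f).charpoly.coeff i)) =
      e₂ (D.redF ((Algebra.leftMulMatrix (h75_asBasis S) f).charpoly.coeff i))) :
    (Finset.univ : Finset (Fin n)).val.map (fun a => e₁ (S.red' ⟨f, hf⟩ a)) =
      (Finset.univ : Finset (Fin n)).val.map (fun a => e₂ (S.red' ⟨f, hf⟩ a)) := by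
  have key : ∀ φ : Fin n → L, (∏ a : Fin n, (X - C (φ a))).roots =
      (Finset.univ : Finset (Fin n)).val.map φ := by
    intro φ
    have : ∏ a : Fin n, (X - C (φ a)) =
        (((Finset.univ : Finset (Fin n)).val.map φ).map (fun a => X - C a)).prod := by
      rw [Multiset.map_map]
      rfl
    rw [this, roots_multiset_prod_X_sub_C]
  rw [← key, ← key, h75_prod_eq_of_coeff S e₁ e₂ f hf h]

end Fermat.Agent.S33
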