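import Mathlib
import Fermat.Prelude.Def_AlgebraicCurve_DivisorPushPull
import Fermat.Agent.S24.h73_Diff
import Fermat.Agent.S24.h24_Fibre
import Fermat.Agent.S37.h85_NormFormula
import Fermat.Agent.S34.h20_ChartSF
import Fermat.Agent.S33.h75_CharRed

/-!
# S33 (N2), rows POLE + SYM of the cover lattice (helper75, W3b)

Pole control for characteristic polynomials in a finite separable extension `F'/F` of function
fields over `K`, and its consequences for helper15's lattice datum `S.lat` of a split step.

Field level (`F'/F` finite separable, `b` any `F`-basis of `F'`):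

* `h75_charpoly_coeff_mem_place` : if `h ∈ F'` lies in the valuation ring of every place of `F'`
  over the place `v` of `F`, the characteristic polynomial of `h` has coefficients in the
  valuation ring of `v`;
* `h75_charpoly_coeff_smul` : scaling law `c_(d-j)(s M) = s^j c_(d-j)(M)`;
* `h75_charpoly_coeff_mem_rr` : `g ∈ L(π^* E)` implies `c_(d-j)(g) ∈ L(j E)`.

Roots (any function field):

* `h75_root_ord`, `h75_root_mem_rr`, `h75_root_component` : a root of a monic polynomial whose
  coefficient of `X^(d-j)` lies in `L(j E)` lies in `L(E)`.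

Values:

* `h75_valRing P` : the graph of "value at `P`" as a subring of `Fb × k`;
* `h75_val_coeff_prod` : values of the coefficients of `∏ (X - x a)`.

Cover lattice (`D : h22_Lat K F k (Fb × Fb)`, `S : h15_ASData D F' d`):

* `h75_cover_coeff_mem` : the coefficients of the sheet polynomial of the reduction of
  `g ∈ L(n π^* D0) ∩ O'` lie in the reductions of `L(j n D0) ∩ O`;
* `h75_cover_pole` : the hypothesis `hpole` of `h20_cover_node` for `S.lat`;
* `h75_cover_sym` : the hypothesis `hsym` of `h20_cover_node` for `S.lat`.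
-/

set_option autoImplicit false
set_option synthInstance.maxHeartbeats 400000
set_option linter.style.haveILetI false

noncomputable section

open AlgebraicCurve IsDedekindDomain Polynomial

namespace Fermat.Agent.S33

open Fermat.Agent.S24 Fermat.Agent.S37

section Field

variable {K F F' : Type*} [Field K] [Field F] [Field F'] [Algebra K F] [Algebra K F']
  [Algebra F F'] [IsScalarTower K F F'] [FiniteDimensional F F'] [Algebra.IsSeparable F F']

/-- The characteristic polynomial of an element of `F'` that is integral at all places over `v`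
has coefficients in the valuation ring of `v`. -/
theorem h75_charpoly_coeff_mem_place {ι : Type*} [Fintype ι] [DecidableEq ι]
    (b : Module.Basis ι F F') (v : Place K F) (h : F')
    (hh : ∀ w : Place K F', w.restrict F = v → h ∈ w.toValuationSubring) (i : ℕ) :
    (Algebra.leftMulMatrix b h).charpoly.coeff i ∈ v.toValuationSubring := by
  classical
  letI algAF' : Algebra v.toValuationSubring F' :=
    ((algebraMap F F').comp (algebraMap v.toValuationSubring F)).toAlgebra
  haveI : IsScalarTower v.toValuationSubring F F' :=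
    IsScalarTower.of_algebraMap_eq (fun _ => rfl)
  haveI : Module.IsTorsionFree v.toValuationSubring F' :=
    Module.isTorsionFree_iff_algebraMap_injective.mpr
      ((algebraMap F F').injective.comp (IsFractionRing.injective v.toValuationSubring F))
  haveI : IsDedekindDomain (integralClosure v.toValuationSubring F') :=
    integralClosure.isDedekindDomain v.toValuationSubring F F'
  haveI : Module.Finite v.toValuationSubring (integralClosure v.toValuationSubring F') :=
    IsIntegralClosure.finite v.toValuationSubring F F' (integralClosure v.toValuationSubring F')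
  haveI : IsFractionRing (integralClosure v.toValuationSubring F') F' :=
    integralClosure.isFractionRing_of_finite_extension F F'
  letI algKB : Algebra K (integralClosure v.toValuationSubring F') :=
    ((algebraMap v.toValuationSubring (integralClosure v.toValuationSubring F')).comp
      (algebraMap K v.toValuationSubring)).toAlgebra
  haveI : IsScalarTower K v.toValuationSubring (integralClosure v.toValuationSubring F') :=
    IsScalarTower.of_algebraMap_eq (fun _ => rfl)
  haveI : IsScalarTower K (integralClosure v.toValuationSubring F') F' :=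
    IsScalarTower.of_algebraMap_eq (fun a => IsScalarTower.algebraMap_apply K F F' a)
  -- the places of the primes of the integral closure lie over `v`
  have hA1 : ∀ P : HeightOneSpectrum (integralClosure v.toValuationSubring F'),
      (Place.ofHeightOneSpectrum (K := K) (F := F') P).restrict F = v := by
    intro P
    apply h85_place_eq_of_le
    intro a ha
    rw [Place.mem_restrict_iff, Place.ofHeightOneSpectrum_toValuationSubring,
      Valuation.mem_valuationSubring_iff]
    have h1 : algebraMap F F' a = algebraMap (integralClosure v.toValuationSubring F') F'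
        (algebraMap v.toValuationSubring (integralClosure v.toValuationSubring F') ⟨a, ha⟩) := by
      rw [← IsScalarTower.algebraMap_apply v.toValuationSubring
        (integralClosure v.toValuationSubring F') F']
      rfl
    rw [h1]
    exact P.valuation_le_one _
  -- hence `h` lies in the integral closure
  have hmem : h ∈ (algebraMap (integralClosure v.toValuationSubring F') F').range := by
    apply HeightOneSpectrum.mem_integers_of_valuation_le_one
    intro P
    have := hh _ (hA1 P)
    rwa [Place.ofHeightOneSpectrum_toValuationSubring, Valuation.mem_valuationSubring_iff] at this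
  obtain ⟨h', rfl⟩ := hmem
  haveI : Module.IsTorsionFree v.toValuationSubring (integralClosure v.toValuationSubring F') :=
    IsIntegralClosure.isTorsionFree v.toValuationSubring F'
  haveI : Module.Free v.toValuationSubring (integralClosure v.toValuationSubring F') :=
    inferInstance
  haveI : IsLocalization (Algebra.algebraMapSubmonoid (integralClosure v.toValuationSubring F')
      (nonZeroDivisors v.toValuationSubring)) F' :=
    IsIntegralClosure.isLocalization v.toValuationSubring F F'
      (integralClosure v.toValuationSubring F')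
  let β := Module.Free.chooseBasis v.toValuationSubring (integralClosure v.toValuationSubring F')
  have key := Algebra.map_leftMulMatrix_localization (R := v.toValuationSubring) (Rₘ := F)
    (Sₘ := F') (nonZeroDivisors v.toValuationSubring) β h'
  have e1 : (Algebra.leftMulMatrix b
      (algebraMap (integralClosure v.toValuationSubring F') F' h')).charpoly =
      (Algebra.leftMulMatrix (β.localizationLocalization F (nonZeroDivisors v.toValuationSubring) F')
        (algebraMap (integralClosure v.toValuationSubring F') F' h')).charpoly := by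
    rw [Algebra.leftMulMatrix_apply, Algebra.leftMulMatrix_apply, LinearMap.charpoly_toMatrix,
      LinearMap.charpoly_toMatrix]
  rw [e1, ← key, RingHom.mapMatrix_apply, Matrix.charpoly_map, Polynomial.coeff_map]
  exact Subtype.coe_prop _

/-- Scaling law for the coefficients of the characteristic polynomial. -/
theorem h75_charpoly_coeff_smul {R ι : Type*} [CommRing R] [Fintype ι] [DecidableEq ι]
    (M : Matrix ι ι R) (s : R) (j : ℕ) (hj : j ≤ Fintype.card ι) :
    (s • M).charpoly.coeff (Fintype.card ι - j) =
      s ^ j * M.charpoly.coeff (Fintype.card ι - j) := by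
  rw [Matrix.charpoly_coeff_eq_sum_minors _ j hj, Matrix.charpoly_coeff_eq_sum_minors _ j hj]
  have key : ∀ t ∈ Finset.powersetCard j (Finset.univ : Finset ι),
      ((s • M).submatrix (Subtype.val : t → ι) (Subtype.val : t → ι)).det =
        s ^ j * (M.submatrix (Subtype.val : t → ι) (Subtype.val : t → ι)).det := by
    intro t ht
    have e : (s • M).submatrix (Subtype.val : t → ι) (Subtype.val : t → ι) =
        s • M.submatrix (Subtype.val : t → ι) (Subtype.val : t → ι) := rfl
    rw [e, Matrix.det_smul, Fintype.card_coe, (Finset.mem_powersetCard.mp ht).2]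
  rw [Finset.sum_congr rfl key, ← Finset.mul_sum]
  ring

/-- **Pole control**: if `g ∈ L(π^* E)` then the coefficient of `X^(d - j)` of the characteristic
polynomial of `g` over `F` lies in `L(j E)`. -/
theorem h75_charpoly_coeff_mem_rr [HasPrincipalDivisors K F'] {ι : Type*} [Fintype ι]
    [DecidableEq ι] (b : Module.Basis ι F F') (E : Divisor K F) (g : F')
    (hg : g ∈ riemannRochSpace (Divisor.pullback F' E)) (j : ℕ) (hj : j ≤ Fintype.card ι) :
    (Algebra.leftMulMatrix b g).charpoly.coeff (Fintype.card ι - j) ∈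
      riemannRochSpace (j • E) := by
  rw [mem_riemannRochSpace_iff] at hg ⊢
  intro v
  obtain ⟨π, hπ⟩ := h73_exists_ord_eq_one v
  have hπ0 : π ≠ 0 := by
    rintro rfl
    rw [v.ord_zero] at hπ
    exact zero_ne_one hπ
  set s : F := π ^ (E v) with hs
  have hs0 : s ≠ 0 := zpow_ne_zero _ hπ0
  have hsord : v.ord s = E v := by rw [hs, v.ord_zpow, hπ, mul_one]
  have hh : ∀ w : Place K F', w.restrict F = v →
      algebraMap F F' s * g ∈ w.toValuationSubring := by
    intro w hw
    rcases hg w with rfl | hgw
    · rw [mul_zero]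
      exact zero_mem _
    · rcases eq_or_ne g 0 with rfl | hg0
      · rw [mul_zero]
        exact zero_mem _
      apply h73_mem_of_ord_nonneg
      rw [w.ord_mul (by simpa using hs0) hg0, w.ord_restrict, hw, hsord]
      rw [Divisor.pullback_apply, hw] at hgw
      linarith
  have hmem := h75_charpoly_coeff_mem_place b v _ hh (Fintype.card ι - j)
  have e1 : Algebra.leftMulMatrix b (algebraMap F F' s * g) = s • Algebra.leftMulMatrix b g := by
    rw [← Algebra.smul_def, map_smul]
  rw [e1, h75_charpoly_coeff_smul _ _ _ hj] at hmem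
  rcases eq_or_ne ((Algebra.leftMulMatrix b g).charpoly.coeff (Fintype.card ι - j)) 0 with h0 | h0
  · exact Or.inl h0
  right
  have h1 := h73_ord_nonneg_of_mem v hmem
  rw [v.ord_mul (pow_ne_zero _ hs0) h0, ← zpow_natCast, v.ord_zpow, hsord] at h1
  rw [Finsupp.smul_apply, nsmul_eq_mul]
  linarith

end Field

section Root

variable {K F : Type*} [Field K] [Field F] [Algebra K F]

/-- A root of a monic polynomial whose coefficient of `X^(d - j)` has order `≥ -j m` at `v` has
order `≥ -m` at `v`. -/
theorem h75_root_ord (v : Place K F) (m : ℤ) (q : F[X]) (hq : q.Monic)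
    (hc : ∀ j : ℕ, j ≤ q.natDegree → q.coeff (q.natDegree - j) = 0 ∨
      -(j * m) ≤ v.ord (q.coeff (q.natDegree - j)))
    (ρ : F) (hρ : q.IsRoot ρ) : ρ = 0 ∨ -m ≤ v.ord ρ := by
  rcases eq_or_ne ρ 0 with h0 | h0
  · exact Or.inl h0
  right
  obtain ⟨π, hπ⟩ := h73_exists_ord_eq_one v
  have hπ0 : π ≠ 0 := by
    rintro rfl
    rw [v.ord_zero] at hπ
    exact zero_ne_one hπ
  set s : F := π ^ m with hs
  have hs0 : s ≠ 0 := zpow_ne_zero _ hπ0
  have hsord : v.ord s = m := by rw [hs, v.ord_zpow, hπ, mul_one]
  have hlift : scaleRoots q s ∈ Polynomial.lifts (algebraMap v.toValuationSubring F) := by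
    rw [Polynomial.lifts_iff_coeff_lifts]
    intro i
    rw [coeff_scaleRoots]
    suffices hmem : q.coeff i * s ^ (q.natDegree - i) ∈ v.toValuationSubring from ⟨⟨_, hmem⟩, rfl⟩
    rcases le_or_gt i q.natDegree with hi | hi
    · have hc' := hc (q.natDegree - i) (Nat.sub_le _ _)
      rw [Nat.sub_sub_self hi] at hc'
      rcases hc' with h | h
      · rw [h, zero_mul]
        exact zero_mem _
      · rcases eq_or_ne (q.coeff i) 0 with h' | h'
        · rw [h', zero_mul]
          exact zero_mem _
        apply h73_mem_of_ord_nonneg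
        rw [v.ord_mul h' (pow_ne_zero _ hs0), ← zpow_natCast, v.ord_zpow, hsord]
        linarith
    · rw [Polynomial.coeff_eq_zero_of_natDegree_lt hi, zero_mul]
      exact zero_mem _
  obtain ⟨Q, hQ, -, hQm⟩ := Polynomial.lifts_and_natDegree_eq_and_monic hlift
    ((monic_scaleRoots_iff s).mpr hq)
  have hint : IsIntegral v.toValuationSubring (s * ρ) := by
    refine ⟨Q, hQm, ?_⟩
    rw [Polynomial.eval₂_eq_eval_map, hQ, scaleRoots_eval_mul, hρ.eq_zero, mul_zero]
  obtain ⟨y, hy⟩ := IsIntegrallyClosed.isIntegral_iff.mp hint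
  have hmem : s * ρ ∈ v.toValuationSubring := hy ▸ y.2
  have h1 := h73_ord_nonneg_of_mem v hmem
  rw [v.ord_mul hs0 h0, hsord] at h1
  linarith

/-- A root of a monic polynomial whose coefficient of `X^(d - j)` lies in `L(j E)` lies in
`L(E)`. -/
theorem h75_root_mem_rr (E : Divisor K F) (q : F[X]) (hq : q.Monic)
    (hc : ∀ j : ℕ, j ≤ q.natDegree → q.coeff (q.natDegree - j) ∈ riemannRochSpace (j • E))
    (ρ : F) (hρ : q.IsRoot ρ) : ρ ∈ riemannRochSpace E := by
  rw [mem_riemannRochSpace_iff]
  intro v
  refine h75_root_ord v (E v) q hq (fun j hj => ?_) ρ hρ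
  have h := (mem_riemannRochSpace_iff.mp (hc j hj)) v
  rwa [Finsupp.smul_apply, nsmul_eq_mul] at h

/-- Component form of `h75_root_mem_rr` for a product of linear factors over a ring mapping to
the function field. -/
theorem h75_root_component {R : Type*} [CommRing R] (π : R →+* F) {ι : Type*} [Fintype ι]
    (ρ : ι → R) (E : Divisor K F)
    (hc : ∀ j : ℕ, j ≤ Fintype.card ι →
      π ((∏ b, (X - C (ρ b))).coeff (Fintype.card ι - j)) ∈ riemannRochSpace (j • E)) (a : ι) :
    π (ρ a) ∈ riemannRochSpace E := by
  have hmap : (∏ b, (X - C (ρ b))).map π = ∏ b, (X - C (π (ρ b))) := by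
    rw [Polynomial.map_prod]
    refine Finset.prod_congr rfl fun b _ => ?_
    rw [Polynomial.map_sub, Polynomial.map_X, Polynomial.map_C]
  have hmonic : (∏ b, (X - C (π (ρ b)))).Monic := monic_prod_X_sub_C _ _
  have hdeg : (∏ b, (X - C (π (ρ b)))).natDegree = Fintype.card ι := by
    rw [natDegree_finsetProd_X_sub_C_eq_card, Finset.card_univ]
  refine h75_root_mem_rr E _ hmonic (fun j hj => ?_) _ ?_
  · rw [hdeg] at hj ⊢
    rw [← hmap, Polynomial.coeff_map]
    exact hc j hj
  · rw [IsRoot, Polynomial.eval_prod]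
    exact Finset.prod_eq_zero (Finset.mem_univ a) (by rw [eval_sub, eval_X, eval_C, sub_self])

end Root

section Values

open Fermat.Agent.S18

variable {k Fb : Type*} [Field k] [Field Fb] [Algebra k Fb]

/-- The graph of "value at `P`", a subring of `Fb × k`. -/
def h75_valRing (P : Place k Fb) : Subring (Fb × k) where
  carrier := {p | h39_Val P p.1 p.2}
  mul_mem' ha hb := h39_val_mul P ha hb
  one_mem' := by
    have h := h39_val_algebraMap (F := Fb) P (1 : k)
    rwa [map_one] at h
  add_mem' ha hb := h39_val_add P ha hb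
  zero_mem' := by
    have h := h39_val_algebraMap (F := Fb) P (0 : k)
    rwa [map_zero] at h
  neg_mem' := by
    intro p hp
    have h1 := h39_val_algebraMap (F := Fb) P (-1 : k)
    have h2 := h39_val_mul P h1 hp
    have e1 : algebraMap k Fb (-1) * p.1 = (-p).1 := by rw [map_neg, map_one]; simp
    have e2 : (-1 : k) * p.2 = (-p).2 := by simp
    rw [e1, e2] at h2
    exact h2

theorem h75_mem_valRing (P : Place k Fb) (p : Fb × k) : p ∈ h75_valRing P ↔ h39_Val P p.1 p.2 :=
  Iff.rfl

/-- Values of the coefficients of `∏ (X - x a)`. -/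
theorem h75_val_coeff_prod (P : Place k Fb) {ι : Type*} [Fintype ι] (x : ι → Fb) (v : ι → k)
    (h : ∀ a, h39_Val P (x a) (v a)) (i : ℕ) :
    h39_Val P ((∏ a, (X - C (x a))).coeff i) ((∏ a, (X - C (v a))).coeff i) := by
  set R : (h75_valRing P)[X] := ∏ a, (X - C (⟨(x a, v a), h a⟩ : h75_valRing P)) with hR
  have h1 : (R.map (h75_valRing P).subtype).map (RingHom.fst Fb k) = ∏ a, (X - C (x a)) := by
    rw [hR, Polynomial.map_prod, Polynomial.map_prod]
    refine Finset.prod_congr rfl fun a _ => ?_
    simp
  have h2 : (R.map (h75_valRing P).subtype).map (RingHom.snd Fb k) = ∏ a, (X - C (v a)) := by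
    rw [hR, Polynomial.map_prod, Polynomial.map_prod]
    refine Finset.prod_congr rfl fun a _ => ?_
    simp
  have h3 : (R.map (h75_valRing P).subtype).coeff i ∈ h75_valRing P := by
    rw [Polynomial.coeff_map]
    exact (R.coeff i).2
  rw [h75_mem_valRing] at h3
  have e1 : (∏ a, (X - C (x a))).coeff i = ((R.map (h75_valRing P).subtype).coeff i).1 := by
    rw [← h1, Polynomial.coeff_map (RingHom.fst Fb k)]
    rfl
  have e2 : (∏ a, (X - C (v a))).coeff i = ((R.map (h75_valRing P).subtype).coeff i).2 := by
    rw [← h2, Polynomial.coeff_map (RingHom.snd Fb k)]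
    rfl
  rw [e1, e2]
  exact h3

end Values

section Cover

open Fermat.Agent.S18 Fermat.Agent.S34

variable {K F k Fb : Type*} [Field K] [Field F] [Algebra K F] [Field k] [Field Fb] [Algebra k Fb]
  {D : h22_Lat K F k (Fb × Fb)} {F' : Type*} [Field F'] [Algebra F F'] [Algebra K F']
  [IsScalarTower K F F'] [Algebra.IsIntegral F F'] [Algebra.IsSeparable F F']
  [HasPrincipalDivisors K F'] {d : ℕ} (S : h15_ASData D F' d)

/-- The coefficients of the sheet polynomial of an element of `L(n π^* D0) ∩ O'` are reductions
of elements of `L(j n D0) ∩ O`. -/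
theorem h75_cover_coeff_mem (D0 : Divisor K F) (n : ℕ) (g : F')
    (hgL : g ∈ riemannRochSpace (n • Divisor.pullback F' D0)) (hgO : g ∈ S.O') (j : ℕ)
    (hj : j ≤ d) :
    (∏ b : Fin d, (X - C (S.red' ⟨g, hgO⟩ b))).coeff (d - j) ∈ h51_Rd D ((j * n) • D0) := by
  haveI : FiniteDimensional F F' := Module.Finite.of_basis (h75_asBasis S)
  have hg' : g ∈ riemannRochSpace (Divisor.pullback F' (n • D0)) := by
    rw [map_nsmul]
    exact hgL
  have h1 := h75_charpoly_coeff_mem_rr (h75_asBasis S) (n • D0) g hg' j
    (by rw [Fintype.card_fin]; exact hj)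
  rw [Fintype.card_fin, smul_smul] at h1
  exact ⟨_, h1, h75_charpoly_coeff_mem S g hgO _, h75_charpoly_coeff_redF S g hgO _⟩

/-- **POLE** for the cover lattice: every sheet of the reduction of `L(n π^* D0) ∩ O'` has poles
of order at most `n` at `Qinf` only, if this holds on the base. -/
theorem h75_cover_pole (D0 : Divisor K F) (Qinf : Place k Fb)
    (hreg : ∀ m : ℕ, ∀ c ∈ h51_Rd D (m • D0), c ∈ h20_P Qinf m) :
    ∀ n : ℕ, ∀ f ∈ h51_Rd S.lat (n • Divisor.pullback F' D0), ∀ a, f a ∈ h20_P Qinf n := by
  rintro n f ⟨g, hgL, hgO, rfl⟩ a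
  have hgO' : g ∈ S.O' := hgO
  rw [S.lat.redF_of_mem hgO]
  show S.red' ⟨g, hgO'⟩ a ∈ h20_P Qinf n
  have hcoef : ∀ j : ℕ, j ≤ d →
      (∏ b : Fin d, (X - C (S.red' ⟨g, hgO'⟩ b))).coeff (d - j) ∈ h20_P Qinf (j * n) :=
    fun j hj => hreg _ _ (h75_cover_coeff_mem S D0 n g hgL hgO' j hj)
  have hD : ∀ j : ℕ, j • h20_Dinf Qinf n = h20_Dinf Qinf (j * n) := by
    intro j
    unfold h20_Dinf
    rw [smul_smul]
  rw [h20_mem_P]
  constructor
  · refine h75_root_component (RingHom.fst Fb Fb) (fun b => S.red' ⟨g, hgO'⟩ b) _ (fun j hj => ?_) a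
    rw [Fintype.card_fin] at hj ⊢
    rw [hD]
    exact (h20_mem_P.mp (hcoef j hj)).1
  · refine h75_root_component (RingHom.snd Fb Fb) (fun b => S.red' ⟨g, hgO'⟩ b) _ (fun j hj => ?_) a
    rw [Fintype.card_fin] at hj ⊢
    rw [hD]
    exact (h20_mem_P.mp (hcoef j hj)).2

/-- **SYM** for the cover lattice: at a node of the base the values of the sheets on the two
branches have the same characteristic polynomial. -/
theorem h75_cover_sym (D0 : Divisor K F) (Sg : Finset (Place k Fb))
    (Φ : Place k Fb → Place k Fb)
    (hnodeB : ∀ m : ℕ, ∀ c ∈ h51_Rd D (m • D0), ∀ Q ∈ Sg, ∀ b1 b2 : k,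
      h39_Val (Φ Q) c.1 b1 → h39_Val Q c.2 b2 → b1 = b2) :
    ∀ n : ℕ, ∀ f ∈ h51_Rd S.lat (n • Divisor.pullback F' D0), ∀ Q ∈ Sg, ∀ v1 v2 : Fin d → k,
      (∀ a, h39_Val (Φ Q) (f a).1 (v1 a)) → (∀ a, h39_Val Q (f a).2 (v2 a)) →
      ∏ a, (X - C (v1 a)) = ∏ a, (X - C (v2 a)) := by
  rintro n f ⟨g, hgL, hgO, rfl⟩ Q hQ v1 v2 h1 h2
  have hgO' : g ∈ S.O' := hgO
  rw [S.lat.redF_of_mem hgO] at h1 h2
  change ∀ a, h39_Val (Φ Q) (S.red' ⟨g, hgO'⟩ a).1 (v1 a) at h1
  change ∀ a, h39_Val Q (S.red' ⟨g, hgO'⟩ a).2 (v2 a) at h2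
  set q : (Fb × Fb)[X] := ∏ b : Fin d, (X - C (S.red' ⟨g, hgO'⟩ b)) with hq
  have hq1 : q.map (RingHom.fst Fb Fb) = ∏ b : Fin d, (X - C (S.red' ⟨g, hgO'⟩ b).1) := by
    rw [hq, Polynomial.map_prod]
    refine Finset.prod_congr rfl fun b _ => ?_
    rw [Polynomial.map_sub, Polynomial.map_X, Polynomial.map_C]
    rfl
  have hq2 : q.map (RingHom.snd Fb Fb) = ∏ b : Fin d, (X - C (S.red' ⟨g, hgO'⟩ b).2) := by
    rw [hq, Polynomial.map_prod]
    refine Finset.prod_congr rfl fun b _ => ?_
    rw [Polynomial.map_sub, Polynomial.map_X, Polynomial.map_C]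
    rfl
  have hqdeg : q.natDegree = d := by
    rw [hq, natDegree_finsetProd_X_sub_C_eq_card, Finset.card_univ, Fintype.card_fin]
  have hmem : ∀ i : ℕ, ∃ m : ℕ, q.coeff i ∈ h51_Rd D (m • D0) := by
    intro i
    rcases le_or_gt i d with hi | hi
    · refine ⟨(d - i) * n, ?_⟩
      have h := h75_cover_coeff_mem S D0 n g hgL hgO' (d - i) (Nat.sub_le _ _)
      rwa [Nat.sub_sub_self hi] at h
    · refine ⟨0, ?_⟩
      rw [Polynomial.coeff_eq_zero_of_natDegree_lt (by rw [hqdeg]; exact hi)]
      exact Submodule.zero_mem _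
  ext i
  obtain ⟨m, hm⟩ := hmem i
  have hv1 := h75_val_coeff_prod (Φ Q) (fun b => (S.red' ⟨g, hgO'⟩ b).1) v1 h1 i
  have hv2 := h75_val_coeff_prod Q (fun b => (S.red' ⟨g, hgO'⟩ b).2) v2 h2 i
  rw [← hq1, Polynomial.coeff_map] at hv1
  rw [← hq2, Polynomial.coeff_map] at hv2
  exact hnodeB m _ hm Q hQ _ _ hv1 hv2

end Cover

end Fermat.Agent.S33
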