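import Mathlib
import Fermat.Agent.S33.h20_CoverNode
import Fermat.Agent.S33.h53_ConnChart
import Fermat.Agent.S34.h51_MidSF

/-!
# S33 / (N2) "N-min", TOP-END (helper84): the sheet graph of the wild cover is disconnected

Generic endgame of helper85's `h85_nmin` (skeleton `h85_NMinSkel`).  `D'` is a lattice datum on a
cover `F'` whose reductions are `Fin p`-tuples ("sheets") of pairs in `Fb × Fb`; the sheets are
labelled by an injective `r : Fin p → k` (`r = S.r` for helper15's Artin–Schreier model).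

Inputs (the outputs of the rows NODE' + COMMUTE, SHIFT, TAU of the skeleton):

* `σ ν`, one permutation of the sheets for every node `ν` of the base, describing
  `red' (L'(n D0') ∩ O')` for large `n` (`hσ`), and commuting with every pair of sheet maps
  stabilising the reductions (`hcomm`);
* the deck shift `s` (`r (s a) = r a + 1`) stabilising the reductions;
* the lifted inertia element: sheet maps `s1`, `s2` with `c * r (s_i a) = r a + β_i`, `c ≠ 1`
  in `k`, stabilising the reductions.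

Then all `σ ν` are the SAME translation `r (σ ν a) = r a + (β2 - β1)/(c - 1)`
(`h84_sigma_translation`), so the indicator of the sheet pair `(a0, σ a0)` is an idempotent
`≠ 0, 1` of the special fibre satisfying all node conditions, which contradicts the
connectedness `h53_conn_of_chart` of the special fibre of a charted lattice
(`h84_nmin_end : False`).
-/

set_option autoImplicit false

noncomputable section

open AlgebraicCurve Module Polynomial

namespace Fermat.Agent.S33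

open Fermat.Agent.S34 Fermat.Agent.S18 Fermat.Agent.S24 Fermat.Agent.S27

/-! ### Finite combinatorics of the sheets -/

/-- A map `s` of `Fin p` with `r (s a) = r a + 1` for a labelling `r` into a field of
characteristic `p` is transitive. -/
theorem h84_shift_transitive {k : Type*} [Field k] {p : ℕ} [CharP k p]
    (r : Fin p → k) (s : Fin p → Fin p)
    (hs : ∀ a, r (s a) = r a + 1) (a b : Fin p) : ∃ j : ℕ, s^[j] a = b := by
  have hiter : ∀ j : ℕ, r (s^[j] a) = r a + j := by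
    intro j
    induction j with
    | zero => simp
    | succ j ih =>
      rw [Function.iterate_succ_apply', hs, ih]
      push_cast
      ring
  have hinj : Function.Injective (fun j : Fin p => s^[(j : ℕ)] a) := by
    intro i j hij
    have h1 : r a + ((i : ℕ) : k) = r a + ((j : ℕ) : k) := by
      rw [← hiter, ← hiter]
      exact congrArg r hij
    have h2 : ((i : ℕ) : k) = ((j : ℕ) : k) := add_left_cancel h1
    have h3 : (i : ℕ) ≡ (j : ℕ) [MOD p] := (CharP.natCast_eq_natCast k p).mp h2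
    exact Fin.ext (Nat.ModEq.eq_of_lt_of_lt h3 i.2 j.2)
  obtain ⟨j, hj⟩ := (Finite.injective_iff_surjective.mp hinj) b
  exact ⟨j, hj⟩

/-- **The affine algebra.**  A map `σ` of the sheets commuting with the shift `s` and
intertwining two affine maps `s1`, `s2` of slope `c⁻¹ ≠ 1` is the translation by
`(β2 - β1)/(c - 1)`. -/
theorem h84_sigma_translation {k : Type*} [Field k] {p : ℕ} [CharP k p]
    (r : Fin p → k) (s : Fin p → Fin p)
    (hs : ∀ a, r (s a) = r a + 1) (c : k) (hc : c ≠ 1) (s1 s2 : Fin p → Fin p) (β1 β2 : k)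
    (hs1 : ∀ a, c * r (s1 a) = r a + β1) (hs2 : ∀ a, c * r (s2 a) = r a + β2)
    (σ : Fin p → Fin p) (hσs : ∀ a, σ (s a) = s (σ a)) (hσt : ∀ a, σ (s1 a) = s2 (σ a))
    (a : Fin p) : r (σ a) = r a + (β2 - β1) / (c - 1) := by
  have hd : ∀ b, r (σ (s b)) - r (s b) = r (σ b) - r b := by
    intro b
    rw [hσs, hs, hs]
    ring
  have hditer : ∀ (j : ℕ) (b : Fin p), r (σ (s^[j] b)) - r (s^[j] b) = r (σ b) - r b := by
    intro j
    induction j with
    | zero => intro b; rfl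
    | succ j ih =>
      intro b
      rw [Function.iterate_succ_apply', hd, ih]
  have hconst : ∀ b, r (σ b) - r b = r (σ a) - r a := by
    intro b
    obtain ⟨j, rfl⟩ := h84_shift_transitive r s hs a b
    exact hditer j a
  have h1 : c * r (σ (s1 a)) = c * (r (s1 a) + (r (σ a) - r a)) := by
    rw [← hconst (s1 a)]
    ring
  rw [hσt, hs2 (σ a)] at h1
  have hc1 : c - 1 ≠ 0 := sub_ne_zero.mpr hc
  have h2 : r (σ a) - r a = (β2 - β1) / (c - 1) := by
    rw [eq_div_iff hc1]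
    linear_combination (-1 : k) * h1 - hs1 a
  linear_combination h2

variable {K F' k Fb : Type*} [Field K] [Field F'] [Algebra K F'] [Field k] [Field Fb]
  [Algebra k Fb]

/-- **(N2) TOP-END.**  The outputs of NODE' (+ COMMUTE), SHIFT and TAU for a charted cover
lattice are contradictory: the sheet graph would be disconnected. -/
theorem h84_nmin_end [IsAlgClosed K] [IsAlgClosed k] {xF' : F'} (hxF' : h75_IsChart K xF')
    {xb : Fb} (hxb : h75_IsChart k xb) {p : ℕ} (hp : p.Prime) [CharP k p]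
    (D' : h22_Lat K F' k (Fin p → Fb × Fb)) (hON' : h22_ON D')
    (hRk : h39_RankOne D'.A) (q : K) (hq : q ∈ D'.A.nonunits) (hq0 : q ≠ 0)
    (D0' D2' : Divisor K F') (hD0' : ∀ v, 0 ≤ D0' v) (hdegD0' : 1 ≤ Divisor.degree D0')
    (hD2' : ∀ v, 0 ≤ D2' v) (hdisj' : ∀ v, D0' v = 0 ∨ D2' v = 0)
    (N : ℕ) (hN : 1 ≤ N)
    (x' : F') (hx0 : x' ≠ 0) (hxO : x' ∈ D'.O) (hxinvO : x'⁻¹ ∈ D'.O)
    (hxdiv : ∀ v : Place K F', v.ord x' = D2' v - (N : ℤ) * D0' v)
    (Qinf : Place k Fb)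
    (hxb1 : ∀ a, Qinf.ord (D'.redF x' a).1 ≤ -(N : ℤ))
    (hxb2 : ∀ a, Qinf.ord (D'.redF x' a).2 ≤ -(N : ℤ))
    (Sg : Finset (Place k Fb)) (Φ : Place k Fb → Place k Fb) (hΦ : Function.Injective Φ)
    (hSg : ∀ Q ∈ Sg, Q ≠ Qinf ∧ Φ Q ≠ Qinf)
    (σ : {Q // Q ∈ Sg} → Equiv.Perm (Fin p)) (n1 : ℕ)
    (hσ : ∀ n, n1 ≤ n → ∀ f : Fin p → Fb × Fb,
      f ∈ h51_Rd D' (n • D0') ↔ (∀ a, f a ∈ h20_P Qinf n) ∧
        ∀ Q (hQ : Q ∈ Sg), ∀ a, ∃ c : k, h39_Val (Φ Q) (f a).1 c ∧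
          h39_Val Q (f (σ ⟨Q, hQ⟩ a)).2 c)
    (hcomm : ∀ s1 s2 : Fin p → Fin p,
      (∀ n : ℕ, ∀ f ∈ h51_Rd D' (n • D0'),
        (fun a => ((f (s1 a)).1, (f (s2 a)).2)) ∈ h51_Rd D' (n • D0')) →
      ∀ ν a, σ ν (s1 a) = s2 (σ ν a))
    (r : Fin p → k) (hr : Function.Injective r)
    (s : Fin p → Fin p) (hs : ∀ a, r (s a) = r a + 1)
    (hsstab : ∀ n : ℕ, ∀ f ∈ h51_Rd D' (n • D0'), (fun a => f (s a)) ∈ h51_Rd D' (n • D0'))
    (c : ℕ) (hc : ¬ c ≡ 1 [MOD p]) (s1 s2 : Fin p → Fin p) (β1 β2 : k)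
    (hs1 : ∀ a, (c : k) * r (s1 a) = r a + β1) (hs2 : ∀ a, (c : k) * r (s2 a) = r a + β2)
    (hτstab : ∀ n : ℕ, ∀ f ∈ h51_Rd D' (n • D0'),
      (fun a => ((f (s1 a)).1, (f (s2 a)).2)) ∈ h51_Rd D' (n • D0')) : False := by
  classical
  -- `c ≠ 1` in `k`
  have hck : (c : k) ≠ 1 := by
    intro h
    apply hc
    have h' : ((c : ℕ) : k) = ((1 : ℕ) : k) := by rw [h, Nat.cast_one]
    exact (CharP.natCast_eq_natCast k p).mp h'
  -- COMMUTE at `(s, s)` and at `(s1, s2)`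
  have hσs : ∀ ν a, σ ν (s a) = s (σ ν a) := hcomm s s (fun n f hf => hsstab n f hf)
  have hσt : ∀ ν a, σ ν (s1 a) = s2 (σ ν a) := hcomm s1 s2 hτstab
  have hκ : ∀ ν a, r (σ ν a) = r a + (β2 - β1) / ((c : k) - 1) := fun ν a =>
    h84_sigma_translation r s hs (c : k) hck s1 s2 β1 β2 hs1 hs2 (σ ν) (hσs ν) (hσt ν) a
  have hσeq : ∀ ν ν' a, σ ν a = σ ν' a := fun ν ν' a => hr (by rw [hκ ν a, hκ ν' a])
  -- the common permutation
  obtain ⟨σ0, hσ0⟩ : ∃ σ0 : Equiv.Perm (Fin p), ∀ ν, σ ν = σ0 := by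
    by_cases hne : Nonempty {Q // Q ∈ Sg}
    · obtain ⟨ν0⟩ := hne
      exact ⟨σ ν0, fun ν => Equiv.ext fun a => hσeq ν ν0 a⟩
    · exact ⟨1, fun ν => absurd ⟨ν⟩ hne⟩
  -- two distinct sheets
  let a0 : Fin p := ⟨0, hp.pos⟩
  let a1 : Fin p := ⟨1, hp.one_lt⟩
  have ha01 : a1 ≠ a0 := by
    intro h
    have := congrArg Fin.val h
    exact one_ne_zero this
  -- the idempotent
  let φ : Fin p → Fb × Fb :=
    fun a => (if a = a0 then 1 else 0, if a = σ0 a0 then 1 else 0)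
  have hφ1 : ∀ a, (φ a).1 = if a = a0 then 1 else 0 := fun a => rfl
  have hφ2 : ∀ a, (φ a).2 = if a = σ0 a0 then 1 else 0 := fun a => rfl
  have hφ : φ * φ = φ := by
    funext a
    rw [Pi.mul_apply]
    refine Prod.ext ?_ ?_
    · rw [Prod.fst_mul, hφ1]
      split_ifs <;> simp
    · rw [Prod.snd_mul, hφ2]
      split_ifs <;> simp
  -- constants
  have hone : (1 : Fb) ∈ riemannRochSpace (h20_Dinf Qinf 0) := by
    rw [mem_riemannRochSpace_iff]
    intro v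
    right
    rw [Place.ord_one]
    simp [h20_Dinf]
  have hzero : (0 : Fb) ∈ riemannRochSpace (h20_Dinf Qinf 0) := Submodule.zero_mem _
  have hφP : φ ∈ h20_PPi Qinf (Fin p) 0 := by
    rw [h20_mem_PPi]
    intro a
    rw [h20_mem_P, hφ1, hφ2]
    constructor
    · split_ifs
      · exact hone
      · exact hzero
    · split_ifs
      · exact hone
      · exact hzero
  have hvalite : ∀ (Q : Place k Fb) (P : Prop) [Decidable P],
      h39_Val Q (if P then (1 : Fb) else 0) (if P then 1 else 0) := by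
    intro Q P _
    split_ifs
    · have := h39_val_algebraMap Q (1 : k)
      rwa [map_one] at this
    · have := h39_val_algebraMap Q (0 : k)
      rwa [map_zero] at this
  -- the node data of the cover
  let e1 : {Q // Q ∈ Sg} × Fin p → (h20_BsPi Qinf (Fin p) →ₐ[k] k) :=
    fun z => h20_cev1 hxb Qinf Sg Φ hSg (Fin p) z.1 z.2
  let e2 : {Q // Q ∈ Sg} × Fin p → (h20_BsPi Qinf (Fin p) →ₐ[k] k) :=
    fun z => h20_cev2 hxb Qinf Sg Φ hSg (Fin p) z.1 (σ z.1 z.2)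
  have hPB : ∀ n, ∀ f ∈ h20_PPi Qinf (Fin p) n, f ∈ h20_BsPi Qinf (Fin p) :=
    h20_PPi_le_BsPi Qinf (Fin p)
  have hnode : ∀ n, n1 ≤ n → ∀ f : Fin p → Fb × Fb, f ∈ h51_Rd D' (n • D0') ↔
      ∃ h : f ∈ h20_PPi Qinf (Fin p) n,
        ∀ z, e2 z ⟨f, hPB n f h⟩ = e1 z ⟨f, hPB n f h⟩ := by
    intro n hn f
    rw [hσ n hn f]
    constructor
    · rintro ⟨hf, h⟩
      refine ⟨h20_mem_PPi.mpr hf, fun z => ?_⟩
      obtain ⟨c', hc1, hc2⟩ := h z.1.1 z.1.2 z.2
      show h20_cev2 hxb Qinf Sg Φ hSg (Fin p) z.1 (σ z.1 z.2) _ =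
        h20_cev1 hxb Qinf Sg Φ hSg (Fin p) z.1 z.2 _
      rw [h20_cev1_eq hxb Qinf Sg Φ hSg (Fin p) z.1 z.2 _ hc1,
        h20_cev2_eq hxb Qinf Sg Φ hSg (Fin p) z.1 (σ z.1 z.2) _ hc2]
    · rintro ⟨hf, h⟩
      refine ⟨h20_mem_PPi.mp hf, fun Q hQ a => ?_⟩
      refine ⟨_, h20_cev1_spec hxb Qinf Sg Φ hSg (Fin p) ⟨Q, hQ⟩ a ⟨f, hPB n f hf⟩, ?_⟩
      have h' : h20_cev2 hxb Qinf Sg Φ hSg (Fin p) ⟨Q, hQ⟩ (σ ⟨Q, hQ⟩ a) ⟨f, hPB n f hf⟩ =
          h20_cev1 hxb Qinf Sg Φ hSg (Fin p) ⟨Q, hQ⟩ a ⟨f, hPB n f hf⟩ := h (⟨Q, hQ⟩, a)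
      rw [← h']
      exact h20_cev2_spec hxb Qinf Sg Φ hSg (Fin p) ⟨Q, hQ⟩ (σ ⟨Q, hQ⟩ a) ⟨f, hPB n f hf⟩
  -- the pole-order lemma, sheet by sheet
  have hxx : D'.redF x' * D'.redF x'⁻¹ = 1 := by
    rw [← h51_redF_mul D' hxO hxinvO, mul_inv_cancel₀ hx0, h51_redF_one]
  have hx1 : ∀ a, (D'.redF x' a).1 ≠ 0 := by
    intro a h
    have h' := congrArg (fun g : Fin p → Fb × Fb => (g a).1) hxx
    simp only [Pi.mul_apply, Prod.fst_mul, Pi.one_apply, Prod.fst_one] at h'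
    rw [h, zero_mul] at h'
    exact zero_ne_one h'
  have hx2 : ∀ a, (D'.redF x' a).2 ≠ 0 := by
    intro a h
    have h' := congrArg (fun g : Fin p → Fb × Fb => (g a).2) hxx
    simp only [Pi.mul_apply, Prod.snd_mul, Pi.one_apply, Prod.snd_one] at h'
    rw [h, zero_mul] at h'
    exact zero_ne_one h'
  have hPx : ∀ (n : ℕ) (f : Fin p → Fb × Fb), f ∈ h20_PPi Qinf (Fin p) (n + N) →
      D'.redF x' * f ∈ h20_PPi Qinf (Fin p) (n + N) → f ∈ h20_PPi Qinf (Fin p) n := by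
    intro n f hf hxf
    rw [h20_mem_PPi] at hf hxf ⊢
    intro a
    exact h51_P_of_mul Qinf N (D'.redF x' a) (hx1 a) (hx2 a) (hxb1 a) (hxb2 a) n (f a) (hf a)
      (hxf a)
  have hPmono : ∀ n, h20_PPi Qinf (Fin p) 0 ≤ h20_PPi Qinf (Fin p) n :=
    fun n => h20_PPi_mono Qinf (Fin p) (Nat.zero_le n)
  have hPmul : ∀ n, ∀ f ∈ h20_PPi Qinf (Fin p) 0, ∀ g ∈ h20_PPi Qinf (Fin p) n,
      f * g ∈ h20_PPi Qinf (Fin p) n := by
    intro n f hf g hg
    rw [h20_mem_PPi] at hf hg ⊢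
    intro a
    have h := h20_P_mul Qinf 0 n (hf a) (hg a)
    rwa [zero_add] at h
  -- the node conditions of the idempotent
  have hφnode : ∀ z, e2 z ⟨φ, hPB 0 φ hφP⟩ = e1 z ⟨φ, hPB 0 φ hφP⟩ := by
    intro z
    have h1 : h39_Val (Φ z.1.1) (φ z.2).1 (if z.2 = a0 then 1 else 0) := by
      rw [hφ1]
      exact hvalite _ _
    have h2 : h39_Val z.1.1 (φ (σ z.1 z.2)).2 (if z.2 = a0 then 1 else 0) := by
      have h3 : (φ (σ z.1 z.2)).2 = if z.2 = a0 then 1 else 0 := by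
        rw [hφ2, hσ0 z.1]
        simp only [EmbeddingLike.apply_eq_iff_eq]
      rw [h3]
      exact hvalite _ _
    show h20_cev2 hxb Qinf Sg Φ hSg (Fin p) z.1 (σ z.1 z.2) _ =
      h20_cev1 hxb Qinf Sg Φ hSg (Fin p) z.1 z.2 _
    rw [h20_cev1_eq hxb Qinf Sg Φ hSg (Fin p) z.1 z.2 _ h1,
      h20_cev2_eq hxb Qinf Sg Φ hSg (Fin p) z.1 (σ z.1 z.2) _ h2]
  -- connectedness
  rcases h53_conn_of_chart hxF' D' hON' hRk q hq hq0 D0' D2' hD0' hdegD0' hD2' hdisj' N hN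
    x' hx0 hxO hxinvO hxdiv (h20_PPi Qinf (Fin p)) (h20_BsPi Qinf (Fin p)) hPB e1 e2 n1 hnode
    hPx hPmono hPmul φ hφ hφP hφnode with h | h
  · have h' := congrArg (fun g : Fin p → Fb × Fb => (g a0).1) h
    simp only [hφ1, if_true, Pi.zero_apply, Prod.fst_zero] at h'
    exact one_ne_zero h'
  · have h' := congrArg (fun g : Fin p → Fb × Fb => (g a1).1) h
    simp only [hφ1, if_neg ha01, Pi.one_apply, Prod.fst_one] at h'
    exact zero_ne_one h'

end Fermat.Agent.S33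

end
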