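import Mathlib
import Fermat.Agent.S33.h22_KumCover
import Fermat.Agent.S33.h15_ASInst
import Fermat.Agent.S33.h75_PoleCtl
import Fermat.Agent.S33.h19_CoverCountSk
import Fermat.Agent.S33.h19_CoverKummer
import Fermat.Agent.S33.h20_CoverCommute
import Fermat.Agent.S33.h35_ShiftStab
import Fermat.Agent.S33.h53_ConnChart
import Fermat.Agent.S27.h94_FISep
import Fermat.Agent.S33.h15_TauGlue
import Fermat.Agent.S33.h84_NMinEnd

/-!
# S33 (N2) "N-min": the generic wild endgame, assembled (helper34)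

`h34_nmin` is the statement `h85_nmin` of helper85's (N2) skeleton, verbatim.

Base: a lattice datum `D` on `F/K` with two-component special fibre `Fb × Fb`, chart data
(nodes `Sg`, partner map `Φ`), `p = char k`, `ζ` a primitive `p`-th root of unity of `K`,
a Kummer pair `(E₀, u₀)` (`p E₀ = div u₀`) which is deep (`u₀ = 1 + (ζ-1)^p h`, `h ∈ O`,
`red h = 0`), and a semilinear automorphism `g'` preserving `O`, the reductions and `D0`, with
`g' ζ = ζ^c`, `c ≢ 1 mod p`.  Then `g' E₀ ~ E₀` implies `E₀ ~ 0`.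

Assembly of the rows: the Kummer cover `F' = F(θ)` (helper22), the Artin–Schreier model
`S` (helper15), POLE + SYM (helper75), COUNT (helper19), NODE' + COMMUTE (helper20), SHIFT
(helper35), TAU (helper15's sheet action + helper22's lift) and the tail (helper84).
-/

set_option autoImplicit false

noncomputable section

open AlgebraicCurve Module Polynomial IntermediateField

namespace Fermat.Agent.S33

open Fermat.Agent.S18 Fermat.Agent.S24 Fermat.Agent.S27 Fermat.Agent.S34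

variable {K F k Fb : Type*} [Field K] [Field F] [Algebra K F] [Field k] [Field Fb] [Algebra k Fb]

/-- The value form of the base node conditions, for all `m` (from the node description for
`m ≥ n0` and monotonicity). -/
theorem h34_nodeB_of_hnode (D : h22_Lat K F k (Fb × Fb)) (D0 : Divisor K F)
    (hD0 : ∀ v, 0 ≤ D0 v) (Qinf : Place k Fb) (Sg : Finset (Place k Fb))
    (Φ : Place k Fb → Place k Fb) (n0 : ℕ)
    (hnode : ∀ n, n0 ≤ n → ∀ a : Fb × Fb, a ∈ h51_Rd D (n • D0) ↔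
      (a ∈ h20_P Qinf n ∧ ∀ Q ∈ Sg, ∃ c : k, h39_Val (Φ Q) a.1 c ∧ h39_Val Q a.2 c)) :
    ∀ m : ℕ, ∀ c ∈ h51_Rd D (m • D0), ∀ Q ∈ Sg, ∀ b1 b2 : k,
      h39_Val (Φ Q) c.1 b1 → h39_Val Q c.2 b2 → b1 = b2 := by
  intro m c hc Q hQ b1 b2 h1 h2
  have hmono : h51_Rd D (m • D0) ≤ h51_Rd D (max m n0 • D0) := by
    refine h51_Rd_mono D fun v => ?_
    rw [Finsupp.smul_apply, Finsupp.smul_apply, nsmul_eq_mul, nsmul_eq_mul]
    exact mul_le_mul_of_nonneg_right (by exact_mod_cast le_max_left m n0) (hD0 v)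
  obtain ⟨-, hval⟩ := (hnode (max m n0) (le_max_right _ _) c).mp (hmono hc)
  obtain ⟨c0, hc1, hc2⟩ := hval Q hQ
  rw [h39_val_unique _ h1 hc1, h39_val_unique _ h2 hc2]

/-- **TOP of (N2), generic ("N-min")** = `h85_nmin` of the skeleton, verbatim. -/
theorem h34_nmin [IsAlgClosed K] [IsAlgClosed k] [CharZero K] {xF : F} (hxF : h75_IsChart K xF)
    {xb : Fb} (hxb : h75_IsChart k xb)
    (D : h22_Lat K F k (Fb × Fb))
    (hG : ∀ P : K[X], aeval xF P ∈ D.O ↔ ∀ i, P.coeff i ∈ D.A)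
    (hU : ∀ P : K[X], aeval xF P ≠ 0 → ∃ c : K, c ≠ 0 ∧ algebraMap K F c * aeval xF P ∈ D.O ∧
      (algebraMap K F c * aeval xF P)⁻¹ ∈ D.O)
    {ι : Type*} [Fintype ι] (b : Module.Basis ι K⟮xF⟯ F)
    (hb : ∀ f : F, f ∈ D.O ↔ ∀ i, ((b.repr f i : K⟮xF⟯) : F) ∈ D.O)
    (hinv : ∀ (f : F) (hf : f ∈ D.O), IsUnit (D.red ⟨f, hf⟩) → f⁻¹ ∈ D.O)
    (hic : ∀ f : F, IsIntegral D.O f → f ∈ D.O)
    (hRk : h39_RankOne D.A) (q : K) (hq : q ∈ D.A.nonunits) (hq0 : q ≠ 0)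
    (D0 D2 : Divisor K F) (hD0 : ∀ v, 0 ≤ D0 v) (hdegD0 : 1 ≤ Divisor.degree D0)
    (hD2 : ∀ v, 0 ≤ D2 v) (hdisj : ∀ v, D0 v = 0 ∨ D2 v = 0)
    (N : ℕ) (hN : 1 ≤ N)
    (x : F) (hx0 : x ≠ 0) (hxO : x ∈ D.O) (hxinvO : x⁻¹ ∈ D.O)
    (hxdiv : ∀ v : Place K F, v.ord x = D2 v - (N : ℤ) * D0 v)
    (Qinf : Place k Fb)
    (hxb1 : Qinf.ord (D.redF x).1 ≤ -(N : ℤ)) (hxb2 : Qinf.ord (D.redF x).2 ≤ -(N : ℤ))
    (hreg : ∀ n, ∀ a ∈ h51_Rd D (n • D0), a ∈ h20_P Qinf n)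
    (Sg : Finset (Place k Fb)) (Φ : Place k Fb → Place k Fb) (hΦ : Function.Injective Φ)
    (hSg : ∀ Q ∈ Sg, Q ≠ Qinf ∧ Φ Q ≠ Qinf)
    (n0 : ℕ) (hn0F : 2 * h75_genus K xF ≤ n0) (hn0b : 2 * h75_genus k xb + Sg.card ≤ n0)
    (hnode : ∀ n, n0 ≤ n → ∀ a : Fb × Fb, a ∈ h51_Rd D (n • D0) ↔
      (a ∈ h20_P Qinf n ∧ ∀ Q ∈ Sg, ∃ c : k, h39_Val (Φ Q) a.1 c ∧ h39_Val Q a.2 c))
    (p : ℕ) (hp : p.Prime) [CharP k p] (ζ : K) (hζ : IsPrimitiveRoot ζ p)
    (g' : SemilinearAut K F) (hgO : ∀ f, f ∈ D.O → g' • f ∈ D.O)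
    (hgred : ∀ f, f ∈ D.O → D.redF (g' • f) = D.redF f) (hgD0 : g' • D0 = D0)
    (c : ℕ) (hgζ : SemilinearAut.baseAut g' ζ = ζ ^ c) (hc : ¬ c ≡ 1 [MOD p])
    (E₀ : Divisor K F) (u₀ : F) (hu₀ : u₀ ≠ 0)
    (hdiv : ∀ v : Place K F, (p : ℤ) * E₀ v = v.ord u₀)
    (h : F) (hh : h ∈ D.O) (hhred : D.red ⟨h, hh⟩ = 0)
    (hu : u₀ = 1 + algebraMap K F ((ζ - 1) ^ p) * h)
    (hfix : g' • E₀ - E₀ ∈ Divisor.principal (K := K) (F := F)) :
    E₀ ∈ Divisor.principal (K := K) (F := F) := by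
  by_contra hE
  have : Fact p.Prime := ⟨hp⟩
  -- the Kummer cover
  obtain ⟨F', _, _, _, _, hfinF', hint, hPD, θ, hxF', hfr, hθ, hli, hspan, hordθ, -, hlift⟩ :=
    h22_kum_cover_exists hxF hp ζ hζ.pow_eq_one u₀ hu₀ E₀ hdiv hE
  have : CharZero F := charZero_of_injective_algebraMap (algebraMap K F).injective
  have : Algebra.IsSeparable F F' := Algebra.IsAlgebraic.isSeparable_of_perfectField
  -- the Artin–Schreier model
  have hθ' : θ ^ p - 1 = algebraMap K F' ((ζ - 1) ^ p) * algebraMap F F' h := by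
    rw [hθ, hu, map_add, map_one, map_mul, ← IsScalarTower.algebraMap_apply]
    ring
  set S : h15_ASData D F' p := h15_asInst D p hζ ⟨h, hh⟩ hhred θ hθ' hli hspan with hS
  have hSy : S.y = (θ - 1) / algebraMap K F' (ζ - 1) := by
    rw [hS, h15_asInst_y]
    unfold h15_asGen
    rw [map_inv₀, ← IsScalarTower.algebraMap_apply, div_eq_inv_mul]
  have hSr : ∀ a : Fin p, S.r a = ((a : ℕ) : k) := fun a => rfl
  have hON : h22_ON D := h22_on_of_basis D hG hU b hb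
  have hON' : h22_ON S.lat := S.lat_on hG hU b hb
  have hfin' : ∀ B : Divisor K F', Module.Finite K (riemannRochSpace B) :=
    fun B => (h75_riemann hxF' B).1
  -- degree of `E₀`
  have hE₀ : Divisor.degree E₀ = 0 := by
    have h1 : Divisor.degree (p • E₀) = 0 :=
      h7_degree_div hxF hu₀ (p • E₀) fun v => by
        rw [Finsupp.smul_apply, nsmul_eq_mul, hdiv v]
    rw [map_nsmul, nsmul_eq_mul] at h1
    rcases mul_eq_zero.mp h1 with h2 | h2
    · exact absurd (by exact_mod_cast h2) hp.ne_zero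
    · exact h2
  have hθord : ∀ w : Place K F', w.ord θ = Divisor.pullback F' E₀ w :=
    fun w => h19_kummer_ord hp.ne_zero hθ E₀ hdiv w
  -- POLE, SYM, COUNT, NODE'
  have hD0' : (0 : Divisor K F') ≤ Divisor.pullback F' D0 := by
    intro w
    rw [Divisor.pullback_apply]
    exact mul_nonneg (Int.natCast_nonneg _) (hD0 _)
  have hpole := h75_cover_pole S D0 Qinf hreg
  have hsym := h75_cover_sym S D0 Sg Φ (h34_nodeB_of_hnode D D0 hD0 Qinf Sg Φ n0 hnode)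
  have hcount := h19_count S hxF hxb hON hON' hfin' D0 hD0 hdegD0 Qinf Sg Φ hΦ hSg n0 hn0F hn0b
    hnode θ hli E₀ hE₀ hθord
  obtain ⟨σ, hσ, hcomm⟩ := h20_node' S hxb (Divisor.pullback F' D0) hD0' Qinf Sg Φ hΦ hSg
    hpole hsym n0 hcount
  -- SHIFT, TAU
  obtain ⟨s, hs, hsstab⟩ := h35_shift_stab S hp ζ hζ θ u₀ hθ hli hSy hSr D0
  obtain ⟨H, hH0, hHu⟩ : ∃ H : F, H ≠ 0 ∧ g' • u₀ = H ^ p * u₀ := by
    have hgu0 : g' • u₀ ≠ 0 := by
      rw [Ne, smul_eq_zero_iff_eq]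
      exact hu₀
    have hw0 : g' • u₀ * u₀⁻¹ ≠ 0 := mul_ne_zero hgu0 (inv_ne_zero hu₀)
    have hD : ∀ v : Place K F, (p : ℤ) * (g' • E₀ - E₀) v = v.ord (g' • u₀ * u₀⁻¹) := by
      intro v
      have h1 : v.ord (g' • u₀) = (p : ℤ) * (g' • E₀) v := by
        have h2 := SemilinearAut.ord_smul g' (g'⁻¹ • v) u₀
        rw [smul_inv_smul] at h2
        rw [h2, ← hdiv, SemilinearAut.divisor_smul_apply]
      rw [v.ord_mul hgu0 (inv_ne_zero hu₀), v.ord_inv, h1, ← hdiv v, Finsupp.sub_apply]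
      ring
    obtain ⟨H, hH0, hH⟩ := h22_exists_root_of_principal hxF hp.ne_zero hw0 (g' • E₀ - E₀) hD hfix
    refine ⟨H, hH0, ?_⟩
    rw [← hH, mul_assoc, inv_mul_cancel₀ hu₀, mul_one]
  obtain ⟨τ', hτlift, hτθ, -⟩ := hlift g' H hH0 hHu
  obtain ⟨s1, s2, β1, β2, hs1, hs2, hτstab⟩ := h15_tau_stab_of_lift D p hζ ⟨h, hh⟩ hhred θ hθ'
    hli hspan g' hgO hgred D0 hgD0 c hgζ τ' hτlift H hτθ
  -- the pulled-back chart
  have hFF : h73_IsFF K F := ⟨xF, hxF.fin⟩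
  have : FundamentalIdentity K F F' := h94_FI_sep hFF
  have hdegD0' : 1 ≤ Divisor.degree (Divisor.pullback F' D0) := by
    rw [Divisor.degree_pullback, hfr]
    have h1 : (1 : ℤ) ≤ (p : ℤ) := by exact_mod_cast hp.one_lt.le
    nlinarith
  have hx'O : algebraMap F F' x ∈ S.lat.O := (S.algebraMap_mem_O'_iff x).mpr hxO
  have hx'invO : (algebraMap F F' x)⁻¹ ∈ S.lat.O := by
    rw [← map_inv₀]
    exact (S.algebraMap_mem_O'_iff _).mpr hxinvO
  have hredx : ∀ a, S.lat.redF (algebraMap F F' x) a = D.redF x := by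
    intro a
    rw [S.lat.redF_of_mem hx'O, S.lat_red_algebraMap x hxO hx'O a, D.redF_of_mem hxO]
  -- the tail
  exact h84_nmin_end hxF' hxb hp S.lat hON' hRk q hq hq0
    (Divisor.pullback F' D0) (Divisor.pullback F' D2)
    (fun w => hD0' w) hdegD0'
    (fun w => by
      rw [Divisor.pullback_apply]
      exact mul_nonneg (Int.natCast_nonneg _) (hD2 _))
    (fun w => by
      rw [Divisor.pullback_apply, Divisor.pullback_apply]
      rcases hdisj (w.restrict F) with h0 | h0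
      · left
        rw [h0, mul_zero]
      · right
        rw [h0, mul_zero])
    N hN (algebraMap F F' x) (by rw [Ne, map_eq_zero]; exact hx0) hx'O hx'invO
    (h53_ord_pullback N hxdiv) Qinf
    (fun a => by rw [hredx a]; exact hxb1) (fun a => by rw [hredx a]; exact hxb2)
    Sg Φ hΦ hSg σ _ hσ hcomm S.r S.r_injective s hs hsstab c hc s1 s2 β1 β2 hs1 hs2 hτstab

end Fermat.Agent.S33
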