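import Mathlib
import Fermat.Agent.S33.h34_NMinTop
import Fermat.Agent.S33.h35_LatIntClosed
import Fermat.Agent.S34.h51_NodeAsm

/-!
# S33, row N-MOD (helper67): the generic N-min in the Frobenius-chart shape

`h67_nmin_of_frob` : the generic N-min `h34_nmin` with its base node description produced by
`h51_node_of_frob` from (INT), (LEAD), (GRAPH) and the Frobenius chart (the twin of
`h60_frobG_of_frob` for the wild exponent `p = char k`).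
-/

set_option autoImplicit false

noncomputable section

open AlgebraicCurve Module Polynomial IntermediateField

namespace Fermat.Agent.S33

open Fermat.Agent.S34 Fermat.Agent.S18 Fermat.Agent.S24 Fermat.Agent.S27

section Frob

variable {K F k Fb : Type*} [Field K] [Field F] [Algebra K F] [Field k] [Field Fb] [Algebra k Fb]
variable [IsAlgClosed K] [IsAlgClosed k] [CharZero K] {p : ℕ} [Fact p.Prime] [CharP k p]

/-- **The generic N-min in the Frobenius-chart shape.** -/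
theorem h67_nmin_of_frob {xF : F} (hxF : h75_IsChart K xF)
    {xφ : Fb} {φ : Fb →+* Fb} (h : h96_IsFrobChart k p xφ φ)
    {y : Fb} (hy : h75_IsChart k y) (Qinf : Place k Fb)
    (hpole : ∀ Q : Place k Fb, y ∈ Q.toValuationSubring ↔ Q ≠ Qinf)
    (hfix : h96_frobPerm h Qinf = Qinf)
    (D : h22_Lat K F k (Fb × Fb))
    (hG : ∀ P : K[X], aeval xF P ∈ D.O ↔ ∀ i, P.coeff i ∈ D.A)
    (hU : ∀ P : K[X], aeval xF P ≠ 0 → ∃ c : K, c ≠ 0 ∧ algebraMap K F c * aeval xF P ∈ D.O ∧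
      (algebraMap K F c * aeval xF P)⁻¹ ∈ D.O)
    {ι : Type*} [Fintype ι] (b : Module.Basis ι K⟮xF⟯ F)
    (hb : ∀ f : F, f ∈ D.O ↔ ∀ i, ((b.repr f i : K⟮xF⟯) : F) ∈ D.O)
    (hinv : ∀ (f : F) (hf : f ∈ D.O), IsUnit (D.red ⟨f, hf⟩) → f⁻¹ ∈ D.O)
    (hRk : h39_RankOne D.A) (q : K) (hq : q ∈ D.A.nonunits) (hq0 : q ≠ 0)
    (D0 D2 : Divisor K F) (hD0 : ∀ v, 0 ≤ D0 v) (hdeg : Divisor.degree D0 = 2)
    (hD2 : ∀ v, 0 ≤ D2 v) (hdisj : ∀ v, D0 v = 0 ∨ D2 v = 0)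
    (N : ℕ) (hN : 1 ≤ N)
    (x : F) (hx0 : x ≠ 0) (hxO : x ∈ D.O) (hxinvO : x⁻¹ ∈ D.O)
    (hxdiv : ∀ v : Place K F, v.ord x = D2 v - (N : ℤ) * D0 v)
    (hxb1 : Qinf.ord (D.redF x).1 ≤ -(N : ℤ)) (hxb2 : Qinf.ord (D.redF x).2 ≤ -(N : ℤ))
    (hreg : ∀ n, ∀ a ∈ h51_Rd D (n • D0), a.1 ∈ h16_Linf Qinf n ∧ a.2 ∈ h16_Linf Qinf n)
    (n₁ : ℕ)
    (hlead₁ : ∀ n, n₁ ≤ n → ∃ x ∈ h51_Rd D ((n + 1) • D0),
      x.1 ∉ h16_Linf Qinf n ∧ x.2 ∈ h16_Linf Qinf n)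
    (hlead₂ : ∀ n, n₁ ≤ n → ∃ y ∈ h51_Rd D ((n + 1) • D0),
      y.1 ∈ h16_Linf Qinf n ∧ y.2 ∉ h16_Linf Qinf n)
    (hB1 : ∀ b : Fb, (∀ Q : Place k Fb, Q ≠ Qinf → b ∈ Q.toValuationSubring) →
      ∃ n : ℕ, (b, φ b) ∈ h51_Rd D (n • D0))
    (hB2 : ∀ b : Fb, (∀ Q : Place k Fb, Q ≠ Qinf → b ∈ Q.toValuationSubring) →
      ∃ n : ℕ, (φ b, b) ∈ h51_Rd D (n • D0))
    (ζ : K) (hζ : IsPrimitiveRoot ζ p)
    (g' : SemilinearAut K F) (hgO : ∀ f, f ∈ D.O → g' • f ∈ D.O)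
    (hgred : ∀ f, f ∈ D.O → D.redF (g' • f) = D.redF f) (hgD0 : g' • D0 = D0)
    (c : ℕ) (hgζ : SemilinearAut.baseAut g' ζ = ζ ^ c) (hc : ¬ c ≡ 1 [MOD p])
    (E₀ : Divisor K F) (u₀ : F) (hu₀ : u₀ ≠ 0)
    (hdiv : ∀ v : Place K F, (p : ℤ) * E₀ v = v.ord u₀)
    (hh : F) (hhO : hh ∈ D.O) (hhred : D.red ⟨hh, hhO⟩ = 0)
    (hu : u₀ = 1 + algebraMap K F ((ζ - 1) ^ p) * hh)
    (hfixE : g' • E₀ - E₀ ∈ Divisor.principal (K := K) (F := F)) :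
    E₀ ∈ Divisor.principal (K := K) (F := F) := by
  have hON : h22_ON D := h22_on_of_basis D hG hU b hb
  obtain ⟨Sg, hSg, hnode⟩ := h51_node_of_frob hxF h hy Qinf hpole hfix D hON D0 hD0 hdeg hreg n₁
    hlead₁ hlead₂ hB1 hB2
  have hdegD0 : 1 ≤ Divisor.degree D0 := by
    rw [hdeg]
    norm_num
  have hic : ∀ f : F, IsIntegral D.O f → f ∈ D.O := fun f hf => h35_lat_mem_of_isIntegral D hf
  have hreg' : ∀ n, ∀ a ∈ h51_Rd D (n • D0), a ∈ h20_P Qinf n := by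
    intro n a ha
    rw [h51_mem_P_iff_Linf]
    exact hreg n a ha
  exact h34_nmin hxF hy D hG hU b hb hinv hic hRk q hq hq0 D0 D2 hD0 hdegD0 hD2 hdisj N hN
    x hx0 hxO hxinvO hxdiv Qinf hxb1 hxb2 hreg' Sg (h96_frobPerm h) (h96_frobPerm h).injective
    (fun Q hQ => ⟨(hSg Q hQ).1, (hSg Q hQ).2.1⟩)
    (max (max n₁ (h75_genus K xF))
      (max (2 * h75_genus K xF) (2 * h75_genus k y + Sg.card)))
    (le_trans (le_max_left _ _) (le_max_right _ _))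
    (le_trans (le_max_right _ _) (le_max_right _ _))
    (fun n hn a => hnode n (le_trans (le_max_left _ _) hn) a)
    p Fact.out ζ hζ g' hgO hgred hgD0 c hgζ hc E₀ u₀ hu₀ hdiv hh hhO hhred hu hfixE

end Frob

end Fermat.Agent.S33

end
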