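import Mathlib
import Fermat.Agent.S33.h67_NMinMod
import Fermat.Agent.S33.h67_NMinFrob
import Fermat.Agent.S34.h17_IntModInst
import Fermat.Agent.S34.h31_Lead
import Fermat.Agent.S34.h31_YChart
import Fermat.Agent.S33.h10_N1Glue
import Fermat.Agent.S33.h70_NewBridge
import Fermat.Agent.S27.h64_SpecRed
import Fermat.Agent.GAL.h67_CorrPrincipal

/-!
# S33, row N-MOD (helper67): the modular instance of N-min, second half

* `h67_deep_principal` : at a charted level `M p` and a valuation ring `A` over `p`, for an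
  inertia element `σ0` at `A` acting on the `p`-th roots of unity through `ζ ↦ ζ ^ c` with
  `c ≢ 1 mod p`: a deep Kummer witness `(E₀, u₀)` (`p E₀ = div u₀`, `u₀ = 1 + (ζ - 1)^p h`,
  `red h = 0`) whose class is fixed by `σ0` is principal.  [`h67_nmin_of_frob` at the rows
  (y-CHART), (INT), (LEAD), (GRAPH), X-MOD and the `α(j)`-frame of `h87_D`.]
* `h67_norm_of_push_principal`, `h67_N1` : the deep representative (N1) `h10_N1_final_pow` in
  the shape consumed by `h67_nstar_of_G` (norm hypotheses from `h67_DivNew`).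
* `h67_nstar` : **(N*)** at a charted level: a toric, `p`-new, `σ0`-fixed class of exponent `p`
  vanishes (`σ0` an inertia element at `A` moving the `p`-th roots of unity).
* `h67_newMin` : `h70_NewMin N p A σ0` at every level `N` with `p ∥ N`.
-/

set_option autoImplicit false
set_option synthInstance.maxHeartbeats 400000

noncomputable section

open ModularCurve AlgebraicCurve IntermediateField Polynomial

namespace Fermat.Agent.S33

open Fermat.Agent.S34 Fermat.Agent.S18 Fermat.Agent.S37 Fermat.Agent.S24 Fermat.Agent.S27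
open Fermat.Agent.S35 Fermat.Agent.GAL

local notation "Qb" => AlgebraicClosure ℚ

section Norm

variable {K F F' : Type*} [Field K] [Field F] [Field F'] [Algebra K F] [Algebra K F']

/-- If `ψ_* E` is principal and `n E = div u`, then `N_ψ u = a · g ^ n` with `a` a constant. -/
theorem h67_norm_of_push_principal [IsAlgClosed K] {x : F} (hx : h75_IsChart K x)
    (ψ : F →ₐ[K] F') (hψ : ψ.toRingHom.IsIntegral) (hfin : FiniteAlong K ψ)
    (hN : NormFormulaAlong K ψ hfin) (E : Divisor K F') (u : F') (hu : u ≠ 0) (n : ℕ)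
    (hdiv : ∀ w : Place K F', (n : ℤ) * E w = w.ord u)
    (hE : (Divisor.pushforwardAlong ψ hψ E).IsPrincipal) :
    ∃ (a : K) (g : F), h67_normAlong ψ u = algebraMap K F a * g ^ n := by
  obtain ⟨g, hg, hEg⟩ := hE
  have h1 : ∀ v : Place K F, Divisor.pushforwardAlong ψ hψ (n • E) v
      = v.ord (h67_normAlong ψ u) := fun v =>
    h67_pushforwardAlong_principal ψ hψ hfin hN hu
      (fun w => by rw [Finsupp.smul_apply, nsmul_eq_mul]; exact hdiv w) v
  have h2 : ∀ v : Place K F, v.ord (h67_normAlong ψ u) = (n : ℤ) * v.ord g := by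
    intro v
    rw [← h1 v, map_nsmul, Finsupp.smul_apply, nsmul_eq_mul, hEg v]
  have hN0 : h67_normAlong ψ u ≠ 0 := h67_normAlong_ne_zero ψ hfin hu
  have hgn : g ^ n ≠ 0 := pow_ne_zero n hg
  have hr : ∀ v : Place K F, v.ord (h67_normAlong ψ u * (g ^ n)⁻¹) = 0 := by
    intro v
    rw [v.ord_mul hN0 (inv_ne_zero hgn), v.ord_inv, h60_ord_pow v, h2 v]
    ring
  obtain ⟨a, ha⟩ := h64_const_of_ord_eq_zero hx _ hr
  refine ⟨a, g, ?_⟩
  rw [← ha, mul_assoc, inv_mul_cancel₀ hgn, mul_one]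

end Norm

section Mod

variable (M p : ℕ) [NeZero M] [NeZero p] [Fact p.Prime] (hpM : ¬ p ∣ M)
  (A : ValuationSubring Qb) (hA : A.LiesOverPrime p)

set_option maxHeartbeats 1600000 in
/-- **The generic N-min at a charted level `M p`.** -/
theorem h67_deep_principal (hch : 5 ≤ p ∨ 2 ∣ M ∨ 3 ∣ M) (ζ : Qb) (hζ : IsPrimitiveRoot ζ p)
    (σ0 : Qb ≃ₐ[ℚ] Qb) (hσ0 : σ0 ∈ A.inertiaSubgroupIn ℚ)
    (c : ℕ) (hσζ : σ0 ζ = ζ ^ c) (hc : ¬ c ≡ 1 [MOD p])
    (E₀ : Divisor Qb ↥(modularFunctionFieldBar (M * p)))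
    (u₀ : ↥(modularFunctionFieldBar (M * p))) (hu₀ : u₀ ≠ 0)
    (hdiv : ∀ v : Place Qb ↥(modularFunctionFieldBar (M * p)), (p : ℤ) * E₀ v = v.ord u₀)
    (hdeep : ∃ h : (h87_D M p hpM A hA).O, (h87_D M p hpM A hA).red h = 0 ∧
      u₀ - 1 = algebraMap Qb ↥(modularFunctionFieldBar (M * p)) ((ζ - 1) ^ p) *
        (h : ↥(modularFunctionFieldBar (M * p))))
    (hfixE : arithmeticGalois (modularFunctionFieldFull (M * p)) σ0 • E₀ - E₀
      ∈ Divisor.principal (K := Qb) (F := ↥(modularFunctionFieldBar (M * p)))) :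
    E₀ ∈ Divisor.principal (K := Qb) (F := ↥(modularFunctionFieldBar (M * p))) := by
  have hp : p.Prime := Fact.out
  have : IsAlgClosed (IsLocalRing.ResidueField A) := h19_residueField_isAlgClosed A
  have : CharP (IsLocalRing.ResidueField A) p := h19_residueField_charP A p hA
  -- the rows
  obtain ⟨Pinf, hPinf⟩ := h10_exists_cusp (K := Qb) (F := modularFunctionFieldBar (M * p))
    ⟨h59_jbar (M * p), h10_order_jbar (M * p)⟩
  obtain ⟨P0, hP0⟩ := h10_exists_cusp0 (h60_w M p hpM) (h60_w_alpha M p hpM)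
    (h60_w_beta M p hpM)
  obtain ⟨y, hy, hpole⟩ := h31_ychart M p hpM A hA hch
  obtain ⟨n₁, hlead₁, hlead₂⟩ := h31_lead M p hpM A hA hch hPinf hP0
  have hreg := h17_int_mod M p hpM A hA hch hPinf hP0
  have hxF : h75_IsChart Qb (heckeAlphaBar Qb M p (h59_jbar M)) := by
    rw [h88_alpha_jbar]
    exact h54_isChart_jbar (M * p)
  have hfr := h84_isFrobChart_jk M p hpM A hA
  have hfix := h84_frobPerm_placeInftyC hfr
  have hRk : h39_RankOne (h87_D M p hpM A hA).A := h22_DMq_rankOne M p hpM A hA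
  have hD0 : ∀ v, 0 ≤ (Finsupp.single Pinf (1 : ℤ) + Finsupp.single P0 (1 : ℤ) :
      Divisor Qb ↥(modularFunctionFieldBar (M * p))) v := fun v => h10_D0_nonneg Pinf P0 v
  have hdeg : Divisor.degree (Finsupp.single Pinf (1 : ℤ) + Finsupp.single P0 (1 : ℤ) :
      Divisor Qb ↥(modularFunctionFieldBar (M * p))) = 2 :=
    h10_D0_degree (h75_deg_eq_one hxF) Pinf P0
  obtain ⟨ν₀, hx⟩ := h10_xmod_inst M p hpM A hA hch hPinf hP0
    (Qinf := h11_placeInftyC (IsLocalRing.ResidueField A) M) h84_isCusp_placeInftyC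
  obtain ⟨x, E2, hx0, hxO, hxinvO, hE2, hdisj, hxdiv, -, -, hxb1, hxb2⟩ :=
    hx (max ν₀ 1) (le_max_left _ _)
  have hN : 1 ≤ (p + 1) * max ν₀ 1 :=
    Nat.mul_pos (Nat.succ_pos p) (lt_of_lt_of_le Nat.one_pos (le_max_right _ _))
  have hdisj' : ∀ v, (Finsupp.single Pinf (1 : ℤ) + Finsupp.single P0 (1 : ℤ) :
      Divisor Qb ↥(modularFunctionFieldBar (M * p))) v = 0 ∨ E2 v = 0 := by
    intro v
    rcases hdisj v with h | h
    · left
      rw [Finsupp.smul_apply, nsmul_eq_mul] at h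
      rcases mul_eq_zero.mp h with h | h
      · have h' : (p + 1) * max ν₀ 1 = 0 := by exact_mod_cast h
        omega
      · exact h
    · right
      exact h
  have hxdiv' : ∀ v : Place Qb ↥(modularFunctionFieldBar (M * p)),
      v.ord x = E2 v - (((p + 1) * max ν₀ 1 : ℕ) : ℤ) *
        (Finsupp.single Pinf (1 : ℤ) + Finsupp.single P0 (1 : ℤ) :
          Divisor Qb ↥(modularFunctionFieldBar (M * p))) v := by
    intro v
    rw [hxdiv v, Finsupp.smul_apply, nsmul_eq_mul]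
  -- the frame of `h87_D` for the chart `α(j)`
  have hj1 := h22_R1_alpha_j M p hpM A hA
  have hj2 := h22_R2_alpha_j M p hpM A hA
  obtain ⟨ι, _, b, hb⟩ := h22_DMq_exists_frame M p hpM A hA
  have hG := h22_latOfPair_hG (h60_R1 M p hpM A hA) (h60_R2 M p hpM A hA) A
    (IsLocalRing.residue A) IsLocalRing.residue_surjective (h60_R1_A M p hpM A hA)
    (h60_R2_A M p hpM A hA) (h87_R1_resK M p hpM A hA) (h87_R2_resK M p hpM A hA)
    hj1.1 hj2.1 hj1.2 hj2.2
  have hU := h22_latOfPair_hU (h60_R1 M p hpM A hA) (h60_R2 M p hpM A hA) A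
    (IsLocalRing.residue A) IsLocalRing.residue_surjective (h60_R1_A M p hpM A hA)
    (h60_R2_A M p hpM A hA) (h87_R1_resK M p hpM A hA) (h87_R2_resK M p hpM A hA)
    hj1.1 hj2.1 hj1.2 hj2.2
  -- the constants
  have hζ1 : ζ - 1 ≠ 0 := sub_ne_zero.mpr (hζ.ne_one hp.one_lt)
  have hlamA : ζ - 1 ∈ (h87_D M p hpM A hA).A :=
    h15_zeta_sub_one_mem (h87_D M p hpM A hA) p hζ
  have hlam_nu : ζ - 1 ∈ (h87_D M p hpM A hA).A.nonunits := by
    have h0 := h15_res_zeta_sub_one (h87_D M p hpM A hA) p hζ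
    exact (h22_resK_eq_zero_iff (h87_D M p hpM A hA) hlamA).mp
      (((h87_D M p hpM A hA).resK_of_mem hlamA).trans h0)
  -- the inertia element
  obtain ⟨hgO, hgred⟩ := h87_D_gal M p hpM A hA σ0 hσ0
  have hgD0 := h10_D0_galois M p hpM σ0 hPinf hP0
  have hgζ : SemilinearAut.baseAut (arithmeticGalois (modularFunctionFieldFull (M * p)) σ0) ζ
      = ζ ^ c := by
    rw [baseAut_arithmeticGalois]
    exact hσζ
  obtain ⟨h, hhred, hu⟩ := hdeep
  have hu' : u₀ = 1 + algebraMap Qb ↥(modularFunctionFieldBar (M * p)) ((ζ - 1) ^ p) *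
      (h : ↥(modularFunctionFieldBar (M * p))) := by
    rw [← hu]
    ring
  exact h67_nmin_of_frob hxF hfr hy _ hpole hfix (h87_D M p hpM A hA) hG hU b hb
    (h87_D_hinv M p hpM A hA) hRk (ζ - 1) hlam_nu hζ1 _ E2 hD0 hdeg hE2 hdisj' _ hN
    x hx0 hxO hxinvO hxdiv' (le_of_eq hxb1) (le_of_eq hxb2) hreg n₁ hlead₁ hlead₂
    (h31_graph_D₁ M p hpM A hA hch hPinf hP0) (h31_graph_D₂ M p hpM A hA hch hPinf hP0)
    ζ hζ (arithmeticGalois (modularFunctionFieldFull (M * p)) σ0) hgO hgred hgD0 c hgζ hc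
    E₀ u₀ hu₀ hdiv (h : ↥(modularFunctionFieldBar (M * p))) h.2 hhred hu' hfixE

/-- **(N1) in the shape consumed by `h67_nstar_of_G`**: a toric witness `(E, u)` of exponent `p`
of a `p`-new divisor is a `p`-th power `g ^ p` (`red g = 1`) up to any prescribed depth. -/
theorem h67_N1 (E : Divisor Qb ↥(modularFunctionFieldBar (M * p)))
    (u : ↥(modularFunctionFieldBar (M * p))) (hu0 : u ≠ 0) (hnew : h67_DivNew M p E)
    (hdiv : ∀ v : Place Qb ↥(modularFunctionFieldBar (M * p)), (p : ℤ) * E v = v.ord u)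
    (hu : u ∈ (h87_D M p hpM A hA).O) (hured : (h87_D M p hpM A hA).red ⟨u, hu⟩ = 1)
    (c : Qb) (hc : c ≠ 0) :
    ∃ g : ↥(modularFunctionFieldBar (M * p)), ∃ hg : g ∈ (h87_D M p hpM A hA).O,
      (h87_D M p hpM A hA).red ⟨g, hg⟩ = 1 ∧
      ∃ w ∈ (h87_D M p hpM A hA).O,
        u - g ^ p = algebraMap Qb ↥(modularFunctionFieldBar (M * p)) c * w := by
  have hred : (h87_D M p hpM A hA).red ⟨u, hu⟩ =
      ((h60_R1 M p hpM A hA).redF u, (h60_R2 M p hpM A hA).redF u) :=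
    h22_DMq_red M p hpM A hA u hu
  rw [hured] at hred
  have hu1 : (h60_R1 M p hpM A hA).redF u = 1 := (congrArg Prod.fst hred).symm
  have hu2 : (h60_R2 M p hpM A hA).redF u = 1 := (congrArg Prod.snd hred).symm
  obtain ⟨⟨hαi, hα1⟩, ⟨hβi, hβ1⟩⟩ := hnew
  have hα : ∃ (a : Qb) (g : ↥(modularFunctionFieldBar M)),
      @Algebra.norm ↥(modularFunctionFieldBar M) ↥(modularFunctionFieldBar (M * p)) _ _
        (algebraAlong (heckeAlphaBar Qb M p)) u
          = algebraMap Qb ↥(modularFunctionFieldBar M) a * g ^ (p ^ 1) := by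
    obtain ⟨a, g, h⟩ := h67_norm_of_push_principal (h54_isChart_jbar M) (heckeAlphaBar Qb M p)
      hαi (h88_finiteAlong_alpha M p) (h87_NF_alpha M p) E u hu0 p hdiv hα1
    refine ⟨a, g, ?_⟩
    rw [pow_one]
    exact h
  have hβ : ∃ (a : Qb) (g : ↥(modularFunctionFieldBar M)),
      @Algebra.norm ↥(modularFunctionFieldBar M) ↥(modularFunctionFieldBar (M * p)) _ _
        (algebraAlong (heckeBetaBar Qb M p)) u
          = algebraMap Qb ↥(modularFunctionFieldBar M) a * g ^ (p ^ 1) := by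
    obtain ⟨a, g, h⟩ := h67_norm_of_push_principal (h54_isChart_jbar M) (heckeBetaBar Qb M p)
      hβi (h88_finiteAlong_beta M p) (h29_NF_beta M p) E u hu0 p hdiv hβ1
    refine ⟨a, g, ?_⟩
    rw [pow_one]
    exact h
  obtain ⟨gt, -, g1, -, g2, -, r1, r2, -, -, t, t1, t2, hut⟩ :=
    h10_N1_final_pow M p hpM A hA 1 u hu1 hu2 hα hβ c hc
  have hgO : gt ∈ (h87_D M p hpM A hA).O := (h87_D_mem M p hpM A hA).mpr ⟨g1, g2⟩
  have htO : t ∈ (h87_D M p hpM A hA).O := (h87_D_mem M p hpM A hA).mpr ⟨t1, t2⟩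
  refine ⟨gt, hgO, ?_, gt ^ p * t,
    (h87_D M p hpM A hA).O.mul_mem ((h87_D M p hpM A hA).O.pow_mem hgO p) htO, ?_⟩
  · have hredg : (h87_D M p hpM A hA).red ⟨gt, hgO⟩ =
        ((h60_R1 M p hpM A hA).redF gt, (h60_R2 M p hpM A hA).redF gt) :=
      h22_DMq_red M p hpM A hA gt hgO
    rw [hredg, r1, r2]
    rfl
  · rw [pow_one] at hut
    rw [hut]
    ring

/-- **(N\*) at a charted level `M p`**: a class of `J₀(M p)` which is toric of exponent `p` at
`A`, `p`-new and fixed by an inertia element `σ0` at `A` acting non-trivially on the `p`-th roots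
of unity is zero. -/
theorem h67_nstar (hch : 5 ≤ p ∨ 2 ∣ M ∨ 3 ∣ M) (σ0 : Qb ≃ₐ[ℚ] Qb)
    (hσ0 : σ0 ∈ A.inertiaSubgroupIn ℚ) (a : ℕ) (hcyc : ∀ μ : Qb, μ ^ p = 1 → σ0 μ = μ ^ a)
    (ha : ¬ (p : ℤ) ∣ (a : ℤ) - 1) (z : JZero (M * p)) (_hpz : p • z = 0)
    (htor : h29_Toric M p hpM A hA p z) (hnew : h67_Jnew M p z) (hfix : σ0 • z = z) : z = 0 := by
  obtain ⟨ζ, hζ⟩ := HasEnoughRootsOfUnity.exists_primitiveRoot Qb p
  have hc : ¬ a ≡ 1 [MOD p] := by
    intro h
    have h1 := (Nat.modEq_iff_dvd.mp h)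
    apply ha
    have h2 : ((a : ℤ) - 1) = -(((1 : ℕ) : ℤ) - (a : ℤ)) := by push_cast; ring
    rw [h2]
    exact (dvd_neg).mpr h1
  exact h67_nstar_of_G M p hpM A hA ζ hζ σ0
    (fun E u hu0 hEnew hdiv hu hured c hc0 _ => h67_N1 M p hpM A hA E u hu0 hEnew hdiv hu hured c hc0)
    (fun E₀ u₀ _ hu₀ hdiv hdeep hfixE => h67_deep_principal M p hpM A hA hch ζ hζ σ0 hσ0 a
      (hcyc ζ hζ.pow_eq_one) hc E₀ u₀ hu₀ hdiv hdeep hfixE)
    z htor hnew hfix

end Mod

/-- **The new-part input of S33**: `h70_NewMin N p A σ0` at every level `N` with `p ∥ N`, for an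
inertia element `σ0` at `A` acting on the `p`-th roots of unity through `μ ↦ μ ^ a`,
`a ≢ 1 mod p`. -/
theorem h67_newMin (p : ℕ) [NeZero p] [Fact p.Prime] (A : ValuationSubring Qb)
    (hA : A.LiesOverPrime p) (σ0 : Qb ≃ₐ[ℚ] Qb) (hσ0 : σ0 ∈ A.inertiaSubgroupIn ℚ) (a : ℕ)
    (hcyc : ∀ μ : Qb, μ ^ p = 1 → σ0 μ = μ ^ a) (ha : ¬ (p : ℤ) ∣ (a : ℤ) - 1)
    (N : ℕ) [NeZero N] (hpN : p ∣ N) (hp2 : ¬ p ^ 2 ∣ N) : h70_NewMin N p A σ0 :=
  h70_newMin_all p A hA σ0
    (fun M _ hpM hch z hpz htor hnew hfix =>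
      h67_nstar M p hpM A hA hch σ0 hσ0 a hcyc ha z hpz htor hnew hfix) N hpN hp2

end Fermat.Agent.S33

end
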