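/-
S33 (helper14), row DET: the Galois representation of a Hecke–Galois datum has cyclotomic
determinant (the frozen `GaloisRepAdic.DetIsCyclotomic p`), from `charpoly_frob`, weak Chebotarev,
adic continuity and Krull's intersection theorem.
-/
import Mathlib
import Fermat.Prelude.Def_CuspForm_HeckeGaloisRepDatum
import Fermat.Prelude.Def_GaloisRep_LocalConditions
import Fermat.Agent.GAL.WCheb
import Fermat.Agent.GAL.h65_Cyclo

set_option autoImplicit false

namespace Fermat.Agent.S33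

open Fermat.Agent.GAL
open scoped TensorProduct

/-- an endomorphism of a finite free module which is congruent to the identity modulo `I` has
determinant congruent to `1` modulo `I`. -/
theorem h14_det_sub_one_mem {T : Type} [CommRing T] {V : Type} [AddCommGroup V] [Module T V]
    [Module.Free T V] [Module.Finite T V] (I : Ideal T) (f : Module.End T V)
    (hf : ∀ v : V, f v - v ∈ I • (⊤ : Submodule T V)) : LinearMap.det f - 1 ∈ I := by
  have hzero : ∀ (a : T ⧸ I) (w : V), w ∈ I • (⊤ : Submodule T V) →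
      a ⊗ₜ[T] w = (0 : (T ⧸ I) ⊗[T] V) := by
    intro a w hw
    refine Submodule.smul_induction_on hw ?_ ?_
    · intro i hi v _
      rw [← TensorProduct.smul_tmul, Algebra.smul_def]
      have h0 : algebraMap T (T ⧸ I) i = 0 := Ideal.Quotient.eq_zero_iff_mem.2 hi
      rw [h0, zero_mul, TensorProduct.zero_tmul]
    · intro x y hx hy
      rw [TensorProduct.tmul_add, hx, hy, add_zero]
  have hbc : f.baseChange (T ⧸ I) = LinearMap.id := by
    apply TensorProduct.AlgebraTensorModule.curry_injective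
    ext v
    simp only [TensorProduct.AlgebraTensorModule.curry_apply, TensorProduct.curry_apply,
      LinearMap.coe_restrictScalars, LinearMap.baseChange_tmul, LinearMap.id_coe, id_eq]
    have h1 : (1 : T ⧸ I) ⊗ₜ[T] f v = (1 : T ⧸ I) ⊗ₜ[T] v + (1 : T ⧸ I) ⊗ₜ[T] (f v - v) := by
      rw [← TensorProduct.tmul_add, add_sub_cancel]
    rw [h1, hzero 1 _ (hf v), add_zero]
  have h2 := LinearMap.det_baseChange (A := T ⧸ I) f
  rw [hbc, LinearMap.det_id] at h2
  have h3 : Ideal.Quotient.mk I (LinearMap.det f - 1) = 0 := by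
    rw [map_sub, map_one]
    exact sub_eq_zero.2 h2.symm
  exact Ideal.Quotient.eq_zero_iff_mem.1 h3

variable {p : ℕ} {N : ℕ} [NeZero N] {S : Finset ℕ}
  {𝒪 : Type} [CommRing 𝒪] [IsDomain 𝒪] [IsDiscreteValuationRing 𝒪]
  [IsAdicComplete (IsLocalRing.maximalIdeal 𝒪) 𝒪]
  {θ : CuspForm.heckeAlgebra N 2 (↑S : Set ℕ) →+* IsLocalRing.ResidueField 𝒪}
  {T : Type} [CommRing T] [IsLocalRing T] [IsNoetherianRing T]
  [IsAdicComplete (IsLocalRing.maximalIdeal T) T] [Algebra 𝒪 T] [IsLocalHom (algebraMap 𝒪 T)]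
  [Module.Finite 𝒪 T] [Module.Free 𝒪 T]

/-- **DET**: the representation of a Hecke–Galois datum has cyclotomic determinant. -/
theorem h14_det_cyclotomic (hp : p.Prime) (hp𝒪 : (p : 𝒪) ∈ IsLocalRing.maximalIdeal 𝒪)
    (hNS : ∀ q : ℕ, q.Prime → q ∣ N → q ∈ S)
    (H : CuspForm.HeckeGaloisRepDatum N (↑S : Set ℕ) 𝒪 θ T) : H.ρ.DetIsCyclotomic p := by
  have hpT : (p : T) ∈ IsLocalRing.maximalIdeal T := by
    have e : (p : T) = algebraMap 𝒪 T (p : 𝒪) := (map_natCast _ _).symm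
    rw [e, IsLocalRing.mem_maximalIdeal, mem_nonunits_iff]
    intro hu
    exact hp𝒪 (isUnit_of_map_unit (algebraMap 𝒪 T) _ hu)
  refine ⟨hpT, fun n σ a hσ => ?_⟩
  set J : Ideal T := Ideal.span {((p ^ n : ℕ) : T)} with hJ
  have key : ∀ k : ℕ, ∃ y ∈ IsLocalRing.maximalIdeal T ^ k,
      LinearMap.det (H.ρ.ρ σ) - (a : T) - y ∈ J := by
    intro k
    obtain ⟨L₂, hL₂fin, hL₂⟩ := H.ρ.isAdicContinuous k
    have : NeZero (p ^ n) := ⟨pow_ne_zero n hp.ne_zero⟩
    obtain ⟨ζ, hζ⟩ := HasEnoughRootsOfUnity.exists_primitiveRoot (AlgebraicClosure ℚ) (p ^ n)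
    obtain ⟨L, hLfin, hLgal, -, hL₂L, hζL⟩ := h65_exists_galois_level L₂ L₂ hL₂fin hL₂fin ζ
    obtain ⟨ℓ, A, φ, -, b, hℓ, hℓS, hA, hφ, -, hφg⟩ := gal_weak_chebotarev L σ (insert p S)
    have hℓS0 : ℓ ∉ S := fun h => hℓS (Finset.mem_insert_of_mem h)
    have hℓp : ℓ ≠ p := fun h => hℓS (h ▸ Finset.mem_insert_self p S)
    have hℓN : ¬ ℓ ∣ N := fun h => hℓS0 (hNS ℓ hℓ h)
    have hℓS' : ℓ ∉ (↑S : Set ℕ) := by simpa using hℓS0
    have hdetφ : LinearMap.det (H.ρ.ρ φ) = (ℓ : T) := by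
      rw [LinearMap.det_eq_sign_charpoly_coeff, H.ρ.finrank_eq,
        H.charpoly_frob ℓ hℓ hℓN hℓS' A hA φ hφ]
      simp
    set τ := σ⁻¹ * φ ^ b with hτ
    have hτfix : ∀ x ∈ L₂, τ x = x := by
      intro x hx
      rw [hτ, AlgEquiv.mul_apply, hφg x (hL₂L hx)]
      exact σ.symm_apply_apply x
    have hdetτ : LinearMap.det (H.ρ.ρ τ) - 1 ∈ IsLocalRing.maximalIdeal T ^ k :=
      h14_det_sub_one_mem _ _ (hL₂ τ hτfix)
    have hmul : (ℓ : T) ^ b = LinearMap.det (H.ρ.ρ σ) * LinearMap.det (H.ρ.ρ τ) := by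
      rw [← map_mul, ← map_mul, hτ, mul_inv_cancel_left, map_pow, map_pow, hdetφ]
    have hℓpn : ¬ ℓ ∣ p ^ n := fun h =>
      hℓp ((Nat.prime_dvd_prime_iff_eq hℓ hp).1 (hℓ.dvd_of_dvd_pow h))
    have hpowζ : ∀ c : ℕ, (φ ^ c) ζ = ζ ^ (ℓ ^ c) := by
      intro c
      induction c with
      | zero => simp
      | succ c ih =>
        rw [pow_succ', AlgEquiv.mul_apply, ih, map_pow,
          h65_frob_root A hℓ hA hφ hℓpn hζ.pow_eq_one, ← pow_mul, pow_succ']
    have hmod : ((ℓ : T) ^ b) - (a : T) ∈ J := by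
      have h1 : ζ ^ (ℓ ^ b) = ζ ^ a := by
        rw [← hpowζ b, hφg ζ hζL]
        exact hσ ζ hζ.pow_eq_one
      have h3 : ℓ ^ b ≡ a [MOD p ^ n] := by
        have hfin : IsOfFinOrder ζ :=
          isOfFinOrder_iff_pow_eq_one.2 ⟨p ^ n, pow_pos hp.pos n, hζ.pow_eq_one⟩
        have := hfin.pow_eq_pow_iff_modEq.1 h1
        rwa [← hζ.eq_orderOf] at this
      obtain ⟨c, hc⟩ := (Nat.modEq_iff_dvd).1 h3
      have h4 := congrArg (Int.cast : ℤ → T) hc
      push_cast at h4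
      rw [hJ, Ideal.mem_span_singleton']
      refine ⟨-(c : T), ?_⟩
      push_cast
      linear_combination h4
    refine ⟨LinearMap.det (H.ρ.ρ σ) * (1 - LinearMap.det (H.ρ.ρ τ)), ?_, ?_⟩
    · refine Ideal.mul_mem_left _ _ ?_
      rw [← neg_sub]
      exact neg_mem hdetτ
    · have h5 : LinearMap.det (H.ρ.ρ σ) - (a : T) -
          LinearMap.det (H.ρ.ρ σ) * (1 - LinearMap.det (H.ρ.ρ τ)) = (ℓ : T) ^ b - (a : T) := by
        rw [hmul]; ring
      rw [h5]
      exact hmod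
  -- Krull's intersection theorem in `T ⧸ J`
  have hmem : Ideal.Quotient.mk J (LinearMap.det (H.ρ.ρ σ) - (a : T)) ∈
      (⨅ i : ℕ, (IsLocalRing.maximalIdeal T) ^ i • (⊤ : Submodule T (T ⧸ J))) := by
    rw [Submodule.mem_iInf]
    intro k
    obtain ⟨y, hy, hxy⟩ := key k
    have h1 : Ideal.Quotient.mk J (LinearMap.det (H.ρ.ρ σ) - (a : T)) = Ideal.Quotient.mk J y :=
      Ideal.Quotient.eq.2 hxy
    have h2 : Ideal.Quotient.mk J y = y • (1 : T ⧸ J) := by
      rw [Algebra.smul_def, mul_one]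
      rfl
    rw [h1, h2]
    exact Submodule.smul_mem_smul hy Submodule.mem_top
  rw [Ideal.iInf_pow_smul_eq_bot_of_isLocalRing _
    (IsLocalRing.maximalIdeal.isMaximal T).ne_top] at hmem
  exact Ideal.Quotient.eq_zero_iff_mem.1 ((Submodule.mem_bot _).1 hmem)

end Fermat.Agent.S33
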