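/-
S33 (helper14), row ALG: the frozen `IsOrdinaryAt` at a place `P` from ONE inertia element `σ0`
with `det ρ(σ0) - 1` a unit and `(ρ(σ0) - det ρ(σ0)) (ρ(σ) - 1) = 0` for all `σ` in the inertia
group; and the existence of an inertia element acting non-trivially on `μ_p` (`p` odd).
-/
import Mathlib
import Fermat.Prelude.Def_GaloisRep_LocalConditions
import Fermat.Agent.S33.h14_Unr

set_option autoImplicit false

namespace Fermat.Agent.S33

open scoped Pointwise

local notation "Qb" => AlgebraicClosure ℚ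
local notation "Γℚ" => (AlgebraicClosure ℚ ≃ₐ[ℚ] AlgebraicClosure ℚ)

/-! ### linear algebra -/

section LinAlg

variable {T : Type} [CommRing T] [IsLocalRing T] {V : Type} [AddCommGroup V] [Module T V]
  [Module.Free T V] [Module.Finite T V]

/-- a direct summand (image of an idempotent) of a finite free module over a local ring is
finite free. -/
theorem h14_range_idem_free (e : Module.End T V) (he : IsIdempotentElem e) :
    Module.Free T (LinearMap.range e) ∧ Module.Finite T (LinearMap.range e) := by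
  have hproj : Module.Projective T (LinearMap.range e) := by
    refine Module.Projective.of_split (LinearMap.range e).subtype e.rangeRestrict ?_
    ext ⟨x, w, rfl⟩
    show e (e w) = e w
    rw [← Module.End.mul_apply, he.eq]
  haveI : Module.Finite T (LinearMap.range e) := Module.Finite.range e
  exact ⟨Module.free_of_flat_of_isLocalRing, inferInstance⟩

/-- linear algebra core of ALG. -/
theorem h14_ord_line (hV : Module.finrank T V = 2) (f : Module.End T V) (hf : IsUnit f) (d : T)
    (hd : IsUnit (d - 1)) (hdet : LinearMap.det f = d) (h0 : (f - d • 1) * (f - 1) = 0) :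
    ∃ b : Module.Basis (Fin 2) T V, LinearMap.range (f - 1) = T ∙ b 0 ∧
      LinearMap.ker (f - d • 1) = LinearMap.range (f - 1) := by
  classical
  obtain ⟨u, hu⟩ := hd
  have hcomm : (f - 1) * (f - d • 1) = (f - d • 1) * (f - 1) :=
    (Commute.sub_left ((Commute.refl f).sub_right ((Commute.one_right f).smul_right d))
      (Commute.one_left _)).eq
  have hsq : (f - 1) * (f - 1) = (u : T) • (f - 1) := by
    have h1 : (f - 1) * (f - 1) = (f - 1) * (f - d • 1) + (d - 1) • (f - 1) := by
      rw [mul_sub (f - 1) f (d • 1), mul_smul_comm, mul_one, sub_smul, one_smul,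
        mul_sub (f - 1) f 1, mul_one]
      abel
    rw [h1, hcomm, h0, zero_add, hu]
  set e : Module.End T V := (↑u⁻¹ : T) • (f - 1) with he
  have hfe : f - 1 = (u : T) • e := by
    rw [he, smul_smul, Units.mul_inv, one_smul]
  have hidem : IsIdempotentElem e := by
    show e * e = e
    rw [he, smul_mul_assoc, mul_smul_comm, hsq, smul_smul, smul_smul, Units.inv_mul_cancel_right]
  set e' : Module.End T V := 1 - e with he'
  have hidem' : IsIdempotentElem e' := hidem.one_sub
  have hee' : e * e' = 0 := by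
    rw [he', mul_sub, mul_one, hidem.eq, sub_self]
  have hrange : LinearMap.range e = LinearMap.range (f - 1) := by
    apply le_antisymm
    · rintro _ ⟨w, rfl⟩
      exact ⟨(↑u⁻¹ : T) • w, by rw [he, LinearMap.smul_apply, map_smul]⟩
    · rintro _ ⟨w, rfl⟩
      exact ⟨(u : T) • w, by
        rw [map_smul, he, LinearMap.smul_apply, smul_smul, Units.mul_inv, one_smul]⟩
  -- `f` acts by `d` on `range e` and by `1` on `range e'`
  have hfd : ∀ x ∈ LinearMap.range e, f x = d • x := by
    rintro _ ⟨w, rfl⟩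
    have h1 : ((f - d • 1) * (f - 1)) ((↑u⁻¹ : T) • w) = 0 := by rw [h0]; rfl
    have h2 : ((f - d • 1) * (f - 1)) ((↑u⁻¹ : T) • w) = f (e w) - d • e w := by
      rw [Module.End.mul_apply, he, LinearMap.smul_apply, map_smul, LinearMap.sub_apply,
        LinearMap.smul_apply, Module.End.one_apply]
    rw [h2] at h1
    exact sub_eq_zero.1 h1
  have hf1 : ∀ x ∈ LinearMap.range e', f x = x := by
    rintro _ ⟨w, rfl⟩
    have h1 : (f - 1) (e' w) = 0 := by
      rw [hfe, LinearMap.smul_apply, ← Module.End.mul_apply, hee', LinearMap.zero_apply,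
        smul_zero]
    rw [LinearMap.sub_apply, Module.End.one_apply] at h1
    exact sub_eq_zero.1 h1
  have hkerd : LinearMap.ker (f - d • 1) = LinearMap.range (f - 1) := by
    rw [← hrange]
    apply le_antisymm
    · intro x hx
      rw [LinearMap.mem_ker, LinearMap.sub_apply, LinearMap.smul_apply, Module.End.one_apply,
        sub_eq_zero] at hx
      refine ⟨x, ?_⟩
      have hx2 : d • x - x = (u : T) • x := by rw [hu, sub_smul, one_smul]
      rw [he, LinearMap.smul_apply, LinearMap.sub_apply, Module.End.one_apply, hx, hx2,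
        smul_smul, Units.inv_mul, one_smul]
    · intro x hx
      rw [LinearMap.mem_ker, LinearMap.sub_apply, LinearMap.smul_apply, Module.End.one_apply,
        hfd x hx, sub_self]
  -- the two summands
  obtain ⟨hLfree, hLfin⟩ := h14_range_idem_free e hidem
  obtain ⟨hKfree, hKfin⟩ := h14_range_idem_free e' hidem'
  have hcompl : IsCompl (LinearMap.range e) (LinearMap.range e') := by
    have h1 := LinearMap.IsIdempotentElem.isCompl hidem
    have h2 : LinearMap.ker e = LinearMap.range e' := by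
      apply le_antisymm
      · intro x hx
        refine ⟨x, ?_⟩
        rw [he', LinearMap.sub_apply, Module.End.one_apply, LinearMap.mem_ker.1 hx, sub_zero]
      · rintro _ ⟨w, rfl⟩
        rw [LinearMap.mem_ker, ← Module.End.mul_apply, hee', LinearMap.zero_apply]
    rwa [h2] at h1
  set φ := Submodule.prodEquivOfIsCompl _ _ hcompl with hφ
  have hsum : Module.finrank T (LinearMap.range e) + Module.finrank T (LinearMap.range e') = 2 := by
    rw [← Module.finrank_prod, LinearEquiv.finrank_eq φ, hV]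
  have hTnt : Nontrivial T := inferInstance
  have hd1 : d ≠ 1 := by
    intro h
    rw [h, sub_self] at hu
    exact u.ne_zero hu
  -- rank of `range e` is `1`
  have hL1 : Module.finrank T (LinearMap.range e) = 1 := by
    have hL0 : Module.finrank T (LinearMap.range e) ≠ 0 := by
      intro h
      rw [Module.finrank_eq_zero_iff_of_free] at h
      have he0 : e = 0 := by
        ext x
        have := Subsingleton.elim (⟨e x, x, rfl⟩ : LinearMap.range e) 0
        exact congrArg Subtype.val this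
      have hf1' : f = 1 := by
        have := hfe
        rw [he0, smul_zero] at this
        exact sub_eq_zero.1 this
      rw [hf1', map_one] at hdet
      exact hd1 hdet.symm
    have hK0 : Module.finrank T (LinearMap.range e') ≠ 0 := by
      intro h
      rw [Module.finrank_eq_zero_iff_of_free] at h
      have he0 : e' = 0 := by
        ext x
        have := Subsingleton.elim (⟨e' x, x, rfl⟩ : LinearMap.range e') 0
        exact congrArg Subtype.val this
      have he1 : e = 1 := by
        rw [he'] at he0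
        exact (sub_eq_zero.1 he0).symm
      have hfd' : f = d • 1 := by
        ext x
        rw [LinearMap.smul_apply, Module.End.one_apply]
        exact hfd x ⟨x, by rw [he1, Module.End.one_apply]⟩
      have hdd : d ^ 2 = d := by
        rw [hfd', LinearMap.det_smul, hV, map_one, mul_one] at hdet
        exact hdet
      have hd0 : d = 0 := by
        have h1 : d * (d - 1) = 0 := by ring_nf; rw [hdd]; ring
        rw [← hu] at h1
        exact (Units.mul_left_eq_zero u).1 h1
      have hf0 : f = 0 := by rw [hfd', hd0, zero_smul]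
      rw [hf0] at hf
      have hsub : Subsingleton (Module.End T V) := subsingleton_of_zero_eq_one (isUnit_zero_iff.1 hf)
      have hVs : Subsingleton V := by
        refine ⟨fun x y => ?_⟩
        have h1 : (1 : Module.End T V) = 0 := Subsingleton.elim _ _
        have hx : x = 0 := by
          have := LinearMap.congr_fun h1 x
          simpa using this
        have hy : y = 0 := by
          have := LinearMap.congr_fun h1 y
          simpa using this
        rw [hx, hy]
      have := (Module.finrank_eq_zero_iff_of_free (R := T) (M := V)).2 hVs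
      omega
    omega
  have hK1 : Module.finrank T (LinearMap.range e') = 1 := by omega
  let bL : Module.Basis (Fin 1) T (LinearMap.range e) := Module.finBasisOfFinrankEq T _ hL1
  let bK : Module.Basis (Fin 1) T (LinearMap.range e') := Module.finBasisOfFinrankEq T _ hK1
  let b : Module.Basis (Fin 2) T V := ((bL.prod bK).map φ).reindex finSumFinEquiv
  have hb0 : b 0 = (bL 0 : V) := by
    have h1 : finSumFinEquiv.symm (0 : Fin (1 + 1)) = Sum.inl (0 : Fin 1) := rfl
    show ((bL.prod bK).map φ).reindex finSumFinEquiv (0 : Fin (1 + 1)) = (bL 0 : V)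
    rw [Module.Basis.reindex_apply, h1, Module.Basis.map_apply, hφ,
      Submodule.coe_prodEquivOfIsCompl']
    simp
  refine ⟨b, ?_, hkerd⟩
  rw [← hrange, hb0]
  have h1 : Submodule.span T (Set.range bL) = ⊤ := bL.span_eq
  have h2 : Set.range bL = {bL 0} := by
    ext x
    constructor
    · rintro ⟨i, rfl⟩
      rw [Subsingleton.elim i 0]
      rfl
    · rintro rfl
      exact ⟨0, rfl⟩
  rw [h2] at h1
  have h3 := congrArg (Submodule.map (LinearMap.range e).subtype) h1
  rw [Submodule.map_span, Submodule.map_subtype_top, Set.image_singleton] at h3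
  exact h3.symm

end LinAlg

/-! ### ALG in one-element form -/

/-- **ALG** (one-element form): the body of the frozen `IsOrdinaryAt` at the place `P`. -/
theorem h14_ord_alg {T : Type} [CommRing T] [IsLocalRing T] (ρ : GaloisRepAdic T)
    (P : ValuationSubring Qb) (σ0 : Γℚ) (hσ0 : σ0 ∈ P.inertiaSubgroupIn ℚ) (d : T)
    (hd : IsUnit (d - 1)) (hdet : LinearMap.det (ρ.ρ σ0) = d)
    (h0 : ∀ σ ∈ P.inertiaSubgroupIn ℚ, (ρ.ρ σ0 - d • 1) * (ρ.ρ σ - 1) = 0) :
    ∃ L : Submodule T ρ.V, (∃ b : Module.Basis (Fin 2) T ρ.V, L = T ∙ b 0) ∧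
      (∀ σ ∈ P.decompositionSubgroup ℚ, ∀ v ∈ L, ρ.ρ σ v ∈ L) ∧
      (∀ σ ∈ P.inertiaSubgroupIn ℚ, ∀ v : ρ.V, ρ.ρ σ v - v ∈ L) := by
  have hfu : IsUnit (ρ.ρ σ0) := (Group.isUnit σ0).map ρ.ρ
  obtain ⟨b, hb, hker⟩ := h14_ord_line ρ.finrank_eq (ρ.ρ σ0) hfu d hd hdet (h0 σ0 hσ0)
  have h3 : ∀ σ ∈ P.inertiaSubgroupIn ℚ, ∀ v : ρ.V,
      ρ.ρ σ v - v ∈ LinearMap.range (ρ.ρ σ0 - 1) := by
    intro σ hσ v
    rw [← hker, LinearMap.mem_ker]
    have h1 := LinearMap.congr_fun (h0 σ hσ) v
    rw [Module.End.mul_apply, LinearMap.sub_apply (ρ.ρ σ) 1, Module.End.one_apply] at h1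
    exact h1
  refine ⟨LinearMap.range (ρ.ρ σ0 - 1), ⟨b, hb⟩, ?_, h3⟩
  rintro g hg _ ⟨w, rfl⟩
  have hconj : g * σ0 * g⁻¹ ∈ P.inertiaSubgroupIn ℚ := by
    have h1 := Fermat.Agent.S55.h56_conj_mem_inertia P g σ0 hσ0
    have h2 : g • P = P := MulAction.mem_stabilizer_iff.mp hg
    rwa [h2] at h1
  have h4 := h3 _ hconj (ρ.ρ g w)
  have h5 : ρ.ρ (g * σ0 * g⁻¹) (ρ.ρ g w) = ρ.ρ g (ρ.ρ σ0 w) := by
    rw [← Module.End.mul_apply, ← map_mul, inv_mul_cancel_right, map_mul, Module.End.mul_apply]
  rw [h5, ← map_sub] at h4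
  rw [LinearMap.sub_apply, Module.End.one_apply]
  exact h4

/-! ### an inertia element acting non-trivially on `μ_p` -/

theorem h14_root_sub_one_mem (p : ℕ) [Fact p.Prime] (hp2 : p ≠ 2) (P : ValuationSubring Qb)
    (hP : P.LiesOverPrime p) (z : Qb) (hz : z ^ p = 1) : 1 - z ∈ P.nonunits := by
  have hp : p.Prime := Fact.out
  have hodd : Odd p := hp.odd_of_ne_two hp2
  have hzint : IsIntegral ℤ z := by
    refine IsIntegral.of_pow hp.pos ?_
    rw [hz]
    exact isIntegral_one
  have hzP : z ∈ P := h14_unr_mem_of_isIntegral P hzint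
  set x : P := ⟨z, hzP⟩ with hx
  obtain ⟨r, hr⟩ := exists_add_pow_prime_eq hp x (-1)
  have hxp : x ^ p = 1 := by
    apply Subtype.ext
    show z ^ p = 1
    exact hz
  rw [hxp, hodd.neg_one_pow] at hr
  have hpm : (p : P) ∈ IsLocalRing.maximalIdeal P := by
    rw [← ValuationSubring.coe_mem_nonunits_iff]
    exact hP
  have h1 : (x + -1) ^ p ∈ IsLocalRing.maximalIdeal P := by
    rw [hr]
    have h2 : (1 : P) + -1 + (p : P) * x * -1 * r = (p : P) * (x * -1 * r) := by ring
    rw [h2]
    exact Ideal.mul_mem_right _ _ hpm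
  have h3 : x + -1 ∈ IsLocalRing.maximalIdeal P :=
    (IsLocalRing.maximalIdeal.isMaximal P).isPrime.mem_of_pow_mem p h1
  have h4 : ((x + -1 : P) : Qb) ∈ P.nonunits := ValuationSubring.coe_mem_nonunits_iff.2 h3
  have h5 : (1 : Qb) - z = -((x + -1 : P) : Qb) := by
    show (1 : Qb) - z = -(z + -1)
    ring
  rw [h5]
  exact neg_mem h4

/-- for `p` odd, the inertia group of a place over `p` acts non-trivially on `μ_p`. -/
theorem h14_exists_inertia_cyc (p : ℕ) [Fact p.Prime] (hp2 : p ≠ 2) (P : ValuationSubring Qb)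
    (hP : P.LiesOverPrime p) :
    ∃ σ0 ∈ P.inertiaSubgroupIn ℚ, ∃ a : ℕ, (∀ μ : Qb, μ ^ p = 1 → σ0 μ = μ ^ a) ∧
      ¬ (p : ℤ) ∣ (a : ℤ) - 1 := by
  have hp : p.Prime := Fact.out
  have hp3 : 3 ≤ p := by
    have := hp.two_le
    omega
  haveI : NeZero p := ⟨hp.ne_zero⟩
  haveI : NeZero ((p : ℕ) : Qb) := ⟨Nat.cast_ne_zero.mpr hp.ne_zero⟩
  obtain ⟨ζ, hζ⟩ : ∃ ζ : Qb, IsPrimitiveRoot ζ p :=
    HasEnoughRootsOfUnity.exists_primitiveRoot Qb p
  have hp0 : (p : Qb) ≠ 0 := Nat.cast_ne_zero.mpr hp.ne_zero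
  by_cases hfix : ∀ σ ∈ P.inertiaSubgroupIn ℚ, σ ζ = ζ
  · exfalso
    have hb : ∀ k : ℕ, ∃ b : P, 1 - ζ ^ (k + 1) = (p : Qb) * (b : Qb) := by
      intro k
      have h1 : 1 - ζ ^ (k + 1) ∈ P.nonunits :=
        h14_root_sub_one_mem p hp2 P hP _ (by rw [← pow_mul, mul_comm, pow_mul, hζ.pow_eq_one, one_pow])
      obtain ⟨b, hbP, hb, -⟩ := h14_unr p P hP _ h1
        (fun σ hσ => by rw [map_sub, map_one, map_pow, hfix σ hσ])
      exact ⟨⟨b, hbP⟩, hb⟩
    choose b hb using hb
    have hprod : ∏ k ∈ Finset.range (p - 1), (1 - ζ ^ (k + 1)) = (p : Qb) := by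
      have h1 : IsPrimitiveRoot ζ (p - 1 + 1) := by rwa [Nat.sub_add_cancel hp.one_le]
      rw [IsPrimitiveRoot.prod_one_sub_pow_eq_order h1]
      have h2 : ((p - 1 : ℕ) : Qb) + 1 = ((p - 1 + 1 : ℕ) : Qb) := by push_cast; ring
      rw [h2, Nat.sub_add_cancel hp.one_le]
    rw [Finset.prod_congr rfl (fun k _ => hb k), Finset.prod_mul_distrib, Finset.prod_const,
      Finset.card_range] at hprod
    have hprod' : (p : Qb) ^ (p - 2) * ∏ k ∈ Finset.range (p - 1), (b k : Qb) = 1 := by
      have h3 : (p : Qb) ^ (p - 1) = (p : Qb) ^ (p - 2) * (p : Qb) := by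
        rw [← pow_succ]
        congr 1
        omega
      rw [h3] at hprod
      apply mul_left_cancel₀ hp0
      rw [mul_one]
      calc (p : Qb) * ((p : Qb) ^ (p - 2) * ∏ k ∈ Finset.range (p - 1), (b k : Qb))
          = (p : Qb) ^ (p - 2) * (p : Qb) * ∏ k ∈ Finset.range (p - 1), (b k : Qb) := by ring
        _ = (p : Qb) := hprod
    have h1 : ((p : P) ^ (p - 2) * ∏ k ∈ Finset.range (p - 1), b k : P) = 1 := by
      apply Subtype.ext
      have h2 : (((p : P) ^ (p - 2) * ∏ k ∈ Finset.range (p - 1), b k : P) : Qb)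
          = (p : Qb) ^ (p - 2) * ∏ k ∈ Finset.range (p - 1), (b k : Qb) := by
        simp
      exact h2.trans hprod'
    have hpm : (p : P) ∈ IsLocalRing.maximalIdeal P := by
      rw [← ValuationSubring.coe_mem_nonunits_iff]
      exact hP
    have h2 : ((p : P) ^ (p - 2) * ∏ k ∈ Finset.range (p - 1), b k : P)
        ∈ IsLocalRing.maximalIdeal P :=
      Ideal.mul_mem_right _ _ (Ideal.pow_mem_of_mem _ hpm _ (by omega))
    rw [h1] at h2
    exact (Ideal.ne_top_iff_one _).1 (IsLocalRing.maximalIdeal.isMaximal P).ne_top h2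
  · push_neg at hfix
    obtain ⟨σ0, hσ0, hne⟩ := hfix
    obtain ⟨a, ha, haζ⟩ := hζ.eq_pow_of_pow_eq_one (ξ := σ0 ζ)
      (by rw [← map_pow, hζ.pow_eq_one, map_one])
    refine ⟨σ0, hσ0, a, ?_, ?_⟩
    · intro μ hμ
      obtain ⟨j, -, rfl⟩ := hζ.eq_pow_of_pow_eq_one hμ
      rw [map_pow, ← haζ, ← pow_mul, ← pow_mul, mul_comm]
    · have ha1 : a ≠ 1 := fun h => hne (by rw [← haζ, h, pow_one])
      rintro ⟨c, hc⟩
      have hpz : (3 : ℤ) ≤ (p : ℤ) := by exact_mod_cast hp3
      have haz : (a : ℤ) < (p : ℤ) := by exact_mod_cast ha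
      have ha0 : (0 : ℤ) ≤ (a : ℤ) := Int.natCast_nonneg a
      have hc0 : c = 0 := by
        rcases lt_trichotomy c 0 with h | h | h
        · exfalso
          have h1 : (p : ℤ) * c ≤ (p : ℤ) * (-1) :=
            mul_le_mul_of_nonneg_left (by omega) (by omega)
          omega
        · exact h
        · exfalso
          have h1 : (p : ℤ) * 1 ≤ (p : ℤ) * c :=
            mul_le_mul_of_nonneg_left (by omega) (by omega)
          omega
      rw [hc0, mul_zero] at hc
      exact ha1 (by exact_mod_cast (sub_eq_zero.1 hc))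

/-! ### the frozen `IsOrdinaryAt` from `(*)` -/

/-- **ALG**: `IsOrdinaryAt p` from the identity `(*)`, for `p` odd and cyclotomic determinant. -/
theorem h14_ord_of_star {T : Type} [CommRing T] [IsLocalRing T] (ρ : GaloisRepAdic T) (p : ℕ)
    [Fact p.Prime] (hp2 : p ≠ 2) (hdet : ρ.DetIsCyclotomic p)
    (hstar : ∀ P : ValuationSubring Qb, P.LiesOverPrime p →
      ∀ σ ∈ P.inertiaSubgroupIn ℚ, ∀ τ ∈ P.inertiaSubgroupIn ℚ,
        (ρ.ρ τ - LinearMap.det (ρ.ρ τ) • 1) * (ρ.ρ σ - 1) = 0) :
    ρ.IsOrdinaryAt p := by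
  intro P hP
  have hp : p.Prime := Fact.out
  obtain ⟨σ0, hσ0, a, ha, hpa⟩ := h14_exists_inertia_cyc p hp2 P hP
  obtain ⟨hpT, hcyc⟩ := hdet
  have h1 := hcyc 1 σ0 a (fun μ hμ => ha μ (by rwa [pow_one] at hμ))
  rw [pow_one] at h1
  -- `a - 1` is a unit of `T`
  have hcop : IsCoprime ((a : ℤ) - 1) (p : ℤ) :=
    ((Nat.prime_iff_prime_int.1 hp).coprime_iff_not_dvd.2 hpa).symm
  have hunit : IsUnit (LinearMap.det (ρ.ρ σ0) - 1) := by
    by_contra hnu
    have hm : LinearMap.det (ρ.ρ σ0) - 1 ∈ IsLocalRing.maximalIdeal T :=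
      (IsLocalRing.mem_maximalIdeal _).2 hnu
    have hm2 : LinearMap.det (ρ.ρ σ0) - (a : T) ∈ IsLocalRing.maximalIdeal T := by
      obtain ⟨c, hc⟩ := Ideal.mem_span_singleton'.1 h1
      rw [← hc]
      exact Ideal.mul_mem_left _ _ hpT
    have hm3 : ((a : T) - 1) ∈ IsLocalRing.maximalIdeal T := by
      have : (a : T) - 1 = (LinearMap.det (ρ.ρ σ0) - 1) - (LinearMap.det (ρ.ρ σ0) - (a : T)) := by
        ring
      rw [this]
      exact Ideal.sub_mem _ hm hm2
    obtain ⟨x, y, hxy⟩ := hcop
    have h2 : (x : T) * ((a : T) - 1) + (y : T) * (p : T) = 1 := by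
      have := congrArg (Int.cast : ℤ → T) hxy
      push_cast at this
      exact this
    have h3 : (1 : T) ∈ IsLocalRing.maximalIdeal T := by
      rw [← h2]
      exact Ideal.add_mem _ (Ideal.mul_mem_left _ _ hm3) (Ideal.mul_mem_left _ _ hpT)
    exact (Ideal.ne_top_iff_one _).1 (IsLocalRing.maximalIdeal.isMaximal T).ne_top h3
  exact h14_ord_alg ρ P σ0 hσ0 _ hunit rfl (fun σ hσ => hstar P hP σ hσ σ0 hσ0)

end Fermat.Agent.S33
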