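/-
S33 (helper14), algebraic top: the frozen conclusion `H.ρ.IsOrdinaryAt p` of S33 from the
one-element inertia identity (exact form and `𝔪`-adic limit form), using
`h14_ord_alg` + `h14_exists_inertia_cyc` + `h14_det_cyclotomic`.
-/
import Fermat.Agent.S33.h14_OrdAlg
import Fermat.Agent.S33.h14_DetCyc

set_option autoImplicit false

namespace Fermat.Agent.S33

local notation "Qb" => AlgebraicClosure ℚ

variable {p : ℕ} {N : ℕ} [NeZero N] {S : Finset ℕ}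
  {𝒪 : Type} [CommRing 𝒪] [IsDomain 𝒪] [IsDiscreteValuationRing 𝒪]
  [IsAdicComplete (IsLocalRing.maximalIdeal 𝒪) 𝒪]
  {θ : CuspForm.heckeAlgebra N 2 (↑S : Set ℕ) →+* IsLocalRing.ResidueField 𝒪}
  {T : Type} [CommRing T] [IsLocalRing T] [IsNoetherianRing T]
  [IsAdicComplete (IsLocalRing.maximalIdeal T) T] [Algebra 𝒪 T] [IsLocalHom (algebraMap 𝒪 T)]
  [Module.Finite 𝒪 T] [Module.Free 𝒪 T]

/-- for `p` odd, every place over `p` has an inertia element `σ0` with `det ρ(σ0) - 1` a unit. -/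
theorem h14_exists_inertia_det (hp : p.Prime) (hp2 : p ≠ 2)
    (hp𝒪 : (p : 𝒪) ∈ IsLocalRing.maximalIdeal 𝒪) (hNS : ∀ q : ℕ, q.Prime → q ∣ N → q ∈ S)
    (H : CuspForm.HeckeGaloisRepDatum N (↑S : Set ℕ) 𝒪 θ T)
    (P : ValuationSubring Qb) (hP : P.LiesOverPrime p) :
    ∃ σ0 ∈ P.inertiaSubgroupIn ℚ, IsUnit (LinearMap.det (H.ρ.ρ σ0) - 1) := by
  haveI : Fact p.Prime := ⟨hp⟩
  obtain ⟨σ0, hσ0, a, ha, hpa⟩ := h14_exists_inertia_cyc p hp2 P hP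
  obtain ⟨hpT, hcyc⟩ := h14_det_cyclotomic hp hp𝒪 hNS H
  have h1 := hcyc 1 σ0 a (fun μ hμ => ha μ (by rwa [pow_one] at hμ))
  rw [pow_one] at h1
  have hcop : IsCoprime ((a : ℤ) - 1) (p : ℤ) :=
    ((Nat.prime_iff_prime_int.1 hp).coprime_iff_not_dvd.2 hpa).symm
  refine ⟨σ0, hσ0, ?_⟩
  by_contra hnu
  have hm : LinearMap.det (H.ρ.ρ σ0) - 1 ∈ IsLocalRing.maximalIdeal T :=
    (IsLocalRing.mem_maximalIdeal _).2 hnu
  have hm2 : LinearMap.det (H.ρ.ρ σ0) - (a : T) ∈ IsLocalRing.maximalIdeal T := by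
    obtain ⟨c, hc⟩ := Ideal.mem_span_singleton'.1 h1
    rw [← hc]
    exact Ideal.mul_mem_left _ _ hpT
  have hm3 : ((a : T) - 1) ∈ IsLocalRing.maximalIdeal T := by
    have : (a : T) - 1 = (LinearMap.det (H.ρ.ρ σ0) - 1) - (LinearMap.det (H.ρ.ρ σ0) - (a : T)) := by
      ring
    rw [this]
    exact Ideal.sub_mem _ hm hm2
  obtain ⟨x, y, hxy⟩ := hcop
  have h2 : (x : T) * ((a : T) - 1) + (y : T) * (p : T) = 1 := by
    have := congrArg (Int.cast : ℤ → T) hxy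
    push_cast at this
    exact this
  have h3 : (1 : T) ∈ IsLocalRing.maximalIdeal T := by
    rw [← h2]
    exact Ideal.add_mem _ (Ideal.mul_mem_left _ _ hm3) (Ideal.mul_mem_left _ _ hpT)
  exact (Ideal.ne_top_iff_one _).1 (IsLocalRing.maximalIdeal.isMaximal T).ne_top h3

/-- S33 from the one-element identity. -/
theorem h14_S33_of_one (hp : p.Prime) (hp2 : p ≠ 2)
    (hp𝒪 : (p : 𝒪) ∈ IsLocalRing.maximalIdeal 𝒪) (hNS : ∀ q : ℕ, q.Prime → q ∣ N → q ∈ S)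
    (H : CuspForm.HeckeGaloisRepDatum N (↑S : Set ℕ) 𝒪 θ T)
    (hone : ∀ P : ValuationSubring Qb, P.LiesOverPrime p →
      ∀ σ0 ∈ P.inertiaSubgroupIn ℚ, IsUnit (LinearMap.det (H.ρ.ρ σ0) - 1) →
        ∀ σ ∈ P.inertiaSubgroupIn ℚ,
          (H.ρ.ρ σ0 - LinearMap.det (H.ρ.ρ σ0) • 1) * (H.ρ.ρ σ - 1) = 0) :
    H.ρ.IsOrdinaryAt p := by
  intro P hP
  obtain ⟨σ0, hσ0, hu⟩ := h14_exists_inertia_det hp hp2 hp𝒪 hNS H P hP
  exact h14_ord_alg H.ρ P σ0 hσ0 _ hu rfl (hone P hP σ0 hσ0 hu)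

/-- S33 from the one-element identity modulo every power of the maximal ideal. -/
theorem h14_S33_of_one_limit (hp : p.Prime) (hp2 : p ≠ 2)
    (hp𝒪 : (p : 𝒪) ∈ IsLocalRing.maximalIdeal 𝒪) (hNS : ∀ q : ℕ, q.Prime → q ∣ N → q ∈ S)
    (H : CuspForm.HeckeGaloisRepDatum N (↑S : Set ℕ) 𝒪 θ T)
    (hone : ∀ P : ValuationSubring Qb, P.LiesOverPrime p →
      ∀ σ0 ∈ P.inertiaSubgroupIn ℚ, IsUnit (LinearMap.det (H.ρ.ρ σ0) - 1) →
        ∀ σ ∈ P.inertiaSubgroupIn ℚ, ∀ (k : ℕ) (v : H.ρ.V),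
          ((H.ρ.ρ σ0 - LinearMap.det (H.ρ.ρ σ0) • 1) * (H.ρ.ρ σ - 1)) v ∈
            IsLocalRing.maximalIdeal T ^ k • (⊤ : Submodule T H.ρ.V)) :
    H.ρ.IsOrdinaryAt p := by
  refine h14_S33_of_one hp hp2 hp𝒪 hNS H (fun P hP σ0 hσ0 hu σ hσ => ?_)
  ext v
  have hmem : ((H.ρ.ρ σ0 - LinearMap.det (H.ρ.ρ σ0) • 1) * (H.ρ.ρ σ - 1)) v ∈
      (⨅ i : ℕ, (IsLocalRing.maximalIdeal T) ^ i • (⊤ : Submodule T H.ρ.V)) := by
    rw [Submodule.mem_iInf]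
    exact fun k => hone P hP σ0 hσ0 hu σ hσ k v
  rw [Ideal.iInf_pow_smul_eq_bot_of_isLocalRing _
    (IsLocalRing.maximalIdeal.isMaximal T).ne_top] at hmem
  rw [LinearMap.zero_apply]
  exact (Submodule.mem_bot _).1 hmem

end Fermat.Agent.S33
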