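import Fermat.Agent.S33.h91_OrdLevels
import Fermat.Agent.S33.h14_S33Alg
import Fermat.Agent.S33.h9_GeomStmt
import Fermat.Agent.S35.h29_ThetaCanon
import Fermat.Agent.S37.h60_Final
import Fermat.Agent.GAL.h65_S31Levels
import Fermat.Agent.S19.h54_Fin

/-!
# S33, row TOP (helper91)

`h91_S33_of_geom_trans` : the frozen statement S33 from

* the per-level geometric statement `h9_GeomStmt N p P σ0 n` on `J₀(N)[p ^ n]` (for every place
  `P` over `p`, every `σ0` in its inertia group which acts on `μ_p` through an exponent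
  `a ≢ 1 mod p`, and every `n ≥ 1`), and
* the transport `h9_GeomStmt → h91_SplitStmt` (from `J₀(N)[p ^ n]` to the Galois span of the
  image of the Hecke lattice) for the explicit level data of the GAL layer.

Inside: `h14_S33_of_one_limit` (algebraic top), `h14_res_ord_T` (residual ordinarity),
`h14_det_cyclotomic`, `h91_ord_of_split` (machine instance) with the level data of
`S32/h91_Top.lean`.
-/

set_option autoImplicit false
set_option linter.style.haveILetI false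
set_option synthInstance.maxHeartbeats 400000

open CongruenceSubgroup ModularCurve

namespace Fermat.Agent.S33

open Fermat.Agent.GAL Fermat.Agent.S16 Fermat.Agent.S24 Fermat.Agent.S35 Fermat.Agent.S19
  Fermat.Agent.S32

local notation "Qb" => AlgebraicClosure ℚ
local notation "Γℚ" => (AlgebraicClosure ℚ ≃ₐ[ℚ] AlgebraicClosure ℚ)

/-- Every automorphism acts on the `p`-th roots of unity through an exponent. -/
theorem h91_exists_cyc_exp {p : ℕ} (hp : p.Prime) (σ : Γℚ) :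
    ∃ a : ℕ, ∀ μ : Qb, μ ^ p = 1 → σ μ = μ ^ a := by
  haveI : NeZero p := ⟨hp.ne_zero⟩
  haveI : NeZero ((p : ℕ) : Qb) := ⟨Nat.cast_ne_zero.mpr hp.ne_zero⟩
  obtain ⟨ζ, hζ⟩ : ∃ ζ : Qb, IsPrimitiveRoot ζ p :=
    HasEnoughRootsOfUnity.exists_primitiveRoot Qb p
  have h1 : (σ ζ) ^ p = 1 := by rw [← map_pow, hζ.pow_eq_one, map_one]
  obtain ⟨a, -, ha⟩ := hζ.eq_pow_of_pow_eq_one h1
  refine ⟨a, fun μ hμ => ?_⟩
  obtain ⟨j, -, rfl⟩ := hζ.eq_pow_of_pow_eq_one hμ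
  rw [map_pow, ← ha, ← pow_mul, ← pow_mul, mul_comm]

section main

variable {p : ℕ} {N : ℕ} [NeZero N] {S : Finset ℕ}
  {𝒪 : Type} [CommRing 𝒪] [IsDomain 𝒪] [IsDiscreteValuationRing 𝒪]
  [IsAdicComplete (IsLocalRing.maximalIdeal 𝒪) 𝒪]
  {θ : CuspForm.heckeAlgebra N 2 (↑S : Set ℕ) →+* IsLocalRing.ResidueField 𝒪}
  {T : Type} [CommRing T] [IsLocalRing T] [IsNoetherianRing T]
  [IsAdicComplete (IsLocalRing.maximalIdeal T) T] [Algebra 𝒪 T] [IsLocalHom (algebraMap 𝒪 T)]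
  [Module.Finite 𝒪 T] [Module.Free 𝒪 T]

set_option maxHeartbeats 1600000 in
/-- **S33 from the per-level geometric statement and the transport to the Galois span.** -/
theorem h91_S33_of_geom_trans [Finite (IsLocalRing.ResidueField 𝒪)]
    (hp : p.Prime) (hp2 : p ≠ 2) (hp𝒪 : (p : 𝒪) ∈ IsLocalRing.maximalIdeal 𝒪)
    (hpN : p ∣ N)
    (hNS : ∀ q : ℕ, q.Prime → q ∣ N → q ∈ S)
    (H : CuspForm.HeckeGaloisRepDatum N (↑S : Set ℕ) 𝒪 θ T)
    (hres : (GaloisRepAdic.ofResidualGaloisRep H.ρ.residual).IsOrdinaryAt p)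
    (htrans : ∀ (hNS' : ∀ q : ℕ, q.Prime → q ∣ N → q ∈ (↑S : Set ℕ))
      (qM : ∀ n, h65_Lam N →+ ↥(h65_tors (JZero N) (p ^ n))),
      (∀ n : ℕ, h31_IsLevel p N S (h65_iota N (↑S : Set ℕ) hNS') n (qM n)
        (h65_torsRep Γℚ (JZero N) (p ^ n))
        (fun ℓ => h65_torsEnd (p ^ n) (heckeOperatorBar N ℓ).toAddMonoidHom)) →
      ∀ (P : ValuationSubring Qb) (σ0 : Γℚ) (n : ℕ), P.LiesOverPrime p →
        σ0 ∈ P.inertiaSubgroupIn ℚ → 0 < n → h9_GeomStmt N p P σ0 n →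
        h91_SplitStmt p H (fun n => ↥(h65_tors (JZero N) (p ^ n))) qM
          (fun n => h65_torsRep Γℚ (JZero N) (p ^ n))
          (fun n ℓ => h65_torsEnd (p ^ n) (heckeOperatorBar N ℓ).toAddMonoidHom) P σ0 n)
    (hgeom : ∀ P : ValuationSubring Qb, P.LiesOverPrime p →
      ∀ σ0 ∈ P.inertiaSubgroupIn ℚ, ∀ a : ℕ, (∀ μ : Qb, μ ^ p = 1 → σ0 μ = μ ^ a) →
        ¬ (p : ℤ) ∣ (a : ℤ) - 1 → ∀ n : ℕ, 0 < n → h9_GeomStmt N p P σ0 n) :
    H.ρ.IsOrdinaryAt p := by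
  classical
  haveI : Fact p.Prime := ⟨hp⟩
  have hpS : p ∈ S := hNS p hp hpN
  have hNS' : ∀ q : ℕ, q.Prime → q ∣ N → q ∈ (↑S : Set ℕ) :=
    fun q hq hqN => Finset.mem_coe.2 (hNS q hq hqN)
  -- the canonical THETA family
  have hθ : ∀ n : ℕ, ∃ Θ : gal_Hpe N (p ^ n) →+ JZero N, Function.Injective Θ ∧
      (∀ (ℓ : ℕ) [Fact ℓ.Prime] (hℓN : ¬ ℓ ∣ N), ¬ ℓ ∣ p ^ n →
        ∀ χ χ' : gal_Hpe N (p ^ n),
          (χ' : Additive (Gamma0 N) →+ ZMod (p ^ n)) =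
              h30_heckeT N ℓ hℓN (χ : Additive (Gamma0 N) →+ ZMod (p ^ n)) →
            heckeOperatorBar N ⟨ℓ, Fact.out⟩ (Θ χ) = Θ χ') ∧
      ∀ ψ : gal_Hpe N (p ^ n),
        gal_R N (p ^ n) h78_iota
          (gal_chi (p ^ n) (ψ : Additive (Gamma0 N) →+ ZMod (p ^ n))) (Θ ψ) := by
    intro n
    have : NeZero (p ^ n) := ⟨pow_ne_zero n hp.ne_zero⟩
    exact h29_theta_canon N (p ^ n)
  choose Θ hΘinj hΘhecke hΘR using hθ
  -- the explicit level data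
  let Mn : ℕ → Type := fun n => ↥(h65_tors (JZero N) (p ^ n))
  let qM : ∀ n, h65_Lam N →+ Mn n := fun n => h29_qLev p N n (Θ n)
  let r : ∀ n, Γℚ →* AddMonoid.End (Mn n) :=
    fun n => h65_torsRep Γℚ (JZero N) (p ^ n)
  let tM : ∀ n, Nat.Primes → Mn n →+ Mn n :=
    fun n ℓ => h65_torsEnd (p ^ n) (heckeOperatorBar N ℓ).toAddMonoidHom
  have hlevel : ∀ n : ℕ, h31_IsLevel p N S (h65_iota N (↑S : Set ℕ) hNS') n (qM n) (r n)
      (tM n) := fun n =>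
    h29_isLevel hp hpS hNS' (Θ n) (hΘinj n) (hΘhecke n)
      (fun ℓ hℓ h A hA => Fermat.Agent.S37.h60_redData N p ℓ hℓ h A hA)
  have hfinM : ∀ n, Finite (Mn n) := fun n =>
    h54_finite_torsion N (p ^ n) (pow_pos hp.pos n)
  obtain ⟨hpT, hdetcyc⟩ := h14_det_cyclotomic hp hp𝒪 hNS H
  refine h14_S33_of_one_limit hp hp2 hp𝒪 hNS H (fun P hP σ0 hσ0 hu σ hσ k v => ?_)
  -- the cyclotomic exponent of `σ0` on `μ_p`
  obtain ⟨a, ha⟩ := h91_exists_cyc_exp hp σ0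
  have hpa : ¬ (p : ℤ) ∣ (a : ℤ) - 1 := by
    rintro ⟨c, hc⟩
    have h1 := hdetcyc 1 σ0 a (fun μ hμ => ha μ (by rwa [pow_one] at hμ))
    rw [pow_one] at h1
    obtain ⟨b, hb⟩ := Ideal.mem_span_singleton'.1 h1
    have h2 : ((a : T) - 1) = (p : T) * (c : T) := by
      have := congrArg (Int.cast : ℤ → T) hc
      push_cast at this
      exact this
    have h3 : LinearMap.det (H.ρ.ρ σ0) - 1 ∈ IsLocalRing.maximalIdeal T := by
      have e : LinearMap.det (H.ρ.ρ σ0) - 1 = b * (p : T) + (p : T) * (c : T) := by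
        rw [hb, ← h2]; ring
      rw [e]
      exact Ideal.add_mem _ (Ideal.mul_mem_left _ _ hpT) (Ideal.mul_mem_right _ _ hpT)
    exact (IsLocalRing.mem_maximalIdeal _).1 h3 hu
  have hres1 := (h14_res_ord_T H.ρ p hres P hP σ0 σ0 hσ0 hσ0).1
  have hresI : ∀ τ ∈ P.inertiaSubgroupIn ℚ, ∀ v : H.ρ.V,
      ((H.ρ.ρ σ0 - LinearMap.det (H.ρ.ρ σ0) • 1) * (H.ρ.ρ τ - 1)) v ∈
        IsLocalRing.maximalIdeal T • (⊤ : Submodule T H.ρ.V) :=
    fun τ hτ => (h14_res_ord_T H.ρ p hres P hP σ0 τ hσ0 hτ).2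
  exact h91_ord_of_split hp hp2 hp𝒪 hpS hNS H (h65_iota N (↑S : Set ℕ) hNS')
    (h65_iota_injective N (↑S : Set ℕ) hNS') Mn hfinM qM r tM hlevel h65_wcheb P σ0 hσ0 hu
    hres1 hresI
    (fun n hn => htrans hNS' qM hlevel P σ0 n hP hσ0 hn (hgeom P hP σ0 hσ0 a ha hpa n hn))
    σ hσ k v

end main

end Fermat.Agent.S33
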