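import Mathlib
import Fermat.Agent.S33.h10_N1Glue
import Fermat.Agent.S35.h29_BGlue

/-!
# S33, deep witness of a toric new class (helper10)

Level `M p`, `p ∤ M`. A class `z ∈ J₀(Mp)` that is toric for the exponent `p^n`
(`h29_Toric M p hpM A hA (p^n) z`: a representative `E` with `p^n E = div u`, `red₁ u = 1 = red₂ u`)
and `p`-new (`h67_Jnew M p z`: both push-forwards principal) has, for every constant `cstar ≠ 0`,
a representative `E0` with `p^n E0 = div u0`, `u0 = 1 + cstar t`, `t ∈ O₁ ∩ O₂`.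

Proof: the push-forwards of `E` are principal, hence `N_α u`, `N_β u` are constants times
`p^n`-th powers (norm formula); `h10_N1_final_pow` gives `gt` with `u = gt^(p^n) (1 + cstar t)`;
`E0 := E - div gt`, `u0 := u / gt^(p^n)`.
-/

set_option autoImplicit false
set_option synthInstance.maxHeartbeats 400000

noncomputable section

open ModularCurve AlgebraicCurve IntermediateField

namespace Fermat.Agent.S33

open Fermat.Agent.S18 Fermat.Agent.S37 Fermat.Agent.S34 Fermat.Agent.S35 Fermat.Agent.S24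
  Fermat.Agent.S27

local notation "Qb" => AlgebraicClosure ℚ

section Norm

variable (M p : ℕ) [NeZero M] [NeZero p]

/-- If `m E = div u` and the push-forward of `E` along `α` is principal, then `N_α u` is a constant
times an `m`-th power. -/
theorem h10_norm_alpha_of_push (m : ℕ) (E : Divisor Qb ↥(modularFunctionFieldBar (M * p)))
    (u : ↥(modularFunctionFieldBar (M * p))) (hu0 : u ≠ 0)
    (hdiv : ∀ v : Place Qb ↥(modularFunctionFieldBar (M * p)), (m : ℤ) * E v = v.ord u)
    (hpr : (Divisor.pushforwardAlong (heckeAlphaBar Qb M p) (h88_alphaIntegral M p) E).IsPrincipal) :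
    ∃ (a : Qb) (g : ↥(modularFunctionFieldBar M)),
      @Algebra.norm ↥(modularFunctionFieldBar M) ↥(modularFunctionFieldBar (M * p)) _ _
        (algebraAlong (heckeAlphaBar Qb M p)) u
          = algebraMap Qb ↥(modularFunctionFieldBar M) a * g ^ m := by
  obtain ⟨g, hg0, hg⟩ := hpr
  have hN : @Algebra.norm ↥(modularFunctionFieldBar M) ↥(modularFunctionFieldBar (M * p)) _ _
        (algebraAlong (heckeAlphaBar Qb M p)) u ≠ 0 ∧
      ∀ v : Place Qb ↥(modularFunctionFieldBar M),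
        Divisor.pushforwardAlong (heckeAlphaBar Qb M p) (h88_alphaIntegral M p) (m • E) v
          = v.ord (@Algebra.norm ↥(modularFunctionFieldBar M) ↥(modularFunctionFieldBar (M * p)) _ _
              (algebraAlong (heckeAlphaBar Qb M p)) u) := by
    letI := algebraAlong (heckeAlphaBar Qb M p)
    haveI := isScalarTower_along (heckeAlphaBar Qb M p)
    haveI : Module.Finite ↥(modularFunctionFieldBar M) ↥(modularFunctionFieldBar (M * p)) :=
      h88_finiteAlong_alpha M p
    exact ⟨Algebra.norm_ne_zero_iff.mpr hu0, fun v => h87_NF_alpha M p u hu0 (m • E)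
      (fun w => by rw [Finsupp.smul_apply, nsmul_eq_mul]; exact hdiv w) v⟩
  obtain ⟨hN0, hNord⟩ := hN
  set Nu := @Algebra.norm ↥(modularFunctionFieldBar M) ↥(modularFunctionFieldBar (M * p)) _ _
    (algebraAlong (heckeAlphaBar Qb M p)) u with hNu
  have hgm : g ^ m ≠ 0 := pow_ne_zero m hg0
  have hQ0 : Nu * (g ^ m)⁻¹ ≠ 0 := mul_ne_zero hN0 (inv_ne_zero hgm)
  have hQord : ∀ v : Place Qb ↥(modularFunctionFieldBar M), v.ord (Nu * (g ^ m)⁻¹) = 0 := by
    intro v
    have hpow : v.ord (g ^ m) = (m : ℤ) * v.ord g := by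
      have := v.ord_zpow g (m : ℤ)
      simpa using this
    rw [v.ord_mul hN0 (inv_ne_zero hgm), v.ord_inv, hpow, ← hNord v, map_nsmul,
      Finsupp.smul_apply, hg v, nsmul_eq_mul]
    ring
  obtain ⟨c, hc⟩ := h64_const_of_ord_eq_zero (h54_isChart_jbar M) _ hQord
  refine ⟨c, g, ?_⟩
  rw [← hc, mul_assoc, inv_mul_cancel₀ hgm, mul_one]

/-- The same along `β`. -/
theorem h10_norm_beta_of_push (m : ℕ) (E : Divisor Qb ↥(modularFunctionFieldBar (M * p)))
    (u : ↥(modularFunctionFieldBar (M * p))) (hu0 : u ≠ 0)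
    (hdiv : ∀ v : Place Qb ↥(modularFunctionFieldBar (M * p)), (m : ℤ) * E v = v.ord u)
    (hpr : (Divisor.pushforwardAlong (heckeBetaBar Qb M p) (h88_betaIntegral M p) E).IsPrincipal) :
    ∃ (a : Qb) (g : ↥(modularFunctionFieldBar M)),
      @Algebra.norm ↥(modularFunctionFieldBar M) ↥(modularFunctionFieldBar (M * p)) _ _
        (algebraAlong (heckeBetaBar Qb M p)) u
          = algebraMap Qb ↥(modularFunctionFieldBar M) a * g ^ m := by
  obtain ⟨g, hg0, hg⟩ := hpr
  have hN : @Algebra.norm ↥(modularFunctionFieldBar M) ↥(modularFunctionFieldBar (M * p)) _ _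
        (algebraAlong (heckeBetaBar Qb M p)) u ≠ 0 ∧
      ∀ v : Place Qb ↥(modularFunctionFieldBar M),
        Divisor.pushforwardAlong (heckeBetaBar Qb M p) (h88_betaIntegral M p) (m • E) v
          = v.ord (@Algebra.norm ↥(modularFunctionFieldBar M) ↥(modularFunctionFieldBar (M * p)) _ _
              (algebraAlong (heckeBetaBar Qb M p)) u) := by
    letI := algebraAlong (heckeBetaBar Qb M p)
    haveI := isScalarTower_along (heckeBetaBar Qb M p)
    haveI : Module.Finite ↥(modularFunctionFieldBar M) ↥(modularFunctionFieldBar (M * p)) :=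
      h88_finiteAlong_beta M p
    exact ⟨Algebra.norm_ne_zero_iff.mpr hu0, fun v => h29_NF_beta M p u hu0 (m • E)
      (fun w => by rw [Finsupp.smul_apply, nsmul_eq_mul]; exact hdiv w) v⟩
  obtain ⟨hN0, hNord⟩ := hN
  set Nu := @Algebra.norm ↥(modularFunctionFieldBar M) ↥(modularFunctionFieldBar (M * p)) _ _
    (algebraAlong (heckeBetaBar Qb M p)) u with hNu
  have hgm : g ^ m ≠ 0 := pow_ne_zero m hg0
  have hQ0 : Nu * (g ^ m)⁻¹ ≠ 0 := mul_ne_zero hN0 (inv_ne_zero hgm)
  have hQord : ∀ v : Place Qb ↥(modularFunctionFieldBar M), v.ord (Nu * (g ^ m)⁻¹) = 0 := by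
    intro v
    have hpow : v.ord (g ^ m) = (m : ℤ) * v.ord g := by
      have := v.ord_zpow g (m : ℤ)
      simpa using this
    rw [v.ord_mul hN0 (inv_ne_zero hgm), v.ord_inv, hpow, ← hNord v, map_nsmul,
      Finsupp.smul_apply, hg v, nsmul_eq_mul]
    ring
  obtain ⟨c, hc⟩ := h64_const_of_ord_eq_zero (h54_isChart_jbar M) _ hQord
  refine ⟨c, g, ?_⟩
  rw [← hc, mul_assoc, inv_mul_cancel₀ hgm, mul_one]

end Norm

section Witness

variable (M p : ℕ) [NeZero M] [NeZero p] [Fact p.Prime] (hpM : ¬ p ∣ M)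
  (A : ValuationSubring Qb) (hA : A.LiesOverPrime p)

/-- **Deep witness.** A toric (exponent `p^n`) `p`-new class has a representative `E0` with
`p^n E0 = div u0`, `u0 = 1 + cstar t`, `t ∈ O₁ ∩ O₂`, for every constant `cstar ≠ 0`. -/
theorem h10_deep_witness (n : ℕ) (z : JZero (M * p))
    (htor : h29_Toric M p hpM A hA (p ^ n) z) (hnew : h67_Jnew M p z)
    (cstar : Qb) (hcs : cstar ≠ 0) :
    ∃ (E0 : Divisor.degZero (K := Qb) (F := modularFunctionFieldBar (M * p)))
      (u0 t : ↥(modularFunctionFieldBar (M * p))),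
      u0 ≠ 0 ∧ Pic0.mk E0 = z ∧
      (∀ v : Place Qb ↥(modularFunctionFieldBar (M * p)),
        ((p ^ n : ℕ) : ℤ) * (E0 : Divisor Qb ↥(modularFunctionFieldBar (M * p))) v = v.ord u0) ∧
      t ∈ (h60_R1 M p hpM A hA).O ∧ t ∈ (h60_R2 M p hpM A hA).O ∧
      u0 = 1 + algebraMap Qb ↥(modularFunctionFieldBar (M * p)) cstar * t := by
  have hp : p.Prime := Fact.out
  haveI := h88_hasPrincipalDivisors (M * p)
  obtain ⟨E, u, hu0, hEz, hdiv, ⟨-, hu1⟩, h2⟩ := htor
  obtain ⟨D, hDz, hDnew⟩ := hnew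
  have hu2 : (h60_R2 M p hpM A hA).redF u = 1 := by
    rw [h60_R2_redF]
    exact (h2 _ _ (h49_exists_bezout
      ((Nat.Prime.coprime_iff_not_dvd (Fact.out : p.Prime)).mpr hpM)).choose_spec.choose_spec).2
  -- `E - D` is principal
  have hED : ((E : Divisor Qb ↥(modularFunctionFieldBar (M * p)))
      - (D : Divisor Qb ↥(modularFunctionFieldBar (M * p)))).IsPrincipal := by
    have h1 : Pic0.mk D = Pic0.mk E := hDz.trans hEz.symm
    have h3 := QuotientAddGroup.eq.mp h1
    rw [AddSubgroup.mem_addSubgroupOf] at h3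
    have h4 : ((-D + E : Divisor.degZero (K := Qb) (F := modularFunctionFieldBar (M * p))) :
        Divisor Qb ↥(modularFunctionFieldBar (M * p)))
        = (E : Divisor Qb ↥(modularFunctionFieldBar (M * p))) - D := by
      push_cast
      abel
    rw [h4] at h3
    exact h3
  -- the push-forwards of `E` are principal
  have hαE : (Divisor.pushforwardAlong (heckeAlphaBar Qb M p) (h88_alphaIntegral M p)
      (E : Divisor Qb ↥(modularFunctionFieldBar (M * p)))).IsPrincipal := by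
    have e : (E : Divisor Qb ↥(modularFunctionFieldBar (M * p)))
        = (D : Divisor Qb ↥(modularFunctionFieldBar (M * p)))
          + ((E : Divisor Qb ↥(modularFunctionFieldBar (M * p)))
            - (D : Divisor Qb ↥(modularFunctionFieldBar (M * p)))) := by abel
    rw [e, map_add]
    exact (Divisor.principal (K := Qb) (F := modularFunctionFieldBar M)).add_mem
      (h67_divNew_alpha hDnew (h88_alphaIntegral M p))
      (Divisor.isPrincipal_pushforwardAlong _ _ (h88_finiteAlong_alpha M p) (h87_NF_alpha M p) hED)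
  have hβE : (Divisor.pushforwardAlong (heckeBetaBar Qb M p) (h88_betaIntegral M p)
      (E : Divisor Qb ↥(modularFunctionFieldBar (M * p)))).IsPrincipal := by
    have e : (E : Divisor Qb ↥(modularFunctionFieldBar (M * p)))
        = (D : Divisor Qb ↥(modularFunctionFieldBar (M * p)))
          + ((E : Divisor Qb ↥(modularFunctionFieldBar (M * p)))
            - (D : Divisor Qb ↥(modularFunctionFieldBar (M * p)))) := by abel
    rw [e, map_add]
    exact (Divisor.principal (K := Qb) (F := modularFunctionFieldBar M)).add_mem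
      (h67_divNew_beta hDnew (h88_betaIntegral M p))
      (Divisor.isPrincipal_pushforwardAlong _ _ (h88_finiteAlong_beta M p) (h29_NF_beta M p) hED)
  have hα := h10_norm_alpha_of_push M p (p ^ n) _ u hu0 hdiv hαE
  have hβ := h10_norm_beta_of_push M p (p ^ n) _ u hu0 hdiv hβE
  obtain ⟨gt, hgt0, -, -, -, -, -, -, -, -, t, ht1, ht2, hut⟩ :=
    h10_N1_final_pow M p hpM A hA n u hu1 hu2 hα hβ cstar hcs
  obtain ⟨Dg, hDg, hdeg⟩ := HasPrincipalDivisors.exists_divisor (K := Qb) gt hgt0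
  have hgtn : gt ^ (p ^ n) ≠ 0 := pow_ne_zero _ hgt0
  refine ⟨E - ⟨Dg, Divisor.mem_degZero.mpr hdeg⟩, u * (gt ^ (p ^ n))⁻¹, t,
    mul_ne_zero hu0 (inv_ne_zero hgtn), ?_, ?_, ht1, ht2, ?_⟩
  · rw [← hEz]
    apply QuotientAddGroup.eq.mpr
    rw [AddSubgroup.mem_addSubgroupOf]
    have h4 : ((-(E - ⟨Dg, Divisor.mem_degZero.mpr hdeg⟩) + E :
        Divisor.degZero (K := Qb) (F := modularFunctionFieldBar (M * p))) :
        Divisor Qb ↥(modularFunctionFieldBar (M * p))) = Dg := by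
      push_cast
      abel
    rw [h4]
    exact ⟨gt, hgt0, hDg⟩
  · intro v
    have hpow : v.ord (gt ^ (p ^ n)) = ((p ^ n : ℕ) : ℤ) * v.ord gt := by
      rw [← zpow_natCast]
      exact v.ord_zpow gt _
    have hE0 : ((E - ⟨Dg, Divisor.mem_degZero.mpr hdeg⟩ :
        Divisor.degZero (K := Qb) (F := modularFunctionFieldBar (M * p))) :
        Divisor Qb ↥(modularFunctionFieldBar (M * p))) v
        = (E : Divisor Qb ↥(modularFunctionFieldBar (M * p))) v - v.ord gt := by
      push_cast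
      rw [Pi.sub_apply, hDg v]
    rw [hE0, v.ord_mul hu0 (inv_ne_zero hgtn), v.ord_inv, hpow, ← hdiv v]
    ring
  · rw [hut]
    field_simp

/-- **Deep witness, Artin–Schreier form**: `u0 = 1 + (ζ - 1)^p h` with `h ∈ O₁ ∩ O₂` of zero
reduction at both valuations (`ζ` a primitive `p`-th root of unity). -/
theorem h10_deep_witness_AS (ζ : Qb) (hζ : IsPrimitiveRoot ζ p) (n : ℕ) (z : JZero (M * p))
    (htor : h29_Toric M p hpM A hA (p ^ n) z) (hnew : h67_Jnew M p z) :
    ∃ (E0 : Divisor.degZero (K := Qb) (F := modularFunctionFieldBar (M * p)))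
      (u0 h : ↥(modularFunctionFieldBar (M * p))),
      u0 ≠ 0 ∧ Pic0.mk E0 = z ∧
      (∀ v : Place Qb ↥(modularFunctionFieldBar (M * p)),
        ((p ^ n : ℕ) : ℤ) * (E0 : Divisor Qb ↥(modularFunctionFieldBar (M * p))) v = v.ord u0) ∧
      h ∈ (h60_R1 M p hpM A hA).O ∧ h ∈ (h60_R2 M p hpM A hA).O ∧
      (h60_R1 M p hpM A hA).redF h = 0 ∧ (h60_R2 M p hpM A hA).redF h = 0 ∧
      u0 = 1 + algebraMap Qb ↥(modularFunctionFieldBar (M * p)) ((ζ - 1) ^ p) * h := by
  have hp : p.Prime := Fact.out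
  have hp0 : (p : Qb) ≠ 0 := Nat.cast_ne_zero.mpr hp.ne_zero
  have hζ1 : ζ - 1 ≠ 0 := sub_ne_zero.mpr (hζ.ne_one hp.one_lt)
  have hcs : (ζ - 1) ^ p * (p : Qb) ≠ 0 := mul_ne_zero (pow_ne_zero p hζ1) hp0
  obtain ⟨E0, u0, t, hu0, hE0, hdiv, ht1, ht2, hu⟩ :=
    h10_deep_witness M p hpM A hA n z htor hnew _ hcs
  set R1 := h60_R1 M p hpM A hA with hR1
  set R2 := h60_R2 M p hpM A hA with hR2
  have hpA : (p : Qb) ∈ A := ValuationSubring.nonunits_subset hA
  have hpinv : (p : Qb)⁻¹ ∉ A :=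
    ((ValuationSubring.mem_nonunits_iff_or A).mp hA).resolve_left hp0
  have hpA1 : (p : Qb) ∈ R1.A := by rw [hR1, h60_R1_A]; exact hpA
  have hpA2 : (p : Qb) ∈ R2.A := by rw [hR2, h60_R2_A]; exact hpA
  have hres1 : R1.resK (p : Qb) = 0 :=
    (h39_resK_eq_zero_iff R1 hpA1).mpr (Or.inr (by rw [hR1, h60_R1_A]; exact hpinv))
  have hres2 : R2.resK (p : Qb) = 0 :=
    (h39_resK_eq_zero_iff R2 hpA2).mpr (Or.inr (by rw [hR2, h60_R2_A]; exact hpinv))
  have hpO1 : algebraMap Qb ↥(modularFunctionFieldBar (M * p)) (p : Qb) ∈ R1.O :=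
    (R1.mem_iff _).mp hpA1
  have hpO2 : algebraMap Qb ↥(modularFunctionFieldBar (M * p)) (p : Qb) ∈ R2.O :=
    (R2.mem_iff _).mp hpA2
  refine ⟨E0, u0, algebraMap Qb ↥(modularFunctionFieldBar (M * p)) (p : Qb) * t, hu0, hE0, hdiv,
    R1.O.mul_mem _ _ hpO1 ht1, R2.O.mul_mem _ _ hpO2 ht2, ?_, ?_, ?_⟩
  · rw [h39_redF_mul R1 hpO1 ht1, h39_redF_algebraMap R1 hpA1, hres1, map_zero, zero_mul]
  · rw [h39_redF_mul R2 hpO2 ht2, h39_redF_algebraMap R2 hpA2, hres2, map_zero, zero_mul]
  · rw [hu, map_mul, mul_assoc]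

/-- The case `n = 1`, stated with the exponent `p`. -/
theorem h10_deep_witness_AS_p (ζ : Qb) (hζ : IsPrimitiveRoot ζ p) (z : JZero (M * p))
    (htor : h29_Toric M p hpM A hA p z) (hnew : h67_Jnew M p z) :
    ∃ (E0 : Divisor.degZero (K := Qb) (F := modularFunctionFieldBar (M * p)))
      (u0 h : ↥(modularFunctionFieldBar (M * p))),
      u0 ≠ 0 ∧ Pic0.mk E0 = z ∧
      (∀ v : Place Qb ↥(modularFunctionFieldBar (M * p)),
        (p : ℤ) * (E0 : Divisor Qb ↥(modularFunctionFieldBar (M * p))) v = v.ord u0) ∧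
      h ∈ (h60_R1 M p hpM A hA).O ∧ h ∈ (h60_R2 M p hpM A hA).O ∧
      (h60_R1 M p hpM A hA).redF h = 0 ∧ (h60_R2 M p hpM A hA).redF h = 0 ∧
      u0 = 1 + algebraMap Qb ↥(modularFunctionFieldBar (M * p)) ((ζ - 1) ^ p) * h := by
  have htor' : h29_Toric M p hpM A hA (p ^ 1) z := by rw [pow_one]; exact htor
  obtain ⟨E0, u0, h, h1, h2, h3, h4⟩ := h10_deep_witness_AS M p hpM A hA ζ hζ 1 z htor' hnew
  refine ⟨E0, u0, h, h1, h2, ?_, h4⟩
  intro v
  have := h3 v
  rw [pow_one] at this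
  exact this

end Witness

end Fermat.Agent.S33
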