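/-
S33 (helper14), residual side (request #3140 (6) of helper48): what the frozen hypothesis
`hres : (GaloisRepAdic.ofResidualGaloisRep ρ.residual).IsOrdinaryAt p` says about inertia:
for `σ0, σ` in the inertia group of a place over `p`,
`trace ρ̄(σ0) = 1 + det ρ̄(σ0)` and `(ρ̄(σ0) - det ρ̄(σ0)) (ρ̄(σ) - 1) = 0`,
on the residual representation, and the same congruences modulo the maximal ideal for `ρ` itself
(operator form and matrix form).
-/
import Mathlib
import Fermat.Prelude.Def_GaloisRep_LocalConditions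

set_option autoImplicit false

open scoped TensorProduct

namespace Fermat.Agent.S33

local notation "Qb" => AlgebraicClosure ℚ
local notation "Γℚ" => (AlgebraicClosure ℚ ≃ₐ[ℚ] AlgebraicClosure ℚ)

/-! ### linear algebra -/

/-- an endomorphism of a free rank-2 module which preserves the line `R b₀` and is the identity
modulo that line has trace `1 + det` and acts on `b₀` by `det`. -/
theorem h14_line_trace_det {R : Type*} [CommRing R] {V : Type*} [AddCommGroup V] [Module R V]
    (b : Module.Basis (Fin 2) R V) (f : Module.End R V)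
    (hL : f (b 0) ∈ R ∙ b 0) (hf : f (b 1) - b 1 ∈ R ∙ b 0) :
    LinearMap.trace R V f = 1 + LinearMap.det f ∧ f (b 0) = LinearMap.det f • b 0 := by
  obtain ⟨c, hc⟩ := Submodule.mem_span_singleton.1 hL
  obtain ⟨e, he⟩ := Submodule.mem_span_singleton.1 hf
  have h1 : f (b 1) = b 1 + e • b 0 := by rw [he]; abel
  have hM : LinearMap.toMatrix b b f = !![c, e; 0, 1] := by
    ext i j
    rw [LinearMap.toMatrix_apply]
    fin_cases i <;> fin_cases j <;> simp [← hc, h1]
  have hdet : LinearMap.det f = c := by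
    rw [← LinearMap.det_toMatrix b, hM, Matrix.det_fin_two_of]; ring
  have htr : LinearMap.trace R V f = c + 1 := by
    rw [LinearMap.trace_eq_matrix_trace R b, hM, Matrix.trace_fin_two_of]
  exact ⟨by rw [htr, hdet]; ring, by rw [hdet, hc]⟩

/-- the kernel of `V → k ⊗ V` is `𝔪 V` (`V` free). -/
theorem h14_tmul_eq_zero {T : Type} [CommRing T] [IsLocalRing T] {V : Type} [AddCommGroup V]
    [Module T V] [Module.Free T V] (x : V)
    (h : (1 : IsLocalRing.ResidueField T) ⊗ₜ[T] x = 0) :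
    x ∈ IsLocalRing.maximalIdeal T • (⊤ : Submodule T V) := by
  classical
  let b := Module.Free.chooseBasis T V
  have h1 := congrArg (Algebra.TensorProduct.basis (IsLocalRing.ResidueField T) b).repr h
  rw [Algebra.TensorProduct.basis_repr_tmul, one_smul, map_zero] at h1
  have h2 : ∀ i, b.repr x i ∈ IsLocalRing.maximalIdeal T := by
    intro i
    have h3 := DFunLike.congr_fun h1 i
    rw [Finsupp.mapRange_apply, Finsupp.zero_apply, IsLocalRing.ResidueField.algebraMap_eq,
      IsLocalRing.residue_eq_zero_iff] at h3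
    exact h3
  rw [← b.linearCombination_repr x, Finsupp.linearCombination_apply]
  exact Submodule.sum_mem _ fun i _ => Submodule.smul_mem_smul (h2 i) Submodule.mem_top

/-- coordinates of an element of `𝔪 V` lie in `𝔪`. -/
theorem h14_repr_mem {T : Type} [CommRing T] [IsLocalRing T] {V : Type} [AddCommGroup V]
    [Module T V] {ι : Type*} (b : Module.Basis ι T V) (x : V)
    (hx : x ∈ IsLocalRing.maximalIdeal T • (⊤ : Submodule T V)) (i : ι) :
    b.repr x i ∈ IsLocalRing.maximalIdeal T := by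
  refine Submodule.smul_induction_on (p := fun x => b.repr x i ∈ IsLocalRing.maximalIdeal T) hx
    ?_ ?_
  · intro a ha w _
    rw [map_smul, Finsupp.smul_apply, smul_eq_mul]
    exact Ideal.mul_mem_right _ _ ha
  · intro y z hy hz
    rw [map_add, Finsupp.add_apply]
    exact Ideal.add_mem _ hy hz

/-! ### the residual representation -/

/-- **residual form**: ordinarity of a residual representation at `p`, read on inertia. -/
theorem h14_res_ord {k : Type} [Field k] (ρb : ResidualGaloisRep k) (p : ℕ)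
    (hres : (GaloisRepAdic.ofResidualGaloisRep ρb).IsOrdinaryAt p)
    (P : ValuationSubring Qb) (hP : P.LiesOverPrime p) (σ0 σ : Γℚ)
    (hσ0 : σ0 ∈ P.inertiaSubgroupIn ℚ) (hσ : σ ∈ P.inertiaSubgroupIn ℚ) :
    LinearMap.trace k ρb.V (ρb.ρ σ0) = 1 + LinearMap.det (ρb.ρ σ0) ∧
      (ρb.ρ σ0 - LinearMap.det (ρb.ρ σ0) • 1) * (ρb.ρ σ - 1) = 0 := by
  have hres' : ∃ L : Submodule k ρb.V,
      (∃ b : Module.Basis (Fin 2) k ρb.V, L = k ∙ b 0) ∧
      (∀ σ ∈ P.decompositionSubgroup ℚ, ∀ v ∈ L, ρb.ρ σ v ∈ L) ∧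
      (∀ σ ∈ P.inertiaSubgroupIn ℚ, ∀ v : ρb.V, ρb.ρ σ v - v ∈ L) := hres P hP
  obtain ⟨L, ⟨b, rfl⟩, hD, hI⟩ := hres'
  have hσ0D : σ0 ∈ P.decompositionSubgroup ℚ := by
    obtain ⟨x, -, rfl⟩ := Subgroup.mem_map.1 hσ0
    exact x.2
  have h0 := h14_line_trace_det b (ρb.ρ σ0)
    (hD σ0 hσ0D (b 0) (Submodule.mem_span_singleton_self _)) (hI σ0 hσ0 (b 1))
  refine ⟨h0.1, LinearMap.ext fun v => ?_⟩
  obtain ⟨t, ht⟩ := Submodule.mem_span_singleton.1 (hI σ hσ v)
  rw [Module.End.mul_apply, LinearMap.sub_apply (ρb.ρ σ) 1, Module.End.one_apply, ← ht,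
    map_smul, LinearMap.sub_apply, LinearMap.smul_apply, Module.End.one_apply, h0.2, sub_self,
    smul_zero, LinearMap.zero_apply]

/-! ### the congruences for `ρ` itself -/

/-- **operator form over `T`**: the residual ordinarity hypothesis of S33 gives, for `σ0, σ` in
the inertia group of a place over `p`, `trace ρ(σ0) ≡ 1 + det ρ(σ0)` and
`(ρ(σ0) - det ρ(σ0)) (ρ(σ) - 1) ≡ 0` modulo the maximal ideal. -/
theorem h14_res_ord_T {T : Type} [CommRing T] [IsLocalRing T] (ρ : GaloisRepAdic T) (p : ℕ)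
    (hres : (GaloisRepAdic.ofResidualGaloisRep ρ.residual).IsOrdinaryAt p)
    (P : ValuationSubring Qb) (hP : P.LiesOverPrime p) (σ0 σ : Γℚ)
    (hσ0 : σ0 ∈ P.inertiaSubgroupIn ℚ) (hσ : σ ∈ P.inertiaSubgroupIn ℚ) :
    LinearMap.trace T ρ.V (ρ.ρ σ0) - (1 + LinearMap.det (ρ.ρ σ0)) ∈ IsLocalRing.maximalIdeal T ∧
      ∀ v : ρ.V, ((ρ.ρ σ0 - LinearMap.det (ρ.ρ σ0) • 1) * (ρ.ρ σ - 1)) v ∈
        IsLocalRing.maximalIdeal T • (⊤ : Submodule T ρ.V) := by
  obtain ⟨htr, hrel⟩ := h14_res_ord ρ.residual p hres P hP σ0 σ hσ0 hσ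
  have hρb : ∀ τ : Γℚ, ρ.residual.ρ τ = (ρ.ρ τ).baseChange (IsLocalRing.ResidueField T) :=
    fun τ => rfl
  have hdet : LinearMap.det (ρ.residual.ρ σ0) =
      algebraMap T (IsLocalRing.ResidueField T) (LinearMap.det (ρ.ρ σ0)) := by
    rw [hρb]
    exact LinearMap.det_baseChange (ρ.ρ σ0)
  have htrace : LinearMap.trace (IsLocalRing.ResidueField T) ρ.residual.V (ρ.residual.ρ σ0) =
      algebraMap T (IsLocalRing.ResidueField T) (LinearMap.trace T ρ.V (ρ.ρ σ0)) := by
    rw [hρb]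
    exact LinearMap.trace_baseChange (ρ.ρ σ0) (IsLocalRing.ResidueField T)
  refine ⟨?_, fun v => ?_⟩
  · rw [htrace, hdet] at htr
    rw [← IsLocalRing.residue_eq_zero_iff, ← IsLocalRing.ResidueField.algebraMap_eq, map_sub,
      map_add, map_one, htr, sub_self]
  · apply h14_tmul_eq_zero
    have h1 : ((ρ.ρ σ0).baseChange (IsLocalRing.ResidueField T) -
          algebraMap T (IsLocalRing.ResidueField T) (LinearMap.det (ρ.ρ σ0)) •
            (1 : Module.End (IsLocalRing.ResidueField T)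
              (IsLocalRing.ResidueField T ⊗[T] ρ.V)))
        (((ρ.ρ σ).baseChange (IsLocalRing.ResidueField T))
            ((1 : IsLocalRing.ResidueField T) ⊗ₜ[T] v) -
          (1 : IsLocalRing.ResidueField T) ⊗ₜ[T] v) = 0 := by
      have h2 := LinearMap.congr_fun hrel ((1 : IsLocalRing.ResidueField T) ⊗ₜ[T] v)
      rw [hdet] at h2
      exact h2
    rw [LinearMap.baseChange_tmul, ← TensorProduct.tmul_sub, LinearMap.sub_apply,
      LinearMap.smul_apply, Module.End.one_apply, LinearMap.baseChange_tmul,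
      TensorProduct.smul_tmul', Algebra.algebraMap_eq_smul_one, smul_assoc, one_smul,
      TensorProduct.smul_tmul, ← TensorProduct.tmul_sub] at h1
    rw [Module.End.mul_apply, LinearMap.sub_apply (ρ.ρ σ) 1, Module.End.one_apply,
      LinearMap.sub_apply, LinearMap.smul_apply, Module.End.one_apply]
    exact h1

/-- **matrix form over `T`**: in any basis, the entries of
`(M(σ0) - det M(σ0)) (M(σ) - 1)` and `trace M(σ0) - (1 + det M(σ0))` lie in the maximal ideal. -/
theorem h14_res_ord_matrix {T : Type} [CommRing T] [IsLocalRing T] (ρ : GaloisRepAdic T) (p : ℕ)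
    (hres : (GaloisRepAdic.ofResidualGaloisRep ρ.residual).IsOrdinaryAt p)
    (P : ValuationSubring Qb) (hP : P.LiesOverPrime p) (σ0 σ : Γℚ)
    (hσ0 : σ0 ∈ P.inertiaSubgroupIn ℚ) (hσ : σ ∈ P.inertiaSubgroupIn ℚ)
    {ι : Type*} [Fintype ι] [DecidableEq ι] (b : Module.Basis ι T ρ.V) :
    (LinearMap.toMatrix b b (ρ.ρ σ0)).trace - (1 + (LinearMap.toMatrix b b (ρ.ρ σ0)).det) ∈
        IsLocalRing.maximalIdeal T ∧
      ∀ i j, ((LinearMap.toMatrix b b (ρ.ρ σ0) -
          (LinearMap.toMatrix b b (ρ.ρ σ0)).det • (1 : Matrix ι ι T)) *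
        (LinearMap.toMatrix b b (ρ.ρ σ) - 1)) i j ∈ IsLocalRing.maximalIdeal T := by
  obtain ⟨htr, hrel⟩ := h14_res_ord_T ρ p hres P hP σ0 σ hσ0 hσ
  refine ⟨?_, fun i j => ?_⟩
  · rw [← LinearMap.trace_eq_matrix_trace T b, LinearMap.det_toMatrix]
    exact htr
  · have h1 : (LinearMap.toMatrix b b (ρ.ρ σ0) -
          (LinearMap.toMatrix b b (ρ.ρ σ0)).det • (1 : Matrix ι ι T)) *
        (LinearMap.toMatrix b b (ρ.ρ σ) - 1) =
        LinearMap.toMatrix b b ((ρ.ρ σ0 - LinearMap.det (ρ.ρ σ0) • 1) * (ρ.ρ σ - 1)) := by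
      rw [LinearMap.toMatrix_mul, map_sub, map_sub, map_smul, LinearMap.toMatrix_one,
        LinearMap.det_toMatrix]
    rw [h1, LinearMap.toMatrix_apply]
    exact h14_repr_mem b _ (hrel (b j)) i

end Fermat.Agent.S33
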