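import Mathlib
import Fermat.Agent.S33.h15_ASInst

/-!
# S33 (N2): small interface lemmas for the Artin–Schreier model

* `h15_ASData.eq_of_y_r` : an `h15_ASData` is determined by its generator `y` and its nodes `r`
  (the polynomial `P` is forced, all other fields are propositions);
* `h15_asInst_y_div` : the generator of `h15_asInst` in the form `(θ - 1) / (ζ - 1)`;
* `h15_asInst_of_pow` : `h15_asInst` from the hypotheses in the shape
  `θ^p = algebraMap F F' u₀`, `u₀ = 1 + (ζ - 1)^p h`.
-/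

set_option autoImplicit false

noncomputable section

open Polynomial Module

namespace Fermat.Agent.S33

open Fermat.Agent.S34

variable {K F k Rb : Type*} [Field K] [Field F] [Algebra K F] [Field k] [CommRing Rb]
  [Algebra k Rb]

namespace h15_ASData

variable {D : h22_Lat K F k Rb} {F' : Type*} [Field F'] [Algebra F F'] {n : ℕ}

/-- the polynomial `P` is determined by the generator `y` -/
theorem P_eq_of_y (S S' : h15_ASData D F' n) (hy : S.y = S'.y) : S.P = S'.P := by
  have hdeg : (S.P - S'.P).natDegree < n := by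
    have h1 : (S.P - S'.P).degree < S.P.degree :=
      Polynomial.degree_sub_lt_left
        (by rw [Polynomial.degree_eq_natDegree S.monic.ne_zero,
          Polynomial.degree_eq_natDegree S'.monic.ne_zero, S.natDegree_eq, S'.natDegree_eq])
        S.monic.ne_zero (by rw [S.monic.leadingCoeff, S'.monic.leadingCoeff])
    by_cases h0 : S.P - S'.P = 0
    · rw [h0, Polynomial.natDegree_zero]
      exact S.pos
    · rw [Polynomial.degree_eq_natDegree h0, Polynomial.degree_eq_natDegree S.monic.ne_zero,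
        S.natDegree_eq] at h1
      exact_mod_cast h1
  have hev : S.ev (S.P - S'.P) = 0 := by
    rw [map_sub, S.ev_P, zero_sub, neg_eq_zero]
    have h1 : S.ev S'.P = Polynomial.eval₂ (h15_incl D F') S'.y S'.P := by
      rw [ev_apply, hy]
    rw [h1]
    exact S'.root
  exact sub_eq_zero.mp (S.eq_zero_of_ev hdeg hev)

/-- **An `h15_ASData` is determined by `y` and `r`.** -/
theorem eq_of_y_r (S S' : h15_ASData D F' n) (hy : S.y = S'.y) (hr : S.r = S'.r) : S = S' := by
  have hP := P_eq_of_y S S' hy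
  cases S
  cases S'
  simp only at hy hr hP
  subst hy hr hP
  rfl

end h15_ASData

section inst

variable (D : h22_Lat K F k Rb) (p : ℕ) [hp : Fact p.Prime] [CharP k p]
  {ζ : K} (hζ : IsPrimitiveRoot ζ p)
  {F' : Type*} [Field F'] [Algebra F F'] [Algebra K F'] [IsScalarTower K F F']

omit hp [CharP k p] in
theorem h15_asGen_div (ζ : K) (θ : F') :
    h15_asGen (F := F) ζ θ = (θ - 1) / algebraMap K F' (ζ - 1) := by
  unfold h15_asGen
  rw [div_eq_inv_mul, IsScalarTower.algebraMap_apply K F F', map_inv₀]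

variable (h : D.O) (hred : D.red h = 0) (θ : F')
  (hθ : θ ^ p - 1 = algebraMap K F' ((ζ - 1) ^ p) * algebraMap F F' (h : F))
  (hli : LinearIndependent F (fun j : Fin p => θ ^ (j : ℕ)))
  (hspan : ∀ f : F', ∃ c : Fin p → F, f = ∑ j, algebraMap F F' (c j) * θ ^ (j : ℕ))

/-- the generator of `h15_asInst` is `(θ - 1)/(ζ - 1)` -/
theorem h15_asInst_y_div :
    (h15_asInst D p hζ h hred θ hθ hli hspan).y = (θ - 1) / algebraMap K F' (ζ - 1) :=
  h15_asGen_div ζ θ

/-- any `h15_ASData` with generator `(θ - 1)/(ζ - 1)` and nodes `a ↦ a` is `h15_asInst` -/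
theorem h15_asInst_unique (S : h15_ASData D F' p)
    (hSy : S.y = (θ - 1) / algebraMap K F' (ζ - 1)) (hSr : ∀ a : Fin p, S.r a = ((a : ℕ) : k)) :
    S = h15_asInst D p hζ h hred θ hθ hli hspan :=
  h15_ASData.eq_of_y_r S _ (hSy.trans (h15_asInst_y_div D p hζ h hred θ hθ hli hspan).symm)
    (funext hSr)

end inst

section pow

variable (D : h22_Lat K F k Rb) (p : ℕ) [hp : Fact p.Prime] [CharP k p]
  {ζ : K} (hζ : IsPrimitiveRoot ζ p)
  {F' : Type*} [Field F'] [Algebra F F'] [Algebra K F'] [IsScalarTower K F F']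

omit hp [CharP k p] [Algebra k Rb] in
/-- conversion of the hypothesis shapes: `θ^p = u₀`, `u₀ = 1 + (ζ-1)^p h` -/
theorem h15_theta_pow_sub_one (ζ : K) (h : F) (θ : F') (u₀ : F) (hθ : θ ^ p = algebraMap F F' u₀)
    (hu : u₀ = 1 + algebraMap K F ((ζ - 1) ^ p) * h) :
    θ ^ p - 1 = algebraMap K F' ((ζ - 1) ^ p) * algebraMap F F' h := by
  rw [hθ, hu, map_add, map_one, map_mul, ← IsScalarTower.algebraMap_apply K F F']
  ring

include hζ in
/-- **AS-INST in the skeleton shape** (`h85sk_as_inst`). -/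
theorem h15_as_inst_exists (h : F) (hh : h ∈ D.O) (hhred : D.red ⟨h, hh⟩ = 0)
    (θ : F') (hθ : θ ^ p = algebraMap F F' (1 + algebraMap K F ((ζ - 1) ^ p) * h))
    (hli : LinearIndependent F (fun j : Fin p => θ ^ (j : ℕ)))
    (hspan : ∀ f : F', ∃ c : Fin p → F, f = ∑ j, algebraMap F F' (c j) * θ ^ (j : ℕ)) :
    ∃ S : h15_ASData D F' p, S.y = (θ - 1) / algebraMap K F' (ζ - 1) ∧
      ∀ a : Fin p, S.r a = ((a : ℕ) : k) :=
  ⟨h15_asInst D p hζ ⟨h, hh⟩ hhred θ (h15_theta_pow_sub_one p ζ h θ _ hθ rfl) hli hspan,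
    h15_asGen_div ζ θ, fun _ => rfl⟩

end pow

end Fermat.Agent.S33
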