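import Mathlib
import Fermat.Agent.S34.h65_ChartInst
import Fermat.Agent.S33.h35_LatIntClosed
import Fermat.Agent.S37.h88_HICore

/-!
# S33 (N2) BASE-EXPORT at the torsion prime (helper17)

For the canonical lattice `D := h87_D M p hpM A hA` of `F(Mp)` at a valuation ring `A` of `ℚ̄`
over `p ∤ M` (charted level: `5 ≤ p ∨ 2 ∣ M ∨ 3 ∣ M`), ONE existential statement providing the
BASE binders of the generic wild endgame (`h85_nmin` of the skeleton `h85_NMinSkel`, commit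
d0b399b), in its binder shapes and order:

* charts `xF` of `F(Mp)` and `xb` of the special fibre;
* FRAME `hG`, `hU`, `b`, `hb` (with respect to `xF`);
* `hinv`, `hic`, `hRk`, the uniformising constant `(p : ℚ̄)`;
* `D0`, `D2`, `N`, the chart unit `x` (`hx0 hxO hxinvO hxdiv`), `Qinf`, `hxb1 hxb2`, `hreg`;
* the nodes `(Sg, Φ)`, `hΦ`, `hSg`, `n0`, `hn0F`, `hn0b` and `hnode` (unfolded `h85sk_BaseNode`);
* for every `τ` in the inertia group of `A`, `g' := arithmeticGalois _ τ` satisfies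
  `hgO`, `hgred`, `hgD0`.

None of the S34 rows used here ties the residue characteristic to the exponent of the torsion, so
they apply verbatim at `q = p`.

* `h17_frame_of_eq` : the FRAME of `h87_D` for the chart `α(j) = j`;
* `h17_base_p` : the package.
-/

set_option autoImplicit false
set_option synthInstance.maxHeartbeats 400000
set_option linter.style.haveILetI false

noncomputable section

open AlgebraicCurve ModularCurve Module IntermediateField Polynomial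
open Fermat.Agent.S18 Fermat.Agent.S24 Fermat.Agent.S27 Fermat.Agent.S37 Fermat.Agent.S34

namespace Fermat.Agent.S33

local notation "Qb" => AlgebraicClosure ℚ

section Base

variable (M p : ℕ) [NeZero M] [NeZero p] [Fact p.Prime] (hpM : ¬ p ∣ M)
  (A : ValuationSubring Qb) (hA : A.LiesOverPrime p)

/-- The FRAME (`hG`, `hU`, `b`, `hb`) of `h87_D` with respect to any `x` equal to `α(j)`. -/
theorem h17_frame_of_eq (x : ↥(modularFunctionFieldBar (M * p)))
    (hx : heckeAlphaBar Qb M p (h59_jbar M) = x) :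
    (∀ P : Qb[X], aeval x P ∈ (h87_D M p hpM A hA).O ↔
        ∀ i, P.coeff i ∈ (h87_D M p hpM A hA).A) ∧
    (∀ P : Qb[X], aeval x P ≠ 0 → ∃ c : Qb, c ≠ 0 ∧
        algebraMap Qb ↥(modularFunctionFieldBar (M * p)) c * aeval x P ∈
          (h87_D M p hpM A hA).O ∧
        (algebraMap Qb ↥(modularFunctionFieldBar (M * p)) c * aeval x P)⁻¹ ∈
          (h87_D M p hpM A hA).O) ∧
    ∃ (ι : Type) (_ : Fintype ι)
      (b : Module.Basis ι Qb⟮x⟯ ↥(modularFunctionFieldBar (M * p))),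
      ∀ f : ↥(modularFunctionFieldBar (M * p)), f ∈ (h87_D M p hpM A hA).O ↔
        ∀ i, ((b.repr f i : Qb⟮x⟯) : ↥(modularFunctionFieldBar (M * p))) ∈
          (h87_D M p hpM A hA).O := by
  subst hx
  refine ⟨fun P => ?_, fun P hP => ?_, ?_⟩
  · exact h22_latOfPair_hG (h60_R1 M p hpM A hA) (h60_R2 M p hpM A hA) A (IsLocalRing.residue A)
      IsLocalRing.residue_surjective (h60_R1_A M p hpM A hA) (h60_R2_A M p hpM A hA)
      (h87_R1_resK M p hpM A hA) (h87_R2_resK M p hpM A hA)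
      (h22_R1_alpha_j M p hpM A hA).1 (h22_R2_alpha_j M p hpM A hA).1
      (h22_R1_alpha_j M p hpM A hA).2 (h22_R2_alpha_j M p hpM A hA).2 P
  · exact h22_latOfPair_hU (h60_R1 M p hpM A hA) (h60_R2 M p hpM A hA) A (IsLocalRing.residue A)
      IsLocalRing.residue_surjective (h60_R1_A M p hpM A hA) (h60_R2_A M p hpM A hA)
      (h87_R1_resK M p hpM A hA) (h87_R2_resK M p hpM A hA)
      (h22_R1_alpha_j M p hpM A hA).1 (h22_R2_alpha_j M p hpM A hA).1
      (h22_R1_alpha_j M p hpM A hA).2 (h22_R2_alpha_j M p hpM A hA).2 P hP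
  · obtain ⟨ι, hι, b, hb⟩ := h22_DMq_exists_frame M p hpM A hA
    exact ⟨ι, hι, b, fun f => (h87_D_mem M p hpM A hA).trans
      ((hb f).trans (forall_congr' fun _ => (h87_D_mem M p hpM A hA).symm))⟩

/-- **BASE-EXPORT at `q = p`**: the base binders of the generic wild endgame for the canonical
lattice `h87_D M p hpM A hA`. -/
theorem h17_base_p (hch : 5 ≤ p ∨ 2 ∣ M ∨ 3 ∣ M) :
    ∃ (xF : ↥(modularFunctionFieldBar (M * p)))
      (xb : ↥(modularFunctionFieldFullC (IsLocalRing.ResidueField A) M))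
      (ι : Type) (_ : Fintype ι)
      (b : Module.Basis ι Qb⟮xF⟯ ↥(modularFunctionFieldBar (M * p)))
      (D0 D2 : Divisor Qb ↥(modularFunctionFieldBar (M * p))) (N : ℕ)
      (x : ↥(modularFunctionFieldBar (M * p)))
      (Qinf : Place (IsLocalRing.ResidueField A)
        ↥(modularFunctionFieldFullC (IsLocalRing.ResidueField A) M))
      (Sg : Finset (Place (IsLocalRing.ResidueField A)
        ↥(modularFunctionFieldFullC (IsLocalRing.ResidueField A) M)))
      (Φ : Place (IsLocalRing.ResidueField A)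
          ↥(modularFunctionFieldFullC (IsLocalRing.ResidueField A) M) →
        Place (IsLocalRing.ResidueField A)
          ↥(modularFunctionFieldFullC (IsLocalRing.ResidueField A) M))
      (n0 : ℕ),
      -- charts
      h75_IsChart Qb xF ∧ h75_IsChart (IsLocalRing.ResidueField A) xb ∧
      -- FRAME: hG, hU, hb
      (∀ P : Qb[X], aeval xF P ∈ (h87_D M p hpM A hA).O ↔
        ∀ i, P.coeff i ∈ (h87_D M p hpM A hA).A) ∧
      (∀ P : Qb[X], aeval xF P ≠ 0 → ∃ c : Qb, c ≠ 0 ∧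
        algebraMap Qb ↥(modularFunctionFieldBar (M * p)) c * aeval xF P ∈
          (h87_D M p hpM A hA).O ∧
        (algebraMap Qb ↥(modularFunctionFieldBar (M * p)) c * aeval xF P)⁻¹ ∈
          (h87_D M p hpM A hA).O) ∧
      (∀ f : ↥(modularFunctionFieldBar (M * p)), f ∈ (h87_D M p hpM A hA).O ↔
        ∀ i, ((b.repr f i : Qb⟮xF⟯) : ↥(modularFunctionFieldBar (M * p))) ∈
          (h87_D M p hpM A hA).O) ∧
      -- hinv, hic, hRk, q := p, hq, hq0
      (∀ (f : ↥(modularFunctionFieldBar (M * p))) (hf : f ∈ (h87_D M p hpM A hA).O),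
        IsUnit ((h87_D M p hpM A hA).red ⟨f, hf⟩) → f⁻¹ ∈ (h87_D M p hpM A hA).O) ∧
      (∀ f : ↥(modularFunctionFieldBar (M * p)),
        IsIntegral (h87_D M p hpM A hA).O f → f ∈ (h87_D M p hpM A hA).O) ∧
      h39_RankOne (h87_D M p hpM A hA).A ∧
      (p : Qb) ∈ (h87_D M p hpM A hA).A.nonunits ∧ (p : Qb) ≠ 0 ∧
      -- hD0, hdegD0, hD2, hdisj, hN
      (∀ v, 0 ≤ D0 v) ∧ 1 ≤ Divisor.degree D0 ∧ (∀ v, 0 ≤ D2 v) ∧
      (∀ v, D0 v = 0 ∨ D2 v = 0) ∧ 1 ≤ N ∧
      -- hx0, hxO, hxinvO, hxdiv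
      x ≠ 0 ∧ x ∈ (h87_D M p hpM A hA).O ∧ x⁻¹ ∈ (h87_D M p hpM A hA).O ∧
      (∀ v : Place Qb ↥(modularFunctionFieldBar (M * p)), v.ord x = D2 v - (N : ℤ) * D0 v) ∧
      -- hxb1, hxb2
      Qinf.ord ((h87_D M p hpM A hA).redF x).1 ≤ -(N : ℤ) ∧
      Qinf.ord ((h87_D M p hpM A hA).redF x).2 ≤ -(N : ℤ) ∧
      -- hreg
      (∀ n, ∀ a ∈ h51_Rd (h87_D M p hpM A hA) (n • D0), a ∈ h20_P Qinf n) ∧
      -- hΦ, hSg, hn0F, hn0b
      Function.Injective Φ ∧ (∀ Q ∈ Sg, Q ≠ Qinf ∧ Φ Q ≠ Qinf) ∧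
      2 * h75_genus Qb xF ≤ n0 ∧
      2 * h75_genus (IsLocalRing.ResidueField A) xb + Sg.card ≤ n0 ∧
      -- hnode (= `h85sk_BaseNode D D0 Qinf Sg Φ n0`, unfolded)
      (∀ n, n0 ≤ n → ∀ a : ↥(modularFunctionFieldFullC (IsLocalRing.ResidueField A) M) ×
          ↥(modularFunctionFieldFullC (IsLocalRing.ResidueField A) M),
        a ∈ h51_Rd (h87_D M p hpM A hA) (n • D0) ↔
          (a ∈ h20_P Qinf n ∧ ∀ Q ∈ Sg, ∃ c : IsLocalRing.ResidueField A,
            h39_Val (Φ Q) a.1 c ∧ h39_Val Q a.2 c)) ∧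
      -- hgO, hgred, hgD0 for the inertia group
      (∀ τ : Qb ≃ₐ[ℚ] Qb, τ ∈ A.inertiaSubgroupIn ℚ →
        (∀ f, f ∈ (h87_D M p hpM A hA).O →
          arithmeticGalois (modularFunctionFieldFull (M * p)) τ • f ∈
            (h87_D M p hpM A hA).O) ∧
        (∀ f, f ∈ (h87_D M p hpM A hA).O →
          (h87_D M p hpM A hA).redF
              (arithmeticGalois (modularFunctionFieldFull (M * p)) τ • f) =
            (h87_D M p hpM A hA).redF f) ∧
        arithmeticGalois (modularFunctionFieldFull (M * p)) τ • D0 = D0) := by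
  classical
  haveI : IsAlgClosed (IsLocalRing.ResidueField A) := h19_residueField_isAlgClosed A
  haveI : CharP (IsLocalRing.ResidueField A) p := h19_residueField_charP A p hA
  have hON := h22_on_h87_D M p hpM A hA
  -- the two cusps of level `Mp` and the cusp of the special fibre
  obtain ⟨Pinf, hPinf⟩ := h10_exists_cusp (F := modularFunctionFieldBar (M * p))
    ⟨h59_jbar (M * p), h10_order_jbar (M * p)⟩
  obtain ⟨P0, hP0⟩ := h10_exists_cusp0 (h60_w M p hpM) (h60_w_alpha M p hpM)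
    (h60_w_beta M p hpM)
  have hQ : h10_IsCusp (modularFunctionFieldFullC (IsLocalRing.ResidueField A) M)
      (h11_placeInftyC (IsLocalRing.ResidueField A) M) := h84_isCusp_placeInftyC
  have hD0 : 0 ≤ (Finsupp.single Pinf (1 : ℤ) + Finsupp.single P0 (1 : ℤ) :
      Divisor Qb ↥(modularFunctionFieldBar (M * p))) := h10_D0_nonneg Pinf P0
  have hD0v : ∀ v, 0 ≤ (Finsupp.single Pinf (1 : ℤ) + Finsupp.single P0 (1 : ℤ) :
      Divisor Qb ↥(modularFunctionFieldBar (M * p))) v := fun v => hD0 v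
  have hdeg1 : ∀ P : Place Qb (modularFunctionFieldBar (M * p)), P.deg = 1 :=
    Fermat.Agent.S24.h73_deg_eq_one (Fermat.Agent.S37.h88_isFF (M * p))
  have hdeg : Divisor.degree (Finsupp.single Pinf (1 : ℤ) + Finsupp.single P0 (1 : ℤ) :
      Divisor Qb ↥(modularFunctionFieldBar (M * p))) = 2 := h10_D0_degree hdeg1 Pinf P0
  -- the rows
  have hreg := h17_int_mod M p hpM A hA hch hPinf hP0
  obtain ⟨n₁, hlead₁, hlead₂⟩ := h31_lead M p hpM A hA hch hPinf hP0
  have hB1 := h31_graph_D₁ M p hpM A hA hch hPinf hP0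
  have hB2 := h31_graph_D₂ M p hpM A hA hch hPinf hP0
  have hF := h84_isFrobChart_jk M p hpM A hA
  obtain ⟨y, hy, hpole⟩ := h84_exists_yChart M p hpM A hA hch
  have hfix := h84_frobPerm_placeInftyC hF
  -- (NODE): the ring `⋃ₙ red (L(n D0) ∩ O)` is cut out by node conditions
  have hBR : ∀ a ∈ h51_RdUnion (h87_D M p hpM A hA) _ hD0v,
      ∀ Q : Place (IsLocalRing.ResidueField A)
        ↥(modularFunctionFieldFullC (IsLocalRing.ResidueField A) M),
      Q ≠ h11_placeInftyC (IsLocalRing.ResidueField A) M →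
        a.1 ∈ Q.toValuationSubring ∧ a.2 ∈ Q.toValuationSubring := by
    rintro a ⟨n, ha⟩ Q hQ'
    obtain ⟨h1, h2⟩ := hreg n a ha
    exact ⟨(h51_reg_iff_Linf _ a.1).mpr ⟨n, h1⟩ Q hQ', (h51_reg_iff_Linf _ a.2).mpr ⟨n, h2⟩ Q hQ'⟩
  obtain ⟨Sg, hSg, hmem⟩ := h98_frob_nodes_off hF hy
    (h11_placeInftyC (IsLocalRing.ResidueField A) M) hpole hfix
    (h51_RdUnion (h87_D M p hpM A hA) _ hD0v) hBR hB1 hB2
  have hunion : ∀ a : ↥(modularFunctionFieldFullC (IsLocalRing.ResidueField A) M) ×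
        ↥(modularFunctionFieldFullC (IsLocalRing.ResidueField A) M),
      (∃ n : ℕ, a ∈ h51_Rd (h87_D M p hpM A hA)
        (n • (Finsupp.single Pinf (1 : ℤ) + Finsupp.single P0 (1 : ℤ)))) ↔
      (∃ n : ℕ, a.1 ∈ h16_Linf (h11_placeInftyC (IsLocalRing.ResidueField A) M) n ∧
          a.2 ∈ h16_Linf (h11_placeInftyC (IsLocalRing.ResidueField A) M) n) ∧
        ∀ Q ∈ Sg, ∃ c : IsLocalRing.ResidueField A,
          h39_Val (h96_frobPerm hF Q) a.1 c ∧ h39_Val Q a.2 c := by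
    intro a
    rw [← h51_mem_RdUnion (h87_D M p hpM A hA) _ hD0v a, hmem a]
    refine and_congr ?_ Iff.rfl
    constructor
    · intro hr
      obtain ⟨n1, h1⟩ := (h51_reg_iff_Linf _ a.1).mp (fun Q hQ' => (hr Q hQ').1)
      obtain ⟨n2, h2⟩ := (h51_reg_iff_Linf _ a.2).mp (fun Q hQ' => (hr Q hQ').2)
      exact ⟨max n1 n2, h16_Linf_mono _ (le_max_left n1 n2) h1,
        h16_Linf_mono _ (le_max_right n1 n2) h2⟩
    · rintro ⟨n, h1, h2⟩ Q hQ'
      exact ⟨(h51_reg_iff_Linf _ a.1).mpr ⟨n, h1⟩ Q hQ',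
        (h51_reg_iff_Linf _ a.2).mpr ⟨n, h2⟩ Q hQ'⟩
  -- (X-MOD): the chart unit
  obtain ⟨ν₀, hx⟩ := h10_xmod_inst M p hpM A hA hch hPinf hP0 hQ
  obtain ⟨x, E2, hx0, hxO, hxi, hE2, hdisj, hdivx, -, -, ho1, ho2⟩ :=
    hx (ν₀ + 1) (Nat.le_succ ν₀)
  have hc : 0 < (p + 1) * (ν₀ + 1) := Nat.mul_pos (Nat.succ_pos p) (Nat.succ_pos ν₀)
  -- the chart of `F(Mp)` and the frame
  have hxF : h75_IsChart Qb (h59_jbar (M * p)) := h22_isChart_jMq M p
  obtain ⟨hG, hU, ι, hι, b, hb⟩ :=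
    h17_frame_of_eq M p hpM A hA (h59_jbar (M * p)) (h88_alpha_jbar M p)
  -- (NODE) at every level `n ≥ n0`
  obtain ⟨n0, hn0⟩ : ∃ n0 : ℕ, n0 = max (max n₁ (h75_genus Qb (h59_jbar (M * p))))
      (max (2 * h75_genus Qb (h59_jbar (M * p)))
        (2 * h75_genus (IsLocalRing.ResidueField A) y + Sg.card)) := ⟨_, rfl⟩
  have hn0a : max n₁ (h75_genus Qb (h59_jbar (M * p))) ≤ n0 := by
    rw [hn0]; exact le_max_left _ _
  have hn0F : 2 * h75_genus Qb (h59_jbar (M * p)) ≤ n0 := by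
    rw [hn0]; exact le_trans (le_max_left _ _) (le_max_right _ _)
  have hn0b : 2 * h75_genus (IsLocalRing.ResidueField A) y + Sg.card ≤ n0 := by
    rw [hn0]; exact le_trans (le_max_right _ _) (le_max_right _ _)
  have hnodeP : ∀ n, n0 ≤ n →
      ∀ a : ↥(modularFunctionFieldFullC (IsLocalRing.ResidueField A) M) ×
        ↥(modularFunctionFieldFullC (IsLocalRing.ResidueField A) M),
      a ∈ h51_Rd (h87_D M p hpM A hA)
          (n • (Finsupp.single Pinf (1 : ℤ) + Finsupp.single P0 (1 : ℤ))) ↔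
        (a ∈ h20_P (h11_placeInftyC (IsLocalRing.ResidueField A) M) n ∧
          ∀ Q ∈ Sg, ∃ c : IsLocalRing.ResidueField A,
            h39_Val (h96_frobPerm hF Q) a.1 c ∧ h39_Val Q a.2 c) := by
    intro n hn a
    rw [h20_mem_P_Linf]
    exact h16_node_chart hxF hy (h87_D M p hpM A hA) hON
      (Finsupp.single Pinf (1 : ℤ) + Finsupp.single P0 (1 : ℤ)) hD0 hdeg
      (h11_placeInftyC (IsLocalRing.ResidueField A) M) hreg n₁ hlead₁ hlead₂
      (fun a => ∀ Q ∈ Sg, ∃ c : IsLocalRing.ResidueField A,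
        h39_Val (h96_frobPerm hF Q) a.1 c ∧ h39_Val Q a.2 c) hunion n (le_trans hn0a hn) a
  -- the remaining binder conversions
  have hp0 : (p : Qb) ≠ 0 := Nat.cast_ne_zero.mpr (NeZero.ne p)
  have hdeg1' : (1 : ℤ) ≤ Divisor.degree (Finsupp.single Pinf (1 : ℤ) +
      Finsupp.single P0 (1 : ℤ) : Divisor Qb ↥(modularFunctionFieldBar (M * p))) := by
    rw [hdeg]
    norm_num
  have hdisj' : ∀ v, (Finsupp.single Pinf (1 : ℤ) + Finsupp.single P0 (1 : ℤ) :
      Divisor Qb ↥(modularFunctionFieldBar (M * p))) v = 0 ∨ E2 v = 0 := by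
    intro v
    rcases hdisj v with h | h
    · left
      rw [Finsupp.smul_apply, nsmul_eq_mul] at h
      rcases mul_eq_zero.mp h with h | h
      · have h' : (p + 1) * (ν₀ + 1) = 0 := by exact_mod_cast h
        omega
      · exact h
    · right
      exact h
  have hxdiv' : ∀ v : Place Qb ↥(modularFunctionFieldBar (M * p)),
      v.ord x = E2 v - (((p + 1) * (ν₀ + 1) : ℕ) : ℤ) *
        (Finsupp.single Pinf (1 : ℤ) + Finsupp.single P0 (1 : ℤ) :
          Divisor Qb ↥(modularFunctionFieldBar (M * p))) v := by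
    intro v
    rw [hdivx v, Finsupp.smul_apply, nsmul_eq_mul]
  exact ⟨h59_jbar (M * p), y, ι, hι, b,
    Finsupp.single Pinf (1 : ℤ) + Finsupp.single P0 (1 : ℤ), E2, (p + 1) * (ν₀ + 1), x,
    h11_placeInftyC (IsLocalRing.ResidueField A) M, Sg, h96_frobPerm hF, n0,
    hxF, hy, hG, hU, hb, h87_D_hinv M p hpM A hA,
    fun _ hf => h35_lat_mem_of_isIntegral (h87_D M p hpM A hA) hf,
    h22_rankOne_h87_D M p hpM A hA, hA, hp0, hD0v, hdeg1', hE2, hdisj', hc,
    hx0, hxO, hxi, hxdiv', ho1.le, ho2.le,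
    fun n a ha => h20_mem_P_Linf.mpr (hreg n a ha),
    (h96_frobPerm hF).injective, fun Q hQS => ⟨(hSg Q hQS).1, (hSg Q hQS).2.1⟩,
    hn0F, hn0b, hnodeP,
    fun τ hτ => ⟨(h87_D_gal M p hpM A hA τ hτ).1, (h87_D_gal M p hpM A hA τ hτ).2,
      h10_D0_galois M p hpM τ hPinf hP0⟩⟩

end Base

end Fermat.Agent.S33

end
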