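import Mathlib

/-!
# S33, (N1) abstract core: the DEPTH lemma in ideal form (helper18)

Let `S` be an `R`-algebra with an `R`-basis `1, t, …, t^(p-1)` such that `t ^ p ≡ j` modulo
`p S` (e.g. `S = R[Y]/(g)`, `g ≡ Y ^ p - j` modulo `p`; Kronecker's congruence).  Then for every
`y : S` the characteristic polynomial of multiplication by `y` is `≡ X ^ p - const` modulo `p`,
and hence

  `Algebra.norm R (1 + c • y) - 1 ∈ (p * c, c ^ p)`   for every `c : R`.

No valuation, no completeness, `R` an arbitrary commutative ring.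
-/

set_option autoImplicit false

open Polynomial Matrix

namespace Fermat.Agent.S33

section Companion

variable {R : Type*} [CommRing R]

/-- The companion matrix of `X ^ p - j`. -/
def h18_comp (p : ℕ) (j : R) : Matrix (Fin p) (Fin p) R :=
  Matrix.of fun r i : Fin p =>
    if (i : ℕ) + 1 = (r : ℕ) then 1 else if (i : ℕ) + 1 = p ∧ (r : ℕ) = 0 then j else 0

theorem h18_comp_apply (p : ℕ) (j : R) (r i : Fin p) :
    h18_comp p j r i =
      if (i : ℕ) + 1 = (r : ℕ) then 1 else if (i : ℕ) + 1 = p ∧ (r : ℕ) = 0 then j else 0 := rfl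

theorem h18_comp_map {R' : Type*} [CommRing R'] (φ : R →+* R') (p : ℕ) (j : R) :
    (h18_comp p j).map φ = h18_comp p (φ j) := by
  ext r i
  simp only [Matrix.map_apply, h18_comp_apply]
  split_ifs <;> simp

/-- Entries of the powers of the companion matrix, up to the `p`-th power. -/
theorem h18_comp_pow_apply (p : ℕ) (j : R) (k : ℕ) (hk : k ≤ p) (r i : Fin p) :
    (h18_comp p j ^ k) r i =
      if (i : ℕ) + k = (r : ℕ) then 1 else if (i : ℕ) + k = (r : ℕ) + p then j else 0 := by
  induction k generalizing i with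
  | zero =>
    have hr := r.2
    have hi := i.2
    rw [pow_zero, Matrix.one_apply]
    by_cases h : r = i
    · subst h; simp
    · have h' : ¬ ((i : ℕ) = (r : ℕ)) := fun e => h (Fin.ext e.symm)
      rw [if_neg h, add_zero, if_neg h', if_neg (by omega)]
  | succ k ih =>
    have hr := r.2
    have hi := i.2
    rw [pow_succ, Matrix.mul_apply]
    by_cases hi1 : (i : ℕ) + 1 < p
    · -- only `s = i + 1` contributes
      rw [Finset.sum_eq_single (⟨(i : ℕ) + 1, hi1⟩ : Fin p)]
      · rw [ih (by omega), h18_comp_apply]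
        simp only [if_true, mul_one]
        have e1 : ((i : ℕ) + 1 + k = (r : ℕ)) ↔ ((i : ℕ) + (k + 1) = (r : ℕ)) := by omega
        have e2 : ((i : ℕ) + 1 + k = (r : ℕ) + p) ↔ ((i : ℕ) + (k + 1) = (r : ℕ) + p) := by
          omega
        simp only [e1, e2]
      · intro s _ hs
        rw [h18_comp_apply]
        have h1 : ¬ ((i : ℕ) + 1 = (s : ℕ)) := fun e => hs (Fin.ext e.symm)
        rw [if_neg h1, if_neg (by omega), mul_zero]
      · intro h; exact absurd (Finset.mem_univ _) h
    · -- `i = p - 1`: only `s = 0` contributes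
      have hp0 : 0 < p := by omega
      rw [Finset.sum_eq_single (⟨0, hp0⟩ : Fin p)]
      · rw [ih (by omega), h18_comp_apply]
        have h1 : ¬ ((i : ℕ) + 1 = ((⟨0, hp0⟩ : Fin p) : ℕ)) := by simp
        have h2 : (i : ℕ) + 1 = p ∧ ((⟨0, hp0⟩ : Fin p) : ℕ) = 0 := ⟨by omega, rfl⟩
        rw [if_neg h1, if_pos h2]
        have h3 : ¬ ((i : ℕ) + (k + 1) = (r : ℕ)) := by omega
        rw [if_neg h3]
        by_cases h4 : k = (r : ℕ)
        · have h5 : (((⟨0, hp0⟩ : Fin p) : ℕ) + k = (r : ℕ)) := by simp [h4]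
          rw [if_pos h5, one_mul, if_pos (by omega)]
        · have h5 : ¬ (((⟨0, hp0⟩ : Fin p) : ℕ) + k = (r : ℕ)) := by simp; omega
          have h6 : ¬ (((⟨0, hp0⟩ : Fin p) : ℕ) + k = (r : ℕ) + p) := by simp; omega
          rw [if_neg h5, if_neg h6, zero_mul, if_neg (by omega)]
      · intro s _ hs
        rw [h18_comp_apply]
        have h1 : ¬ ((i : ℕ) + 1 = (s : ℕ)) := by have := s.2; omega
        have h2 : ¬ ((i : ℕ) + 1 = p ∧ (s : ℕ) = 0) := fun h => hs (Fin.ext h.2)
        rw [if_neg h1, if_neg h2, mul_zero]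
      · intro h; exact absurd (Finset.mem_univ _) h

theorem h18_comp_pow_self (p : ℕ) (j : R) : h18_comp p j ^ p = j • (1 : Matrix (Fin p) (Fin p) R) := by
  ext r i
  have hr := r.2
  have hi := i.2
  rw [h18_comp_pow_apply p j p le_rfl, Matrix.smul_apply, Matrix.one_apply, if_neg (by omega)]
  by_cases h : r = i
  · subst h; simp
  · have h' : ¬ ((i : ℕ) + p = (r : ℕ) + p) := fun e => h (Fin.ext (by omega))
    rw [if_neg h, if_neg h', smul_zero]

/-- The matrix of multiplication by `∑ aᵢ tⁱ` on `R[t]/(t ^ p - j)`. -/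
def h18_mat (p : ℕ) (a : Fin p → R) (j : R) : Matrix (Fin p) (Fin p) R :=
  ∑ i : Fin p, a i • h18_comp p j ^ (i : ℕ)

theorem h18_mat_map {R' : Type*} [CommRing R'] (φ : R →+* R') (p : ℕ) (a : Fin p → R) (j : R) :
    (h18_mat p a j).map φ = h18_mat p (fun i => φ (a i)) (φ j) := by
  unfold h18_mat
  have h1 : ∀ N : Matrix (Fin p) (Fin p) R, N.map φ = φ.mapMatrix N := fun _ => rfl
  rw [h1, map_sum]
  refine Finset.sum_congr rfl fun i _ => ?_
  rw [← h18_comp_map φ p j, h1 (h18_comp p j), ← map_pow]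
  ext r s
  simp [RingHom.mapMatrix_apply, Matrix.smul_apply]

end Companion

section Field

variable {K : Type*} [Field K] [IsAlgClosed K] (p : ℕ) [Fact p.Prime] [CharP K p]

/-- In characteristic `p`: `(∑ aᵢ Cⁱ) ^ p = ∑ aᵢ ^ p j ^ i`. -/
theorem h18_mat_pow {R : Type*} [CommRing R] (p : ℕ) [Fact p.Prime] [CharP R p]
    (a : Fin p → R) (j : R) :
    h18_mat p a j ^ p = (∑ i : Fin p, a i ^ p * j ^ (i : ℕ)) • (1 : Matrix (Fin p) (Fin p) R) := by
  -- compute in the commutative ring `R[X]`
  have hf : (∑ i : Fin p, Polynomial.C (a i) * X ^ (i : ℕ)) ^ p =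
      ∑ i : Fin p, Polynomial.C (a i ^ p) * (X ^ p) ^ (i : ℕ) := by
    rw [sum_pow_char]
    refine Finset.sum_congr rfl fun i _ => ?_
    rw [mul_pow, ← Polynomial.C_pow, ← pow_mul, ← pow_mul, mul_comm (i : ℕ) p]
  have h1 : h18_mat p a j =
      Polynomial.aeval (h18_comp p j) (∑ i : Fin p, Polynomial.C (a i) * X ^ (i : ℕ)) := by
    unfold h18_mat
    rw [map_sum]
    refine Finset.sum_congr rfl fun i _ => ?_
    rw [map_mul, Polynomial.aeval_C, map_pow, Polynomial.aeval_X, Algebra.algebraMap_eq_smul_one,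
      smul_mul_assoc, one_mul]
  rw [h1, ← map_pow, hf, map_sum, Finset.sum_smul]
  refine Finset.sum_congr rfl fun i _ => ?_
  simp only [map_mul, Polynomial.aeval_C, map_pow, Polynomial.aeval_X, h18_comp_pow_self,
    Algebra.algebraMap_eq_smul_one]
  rw [_root_.smul_pow, one_pow, _root_.smul_pow, one_pow, smul_mul_assoc, one_mul, smul_smul]

include p in
/-- Over an algebraically closed field of characteristic `p`. -/
theorem h18_charpoly_field (a : Fin p → K) (j : K) :
    (h18_mat p a j).charpoly = X ^ p - Polynomial.C (∑ i : Fin p, a i ^ p * j ^ (i : ℕ)) := by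
  have hp : p.Prime := Fact.out
  set M := h18_mat p a j with hM
  set c : K := ∑ i : Fin p, a i ^ p * j ^ (i : ℕ) with hc
  have hMp : M ^ p = c • (1 : Matrix (Fin p) (Fin p) K) := h18_mat_pow p a j
  have hmonic : M.charpoly.Monic := Matrix.charpoly_monic M
  have hdeg : M.charpoly.natDegree = p := by
    rw [Matrix.charpoly_natDegree_eq_dim, Fintype.card_fin]
  -- every root `λ` satisfies `λ ^ p = c`
  have hroot : ∀ l : K, l ∈ M.charpoly.roots → l ^ p = c := by
    intro l hl
    have h0 : M.charpoly.eval l = 0 := (Polynomial.mem_roots hmonic.ne_zero).1 hl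
    rw [Matrix.eval_charpoly] at h0
    obtain ⟨v, hv0, hv⟩ := Matrix.exists_mulVec_eq_zero_iff.2 h0
    have hMv : M *ᵥ v = l • v := by
      rw [Matrix.sub_mulVec] at hv
      have h2 : (Matrix.scalar (Fin p) l) *ᵥ v = l • v := by
        ext r
        simp [Matrix.scalar_apply, Matrix.mulVec, dotProduct, Matrix.diagonal_apply]
      rw [h2] at hv
      exact (sub_eq_zero.1 hv).symm
    have hpow : ∀ k : ℕ, (M ^ k) *ᵥ v = l ^ k • v := by
      intro k
      induction k with
      | zero => simp
      | succ k ih =>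
        rw [pow_succ, ← Matrix.mulVec_mulVec, hMv, Matrix.mulVec_smul, ih, smul_smul, pow_succ,
          mul_comm]
    have h3 := hpow p
    rw [hMp, Matrix.smul_mulVec, Matrix.one_mulVec] at h3
    obtain ⟨r, hr⟩ : ∃ r, v r ≠ 0 := by
      by_contra hcon
      push Not at hcon
      exact hv0 (funext hcon)
    have h4 := congrFun h3 r
    simp only [Pi.smul_apply, smul_eq_mul] at h4
    exact (mul_right_cancel₀ hr h4).symm
  have hsplit : M.charpoly.Splits := IsAlgClosed.splits _
  have hcard : Multiset.card M.charpoly.roots = p := by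
    exact (Polynomial.splits_iff_card_roots.1 hsplit).trans hdeg
  obtain ⟨l0, hl0⟩ : ∃ l0, l0 ∈ M.charpoly.roots := by
    apply Multiset.card_pos_iff_exists_mem.1
    rw [hcard]; exact hp.pos
  have hall : ∀ l ∈ M.charpoly.roots, l = l0 := by
    intro l hl
    have h1 := hroot l hl
    have h2 := hroot l0 hl0
    exact frobenius_inj K p (by simp only [frobenius_def]; rw [h1, h2])
  have hrep : M.charpoly.roots = Multiset.replicate p l0 :=
    Multiset.eq_replicate.2 ⟨hcard, hall⟩
  have hprod := Polynomial.Splits.eq_prod_roots_of_monic hsplit hmonic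
  rw [hrep, Multiset.map_replicate, Multiset.prod_replicate] at hprod
  rw [hprod, sub_pow_char, ← Polynomial.C_pow, hroot l0 hl0]

end Field

section Universal

/-- Any commutative ring of characteristic `p` (by specialisation from the universal case
`𝔽_p[a₀, …, a_(p-1), j]`, which embeds into an algebraically closed field). -/
theorem h18_charpoly_charP (p : ℕ) [Fact p.Prime] {R : Type*} [CommRing R] [CharP R p]
    (a : Fin p → R) (j : R) :
    (h18_mat p a j).charpoly = X ^ p - Polynomial.C (∑ i : Fin p, a i ^ p * j ^ (i : ℕ)) := by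
  -- the universal ring
  let U := MvPolynomial (Option (Fin p)) (ZMod p)
  let aU : Fin p → U := fun i => MvPolynomial.X (some i)
  let jU : U := MvPolynomial.X none
  have hU : (h18_mat p aU jU).charpoly =
      X ^ p - Polynomial.C (∑ i : Fin p, aU i ^ p * jU ^ (i : ℕ)) := by
    let K := AlgebraicClosure (FractionRing U)
    let ψ : U →+* K := (algebraMap (FractionRing U) K).comp (algebraMap U (FractionRing U))
    have hψ : Function.Injective ψ :=
      (algebraMap (FractionRing U) K).injective.comp (IsFractionRing.injective U (FractionRing U))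
    haveI : CharP K p := charP_of_injective_ringHom hψ p
    apply Polynomial.map_injective ψ hψ
    have hc : ψ (∑ i : Fin p, aU i ^ p * jU ^ (i : ℕ)) =
        ∑ i : Fin p, ψ (aU i) ^ p * ψ jU ^ (i : ℕ) := by
      simp only [map_sum, map_mul, map_pow]
    rw [← Matrix.charpoly_map, h18_mat_map, h18_charpoly_field p, Polynomial.map_sub,
      Polynomial.map_pow, Polynomial.map_X, Polynomial.map_C, hc]
  -- specialise
  let φ : U →+* R := MvPolynomial.eval₂Hom (ZMod.castHom (dvd_refl p) R) (fun o => o.elim j a)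
  have h1 := congrArg (Polynomial.map φ) hU
  rw [← Matrix.charpoly_map, h18_mat_map] at h1
  have ha' : ∀ i, φ (aU i) = a i := by
    intro i
    show MvPolynomial.eval₂Hom _ _ (MvPolynomial.X (some i)) = a i
    rw [MvPolynomial.eval₂Hom_X']
    rfl
  have ha : (fun i => φ (aU i)) = a := funext ha'
  have hj : φ jU = j := by
    show MvPolynomial.eval₂Hom _ _ (MvPolynomial.X none) = j
    rw [MvPolynomial.eval₂Hom_X']
    rfl
  have hc : φ (∑ i : Fin p, aU i ^ p * jU ^ (i : ℕ)) = ∑ i : Fin p, a i ^ p * j ^ (i : ℕ) := by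
    simp only [map_sum, map_mul, map_pow, ha', hj]
  rw [ha, hj] at h1
  rw [h1, Polynomial.map_sub, Polynomial.map_pow, Polynomial.map_X, Polynomial.map_C, hc]

end Universal

section Main

variable {R S : Type*} [CommRing R] [CommRing S] [Algebra R S] (p : ℕ) [Fact p.Prime]
  (b : Module.Basis (Fin p) R S) (t : S) (hb : ∀ i : Fin p, b i = t ^ (i : ℕ))
  (j : R) (ht : ∃ w : S, t ^ p = algebraMap R S j + (p : S) * w)

include hb ht in
/-- Modulo `p`, the matrix of multiplication by `t` is the companion matrix of `X ^ p - j`. -/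
theorem h18_leftMul_gen_map {R' : Type*} [CommRing R'] (π : R →+* R') (hπ : π (p : R) = 0) :
    (Algebra.leftMulMatrix b t).map π = h18_comp p (π j) := by
  obtain ⟨w, hw⟩ := ht
  have hp0 : 0 < p := (Fact.out : p.Prime).pos
  ext r i
  have hr := r.2
  have hi := i.2
  rw [Matrix.map_apply, Algebra.leftMulMatrix_eq_repr_mul, h18_comp_apply, hb i, ← pow_succ']
  by_cases hi1 : (i : ℕ) + 1 < p
  · have e : t ^ ((i : ℕ) + 1) = b ⟨(i : ℕ) + 1, hi1⟩ := (hb ⟨(i : ℕ) + 1, hi1⟩).symm
    rw [e, Module.Basis.repr_self, Finsupp.single_apply]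
    by_cases h : (i : ℕ) + 1 = (r : ℕ)
    · rw [if_pos h, if_pos (Fin.ext h), map_one]
    · rw [if_neg h, if_neg (fun e' => h (congrArg Fin.val e')), if_neg (by omega), map_zero]
  · have hip : (i : ℕ) + 1 = p := by omega
    have e0 : (1 : S) = b ⟨0, hp0⟩ := by rw [hb]; simp
    have h1 : t ^ ((i : ℕ) + 1) = j • b ⟨0, hp0⟩ + (p : R) • w := by
      rw [hip, hw, ← e0, Algebra.smul_def, mul_one, Algebra.smul_def, map_natCast]
    rw [h1, map_add, map_smul, map_smul, Module.Basis.repr_self, Finsupp.add_apply,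
      Finsupp.smul_apply, Finsupp.smul_apply, Finsupp.single_apply, map_add, smul_eq_mul,
      smul_eq_mul, map_mul, map_mul, hπ, zero_mul, add_zero]
    have hne : ¬ ((i : ℕ) + 1 = (r : ℕ)) := by omega
    rw [if_neg hne]
    by_cases h : (r : ℕ) = 0
    · rw [if_pos (Fin.ext h.symm : (⟨0, hp0⟩ : Fin p) = r), if_pos ⟨hip, h⟩, map_one, mul_one]
    · rw [if_neg (fun e' : (⟨0, hp0⟩ : Fin p) = r => h (congrArg Fin.val e').symm),
        if_neg (fun h' => h h'.2), map_zero, mul_zero]

include hb ht in
/-- Modulo `p`, the matrix of multiplication by `y` is `h18_mat`. -/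
theorem h18_leftMul_map {R' : Type*} [CommRing R'] (π : R →+* R') (hπ : π (p : R) = 0) (y : S) :
    (Algebra.leftMulMatrix b y).map π = h18_mat p (fun i => π (b.repr y i)) (π j) := by
  have hy : y = ∑ i : Fin p, b.repr y i • t ^ (i : ℕ) := by
    conv_lhs => rw [← b.sum_repr y]
    exact Finset.sum_congr rfl fun i _ => by rw [hb i]
  have h1 : Algebra.leftMulMatrix b y =
      ∑ i : Fin p, b.repr y i • (Algebra.leftMulMatrix b t) ^ (i : ℕ) := by
    conv_lhs => rw [hy]
    rw [map_sum]
    exact Finset.sum_congr rfl fun i _ => by rw [map_smul, map_pow]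
  rw [h1]
  unfold h18_mat
  have hm : ∀ N : Matrix (Fin p) (Fin p) R, N.map π = π.mapMatrix N := fun _ => rfl
  rw [hm, map_sum]
  refine Finset.sum_congr rfl fun i _ => ?_
  have e1 : π.mapMatrix ((Algebra.leftMulMatrix b t) ^ (i : ℕ)) = h18_comp p (π j) ^ (i : ℕ) := by
    rw [map_pow]
    congr 1
    exact h18_leftMul_gen_map p b t hb j ht π hπ
  rw [← e1]
  ext r s
  simp [RingHom.mapMatrix_apply, Matrix.smul_apply]

include hb ht in
/-- **Middle coefficients of the characteristic polynomial are divisible by `p`.** -/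
theorem h18_charpoly_coeff_dvd (y : S) (i : ℕ) (h0 : 0 < i) (hi : i < p) :
    (p : R) ∣ (Algebra.leftMulMatrix b y).charpoly.coeff i := by
  by_cases hpu : IsUnit (p : R)
  · exact hpu.dvd
  haveI : CharP (R ⧸ Ideal.span {(p : R)}) p := CharP.quotient R p hpu
  have hπ : Ideal.Quotient.mk (Ideal.span {(p : R)}) (p : R) = 0 :=
    Ideal.Quotient.eq_zero_iff_mem.2 (Ideal.mem_span_singleton_self _)
  have h1 := h18_leftMul_map p b t hb j ht (Ideal.Quotient.mk (Ideal.span {(p : R)})) hπ y
  have h2 := Matrix.charpoly_map (Algebra.leftMulMatrix b y)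
    (Ideal.Quotient.mk (Ideal.span {(p : R)}))
  rw [h1, h18_charpoly_charP] at h2
  have h3 := congrArg (fun f => f.coeff i) h2
  simp only [Polynomial.coeff_map, Polynomial.coeff_sub, Polynomial.coeff_X_pow,
    Polynomial.coeff_C] at h3
  rw [if_neg (by omega), if_neg (by omega), sub_zero] at h3
  exact Ideal.mem_span_singleton.1 (Ideal.Quotient.eq_zero_iff_mem.1 h3.symm)

include hb ht in
/-- **DEPTH lemma, ideal form.** `N(1 + c y) ≡ 1` modulo `(p c, c ^ p)`. -/
theorem h18_norm_one_add (c : R) (y : S) :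
    Algebra.norm R (1 + c • y) - 1 ∈ Ideal.span {(p : R) * c, c ^ p} := by
  rcases subsingleton_or_nontrivial R with hR | hR
  · have h0 : Algebra.norm R (1 + c • y) - 1 = 0 := Subsingleton.elim _ _
    rw [h0]
    exact Ideal.zero_mem _
  set L := Algebra.leftMulMatrix b y with hL
  have hdet : Algebra.norm R (1 + c • y) = (1 + c • L).det := by
    rw [Algebra.norm_eq_matrix_det b, map_add, map_one, map_smul]
  have hrev : (1 + c • L).det = L.charpolyRev.eval (-c) := by
    rw [Matrix.charpolyRev, ← Polynomial.coe_evalRingHom, RingHom.map_det]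
    congr 1
    ext r s
    simp [RingHom.mapMatrix_apply, Matrix.one_apply, Matrix.sub_apply, Matrix.smul_apply,
      apply_ite]
    exact mul_comm _ _
  have hχm : L.charpoly.Monic := Matrix.charpoly_monic L
  have hχd : L.charpoly.natDegree = p := by
    rw [Matrix.charpoly_natDegree_eq_dim, Fintype.card_fin]
  rw [hdet, hrev, ← Matrix.reverse_charpoly,
    Polynomial.eval_eq_sum_range' (n := p + 1)
      (lt_of_le_of_lt (Polynomial.reverse_natDegree_le _) (by omega)),
    Finset.sum_range_succ']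
  have h0 : L.charpoly.reverse.coeff 0 * (-c) ^ 0 = 1 := by
    rw [Polynomial.coeff_reverse, hχd, Polynomial.revAt_le (Nat.zero_le p), Nat.sub_zero,
      pow_zero, mul_one]
    have h1 := hχm.coeff_natDegree
    rw [hχd] at h1
    exact h1
  rw [h0, add_sub_cancel_right]
  refine Ideal.sum_mem _ fun k hk => ?_
  rw [Finset.mem_range] at hk
  rw [Polynomial.coeff_reverse, hχd, Polynomial.revAt_le (by omega)]
  by_cases hkp : k + 1 = p
  · rw [hkp, Nat.sub_self, neg_pow]
    exact Ideal.mul_mem_left _ _ (Ideal.mul_mem_left _ _ (Ideal.subset_span (by simp)))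
  · obtain ⟨d, hd⟩ := h18_charpoly_coeff_dvd p b t hb j ht y (p - (k + 1)) (by omega) (by omega)
    have e : L.charpoly.coeff (p - (k + 1)) * (-c) ^ (k + 1) =
        (-(d * (-c) ^ k)) * ((p : R) * c) := by
      rw [hL, hd]; ring
    rw [e]
    exact Ideal.mul_mem_left _ _ (Ideal.subset_span (by simp))

end Main

end Fermat.Agent.S33
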