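import Mathlib
import Fermat.Agent.S33.h18_Depth

/-!
# S33, (N1) abstract core: the DEPTH lemma modulo a divisor `c₀` of `p` (helper18)

Same as `h18_Depth`, but the congruence `t ^ p ≡ j` is only assumed modulo `c₀ S` for some
`c₀ ∣ p` (this is what the two reductions of the modular pair give without the modular
polynomial).  Conclusion:

  `Algebra.norm R (1 + c • y) - 1 ∈ (c₀ * c, c ^ p)`   for every `c : R`.
-/

set_option autoImplicit false

open Polynomial Matrix

namespace Fermat.Agent.S33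

section MainC

variable {R S : Type*} [CommRing R] [CommRing S] [Algebra R S] (p : ℕ) [Fact p.Prime]
  (b : Module.Basis (Fin p) R S) (t : S) (hb : ∀ i : Fin p, b i = t ^ (i : ℕ))
  (j : R) (c₀ : R) (ht : ∃ w : S, t ^ p = algebraMap R S j + c₀ • w)

include hb ht in
/-- Modulo `c₀`, the matrix of multiplication by `t` is the companion matrix of `X ^ p - j`. -/
theorem h18c_leftMul_gen_map {R' : Type*} [CommRing R'] (π : R →+* R') (hπ : π c₀ = 0) :
    (Algebra.leftMulMatrix b t).map π = h18_comp p (π j) := by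
  obtain ⟨w, hw⟩ := ht
  have hp0 : 0 < p := (Fact.out : p.Prime).pos
  ext r i
  have hr := r.2
  have hi := i.2
  rw [Matrix.map_apply, Algebra.leftMulMatrix_eq_repr_mul, h18_comp_apply, hb i, ← pow_succ']
  by_cases hi1 : (i : ℕ) + 1 < p
  · have e : t ^ ((i : ℕ) + 1) = b ⟨(i : ℕ) + 1, hi1⟩ := (hb ⟨(i : ℕ) + 1, hi1⟩).symm
    rw [e, Module.Basis.repr_self, Finsupp.single_apply]
    by_cases h : (i : ℕ) + 1 = (r : ℕ)
    · rw [if_pos h, if_pos (Fin.ext h), map_one]
    · rw [if_neg h, if_neg (fun e' => h (congrArg Fin.val e')), if_neg (by omega), map_zero]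
  · have hip : (i : ℕ) + 1 = p := by omega
    have e0 : (1 : S) = b ⟨0, hp0⟩ := by rw [hb]; simp
    have h1 : t ^ ((i : ℕ) + 1) = j • b ⟨0, hp0⟩ + c₀ • w := by
      rw [hip, hw, ← e0, Algebra.smul_def j, mul_one]
    rw [h1, map_add, map_smul, map_smul, Module.Basis.repr_self, Finsupp.add_apply,
      Finsupp.smul_apply, Finsupp.smul_apply, Finsupp.single_apply, map_add, smul_eq_mul,
      smul_eq_mul, map_mul, map_mul, hπ, zero_mul, add_zero]
    have hne : ¬ ((i : ℕ) + 1 = (r : ℕ)) := by omega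
    rw [if_neg hne]
    by_cases h : (r : ℕ) = 0
    · rw [if_pos (Fin.ext h.symm : (⟨0, hp0⟩ : Fin p) = r), if_pos ⟨hip, h⟩, map_one, mul_one]
    · rw [if_neg (fun e' : (⟨0, hp0⟩ : Fin p) = r => h (congrArg Fin.val e').symm),
        if_neg (fun h' => h h'.2), map_zero, mul_zero]

include hb ht in
/-- Modulo `c₀`, the matrix of multiplication by `y` is `h18_mat`. -/
theorem h18c_leftMul_map {R' : Type*} [CommRing R'] (π : R →+* R') (hπ : π c₀ = 0) (y : S) :
    (Algebra.leftMulMatrix b y).map π = h18_mat p (fun i => π (b.repr y i)) (π j) := by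
  have hy : y = ∑ i : Fin p, b.repr y i • t ^ (i : ℕ) := by
    conv_lhs => rw [← b.sum_repr y]
    exact Finset.sum_congr rfl fun i _ => by rw [hb i]
  have h1 : Algebra.leftMulMatrix b y =
      ∑ i : Fin p, b.repr y i • (Algebra.leftMulMatrix b t) ^ (i : ℕ) := by
    conv_lhs => rw [hy]
    rw [map_sum]
    exact Finset.sum_congr rfl fun i _ => by rw [map_smul, map_pow]
  rw [h1]
  unfold h18_mat
  have hm : ∀ N : Matrix (Fin p) (Fin p) R, N.map π = π.mapMatrix N := fun _ => rfl
  rw [hm, map_sum]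
  refine Finset.sum_congr rfl fun i _ => ?_
  have e1 : π.mapMatrix ((Algebra.leftMulMatrix b t) ^ (i : ℕ)) = h18_comp p (π j) ^ (i : ℕ) := by
    rw [map_pow]
    congr 1
    exact h18c_leftMul_gen_map p b t hb j c₀ ht π hπ
  rw [← e1]
  ext r s
  simp [RingHom.mapMatrix_apply, Matrix.smul_apply]

include hb ht in
/-- **Middle coefficients of the characteristic polynomial are divisible by `c₀`** (`c₀ ∣ p`). -/
theorem h18c_charpoly_coeff_dvd (hc₀ : c₀ ∣ (p : R)) (y : S) (i : ℕ) (h0 : 0 < i) (hi : i < p) :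
    c₀ ∣ (Algebra.leftMulMatrix b y).charpoly.coeff i := by
  by_cases hcu : IsUnit c₀
  · exact hcu.dvd
  have hne : Ideal.span {c₀} ≠ ⊤ := by
    intro h
    exact hcu (Ideal.span_singleton_eq_top.1 h)
  haveI : Nontrivial (R ⧸ Ideal.span {c₀}) := Ideal.Quotient.nontrivial_iff.2 hne
  have hπ : Ideal.Quotient.mk (Ideal.span {c₀}) c₀ = 0 :=
    Ideal.Quotient.eq_zero_iff_mem.2 (Ideal.mem_span_singleton_self _)
  have hp0 : ((p : ℕ) : R ⧸ Ideal.span {c₀}) = 0 := by
    obtain ⟨d, hd⟩ := hc₀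
    have : Ideal.Quotient.mk (Ideal.span {c₀}) (p : R) = 0 := by
      rw [hd, map_mul, hπ, zero_mul]
    simpa using this
  haveI : CharP (R ⧸ Ideal.span {c₀}) p :=
    (CharP.charP_iff_prime_eq_zero (Fact.out : p.Prime)).2 hp0
  have h1 := h18c_leftMul_map p b t hb j c₀ ht (Ideal.Quotient.mk (Ideal.span {c₀})) hπ y
  have h2 := Matrix.charpoly_map (Algebra.leftMulMatrix b y)
    (Ideal.Quotient.mk (Ideal.span {c₀}))
  rw [h1, h18_charpoly_charP] at h2
  have h3 := congrArg (fun f => f.coeff i) h2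
  simp only [Polynomial.coeff_map, Polynomial.coeff_sub, Polynomial.coeff_X_pow,
    Polynomial.coeff_C] at h3
  rw [if_neg (by omega), if_neg (by omega), sub_zero] at h3
  exact Ideal.mem_span_singleton.1 (Ideal.Quotient.eq_zero_iff_mem.1 h3.symm)

include hb ht in
/-- **DEPTH lemma modulo `c₀`.** `N(1 + c y) ≡ 1` modulo `(c₀ c, c ^ p)`. -/
theorem h18c_norm_one_add (hc₀ : c₀ ∣ (p : R)) (c : R) (y : S) :
    Algebra.norm R (1 + c • y) - 1 ∈ Ideal.span {c₀ * c, c ^ p} := by
  rcases subsingleton_or_nontrivial R with hR | hR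
  · have h0 : Algebra.norm R (1 + c • y) - 1 = 0 := Subsingleton.elim _ _
    rw [h0]
    exact Ideal.zero_mem _
  set L := Algebra.leftMulMatrix b y with hL
  have hdet : Algebra.norm R (1 + c • y) = (1 + c • L).det := by
    rw [Algebra.norm_eq_matrix_det b, map_add, map_one, map_smul]
  have hrev : (1 + c • L).det = L.charpolyRev.eval (-c) := by
    rw [Matrix.charpolyRev, ← Polynomial.coe_evalRingHom, RingHom.map_det]
    congr 1
    ext r s
    simp [RingHom.mapMatrix_apply, Matrix.one_apply, Matrix.sub_apply, Matrix.smul_apply,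
      apply_ite]
    exact mul_comm _ _
  have hχm : L.charpoly.Monic := Matrix.charpoly_monic L
  have hχd : L.charpoly.natDegree = p := by
    rw [Matrix.charpoly_natDegree_eq_dim, Fintype.card_fin]
  rw [hdet, hrev, ← Matrix.reverse_charpoly,
    Polynomial.eval_eq_sum_range' (n := p + 1)
      (lt_of_le_of_lt (Polynomial.reverse_natDegree_le _) (by omega)),
    Finset.sum_range_succ']
  have h0 : L.charpoly.reverse.coeff 0 * (-c) ^ 0 = 1 := by
    rw [Polynomial.coeff_reverse, hχd, Polynomial.revAt_le (Nat.zero_le p), Nat.sub_zero,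
      pow_zero, mul_one]
    have h1 := hχm.coeff_natDegree
    rw [hχd] at h1
    exact h1
  rw [h0, add_sub_cancel_right]
  refine Ideal.sum_mem _ fun k hk => ?_
  rw [Finset.mem_range] at hk
  rw [Polynomial.coeff_reverse, hχd, Polynomial.revAt_le (by omega)]
  by_cases hkp : k + 1 = p
  · rw [hkp, Nat.sub_self, neg_pow]
    exact Ideal.mul_mem_left _ _ (Ideal.mul_mem_left _ _ (Ideal.subset_span (by simp)))
  · obtain ⟨d, hd⟩ := h18c_charpoly_coeff_dvd p b t hb j c₀ ht hc₀ y (p - (k + 1)) (by omega)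
      (by omega)
    have e : L.charpoly.coeff (p - (k + 1)) * (-c) ^ (k + 1) =
        (-(d * (-c) ^ k)) * (c₀ * c) := by
      rw [hL, hd]; ring
    rw [e]
    exact Ideal.mul_mem_left _ _ (Ideal.subset_span (by simp))

include hb ht in
/-- **DEPTH, one-constant form.** If `t ^ p ≡ j` mod `c` and `c ∣ p`, then
`N(1 + c ^ (k+1) y) ≡ 1` mod `c ^ (k+2)`. -/
theorem h18c_norm_depth (hc₀ : c₀ ∣ (p : R)) (k : ℕ) (y : S) :
    ∃ r : R, Algebra.norm R (1 + c₀ ^ (k + 1) • y) = 1 + c₀ ^ (k + 2) * r := by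
  have h := h18c_norm_one_add p b t hb j c₀ ht hc₀ (c₀ ^ (k + 1)) y
  have hp2 : 2 ≤ p := (Fact.out : p.Prime).two_le
  have hle : Ideal.span {c₀ * c₀ ^ (k + 1), (c₀ ^ (k + 1)) ^ p} ≤ Ideal.span {c₀ ^ (k + 2)} := by
    rw [Ideal.span_le]
    intro z hz
    rcases hz with rfl | hz
    · exact Ideal.mem_span_singleton.2 ⟨1, by ring⟩
    · rw [Set.mem_singleton_iff] at hz
      subst hz
      refine Ideal.mem_span_singleton.2 ?_
      rw [← pow_mul]
      exact pow_dvd_pow _ (by nlinarith)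
  obtain ⟨r, hr⟩ := Ideal.mem_span_singleton.1 (hle h)
  exact ⟨r, by rw [← hr]; ring⟩

end MainC

end Fermat.Agent.S33
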