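import Mathlib

/-!
# S33, (N1) abstract core: the norm iteration (helper18)

`R` a commutative ring, `c` nilpotent, `Θ : R →* R` multiplicative and depth-raising
(`r ≡ 1 mod c^(k+1) ⟹ Θ r ≡ 1 mod c^(k+2)`).  If `ρ, σ ≡ 1 mod c` satisfy

  `ρ * Θ σ = A ^ N`,  `σ * Θ ρ = B ^ N`   (`0 < N`),

then `ρ` and `σ` are `N`-th powers.  (`ρ = w^N · Θ²(ρ)` and `Θ²` pushes `ρ` to `1`.)
-/

set_option autoImplicit false

namespace Fermat.Agent.S33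

section Iter

variable {R : Type*} [CommRing R]

/-- The iterates of `Θ ∘ Θ` as monoid homomorphisms. -/
def h18_iterHom (Θ : R →* R) : ℕ → (R →* R)
  | 0 => MonoidHom.id R
  | K + 1 => (Θ.comp Θ).comp (h18_iterHom Θ K)

theorem h18_iterHom_succ (Θ : R →* R) (K : ℕ) (r : R) :
    h18_iterHom Θ (K + 1) r = Θ (Θ (h18_iterHom Θ K r)) := rfl

theorem h18_iterHom_depth (c : R) (Θ : R →* R)
    (hΘ : ∀ (k : ℕ) (r : R), (∃ z, r = 1 + c ^ (k + 1) * z) → ∃ z, Θ r = 1 + c ^ (k + 2) * z)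
    (ρ : R) (hρ : ∃ z, ρ = 1 + c * z) (K : ℕ) :
    ∃ z, h18_iterHom Θ K ρ = 1 + c ^ (2 * K + 1) * z := by
  induction K with
  | zero =>
    obtain ⟨z, hz⟩ := hρ
    exact ⟨z, by simpa [h18_iterHom] using hz⟩
  | succ K ih =>
    have h1 := hΘ (2 * K) _ ih
    have h2 := hΘ (2 * K + 1) _ h1
    obtain ⟨z, hz⟩ := h2
    refine ⟨z, ?_⟩
    rw [h18_iterHom_succ, hz]
    have e : 2 * K + 1 + 2 = 2 * (K + 1) + 1 := by ring
    rw [e]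

theorem h18_isUnit_of_one_add (c : R) (hc : IsNilpotent c) (ρ : R) (hρ : ∃ z, ρ = 1 + c * z) :
    IsUnit ρ := by
  obtain ⟨z, rfl⟩ := hρ
  have hn : IsNilpotent (c * z) := (Commute.all c z).isNilpotent_mul_right hc
  exact hn.isUnit_one_add

/-- **The norm iteration.** -/
theorem h18_iter (c : R) (hc : IsNilpotent c) (Θ : R →* R)
    (hΘ : ∀ (k : ℕ) (r : R), (∃ z, r = 1 + c ^ (k + 1) * z) → ∃ z, Θ r = 1 + c ^ (k + 2) * z)
    (N : ℕ) (hN : 0 < N) (ρ σ A B : R) (hρ : ∃ z, ρ = 1 + c * z) (hσ : ∃ z, σ = 1 + c * z)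
    (h1 : ρ * Θ σ = A ^ N) (h2 : σ * Θ ρ = B ^ N) :
    (∃ ρ₀, ρ = ρ₀ ^ N) ∧ ∃ σ₀, σ = σ₀ ^ N := by
  have hρu : IsUnit ρ := h18_isUnit_of_one_add c hc ρ hρ
  have hσu : IsUnit σ := h18_isUnit_of_one_add c hc σ hσ
  have hBu : IsUnit B := by
    have : IsUnit (B ^ N) := by
      rw [← h2]
      exact hσu.mul (hρu.map Θ)
    exact (isUnit_pow_iff (Nat.pos_iff_ne_zero.1 hN)).1 this
  -- the basic relation `ρ * Θ(B)^N = A^N * Θ²(ρ)`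
  have hrel : ρ * Θ B ^ N = A ^ N * Θ (Θ ρ) := by
    have e1 : Θ σ * Θ (Θ ρ) = Θ B ^ N := by
      rw [← map_mul, h2, map_pow]
    calc ρ * Θ B ^ N = ρ * (Θ σ * Θ (Θ ρ)) := by rw [e1]
      _ = (ρ * Θ σ) * Θ (Θ ρ) := by ring
      _ = A ^ N * Θ (Θ ρ) := by rw [h1]
  -- iterate
  have hK : ∀ K : ℕ, ∃ AK BK : R, IsUnit BK ∧ ρ * BK ^ N = AK ^ N * h18_iterHom Θ K ρ := by
    intro K
    induction K with
    | zero => exact ⟨1, 1, isUnit_one, by simp [h18_iterHom]⟩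
    | succ K ih =>
      obtain ⟨AK, BK, hBK, hKrel⟩ := ih
      have h3 := congrArg (h18_iterHom Θ K) hrel
      rw [map_mul, map_mul, map_pow, map_pow] at h3
      refine ⟨AK * h18_iterHom Θ K A, BK * h18_iterHom Θ K (Θ B),
        hBK.mul ((hBu.map Θ).map (h18_iterHom Θ K)), ?_⟩
      rw [h18_iterHom_succ]
      have h4 : h18_iterHom Θ K (Θ (Θ ρ)) = Θ (Θ (h18_iterHom Θ K ρ)) := by
        clear h3 hKrel
        induction K with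
        | zero => rfl
        | succ K ih2 => rw [h18_iterHom_succ, h18_iterHom_succ, ih2]
      rw [h4] at h3
      calc ρ * (BK * h18_iterHom Θ K (Θ B)) ^ N
          = (ρ * BK ^ N) * h18_iterHom Θ K (Θ B) ^ N := by ring
        _ = AK ^ N * (h18_iterHom Θ K ρ * h18_iterHom Θ K (Θ B) ^ N) := by rw [hKrel]; ring
        _ = AK ^ N * (h18_iterHom Θ K A ^ N * Θ (Θ (h18_iterHom Θ K ρ))) := by rw [h3]
        _ = (AK * h18_iterHom Θ K A) ^ N * Θ (Θ (h18_iterHom Θ K ρ)) := by ring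
  obtain ⟨D, hD⟩ := hc
  obtain ⟨AK, BK, hBK, hKrel⟩ := hK D
  obtain ⟨z, hz⟩ := h18_iterHom_depth c Θ hΘ ρ hρ D
  have hone : h18_iterHom Θ D ρ = 1 := by
    rw [hz]
    have : c ^ (2 * D + 1) = 0 := by
      have e : 2 * D + 1 = D + (D + 1) := by ring
      rw [e, pow_add, hD, zero_mul]
    rw [this, zero_mul, add_zero]
  rw [hone, mul_one] at hKrel
  obtain ⟨bu, rfl⟩ := hBK
  have hρ0 : ρ = (AK * ((bu⁻¹ : Rˣ) : R)) ^ N := by
    calc ρ = ρ * ((bu : R) ^ N * ((bu⁻¹ : Rˣ) : R) ^ N) := by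
          rw [← mul_pow, Units.mul_inv, one_pow, mul_one]
      _ = (ρ * (bu : R) ^ N) * ((bu⁻¹ : Rˣ) : R) ^ N := by ring
      _ = (AK * ((bu⁻¹ : Rˣ) : R)) ^ N := by rw [hKrel]; ring
  refine ⟨⟨_, hρ0⟩, ?_⟩
  set ρ₀ := AK * ((bu⁻¹ : Rˣ) : R) with hρ₀
  have hρ₀u : IsUnit ρ₀ := by
    have : IsUnit (ρ₀ ^ N) := by rw [← hρ0]; exact hρu
    exact (isUnit_pow_iff (Nat.pos_iff_ne_zero.1 hN)).1 this
  obtain ⟨tu, htu⟩ := hρ₀u.map Θ
  have h5 : σ * (tu : R) ^ N = B ^ N := by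
    rw [htu, ← map_pow, ← hρ0]
    exact h2
  refine ⟨B * ((tu⁻¹ : Rˣ) : R), ?_⟩
  calc σ = σ * ((tu : R) ^ N * ((tu⁻¹ : Rˣ) : R) ^ N) := by
        rw [← mul_pow, Units.mul_inv, one_pow, mul_one]
    _ = (σ * (tu : R) ^ N) * ((tu⁻¹ : Rˣ) : R) ^ N := by ring
    _ = (B * ((tu⁻¹ : Rˣ) : R)) ^ N := by rw [h5]; ring

end Iter

end Fermat.Agent.S33
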