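import Mathlib
import Fermat.Agent.S33.h18_DepthC
import Fermat.Agent.S33.h18_N1Iter

/-!
# S33, (N1) abstract core: the two-sided split (helper18)

`S` an `R`-algebra, `w` an involution of `S`, `α := algebraMap R S`, `β := w ∘ α`,
`s := α j`, `t := β j`.  Assume `S` is free over `R` on `1, t, …, t^p`, `c` is a nilpotent constant
with `c ∣ p`, the weak Kronecker congruence `(t - s^p)(t^p - s) ∈ c S` and `j^(p^2) - j` a unit.

Then `S ≅ R × R` as rings (via `π₁` and `π₁ ∘ w`), `R` is free of rank `p` over itself via the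
'Frobenius lift' `π₁ ∘ w ∘ α`, and

  `N(u) = π₁ u * Θ (π₁ (w u))`,  `N(w u) = π₁ (w u) * Θ (π₁ u)`

for a multiplicative depth-raising `Θ`.  Consequently (`h18_split_pow`): if `u ≡ 1 mod c` and
`N(u)`, `N(w u)` are `p^n`-th powers in `R`, then `u` is a `p^n`-th power in `S`.
-/

set_option autoImplicit false

open Polynomial

namespace Fermat.Agent.S33

section General

/-- The norm of a product algebra is the product of the norms. -/
theorem h18_norm_prod {R A B : Type*} [CommRing R] [CommRing A] [CommRing B] [Algebra R A]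
    [Algebra R B] [Module.Free R A] [Module.Free R B] [Module.Finite R A] [Module.Finite R B]
    (x : A × B) : Algebra.norm R x = Algebra.norm R x.1 * Algebra.norm R x.2 := by
  rw [Algebra.norm_apply, Algebra.norm_apply, Algebra.norm_apply, ← LinearMap.det_prodMap]
  exact congrArg LinearMap.det (LinearMap.ext fun y => by ext <;> simp)

/-- Nakayama for a nilpotent element: `M = V + c M` implies `V = M`. -/
theorem h18_nak {R M : Type*} [CommRing R] [AddCommGroup M] [Module R M] (c : R)
    (hc : IsNilpotent c) (V : Submodule R M)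
    (h : ∀ m : M, ∃ v ∈ V, ∃ z : M, m = v + c • z) (m : M) : m ∈ V := by
  have key : ∀ (k : ℕ) (m : M), ∃ v ∈ V, ∃ z : M, m = v + c ^ k • z := by
    intro k
    induction k with
    | zero => exact fun m => ⟨0, V.zero_mem, m, by simp⟩
    | succ k ih =>
      intro m
      obtain ⟨v, hv, z, hz⟩ := ih m
      obtain ⟨v', hv', z', hz'⟩ := h z
      refine ⟨v + c ^ k • v', V.add_mem hv (V.smul_mem _ hv'), z', ?_⟩
      rw [hz, hz', smul_add, smul_smul, ← pow_succ, add_assoc]
  obtain ⟨D, hD⟩ := hc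
  obtain ⟨v, hv, z, hz⟩ := key D m
  rw [hz, hD, zero_smul, add_zero]
  exact hv

end General

section Idem

variable {R S : Type*} [CommRing R] [CommRing S] [Algebra R S] (p : ℕ) [Fact p.Prime]
  (w : S →+* S) (hww : ∀ f, w (w f) = f)
  (b : Module.Basis (Fin (p + 1)) R S) (j : R)
  (hb : ∀ i : Fin (p + 1), b i = w (algebraMap R S j) ^ (i : ℕ))
  (c : R) (hcw : w (algebraMap R S c) = algebraMap R S c) (hcp : c ∣ (p : R))
  (hcn : IsNilpotent c)
  (hK : ∃ z : S, (w (algebraMap R S j) - algebraMap R S j ^ p) *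
      (w (algebraMap R S j) ^ p - algebraMap R S j) = c • z)
  (hU : IsUnit (j ^ (p ^ 2) - j))

include hww hb hcw hcp hcn hK hU in
/-- The idempotent of the first component (where `t ≡ s^p`). -/
theorem h18_split_idem :
    ∃ e : S, IsIdempotentElem e ∧ w e = 1 - e ∧
      (∃ z : S, (w (algebraMap R S j) - algebraMap R S j ^ p) * e = c • z) ∧
      (∃ z : S, (w (algebraMap R S j) ^ p - algebraMap R S j) * (1 - e) = c • z) ∧
      IsUnit (b.repr e (Fin.last p)) := by
  have hp : p.Prime := Fact.out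
  set s : S := algebraMap R S j with hs
  set t : S := w s with ht
  set x : S := t - s ^ p with hx
  set y : S := t ^ p - s with hy
  obtain ⟨δu, hδu⟩ := hU
  set di : S := algebraMap R S ((δu⁻¹ : Rˣ) : R) with hdi
  set δ : S := s ^ (p ^ 2) - s with hδ
  have hδdi : δ * di = 1 := by
    rw [hδ, hs, hdi, ← map_pow, ← map_sub, ← hδu, ← map_mul, Units.mul_inv, map_one]
  set Ic : Ideal S := Ideal.span {algebraMap R S c} with hIc
  have hcmem : algebraMap R S c ∈ Ic := Ideal.mem_span_singleton_self _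
  have hsm : ∀ z : S, c • z ∈ Ic := fun z => by
    rw [Algebra.smul_def]; exact Ic.mul_mem_right _ hcmem
  have hpmem : (p : S) ∈ Ic := by
    obtain ⟨d, hd⟩ := hcp
    have : (p : S) = algebraMap R S c * algebraMap R S d := by
      rw [← map_mul, ← hd, map_natCast]
    rw [this]
    exact Ic.mul_mem_right _ hcmem
  have hwIc : ∀ f ∈ Ic, w f ∈ Ic := by
    intro f hf
    obtain ⟨g, rfl⟩ := Ideal.mem_span_singleton.1 hf
    rw [map_mul, hcw]
    exact Ic.mul_mem_right _ hcmem
  have hnilIc : ∀ f ∈ Ic, IsNilpotent f := by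
    intro f hf
    obtain ⟨g, rfl⟩ := Ideal.mem_span_singleton.1 hf
    exact (Commute.all _ g).isNilpotent_mul_right (hcn.map (algebraMap R S))
  have hxy : x * y ∈ Ic := by
    obtain ⟨z, hz⟩ := hK
    rw [hz]; exact hsm z
  -- Frobenius: `y ≡ x^p + δ`
  have hyx : y - (x ^ p + δ) ∈ Ic := by
    obtain ⟨r, hr⟩ := exists_add_pow_prime_eq hp x (s ^ p)
    have e1 : t = x + s ^ p := by rw [hx]; ring
    have e2 : y - (x ^ p + δ) = (p : S) * (x * s ^ p * r) := by
      rw [hy, hδ, e1, hr]; ring
    rw [e2]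
    exact Ic.mul_mem_right _ hpmem
  set e0 : S := y * di with he0
  have hmk : ∀ f g : S, f - g ∈ Ic → Ideal.Quotient.mk Ic f = Ideal.Quotient.mk Ic g :=
    fun f g h => Ideal.Quotient.eq.2 h
  have hmk0 : ∀ f : S, f ∈ Ic → Ideal.Quotient.mk Ic f = 0 :=
    fun f h => Ideal.Quotient.eq_zero_iff_mem.2 h
  have hp1 : p = (p - 1) + 1 := (Nat.sub_add_cancel hp.one_le).symm
  have hxp : x ^ p * y ∈ Ic := by
    have : x ^ p * y = x ^ (p - 1) * (x * y) := by
      conv_lhs => rw [hp1, pow_succ]
      ring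
    rw [this]
    exact Ic.mul_mem_left _ hxy
  have h1e0 : (1 - e0) + di * x ^ p ∈ Ic := by
    have : (1 - e0) + di * x ^ p = -(di * (y - (x ^ p + δ))) + (1 - δ * di) := by
      rw [he0]; ring
    rw [this, hδdi, sub_self, add_zero]
    exact Ic.neg_mem (Ic.mul_mem_left _ hyx)
  have hidem0 : e0 * e0 - e0 ∈ Ic := by
    have : e0 * e0 - e0 = -(e0 * ((1 - e0) + di * x ^ p)) + di * di * (x ^ p * y) := by
      rw [he0]; ring
    rw [this]
    exact Ic.add_mem (Ic.neg_mem (Ic.mul_mem_left _ h1e0)) (Ic.mul_mem_left _ hxp)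
  have hker : ∀ f ∈ RingHom.ker (Ideal.Quotient.mk Ic), IsNilpotent f := by
    intro f hf
    rw [Ideal.mk_ker] at hf
    exact hnilIc f hf
  obtain ⟨e, he, hee⟩ := exists_isIdempotentElem_eq_of_ker_isNilpotent (Ideal.Quotient.mk Ic) hker
    (Ideal.Quotient.mk Ic e0) ⟨e0, rfl⟩ (by
      show Ideal.Quotient.mk Ic e0 * Ideal.Quotient.mk Ic e0 = Ideal.Quotient.mk Ic e0
      rw [← map_mul]
      exact hmk _ _ hidem0)
  have hee0 : e - e0 ∈ Ic := Ideal.Quotient.eq.1 hee
  -- `x e ∈ Ic`
  have hxe : x * e ∈ Ic := by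
    have : x * e = x * (e - e0) + di * (x * y) := by rw [he0]; ring
    rw [this]
    exact Ic.add_mem (Ic.mul_mem_left _ hee0) (Ic.mul_mem_left _ hxy)
  -- `y (1 - e) ∈ Ic`
  have hye : y * (1 - e) ∈ Ic := by
    have : y * (1 - e) = -(y * (e - e0)) + y * ((1 - e0) + di * x ^ p) - di * (x ^ p * y) := by
      ring
    rw [this]
    exact Ic.sub_mem (Ic.add_mem (Ic.neg_mem (Ic.mul_mem_left _ hee0)) (Ic.mul_mem_left _ h1e0))
      (Ic.mul_mem_left _ hxp)
  -- `w e = 1 - e`
  have hwt : w t = s := by rw [ht, hww]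
  have hwx : w x = -y := by rw [hx, hy, map_sub, map_pow, hwt, ← ht]; ring
  have hwy : w y = -x := by rw [hx, hy, map_sub, map_pow, hwt, ← ht]; ring
  have hwe_idem : IsIdempotentElem (w e) := by
    show w e * w e = w e
    rw [← map_mul, he.eq]
  have h1 : e * w e = 0 := by
    have hid : IsIdempotentElem (e * w e) := he.mul hwe_idem
    refine hid.eq_zero_of_isNilpotent (hnilIc _ ?_)
    have hwee0 : w e - w e0 ∈ Ic := by
      rw [← map_sub]; exact hwIc _ hee0
    have : e * w e = (e - e0) * w e + e0 * (w e - w e0) - di * w di * (x * y) := by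
      rw [he0, map_mul, hwy]; ring
    rw [this]
    exact Ic.sub_mem (Ic.add_mem (Ic.mul_mem_right _ hee0) (Ic.mul_mem_left _ hwee0))
      (Ic.mul_mem_left _ hxy)
  have h2 : (1 - e) * (1 - w e) = 0 := by
    have hid : IsIdempotentElem ((1 - e) * (1 - w e)) := he.one_sub.mul hwe_idem.one_sub
    refine hid.eq_zero_of_isNilpotent (hnilIc _ ?_)
    -- `1 - e ≡ -di x^p`, `1 - w e ≡ -w(di) (-y)^p`
    have ha : (1 - e) + di * x ^ p ∈ Ic := by
      have : (1 - e) + di * x ^ p = -(e - e0) + ((1 - e0) + di * x ^ p) := by ring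
      rw [this]
      exact Ic.add_mem (Ic.neg_mem hee0) h1e0
    have hb' : (1 - w e) + w di * (-y) ^ p ∈ Ic := by
      have : (1 - w e) + w di * (-y) ^ p = w ((1 - e) + di * x ^ p) := by
        rw [map_add, map_sub, map_one, map_mul, map_pow, hwx]
      rw [this]
      exact hwIc _ ha
    have hxyp : x ^ p * (-y) ^ p ∈ Ic := by
      rw [← mul_pow]
      have : (x * -y) ^ p = (x * -y) ^ (p - 1) * (-(x * y)) := by
        conv_lhs => rw [hp1, pow_succ]
        ring
      rw [this]
      exact Ic.mul_mem_left _ (Ic.neg_mem hxy)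
    have : (1 - e) * (1 - w e) = ((1 - e) + di * x ^ p) * (1 - w e)
        - di * x ^ p * ((1 - w e) + w di * (-y) ^ p) + di * w di * (x ^ p * (-y) ^ p) := by ring
    rw [this]
    exact Ic.add_mem (Ic.sub_mem (Ic.mul_mem_right _ ha) (Ic.mul_mem_left _ hb'))
      (Ic.mul_mem_left _ hxyp)
  have hwe : w e = 1 - e := by
    have : (1 - e) * (1 - w e) = 1 - e - w e + e * w e := by ring
    rw [this, h1, add_zero] at h2
    exact (sub_eq_zero.1 h2).symm
  -- the last coordinate of `e` is a unit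
  have hunit : IsUnit (b.repr e (Fin.last p)) := by
    obtain ⟨g, hg⟩ := Ideal.mem_span_singleton.1 hee0
    have hlast : b (Fin.last p) = t ^ p := by rw [hb]; simp [ht, hs]
    have hzero : b 0 = 1 := by rw [hb]; simp
    have he0' : e0 = ((δu⁻¹ : Rˣ) : R) • b (Fin.last p) - (((δu⁻¹ : Rˣ) : R) * j) • b 0 := by
      rw [hlast, hzero, he0, hy, hdi, hs, Algebra.smul_def, Algebra.smul_def, map_mul]
      ring
    have he' : e = e0 + c • g := by
      rw [Algebra.smul_def, ← hg]; ring
    have hne : (Fin.last p) ≠ (0 : Fin (p + 1)) := by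
      intro h
      have := congrArg Fin.val h
      simp at this
      exact hp.ne_zero this
    have hrepr : b.repr e (Fin.last p) = ((δu⁻¹ : Rˣ) : R) + c * b.repr g (Fin.last p) := by
      rw [he', he0', map_add, map_sub, map_smul, map_smul, map_smul, Module.Basis.repr_self,
        Module.Basis.repr_self]
      simp [hne]
    rw [hrepr]
    exact IsNilpotent.isUnit_add_left_of_commute
      ((Commute.all c _).isNilpotent_mul_right hcn) (Units.isUnit _) (Commute.all _ _)
  refine ⟨e, he, hwe, ?_, ?_, hunit⟩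
  · obtain ⟨g, hg⟩ := Ideal.mem_span_singleton.1 hxe
    exact ⟨g, by rw [Algebra.smul_def, ← hg]⟩
  · obtain ⟨g, hg⟩ := Ideal.mem_span_singleton.1 hye
    exact ⟨g, by rw [Algebra.smul_def, ← hg]⟩

end Idem

section Comp

variable {R S : Type*} [CommRing R] [CommRing S] [Algebra R S] (p : ℕ) [Fact p.Prime]
  (b : Module.Basis (Fin (p + 1)) R S) (s t : S) (j : R) (hs : s = algebraMap R S j)
  (hb : ∀ i : Fin (p + 1), b i = t ^ (i : ℕ))
  (c : R) (hcn : IsNilpotent c)
  (e : S) (he : IsIdempotentElem e)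
  (hxe : ∃ z : S, (t - s ^ p) * e = c • z)
  (hye : ∃ z : S, (t ^ p - s) * (1 - e) = c • z)
  (heu : IsUnit (b.repr e (Fin.last p)))

omit [Fact p.Prime] in
include hs hb hcn he hxe in
/-- `S e = α(R) e`. -/
theorem h18_split_se (f : S) : ∃ ρ : R, f * e = algebraMap R S ρ * e := by
  have hee : e * e = e := he.eq
  have h1e : (1 - e) * e = 0 := by rw [sub_mul, one_mul, hee, sub_self]
  let V : Submodule R S :=
    { carrier := {f | ∃ ρ : R, f * e = algebraMap R S ρ * e}
      add_mem' := by
        rintro f g ⟨ρ, hρ⟩ ⟨ρ', hρ'⟩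
        exact ⟨ρ + ρ', by rw [add_mul, hρ, hρ', map_add, add_mul]⟩
      zero_mem' := ⟨0, by simp⟩
      smul_mem' := by
        rintro r f ⟨ρ, hρ⟩
        exact ⟨r * ρ, by rw [Algebra.smul_def, mul_assoc, hρ, map_mul, mul_assoc]⟩ }
  refine h18_nak c hcn V ?_ f
  intro g
  obtain ⟨zx, hzx⟩ := hxe
  have hte : t * e = s ^ p * e + c • zx := by
    rw [← hzx]; ring
  have hpow : ∀ i : ℕ, ∃ z : S, t ^ i * e = (s ^ p) ^ i * e + c • z := by
    intro i
    induction i with
    | zero => exact ⟨0, by simp⟩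
    | succ i ih =>
      obtain ⟨z, hz⟩ := ih
      refine ⟨s ^ p * z + t ^ i * zx, ?_⟩
      calc t ^ (i + 1) * e = t ^ i * (t * e) := by ring
        _ = s ^ p * (t ^ i * e) + c • (t ^ i * zx) := by
            rw [hte, mul_add, mul_smul_comm]; ring
        _ = (s ^ p) ^ (i + 1) * e + c • (s ^ p * z + t ^ i * zx) := by
            rw [hz, mul_add, mul_smul_comm, smul_add]; ring
  choose zi hzi using hpow
  set ρ' : R := ∑ i : Fin (p + 1), b.repr g i * (j ^ p) ^ (i : ℕ) with hρ'
  set Z : S := ∑ i : Fin (p + 1), b.repr g i • zi (i : ℕ) with hZ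
  have hge : g * e = algebraMap R S ρ' * e + c • Z := by
    conv_lhs => rw [← b.sum_repr g]
    rw [Finset.sum_mul, hρ', map_sum, Finset.sum_mul, hZ, Finset.smul_sum, ← Finset.sum_add_distrib]
    refine Finset.sum_congr rfl fun i _ => ?_
    rw [hb i, smul_mul_assoc, hzi, smul_add, map_mul, map_pow, map_pow, ← hs, Algebra.smul_def,
      smul_comm c]
    ring
  refine ⟨algebraMap R S ρ' * e + g * (1 - e), ⟨ρ', ?_⟩, Z * e, ?_⟩
  · rw [add_mul, mul_assoc, hee, mul_assoc, h1e, mul_zero, add_zero]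
  · have h2 : g * e = algebraMap R S ρ' * e + c • (Z * e) := by
      calc g * e = (g * e) * e := by rw [mul_assoc, hee]
        _ = algebraMap R S ρ' * e + c • (Z * e) := by
            rw [hge, add_mul, mul_assoc, hee, smul_mul_assoc]
    calc g = g * e + g * (1 - e) := by ring
      _ = algebraMap R S ρ' * e + g * (1 - e) + c • (Z * e) := by rw [h2]; ring

omit [Fact p.Prime] in
include heu in
/-- `α(ρ) e = 0` implies `ρ = 0`. -/
theorem h18_split_inj (ρ : R) (h : algebraMap R S ρ * e = 0) : ρ = 0 := by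
  have h1 : b.repr (ρ • e) (Fin.last p) = 0 := by
    rw [Algebra.smul_def, h]; simp
  rw [map_smul, Finsupp.smul_apply, smul_eq_mul] at h1
  exact (heu.mul_left_eq_zero).1 h1

omit [Fact p.Prime] in
include hs hb hcn he hxe heu in
/-- The projection to the first component, as an `R`-algebra map `S → R`. -/
theorem h18_split_pi :
    ∃ π : S →ₐ[R] R, ∀ f : S, f * e = algebraMap R S (π f) * e := by
  have hex := h18_split_se p b s t j hs hb c hcn e he hxe
  choose π0 hπ0 using hex
  have huniq : ∀ (f : S) (r : R), f * e = algebraMap R S r * e → π0 f = r := by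
    intro f r h
    have h0 : algebraMap R S (π0 f - r) * e = 0 := by
      rw [map_sub, sub_mul, ← hπ0 f, h, sub_self]
    exact sub_eq_zero.1 (h18_split_inj p b e heu _ h0)
  have hmul : ∀ f g : S, π0 (f * g) = π0 f * π0 g := by
    intro f g
    apply huniq
    calc f * g * e = f * (g * e) := by ring
      _ = algebraMap R S (π0 g) * (f * e) := by rw [hπ0 g]; ring
      _ = algebraMap R S (π0 f * π0 g) * e := by rw [hπ0 f, map_mul]; ring
  have hadd : ∀ f g : S, π0 (f + g) = π0 f + π0 g := by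
    intro f g
    apply huniq
    rw [add_mul, hπ0 f, hπ0 g, map_add, add_mul]
  have hcomm : ∀ r : R, π0 (algebraMap R S r) = r := fun r => huniq _ _ rfl
  refine ⟨{ toFun := π0
            map_one' := by rw [← map_one (algebraMap R S)]; exact hcomm 1
            map_mul' := hmul
            map_zero' := by rw [← map_zero (algebraMap R S)]; exact hcomm 0
            map_add' := hadd
            commutes' := hcomm }, fun f => hπ0 f⟩

include hs hb hcn he hxe hye heu in
/-- The second component `S / (e)` is free over `R` on `1, t, …, t^(p-1)`, with `t^p ≡ j`. -/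
theorem h18_split_basis2 :
    ∃ b₂ : Module.Basis (Fin p) R (S ⧸ Ideal.span {e}),
      (∀ i : Fin p, b₂ i = (Ideal.Quotient.mkₐ R (Ideal.span {e}) t) ^ (i : ℕ)) ∧
      ∃ w₂ : S ⧸ Ideal.span {e},
        (Ideal.Quotient.mkₐ R (Ideal.span {e}) t) ^ p =
          algebraMap R (S ⧸ Ideal.span {e}) j + c • w₂ := by
  have hp : p.Prime := Fact.out
  set q : S →ₐ[R] S ⧸ Ideal.span {e} := Ideal.Quotient.mkₐ R (Ideal.span {e}) with hq
  have hqe : q e = 0 := by
    rw [hq, Ideal.Quotient.mkₐ_eq_mk]
    exact Ideal.Quotient.eq_zero_iff_mem.2 (Ideal.mem_span_singleton_self e)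
  have hq0 : ∀ f : S, q f = 0 → ∃ g : S, f = g * e := by
    intro f hf
    rw [hq, Ideal.Quotient.mkₐ_eq_mk] at hf
    obtain ⟨g, hg⟩ := Ideal.mem_span_singleton.1 (Ideal.Quotient.eq_zero_iff_mem.1 hf)
    exact ⟨g, by rw [hg, mul_comm]⟩
  set τ := q t with hτ
  -- the relation
  obtain ⟨zy, hzy⟩ := hye
  have hrel : τ ^ p = algebraMap R (S ⧸ Ideal.span {e}) j + c • q zy := by
    have h1 : q ((t ^ p - s) * (1 - e)) = q (c • zy) := by rw [hzy]
    rw [map_mul, map_sub, map_sub, map_one, hqe, sub_zero, mul_one, map_pow, map_smul, hs,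
      AlgHom.commutes] at h1
    rw [hτ, ← h1]; ring
  -- linear independence
  have hli : LinearIndependent R (fun i : Fin p => τ ^ (i : ℕ)) := by
    rw [Fintype.linearIndependent_iff]
    intro g hg
    set P : S := ∑ i : Fin p, g i • b (Fin.castSucc i) with hP
    have hqP : q P = 0 := by
      rw [hP, map_sum, ← hg]
      refine Finset.sum_congr rfl fun i _ => ?_
      rw [map_smul, hb, map_pow]
      rfl
    obtain ⟨h, hh⟩ := hq0 P hqP
    obtain ⟨ρ, hρ⟩ := h18_split_se p b s t j hs hb c hcn e he hxe h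
    have hPlast : b.repr P (Fin.last p) = 0 := by
      rw [hP, map_sum, Finsupp.coe_finset_sum, Finset.sum_apply]
      refine Finset.sum_eq_zero fun i _ => ?_
      rw [map_smul, Module.Basis.repr_self, Finsupp.smul_apply, Finsupp.single_apply,
        if_neg (Fin.castSucc_lt_last i).ne, smul_zero]
    have hρ0 : ρ = 0 := by
      have h1 : b.repr (ρ • e) (Fin.last p) = 0 := by
        rw [Algebra.smul_def, ← hρ, ← hh]; exact hPlast
      rw [map_smul, Finsupp.smul_apply, smul_eq_mul] at h1
      exact (heu.mul_left_eq_zero).1 h1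
    have hP0 : P = 0 := by rw [hh, hρ, hρ0, map_zero, zero_mul]
    intro i
    have h2 : b.repr P (Fin.castSucc i) = g i := by
      rw [hP, map_sum, Finsupp.coe_finset_sum, Finset.sum_apply,
        Finset.sum_eq_single i]
      · rw [map_smul, Module.Basis.repr_self, Finsupp.smul_apply, Finsupp.single_eq_same,
          smul_eq_mul, mul_one]
      · intro k _ hk
        rw [map_smul, Module.Basis.repr_self, Finsupp.smul_apply, Finsupp.single_apply,
          if_neg (fun h' => hk (Fin.castSucc_injective _ h')), smul_zero]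
      · intro h'; exact absurd (Finset.mem_univ i) h'
    rw [← h2, hP0, map_zero, Finsupp.zero_apply]
  -- spanning
  have hsp : ⊤ ≤ Submodule.span R (Set.range fun i : Fin p => τ ^ (i : ℕ)) := by
    intro v _
    refine h18_nak c hcn _ ?_ v
    intro m
    obtain ⟨f, rfl⟩ := Ideal.Quotient.mkₐ_surjective R (Ideal.span {e}) m
    have hmem : ∀ i : Fin p, τ ^ (i : ℕ) ∈
        Submodule.span R (Set.range fun i : Fin p => τ ^ (i : ℕ)) :=
      fun i => Submodule.subset_span ⟨i, rfl⟩
    have hf : q f = ∑ i : Fin (p + 1), b.repr f i • τ ^ (i : ℕ) := by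
      conv_lhs => rw [← b.sum_repr f]
      rw [map_sum]
      refine Finset.sum_congr rfl fun i _ => ?_
      rw [map_smul, hb, map_pow]
    rw [Fin.sum_univ_castSucc] at hf
    simp only [Fin.val_castSucc, Fin.val_last] at hf
    refine ⟨∑ i : Fin p, b.repr f (Fin.castSucc i) • τ ^ (i : ℕ)
        + (b.repr f (Fin.last p) * j) • τ ^ ((⟨0, hp.pos⟩ : Fin p) : ℕ), ?_,
        b.repr f (Fin.last p) • q zy, ?_⟩
    · exact Submodule.add_mem _ (Submodule.sum_mem _ fun i _ => Submodule.smul_mem _ _ (hmem i))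
        (Submodule.smul_mem _ _ (hmem _))
    · show q f = _
      rw [hf, hrel, smul_add, smul_comm c, Algebra.smul_def (b.repr f (Fin.last p))
        (algebraMap R (S ⧸ Ideal.span {e}) j), ← map_mul, Algebra.smul_def
        (b.repr f (Fin.last p) * j)]
      simp [add_assoc]
  refine ⟨Module.Basis.mk hli hsp, fun i => ?_, q zy, hrel⟩
  rw [Module.Basis.coe_mk]

end Comp

section Final

variable {R S : Type*} [CommRing R] [CommRing S] [Algebra R S] (p : ℕ) [Fact p.Prime]
  (w : S →+* S) (hww : ∀ f, w (w f) = f)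
  (b : Module.Basis (Fin (p + 1)) R S) (j : R)
  (hb : ∀ i : Fin (p + 1), b i = w (algebraMap R S j) ^ (i : ℕ))
  (c : R) (hcw : w (algebraMap R S c) = algebraMap R S c) (hcp : c ∣ (p : R))
  (hcn : IsNilpotent c)
  (hK : ∃ z : S, (w (algebraMap R S j) - algebraMap R S j ^ p) *
      (w (algebraMap R S j) ^ p - algebraMap R S j) = c • z)
  (hU : IsUnit (j ^ (p ^ 2) - j))

include hww hb hcw hcp hcn hK hU in
/-- **The two-sided split, final form.**  If `u ≡ 1 mod c` and the norms of `u` and `w u` are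
`p^n`-th powers in `R`, then `u` is a `p^n`-th power in `S`. -/
theorem h18_split_pow (u : S) (hu : ∃ z : S, u = 1 + c • z) (n : ℕ) (A B : R)
    (hA : Algebra.norm R u = A ^ (p ^ n)) (hB : Algebra.norm R (w u) = B ^ (p ^ n)) :
    ∃ W : S, u = W ^ (p ^ n) := by
  have hp : p.Prime := Fact.out
  obtain ⟨e, he, hwe, hxe, hye, heu⟩ := h18_split_idem p w hww b j hb c hcw hcp hcn hK hU
  obtain ⟨π, hπ⟩ := h18_split_pi p b (algebraMap R S j) (w (algebraMap R S j)) j rfl hb c hcn e he
    hxe heu
  obtain ⟨b₂, hb₂, hrel⟩ := h18_split_basis2 p b (algebraMap R S j) (w (algebraMap R S j)) j rfl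
    hb c hcn e he hxe hye heu
  set q : S →ₐ[R] S ⧸ Ideal.span {e} := Ideal.Quotient.mkₐ R (Ideal.span {e}) with hq
  have hee : e * e = e := he.eq
  have hqe : q e = 0 := by
    rw [hq, Ideal.Quotient.mkₐ_eq_mk]
    exact Ideal.Quotient.eq_zero_iff_mem.2 (Ideal.mem_span_singleton_self e)
  have hq0 : ∀ f : S, q f = 0 → f = f * e := by
    intro f hf
    rw [hq, Ideal.Quotient.mkₐ_eq_mk] at hf
    obtain ⟨g, hg⟩ := Ideal.mem_span_singleton.1 (Ideal.Quotient.eq_zero_iff_mem.1 hf)
    rw [hg, mul_comm e g, mul_assoc, hee]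
  have hπuniq : ∀ (f : S) (r : R), f * e = algebraMap R S r * e → π f = r := by
    intro f r h
    have h0 : algebraMap R S (π f - r) * e = 0 := by
      rw [map_sub, sub_mul, ← hπ f, h, sub_self]
    exact sub_eq_zero.1 (h18_split_inj p b e heu _ h0)
  have hπe : π e = 1 := hπuniq e 1 (by rw [map_one, one_mul, hee])
  have hπα : ∀ r : R, π (algebraMap R S r) = r := fun r => hπuniq _ r rfl
  have hπ0 : ∀ f : S, π f = 0 → f * e = 0 := by
    intro f h
    rw [hπ f, h, map_zero, zero_mul]
  -- the algebra isomorphism `S ≃ R × S/(e)`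
  let φ : S →ₐ[R] R × (S ⧸ Ideal.span {e}) := π.prod q
  have hφ : Function.Bijective φ := by
    constructor
    · rw [injective_iff_map_eq_zero]
      intro f hf
      have h1 : π f = 0 := congrArg Prod.fst hf
      have h2 : q f = 0 := congrArg Prod.snd hf
      rw [hq0 f h2, hπ0 f h1]
    · rintro ⟨r, m⟩
      obtain ⟨g, rfl⟩ := Ideal.Quotient.mkₐ_surjective R (Ideal.span {e}) m
      refine ⟨algebraMap R S r * e + g * (1 - e), ?_⟩
      have h1 : π (algebraMap R S r * e + g * (1 - e)) = r := by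
        rw [map_add, map_mul, map_mul, map_sub, map_one, hπe, hπα]
        simp
      have h2 : q (algebraMap R S r * e + g * (1 - e)) = q g := by
        rw [map_add, map_mul, map_mul, map_sub, map_one, hqe]
        simp
      exact Prod.ext h1 h2
  haveI : Module.Free R (S ⧸ Ideal.span {e}) := Module.Free.of_basis b₂
  haveI : Module.Finite R (S ⧸ Ideal.span {e}) := Module.Finite.of_basis b₂
  have hnorm : ∀ f : S, Algebra.norm R f = π f * Algebra.norm R (q f) := by
    intro f
    rw [← Algebra.norm_eq_of_algEquiv (AlgEquiv.ofBijective φ hφ) f, h18_norm_prod]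
    have e1 : ((AlgEquiv.ofBijective φ hφ) f).1 = π f := rfl
    have e2 : ((AlgEquiv.ofBijective φ hφ) f).2 = q f := rfl
    rw [e1, e2, Algebra.norm_self]
    rfl
  -- the second projection `σ = π ∘ w`
  have hkey : ∀ f : S, q f = q (w (algebraMap R S (π (w f)))) := by
    intro f
    set g : S := w f - algebraMap R S (π (w f)) with hg
    have hπg : π g = 0 := by rw [hg, map_sub, hπα, sub_self]
    have hge : g * e = 0 := hπ0 g hπg
    have hwg : w g = w g * e := by
      have h1 : g = g * (1 - e) := by rw [mul_sub, mul_one, hge, sub_zero]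
      have h2 : w g = w g * w (1 - e) := by
        rw [← map_mul, ← h1]
      have h3 : w (1 - e) = e := by rw [map_sub, map_one, hwe, sub_sub_cancel]
      rw [h3] at h2
      exact h2
    have hqwg : q (w g) = 0 := by
      rw [hwg, map_mul, hqe, mul_zero]
    have h3 : w g = f - w (algebraMap R S (π (w f))) := by
      rw [hg, map_sub, hww]
    rw [h3, map_sub, sub_eq_zero] at hqwg
    exact hqwg
  -- the map `Θ`
  let Θ : R →* R :=
    { toFun := fun r => Algebra.norm R (q (w (algebraMap R S r)))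
      map_one' := by simp
      map_mul' := by intro a a'; simp [map_mul] }
  have hΘ_apply : ∀ r : R, Θ r = Algebra.norm R (q (w (algebraMap R S r))) := fun _ => rfl
  have hΘ : ∀ (k : ℕ) (r : R), (∃ z, r = 1 + c ^ (k + 1) * z) →
      ∃ z, Θ r = 1 + c ^ (k + 2) * z := by
    rintro k r ⟨z, rfl⟩
    have h1 : q (w (algebraMap R S (1 + c ^ (k + 1) * z)))
        = 1 + c ^ (k + 1) • q (w (algebraMap R S z)) := by
      rw [map_add, map_one, map_mul, map_pow, map_add, map_one, map_mul, map_pow, hcw, map_add,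
        map_one, map_mul, map_pow, AlgHom.commutes, Algebra.smul_def, map_pow]
    rw [hΘ_apply, h1]
    exact h18c_norm_depth p b₂ (q (w (algebraMap R S j))) hb₂ j c hrel hcp k _
  have hN1 : Algebra.norm R u = π u * Θ (π (w u)) := by
    rw [hnorm u, hkey u, hΘ_apply]
  have hN2 : Algebra.norm R (w u) = π (w u) * Θ (π u) := by
    rw [hnorm (w u), hkey (w u), hww, hΘ_apply]
  obtain ⟨z, hz⟩ := hu
  have hρ : ∃ z', π u = 1 + c * z' := by
    refine ⟨π z, ?_⟩
    rw [hz, map_add, map_one, map_smul, smul_eq_mul]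
  have hσ : ∃ z', π (w u) = 1 + c * z' := by
    refine ⟨π (w z), ?_⟩
    rw [hz, map_add, map_one, Algebra.smul_def, map_mul, hcw, map_add, map_one, map_mul,
      hπα]
  obtain ⟨⟨ρ₀, hρ₀⟩, ⟨σ₀, hσ₀⟩⟩ := h18_iter c hcn Θ hΘ (p ^ n) (pow_pos hp.pos n) (π u) (π (w u))
    A B hρ hσ (hN1 ▸ hA) (hN2 ▸ hB)
  -- injectivity of `(π, π ∘ w)`
  have hinj : ∀ f g : S, π f = π g → π (w f) = π (w g) → f = g := by
    intro f g h1 h2
    set d := f - g with hd
    have hd1 : d * e = 0 := hπ0 d (by rw [hd, map_sub, h1, sub_self])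
    have hd2 : w d * e = 0 := hπ0 (w d) (by rw [hd, map_sub, map_sub, h2, sub_self])
    have hd3 : d * (1 - e) = 0 := by
      have := congrArg w hd2
      rw [map_mul, hww, hwe, map_zero] at this
      exact this
    have : d = 0 := by
      calc d = d * e + d * (1 - e) := by ring
        _ = 0 := by rw [hd1, hd3, add_zero]
    exact sub_eq_zero.1 this
  set W : S := algebraMap R S ρ₀ * e + w (algebraMap R S σ₀) * (1 - e) with hW
  have hW1 : π W = ρ₀ := by
    rw [hW, map_add, map_mul, map_mul, map_sub, map_one, hπe, hπα, sub_self, mul_zero, add_zero,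
      mul_one]
  have hW2 : π (w W) = σ₀ := by
    have h1 : w W = w (algebraMap R S ρ₀) * (1 - e) + algebraMap R S σ₀ * e := by
      rw [hW, map_add, map_mul, map_mul, map_sub, map_one, hwe, hww, sub_sub_cancel]
    rw [h1, map_add, map_mul, map_mul, map_sub, map_one, hπe, hπα, sub_self, mul_zero, zero_add,
      mul_one]
  refine ⟨W, hinj _ _ ?_ ?_⟩
  · rw [map_pow, hW1, hρ₀]
  · rw [map_pow, map_pow, hW2, hσ₀]

end Final

end Fermat.Agent.S33
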