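import Mathlib
import Fermat.Agent.S33.h18_N1Split

/-!
# S33, (N1): the split theorem modulo `p^m` (helper18)

`h18_wrap` : the hypotheses of `h18_split_pow` for arbitrary commutative rings `R → S` (no
nilpotency), with `p ∣ c^r` instead; conclusion `u = W^(p^n) + p^m z` for every `m`.
(Proof: pass to `R/p^m → S/p^m`.)
-/

set_option autoImplicit false

namespace Fermat.Agent.S33

section Wrap

variable {R S : Type*} [CommRing R] [CommRing S] [Algebra R S] (p : ℕ) [Fact p.Prime]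

/-- **The split theorem modulo `p^m`.** -/
theorem h18_wrap (w : S →+* S) (hww : ∀ f, w (w f) = f)
    (b : Module.Basis (Fin (p + 1)) R S) (j : R)
    (hb : ∀ i : Fin (p + 1), b i = w (algebraMap R S j) ^ (i : ℕ))
    (c : R) (hcw : w (algebraMap R S c) = algebraMap R S c) (hcp : c ∣ (p : R))
    (r : ℕ) (hpc : (p : R) ∣ c ^ r)
    (hK : ∃ z : S, (w (algebraMap R S j) - algebraMap R S j ^ p) *
        (w (algebraMap R S j) ^ p - algebraMap R S j) = c • z)
    (hU : IsUnit (j ^ (p ^ 2) - j))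
    (u : S) (hu : ∃ z : S, u = 1 + c • z) (n : ℕ) (A B : R)
    (hA : Algebra.norm R u = A ^ (p ^ n)) (hB : Algebra.norm R (w u) = B ^ (p ^ n)) (m : ℕ) :
    ∃ W z : S, u = W ^ (p ^ n) + (p : S) ^ m * z := by
  set I : Ideal R := Ideal.span {(p : R) ^ m} with hI
  set J : Ideal S := Ideal.span {(p : S) ^ m} with hJ
  have hIJ : I ≤ J.comap (algebraMap R S) := by
    rw [hI, Ideal.span_le]
    intro x hx
    rw [Set.mem_singleton_iff] at hx
    subst hx
    show algebraMap R S ((p : R) ^ m) ∈ J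
    rw [map_pow, map_natCast]
    exact Ideal.mem_span_singleton_self _
  have hJw : J ≤ J.comap w := by
    rw [hJ, Ideal.span_le]
    intro x hx
    rw [Set.mem_singleton_iff] at hx
    subst hx
    show w ((p : S) ^ m) ∈ Ideal.span {(p : S) ^ m}
    rw [map_pow, map_natCast]
    exact Ideal.mem_span_singleton_self _
  let qR : R →+* R ⧸ I := Ideal.Quotient.mk I
  let qS : S →+* S ⧸ J := Ideal.Quotient.mk J
  let φ : R ⧸ I →+* S ⧸ J := Ideal.quotientMap J (algebraMap R S) hIJ
  letI : Algebra (R ⧸ I) (S ⧸ J) := φ.toAlgebra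
  let w' : S ⧸ J →+* S ⧸ J := Ideal.quotientMap J w hJw
  have hφ : ∀ x : R, algebraMap (R ⧸ I) (S ⧸ J) (qR x) = qS (algebraMap R S x) := fun x => by
    rw [RingHom.algebraMap_toAlgebra]
    exact Ideal.quotientMap_mk
  have hsm : ∀ (x : R) (f : S), qR x • qS f = qS (x • f) := fun x f => by
    rw [Algebra.smul_def, hφ, Algebra.smul_def, map_mul]
  have hw' : ∀ f : S, w' (qS f) = qS (w f) := fun f => Ideal.quotientMap_mk
  have hww' : ∀ f, w' (w' f) = f := by
    intro f
    obtain ⟨f, rfl⟩ := Ideal.Quotient.mk_surjective f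
    show w' (w' (qS f)) = qS f
    rw [hw', hw', hww]
  have hqS0 : ∀ f : S, qS f = 0 → ∃ g : S, f = (p : S) ^ m * g := by
    intro f hf
    exact Ideal.mem_span_singleton.1 (Ideal.Quotient.eq_zero_iff_mem.1 hf)
  -- the basis of the quotient
  have hli : LinearIndependent (R ⧸ I) (fun i : Fin (p + 1) => qS (b i)) := by
    rw [Fintype.linearIndependent_iff]
    intro g hg
    have hex : ∀ i, ∃ g0 : R, qR g0 = g i := fun i => Ideal.Quotient.mk_surjective (g i)
    choose g0 hg0 using hex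
    have h1 : qS (∑ i, g0 i • b i) = 0 := by
      rw [map_sum, ← hg]
      refine Finset.sum_congr rfl fun i _ => ?_
      rw [← hsm, hg0]
    obtain ⟨f, hf⟩ := hqS0 _ h1
    intro i
    have h2 : g0 i = (p : R) ^ m * b.repr f i := by
      have h3 := congrArg (fun x => b.repr x i) hf
      simp only [Module.Basis.repr_sum_self] at h3
      rw [h3]
      have : (p : S) ^ m * f = ((p : R) ^ m) • f := by
        rw [Algebra.smul_def, map_pow, map_natCast]
      rw [this, map_smul, Finsupp.smul_apply, smul_eq_mul]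
    rw [← hg0 i, h2]
    exact Ideal.Quotient.eq_zero_iff_mem.2
      (Ideal.mul_mem_right _ _ (Ideal.mem_span_singleton_self _))
  have hsp : ⊤ ≤ Submodule.span (R ⧸ I) (Set.range fun i : Fin (p + 1) => qS (b i)) := by
    intro x _
    obtain ⟨f, rfl⟩ := Ideal.Quotient.mk_surjective x
    have h1 : qS f = ∑ i, qR (b.repr f i) • qS (b i) := by
      conv_lhs => rw [← b.sum_repr f]
      rw [map_sum]
      exact Finset.sum_congr rfl fun i _ => (hsm _ _).symm
    show qS f ∈ _
    rw [h1]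
    exact Submodule.sum_mem _ fun i _ => Submodule.smul_mem _ _ (Submodule.subset_span ⟨i, rfl⟩)
  let b' : Module.Basis (Fin (p + 1)) (R ⧸ I) (S ⧸ J) := Module.Basis.mk hli hsp
  have hb'v : ∀ i, b' i = qS (b i) := fun i => by
    show Module.Basis.mk hli hsp i = _
    rw [Module.Basis.coe_mk]
  have hrepr : ∀ (f : S) (i : Fin (p + 1)), b'.repr (qS f) i = qR (b.repr f i) := by
    intro f i
    have h1 : qS f = ∑ k, qR (b.repr f k) • b' k := by
      conv_lhs => rw [← b.sum_repr f]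
      rw [map_sum]
      exact Finset.sum_congr rfl fun k _ => by rw [hb'v, hsm]
    rw [h1, Module.Basis.repr_sum_self]
  have hnorm : ∀ f : S, Algebra.norm (R ⧸ I) (qS f) = qR (Algebra.norm R f) := by
    intro f
    rw [Algebra.norm_eq_matrix_det b', Algebra.norm_eq_matrix_det b, RingHom.map_det]
    congr 1
    ext i k
    rw [RingHom.mapMatrix_apply, Matrix.map_apply, Algebra.leftMulMatrix_eq_repr_mul,
      Algebra.leftMulMatrix_eq_repr_mul, hb'v, ← map_mul, hrepr]
  -- transport the hypotheses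
  have hb' : ∀ i : Fin (p + 1), b' i = w' (algebraMap (R ⧸ I) (S ⧸ J) (qR j)) ^ (i : ℕ) := by
    intro i
    rw [hb'v, hb, map_pow, hφ, hw']
  have hcw' : w' (algebraMap (R ⧸ I) (S ⧸ J) (qR c)) = algebraMap (R ⧸ I) (S ⧸ J) (qR c) := by
    rw [hφ, hw', hcw]
  have hcp' : qR c ∣ ((p : ℕ) : R ⧸ I) := by
    have := map_dvd qR hcp
    rwa [map_natCast] at this
  have hcn' : IsNilpotent (qR c) := by
    obtain ⟨d, hd⟩ := hpc
    refine ⟨r * m, ?_⟩
    rw [← map_pow, pow_mul, hd, mul_pow, map_mul]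
    have : qR ((p : R) ^ m) = 0 :=
      Ideal.Quotient.eq_zero_iff_mem.2 (Ideal.mem_span_singleton_self _)
    rw [this, zero_mul]
  have hK' : ∃ z : S ⧸ J, (w' (algebraMap (R ⧸ I) (S ⧸ J) (qR j))
      - algebraMap (R ⧸ I) (S ⧸ J) (qR j) ^ p) *
      (w' (algebraMap (R ⧸ I) (S ⧸ J) (qR j)) ^ p - algebraMap (R ⧸ I) (S ⧸ J) (qR j))
        = qR c • z := by
    obtain ⟨z, hz⟩ := hK
    refine ⟨qS z, ?_⟩
    rw [hsm, ← hz, hφ, hw']
    simp only [map_mul, map_sub, map_pow]
  have hU' : IsUnit (qR j ^ (p ^ 2) - qR j) := by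
    have := hU.map qR
    rwa [map_sub, map_pow] at this
  have hu' : ∃ z : S ⧸ J, qS u = 1 + qR c • z := by
    obtain ⟨z, hz⟩ := hu
    exact ⟨qS z, by rw [hsm, hz, map_add, map_one]⟩
  have hA' : Algebra.norm (R ⧸ I) (qS u) = qR A ^ (p ^ n) := by
    rw [hnorm, hA, map_pow]
  have hB' : Algebra.norm (R ⧸ I) (w' (qS u)) = qR B ^ (p ^ n) := by
    rw [hw', hnorm, hB, map_pow]
  obtain ⟨W', hW'⟩ := h18_split_pow p w' hww' b' (qR j) hb' (qR c) hcw' hcp' hcn' hK' hU' (qS u)
    hu' n (qR A) (qR B) hA' hB'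
  obtain ⟨W, rfl⟩ := Ideal.Quotient.mk_surjective W'
  have h0 : qS (u - W ^ (p ^ n)) = 0 := by
    rw [map_sub, map_pow]
    exact sub_eq_zero.2 hW'
  obtain ⟨z, hz⟩ := hqS0 _ h0
  exact ⟨W, z, by rw [← hz]; ring⟩

end Wrap

end Fermat.Agent.S33
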