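import Mathlib
import Fermat.Agent.S33.h18_N1Wrap

/-!
# S33, (N1): the split theorem at field level (helper18)

`E ⊂ F` fields (`α = algebraMap E F`), `w` an involution of `F`, subrings `OE ⊂ E`, `O ⊂ F`
(`O = O₁ ∩ O₂`), `t = w (α j)`:

* (SPAN)   every `f : F` is `∑ α(aᵢ) t^i`, `i ≤ p`;
* (FRAME0) `∑ α(aᵢ) t^i ∈ O ↔ ∀ i, aᵢ ∈ OE`;
* a constant `c ∈ OE` fixed by `w`, `c ∣ p`, `p ∣ c^r` in `OE`;
* weak Kronecker `(t - s^p)(t^p - s) ∈ c O`, `(j^(p^2) - j)⁻¹ ∈ OE`;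
* `u ∈ 1 + c O`, and the field norms of `u`, `w u` are `p^n`-th powers in `E` (`OE` closed under
  `p^n`-th roots).

Then for every `m` there is `W ∈ O` with `u - W^(p^n) ∈ p^m O`.
-/

set_option autoImplicit false

namespace Fermat.Agent.S33

section Field

variable {E F : Type*} [Field E] [Field F] [Algebra E F] (p : ℕ) [Fact p.Prime]

/-- **(N1), field level.** -/
theorem h18_n1_field (w : F →+* F) (hww : ∀ f, w (w f) = f)
    (OE : Subring E) (O : Subring F)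
    (hαO : ∀ a ∈ OE, algebraMap E F a ∈ O) (hwO : ∀ f ∈ O, w f ∈ O)
    (j : E) (hj : j ∈ OE)
    (hspan : ∀ f : F, ∃ a : Fin (p + 1) → E,
      f = ∑ i, algebraMap E F (a i) * w (algebraMap E F j) ^ (i : ℕ))
    (hframe : ∀ a : Fin (p + 1) → E,
      (∑ i, algebraMap E F (a i) * w (algebraMap E F j) ^ (i : ℕ)) ∈ O ↔ ∀ i, a i ∈ OE)
    (hne : ∃ x : E, x ∉ OE)
    (c : E) (hc : c ∈ OE) (hcw : w (algebraMap E F c) = algebraMap E F c)
    (hcp : ∃ d ∈ OE, (p : E) = c * d) (r : ℕ) (hpc : ∃ d ∈ OE, c ^ r = (p : E) * d)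
    (hK : ∃ z ∈ O, (w (algebraMap E F j) - algebraMap E F j ^ p) *
        (w (algebraMap E F j) ^ p - algebraMap E F j) = algebraMap E F c * z)
    (hU : ∃ v ∈ OE, (j ^ (p ^ 2) - j) * v = 1)
    (u : F) (hu : ∃ z ∈ O, u = 1 + algebraMap E F c * z) (n : ℕ) (A B : E)
    (hint : ∀ x : E, x ^ (p ^ n) ∈ OE → x ∈ OE)
    (hA : Algebra.norm E u = A ^ (p ^ n)) (hB : Algebra.norm E (w u) = B ^ (p ^ n)) (m : ℕ) :
    ∃ W ∈ O, ∃ z ∈ O, u = W ^ (p ^ n) + (p : F) ^ m * z := by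
  classical
  set t : F := w (algebraMap E F j) with ht
  -- linear independence over `E`
  have hliE : ∀ a : Fin (p + 1) → E,
      (∑ i, algebraMap E F (a i) * t ^ (i : ℕ)) = 0 → ∀ i, a i = 0 := by
    intro a ha i
    by_contra hi
    obtain ⟨x, hx⟩ := hne
    have h1 : (∑ k, algebraMap E F (x / a i * a k) * t ^ (k : ℕ)) ∈ O := by
      have : (∑ k, algebraMap E F (x / a i * a k) * t ^ (k : ℕ))
          = algebraMap E F (x / a i) * ∑ k, algebraMap E F (a k) * t ^ (k : ℕ) := by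
        rw [Finset.mul_sum]
        exact Finset.sum_congr rfl fun k _ => by rw [map_mul, mul_assoc]
      rw [this, ha, mul_zero]
      exact O.zero_mem
    have h2 := (hframe (fun k => x / a i * a k)).1 h1 i
    rw [div_mul_cancel₀ x hi] at h2
    exact hx h2
  -- the ring package
  let α₀ : OE →+* O :=
    ((algebraMap E F).comp OE.subtype).codRestrict O (fun a => hαO a a.2)
  letI : Algebra OE O := α₀.toAlgebra
  let w₀ : O →+* O := (w.comp O.subtype).codRestrict O (fun f => hwO f f.2)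
  have hα₀ : ∀ a : OE, ((algebraMap OE O a : O) : F) = algebraMap E F (a : E) := fun _ => rfl
  have hw₀ : ∀ f : O, ((w₀ f : O) : F) = w (f : F) := fun _ => rfl
  have hsm₀ : ∀ (a : OE) (f : O), ((a • f : O) : F) = algebraMap E F (a : E) * (f : F) :=
    fun a f => by rw [Algebra.smul_def]; rfl
  have hww₀ : ∀ f, w₀ (w₀ f) = f := fun f => Subtype.ext (by rw [hw₀, hw₀, hww])
  let j₀ : OE := ⟨j, hj⟩
  set t₀ : O := w₀ (algebraMap OE O j₀) with ht₀
  have ht₀c : (t₀ : F) = t := rfl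
  have hcoe_sum : ∀ g : Fin (p + 1) → OE, ((∑ i, g i • t₀ ^ (i : ℕ) : O) : F)
      = ∑ i, algebraMap E F (g i : E) * t ^ (i : ℕ) := by
    intro g
    rw [AddSubmonoidClass.coe_finsetSum]
    refine Finset.sum_congr rfl fun i _ => ?_
    rw [hsm₀, Subring.coe_pow, ht₀c]
  have hli₀ : LinearIndependent OE (fun i : Fin (p + 1) => t₀ ^ (i : ℕ)) := by
    rw [Fintype.linearIndependent_iff]
    intro g hg i
    have h1 := congrArg (Subtype.val : O → F) hg
    rw [hcoe_sum] at h1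
    exact Subtype.ext (hliE (fun k => (g k : E)) h1 i)
  have hsp₀ : ⊤ ≤ Submodule.span OE (Set.range fun i : Fin (p + 1) => t₀ ^ (i : ℕ)) := by
    intro f _
    obtain ⟨a, ha⟩ := hspan (f : F)
    have haO : ∀ i, a i ∈ OE := (hframe a).1 (ha ▸ f.2)
    have h1 : f = ∑ i, (⟨a i, haO i⟩ : OE) • t₀ ^ (i : ℕ) := by
      apply Subtype.ext
      rw [hcoe_sum]
      exact ha
    rw [h1]
    exact Submodule.sum_mem _ fun i _ => Submodule.smul_mem _ _ (Submodule.subset_span ⟨i, rfl⟩)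
  let b₀ : Module.Basis (Fin (p + 1)) OE O := Module.Basis.mk hli₀ hsp₀
  have hb₀ : ∀ i : Fin (p + 1), b₀ i = w₀ (algebraMap OE O j₀) ^ (i : ℕ) := fun i => by
    show Module.Basis.mk hli₀ hsp₀ i = _
    rw [Module.Basis.coe_mk]
  -- the `E`-basis of `F`
  have hliF : LinearIndependent E (fun i : Fin (p + 1) => t ^ (i : ℕ)) := by
    rw [Fintype.linearIndependent_iff]
    intro g hg i
    refine hliE g ?_ i
    rw [← hg]
    exact Finset.sum_congr rfl fun k _ => by rw [Algebra.smul_def]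
  have hspF : ⊤ ≤ Submodule.span E (Set.range fun i : Fin (p + 1) => t ^ (i : ℕ)) := by
    intro f _
    obtain ⟨a, ha⟩ := hspan f
    rw [ha]
    refine Submodule.sum_mem _ fun i _ => ?_
    rw [← Algebra.smul_def]
    exact Submodule.smul_mem _ _ (Submodule.subset_span ⟨i, rfl⟩)
  let bF : Module.Basis (Fin (p + 1)) E F := Module.Basis.mk hliF hspF
  have hbF : ∀ i : Fin (p + 1), bF i = t ^ (i : ℕ) := fun i => by
    show Module.Basis.mk hliF hspF i = _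
    rw [Module.Basis.coe_mk]
  have hb₀F : ∀ i : Fin (p + 1), ((b₀ i : O) : F) = bF i := fun i => by
    rw [hb₀, hbF, Subring.coe_pow]
    rfl
  -- coordinates agree
  have hreprF : ∀ (f : O) (i : Fin (p + 1)), bF.repr (f : F) i = ((b₀.repr f i : OE) : E) := by
    intro f i
    have h1 : (f : F) = ∑ k, ((b₀.repr f k : OE) : E) • bF k := by
      conv_lhs => rw [← b₀.sum_repr f]
      rw [AddSubmonoidClass.coe_finsetSum]
      refine Finset.sum_congr rfl fun k _ => ?_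
      rw [hsm₀, hb₀F, Algebra.smul_def]
    conv_lhs => rw [h1]
    rw [Module.Basis.repr_sum_self]
  -- norms agree
  have hnormF : ∀ f : O, ((Algebra.norm OE f : OE) : E) = Algebra.norm E (f : F) := by
    intro f
    rw [Algebra.norm_eq_matrix_det b₀, Algebra.norm_eq_matrix_det bF]
    have h1 : ((Algebra.leftMulMatrix b₀ f).det : E)
        = OE.subtype ((Algebra.leftMulMatrix b₀ f).det) := rfl
    rw [h1, RingHom.map_det]
    congr 1
    ext i k
    rw [RingHom.mapMatrix_apply, Matrix.map_apply, Algebra.leftMulMatrix_eq_repr_mul,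
      Algebra.leftMulMatrix_eq_repr_mul, ← hb₀F, ← Subring.coe_mul, hreprF]
    rfl
  -- the hypotheses of `h18_wrap`
  let c₀ : OE := ⟨c, hc⟩
  have hcw₀ : w₀ (algebraMap OE O c₀) = algebraMap OE O c₀ := Subtype.ext hcw
  have hcp₀ : c₀ ∣ ((p : ℕ) : OE) := by
    obtain ⟨d, hd, hpd⟩ := hcp
    exact ⟨⟨d, hd⟩, Subtype.ext (by simpa using hpd)⟩
  have hpc₀ : ((p : ℕ) : OE) ∣ c₀ ^ r := by
    obtain ⟨d, hd, hpd⟩ := hpc
    exact ⟨⟨d, hd⟩, Subtype.ext (by simpa using hpd)⟩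
  have hK₀ : ∃ z : O, (w₀ (algebraMap OE O j₀) - algebraMap OE O j₀ ^ p) *
      (w₀ (algebraMap OE O j₀) ^ p - algebraMap OE O j₀) = c₀ • z := by
    obtain ⟨z, hz, hzK⟩ := hK
    refine ⟨⟨z, hz⟩, Subtype.ext ?_⟩
    rw [hsm₀]
    exact hzK
  have hU₀ : IsUnit (j₀ ^ (p ^ 2) - j₀) := by
    obtain ⟨v, hv, hjv⟩ := hU
    exact IsUnit.of_mul_eq_one (⟨v, hv⟩ : OE) (Subtype.ext (by simpa using hjv))
  obtain ⟨zu, hzu, hu'⟩ := hu
  have huO : u ∈ O := by
    rw [hu']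
    exact O.add_mem O.one_mem (O.mul_mem (hαO c hc) hzu)
  let u₀ : O := ⟨u, huO⟩
  have hu₀ : ∃ z : O, u₀ = 1 + c₀ • z := ⟨⟨zu, hzu⟩, Subtype.ext (by rw [Subring.coe_add, hsm₀]; exact hu')⟩
  have hAO : A ∈ OE := hint A (by rw [← hA, ← hnormF u₀]; exact (Algebra.norm OE u₀).2)
  have hBO : B ∈ OE := hint B (by
    have : w u = ((w₀ u₀ : O) : F) := rfl
    rw [← hB, this, ← hnormF (w₀ u₀)]; exact (Algebra.norm OE (w₀ u₀)).2)
  have hA₀ : Algebra.norm OE u₀ = (⟨A, hAO⟩ : OE) ^ (p ^ n) :=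
    Subtype.ext (by rw [hnormF]; simpa using hA)
  have hB₀ : Algebra.norm OE (w₀ u₀) = (⟨B, hBO⟩ : OE) ^ (p ^ n) :=
    Subtype.ext (by rw [hnormF, hw₀]; simpa using hB)
  obtain ⟨W, z, hWz⟩ := h18_wrap p w₀ hww₀ b₀ j₀ hb₀ c₀ hcw₀ hcp₀ r hpc₀ hK₀ hU₀ u₀ hu₀ n
    ⟨A, hAO⟩ ⟨B, hBO⟩ hA₀ hB₀ m
  refine ⟨W, W.2, z, z.2, ?_⟩
  have := congrArg (Subtype.val : O → F) hWz
  simpa using this

end Field

end Fermat.Agent.S33
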