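import Mathlib
import Fermat.Agent.S33.h18_N1Field
import Fermat.Agent.S34.h60_Frame0
import Fermat.Agent.S34.h22_LatMqBridge
import Fermat.Agent.S35.h49_NormBC
import Fermat.Agent.S18.h64_RankOneW

/-!
# S33, (N1): the modular instance (helper18)

`h18_N1` : at level `M p` (`p ∤ M`), `A` over `p`, `O₁ = (h60_R1 ..).O`, `O₂ = (h60_R2 ..).O`:
if `u ∈ O₁ ∩ O₂` has both reductions `1` and the norms of `u` along `α` and `β` are `p^n`-th powers
in `F(M)`, then for every constant `c⋆ ≠ 0` there is `g̃ ∈ O₁ ∩ O₂` with both reductions `1` and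
`u - g̃^(p^n) ∈ c⋆ (O₁ ∩ O₂)`.

Proof: `h18_n1_field` (the two-sided split + norm iteration in `(O₁ ∩ O₂)/p^m`) fed with
helper60's FRAME0 (`h60_frame0`, `h60_powerBasis`), the swap `h60_w`, the two reductions of
`β j - (α j)^p`, (ker) of the pair (`h22_ker_h87_D`) and rank one (`h64_rankOne_h39`).
-/

set_option autoImplicit false
set_option synthInstance.maxHeartbeats 400000
set_option linter.style.haveILetI false

noncomputable section

open ModularCurve AlgebraicCurve IntermediateField Polynomial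

namespace Fermat.Agent.S33

open Fermat.Agent.S18 Fermat.Agent.S37 Fermat.Agent.S24 Fermat.Agent.S34 Fermat.Agent.S35

local notation "Qb" => AlgebraicClosure ℚ

section VS

variable {K : Type*} [Field K]

/-- In a valuation ring, two nonunits have a nonzero nonunit common divisor. -/
theorem h18_vs_gcd (A : ValuationSubring K) (x y : K) (hx : x ∈ A.nonunits) (hx0 : x ≠ 0)
    (hy : y ∈ A.nonunits) : ∃ c ∈ A.nonunits, c ≠ 0 ∧ x / c ∈ A ∧ y / c ∈ A := by
  by_cases hy0 : y = 0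
  · exact ⟨x, hx, hx0, by rw [div_self hx0]; exact A.one_mem, by rw [hy0, zero_div]; exact A.zero_mem⟩
  · rcases A.mem_or_inv_mem (y / x) with h | h
    · exact ⟨x, hx, hx0, by rw [div_self hx0]; exact A.one_mem, h⟩
    · rw [inv_div] at h
      exact ⟨y, hy, hy0, h, by rw [div_self hy0]; exact A.one_mem⟩

/-- A valuation ring is closed under `N`-th roots. -/
theorem h18_vs_root (A : ValuationSubring K) (x : K) (N : ℕ) (hN : N ≠ 0) (h : x ^ N ∈ A) :
    x ∈ A := by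
  by_contra hx
  have hinv : x⁻¹ ∈ A := (A.mem_or_inv_mem x).resolve_left hx
  have hx0 : x ≠ 0 := by
    rintro rfl
    exact hx A.zero_mem
  obtain ⟨k, rfl⟩ : ∃ k, N = k + 1 := Nat.exists_eq_succ_of_ne_zero hN
  have : x = x ^ (k + 1) * x⁻¹ ^ k := by
    rw [pow_succ, inv_pow]
    field_simp
  rw [this] at hx
  exact hx (A.mul_mem _ _ h (A.pow_mem hinv k))

theorem h18_nonunits_mem (A : ValuationSubring K) {x : K} (hx : x ∈ A.nonunits) : x ∈ A :=
  (A.valuation_le_one_iff x).1 (le_of_lt (A.mem_nonunits_iff.1 hx))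

end VS

section Mod

variable (M p : ℕ) [NeZero M] [NeZero p] [Fact p.Prime] (hpM : ¬ p ∣ M)
  (A : ValuationSubring Qb) (hA : A.LiesOverPrime p)

/-- **(N1), modular form.** -/
theorem h18_N1 (u : ↥(modularFunctionFieldBar (M * p)))
    (hu₁ : u ∈ (h60_R1 M p hpM A hA).O) (hu₂ : u ∈ (h60_R2 M p hpM A hA).O)
    (hr₁ : (h60_R1 M p hpM A hA).redF u = 1) (hr₂ : (h60_R2 M p hpM A hA).redF u = 1)
    (n : ℕ) (h h' : ↥(modularFunctionFieldBar M))
    (hα : @Algebra.norm ↥(modularFunctionFieldBar M) ↥(modularFunctionFieldBar (M * p)) _ _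
        (algebraAlong (heckeAlphaBar Qb M p)) u = h ^ (p ^ n))
    (hβ : @Algebra.norm ↥(modularFunctionFieldBar M) ↥(modularFunctionFieldBar (M * p)) _ _
        (algebraAlong (heckeBetaBar Qb M p)) u = h' ^ (p ^ n))
    (cstar : Qb) (hcs : cstar ≠ 0) :
    ∃ gt : ↥(modularFunctionFieldBar (M * p)),
      gt ∈ (h60_R1 M p hpM A hA).O ∧ gt ∈ (h60_R2 M p hpM A hA).O ∧
      (h60_R1 M p hpM A hA).redF gt = 1 ∧ (h60_R2 M p hpM A hA).redF gt = 1 ∧
      ∃ z : ↥(modularFunctionFieldBar (M * p)),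
        z ∈ (h60_R1 M p hpM A hA).O ∧ z ∈ (h60_R2 M p hpM A hA).O ∧
        u = gt ^ (p ^ n) + algebraMap Qb ↥(modularFunctionFieldBar (M * p)) cstar * z := by
  classical
  have hp : p.Prime := Fact.out
  have hchar : CharP (IsLocalRing.ResidueField A) p := h19_residueField_charP A p hA
  have hRM := h54_isModRed M hpM A hA
  set RM := h54_redDatum M hpM A hA with hRMdef
  set R1 := h60_R1 M p hpM A hA with hR1
  set R2 := h60_R2 M p hpM A hA with hR2
  set w := h60_w M p hpM with hw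
  letI algα : Algebra ↥(modularFunctionFieldBar M) ↥(modularFunctionFieldBar (M * p)) :=
    algebraAlong (heckeAlphaBar Qb M p)
  have hαmap : ∀ x : ↥(modularFunctionFieldBar M),
      algebraMap ↥(modularFunctionFieldBar M) ↥(modularFunctionFieldBar (M * p)) x
        = heckeAlphaBar Qb M p x := fun _ => rfl
  have hA1 : R1.A = A := h60_R1_A M p hpM A hA
  have hA2 : R2.A = A := h60_R2_A M p hpM A hA
  have hAM : RM.A = A := hRM.A_eq
  have hrk : h39_RankOne A := h64_rankOne_h39 hp A hA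
  have hconst1 : ∀ a : Qb, a ∈ A → algebraMap Qb ↥(modularFunctionFieldBar (M * p)) a ∈ R1.O :=
    fun a ha => (R1.mem_iff a).1 (by rw [hA1]; exact ha)
  have hconst2 : ∀ a : Qb, a ∈ A → algebraMap Qb ↥(modularFunctionFieldBar (M * p)) a ∈ R2.O :=
    fun a ha => (R2.mem_iff a).1 (by rw [hA2]; exact ha)
  have hconstM : ∀ a : Qb, a ∈ A → algebraMap Qb ↥(modularFunctionFieldBar M) a ∈ RM.O :=
    fun a ha => (RM.mem_iff a).1 (by rw [hAM]; exact ha)
  have hαconst : ∀ a : Qb, heckeAlphaBar Qb M p (algebraMap Qb ↥(modularFunctionFieldBar M) a)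
      = algebraMap Qb ↥(modularFunctionFieldBar (M * p)) a := fun a => AlgHom.commutes _ a
  -- `j`
  have hjO : h59_jbar M ∈ RM.O := h60_jbar_mem M A hRM
  have hjred : RM.redF (h59_jbar M) = h54_jk (IsLocalRing.ResidueField A) M := h54_redF_jbar hRM
  set sα := heckeAlphaBar Qb M p (h59_jbar M) with hsα
  set tβ := heckeBetaBar Qb M p (h59_jbar M) with htβ
  have hwt : w (algebraMap ↥(modularFunctionFieldBar M) ↥(modularFunctionFieldBar (M * p))
      (h59_jbar M)) = tβ := h60_w_alpha M p hpM (h59_jbar M)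
  have hws : w sα = tβ := h60_w_alpha M p hpM (h59_jbar M)
  have hwtβ : w tβ = sα := h60_w_beta M p hpM (h59_jbar M)
  have hs1 : sα ∈ R1.O := h60_R1_alpha_mem M p hpM A hA hRM ⟨_, hjO⟩
  have ht1 : tβ ∈ R1.O := h60_R1_beta_mem M p hpM A hA hRM ⟨_, hjO⟩
  have hs2 : sα ∈ R2.O := (h60_R2_alpha_mem_iff M p hpM A hA hRM _).2 hjO
  have ht2 : tβ ∈ R2.O := (h60_R2_beta_mem_iff M p hpM A hA hRM _).2 hjO
  -- the Kronecker element
  set Xk := tβ - sα ^ p with hX
  set Yk := tβ ^ p - sα with hY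
  have hX1 : Xk ∈ R1.O := R1.O.sub_mem ht1 (R1.O.pow_mem hs1 p)
  have hX2 : Xk ∈ R2.O := R2.O.sub_mem ht2 (R2.O.pow_mem hs2 p)
  have hY1 : Yk ∈ R1.O := R1.O.sub_mem (R1.O.pow_mem ht1 p) hs1
  have hwX : w Xk = -Yk := by
    rw [hX, hY, map_sub, map_pow, hwtβ, hws]; ring
  have hsred : ((R1.redF sα : ↥(modularFunctionFieldFullC (IsLocalRing.ResidueField A) M)) :
      LaurentSeries (IsLocalRing.ResidueField A)) = jqModC (IsLocalRing.ResidueField A) := by
    rw [hR1, hsα, h60_R1_redF_alpha M p hpM A hA hRM, hjred]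
    rfl
  have htred : ((R1.redF tβ : ↥(modularFunctionFieldFullC (IsLocalRing.ResidueField A) M)) :
      LaurentSeries (IsLocalRing.ResidueField A))
      = qExpand (IsLocalRing.ResidueField A) p (jqModC (IsLocalRing.ResidueField A)) := by
    rw [hR1, htβ, h60_R1_redF_beta_coe M p hpM A hA hRM, hjred]
    rfl
  have hXred : R1.redF Xk = 0 := by
    apply Subtype.ext
    rw [hX, h39_redF_sub R1 ht1 (R1.O.pow_mem hs1 p), h39_redF_pow R1 hs1]
    push_cast
    rw [hsred, htred, h60_jq_pow, sub_self]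
  obtain ⟨cK, f', hcKA, hcKres, hf'1, hXf⟩ := h39_exists_factor_of_redF_eq_zero R1 hX1 hXred
  have hcKnu : cK ∈ A.nonunits := by
    rw [ValuationSubring.mem_nonunits_iff_or]
    have := (h39_resK_eq_zero_iff R1 hcKA).1 hcKres
    rwa [hA1] at this
  set z0 := f' * Yk with hz0
  have hz01 : z0 ∈ R1.O := R1.O.mul_mem _ _ hf'1 hY1
  have hz02 : z0 ∈ R2.O := by
    have hwf : w f' ∈ R2.O := (h60_R1_mem_w_iff M p hpM A hA f').1 hf'1
    have e : z0 = -(Xk * w f') := by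
      have h1 : Yk = -w Xk := by rw [hwX, neg_neg]
      rw [hz0, h1]
      conv_lhs => rw [hXf, map_mul, hw, h60_w_algebraMap, ← hw]
      rw [hXf]; ring
    rw [e]
    exact R2.O.neg_mem _ (R2.O.mul_mem _ _ hX2 hwf)
  have hXY : Xk * Yk = algebraMap Qb ↥(modularFunctionFieldBar (M * p)) cK * z0 := by
    rw [hz0, ← mul_assoc, ← hXf]
  -- the depth of `u`
  have hu1red : R1.redF (u - 1) = 0 := by
    rw [h39_redF_sub R1 hu₁ R1.O.one_mem, hr₁, h39_redF_one, sub_self]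
  have hu2red : R2.redF (u - 1) = 0 := by
    rw [h39_redF_sub R2 hu₂ R2.O.one_mem, hr₂, h39_redF_one, sub_self]
  obtain ⟨a, hanu, g, ⟨hg1, hg2⟩, hug⟩ := h22_ker_h87_D M p hpM A hA (u - 1)
    (R1.O.sub_mem hu₁ R1.O.one_mem) (R2.O.sub_mem hu₂ R2.O.one_mem) hu1red hu2red
  -- the constant `c₀`
  have hpnu : (p : Qb) ∈ A.nonunits := hA
  have hp0 : (p : Qb) ≠ 0 := Nat.cast_ne_zero.2 hp.ne_zero
  obtain ⟨c1, hc1nu, hc10, hpc1, hcKc1⟩ := h18_vs_gcd A (p : Qb) cK hpnu hp0 hcKnu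
  obtain ⟨c0, hc0nu, hc00, hc1c0, hac0⟩ := h18_vs_gcd A c1 a hc1nu hc10 hanu
  have hc0A : c0 ∈ A := h18_nonunits_mem A hc0nu
  have hc0inv : c0⁻¹ ∉ A := by
    rcases (ValuationSubring.mem_nonunits_iff_or A).1 hc0nu with h0 | h0
    · exact absurd h0 hc00
    · exact h0
  have hpc0 : (p : Qb) / c0 ∈ A := by
    have : (p : Qb) / c0 = (p : Qb) / c1 * (c1 / c0) := by field_simp
    rw [this]
    exact A.mul_mem _ _ hpc1 hc1c0
  have hcKc0 : cK / c0 ∈ A := by
    have : cK / c0 = cK / c1 * (c1 / c0) := by field_simp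
    rw [this]
    exact A.mul_mem _ _ hcKc1 hc1c0
  obtain ⟨r, hr⟩ := hrk c0 hc0A hc0inv (p : Qb) hp0
  -- the exponent `m`
  have hpA : (p : Qb) ∈ A := h18_nonunits_mem A hpnu
  have hpinv : (p : Qb)⁻¹ ∉ A := by
    rcases (ValuationSubring.mem_nonunits_iff_or A).1 hpnu with h0 | h0
    · exact absurd h0 hp0
    · exact h0
  obtain ⟨m0, hm0⟩ := hrk (p : Qb) hpA hpinv cstar hcs
  -- the unit
  have hUred : RM.redF (h59_jbar M ^ (p ^ 2) - h59_jbar M) ≠ 0 := by
    rw [h39_redF_sub RM (RM.O.pow_mem hjO _) hjO, h39_redF_pow RM hjO, hjred]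
    intro h0
    apply h54_jk_transcendental (IsLocalRing.ResidueField A) M
    refine ⟨X ^ (p ^ 2) - X, FiniteField.X_pow_card_sub_X_ne_zero _ (by
      have := hp.two_le
      nlinarith), ?_⟩
    simpa using h0
  obtain ⟨hUinv, -⟩ := h39_inv_of_redF_ne_zero RM hUred
  have hU0 : h59_jbar M ^ (p ^ 2) - h59_jbar M ≠ 0 := by
    intro h0
    rw [h0, h39_redF_zero] at hUred
    exact hUred rfl
  -- apply the field-level theorem
  have hmain := h18_n1_field (E := ↥(modularFunctionFieldBar M))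
    (F := ↥(modularFunctionFieldBar (M * p))) p w (h60_w_w M p hpM)
    RM.O.toSubring (R1.O.toSubring ⊓ R2.O.toSubring)
    (fun x hx => ⟨(h60_R1_alpha_mem_iff M p hpM A hA hRM x).2 hx,
      (h60_R2_alpha_mem_iff M p hpM A hA hRM x).2 hx⟩)
    (fun f hf => ⟨(h60_R2_mem_iff M p hpM A hA f).1 hf.2,
      (h60_R1_mem_w_iff M p hpM A hA f).1 hf.1⟩)
    (h59_jbar M) hjO
    (by
      intro f
      obtain ⟨c, hc⟩ := h60_powerBasis M p hp hpM f
      refine ⟨c, ?_⟩
      rw [hwt, hc]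
      rfl)
    (by
      intro c
      rw [hwt]
      exact h60_frame0 M p hpM A hA hRM c)
    ⟨algebraMap Qb ↥(modularFunctionFieldBar M) (p : Qb)⁻¹, fun hmem =>
      hpinv (by have h1 := (RM.mem_iff _).2 hmem; rwa [hAM] at h1)⟩
    (algebraMap Qb ↥(modularFunctionFieldBar M) c0) (hconstM c0 hc0A)
    (by rw [hαmap, hαconst, hw, h60_w_algebraMap])
    ⟨algebraMap Qb ↥(modularFunctionFieldBar M) ((p : Qb) / c0), hconstM _ hpc0, by
      rw [← map_mul, mul_div_cancel₀ _ hc00, map_natCast]⟩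
    r
    ⟨algebraMap Qb ↥(modularFunctionFieldBar M) (c0 ^ r * (p : Qb)⁻¹), hconstM _ hr, by
      rw [← map_pow, ← map_natCast (algebraMap Qb ↥(modularFunctionFieldBar M)), ← map_mul]
      congr 1
      field_simp⟩
    ⟨algebraMap Qb ↥(modularFunctionFieldBar (M * p)) (cK / c0) * z0,
      ⟨R1.O.mul_mem _ _ (hconst1 _ hcKc0) hz01, R2.O.mul_mem _ _ (hconst2 _ hcKc0) hz02⟩, by
        rw [hwt, hαmap, hαmap, hαconst, ← mul_assoc, ← map_mul, mul_div_cancel₀ _ hc00]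
        exact hXY⟩
    ⟨(h59_jbar M ^ (p ^ 2) - h59_jbar M)⁻¹, hUinv, mul_inv_cancel₀ hU0⟩
    u
    ⟨algebraMap Qb ↥(modularFunctionFieldBar (M * p)) (a / c0) * g,
      ⟨R1.O.mul_mem _ _ (hconst1 _ hac0) hg1, R2.O.mul_mem _ _ (hconst2 _ hac0) hg2⟩, by
        rw [hαmap, hαconst, ← mul_assoc, ← map_mul, mul_div_cancel₀ _ hc00, ← hug]
        ring⟩
    n h h'
    (fun x hx => h18_vs_root RM.O x (p ^ n) (pow_ne_zero _ hp.ne_zero) hx)
    hα
    (by
      rw [← hβ]
      exact (h49_norm_beta_eq M p hp _ u).symm)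
    (m0 + 1)
  obtain ⟨W, ⟨hW1, hW2⟩, z, ⟨hz1, hz2⟩, hWz⟩ := hmain
  -- reductions of `W`
  have hpm : ((p : ℕ) : ↥(modularFunctionFieldBar (M * p))) ^ (m0 + 1)
      = algebraMap Qb ↥(modularFunctionFieldBar (M * p)) ((p : Qb) ^ (m0 + 1)) := by
    rw [map_pow, map_natCast]
  have hpmnu : (p : Qb) ^ (m0 + 1) ∈ A.nonunits := by
    rw [ValuationSubring.mem_nonunits_iff] at hpnu ⊢
    rw [map_pow]
    exact pow_lt_one₀ zero_le' hpnu (Nat.succ_ne_zero m0)
  have hpmA : (p : Qb) ^ (m0 + 1) ∈ A := h18_nonunits_mem A hpmnu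
  have hcharFb : CharP ↥(modularFunctionFieldFullC (IsLocalRing.ResidueField A) M) p :=
    charP_of_injective_algebraMap
      (algebraMap (IsLocalRing.ResidueField A)
        ↥(modularFunctionFieldFullC (IsLocalRing.ResidueField A) M)).injective p
  have hredW : ∀ (R : h39_RedDatum Qb ↥(modularFunctionFieldBar (M * p))
      (IsLocalRing.ResidueField A) ↥(modularFunctionFieldFullC (IsLocalRing.ResidueField A) M)),
      R.A = A → W ∈ R.O → z ∈ R.O → u ∈ R.O → R.redF u = 1 → R.redF W = 1 := by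
    intro R hRA hWR hzR huR hruR
    have hpmR : (p : Qb) ^ (m0 + 1) ∈ R.A := by rw [hRA]; exact hpmA
    have h1 : R.redF (algebraMap Qb ↥(modularFunctionFieldBar (M * p)) ((p : Qb) ^ (m0 + 1))) = 0 := by
      rw [h39_redF_algebraMap R hpmR, (h39_resK_eq_zero_iff R hpmR).2, map_zero]
      have := (ValuationSubring.mem_nonunits_iff_or A).1 hpmnu
      rwa [hRA]
    have h2 : R.redF (W ^ (p ^ n)) = 1 := by
      have e : W ^ (p ^ n) = u - ((p : ℕ) : ↥(modularFunctionFieldBar (M * p))) ^ (m0 + 1) * z := by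
        rw [hWz]; ring
      have hmem : ((p : ℕ) : ↥(modularFunctionFieldBar (M * p))) ^ (m0 + 1) * z ∈ R.O := by
        rw [hpm]
        exact R.O.mul_mem _ _ ((R.mem_iff _).1 hpmR) hzR
      rw [e, h39_redF_sub R huR hmem, hruR, hpm, h39_redF_mul R ((R.mem_iff _).1 hpmR) hzR, h1,
        zero_mul, sub_zero]
    rw [h39_redF_pow R hWR] at h2
    have h3 : (R.redF W - 1) ^ (p ^ n) = 0 := by
      rw [sub_pow_char_pow, h2, one_pow, sub_self]
    exact sub_eq_zero.1 (pow_eq_zero_iff (pow_ne_zero _ hp.ne_zero) |>.1 h3)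
  have hcsA : (p : Qb) ^ (m0 + 1) * cstar⁻¹ ∈ A := by
    have : (p : Qb) ^ (m0 + 1) * cstar⁻¹ = (p : Qb) * ((p : Qb) ^ m0 * cstar⁻¹) := by ring
    rw [this]
    exact A.mul_mem _ _ hpA hm0
  replace hW1 : W ∈ R1.O := hW1
  replace hW2 : W ∈ R2.O := hW2
  replace hz1 : z ∈ R1.O := hz1
  replace hz2 : z ∈ R2.O := hz2
  refine ⟨W, hW1, hW2, hredW R1 hA1 hW1 hz1 hu₁ hr₁, hredW R2 hA2 hW2 hz2 hu₂ hr₂,
    algebraMap Qb ↥(modularFunctionFieldBar (M * p)) ((p : Qb) ^ (m0 + 1) * cstar⁻¹) * z,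
    R1.O.mul_mem _ _ (hconst1 _ hcsA) hz1, R2.O.mul_mem _ _ (hconst2 _ hcsA) hz2, ?_⟩
  rw [hWz, ← mul_assoc, ← map_mul, hpm]
  congr 2
  field_simp

end Mod

end Fermat.Agent.S33

end
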