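import Mathlib

/-!
# S33, (N1) abstract core: wild roots of deep one-units (helper18)

* `h18_fixed_point` : an `I`-adic contraction `E` on an `I`-adically complete ring has a solution
  of `Z + E Z = W` (no polynomial, no monicity: plain Picard iteration).
* `h18_wild_root` : `p` odd, `p ∈ I`, `R` `I`-adically complete: every `1 + p ^ (2 n) W` is the
  `p ^ n`-th power of some `1 + p ^ n Z`.
-/

set_option autoImplicit false

namespace Fermat.Agent.S33

section Fixed

variable {R : Type*} [CommRing R] (I : Ideal R)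

theorem h18_smodEq_iff (n : ℕ) (x y : R) :
    x ≡ y [SMOD (I ^ n • ⊤ : Submodule R R)] ↔ x - y ∈ I ^ n := by
  rw [SModEq.sub_mem, smul_eq_mul, Ideal.mul_top]

/-- **Fixed point of an `I`-adic contraction.** -/
theorem h18_fixed_point [IsAdicComplete I R] (E : R → R)
    (hE : ∀ (k : ℕ) (x y : R), x - y ∈ I ^ k → E x - E y ∈ I ^ (k + 1)) (W : R) :
    ∃ Z : R, Z + E Z = W := by
  let Zs : ℕ → R := fun n => Nat.rec W (fun _ z => W - E z) n
  have hZs : ∀ n, Zs (n + 1) = W - E (Zs n) := fun n => rfl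
  have hstep : ∀ k, Zs (k + 1) - Zs k ∈ I ^ k := by
    intro k
    induction k with
    | zero => simp
    | succ k ih =>
      have e : Zs (k + 1 + 1) - Zs (k + 1) = -(E (Zs (k + 1)) - E (Zs k)) := by
        rw [hZs (k + 1), hZs k]; ring
      rw [e]
      exact neg_mem (hE k _ _ ih)
  have hcauchy : ∀ m n, m ≤ n → Zs n - Zs m ∈ I ^ m := by
    intro m n hmn
    induction n, hmn using Nat.le_induction with
    | base => simp
    | succ n hmn ih =>
      have e : Zs (n + 1) - Zs m = (Zs (n + 1) - Zs n) + (Zs n - Zs m) := by ring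
      rw [e]
      exact add_mem (Ideal.pow_le_pow_right hmn (hstep n)) ih
  obtain ⟨L, hL⟩ := IsPrecomplete.prec' (I := I) Zs (fun {m n} hmn => by
    rw [h18_smodEq_iff]
    have h1 := hcauchy m n hmn
    rw [← neg_sub]
    exact neg_mem h1)
  have hL' : ∀ n, Zs n - L ∈ I ^ n := fun n => (h18_smodEq_iff I n _ _).1 (hL n)
  refine ⟨L, ?_⟩
  rw [← sub_eq_zero]
  apply IsHausdorff.haus' (I := I)
  intro n
  rw [h18_smodEq_iff, sub_zero]
  have e : L + E L - W = -(Zs (n + 1) - L) + -(E (Zs n) - E L) := by rw [hZs n]; ring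
  rw [e]
  refine add_mem (neg_mem (Ideal.pow_le_pow_right (Nat.le_succ n) (hL' (n + 1)))) (neg_mem ?_)
  exact hE n _ _ (hL' n) |> Ideal.pow_le_pow_right (Nat.le_succ n)

end Fixed

/-- **Wild roots.** For `p` odd and `p ∈ I`, `R` `I`-adically complete: `1 + p ^ (2 n) W` is the
`p ^ n`-th power of some `1 + p ^ n Z`. -/
theorem h18_wild_root {R : Type*} [CommRing R] (I : Ideal R) [IsAdicComplete I R] (p n : ℕ)
    (hp : p.Prime) (hp2 : p ≠ 2) (hpI : (p : R) ∈ I) (W : R) :
    ∃ Z : R, (1 + (p : R) ^ n * Z) ^ (p ^ n) = 1 + (p : R) ^ (2 * n) * W := by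
  rcases Nat.eq_zero_or_pos n with rfl | hn
  · exact ⟨W, by simp⟩
  obtain ⟨m, hm⟩ : ∃ m, m = p ^ n := ⟨_, rfl⟩
  obtain ⟨a, ha⟩ : ∃ a : R, a = (p : R) ^ n := ⟨_, rfl⟩
  have hma : (m : R) = a := by rw [hm, ha]; push_cast; rfl
  have haI : a ∈ I := by rw [ha]; exact Ideal.pow_mem_of_mem I hpI n hn
  have hcoef : ∀ k, 2 ≤ k → (m.choose k : R) * a ^ (k - 2) ∈ I := by
    intro k hk
    rcases Nat.lt_or_ge 2 k with h3 | h2
    · exact Ideal.mul_mem_left _ _ (Ideal.pow_mem_of_mem I haI _ (by omega))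
    · have hk2 : k = 2 := by omega
      subst hk2
      have hdiv : p ∣ m.choose 2 := by
        rw [Nat.choose_two_right]
        have hodd : Odd m := by rw [hm]; exact (hp.odd_of_ne_two hp2).pow
        obtain ⟨t, ht⟩ := hodd
        have e : m * (m - 1) / 2 = m * t := by
          rw [ht, Nat.add_sub_cancel, ← mul_assoc, mul_comm _ 2, mul_assoc,
            Nat.mul_div_cancel_left _ (by norm_num : 0 < 2)]
        rw [e, hm]
        exact Dvd.dvd.mul_right (dvd_pow_self p hn.ne') t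
      obtain ⟨d, hd⟩ := hdiv
      rw [hd, Nat.sub_self, pow_zero, mul_one]
      push_cast
      exact Ideal.mul_mem_right _ _ hpI
  let E : R → R := fun Z => ∑ k ∈ Finset.range (m + 1),
    if 2 ≤ k then (m.choose k : R) * a ^ (k - 2) * Z ^ k else 0
  have hE : ∀ (k : ℕ) (x y : R), x - y ∈ I ^ k → E x - E y ∈ I ^ (k + 1) := by
    intro k x y hxy
    show (∑ i ∈ Finset.range (m + 1), _) - (∑ i ∈ Finset.range (m + 1), _) ∈ _
    rw [← Finset.sum_sub_distrib]
    refine Ideal.sum_mem _ fun i _ => ?_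
    by_cases hi : 2 ≤ i
    · rw [if_pos hi, if_pos hi, ← mul_sub, pow_succ']
      refine Ideal.mul_mem_mul (hcoef i hi) ?_
      obtain ⟨q, hq⟩ := sub_dvd_pow_sub_pow x y i
      rw [hq]
      exact Ideal.mul_mem_right _ _ hxy
    · rw [if_neg hi, if_neg hi, sub_zero]
      exact Ideal.zero_mem _
  obtain ⟨Z, hZ⟩ := h18_fixed_point I E hE W
  refine ⟨Z, ?_⟩
  have hm1 : 1 ≤ m := by rw [hm]; exact Nat.one_le_pow _ _ hp.pos
  have hterm : ∀ k ∈ Finset.range (m + 1), (a * Z) ^ k * 1 ^ (m - k) * (m.choose k : R) =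
      (if k = 0 then 1 else 0) + (if k = 1 then a ^ 2 * Z else 0) +
        a ^ 2 * (if 2 ≤ k then (m.choose k : R) * a ^ (k - 2) * Z ^ k else 0) := by
    intro k _
    rcases k with _ | _ | k
    · simp
    · simp only [zero_add, pow_one, one_pow, mul_one, Nat.choose_one_right, hma, one_ne_zero,
        if_false, if_true]
      rw [if_neg (by omega)]
      ring
    · have h2 : 2 ≤ k + 1 + 1 := by omega
      have h3 : k + 1 + 1 - 2 = k := by omega
      rw [if_neg (by omega), if_neg (by omega), if_pos h2, h3]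
      ring
  have hexp : (1 + a * Z) ^ m = 1 + a ^ 2 * (Z + E Z) := by
    rw [add_comm 1 (a * Z), add_pow, Finset.sum_congr rfl hterm, Finset.sum_add_distrib,
      Finset.sum_add_distrib, Finset.sum_ite_eq', Finset.sum_ite_eq', ← Finset.mul_sum,
      if_pos (Finset.mem_range.2 (by omega)), if_pos (Finset.mem_range.2 (by omega))]
    ring
  rw [← ha, ← hm, hexp, hZ, ha, ← pow_mul, mul_comm n 2]

end Fermat.Agent.S33
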