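import Mathlib
import Fermat.Agent.S33.h20_CoverCommute
import Fermat.Agent.S33.h75_PoleCtl
import Fermat.Agent.S33.h19_CoverCountSk

/-!
# S33 (N2): the rows R5 + R6 + R7 + R8 of the N-min skeleton in ONE call (helper20)

For the Artin-Schreier model `S : h15_ASData D F' p` over a base lattice `D` with the node
description of the skeleton (`hnode`, `(Sg, Φ)` shape) and the pole bound `hreg`:

* `h20_hnodeB_of_base` : the base node condition in value form (the hypothesis `hnodeB` of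
  `h75_cover_sym`) from `hnode`;
* `h20_pullback_nonneg` : the pullback of an effective divisor is effective;
* `h20_node'_base` : partner bijections `σ ν` of the sheets, the description of
  `red'(L'(n π^* D0) ∩ O')` for all `n ≥ n0`, and COMMUTE
  (`h75_cover_pole` + `h75_cover_sym` + `h19_count` + `h20_node'`).
-/

set_option autoImplicit false

noncomputable section

open AlgebraicCurve Module Polynomial

namespace Fermat.Agent.S33

open Fermat.Agent.S34 Fermat.Agent.S18 Fermat.Agent.S24 Fermat.Agent.S27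

variable {K F k Fb : Type*} [Field K] [Field F] [Algebra K F] [Field k] [Field Fb] [Algebra k Fb]

/-- The base node condition in value form, from the node description of the base. -/
theorem h20_hnodeB_of_base (D : h22_Lat K F k (Fb × Fb)) (D0 : Divisor K F)
    (hD0 : ∀ v, 0 ≤ D0 v) (Qinf : Place k Fb) (Sg : Finset (Place k Fb))
    (Φ : Place k Fb → Place k Fb) (n0 : ℕ)
    (hnode : ∀ n, n0 ≤ n → ∀ a : Fb × Fb, a ∈ h51_Rd D (n • D0) ↔
      (a ∈ h20_P Qinf n ∧ ∀ Q ∈ Sg, ∃ c : k, h39_Val (Φ Q) a.1 c ∧ h39_Val Q a.2 c)) :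
    ∀ m : ℕ, ∀ c ∈ h51_Rd D (m • D0), ∀ Q ∈ Sg, ∀ b1 b2 : k,
      h39_Val (Φ Q) c.1 b1 → h39_Val Q c.2 b2 → b1 = b2 := by
  intro m c hc Q hQ b1 b2 h1 h2
  have hD0' : (0 : Divisor K F) ≤ D0 := fun v => hD0 v
  have hc' : c ∈ h51_Rd D ((max m n0) • D0) :=
    h20_Rd_nsmul_mono D hD0' (le_max_left m n0) hc
  obtain ⟨c0, hc1, hc2⟩ := ((hnode _ (le_max_right m n0) c).mp hc').2 Q hQ
  rw [h39_val_unique _ h1 hc1, h39_val_unique _ h2 hc2]

section Cover

variable {F' : Type*} [Field F'] [Algebra F F'] [Algebra K F'] [IsScalarTower K F F']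
variable [Algebra.IsIntegral F F'] [HasPrincipalDivisors K F']

/-- The pullback of an effective divisor is effective. -/
theorem h20_pullback_nonneg (D0 : Divisor K F) (hD0 : ∀ v, 0 ≤ D0 v) :
    (0 : Divisor K F') ≤ Divisor.pullback F' D0 := by
  intro w
  rw [Divisor.pullback_apply]
  exact mul_nonneg (Int.natCast_nonneg _) (hD0 _)

variable [Algebra.IsSeparable F F']
variable {p : ℕ} {D : h22_Lat K F k (Fb × Fb)} (S : h15_ASData D F' p)

/-- **Rows R5 + R6 + R7 + R8 of the N-min skeleton in one call.**  From the base binders of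
`h85_nmin` (chart data, node description `hnode` for `n ≥ n0`, pole bound `hreg`) and the
Kummer generator `θ` (`div θ = π^* E₀`, `deg E₀ = 0`, power basis): partner bijections `σ ν` of
the `p` sheets over the nodes, the description of `red'(L'(n π^* D0) ∩ O')` for every `n ≥ n0`,
and COMMUTE for the same `σ`. -/
theorem h20_node'_base [IsAlgClosed K] [IsAlgClosed k] {xF : F} (hxF : h75_IsChart K xF)
    {xb : Fb} (hxb : h75_IsChart k xb) (hON : h22_ON D) (hON' : h22_ON S.lat)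
    (hfin' : ∀ B : Divisor K F', Module.Finite K (riemannRochSpace B))
    (D0 : Divisor K F) (hD0 : ∀ v, 0 ≤ D0 v) (hdegD0 : 1 ≤ Divisor.degree D0)
    (Qinf : Place k Fb) (Sg : Finset (Place k Fb)) (Φ : Place k Fb → Place k Fb)
    (hΦ : Function.Injective Φ) (hSg : ∀ Q ∈ Sg, Q ≠ Qinf ∧ Φ Q ≠ Qinf)
    (n0 : ℕ) (hn0F : 2 * h75_genus K xF ≤ n0) (hn0b : 2 * h75_genus k xb + Sg.card ≤ n0)
    (hnode : ∀ n, n0 ≤ n → ∀ a : Fb × Fb, a ∈ h51_Rd D (n • D0) ↔
      (a ∈ h20_P Qinf n ∧ ∀ Q ∈ Sg, ∃ c : k, h39_Val (Φ Q) a.1 c ∧ h39_Val Q a.2 c))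
    (hreg : ∀ n, ∀ a ∈ h51_Rd D (n • D0), a ∈ h20_P Qinf n)
    (θ : F') (hli : LinearIndependent F (fun j : Fin p => θ ^ (j : ℕ)))
    (E₀ : Divisor K F) (hE₀ : Divisor.degree E₀ = 0)
    (hθ : ∀ w : Place K F', w.ord θ = Divisor.pullback F' E₀ w) :
    ∃ σ : {Q // Q ∈ Sg} → Equiv.Perm (Fin p),
      (∀ n, n0 ≤ n → ∀ f : Fin p → Fb × Fb,
        f ∈ h51_Rd S.lat (n • Divisor.pullback F' D0) ↔ (∀ a, f a ∈ h20_P Qinf n) ∧
          ∀ Q (hQ : Q ∈ Sg), ∀ a, ∃ c : k, h39_Val (Φ Q) (f a).1 c ∧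
            h39_Val Q (f (σ ⟨Q, hQ⟩ a)).2 c) ∧
      (∀ s1 s2 : Fin p → Fin p,
        (∀ n : ℕ, ∀ f ∈ h51_Rd S.lat (n • Divisor.pullback F' D0),
          (fun a => ((f (s1 a)).1, (f (s2 a)).2)) ∈
            h51_Rd S.lat (n • Divisor.pullback F' D0)) →
        ∀ ν a, σ ν (s1 a) = s2 (σ ν a)) := by
  obtain ⟨σ, hσ, hcomm⟩ := h20_node' S hxb (Divisor.pullback F' D0)
    (h20_pullback_nonneg D0 hD0) Qinf Sg Φ hΦ hSg
    (h75_cover_pole S D0 Qinf hreg)
    (h75_cover_sym S D0 Sg Φ (h20_hnodeB_of_base D D0 hD0 Qinf Sg Φ n0 hnode))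
    n0
    (h19_count S hxF hxb hON hON' hfin' D0 hD0 hdegD0 Qinf Sg Φ hΦ hSg n0 hn0F hn0b hnode
      θ hli E₀ hE₀ hθ)
  refine ⟨σ, fun n hn => hσ n ?_, hcomm⟩
  rw [max_eq_left hn0b]
  exact hn

end Cover

end Fermat.Agent.S33

end
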