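import Fermat.Agent.S33.h9_Crux
import Fermat.Agent.S33.h24_NoTrivPair
import Fermat.Agent.S33.h14_Unr
import Fermat.Agent.S19
import Fermat.Agent.S19.h14_Inert
import Fermat.Agent.S19.h54_Fin
import Fermat.Agent.S19.h38_TopDefs
import Fermat.Agent.S18.h64_RankOneW
import Fermat.Agent.S05.h26_Inertia
import Fermat.Agent.S13.h24_Unram

/-!
# S33 (D1), the old part: "no trivial quotient" for the points congruent to `1`

`h24_old_abs` : abstract form.  `H` a commutative cocommutative bialgebra over `O`, `Ω` a field,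
`e : (points of H in Ω) ≃ G` a group isomorphism onto a finite group killed by `p ^ n`, `A ⊆ Ω` a
subring containing the values of all points, `m` an additive subgroup with `m A ⊆ m`, and a family
`τ s` of `O`-algebra endomorphisms of `Ω` ("inertia") acting trivially on `A / m`, such that the
`τ`-invariants of `m` are divisible by `p` in `A` (UNR) and `A` is `p`-adically separated.  Then
`K := {e x | x ≡ 1 mod m}` is a subgroup of `G` containing all `τ s • y - y` and having no
quotient with trivial action (`h24_NoTriv`): the output of CRUX (`h9_crux_abs`) in the shape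
consumed by the split count.

`h24_notriv_map` : `h24_NoTriv` is transported along injective equivariant homomorphisms.
-/

set_option autoImplicit false

namespace Fermat.Agent.S33

open WithConv Coalgebra

/-- transport of `h24_NoTriv` along an injective equivariant homomorphism. -/
theorem h24_notriv_map {G W ι : Type*} [AddCommGroup G] [AddCommGroup W]
    (actG : ι → G → G) (actW : ι → W → W) (f : G →+ W) (hf : Function.Injective f)
    (heq : ∀ s g, f (actG s g) = actW s (f g)) (K : AddSubgroup G) (hK : h24_NoTriv actG K) :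
    h24_NoTriv actW (K.map f) := by
  intro X' Z hX' hstab hI
  have h := hK (X'.comap f) (Z.comap f) ?_ ?_ ?_
  · intro x hx
    obtain ⟨k, -, rfl⟩ := hX' hx
    exact h hx
  · intro g hg
    obtain ⟨k, hk, hkg⟩ := hX' hg
    rw [hf hkg] at hk
    exact hk
  · intro s g hg
    show f (actG s g) ∈ X'
    rw [heq]
    exact hstab s _ hg
  · intro s g hg
    show f (actG s g - g) ∈ Z
    rw [map_sub, heq]
    exact hI s _ hg

section abs

variable {O : Type*} [CommRing O] {H : Type*} [CommRing H] [Bialgebra O H]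
  [Coalgebra.IsCocomm O H] {Ω : Type*} [Field Ω] [Algebra O Ω]
  {G : Type*} [AddCommGroup G]

omit [Coalgebra.IsCocomm O H] in
/-- the group isomorphism sends `1` to `0`. -/
theorem h24_e_one (e : WithConv (H →ₐ[O] Ω) ≃ G) (he : ∀ f g, e (f * g) = e f + e g) :
    e 1 = 0 := by
  have h := he 1 1
  rw [mul_one] at h
  exact left_eq_add.mp h

omit [Coalgebra.IsCocomm O H] in
theorem h24_e_pow (e : WithConv (H →ₐ[O] Ω) ≃ G) (he : ∀ f g, e (f * g) = e f + e g)
    (x : WithConv (H →ₐ[O] Ω)) (k : ℕ) : e (x ^ k) = k • e x := by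
  induction k with
  | zero => rw [pow_zero, zero_smul, h24_e_one e he]
  | succ k ih => rw [pow_succ, he, ih, succ_nsmul]

omit [Coalgebra.IsCocomm O H] in
/-- congruence to `1` modulo `m` is stable under products. -/
theorem h24_cong_mul (A : Subring Ω) (m : AddSubgroup Ω) (hmA : ∀ a ∈ m, ∀ b ∈ A, a * b ∈ m)
    (X₁ X₂ : WithConv (H →ₗ[O] Ω)) (h₁ : ∀ h, X₁ h - algebraMap O Ω (counit (R := O) h) ∈ m)
    (h₂ : ∀ h, X₂ h - algebraMap O Ω (counit (R := O) h) ∈ m) (hA₂ : ∀ h, X₂ h ∈ A) (h : H) :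
    (X₁ * X₂) h - algebraMap O Ω (counit (R := O) h) ∈ m := by
  have key : X₁ * X₂ - 1 = (X₁ - 1) * X₂ + (X₂ - 1) := by
    rw [sub_mul, one_mul]
    abel
  have h3 : (X₁ * X₂ - 1) h ∈ m := by
    rw [key]
    have h4 : ((X₁ - 1) * X₂) h ∈ m :=
      h9_val_mul (m : Set Ω) (A : Set Ω) m.toAddSubmonoid hmA (X₁ - 1) X₂ (fun h' => h₁ h') hA₂ h
    exact m.add_mem h4 (h₂ h)
  exact h3

/-- **(D1), abstract form**: the points congruent to `1` modulo `m` form a subgroup containing
all `τ s • y - y` with no quotient with trivial action. -/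
theorem h24_old_abs [Finite G]
    (e : WithConv (H →ₐ[O] Ω) ≃ G) (he : ∀ f g, e (f * g) = e f + e g)
    (p : ℕ) (hp : p.Prime) (hp2 : p ≠ 2) (hpΩ : (p : Ω) ≠ 0) (n : ℕ)
    (hpn : ∀ y : G, (p ^ n) • y = 0)
    (A : Subring Ω) (m : AddSubgroup Ω) (hmA : ∀ a ∈ m, ∀ b ∈ A, a * b ∈ m)
    {ι : Type*} (τ : ι → (Ω →ₐ[O] Ω)) (actG : ι → G → G)
    (hequiv : ∀ s (x : WithConv (H →ₐ[O] Ω)), e (h9_conj (τ s) x) = actG s (e x))
    (hunr : ∀ a ∈ m, (∀ s, τ s a = a) → ∃ b ∈ A, a = (p : Ω) * b)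
    (hsep : ∀ a : Ω, (∀ k : ℕ, ∃ b ∈ A, a = (p : Ω) ^ k * b) → a = 0)
    (hval : ∀ (x : WithConv (H →ₐ[O] Ω)) (h : H), x.ofConv h ∈ A)
    (hIm : ∀ s, ∀ a ∈ A, τ s a - a ∈ m) :
    ∃ K : AddSubgroup G, (∀ s y, actG s y - y ∈ K) ∧ h24_NoTriv actG K := by
  classical
  have hpn1 : 1 ≤ p ^ n := Nat.one_le_pow _ _ hp.pos
  have he1 : e 1 = 0 := h24_e_one e he
  have hepow := h24_e_pow e he
  -- `(p^n - 1) • y = -y`
  have hneg : ∀ y : G, (p ^ n - 1) • y = -y := by
    intro y
    have h1 : (p ^ n - 1) • y + y = 0 := by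
      rw [← succ_nsmul, Nat.sub_add_cancel hpn1]
      exact hpn y
    exact eq_neg_of_add_eq_zero_left h1
  -- congruence
  let Cong : WithConv (H →ₐ[O] Ω) → Prop := fun x =>
    ∀ h, x.ofConv h - algebraMap O Ω (counit (R := O) h) ∈ m
  have hCong_one : Cong 1 := by
    intro h
    have : (1 : WithConv (H →ₐ[O] Ω)).ofConv h = algebraMap O Ω (counit (R := O) h) := rfl
    rw [this, sub_self]
    exact m.zero_mem
  have hCong_mul : ∀ x₁ x₂, Cong x₁ → Cong x₂ → Cong (x₁ * x₂) := by
    intro x₁ x₂ h₁ h₂ h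
    exact h24_cong_mul A m hmA (h9_pt x₁) (h9_pt x₂) h₁ h₂ (fun h' => hval x₂ h') h
  -- the subgroup
  let K₀ : AddSubmonoid G :=
    { carrier := {y | Cong (e.symm y)}
      zero_mem' := by
        show Cong (e.symm 0)
        rw [← he1, e.symm_apply_apply]
        exact hCong_one
      add_mem' := by
        intro y₁ y₂ h₁ h₂
        show Cong (e.symm (y₁ + y₂))
        have : e.symm (y₁ + y₂) = e.symm y₁ * e.symm y₂ := by
          apply e.injective
          rw [he, e.apply_symm_apply, e.apply_symm_apply, e.apply_symm_apply]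
        rw [this]
        exact hCong_mul _ _ h₁ h₂ }
  let K : AddSubgroup G :=
    { K₀ with
      neg_mem' := by
        intro y hy
        show -y ∈ K₀
        rw [← hneg y]
        exact K₀.nsmul_mem hy _ }
  have hKmem : ∀ y, y ∈ K ↔ Cong (e.symm y) := fun y => Iff.rfl
  -- the element `σ x * x^(N-1)`
  have hdiff : ∀ s (x : WithConv (H →ₐ[O] Ω)),
      e (h9_conj (τ s) x * x ^ (p ^ n - 1)) = actG s (e x) - e x := by
    intro s x
    rw [he, hequiv, hepow, hneg, sub_eq_add_neg]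
  have hxN : ∀ x : WithConv (H →ₐ[O] Ω), x ^ (p ^ n) = 1 := by
    intro x
    apply e.injective
    rw [hepow, hpn, he1]
  have hCong_diff : ∀ s (x : WithConv (H →ₐ[O] Ω)), Cong (h9_conj (τ s) x * x ^ (p ^ n - 1)) := by
    intro s x h
    have h5 : h9_pt x * h9_pt (x ^ (p ^ n - 1)) = 1 := by
      rw [← h9_pt_mul, ← pow_succ', Nat.sub_add_cancel hpn1, hxN, h9_pt_one]
    have hX : h9_pt (h9_conj (τ s) x * x ^ (p ^ n - 1)) - 1
        = (h9_pt (h9_conj (τ s) x) - h9_pt x) * h9_pt (x ^ (p ^ n - 1)) := by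
      rw [sub_mul, h5, h9_pt_mul]
    have h3 : (h9_pt (h9_conj (τ s) x * x ^ (p ^ n - 1)) - 1) h ∈ m := by
      rw [hX]
      exact h9_val_mul (m : Set Ω) (A : Set Ω) m.toAddSubmonoid hmA _ _
        (fun h' => hIm s _ (hval x h')) (fun h' => hval _ h') h
    exact h3
  refine ⟨K, ?_, ?_⟩
  · intro s y
    rw [hKmem]
    have h1 : e.symm (actG s y - y) = h9_conj (τ s) (e.symm y) * (e.symm y) ^ (p ^ n - 1) := by
      apply e.injective
      rw [hdiff, e.apply_symm_apply, e.apply_symm_apply]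
    rw [h1]
    exact hCong_diff s _
  · intro X' Z hX'K hstab hI
    have : Finite (WithConv (H →ₐ[O] Ω)) := Finite.of_equiv G e.symm
    have := Fintype.ofFinite (WithConv (H →ₐ[O] Ω))
    let N : Finset (WithConv (H →ₐ[O] Ω)) := Finset.univ.filter (fun x => e x ∈ X' ⊓ Z)
    have hN : ∀ x, x ∈ N ↔ e x ∈ X' ⊓ Z := fun x => by
      simp only [N, Finset.mem_filter, Finset.mem_univ, true_and]
    have key : ∀ j : ℕ, ∀ y ∈ X', (p ^ j) • y = 0 → y ∈ Z := by
      intro j
      induction j with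
      | zero =>
        intro y _ hy
        rw [pow_zero, one_smul] at hy
        rw [hy]
        exact Z.zero_mem
      | succ j ih =>
        intro y hy hyj
        have hpy : p • y ∈ X' := X'.nsmul_mem hy p
        have hpyZ : p • y ∈ Z := ih _ hpy (by rw [← mul_smul, ← pow_succ]; exact hyj)
        have hx : e.symm y ∈ N := by
          refine h9_crux_abs p hp hp2 hpΩ A m hmA (Set.range τ)
            (fun a ha hfix => hunr a ha (fun s => hfix (τ s) ⟨s, rfl⟩)) hsep N ?_ ?_ ?_ ?_ ?_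
            (e.symm y) (hval _) ?_ ?_ ?_
          · rw [hN, he1]
            exact (X' ⊓ Z).zero_mem
          · intro a ha b hb
            rw [hN] at ha hb ⊢
            rw [he]
            exact (X' ⊓ Z).add_mem ha hb
          · intro a ha
            rw [hN] at ha
            refine ⟨a ^ (p ^ n - 1), ?_, ?_⟩
            · rw [hN, hepow]
              exact (X' ⊓ Z).nsmul_mem ha _
            · rw [← pow_succ', Nat.sub_add_cancel hpn1, hxN]
          · intro a _ h
            exact hval a h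
          · rintro _ ⟨s, rfl⟩ a ha
            rw [hN] at ha ⊢
            rw [hequiv]
            refine ⟨hstab s _ ha.1, ?_⟩
            have h1 := Z.add_mem (hI s _ ha.1) ha.2
            rwa [sub_add_cancel] at h1
          · exact (hKmem y).mp (hX'K hy)
          · rw [hN, hepow, e.apply_symm_apply]
            exact ⟨hpy, hpyZ⟩
          · rintro _ ⟨s, rfl⟩
            refine ⟨h9_conj (τ s) (e.symm y) * (e.symm y) ^ (p ^ n - 1), ?_, ?_⟩
            · rw [hN, hdiff, e.apply_symm_apply]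
              exact ⟨X'.sub_mem (hstab s _ hy) hy, hI s _ hy⟩
            · apply e.injective
              rw [he, hdiff, hequiv, e.apply_symm_apply]
              abel
        rw [hN, e.apply_symm_apply] at hx
        exact hx.2
    intro y hy
    exact key n y hy (hpn y)

end abs

section modular

open ModularCurve

local notation "Qb" => AlgebraicClosure ℚ
local notation "Γℚ" => (AlgebraicClosure ℚ ≃ₐ[ℚ] AlgebraicClosure ℚ)

/-- the maximal ideal of a valuation subring of `ℚ̄`, as an additive subgroup of `ℚ̄`. -/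
def h24_maxAdd (A : ValuationSubring Qb) : AddSubgroup Qb where
  carrier := {a | a ∈ A.nonunits}
  add_mem' := fun ha hb => Fermat.Agent.S13.h24_add_mem_nonunits A ha hb
  zero_mem' := Fermat.Agent.S13.h24_zero_mem_nonunits A
  neg_mem' := fun ha => Fermat.Agent.S13.h24_neg_mem_nonunits A ha

theorem h24_mem_maxAdd (A : ValuationSubring Qb) (a : Qb) : a ∈ h24_maxAdd A ↔ a ∈ A.nonunits :=
  Iff.rfl

/-- points of a finite `ℤ_(p)`-algebra with values in `ℚ̄` are integral at every place over `p`. -/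
theorem h24_point_mem (p : ℕ) [Fact p.Prime] (A : ValuationSubring Qb) (hA : A.LiesOverPrime p)
    {H : Type} [CommRing H] [Algebra (GaloisRep.ratLocalizedAt p) H]
    [Module.Finite (GaloisRep.ratLocalizedAt p) H]
    (x : H →ₐ[GaloisRep.ratLocalizedAt p] Qb) (h : H) : x h ∈ A := by
  have h1 : IsIntegral (GaloisRep.ratLocalizedAt p) (x h) :=
    (IsIntegral.of_finite (GaloisRep.ratLocalizedAt p) h).map x
  obtain ⟨P, hPm, hP⟩ := h1
  let φ : (GaloisRep.ratLocalizedAt p) →+* A :=
    RingHom.codRestrict ((algebraMap ℚ Qb).comp (GaloisRep.ratLocalizedAt p).subtype) A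
      (fun q => (Fermat.Agent.S19.h14_rat_mem_iff A hA (q : ℚ)).mpr q.2)
  have hcomp : (algebraMap A Qb).comp φ = algebraMap (GaloisRep.ratLocalizedAt p) Qb :=
    RingHom.ext fun q => rfl
  have h2 : IsIntegral A (x h) :=
    ⟨P.map φ, hPm.map φ, by rw [Polynomial.eval₂_map, hcomp]; exact hP⟩
  obtain ⟨y, hy⟩ := IsIntegrallyClosed.isIntegral_iff.mp h2
  rw [← hy]
  exact y.2

/-- **(D1), the old part at level `M`**: for a place `A` of `ℚ̄` over `p ∤ M`, `p` odd, the
classes of `J₀(M)[p^n]` whose point of the S19 Hopf order is congruent to `1` modulo `𝔪_A` form a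
subgroup `K` which contains `σ y - y` for every `σ` in the inertia group of `A` and every
`y ∈ J₀(M)[p^n]`, and has no quotient with trivial inertia action. -/
theorem h24_old_notriv (M : ℕ) [NeZero M] (p : ℕ) [Fact p.Prime] (hp2 : p ≠ 2) (hpM : ¬ p ∣ M)
    (n : ℕ) (A : ValuationSubring Qb) (hA : A.LiesOverPrime p) :
    ∃ K : AddSubgroup (JZero M), (∀ x ∈ K, ((p : ℤ) ^ n) • x = 0) ∧
      (∀ σ ∈ A.inertiaSubgroupIn ℚ, ∀ y : JZero M, ((p : ℤ) ^ n) • y = 0 → σ • y - y ∈ K) ∧
      h24_NoTriv (fun (σ : ↥(A.inertiaSubgroupIn ℚ)) (y : JZero M) => (σ : Γℚ) • y) K := by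
  classical
  have hp : p.Prime := Fact.out
  obtain ⟨H, _, _, hfin, -, hcc, e, he, hgal⟩ := Fermat.Agent.S19.result M p hpM n
  have hpow : ((p : ℤ) ^ n) ≠ 0 := pow_ne_zero _ (Int.natCast_ne_zero.mpr hp.ne_zero)
  have hfinG := Fermat.Agent.S19.h54_finite_torsionBy M _ hpow
  let τ : ↥(A.inertiaSubgroupIn ℚ) → (Qb →ₐ[GaloisRep.ratLocalizedAt p] Qb) := fun σ =>
    (((σ : Γℚ) : Qb →ₐ[ℚ] Qb)).restrictScalars (GaloisRep.ratLocalizedAt p)
  let actG : ↥(A.inertiaSubgroupIn ℚ) → ↥(Submodule.torsionBy ℤ (JZero M) ((p : ℤ) ^ n)) →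
      ↥(Submodule.torsionBy ℤ (JZero M) ((p : ℤ) ^ n)) := fun σ y => (σ : Γℚ) • y
  have hpA : (p : Qb) ∈ A := natCast_mem A p
  have hpinv : (p : Qb)⁻¹ ∉ A := by
    have h1 : (p : Qb) ∈ A.nonunits := hA
    rw [ValuationSubring.mem_nonunits_iff_or] at h1
    exact h1.resolve_left (Nat.cast_ne_zero.mpr hp.ne_zero)
  obtain ⟨K, hK1, hK2⟩ := h24_old_abs e he p hp hp2 (Nat.cast_ne_zero.mpr hp.ne_zero) n
    (fun y => by
      have h1 : ((p : ℤ) ^ n) • y = 0 := Submodule.smul_torsionBy _ y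
      rw [← natCast_zsmul, Nat.cast_pow]
      exact h1)
    A.toSubring (h24_maxAdd A)
    (fun a ha b hb => by
      rw [h24_mem_maxAdd, mul_comm]
      exact Fermat.Agent.S13.h24_mul_mem_nonunits A hb ha)
    τ actG
    (fun σ x => Subtype.ext (hgal (σ : Γℚ) x (h9_conj (τ σ) x) (fun h => rfl)))
    (fun a ha hfix => by
      obtain ⟨b, hbA, hab, -⟩ := h14_unr p A hA a ha (fun σ hσ => hfix ⟨σ, hσ⟩)
      exact ⟨b, hbA, hab⟩)
    (fun a ha => by
      by_contra ha0
      obtain ⟨k, hk⟩ := Fermat.Agent.S18.h64_rankOne_h39 hp A hA (p : Qb) hpA hpinv a ha0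
      obtain ⟨b, hbA, hab⟩ := ha (k + 1)
      have hb0 : b ≠ 0 := by
        rintro rfl
        exact ha0 (by rw [hab, mul_zero])
      have hp0 : (p : Qb) ≠ 0 := Nat.cast_ne_zero.mpr hp.ne_zero
      have h1 : (p : Qb) ^ k * a⁻¹ = ((p : Qb) * b)⁻¹ := by
        rw [hab, pow_succ]
        field_simp
      rw [h1] at hk
      apply hpinv
      have h2 := A.mul_mem _ _ hbA hk
      have h3 : b * ((p : Qb) * b)⁻¹ = (p : Qb)⁻¹ := by
        field_simp
      rwa [h3] at h2)
    (fun x h => h24_point_mem p A hA x.ofConv h)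
    (fun σ a ha => Fermat.Agent.S05.h26_sub_mem_nonunits_of_mem_inertia A σ.2 ha)
  refine ⟨K.map (Submodule.torsionBy ℤ (JZero M) ((p : ℤ) ^ n)).subtype.toAddMonoidHom, ?_, ?_, ?_⟩
  · rintro _ ⟨y, -, rfl⟩
    exact (Submodule.mem_torsionBy_iff _ _).mp y.2
  · intro σ hσ y hy
    exact ⟨_, hK1 ⟨σ, hσ⟩ ⟨y, (Submodule.mem_torsionBy_iff _ _).mpr hy⟩, rfl⟩
  · exact h24_notriv_map actG _ _ Subtype.val_injective (fun s g => rfl) K hK2

end modular

end Fermat.Agent.S33
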