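import Mathlib

/-!
# S33: the formalism-free SPLIT COUNT

Counting lemmas on finite abelian groups used to split the count `|Y| ≤ |Y / (I-1)Y|^2`
into an "old" half (a chain with half-size steps + the `NoTriv` property of the formal part)
and a "new" half (`|Yns ∩ (I-1)Y|^2 ≤ |Yns|`).

* `h25_card_mul_le` : `|A| * |B| ≤ |A ⊓ B| * |C|` for `A, B ≤ C`;
* `h25_chain_count` : the chain count `|X|^2 ≤ |V 0| * |V r|`;
* `h25_split_count` : `|D|^2 ≤ |Y|` from the two halves;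
* `h25_split_count_act` : the same with an action and the `NoTriv` hypothesis;
* `h25_card_le_quot_sq` : the quotient form `|Y| ≤ |Y ⧸ D|^2` of the conclusion.
-/

set_option autoImplicit false

namespace Fermat.Agent.S33

section count

variable {W : Type*} [AddCommGroup W]

/-- `|A| * |B| ≤ |A ⊓ B| * |C|` whenever `A, B ≤ C` (`C` finite). -/
theorem h25_card_mul_le (A B C : AddSubgroup W) [Finite C] (hA : A ≤ C) (hB : B ≤ C) :
    Nat.card A * Nat.card B ≤ Nat.card (A ⊓ B : AddSubgroup W) * Nat.card C := by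
  have hC0 : B.relIndex C ≠ 0 := by
    intro h
    have h1 := AddSubgroup.relIndex_dvd_card B C
    rw [h] at h1
    exact (Nat.card_pos (α := C)).ne' (Nat.eq_zero_of_zero_dvd h1)
  have h1 : Nat.card (A ⊓ B : AddSubgroup W) * B.relIndex A = Nat.card A := by
    have := AddSubgroup.relIndex_mul_relIndex (⊥ : AddSubgroup W) (A ⊓ B) A bot_le inf_le_left
    rw [AddSubgroup.relIndex_bot_left, AddSubgroup.relIndex_bot_left,
      AddSubgroup.inf_relIndex_left] at this
    exact this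
  have h2 : Nat.card B * B.relIndex C = Nat.card C := by
    have := AddSubgroup.relIndex_mul_relIndex (⊥ : AddSubgroup W) B C bot_le hB
    rw [AddSubgroup.relIndex_bot_left, AddSubgroup.relIndex_bot_left] at this
    exact this
  have h3 : B.relIndex A ≤ B.relIndex C := AddSubgroup.relIndex_le_of_le_right hA hC0
  calc Nat.card A * Nat.card B
      = Nat.card (A ⊓ B : AddSubgroup W) * B.relIndex A * Nat.card B := by rw [h1]
    _ ≤ Nat.card (A ⊓ B : AddSubgroup W) * B.relIndex C * Nat.card B :=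
        Nat.mul_le_mul_right _ (Nat.mul_le_mul_left _ h3)
    _ = Nat.card (A ⊓ B : AddSubgroup W) * Nat.card C := by rw [← h2]; ring

/-- **Chain count.** A chain `V 0 ≤ Z 1 ≤ V 1 ≤ Z 2 ≤ ... ≤ V r` with
`|Z (i+1) / V i|^2 ≤ |V (i+1) / V i|` and a subgroup `V 0 ≤ X ≤ V r` with
`X ⊓ V (i+1) ≤ Z (i+1)`: then `|X / V 0|^2 ≤ |V r / V 0|`. -/
theorem h25_chain_count (X : AddSubgroup W) (V Z : ℕ → AddSubgroup W) (r : ℕ)
    [Finite (V r)]
    (hV : ∀ i < r, V i ≤ Z (i + 1) ∧ Z (i + 1) ≤ V (i + 1))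
    (hZ : ∀ i < r, Nat.card (Z (i + 1)) ^ 2 ≤ Nat.card (V i) * Nat.card (V (i + 1)))
    (hX : ∀ i < r, X ⊓ V (i + 1) ≤ Z (i + 1)) (h0 : V 0 ≤ X) (hr : X ≤ V r) :
    Nat.card X ^ 2 ≤ Nat.card (V 0) * Nat.card (V r) := by
  -- every `V i`, `i ≤ r`, lies in `V r`
  have hle : ∀ k i, i + k = r → V i ≤ V r := by
    intro k
    induction k with
    | zero =>
      intro i hi
      rw [Nat.add_zero] at hi
      rw [hi]
    | succ k ih =>
      intro i hi
      have hlt : i < r := by omega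
      exact ((hV i hlt).1.trans (hV i hlt).2).trans (ih (i + 1) (by omega))
  have hfin : ∀ i, i ≤ r → Finite (V i) := fun i hi =>
    Finite.of_injective _ (AddSubgroup.inclusion_injective (hle (r - i) i (by omega)))
  have key : ∀ i, i ≤ r →
      Nat.card (X ⊓ V i : AddSubgroup W) ^ 2 ≤ Nat.card (V 0) * Nat.card (V i) := by
    intro i
    induction i with
    | zero =>
      intro _
      rw [inf_eq_right.2 h0, sq]
    | succ i ih =>
      intro hi
      have hlt : i < r := by omega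
      have hi' := ih (by omega)
      have hfi := hfin i (by omega)
      have hfi1 := hfin (i + 1) hi
      have hfZ : Finite (Z (i + 1)) :=
        Finite.of_injective _ (AddSubgroup.inclusion_injective (hV i hlt).2)
      have hvpos : 0 < Nat.card (V i) := Nat.card_pos
      have h1 := h25_card_mul_le (X ⊓ V (i + 1)) (V i) (Z (i + 1)) (hX i hlt) (hV i hlt).1
      have h2 : (X ⊓ V (i + 1) ⊓ V i : AddSubgroup W) = X ⊓ V i := by
        rw [inf_assoc, inf_eq_right.2 ((hV i hlt).1.trans (hV i hlt).2)]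
      rw [h2] at h1
      have h3 := hZ i hlt
      -- x' * v ≤ x * z, z^2 ≤ v * v', x^2 ≤ v0 * v  ⟹  x'^2 ≤ v0 * v'
      have h4 : (Nat.card (X ⊓ V (i + 1) : AddSubgroup W) * Nat.card (V i)) ^ 2 ≤
          (Nat.card (X ⊓ V i : AddSubgroup W) * Nat.card (Z (i + 1))) ^ 2 :=
        Nat.pow_le_pow_left h1 2
      have h5 : (Nat.card (X ⊓ V i : AddSubgroup W) * Nat.card (Z (i + 1))) ^ 2 ≤
          (Nat.card (V 0) * Nat.card (V i)) * (Nat.card (V i) * Nat.card (V (i + 1))) := by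
        rw [mul_pow]
        exact Nat.mul_le_mul hi' h3
      have h6 : Nat.card (X ⊓ V (i + 1) : AddSubgroup W) ^ 2 * Nat.card (V i) ^ 2 ≤
          (Nat.card (V 0) * Nat.card (V (i + 1))) * Nat.card (V i) ^ 2 := by
        calc Nat.card (X ⊓ V (i + 1) : AddSubgroup W) ^ 2 * Nat.card (V i) ^ 2
            = (Nat.card (X ⊓ V (i + 1) : AddSubgroup W) * Nat.card (V i)) ^ 2 := by ring
          _ ≤ (Nat.card (V 0) * Nat.card (V i)) * (Nat.card (V i) * Nat.card (V (i + 1))) :=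
              h4.trans h5
          _ = (Nat.card (V 0) * Nat.card (V (i + 1))) * Nat.card (V i) ^ 2 := by ring
      exact Nat.le_of_mul_le_mul_right h6 (by positivity)
  have := key r le_rfl
  rwa [inf_eq_left.2 hr] at this

/-- **Split count.** `|D|^2 ≤ |Y|` from the new half `|Yns ⊓ D|^2 ≤ |Yns|` and the old half
`|X|^2 ≤ |Yns| * |Y|` for some `X ⊇ D + Yns`. -/
theorem h25_split_count (Y Yns D X : AddSubgroup W) [Finite Y] (hns : Yns ≤ Y)
    (hDX : D ≤ X) (hnsX : Yns ≤ X) (hXY : X ≤ Y)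
    (hnew : Nat.card (Yns ⊓ D : AddSubgroup W) ^ 2 ≤ Nat.card Yns)
    (hold : Nat.card X ^ 2 ≤ Nat.card Yns * Nat.card Y) :
    Nat.card D ^ 2 ≤ Nat.card Y := by
  have hfX : Finite X := Finite.of_injective _ (AddSubgroup.inclusion_injective hXY)
  have hfns : Finite Yns := Finite.of_injective _ (AddSubgroup.inclusion_injective hns)
  have hpos : 0 < Nat.card Yns := Nat.card_pos
  have h1 := h25_card_mul_le D Yns X hDX hnsX
  rw [inf_comm] at h1
  have h2 : (Nat.card D * Nat.card Yns) ^ 2 ≤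
      (Nat.card (Yns ⊓ D : AddSubgroup W) * Nat.card X) ^ 2 := Nat.pow_le_pow_left h1 2
  have h3 : (Nat.card (Yns ⊓ D : AddSubgroup W) * Nat.card X) ^ 2 ≤
      Nat.card Yns * (Nat.card Yns * Nat.card Y) := by
    rw [mul_pow]
    exact Nat.mul_le_mul hnew hold
  have h4 : Nat.card D ^ 2 * Nat.card Yns ^ 2 ≤ Nat.card Y * Nat.card Yns ^ 2 := by
    calc Nat.card D ^ 2 * Nat.card Yns ^ 2 = (Nat.card D * Nat.card Yns) ^ 2 := by ring
      _ ≤ Nat.card Yns * (Nat.card Yns * Nat.card Y) := h2.trans h3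
      _ = Nat.card Y * Nat.card Yns ^ 2 := by ring
  exact Nat.le_of_mul_le_mul_right h4 (by positivity)

/-- The quotient form of the conclusion: `|D|^2 ≤ |Y|` is `|Y| ≤ |Y ⧸ D|^2`. -/
theorem h25_card_le_quot_sq (Y D : AddSubgroup W) [Finite Y] (hDY : D ≤ Y)
    (h : Nat.card D ^ 2 ≤ Nat.card Y) :
    Nat.card Y ≤ Nat.card (↥Y ⧸ D.addSubgroupOf Y) ^ 2 := by
  have h1 : Nat.card Y = Nat.card (↥Y ⧸ D.addSubgroupOf Y) * Nat.card (D.addSubgroupOf Y) :=
    AddSubgroup.card_eq_card_quotient_mul_card_addSubgroup (D.addSubgroupOf Y)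
  have h2 : Nat.card (D.addSubgroupOf Y) = Nat.card D :=
    Nat.card_congr (AddSubgroup.addSubgroupOfEquivOfLe hDY).toEquiv
  rw [h2] at h1
  have hfD : Finite D := Finite.of_injective _ (AddSubgroup.inclusion_injective hDY)
  have hpos : 0 < Nat.card D := Nat.card_pos
  have h3 : Nat.card Y * Nat.card D ^ 2 ≤
      Nat.card (↥Y ⧸ D.addSubgroupOf Y) ^ 2 * Nat.card D ^ 2 := by
    calc Nat.card Y * Nat.card D ^ 2 ≤ Nat.card Y * Nat.card Y := Nat.mul_le_mul_left _ h
      _ = Nat.card (↥Y ⧸ D.addSubgroupOf Y) ^ 2 * Nat.card D ^ 2 := by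
          conv_lhs => rw [h1]
          ring
  exact Nat.le_of_mul_le_mul_right h3 (by positivity)

/-- **Split count, action form.** `act σ` (`σ : ι`) are the inertia elements acting on `W`,
`Y` the finite stable subgroup, `Yns ≤ Y` the "new" part, `X0` the "formal" subgroup with the
`NoTriv` property modulo `Yns`, and `V 0 = Yns ≤ Z 1 ≤ V 1 ≤ ... ≤ V r = Y` a stable chain with
`I` trivial on `V (i+1) / Z (i+1)` and `|Z (i+1) / V i|^2 ≤ |V (i+1) / V i|`. Together with the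
new half `|Yns ⊓ (I-1)Y|^2 ≤ |Yns|` this gives `|(I-1)Y|^2 ≤ |Y|`. -/
theorem h25_split_count_act {ι : Type*} (act : ι → W →+ W) (Y Yns X0 : AddSubgroup W)
    [Finite Y] (hns : Yns ≤ Y) (hYst : ∀ σ, ∀ y ∈ Y, act σ y ∈ Y)
    (hX0ns : Yns ≤ X0) (hX0 : ∀ σ, ∀ y ∈ Y, act σ y - y ∈ X0)
    (hNoTriv : ∀ X' Z : AddSubgroup W, Yns ≤ Z → X' ≤ X0 → (∀ σ, ∀ x ∈ X', act σ x ∈ X') →
      (∀ σ, ∀ x ∈ X', act σ x - x ∈ Z) → X' ≤ Z)
    (V Z : ℕ → AddSubgroup W) (r : ℕ) (hV0 : V 0 = Yns) (hVr : V r = Y)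
    (hV : ∀ i < r, V i ≤ Z (i + 1) ∧ Z (i + 1) ≤ V (i + 1))
    (hVst : ∀ i ≤ r, ∀ σ, ∀ v ∈ V i, act σ v ∈ V i)
    (hZtriv : ∀ i < r, ∀ σ, ∀ v ∈ V (i + 1), act σ v - v ∈ Z (i + 1))
    (hZ : ∀ i < r, Nat.card (Z (i + 1)) ^ 2 ≤ Nat.card (V i) * Nat.card (V (i + 1)))
    (hnew : Nat.card (Yns ⊓ AddSubgroup.closure {w | ∃ σ, ∃ y ∈ Y, w = act σ y - y} :
      AddSubgroup W) ^ 2 ≤ Nat.card Yns) :
    Nat.card (AddSubgroup.closure {w | ∃ σ, ∃ y ∈ Y, w = act σ y - y}) ^ 2 ≤ Nat.card Y := by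
  have hDX : AddSubgroup.closure {w | ∃ σ, ∃ y ∈ Y, w = act σ y - y} ≤ X0 ⊓ Y := by
    rw [AddSubgroup.closure_le]
    rintro w ⟨σ, y, hy, rfl⟩
    exact ⟨hX0 σ y hy, Y.sub_mem (hYst σ y hy) hy⟩
  -- the chain is increasing from `Yns`
  have hmono : ∀ i, i ≤ r → Yns ≤ V i := by
    intro i
    induction i with
    | zero =>
      intro _
      rw [hV0]
    | succ i ih =>
      intro hi
      have hlt : i < r := by omega
      exact (ih (by omega)).trans ((hV i hlt).1.trans (hV i hlt).2)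
  have hfVr : Finite (V r) := by
    rw [hVr]
    infer_instance
  have hold : Nat.card (X0 ⊓ Y : AddSubgroup W) ^ 2 ≤ Nat.card Yns * Nat.card Y := by
    have := h25_chain_count (X0 ⊓ Y) V Z r hV hZ ?_ ?_ ?_
    · rwa [hV0, hVr] at this
    · intro i hlt
      refine hNoTriv (X0 ⊓ Y ⊓ V (i + 1)) (Z (i + 1))
        ((hmono i (by omega)).trans (hV i hlt).1) (inf_le_left.trans inf_le_left) ?_ ?_
      · rintro σ x ⟨⟨hx0, hxY⟩, hxV⟩
        refine ⟨⟨?_, hYst σ x hxY⟩, hVst (i + 1) (by omega) σ x hxV⟩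
        have : act σ x = x + (act σ x - x) := by abel
        rw [this]
        exact X0.add_mem hx0 (hX0 σ x hxY)
      · rintro σ x ⟨_, hxV⟩
        exact hZtriv i hlt σ x hxV
    · rw [hV0]
      exact le_inf hX0ns hns
    · rw [hVr]
      exact inf_le_right
  exact h25_split_count Y Yns _ (X0 ⊓ Y) hns hDX (le_inf hX0ns hns) inf_le_right hnew hold

end count

end Fermat.Agent.S33
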