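import Mathlib
import Fermat.Agent.S33.h18_Depth

/-!
# S33 (N1), abstract form: the two-norm iteration (helper2)

Setting (no completions, no valuations).  `A₀ → R` commutative rings (`A₀` = constants, `R` = the
integral functions of level `M` modulo a power of `p`).  `B₁`, `B₂` = the two components of the
integral functions of level `M p` modulo that power of `p`.  There are two ways of comparing them
with `R`:

* `a₁ : R ≃ₐ[A₀] B₁` (the degeneracy map `α` is an isomorphism on the first component),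
  `b₂ : R ≃ₐ[A₀] B₂` (`β` is an isomorphism on the second component);
* `B₁` is an `R`-algebra via `β`, `B₂` is an `R`-algebra via `α`, both free of rank `p` on a power
  basis `1, t, …, t ^ (p - 1)` with `t ^ p ≡ j` modulo `p` (Kronecker's congruence).

For the two components `x₁`, `x₂` (read in `R` through `a₁`, `b₂`) of a unit `u` whose two norms
`N_α u = x₁ * N (b₂ x₂)` and `N_β u = N (a₁ x₁) * x₂` are `e`-th powers, and which is congruent to
`1` modulo a constant `c 0` that is topologically nilpotent (a chain `c (k+1) ∣ p * c k`,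
`c (k+1) ∣ c k ^ p` reaching `p ^ m`), both `x₁` and `x₂` are `e`-th powers modulo `p ^ m`.

* `h2_n1_depth` : one norm raises the depth (`h18_norm_one_add` transported through the iso);
* `h2_n1_abs`   : the main statement (unit hypotheses);
* `h2_n1_abs_nilp` : the same with `c 0` nilpotent in `R` (units are automatic);
* `h2_n1_chain` : the chain `c` in a ring whose divisibility is total (valuation ring);
* `h2_n1_glue`  : the glued form `∃ g, u - g ^ e ∈ (p ^ m)`.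
-/

set_option autoImplicit false

namespace Fermat.Agent.S33

section Depth

variable {A₀ R B : Type*} [CommRing A₀] [CommRing R] [CommRing B]
  [Algebra A₀ R] [Algebra A₀ B] [Algebra R B] [IsScalarTower A₀ R B]
  (p : ℕ) [Fact p.Prime]
  (bas : Module.Basis (Fin p) R B) (t : B) (hb : ∀ i : Fin p, bas i = t ^ (i : ℕ))
  (j : R) (ht : ∃ w : B, t ^ p = algebraMap R B j + (p : B) * w)

include hb ht in
/-- **One norm raises the depth.**  `a : R ≃ₐ[A₀] B` any `A₀`-algebra isomorphism (not assumed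
`R`-linear).  If `x ≡ 1` modulo the constant `c` and `c'` divides `p * c` and `c ^ p`, then
`N (a x) ≡ 1` modulo `c'`. -/
theorem h2_n1_depth (a : R ≃ₐ[A₀] B) (c c' : A₀) (h1 : c' ∣ (p : A₀) * c) (h2 : c' ∣ c ^ p)
    (x : R) (hx : algebraMap A₀ R c ∣ x - 1) :
    algebraMap A₀ R c' ∣ Algebra.norm R (a x) - 1 := by
  obtain ⟨y, hy⟩ := hx
  have hxe : a x = 1 + algebraMap A₀ R c • a y := by
    have : x = 1 + algebraMap A₀ R c * y := by rw [← hy]; ring
    rw [this, map_add, map_one, map_mul, AlgEquiv.commutes,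
      Algebra.smul_def (algebraMap A₀ R c) (a y), ← IsScalarTower.algebraMap_apply]
  rw [hxe]
  have h := h18_norm_one_add p bas t hb j ht (algebraMap A₀ R c) (a y)
  rw [Ideal.mem_span_pair] at h
  obtain ⟨r, s, hrs⟩ := h
  rw [← hrs]
  obtain ⟨d1, hd1⟩ := h1
  obtain ⟨d2, hd2⟩ := h2
  have e1 : (p : R) * algebraMap A₀ R c = algebraMap A₀ R c' * algebraMap A₀ R d1 := by
    rw [← map_mul, ← hd1, map_mul, map_natCast]
  have e2 : algebraMap A₀ R c ^ p = algebraMap A₀ R c' * algebraMap A₀ R d2 := by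
    rw [← map_mul, ← hd2, map_pow]
  rw [e1, e2]
  exact ⟨r * algebraMap A₀ R d1 + s * algebraMap A₀ R d2, by ring⟩

end Depth

section Main

variable {A₀ R B₁ B₂ : Type*} [CommRing A₀] [CommRing R] [CommRing B₁] [CommRing B₂]
  [Algebra A₀ R] [Algebra A₀ B₁] [Algebra A₀ B₂] [Algebra R B₁] [Algebra R B₂]
  [IsScalarTower A₀ R B₁] [IsScalarTower A₀ R B₂]

/-- The multiplicative map `x ↦ N_{B/R} (a x)` for a ring isomorphism `a : R ≃ B` onto an
`R`-algebra `B` (the isomorphism is not assumed `R`-linear). -/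
noncomputable def h2_n1_nu {R B : Type*} [CommRing R] [CommRing B] [Algebra R B]
    (a : R ≃+* B) : Monoid.End R :=
  (Algebra.norm R).comp a.toMonoidHom

theorem h2_n1_nu_apply {R B : Type*} [CommRing R] [CommRing B] [Algebra R B]
    (a : R ≃+* B) (x : R) : h2_n1_nu a x = Algebra.norm R (a x) := rfl

variable (p : ℕ) [Fact p.Prime]
  (a₁ : R ≃ₐ[A₀] B₁) (b₂ : R ≃ₐ[A₀] B₂)
  (bas₁ : Module.Basis (Fin p) R B₁) (t₁ : B₁) (hb₁ : ∀ i : Fin p, bas₁ i = t₁ ^ (i : ℕ))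
  (j₁ : R) (ht₁ : ∃ w : B₁, t₁ ^ p = algebraMap R B₁ j₁ + (p : B₁) * w)
  (bas₂ : Module.Basis (Fin p) R B₂) (t₂ : B₂) (hb₂ : ∀ i : Fin p, bas₂ i = t₂ ^ (i : ℕ))
  (j₂ : R) (ht₂ : ∃ w : B₂, t₂ ^ p = algebraMap R B₂ j₂ + (p : B₂) * w)

/-- The basic relation `x₁ * ν₂(h')^e = h^e * Φ(x₁)`, `Φ = ν₂ ∘ ν₁` (pure algebra). -/
theorem h2_n1_rel (a₁ : R ≃+* B₁) (b₂ : R ≃+* B₂) (e : ℕ) (x₁ x₂ h h' : R)
    (hα : x₁ * Algebra.norm R (b₂ x₂) = h ^ e)
    (hβ : Algebra.norm R (a₁ x₁) * x₂ = h' ^ e) :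
    x₁ * (h2_n1_nu b₂ h') ^ e = h ^ e * (h2_n1_nu b₂ * h2_n1_nu a₁) x₁ := by
  have h1 : (h2_n1_nu b₂ h') ^ e = (h2_n1_nu b₂ * h2_n1_nu a₁) x₁ * h2_n1_nu b₂ x₂ := by
    rw [← map_pow, ← hβ, map_mul]
    rfl
  rw [h1, ← hα, h2_n1_nu_apply b₂ x₂]
  ring

include hb₁ ht₁ hb₂ ht₂ in
/-- **(N1), abstract form.**  See the file header.  `x₁`, `x₂` units of `R` congruent to `1`
modulo the constant `c 0`; the two norm relations `hα`, `hβ`; a depth chain `c` with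
`p ^ m ∣ c (2 K)`.  Then `x₁` is an `e`-th power modulo `p ^ m`. -/
theorem h2_n1_abs (e : ℕ) (he : e ≠ 0) (x₁ x₂ h h' : R) (hx₁u : IsUnit x₁) (hx₂u : IsUnit x₂)
    (hα : x₁ * Algebra.norm R (b₂ x₂) = h ^ e)
    (hβ : Algebra.norm R (a₁ x₁) * x₂ = h' ^ e)
    (c : ℕ → A₀) (hc1 : ∀ k, c (k + 1) ∣ (p : A₀) * c k) (hc2 : ∀ k, c (k + 1) ∣ c k ^ p)
    (hx₁ : algebraMap A₀ R (c 0) ∣ x₁ - 1)
    (m K : ℕ) (hK : (p : A₀) ^ m ∣ c (2 * K)) :
    ∃ b : R, IsUnit b ∧ x₁ - b ^ e ∈ Ideal.span {(p : R) ^ m} := by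
  classical
  set ν₁ : Monoid.End R := h2_n1_nu a₁.toRingEquiv with hν₁
  set ν₂ : Monoid.End R := h2_n1_nu b₂.toRingEquiv with hν₂
  set Φ : Monoid.End R := ν₂ * ν₁ with hΦ
  have hrel : x₁ * (ν₂ h') ^ e = h ^ e * Φ x₁ :=
    h2_n1_rel a₁.toRingEquiv b₂.toRingEquiv e x₁ x₂ h h' hα hβ
  -- `h'` is a unit
  have hh'u : IsUnit h' := by
    have h1 : IsUnit (h' ^ e) := by
      rw [← hβ]
      exact ((hx₁u.map a₁.toRingEquiv.toMonoidHom).map (Algebra.norm R)).mul hx₂u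
    exact (isUnit_pow_iff he).mp h1
  -- the iterated relation
  have hiter : ∀ k : ℕ, ∃ A B : R, IsUnit A ∧ x₁ * A ^ e = B ^ e * (Φ ^ k) x₁ := by
    intro k
    induction k with
    | zero => exact ⟨1, 1, isUnit_one, by simp⟩
    | succ k ih =>
      obtain ⟨A, B, hA, hAB⟩ := ih
      refine ⟨A * (Φ ^ k) (ν₂ h'), B * (Φ ^ k) h, hA.mul ((hh'u.map ν₂).map (Φ ^ k)), ?_⟩
      have h2 : (Φ ^ k) x₁ * ((Φ ^ k) (ν₂ h')) ^ e = ((Φ ^ k) h) ^ e * (Φ ^ (k + 1)) x₁ := by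
        have h3 := congrArg (Φ ^ k) hrel
        rw [map_mul, map_mul, map_pow, map_pow] at h3
        rw [h3, pow_succ]
        rfl
      calc x₁ * (A * (Φ ^ k) (ν₂ h')) ^ e = (x₁ * A ^ e) * ((Φ ^ k) (ν₂ h')) ^ e := by ring
        _ = B ^ e * ((Φ ^ k) x₁ * ((Φ ^ k) (ν₂ h')) ^ e) := by rw [hAB]; ring
        _ = (B * (Φ ^ k) h) ^ e * (Φ ^ (k + 1)) x₁ := by rw [h2]; ring
  -- the depth
  have hdepth : ∀ k : ℕ, algebraMap A₀ R (c (2 * k)) ∣ (Φ ^ k) x₁ - 1 := by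
    intro k
    induction k with
    | zero => simpa using hx₁
    | succ k ih =>
      have s1 : algebraMap A₀ R (c (2 * k + 1)) ∣ ν₁ ((Φ ^ k) x₁) - 1 :=
        h2_n1_depth p bas₁ t₁ hb₁ j₁ ht₁ a₁ (c (2 * k)) (c (2 * k + 1)) (hc1 _) (hc2 _) _ ih
      have s2 : algebraMap A₀ R (c (2 * k + 1 + 1)) ∣ ν₂ (ν₁ ((Φ ^ k) x₁)) - 1 :=
        h2_n1_depth p bas₂ t₂ hb₂ j₂ ht₂ b₂ (c (2 * k + 1)) (c (2 * k + 1 + 1)) (hc1 _) (hc2 _)
          _ s1
      have e1 : (Φ ^ (k + 1)) x₁ = ν₂ (ν₁ ((Φ ^ k) x₁)) := by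
        rw [pow_succ']
        rfl
      rw [e1]
      exact s2
  obtain ⟨A, B, hA, hAB⟩ := hiter K
  obtain ⟨Au, rfl⟩ := hA
  refine ⟨B * ↑Au⁻¹, ?_, ?_⟩
  · -- `B` is a unit since `x₁ * A^e = B^e * Φ^K x₁` is a unit
    have h1 : IsUnit (B ^ e * (Φ ^ K) x₁) := by
      rw [← hAB]
      exact hx₁u.mul (Au.isUnit.pow e)
    have h2 : IsUnit (B ^ e) := isUnit_of_mul_isUnit_left h1
    exact ((isUnit_pow_iff he).mp h2).mul (Au⁻¹).isUnit
  · have hx : x₁ = (B * ↑Au⁻¹) ^ e * (Φ ^ K) x₁ := by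
      have h1 : x₁ = x₁ * (↑Au : R) ^ e * (↑Au⁻¹ : R) ^ e := by
        rw [mul_assoc, ← mul_pow, Units.mul_inv, one_pow, mul_one]
      calc x₁ = x₁ * (↑Au : R) ^ e * (↑Au⁻¹ : R) ^ e := h1
        _ = B ^ e * (Φ ^ K) x₁ * (↑Au⁻¹ : R) ^ e := by rw [hAB]
        _ = (B * ↑Au⁻¹) ^ e * (Φ ^ K) x₁ := by ring
    have hsub : x₁ - (B * ↑Au⁻¹) ^ e = (B * ↑Au⁻¹) ^ e * ((Φ ^ K) x₁ - 1) := by
      rw [mul_sub, mul_one, ← hx]
    rw [hsub, Ideal.mem_span_singleton]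
    obtain ⟨d, hd⟩ := hK
    have h3 : (p : R) ^ m ∣ algebraMap A₀ R (c (2 * K)) := by
      rw [hd, map_mul, map_pow, map_natCast]
      exact dvd_mul_right _ _
    exact Dvd.dvd.mul_left (h3.trans (hdepth K)) _

include hb₁ ht₁ hb₂ ht₂ in
/-- **(N1), abstract form, both components**, with `c 0` nilpotent in `R` (so that the units are
automatic): `x₁` and `x₂` are `e`-th powers modulo `p ^ m`. -/
theorem h2_n1_abs_nilp (e : ℕ) (he : e ≠ 0) (x₁ x₂ h h' : R)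
    (hα : x₁ * Algebra.norm R (b₂ x₂) = h ^ e)
    (hβ : Algebra.norm R (a₁ x₁) * x₂ = h' ^ e)
    (c : ℕ → A₀) (hc1 : ∀ k, c (k + 1) ∣ (p : A₀) * c k) (hc2 : ∀ k, c (k + 1) ∣ c k ^ p)
    (hnil : IsNilpotent (algebraMap A₀ R (c 0)))
    (hx₁ : algebraMap A₀ R (c 0) ∣ x₁ - 1) (hx₂ : algebraMap A₀ R (c 0) ∣ x₂ - 1)
    (m K : ℕ) (hK : (p : A₀) ^ m ∣ c (2 * K)) :
    (∃ b : R, IsUnit b ∧ x₁ - b ^ e ∈ Ideal.span {(p : R) ^ m}) ∧
      ∃ b : R, IsUnit b ∧ x₂ - b ^ e ∈ Ideal.span {(p : R) ^ m} := by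
  have hunit : ∀ x : R, algebraMap A₀ R (c 0) ∣ x - 1 → IsUnit x := by
    intro x hx
    obtain ⟨y, hy⟩ := hx
    have h1 : x = 1 + algebraMap A₀ R (c 0) * y := by rw [← hy]; ring
    rw [h1]
    exact IsNilpotent.isUnit_one_add ((Commute.all _ _).isNilpotent_mul_right hnil)
  refine ⟨h2_n1_abs p a₁ b₂ bas₁ t₁ hb₁ j₁ ht₁ bas₂ t₂ hb₂ j₂ ht₂ e he x₁ x₂ h h' (hunit _ hx₁)
    (hunit _ hx₂) hα hβ c hc1 hc2 hx₁ m K hK, ?_⟩
  exact h2_n1_abs p b₂ a₁ bas₂ t₂ hb₂ j₂ ht₂ bas₁ t₁ hb₁ j₁ ht₁ e he x₂ x₁ h' h (hunit _ hx₂)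
    (hunit _ hx₁) (by rw [mul_comm]; exact hβ) (by rw [mul_comm]; exact hα) c hc1 hc2 hx₂ m K hK

end Main

section Chain

/-- **The depth chain in a ring with total divisibility** (valuation ring): starting from `c0`
with `p ^ m ∣ c0 ^ N` for some `N` (rank one, `c0` a non-unit), there is a chain
`c (k+1) ∣ p * c k`, `c (k+1) ∣ c k ^ p` which is eventually divisible by `p ^ m`. -/
theorem h2_n1_chain {A₀ : Type*} [CommRing A₀] (p : ℕ) (hp : 2 ≤ p)
    (htot : ∀ a b : A₀, a ∣ b ∨ b ∣ a) (c0 : A₀) (m : ℕ)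
    (hN : ∃ N : ℕ, (p : A₀) ^ m ∣ c0 ^ N) :
    ∃ c : ℕ → A₀, c 0 = c0 ∧ (∀ k, c (k + 1) ∣ (p : A₀) * c k) ∧ (∀ k, c (k + 1) ∣ c k ^ p) ∧
      ∃ K, ∀ k, K ≤ k → (p : A₀) ^ m ∣ c k := by
  classical
  let step : A₀ → A₀ := fun x => if x ^ p ∣ (p : A₀) * x then x ^ p else (p : A₀) * x
  let c : ℕ → A₀ := fun k => step^[k] c0
  have hcs : ∀ k, c (k + 1) = step (c k) := fun k => Function.iterate_succ_apply' step k c0
  have hs1 : ∀ x : A₀, step x ∣ (p : A₀) * x := by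
    intro x
    by_cases hx : x ^ p ∣ (p : A₀) * x
    · simp only [step, if_pos hx]; exact hx
    · simp only [step, if_neg hx]; exact dvd_rfl
  have hs2 : ∀ x : A₀, step x ∣ x ^ p := by
    intro x
    by_cases hx : x ^ p ∣ (p : A₀) * x
    · simp only [step, if_pos hx]; exact dvd_rfl
    · simp only [step, if_neg hx]
      exact (htot _ _).resolve_right hx
  -- the common divisor `d` of `c0` and `p`
  obtain ⟨d, hd0, hdp, hdm⟩ : ∃ d : A₀, d ∣ c0 ∧ d ∣ (p : A₀) ∧ ∃ N : ℕ, (p : A₀) ^ m ∣ d ^ N := by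
    by_cases h : c0 ∣ (p : A₀)
    · exact ⟨c0, dvd_rfl, h, hN⟩
    · exact ⟨(p : A₀), (htot _ _).resolve_left h, dvd_rfl, m, dvd_rfl⟩
  have hs3 : ∀ x : A₀, d ∣ x → x * d ∣ step x := by
    intro x hx
    by_cases hx' : x ^ p ∣ (p : A₀) * x
    · simp only [step, if_pos hx']
      obtain ⟨q, rfl⟩ : ∃ q, p = q + 2 := ⟨p - 2, by omega⟩
      have : x ^ (q + 2) = x * x * x ^ q := by ring
      rw [this, mul_assoc]
      exact mul_dvd_mul_left x (Dvd.dvd.mul_right hx _)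
    · simp only [step, if_neg hx']
      rw [mul_comm (p : A₀) x]
      exact mul_dvd_mul_left x hdp
  have hdiv : ∀ k, d ^ (k + 1) ∣ c k := by
    intro k
    induction k with
    | zero => simpa [c] using hd0
    | succ k ih =>
      rw [hcs]
      have h1 : d ∣ c k := (dvd_pow_self d (Nat.succ_ne_zero k)).trans ih
      have h2 := hs3 (c k) h1
      refine Dvd.dvd.trans ?_ h2
      rw [pow_succ]
      exact mul_dvd_mul_right ih d
  obtain ⟨N, hN'⟩ := hdm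
  refine ⟨c, rfl, fun k => ?_, fun k => ?_, N, fun k hk => ?_⟩
  · rw [hcs]; exact hs1 _
  · rw [hcs]; exact hs2 _
  · exact hN'.trans ((pow_dvd_pow d (by omega : N ≤ k + 1)).trans (hdiv k))

end Chain

section Glue

/-- **Gluing the two components.**  `ρ₁ ρ₂ : O → R` the two component maps (jointly surjective,
and detecting divisibility by `p ^ m`); if both components of `u` are `e`-th powers modulo `p ^ m`
then `u` is an `e`-th power modulo `p ^ m`. -/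
theorem h2_n1_glue {O R : Type*} [CommRing O] [CommRing R] (p m e : ℕ) (ρ₁ ρ₂ : O →+* R)
    (hsurj : ∀ y₁ y₂ : R, ∃ g : O, ρ₁ g = y₁ ∧ ρ₂ g = y₂)
    (hker : ∀ f : O, ρ₁ f ∈ Ideal.span {(p : R) ^ m} → ρ₂ f ∈ Ideal.span {(p : R) ^ m} →
      f ∈ Ideal.span {(p : O) ^ m})
    (u : O) (b₁ b₂ : R) (h₁ : ρ₁ u - b₁ ^ e ∈ Ideal.span {(p : R) ^ m})
    (h₂ : ρ₂ u - b₂ ^ e ∈ Ideal.span {(p : R) ^ m}) :
    ∃ g : O, ρ₁ g = b₁ ∧ ρ₂ g = b₂ ∧ u - g ^ e ∈ Ideal.span {(p : O) ^ m} := by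
  obtain ⟨g, hg₁, hg₂⟩ := hsurj b₁ b₂
  refine ⟨g, hg₁, hg₂, hker _ ?_ ?_⟩
  · rw [map_sub, map_pow, hg₁]; exact h₁
  · rw [map_sub, map_pow, hg₂]; exact h₂

end Glue

section NormTools

/-- The norm of a product algebra is the product of the norms. -/
theorem h2_norm_prod {R S T : Type*} [CommRing R] [CommRing S] [CommRing T] [Algebra R S]
    [Algebra R T] [Module.Free R S] [Module.Free R T] [Module.Finite R S] [Module.Finite R T]
    (x : S × T) : Algebra.norm R x = Algebra.norm R x.1 * Algebra.norm R x.2 := by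
  rw [Algebra.norm_apply, Algebra.norm_apply, Algebra.norm_apply, ← LinearMap.det_prodMap]
  congr 1

/-- The norm of an algebra isomorphic to the base ring. -/
theorem h2_norm_of_equiv_self {R S : Type*} [CommRing R] [CommRing S] [Algebra R S]
    (e : S ≃ₐ[R] R) (x : S) : Algebra.norm R x = e x := by
  rw [← Algebra.norm_eq_of_algEquiv e x, Algebra.norm_self]
  rfl

/-- Base change of the norm along compatible ring homomorphisms with compatible bases. -/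
theorem h2_norm_map_of_basis {R S R' S' ι : Type*} [CommRing R] [CommRing S] [CommRing R']
    [CommRing S'] [Algebra R S] [Algebra R' S'] [Fintype ι] [DecidableEq ι]
    (b : Module.Basis ι R S) (b' : Module.Basis ι R' S') (φ : R →+* R') (ψ : S →+* S')
    (hcomp : ∀ r : R, ψ (algebraMap R S r) = algebraMap R' S' (φ r))
    (hb : ∀ i, ψ (b i) = b' i) (x : S) :
    Algebra.norm R' (ψ x) = φ (Algebra.norm R x) := by
  rw [Algebra.norm_eq_matrix_det b', Algebra.norm_eq_matrix_det b, RingHom.map_det]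
  congr 1
  ext i k
  rw [RingHom.mapMatrix_apply, Matrix.map_apply]
  -- compare the expansions of `ψ (x * b k)`
  have h1 : ψ (x * b k) = ∑ i, (φ (Algebra.leftMulMatrix b x i k)) • b' i := by
    have h2 : x * b k = ∑ i, Algebra.leftMulMatrix b x i k • b i := by
      conv_lhs => rw [← b.sum_repr (x * b k)]
      refine Finset.sum_congr rfl fun i _ => ?_
      rw [Algebra.leftMulMatrix_eq_repr_mul]
    rw [h2, map_sum]
    refine Finset.sum_congr rfl fun i _ => ?_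
    rw [Algebra.smul_def, map_mul, hcomp, hb, ← Algebra.smul_def]
  have h3 : ψ x * b' k = ∑ i, Algebra.leftMulMatrix b' (ψ x) i k • b' i := by
    conv_lhs => rw [← b'.sum_repr (ψ x * b' k)]
    refine Finset.sum_congr rfl fun i _ => ?_
    rw [Algebra.leftMulMatrix_eq_repr_mul]
  rw [map_mul, hb, h3] at h1
  have h4 := congrArg (fun z => b'.repr z i) h1
  simp only [map_sum, map_smul, Module.Basis.repr_self, Finsupp.smul_single, smul_eq_mul,
    mul_one, Finsupp.coe_finsetSum, Finset.sum_apply, Finsupp.single_apply,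
    Finset.sum_ite_eq', Finset.mem_univ, if_true] at h4
  exact h4

end NormTools

end Fermat.Agent.S33
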