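/-
S33 / (N2) cover step, generic brick (helper32).  Mathlib only.

`O'` a free `O`-algebra with basis `b : ι → O'`; `red : O →+* Rb` a "reduction" and
`red' a : O' →+* Rb` (`a : ι`, the *sheets*) ring homomorphisms extending `red`, such that the
sheet matrix `(red' a (b l))_{a,l}` is invertible (the sheets are separated by the basis:
Vandermonde for an Artin–Schreier power basis, identity for a frame of idempotents).  Then the
characteristic polynomial of multiplication by `f : O'` reduces to `∏ a, (X - red' a f)`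
(`h32_charpoly_red`): the coefficients of the characteristic polynomial are, up to sign, the
elementary symmetric functions of the reductions of `f` on the sheets.

`h32_node_prod_eq` : with two such reductions (the two components) and evaluation maps
`ev₁`, `ev₂` at the two branches of a node, which agree on the reductions of the coefficients of
the characteristic polynomial, the polynomials `∏ a, (X - ev₁ (red₁' a f))` and
`∏ a, (X - ev₂ (red₂' a f))` coincide.  This is exactly the hypothesis `hV` of the block lemmas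
`h42_block_le` / `h42_block_eq` (S34/h42_Block.lean) for the value vectors at the node.
-/
import Mathlib

set_option autoImplicit false

namespace Fermat.Agent.S33

open Polynomial Matrix

section Mat

variable {Rb : Type*} [CommRing Rb] {ι : Type*} [Fintype ι] [DecidableEq ι]

/-- A matrix intertwined with a diagonal matrix by an invertible matrix has the characteristic
polynomial of the diagonal matrix. -/
theorem h32_charpoly_of_intertwine (Mb V : Matrix ι ι Rb) (d : ι → Rb) (hV : IsUnit V)
    (h : Matrix.diagonal d * V = V * Mb) :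
    Mb.charpoly = ∏ a, (X - C (d a)) := by
  obtain ⟨U, rfl⟩ := hV
  have h1 : Mb = (U⁻¹ : (Matrix ι ι Rb)ˣ).val * (Matrix.diagonal d * U.val) := by
    rw [h, ← mul_assoc, Units.inv_mul, one_mul]
  rw [h1, Matrix.charpoly_mul_comm, mul_assoc, Units.mul_inv, mul_one, Matrix.charpoly_diagonal]

end Mat

section Alg

variable {O O' Rb : Type*} [CommRing O] [CommRing O'] [Algebra O O'] [CommRing Rb]
  {ι : Type*} [Fintype ι] [DecidableEq ι]

/-- **Reduction of the characteristic polynomial on the sheets.** -/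
theorem h32_charpoly_red (b : Module.Basis ι O O') (red : O →+* Rb) (red' : ι → O' →+* Rb)
    (hred : ∀ a x, red' a (algebraMap O O' x) = red x)
    (hV : IsUnit (Matrix.of fun a l => red' a (b l) : Matrix ι ι Rb)) (f : O') :
    (Algebra.leftMulMatrix b f).charpoly.map red = ∏ a, (X - C (red' a f)) := by
  rw [← Matrix.charpoly_map]
  apply h32_charpoly_of_intertwine _ _ _ hV
  ext a l
  rw [Matrix.diagonal_mul, Matrix.mul_apply]
  simp only [Matrix.of_apply, Matrix.map_apply]
  have hfb : f * b l = ∑ m, Algebra.leftMulMatrix b f m l • b m := by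
    conv_lhs => rw [← b.sum_repr (f * b l)]
    refine Finset.sum_congr rfl fun m _ => ?_
    rw [Algebra.leftMulMatrix_eq_repr_mul]
  rw [← map_mul, hfb, map_sum]
  refine Finset.sum_congr rfl fun m _ => ?_
  rw [Algebra.smul_def, map_mul, hred, mul_comm]

end Alg

section Node

variable {O O' : Type*} [CommRing O] [CommRing O'] [Algebra O O']
  {ι : Type*} [Fintype ι] [DecidableEq ι]
  {k Rb₁ Rb₂ : Type*} [CommRing k] [CommRing Rb₁] [CommRing Rb₂] [Algebra k Rb₁] [Algebra k Rb₂]

omit [DecidableEq ι] in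
/-- An auxiliary statement: a product of linear factors with roots in a subalgebra, mapped by a
homomorphism of the subalgebra, is determined by the images of its coefficients. -/
theorem h32_coeff_prod_map {R : Type*} [CommRing R] [Algebra k R] (B : Subalgebra k R)
    (ev : B →ₐ[k] k) (r : ι → R) (hr : ∀ a, r a ∈ B) (j : ℕ) :
    ∃ h : (∏ a, (X - C (r a)) : R[X]).coeff j ∈ B,
      (∏ a, (X - C (ev ⟨r a, hr a⟩)) : k[X]).coeff j = ev ⟨_, h⟩ := by
  have h1 : (∏ a, (X - C (⟨r a, hr a⟩ : B)) : B[X]).map (B.val : B →+* R) =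
      ∏ a, (X - C (r a)) := by
    rw [Polynomial.map_prod]
    refine Finset.prod_congr rfl fun a _ => ?_
    simp
  have h2 : (∏ a, (X - C (⟨r a, hr a⟩ : B)) : B[X]).map (ev : B →+* k) =
      ∏ a, (X - C (ev ⟨r a, hr a⟩)) := by
    rw [Polynomial.map_prod]
    refine Finset.prod_congr rfl fun a _ => ?_
    simp
  have h3 : (∏ a, (X - C (r a)) : R[X]).coeff j =
      ((∏ a, (X - C (⟨r a, hr a⟩ : B)) : B[X]).coeff j : R) := by
    rw [← h1, Polynomial.coeff_map]
    rfl
  refine ⟨h3 ▸ Subtype.coe_prop _, ?_⟩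
  rw [← h2, Polynomial.coeff_map, RingHom.coe_coe]
  exact congrArg ev (Subtype.ext h3.symm)

/-- **Node condition for the sheets.**  If the reductions (on the two components) of the
coefficients of the characteristic polynomial of `f` have equal values at the two branches of a
node, then the values of `f` on the sheets over the two branches have the same "characteristic
polynomial" `∏ a, (X - value)`, i.e. form the same multiset. -/
theorem h32_node_prod_eq (b : Module.Basis ι O O')
    (red₁ : O →+* Rb₁) (red₂ : O →+* Rb₂) (red₁' : ι → O' →+* Rb₁) (red₂' : ι → O' →+* Rb₂)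
    (hred₁ : ∀ a x, red₁' a (algebraMap O O' x) = red₁ x)
    (hred₂ : ∀ a x, red₂' a (algebraMap O O' x) = red₂ x)
    (hV₁ : IsUnit (Matrix.of fun a l => red₁' a (b l) : Matrix ι ι Rb₁))
    (hV₂ : IsUnit (Matrix.of fun a l => red₂' a (b l) : Matrix ι ι Rb₂))
    (B₁ : Subalgebra k Rb₁) (B₂ : Subalgebra k Rb₂) (ev₁ : B₁ →ₐ[k] k) (ev₂ : B₂ →ₐ[k] k)
    (f : O')
    (hnode : ∀ j : ℕ, ∀ (h1 : red₁ ((Algebra.leftMulMatrix b f).charpoly.coeff j) ∈ B₁)
      (h2 : red₂ ((Algebra.leftMulMatrix b f).charpoly.coeff j) ∈ B₂), ev₁ ⟨_, h1⟩ = ev₂ ⟨_, h2⟩)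
    (hf₁ : ∀ a, red₁' a f ∈ B₁) (hf₂ : ∀ a, red₂' a f ∈ B₂) :
    (∏ a, (X - C (ev₁ ⟨red₁' a f, hf₁ a⟩)) : k[X]) = ∏ a, (X - C (ev₂ ⟨red₂' a f, hf₂ a⟩)) := by
  ext j
  obtain ⟨h1, e1⟩ := h32_coeff_prod_map B₁ ev₁ (fun a => red₁' a f) hf₁ j
  obtain ⟨h2, e2⟩ := h32_coeff_prod_map B₂ ev₂ (fun a => red₂' a f) hf₂ j
  rw [e1, e2]
  have c1 := congrArg (fun P : Rb₁[X] => P.coeff j) (h32_charpoly_red b red₁ red₁' hred₁ hV₁ f)
  have c2 := congrArg (fun P : Rb₂[X] => P.coeff j) (h32_charpoly_red b red₂ red₂' hred₂ hV₂ f)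
  simp only [Polynomial.coeff_map] at c1 c2
  have h1' : red₁ ((Algebra.leftMulMatrix b f).charpoly.coeff j) ∈ B₁ := c1 ▸ h1
  have h2' : red₂ ((Algebra.leftMulMatrix b f).charpoly.coeff j) ∈ B₂ := c2 ▸ h2
  have key := hnode j h1' h2'
  have g1 : (⟨_, h1⟩ : B₁) = ⟨_, h1'⟩ := Subtype.ext c1.symm
  have g2 : (⟨_, h2⟩ : B₂) = ⟨_, h2'⟩ := Subtype.ext c2.symm
  rw [g1, g2]
  exact key

end Node

end Fermat.Agent.S33
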