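import Mathlib
import Fermat.Prelude.Def_GaloisRep_LocalConditions

/-!
# S33, row ALG (A) (helper34): ordinarity from a quadratic relation on inertia

Mathlib + prelude definitions only.

* `h34_ordinary_core`: `T` local, `V` free of rank 2, `ρ : G →* End_T V`, subgroups `I`, `D` with
  `g I g⁻¹ ⊆ I` for `g ∈ D`, a function `ε : G → T` with
  `(ρ τ - ε τ) (ρ σ - 1) = 0` for all `σ, τ ∈ I`, and one `σ₀ ∈ I` with `ε σ₀ - 1` a unit and
  `det (ρ σ₀) = ε σ₀`.  Then `L := (ρ σ₀ - 1) V` is spanned by the first vector of a basis of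
  `V`, is stable under `D`, and `(ρ σ - 1) V ⊆ L` for `σ ∈ I`.
* `h34_isOrdinaryAt_of_rel`: the same for a `GaloisRepAdic`, giving `IsOrdinaryAt p`.
* `h34_end_eq_zero_of_forall_mem`: an endomorphism of a finite module over a noetherian local
  ring with image in `𝔪^k V` for all `k` is zero.
* `h34_isOrdinaryAt_of_det_rel`: the form with `ε = det` and the relation known modulo every
  power of the maximal ideal.
-/

set_option autoImplicit false

noncomputable section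

namespace Fermat.Agent.S33

/-- the range of an idempotent endomorphism of a finite free module over a local ring is free. -/
theorem h34_free_range_idem {T V : Type*} [CommRing T] [IsLocalRing T] [AddCommGroup V]
    [Module T V] [Module.Free T V] [Module.Finite T V] (q : Module.End T V)
    (hq : IsIdempotentElem q) : Module.Free T (LinearMap.range q) := by
  have hproj : Module.Projective T (LinearMap.range q) :=
    Module.Projective.of_split (LinearMap.range q).subtype q.rangeRestrict (by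
      ext ⟨x, hx⟩
      obtain ⟨y, rfl⟩ := hx
      have h1 : q (q y) = q y := by
        have h2 : (q * q) y = q y := by rw [hq.eq]
        exact h2
      simp [h1])
  exact Module.free_of_flat_of_isLocalRing

/-- **ALG, abstract form.** -/
theorem h34_ordinary_core {T V : Type*} [CommRing T] [IsLocalRing T] [AddCommGroup V]
    [Module T V] [Module.Free T V] [Module.Finite T V] (hrank : Module.finrank T V = 2)
    {G : Type*} [Group G] (ρ : G →* Module.End T V) (D I : Subgroup G)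
    (hnorm : ∀ g ∈ D, ∀ σ ∈ I, g * σ * g⁻¹ ∈ I) (ε : G → T)
    (hrel : ∀ σ ∈ I, ∀ τ ∈ I, (ρ τ - ε τ • 1) * (ρ σ - 1) = 0)
    {σ₀ : G} (hσ₀ : σ₀ ∈ I) (hu : IsUnit (ε σ₀ - 1)) (hdet : LinearMap.det (ρ σ₀) = ε σ₀) :
    ∃ L : Submodule T V, (∃ b : Module.Basis (Fin 2) T V, L = Submodule.span T {b 0}) ∧
      (∀ g ∈ D, ∀ v ∈ L, ρ g v ∈ L) ∧ (∀ σ ∈ I, ∀ v : V, ρ σ v - v ∈ L) := by
  classical
  obtain ⟨w, hw⟩ := hu.exists_left_inv
  have h1 : (ρ σ₀ - ε σ₀ • 1) * (ρ σ₀ - 1) = 0 := hrel σ₀ hσ₀ σ₀ hσ₀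
  have h2 : (ρ σ₀ - 1) * (ρ σ₀ - 1) = (ε σ₀ - 1) • (ρ σ₀ - 1) := by
    have h3 : ρ σ₀ - 1 = (ρ σ₀ - ε σ₀ • 1) + (ε σ₀ - 1) • (1 : Module.End T V) := by
      rw [sub_smul, one_smul]
      abel
    calc (ρ σ₀ - 1) * (ρ σ₀ - 1)
        = ((ρ σ₀ - ε σ₀ • 1) + (ε σ₀ - 1) • (1 : Module.End T V)) * (ρ σ₀ - 1) := by rw [← h3]
      _ = (ρ σ₀ - ε σ₀ • 1) * (ρ σ₀ - 1) + (ε σ₀ - 1) • (ρ σ₀ - 1) := by
          rw [add_mul, smul_mul_assoc, one_mul]
      _ = (ε σ₀ - 1) • (ρ σ₀ - 1) := by rw [h1, zero_add]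
  -- the idempotent
  let e : Module.End T V := w • (ρ σ₀ - 1)
  have hfe : ρ σ₀ - 1 = (ε σ₀ - 1) • e := by
    change ρ σ₀ - 1 = (ε σ₀ - 1) • (w • (ρ σ₀ - 1))
    rw [smul_smul, mul_comm, hw, one_smul]
  have hidem : IsIdempotentElem e := by
    change (w • (ρ σ₀ - 1)) * (w • (ρ σ₀ - 1)) = w • (ρ σ₀ - 1)
    rw [smul_mul_assoc, mul_smul_comm, h2, smul_smul, smul_smul, mul_assoc, hw, mul_one]
  have hidem' : IsIdempotentElem (1 - e) := hidem.one_sub
  have hee' : ∀ v, e ((1 - e) v) = 0 := by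
    intro v
    have h3 : (e * (1 - e)) v = 0 := by
      rw [mul_sub, mul_one, hidem.eq, sub_self]
      rfl
    exact h3
  have hev : ∀ v, e (e v) = e v := by
    intro v
    have h3 : (e * e) v = e v := by rw [hidem.eq]
    exact h3
  -- the line
  have hmemL : ∀ x : V, (ρ σ₀ - ε σ₀ • 1) x = 0 → x ∈ LinearMap.range e := by
    intro x hx
    refine ⟨x, ?_⟩
    have h3 : ρ σ₀ x = ε σ₀ • x := by
      have h4 : ρ σ₀ x - ε σ₀ • x = 0 := by simpa using hx
      exact sub_eq_zero.mp h4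
    change (w • (ρ σ₀ - 1)) x = x
    rw [LinearMap.smul_apply, LinearMap.sub_apply, h3, Module.End.one_apply,
      show ε σ₀ • x - x = (ε σ₀ - 1) • x by rw [sub_smul, one_smul], smul_smul, hw, one_smul]
  have hI : ∀ σ ∈ I, ∀ v : V, ρ σ v - v ∈ LinearMap.range e := by
    intro σ hσ v
    apply hmemL
    have h3 := hrel σ hσ σ₀ hσ₀
    have h4 : ((ρ σ₀ - ε σ₀ • 1) * (ρ σ - 1)) v = 0 := by rw [h3]; rfl
    simpa using h4
  have hD : ∀ g ∈ D, ∀ v ∈ LinearMap.range e, ρ g v ∈ LinearMap.range e := by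
    rintro g hg v ⟨v', rfl⟩
    have h3 : ρ g (e v') = w • (ρ (g * σ₀ * g⁻¹) (ρ g v') - ρ g v') := by
      change ρ g ((w • (ρ σ₀ - 1)) v') = _
      rw [LinearMap.smul_apply, map_smul, LinearMap.sub_apply, Module.End.one_apply, map_sub]
      congr 2
      rw [← Module.End.mul_apply, ← Module.End.mul_apply, ← map_mul, ← map_mul]
      congr 2
      group
    rw [h3]
    exact Submodule.smul_mem _ _ (hI _ (hnorm g hg σ₀ hσ₀) _)
  -- freeness and ranks
  have hfree1 : Module.Free T (LinearMap.range e) := h34_free_range_idem e hidem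
  have hfree2 : Module.Free T (LinearMap.range (1 - e)) := h34_free_range_idem (1 - e) hidem'
  have hcompl : IsCompl (LinearMap.range e) (LinearMap.range (1 - e)) := by
    have h3 := LinearMap.IsIdempotentElem.isCompl hidem
    rwa [LinearMap.IsIdempotentElem.ker_eq_range_one_sub hidem] at h3
  have hsum : Module.finrank T (LinearMap.range e) + Module.finrank T (LinearMap.range (1 - e))
      = 2 := by
    rw [← Module.finrank_prod, ← hrank]
    exact LinearEquiv.finrank_eq (Submodule.prodEquivOfIsCompl _ _ hcompl)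
  have hdetunit : IsUnit (LinearMap.det (ρ σ₀)) := by
    have h3 : LinearMap.det (ρ σ₀) * LinearMap.det (ρ σ₀⁻¹) = 1 := by
      rw [← map_mul, ← map_mul, mul_inv_cancel, map_one, map_one]
    exact IsUnit.of_mul_eq_one _ h3
  have hne1 : Nontrivial (LinearMap.range e) := by
    by_contra hnt
    rw [not_nontrivial_iff_subsingleton] at hnt
    have he0 : e = 0 := by
      ext v
      have h3 : (⟨e v, ⟨v, rfl⟩⟩ : LinearMap.range e) = 0 := Subsingleton.elim _ _
      exact congrArg Subtype.val h3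
    have h4 : ρ σ₀ = 1 := by
      have h5 := hfe
      rw [he0, smul_zero] at h5
      exact sub_eq_zero.mp h5
    rw [h4, map_one] at hdet
    rw [← hdet, sub_self] at hu
    exact not_isUnit_zero hu
  have hne2 : Nontrivial (LinearMap.range (1 - e)) := by
    by_contra hnt
    rw [not_nontrivial_iff_subsingleton] at hnt
    have he1 : e = 1 := by
      have h0 : (1 : Module.End T V) - e = 0 := by
        ext v
        have h3 : (⟨(1 - e) v, ⟨v, rfl⟩⟩ : LinearMap.range (1 - e)) = 0 := Subsingleton.elim _ _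
        exact congrArg Subtype.val h3
      exact (sub_eq_zero.mp h0).symm
    have h4 : ρ σ₀ = ε σ₀ • (1 : Module.End T V) := by
      have h5 := hfe
      rw [he1, sub_smul, one_smul] at h5
      have h6 : ρ σ₀ = ε σ₀ • (1 : Module.End T V) - 1 + 1 := by rw [← h5]; abel
      rw [h6]
      abel
    have h7 : LinearMap.det (ρ σ₀) = ε σ₀ ^ 2 := by
      rw [h4, LinearMap.det_smul, hrank, map_one, mul_one]
    rw [hdet] at h7
    -- ε σ₀ * (ε σ₀ - 1) = 0
    have h8 : ε σ₀ * (ε σ₀ - 1) = 0 := by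
      rw [mul_sub, mul_one, ← sq, ← h7, sub_self]
    have h9 : ε σ₀ = 0 := by
      have h10 := congrArg (fun t => t * w) h8
      simp only [zero_mul] at h10
      rw [mul_assoc, mul_comm (ε σ₀ - 1) w, hw, mul_one] at h10
      exact h10
    rw [hdet, h9] at hdetunit
    exact not_isUnit_zero hdetunit
  have hpos1 : 0 < Module.finrank T (LinearMap.range e) :=
    (Module.finrank_pos_iff_of_free T _).mpr hne1
  have hpos2 : 0 < Module.finrank T (LinearMap.range (1 - e)) :=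
    (Module.finrank_pos_iff_of_free T _).mpr hne2
  have hr1 : Module.finrank T (LinearMap.range e) = 1 := by omega
  have hr2 : Module.finrank T (LinearMap.range (1 - e)) = 1 := by omega
  let b₁ : Module.Basis (Fin 1) T (LinearMap.range e) := Module.finBasisOfFinrankEq T _ hr1
  let b₂ : Module.Basis (Fin 1) T (LinearMap.range (1 - e)) := Module.finBasisOfFinrankEq T _ hr2
  have hb₁ : ∀ x : LinearMap.range e, x = (b₁.repr x 0) • b₁ 0 := by
    intro x
    conv_lhs => rw [← b₁.sum_repr x]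
    rw [Fin.sum_univ_one]
  have hb₂ : ∀ x : LinearMap.range (1 - e), x = (b₂.repr x 0) • b₂ 0 := by
    intro x
    conv_lhs => rw [← b₂.sum_repr x]
    rw [Fin.sum_univ_one]
  have hb₁0 : ∀ s : T, s • (b₁ 0 : V) = 0 → s = 0 := by
    intro s hs
    have h3 : s • b₁ 0 = 0 := Subtype.ext (by simpa using hs)
    have h4 := congrArg (fun x => b₁.repr x 0) h3
    simpa using h4
  have hb₂0 : ∀ s : T, s • (b₂ 0 : V) = 0 → s = 0 := by
    intro s hs
    have h3 : s • b₂ 0 = 0 := Subtype.ext (by simpa using hs)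
    have h4 := congrArg (fun x => b₂.repr x 0) h3
    simpa using h4
  have he1 : e (b₁ 0 : V) = (b₁ 0 : V) := by
    obtain ⟨y, hy⟩ := (b₁ 0).2
    rw [← hy, hev]
  have he2 : e (b₂ 0 : V) = 0 := by
    obtain ⟨y, hy⟩ := (b₂ 0).2
    rw [← hy, hee']
  have hli : LinearIndependent T ![(b₁ 0 : V), (b₂ 0 : V)] := by
    rw [LinearIndependent.pair_iff]
    intro s t hst
    have h3 : e (s • (b₁ 0 : V) + t • (b₂ 0 : V)) = 0 := by
      rw [hst]
      exact map_zero e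
    rw [map_add, map_smul, map_smul, he1, he2, smul_zero, add_zero] at h3
    have hs : s = 0 := hb₁0 s h3
    rw [hs, zero_smul, zero_add] at hst
    exact ⟨hs, hb₂0 t hst⟩
  have hsp : ⊤ ≤ Submodule.span T (Set.range ![(b₁ 0 : V), (b₂ 0 : V)]) := by
    intro v _
    have h3 : v = e v + (1 - e) v := by
      rw [LinearMap.sub_apply, Module.End.one_apply]
      abel
    have h4 : e v = (b₁.repr ⟨e v, ⟨v, rfl⟩⟩ 0) • (b₁ 0 : V) :=
      congrArg Subtype.val (hb₁ ⟨e v, ⟨v, rfl⟩⟩)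
    have h5 : (1 - e) v = (b₂.repr ⟨(1 - e) v, ⟨v, rfl⟩⟩ 0) • (b₂ 0 : V) :=
      congrArg Subtype.val (hb₂ ⟨(1 - e) v, ⟨v, rfl⟩⟩)
    rw [h3, h4, h5]
    refine Submodule.add_mem _ (Submodule.smul_mem _ _ (Submodule.subset_span ⟨0, rfl⟩))
      (Submodule.smul_mem _ _ (Submodule.subset_span ⟨1, rfl⟩))
  refine ⟨LinearMap.range e, ⟨Module.Basis.mk hli hsp, ?_⟩, hD, hI⟩
  rw [Module.Basis.mk_apply]
  apply le_antisymm
  · rintro x hx
    have h4 : x = (b₁.repr ⟨x, hx⟩ 0) • (b₁ 0 : V) := congrArg Subtype.val (hb₁ ⟨x, hx⟩)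
    rw [h4]
    exact Submodule.smul_mem _ _ (Submodule.subset_span rfl)
  · rw [Submodule.span_le, Set.singleton_subset_iff]
    exact (b₁ 0).2

/-- inertia is normalised by the decomposition group. -/
theorem h34_inertia_conj {K L : Type*} [Field K] [Field L] [Algebra K L] (P : ValuationSubring L)
    {g σ : L ≃ₐ[K] L} (hg : g ∈ P.decompositionSubgroup K)
    (hσ : σ ∈ P.inertiaSubgroupIn K) : g * σ * g⁻¹ ∈ P.inertiaSubgroupIn K := by
  have hN : (P.inertiaSubgroup K).Normal := MonoidHom.normal_ker _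
  obtain ⟨s, hs, hs'⟩ := Subgroup.mem_map.mp hσ
  have h1 : (⟨g, hg⟩ : P.decompositionSubgroup K) * s * (⟨g, hg⟩ : P.decompositionSubgroup K)⁻¹ ∈
      P.inertiaSubgroup K := hN.conj_mem s hs ⟨g, hg⟩
  have h2 : (P.decompositionSubgroup K).subtype
      ((⟨g, hg⟩ : P.decompositionSubgroup K) * s * (⟨g, hg⟩ : P.decompositionSubgroup K)⁻¹) =
      g * σ * g⁻¹ := by
    rw [map_mul, map_mul, map_inv, hs']
    rfl
  rw [← h2]
  exact Subgroup.mem_map_of_mem _ h1

/-- **ALG for a `GaloisRepAdic`.** -/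
theorem h34_isOrdinaryAt_of_rel {T : Type} [CommRing T] [IsLocalRing T] (ρ : GaloisRepAdic T)
    (p : ℕ) (ε : (AlgebraicClosure ℚ ≃ₐ[ℚ] AlgebraicClosure ℚ) → T)
    (h : ∀ P : ValuationSubring (AlgebraicClosure ℚ), P.LiesOverPrime p →
      (∀ σ ∈ P.inertiaSubgroupIn ℚ, ∀ τ ∈ P.inertiaSubgroupIn ℚ,
        (ρ.ρ τ - ε τ • 1) * (ρ.ρ σ - 1) = 0) ∧
      ∃ σ₀ ∈ P.inertiaSubgroupIn ℚ, IsUnit (ε σ₀ - 1) ∧ LinearMap.det (ρ.ρ σ₀) = ε σ₀) :
    ρ.IsOrdinaryAt p := by
  intro P hP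
  obtain ⟨hrel, σ₀, hσ₀, hu, hdet⟩ := h P hP
  obtain ⟨L, ⟨b, hb⟩, hD, hI⟩ := h34_ordinary_core ρ.finrank_eq ρ.ρ (P.decompositionSubgroup ℚ)
    (P.inertiaSubgroupIn ℚ) (fun g hg σ hσ => h34_inertia_conj P hg hσ) ε hrel hσ₀ hu hdet
  exact ⟨L, ⟨b, hb⟩, hD, hI⟩

/-- an endomorphism with image in `𝔪^k V` for every `k` is zero (Krull). -/
theorem h34_end_eq_zero_of_forall_mem {T V : Type*} [CommRing T] [IsLocalRing T]
    [IsNoetherianRing T] [AddCommGroup V] [Module T V] [Module.Finite T V] (X : Module.End T V)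
    (h : ∀ (k : ℕ) (v : V), X v ∈ (IsLocalRing.maximalIdeal T ^ k) • (⊤ : Submodule T V)) :
    X = 0 := by
  ext v
  have h1 : X v ∈ (⨅ i : ℕ, IsLocalRing.maximalIdeal T ^ i • ⊤ : Submodule T V) := by
    rw [Submodule.mem_iInf]
    exact fun k => h k v
  rw [Ideal.iInf_pow_smul_eq_bot_of_isLocalRing _ (IsLocalRing.maximalIdeal.isMaximal T).ne_top,
    Submodule.mem_bot] at h1
  exact h1

/-- **ALG, limit form with `ε = det`**: the relation is only needed modulo every power of the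
maximal ideal. -/
theorem h34_isOrdinaryAt_of_det_rel {T : Type} [CommRing T] [IsLocalRing T] [IsNoetherianRing T]
    (ρ : GaloisRepAdic T) (p : ℕ)
    (h : ∀ P : ValuationSubring (AlgebraicClosure ℚ), P.LiesOverPrime p →
      (∀ (k : ℕ), ∀ σ ∈ P.inertiaSubgroupIn ℚ, ∀ τ ∈ P.inertiaSubgroupIn ℚ, ∀ v : ρ.V,
        ((ρ.ρ τ - LinearMap.det (ρ.ρ τ) • 1) * (ρ.ρ σ - 1)) v ∈
          (IsLocalRing.maximalIdeal T ^ k) • (⊤ : Submodule T ρ.V)) ∧
      ∃ σ₀ ∈ P.inertiaSubgroupIn ℚ, IsUnit (LinearMap.det (ρ.ρ σ₀) - 1)) :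
    ρ.IsOrdinaryAt p :=
  h34_isOrdinaryAt_of_rel ρ p (fun τ => LinearMap.det (ρ.ρ τ)) (fun P hP => by
    obtain ⟨h1, σ₀, hσ₀, hu⟩ := h P hP
    exact ⟨fun σ hσ τ hτ => h34_end_eq_zero_of_forall_mem _ (fun k v => h1 k σ hσ τ hτ v),
      σ₀, hσ₀, hu, rfl⟩)

/-- **ALG, limit form with approximate characters**: for every `k` a function `ε_k` with
`ε_k ≡ det` modulo `𝔪^k` on inertia and the relation modulo `𝔪^k V`. -/
theorem h34_isOrdinaryAt_of_approx_rel {T : Type} [CommRing T] [IsLocalRing T]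
    [IsNoetherianRing T] (ρ : GaloisRepAdic T) (p : ℕ)
    (h : ∀ P : ValuationSubring (AlgebraicClosure ℚ), P.LiesOverPrime p →
      (∀ (k : ℕ), ∃ ε : (AlgebraicClosure ℚ ≃ₐ[ℚ] AlgebraicClosure ℚ) → T,
        (∀ τ ∈ P.inertiaSubgroupIn ℚ,
          LinearMap.det (ρ.ρ τ) - ε τ ∈ IsLocalRing.maximalIdeal T ^ k) ∧
        ∀ σ ∈ P.inertiaSubgroupIn ℚ, ∀ τ ∈ P.inertiaSubgroupIn ℚ, ∀ v : ρ.V,
          ((ρ.ρ τ - ε τ • 1) * (ρ.ρ σ - 1)) v ∈
            (IsLocalRing.maximalIdeal T ^ k) • (⊤ : Submodule T ρ.V)) ∧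
      ∃ σ₀ ∈ P.inertiaSubgroupIn ℚ, IsUnit (LinearMap.det (ρ.ρ σ₀) - 1)) :
    ρ.IsOrdinaryAt p := by
  refine h34_isOrdinaryAt_of_det_rel ρ p (fun P hP => ?_)
  obtain ⟨h1, hσ₀⟩ := h P hP
  refine ⟨fun k σ hσ τ hτ v => ?_, hσ₀⟩
  obtain ⟨ε, hε, hrel⟩ := h1 k
  have h2 : ((ρ.ρ τ - LinearMap.det (ρ.ρ τ) • 1) * (ρ.ρ σ - 1)) v =
      ((ρ.ρ τ - ε τ • 1) * (ρ.ρ σ - 1)) v -
        (LinearMap.det (ρ.ρ τ) - ε τ) • ((ρ.ρ σ - 1) v) := by
    simp only [Module.End.mul_apply, LinearMap.sub_apply, LinearMap.smul_apply,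
      Module.End.one_apply, sub_smul]
    abel
  rw [h2]
  exact Submodule.sub_mem _ (hrel σ hσ τ hτ v)
    (Submodule.smul_mem_smul (hε τ hτ) Submodule.mem_top)

end Fermat.Agent.S33

end
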