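import Mathlib
import Fermat.Agent.S33.h18_Depth

/-!
# S33, (N1): abstract core of the norm step (helper46)

Pure commutative algebra, on top of helper18's `h18_Depth`.

* `h46_norm_one_add` : helper18's DEPTH lemma with an arbitrary modulus `ϖ` dividing `p` in place
  of `p`: if `S` has an `R`-basis `1, t, …, t^(p-1)` and `t ^ p ≡ j` modulo `ϖ S`, then
  `N(1 + c y) - 1 ∈ (ϖ c, c ^ p)`.
* `h46_norm_mk_eq_det`, `h46_norm_mk_map` : the norm of `R[X]/(g)` (`g` monic) as an explicit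
  determinant; it commutes with base change.
* `h46_norm_mk_mul` : **exact CRT splitting** `N_{R[X]/((X - r) G)}(P) = P(r) · N_{R[X]/(G)}(P)`
  when `G(r)` is a unit.
* `h46_norm_step` : **the norm step**.  If `Φ ≡ (X - r) G` modulo `ϖ^(n+1)`, `G ≡ X^p - j` modulo
  `ϖ`, `G(r)` a unit, `ϖ ∣ p`, `n ≥ 1` and `P ≡ 1` modulo `ϖ^n`, then
  `N_{R[X]/(Φ)}(P) ≡ P(r)` modulo `ϖ^(n+1)`.
* `h46_norm_eq_of_powerBasis` : the norm of a field extension `L/E` with power basis
  `1, t, …, t^(n-1)`, `Φ(t) = 0`, `Φ` monic over a subring `R`, is the norm of `R[X]/(Φ)`.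
-/

set_option autoImplicit false

open Polynomial Matrix

namespace Fermat.Agent.S33

section DepthVarpi

variable {R S : Type*} [CommRing R] [CommRing S] [Algebra R S] (p : ℕ) [Fact p.Prime]
  (b : Module.Basis (Fin p) R S) (t : S) (hb : ∀ i : Fin p, b i = t ^ (i : ℕ))
  (j ϖ : R) (ht : ∃ w : S, t ^ p = algebraMap R S j + algebraMap R S ϖ * w)

include hb ht in
/-- Modulo `ϖ`, the matrix of multiplication by `t` is the companion matrix of `X ^ p - j`. -/
theorem h46_leftMul_gen_map {R' : Type*} [CommRing R'] (π : R →+* R') (hπ : π ϖ = 0) :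
    (Algebra.leftMulMatrix b t).map π = h18_comp p (π j) := by
  obtain ⟨w, hw⟩ := ht
  have hp0 : 0 < p := (Fact.out : p.Prime).pos
  ext r i
  have hr := r.2
  have hi := i.2
  rw [Matrix.map_apply, Algebra.leftMulMatrix_eq_repr_mul, h18_comp_apply, hb i, ← pow_succ']
  by_cases hi1 : (i : ℕ) + 1 < p
  · have e : t ^ ((i : ℕ) + 1) = b ⟨(i : ℕ) + 1, hi1⟩ := (hb ⟨(i : ℕ) + 1, hi1⟩).symm
    rw [e, Module.Basis.repr_self, Finsupp.single_apply]
    by_cases h : (i : ℕ) + 1 = (r : ℕ)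
    · rw [if_pos h, if_pos (Fin.ext h), map_one]
    · rw [if_neg h, if_neg (fun e' => h (congrArg Fin.val e')), if_neg (by omega), map_zero]
  · have hip : (i : ℕ) + 1 = p := by omega
    have e0 : (1 : S) = b ⟨0, hp0⟩ := by rw [hb]; simp
    have h1 : t ^ ((i : ℕ) + 1) = j • b ⟨0, hp0⟩ + ϖ • w := by
      rw [hip, hw, ← e0, Algebra.smul_def, mul_one, Algebra.smul_def]
    rw [h1, map_add, map_smul, map_smul, Module.Basis.repr_self, Finsupp.add_apply,
      Finsupp.smul_apply, Finsupp.smul_apply, Finsupp.single_apply, map_add, smul_eq_mul,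
      smul_eq_mul, map_mul, map_mul, hπ, zero_mul, add_zero]
    have hne : ¬ ((i : ℕ) + 1 = (r : ℕ)) := by omega
    rw [if_neg hne]
    by_cases h : (r : ℕ) = 0
    · rw [if_pos (Fin.ext h.symm : (⟨0, hp0⟩ : Fin p) = r), if_pos ⟨hip, h⟩, map_one, mul_one]
    · rw [if_neg (fun e' : (⟨0, hp0⟩ : Fin p) = r => h (congrArg Fin.val e').symm),
        if_neg (fun h' => h h'.2), map_zero, mul_zero]

include hb ht in
/-- Modulo `ϖ`, the matrix of multiplication by `y` is `h18_mat`. -/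
theorem h46_leftMul_map {R' : Type*} [CommRing R'] (π : R →+* R') (hπ : π ϖ = 0) (y : S) :
    (Algebra.leftMulMatrix b y).map π = h18_mat p (fun i => π (b.repr y i)) (π j) := by
  have hy : y = ∑ i : Fin p, b.repr y i • t ^ (i : ℕ) := by
    conv_lhs => rw [← b.sum_repr y]
    exact Finset.sum_congr rfl fun i _ => by rw [hb i]
  have h1 : Algebra.leftMulMatrix b y =
      ∑ i : Fin p, b.repr y i • (Algebra.leftMulMatrix b t) ^ (i : ℕ) := by
    conv_lhs => rw [hy]
    rw [map_sum]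
    exact Finset.sum_congr rfl fun i _ => by rw [map_smul, map_pow]
  rw [h1]
  unfold h18_mat
  have hm : ∀ N : Matrix (Fin p) (Fin p) R, N.map π = π.mapMatrix N := fun _ => rfl
  rw [hm, map_sum]
  refine Finset.sum_congr rfl fun i _ => ?_
  have e1 : π.mapMatrix ((Algebra.leftMulMatrix b t) ^ (i : ℕ)) = h18_comp p (π j) ^ (i : ℕ) := by
    rw [map_pow]
    congr 1
    exact h46_leftMul_gen_map p b t hb j ϖ ht π hπ
  rw [← e1]
  ext r s
  simp [RingHom.mapMatrix_apply, Matrix.smul_apply]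

include hb ht in
/-- The middle coefficients of the characteristic polynomial are divisible by `ϖ`. -/
theorem h46_charpoly_coeff_mem (hp : (p : R) ∈ Ideal.span {ϖ}) (y : S) (i : ℕ) (h0 : 0 < i)
    (hi : i < p) : (Algebra.leftMulMatrix b y).charpoly.coeff i ∈ Ideal.span {ϖ} := by
  rcases subsingleton_or_nontrivial (R ⧸ Ideal.span {ϖ}) with hs | hn
  · have htop : Ideal.span {ϖ} = ⊤ := Ideal.Quotient.subsingleton_iff.1 hs
    rw [htop]
    trivial
  have hp0 : ((p : ℕ) : R ⧸ Ideal.span {ϖ}) = 0 := by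
    rw [← map_natCast (Ideal.Quotient.mk (Ideal.span {ϖ}))]
    exact Ideal.Quotient.eq_zero_iff_mem.2 hp
  have : CharP (R ⧸ Ideal.span {ϖ}) p := (CharP.charP_iff_prime_eq_zero Fact.out).2 hp0
  have hπ : Ideal.Quotient.mk (Ideal.span {ϖ}) ϖ = 0 :=
    Ideal.Quotient.eq_zero_iff_mem.2 (Ideal.mem_span_singleton_self _)
  have h1 := h46_leftMul_map p b t hb j ϖ ht (Ideal.Quotient.mk (Ideal.span {ϖ})) hπ y
  have h2 := Matrix.charpoly_map (Algebra.leftMulMatrix b y)
    (Ideal.Quotient.mk (Ideal.span {ϖ}))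
  rw [h1, h18_charpoly_charP] at h2
  have h3 := congrArg (fun f => f.coeff i) h2
  simp only [Polynomial.coeff_map, Polynomial.coeff_sub, Polynomial.coeff_X_pow,
    Polynomial.coeff_C] at h3
  rw [if_neg (by omega), if_neg (by omega), sub_zero] at h3
  exact Ideal.Quotient.eq_zero_iff_mem.1 h3.symm

include hb ht in
/-- **DEPTH lemma with modulus `ϖ ∣ p`.** `N(1 + c y) ≡ 1` modulo `(ϖ c, c ^ p)`. -/
theorem h46_norm_one_add (hp : (p : R) ∈ Ideal.span {ϖ}) (c : R) (y : S) :
    Algebra.norm R (1 + c • y) - 1 ∈ Ideal.span {ϖ * c, c ^ p} := by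
  rcases subsingleton_or_nontrivial R with hR | hR
  · have h0 : Algebra.norm R (1 + c • y) - 1 = 0 := Subsingleton.elim _ _
    rw [h0]
    exact Ideal.zero_mem _
  set L := Algebra.leftMulMatrix b y with hL
  have hdet : Algebra.norm R (1 + c • y) = (1 + c • L).det := by
    rw [Algebra.norm_eq_matrix_det b, map_add, map_one, map_smul]
  have hrev : (1 + c • L).det = L.charpolyRev.eval (-c) := by
    rw [Matrix.charpolyRev, ← Polynomial.coe_evalRingHom, RingHom.map_det]
    congr 1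
    ext r s
    simp [RingHom.mapMatrix_apply, Matrix.one_apply, Matrix.sub_apply, Matrix.smul_apply,
      apply_ite]
    exact mul_comm _ _
  have hχm : L.charpoly.Monic := Matrix.charpoly_monic L
  have hχd : L.charpoly.natDegree = p := by
    rw [Matrix.charpoly_natDegree_eq_dim, Fintype.card_fin]
  rw [hdet, hrev, ← Matrix.reverse_charpoly,
    Polynomial.eval_eq_sum_range' (n := p + 1)
      (lt_of_le_of_lt (Polynomial.reverse_natDegree_le _) (by omega)),
    Finset.sum_range_succ']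
  have h0 : L.charpoly.reverse.coeff 0 * (-c) ^ 0 = 1 := by
    rw [Polynomial.coeff_reverse, hχd, Polynomial.revAt_le (Nat.zero_le p), Nat.sub_zero,
      pow_zero, mul_one]
    have h1 := hχm.coeff_natDegree
    rw [hχd] at h1
    exact h1
  rw [h0, add_sub_cancel_right]
  refine Ideal.sum_mem _ fun k hk => ?_
  rw [Finset.mem_range] at hk
  rw [Polynomial.coeff_reverse, hχd, Polynomial.revAt_le (by omega)]
  by_cases hkp : k + 1 = p
  · rw [hkp, Nat.sub_self, neg_pow]
    exact Ideal.mul_mem_left _ _ (Ideal.mul_mem_left _ _ (Ideal.subset_span (by simp)))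
  · obtain ⟨d, hd⟩ := Ideal.mem_span_singleton.1
      (h46_charpoly_coeff_mem p b t hb j ϖ ht hp y (p - (k + 1)) (by omega) (by omega))
    have e : L.charpoly.coeff (p - (k + 1)) * (-c) ^ (k + 1) =
        (-(d * (-c) ^ k)) * (ϖ * c) := by
      rw [hL, hd]; ring
    rw [e]
    exact Ideal.mul_mem_left _ _ (Ideal.subset_span (by simp))

end DepthVarpi

section AdjoinRootNorm

variable {R : Type*} [CommRing R]

/-- The power basis of `R[X]/(g)` indexed by `Fin n`, `n = deg g`. -/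
noncomputable def h46_pb (g : R[X]) (hg : g.Monic) (n : ℕ) (hn : g.natDegree = n) :
    Module.Basis (Fin n) R (AdjoinRoot g) :=
  (AdjoinRoot.powerBasisAux' hg).reindex (finCongr hn)

theorem h46_pb_apply (g : R[X]) (hg : g.Monic) (n : ℕ) (hn : g.natDegree = n) (i : Fin n) :
    h46_pb g hg n hn i = AdjoinRoot.root g ^ (i : ℕ) := by
  subst hn
  exact (AdjoinRoot.powerBasis' hg).basis_eq_pow i

theorem h46_pb_repr (g : R[X]) (hg : g.Monic) (n : ℕ) (hn : g.natDegree = n) (f : R[X])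
    (i : Fin n) : (h46_pb g hg n hn).repr (AdjoinRoot.mk g f) i = (f %ₘ g).coeff (i : ℕ) := by
  subst hn
  simp [h46_pb]

/-- The norm of `R[X]/(g)` as an explicit determinant. -/
theorem h46_norm_mk_eq_det (g : R[X]) (hg : g.Monic) (n : ℕ) (hn : g.natDegree = n) (P : R[X]) :
    Algebra.norm R (AdjoinRoot.mk g P) =
      (Matrix.of fun i j : Fin n => ((P * X ^ (j : ℕ)) %ₘ g).coeff (i : ℕ)).det := by
  rw [Algebra.norm_eq_matrix_det (h46_pb g hg n hn)]
  congr 1
  ext i j
  rw [Algebra.leftMulMatrix_eq_repr_mul, h46_pb_apply, ← AdjoinRoot.mk_X, ← map_pow, ← map_mul,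
    h46_pb_repr]
  rfl

/-- The norm of `R[X]/(g)` commutes with base change. -/
theorem h46_norm_mk_map {R' : Type*} [CommRing R'] [Nontrivial R'] (f : R →+* R') (g : R[X])
    (hg : g.Monic) (P : R[X]) :
    f (Algebra.norm R (AdjoinRoot.mk g P)) =
      Algebra.norm R' (AdjoinRoot.mk (g.map f) (P.map f)) := by
  have hn : (g.map f).natDegree = g.natDegree := hg.natDegree_map f
  rw [h46_norm_mk_eq_det g hg g.natDegree rfl,
    h46_norm_mk_eq_det (g.map f) (hg.map f) g.natDegree hn, RingHom.map_det]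
  congr 1
  ext i j
  simp only [RingHom.mapMatrix_apply, Matrix.map_apply, Matrix.of_apply]
  rw [← Polynomial.coeff_map, Polynomial.map_modByMonic f hg, Polynomial.map_mul,
    Polynomial.map_pow, Polynomial.map_X]

/-- The norm on a product `R × S`. -/
theorem h46_norm_prod {S : Type*} [CommRing S] [Algebra R S] [Module.Free R S]
    [Module.Finite R S] (a : R) (s : S) :
    Algebra.norm R ((a, s) : R × S) = a * Algebra.norm R s := by
  rw [Algebra.norm_apply, Algebra.norm_apply]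
  have h : Algebra.lmul R (R × S) (a, s) =
      LinearMap.prodMap (Algebra.lmul R R a) (Algebra.lmul R S s) := by
    apply LinearMap.ext
    rintro ⟨x, y⟩
    simp
  rw [h, LinearMap.det_prodMap, LinearMap.det_ring]
  simp

/-- **Exact CRT splitting of the norm.** -/
theorem h46_norm_mk_mul (r : R) (G : R[X]) (hG : G.Monic) (hu : IsUnit (G.eval r)) (P : R[X]) :
    Algebra.norm R (AdjoinRoot.mk ((X - C r) * G) P) =
      P.eval r * Algebra.norm R (AdjoinRoot.mk G P) := by
  set Φ := (X - C r) * G with hΦ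
  have := hG.free_adjoinRoot
  have := hG.finite_adjoinRoot
  have hr1 : Φ.eval₂ (Algebra.ofId R R : R →+* R) r = 0 := by
    have : (Algebra.ofId R R : R →+* R) = RingHom.id R := rfl
    rw [this, Polynomial.eval₂_id, hΦ, Polynomial.eval_mul, Polynomial.eval_sub,
      Polynomial.eval_X, Polynomial.eval_C, sub_self, zero_mul]
  have hr2 : Φ.eval₂ (Algebra.ofId R (AdjoinRoot G) : R →+* AdjoinRoot G) (AdjoinRoot.root G)
      = 0 := by
    have : (Algebra.ofId R (AdjoinRoot G) : R →+* AdjoinRoot G) = algebraMap R (AdjoinRoot G) :=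
      rfl
    rw [this, ← Polynomial.aeval_def, AdjoinRoot.aeval_eq, AdjoinRoot.mk_eq_zero, hΦ]
    exact dvd_mul_left _ _
  let ψ1 : AdjoinRoot Φ →ₐ[R] R := AdjoinRoot.liftAlgHom Φ (Algebra.ofId R R) r hr1
  let ψ2 : AdjoinRoot Φ →ₐ[R] AdjoinRoot G :=
    AdjoinRoot.liftAlgHom Φ (Algebra.ofId R (AdjoinRoot G)) (AdjoinRoot.root G) hr2
  have hψ1 : ∀ Q : R[X], ψ1 (AdjoinRoot.mk Φ Q) = Q.eval r := by
    intro Q
    show Q.eval₂ (Algebra.ofId R R : R →+* R) r = Q.eval r
    have : (Algebra.ofId R R : R →+* R) = RingHom.id R := rfl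
    rw [this, Polynomial.eval₂_id]
  have hψ2 : ∀ Q : R[X], ψ2 (AdjoinRoot.mk Φ Q) = AdjoinRoot.mk G Q := by
    intro Q
    show Q.eval₂ (Algebra.ofId R (AdjoinRoot G) : R →+* AdjoinRoot G) (AdjoinRoot.root G) = _
    have : (Algebra.ofId R (AdjoinRoot G) : R →+* AdjoinRoot G) = algebraMap R (AdjoinRoot G) :=
      rfl
    rw [this, ← Polynomial.aeval_def, AdjoinRoot.aeval_eq]
  let ψ : AdjoinRoot Φ →ₐ[R] R × AdjoinRoot G := ψ1.prod ψ2
  have hψ : ∀ Q : R[X], ψ (AdjoinRoot.mk Φ Q) = (Q.eval r, AdjoinRoot.mk G Q) := by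
    intro Q
    exact Prod.ext (hψ1 Q) (hψ2 Q)
  have hinj : Function.Injective ψ := by
    rw [injective_iff_map_eq_zero]
    intro x hx
    induction x using AdjoinRoot.induction_on with
    | ih Q =>
      rw [hψ Q] at hx
      have h1 : Q.eval r = 0 := congrArg Prod.fst hx
      have h2 : AdjoinRoot.mk G Q = 0 := congrArg Prod.snd hx
      obtain ⟨Q1, rfl⟩ := AdjoinRoot.mk_eq_zero.1 h2
      rw [Polynomial.eval_mul] at h1
      have h3 : Q1.eval r = 0 := (hu.mul_right_eq_zero).1 h1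
      obtain ⟨Q2, rfl⟩ := Polynomial.dvd_iff_isRoot.2 h3
      rw [AdjoinRoot.mk_eq_zero, hΦ]
      exact ⟨Q2, by ring⟩
  have hsurj : Function.Surjective ψ := by
    rintro ⟨a, s⟩
    obtain ⟨Q, rfl⟩ := AdjoinRoot.mk_surjective s
    obtain ⟨v, hv⟩ := hu.exists_right_inv
    refine ⟨AdjoinRoot.mk Φ (Q + G * C ((a - Q.eval r) * v)), ?_⟩
    rw [hψ]
    refine Prod.ext ?_ ?_
    · show (Q + G * C ((a - Q.eval r) * v)).eval r = a
      rw [Polynomial.eval_add, Polynomial.eval_mul, Polynomial.eval_C]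
      linear_combination (a - Q.eval r) * hv
    · show AdjoinRoot.mk G (Q + G * C ((a - Q.eval r) * v)) = AdjoinRoot.mk G Q
      rw [AdjoinRoot.mk_eq_mk]
      exact ⟨C ((a - Q.eval r) * v), by ring⟩
  let e : AdjoinRoot Φ ≃ₐ[R] R × AdjoinRoot G := AlgEquiv.ofBijective ψ ⟨hinj, hsurj⟩
  have he : e (AdjoinRoot.mk Φ P) = (P.eval r, AdjoinRoot.mk G P) := hψ P
  rw [← Algebra.norm_eq_of_algEquiv e, he, h46_norm_prod]

/-- **The norm step.** -/
theorem h46_norm_step (p : ℕ) [Fact p.Prime] (ϖ j r : R) (hp : (p : R) ∈ Ideal.span {ϖ})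
    (n : ℕ) (hn : 1 ≤ n) (Φ G : R[X]) (hΦ : Φ.Monic) (hG : G.Monic) (hGdeg : G.natDegree = p)
    (hfac : C (ϖ ^ (n + 1)) ∣ Φ - (X - C r) * G) (hGj : C ϖ ∣ G - (X ^ p - C j))
    (hu : IsUnit (G.eval r)) (P' : R[X]) :
    Algebra.norm R (AdjoinRoot.mk Φ (1 + C (ϖ ^ n) * P')) - (1 + C (ϖ ^ n) * P').eval r ∈
      Ideal.span {ϖ ^ (n + 1)} := by
  have hp2 : 2 ≤ p := (Fact.out : p.Prime).two_le
  set P : R[X] := 1 + C (ϖ ^ n) * P' with hP
  set I : Ideal R := Ideal.span {ϖ ^ (n + 1)} with hI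
  rcases subsingleton_or_nontrivial (R ⧸ I) with hs | hnt
  · have htop : I = ⊤ := Ideal.Quotient.subsingleton_iff.1 hs
    rw [htop]
    trivial
  set π := Ideal.Quotient.mk I with hπ
  have hπϖ : π (ϖ ^ (n + 1)) = 0 :=
    Ideal.Quotient.eq_zero_iff_mem.2 (Ideal.mem_span_singleton_self _)
  -- the depth estimate for `G`
  have h4 : Algebra.norm R (AdjoinRoot.mk G P) - 1 ∈ I := by
    obtain ⟨W, hW⟩ := hGj
    have ht : ∃ w : AdjoinRoot G, AdjoinRoot.root G ^ p =
        algebraMap R (AdjoinRoot G) j + algebraMap R (AdjoinRoot G) ϖ * w := by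
      refine ⟨- AdjoinRoot.mk G W, ?_⟩
      have hGe : G = X ^ p - C j + C ϖ * W := by rw [← hW]; ring
      have h0 : AdjoinRoot.mk G (X ^ p - C j + C ϖ * W) = 0 := by
        rw [← hGe]
        exact AdjoinRoot.mk_self
      rw [map_add, map_sub, map_pow, AdjoinRoot.mk_X, map_mul, AdjoinRoot.mk_C,
        AdjoinRoot.mk_C] at h0
      rw [AdjoinRoot.algebraMap_eq]
      linear_combination h0
    have hmk : AdjoinRoot.mk G P = 1 + (ϖ ^ n) • AdjoinRoot.mk G P' := by
      rw [hP, map_add, map_one, map_mul, AdjoinRoot.mk_C, Algebra.smul_def,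
        AdjoinRoot.algebraMap_eq]
    have h5 := h46_norm_one_add p (h46_pb G hG p hGdeg) (AdjoinRoot.root G)
      (fun i => h46_pb_apply G hG p hGdeg i) j ϖ ht hp (ϖ ^ n) (AdjoinRoot.mk G P')
    rw [← hmk] at h5
    refine (Ideal.span_le.2 ?_) h5
    intro x hx
    rcases hx with rfl | rfl
    · show ϖ * ϖ ^ n ∈ I
      rw [← pow_succ']
      exact Ideal.mem_span_singleton_self _
    · show (ϖ ^ n) ^ p ∈ I
      rw [← pow_mul]
      have hle : n + 1 ≤ n * p := by nlinarith
      obtain ⟨d, hd⟩ := Nat.exists_eq_add_of_le hle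
      rw [hd, pow_add]
      exact Ideal.mul_mem_right _ _ (Ideal.mem_span_singleton_self _)
  -- the factorisation modulo `I`
  have hΦmap : Φ.map π = (X - C (π r)) * G.map π := by
    obtain ⟨W, hW⟩ := hfac
    have h0 := congrArg (Polynomial.map π) hW
    simp only [Polynomial.map_sub, Polynomial.map_mul, Polynomial.map_C, Polynomial.map_X, hπϖ,
      Polynomial.C_0, zero_mul] at h0
    exact sub_eq_zero.1 h0
  have hu' : IsUnit ((G.map π).eval (π r)) := by
    rw [Polynomial.eval_map, Polynomial.eval₂_at_apply]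
    exact hu.map π
  have h1 := h46_norm_mk_map π Φ hΦ P
  have h2 := h46_norm_mk_mul (π r) (G.map π) (hG.map π) hu' (P.map π)
  have h3 := h46_norm_mk_map π G hG P
  rw [hΦmap, h2, ← h3, Polynomial.eval_map, Polynomial.eval₂_at_apply] at h1
  rw [← Ideal.Quotient.eq_zero_iff_mem, ← hπ, map_sub, h1]
  have h6 : π (Algebra.norm R (AdjoinRoot.mk G P)) = 1 := by
    have := Ideal.Quotient.eq_zero_iff_mem.2 h4
    rw [← hπ, map_sub, map_one] at this
    exact sub_eq_zero.1 this
  rw [h6, mul_one, sub_self]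

end AdjoinRootNorm

section PowerBasisNorm

/-- The norm of a field extension `L/E` with power basis `1, t, …, t^(n-1)`, where `t` is a root
of a monic `Φ` with coefficients in a subring `R` (via `ι`), restricted to `R[t]`, is the norm of
`R[X]/(Φ)`. -/
theorem h46_norm_eq_of_powerBasis {R E L : Type*} [CommRing R] [Field E] [Field L] [Algebra E L]
    (ι : R →+* E) (Φ : R[X]) (hΦ : Φ.Monic) (n : ℕ) (hn : Φ.natDegree = n) (t : L)
    (hroot : (Φ.map ι).eval₂ (algebraMap E L) t = 0)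
    (hli : ∀ c : Fin n → E, ∑ l, algebraMap E L (c l) * t ^ (l : ℕ) = 0 → ∀ l, c l = 0)
    (hspan : ∀ f : L, ∃ c : Fin n → E, f = ∑ l, algebraMap E L (c l) * t ^ (l : ℕ))
    (P : R[X]) :
    Algebra.norm E ((P.map ι).eval₂ (algebraMap E L) t) =
      ι (Algebra.norm R (AdjoinRoot.mk Φ P)) := by
  set ΦE := Φ.map ι with hΦE
  have hΦEm : ΦE.Monic := hΦ.map ι
  have hΦEd : ΦE.natDegree = n := by rw [hΦE, hΦ.natDegree_map ι, hn]
  have hn0 : n ≠ 0 := by
    rintro rfl
    obtain ⟨c, hc⟩ := hspan 1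
    rw [Finset.univ_eq_empty, Finset.sum_empty] at hc
    exact one_ne_zero hc
  have hΦE1 : ΦE ≠ 1 := by
    intro h
    rw [h, Polynomial.natDegree_one] at hΦEd
    exact hn0 hΦEd.symm
  have hr : ΦE.eval₂ (Algebra.ofId E L : E →+* L) t = 0 := hroot
  let φ : AdjoinRoot ΦE →ₐ[E] L := AdjoinRoot.liftAlgHom ΦE (Algebra.ofId E L) t hr
  have hφ : ∀ Q : E[X], φ (AdjoinRoot.mk ΦE Q) = Q.eval₂ (algebraMap E L) t := fun Q => rfl
  have hinj : Function.Injective φ := by
    rw [injective_iff_map_eq_zero]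
    intro x hx
    induction x using AdjoinRoot.induction_on with
    | ih Q =>
      rw [hφ] at hx
      have hdec : Q = Q %ₘ ΦE + ΦE * (Q /ₘ ΦE) := (Polynomial.modByMonic_add_div Q ΦE).symm
      have hx' : (Q %ₘ ΦE).eval₂ (algebraMap E L) t = 0 := by
        rw [hdec, Polynomial.eval₂_add, Polynomial.eval₂_mul, hroot, zero_mul, add_zero] at hx
        exact hx
      have hdeg : (Q %ₘ ΦE).natDegree < n := by
        rw [← hΦEd]
        exact Polynomial.natDegree_modByMonic_lt Q hΦEm hΦE1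
      rw [Polynomial.eval₂_eq_sum_range' (algebraMap E L) hdeg, Finset.sum_range] at hx'
      have hc := hli (fun l : Fin n => (Q %ₘ ΦE).coeff (l : ℕ)) hx'
      have hzero : Q %ₘ ΦE = 0 := by
        ext i
        rw [Polynomial.coeff_zero]
        by_cases hi : i < n
        · exact hc ⟨i, hi⟩
        · exact Polynomial.coeff_eq_zero_of_natDegree_lt (by omega)
      rw [AdjoinRoot.mk_eq_zero]
      exact (Polynomial.modByMonic_eq_zero_iff_dvd hΦEm).1 hzero
  have hsurj : Function.Surjective φ := by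
    intro f
    obtain ⟨c, hc⟩ := hspan f
    refine ⟨AdjoinRoot.mk ΦE (∑ l : Fin n, C (c l) * X ^ (l : ℕ)), ?_⟩
    rw [hφ, hc, Polynomial.eval₂_finsetSum]
    refine Finset.sum_congr rfl fun l _ => ?_
    rw [Polynomial.eval₂_mul, Polynomial.eval₂_C, Polynomial.eval₂_pow, Polynomial.eval₂_X]
  let e : AdjoinRoot ΦE ≃ₐ[E] L := AlgEquiv.ofBijective φ ⟨hinj, hsurj⟩
  have he : e (AdjoinRoot.mk ΦE (P.map ι)) = (P.map ι).eval₂ (algebraMap E L) t := hφ _
  rw [← he, Algebra.norm_eq_of_algEquiv e, h46_norm_mk_map ι Φ hΦ P]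

end PowerBasisNorm

end Fermat.Agent.S33
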