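import Fermat.Agent.S32.h48_ChCore

/-!
# S33, algebra core (helper48): ordinarity from a count

Setting of `Fermat.Agent.S32.h48_ch_core` (a group `G` acting on a finite module with
Eichler–Shimura operators `t g = g + a g • g⁻¹`, a two-dimensional representation `ρ` with
`tr ρ = φ ∘ t` whose span is the full matrix algebra), plus a subgroup `I` of `G` ("inertia") and
`σ₀ ∈ I` with `tr ρ(σ₀) ≡ 1 + a(σ₀)`, `a(σ₀) ≢ 1`.

`h48_ord_Y`: if the `𝔪`-primary module `Y` has a subgroup `Z ⊇ (I - 1) Y` with `|Z|² ≤ |Y|`,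
then `(τ - a τ) (σ - 1) = 0` on `Y` for all `σ, τ ∈ I`.

The proof is the generalised-matrix-algebra argument for the Cayley–Hamilton algebra
`R₀[G] → End Y` with its formal trace; no structure theory of simple modules is used.
-/

set_option autoImplicit false
set_option linter.unusedSimpArgs false
set_option linter.unusedVariables false
set_option linter.unusedSectionVars false
set_option linter.style.haveILetI false

namespace Fermat.Agent.S33

open Fermat.Agent.S32 Matrix

section algebra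

variable {G : Type} [Group G] {Y : Type} [AddCommGroup Y] {R₀ : Type} [CommRing R₀] [Module R₀ Y]
  (r : G →* Module.End R₀ Y) (a : G → ℕ) (t : G → R₀)

/-- The group algebra acting on `Y`. -/
noncomputable def h48_opA : MonoidAlgebra R₀ G →ₐ[R₀] Module.End R₀ Y :=
  MonoidAlgebra.lift R₀ (Module.End R₀ Y) G r

theorem h48_opA_single (g : G) (c : R₀) :
    h48_opA r (MonoidAlgebra.single g c) = c • r g := by
  rw [h48_opA, MonoidAlgebra.lift_single]

/-- The formal trace on the group algebra. -/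
noncomputable def h48_TA : MonoidAlgebra R₀ G →ₗ[R₀] R₀ :=
  (Finsupp.linearCombination R₀ t) ∘ₗ (MonoidAlgebra.coeffLinearEquiv R₀).toLinearMap

omit [Group G] in
theorem h48_TA_eq (x : MonoidAlgebra R₀ G) : h48_TA t x = h48_T t x.coeff := rfl

theorem h48_TA_single (g : G) (c : R₀) : h48_TA t (MonoidAlgebra.single g c) = c * t g := by
  rw [h48_TA_eq, MonoidAlgebra.coeff_single, h48_T_single]

theorem h48_opA_eq (x : MonoidAlgebra R₀ G) : h48_opA r x = h48_op r x.coeff := by
  induction x using MonoidAlgebra.induction_linear with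
  | zero => simp
  | add x y hx hy => rw [map_add, hx, hy, MonoidAlgebra.coeff_add, map_add]
  | single g c => rw [h48_opA_single, MonoidAlgebra.coeff_single, h48_op_single]

variable {r a t}

/-- The polarised Cayley–Hamilton identity for all elements of the group algebra. -/
theorem h48_pchA (hamul : ∀ (g h : G) (w : Y), a (g * h) • w = a g • a h • w)
    (ht : ∀ (g : G) (w : Y), t g • w = r g w + a g • r g⁻¹ w) (x y : MonoidAlgebra R₀ G) (w : Y) :
    h48_opA r (x * y) w + h48_opA r (y * x) w + (h48_TA t x * h48_TA t y) • w =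
      h48_TA t x • h48_opA r y w + h48_TA t y • h48_opA r x w + h48_TA t (x * y) • w := by
  induction x using MonoidAlgebra.induction_linear with
  | zero => simp
  | add x₁ x₂ h₁ h₂ =>
    simp only [add_mul, mul_add, map_add, LinearMap.add_apply, add_smul, smul_add]
    refine Eq.trans ?_ ((congrArg₂ HAdd.hAdd h₁ h₂).trans ?_) <;> abel
  | single g c =>
    induction y using MonoidAlgebra.induction_linear with
    | zero => simp
    | add y₁ y₂ h₁ h₂ =>
      simp only [add_mul, mul_add, map_add, LinearMap.add_apply, add_smul, smul_add]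
      refine Eq.trans ?_ ((congrArg₂ HAdd.hAdd h₁ h₂).trans ?_) <;> abel
    | single h d =>
      have e1 := h48_pch hamul ht g h w
      simp only [MonoidAlgebra.single_mul_single, h48_opA_single, h48_TA_single,
        LinearMap.smul_apply, h48_r_mul, mul_smul, e1, smul_sub, smul_add]
      module

/-- `t (g h) = t (h g)` as operators. -/
theorem h48_t_comm (hamul : ∀ (g h : G) (w : Y), a (g * h) • w = a g • a h • w)
    (ht : ∀ (g : G) (w : Y), t g • w = r g w + a g • r g⁻¹ w) (g h : G) (w : Y) :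
    t (g * h) • w = t (h * g) • w := by
  have e1 : r g⁻¹ (r (g * h) (r g w)) = r (h * g) w := by
    calc r g⁻¹ (r (g * h) (r g w)) = r (g⁻¹ * ((g * h) * g)) w := by
          rw [h48_r_mul r g⁻¹ ((g * h) * g), h48_r_mul r (g * h) g]
      _ = r (h * g) w := by rw [show g⁻¹ * ((g * h) * g) = h * g by group]
  have e2 : r g⁻¹ (r (g * h)⁻¹ (r g w)) = r (h * g)⁻¹ w := by
    calc r g⁻¹ (r (g * h)⁻¹ (r g w)) = r (g⁻¹ * ((g * h)⁻¹ * g)) w := by
          rw [h48_r_mul r g⁻¹ ((g * h)⁻¹ * g), h48_r_mul r (g * h)⁻¹ g]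
      _ = r (h * g)⁻¹ w := by rw [show g⁻¹ * ((g * h)⁻¹ * g) = (h * g)⁻¹ by group]
  have h1 := congrArg (r g⁻¹) (ht (g * h) (r g w))
  rw [map_smul, h48_r_inv_apply, map_add, map_nsmul, e1, e2] at h1
  rw [h1, ht (h * g) w, hamul, hamul, smul_comm (a g) (a h)]

/-- The formal trace is symmetric, as operators. -/
theorem h48_TA_comm (hamul : ∀ (g h : G) (w : Y), a (g * h) • w = a g • a h • w)
    (ht : ∀ (g : G) (w : Y), t g • w = r g w + a g • r g⁻¹ w) (x y : MonoidAlgebra R₀ G) (w : Y) :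
    h48_TA t (x * y) • w = h48_TA t (y * x) • w := by
  induction x using MonoidAlgebra.induction_linear with
  | zero => simp
  | add x₁ x₂ h₁ h₂ => simp only [add_mul, mul_add, map_add, add_smul, h₁, h₂]
  | single g c =>
    induction y using MonoidAlgebra.induction_linear with
    | zero => simp
    | add y₁ y₂ h₁ h₂ => simp only [add_mul, mul_add, map_add, add_smul, h₁, h₂]
    | single h d =>
      rw [MonoidAlgebra.single_mul_single, MonoidAlgebra.single_mul_single, h48_TA_single,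
        h48_TA_single, mul_smul, mul_smul, h48_t_comm hamul ht g h w, mul_comm d c, mul_smul,
        mul_smul]

end algebra

section residual

variable {G : Type} [Group G] {Y : Type} [AddCommGroup Y] {R₀ : Type} [CommRing R₀] [Module R₀ Y]
  {r : G →* Module.End R₀ Y} {a : G → ℕ} {t : G → R₀}
  {k : Type} [Field k] [Finite k]

/-- Trace descent on a primary module, in group-algebra form. -/
theorem h48_tdA (ha1 : ∀ w : Y, a 1 • w = w)
    (hamul : ∀ (g h : G) (w : Y), a (g * h) • w = a g • a h • w)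
    (ht : ∀ (g : G) (w : Y), t g • w = r g w + a g • r g⁻¹ w)
    (h2 : (2 : k) ≠ 0) (φ : R₀ →+* k) (ρ : G →* Matrix (Fin 2) (Fin 2) k)
    (htr : ∀ g, (ρ g).trace = φ (t g)) (hspan : Submodule.span k (Set.range ρ) = ⊤)
    (j : ℕ) (hnil : ∀ c ∈ (Ideal.comap φ (IsLocalRing.maximalIdeal k)) ^ j, ∀ y : Y, c • y = 0)
    (x : MonoidAlgebra R₀ G) (hx : h48_opA r x = 0) (y : Y) : h48_TA t x • y = 0 := by
  rw [h48_TA_eq]
  refine h48_trace_descent ha1 hamul ht (isUnit_iff_ne_zero.mpr h2) φ ρ htr hspan j x.coeff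
    (fun w _ => ?_) y (fun c hc => hnil c hc y)
  rw [← h48_opA_eq, hx]
  rfl

/-- Trace descent: equal operators have equal traces. -/
theorem h48_tdA_eq (ha1 : ∀ w : Y, a 1 • w = w)
    (hamul : ∀ (g h : G) (w : Y), a (g * h) • w = a g • a h • w)
    (ht : ∀ (g : G) (w : Y), t g • w = r g w + a g • r g⁻¹ w)
    (h2 : (2 : k) ≠ 0) (φ : R₀ →+* k) (ρ : G →* Matrix (Fin 2) (Fin 2) k)
    (htr : ∀ g, (ρ g).trace = φ (t g)) (hspan : Submodule.span k (Set.range ρ) = ⊤)
    (j : ℕ) (hnil : ∀ c ∈ (Ideal.comap φ (IsLocalRing.maximalIdeal k)) ^ j, ∀ y : Y, c • y = 0)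
    (x x' : MonoidAlgebra R₀ G) (hx : h48_opA r x = h48_opA r x') (y : Y) :
    h48_TA t x • y = h48_TA t x' • y := by
  have h := h48_tdA ha1 hamul ht h2 φ ρ htr hspan j hnil (x - x')
    (by rw [map_sub, hx, sub_self]) y
  rw [map_sub, sub_smul] at h
  exact sub_eq_zero.mp h

omit [Group G] in
/-- Elements outside the kernel of `φ` act invertibly on a primary module. -/
theorem h48_unit_on (φ : R₀ →+* k) (j : ℕ)
    (hnil : ∀ c ∈ (Ideal.comap φ (IsLocalRing.maximalIdeal k)) ^ j, ∀ y : Y, c • y = 0)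
    (s : R₀) (hs : φ s ≠ 0) : ∃ s' : R₀, ∀ y : Y, s' • s • y = y := by
  have : Fintype k := Fintype.ofFinite k
  have hm := FiniteField.pow_card_sub_one_eq_one (φ s) hs
  set m := Fintype.card k - 1 with hmdef
  have hm1 : 1 ≤ m := by
    have := Fintype.one_lt_card (α := k)
    omega
  have hν : (1 - s ^ m) ∈ Ideal.comap φ (IsLocalRing.maximalIdeal k) := by
    rw [Ideal.mem_comap, map_sub, map_one, map_pow, hm, sub_self]
    exact Ideal.zero_mem _
  refine ⟨s ^ (m - 1) * ∑ i ∈ Finset.range j, (1 - s ^ m) ^ i, fun y => ?_⟩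
  have e1 : s ^ (m - 1) * (∑ i ∈ Finset.range j, (1 - s ^ m) ^ i) * s =
      1 - (1 - s ^ m) ^ j := by
    have e2 : s ^ (m - 1) * s = 1 - (1 - s ^ m) := by
      rw [← pow_succ, Nat.sub_add_cancel hm1]; ring
    rw [mul_right_comm, e2, mul_neg_geom_sum]
  rw [← mul_smul, e1, sub_smul, one_smul, hnil _ (Ideal.pow_mem_pow hν j) y, sub_zero]

omit [Group G] in
/-- On a nontrivial primary module, annihilators lie in the kernel of `φ`. -/
theorem h48_ann_ker [Nontrivial Y] (φ : R₀ →+* k) (j : ℕ)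
    (hnil : ∀ c ∈ (Ideal.comap φ (IsLocalRing.maximalIdeal k)) ^ j, ∀ y : Y, c • y = 0)
    (c : R₀) (hc : ∀ y : Y, c • y = 0) : φ c = 0 := by
  by_contra hne
  obtain ⟨c', hc'⟩ := h48_unit_on φ j hnil c hne
  obtain ⟨y, hy⟩ := exists_ne (0 : Y)
  apply hy
  rw [← hc' y, hc y, smul_zero]

end residual

section gma

variable {R₀ : Type} [CommRing R₀] {Y : Type} [AddCommGroup Y] [Module R₀ Y]
  {Γ : Type} [Ring Γ] [Algebra R₀ Γ]
  {op : Γ →ₐ[R₀] Module.End R₀ Y} {T : Γ →ₗ[R₀] R₀}

theorem h48_idem_sandwich {E : Type} [Monoid E] {p : E} (hp : p * p = p) (m : E) :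
    p * (p * m * p) * p = p * m * p := by
  calc p * (p * m * p) * p = (p * p) * m * (p * p) := by simp only [mul_assoc]
    _ = p * m * p := by rw [hp]

/-- An idempotent of a Cayley–Hamilton algebra whose trace is residually `1` has trace `1`. -/
theorem h48_gma_one
    (hpch : ∀ (x y : Γ) (w : Y), op (x * y) w + op (y * x) w + (T x * T y) • w =
      T x • op y w + T y • op x w + T (x * y) • w)
    (htd : ∀ x x' : Γ, op x = op x' → ∀ w : Y, T x • w = T x' • w)
    (e : Γ) (hε : op e * op e = op e) (j : ℕ) (hν : ∀ y : Y, (T e - 1) ^ j • y = 0) (y : Y) :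
    T e • y = y := by
  have hεε : ∀ w : Y, op e (op e w) = op e w := fun w => by
    rw [← Module.End.mul_apply, hε]
  have h1 : ∀ w : Y, (T e - 1) • ((2 : R₀) • op e w - w) = ((T e - 1) * (T e - 1)) • w := by
    intro w
    have h := hpch e e w
    rw [map_mul, hε, htd (e * e) e (by rw [map_mul, hε]) w] at h
    have key : (T e - 1) • ((2 : R₀) • op e w - w) - ((T e - 1) * (T e - 1)) • w =
        (T e • op e w + T e • op e w + T e • w) - (op e w + op e w + (T e * T e) • w) := by
      module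
    rw [← sub_eq_zero, key, sub_eq_zero]; exact h.symm
  have h3 : ∀ w : Y, (T e - 1) • w = ((T e - 1) * (T e - 1) * (T e - 1)) • w := by
    intro w
    have h := h1 ((2 : R₀) • op e w - w)
    have hD : (2 : R₀) • op e ((2 : R₀) • op e w - w) - ((2 : R₀) • op e w - w) = w := by
      rw [map_sub, map_smul, hεε]; module
    rw [hD, mul_smul, h1 w, ← mul_smul] at h
    rw [h]; congr 1; ring
  have h5 : ∀ (m : ℕ) (w : Y), (T e - 1) • w = (T e - 1) ^ (2 * m + 1) • w := by
    intro m
    induction m with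
    | zero => intro w; simp
    | succ m ih =>
      intro w
      have e1 : (T e - 1) ^ (2 * (m + 1) + 1) =
          (T e - 1) ^ (2 * m) * ((T e - 1) * (T e - 1) * (T e - 1)) := by ring
      rw [e1, mul_smul, ← h3 w, ← mul_smul, ← pow_succ]; exact ih w
  have h6 : (T e - 1) • y = 0 := by
    rw [h5 j y, show (T e - 1) ^ (2 * j + 1) = (T e - 1) ^ (j + 1) * (T e - 1) ^ j by ring,
      mul_smul, hν y, smul_zero]
  rw [sub_smul, one_smul, sub_eq_zero] at h6
  exact h6

/-- Corner of a Cayley–Hamilton algebra at a trace-one idempotent: it acts through the trace. -/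
theorem h48_gma_corner
    (hpch : ∀ (x y : Γ) (w : Y), op (x * y) w + op (y * x) w + (T x * T y) • w =
      T x • op y w + T y • op x w + T (x * y) • w)
    (htd : ∀ x x' : Γ, op x = op x' → ∀ w : Y, T x • w = T x' • w)
    (e : Γ) (hε : op e * op e = op e) (he1 : ∀ y : Y, T e • y = y)
    (z : Γ) (hz : op e * op z * op e = op z) (w : Y) : op z w = T z • op e w := by
  have h := hpch z e w
  have e1 : op (z * e) = op z := by rw [map_mul, ← hz, mul_assoc, hε]
  have e2 : op (e * z) = op z := by rw [map_mul, ← hz, ← mul_assoc, ← mul_assoc, hε]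
  have e3 : (T z * T e) • w = T z • w := by rw [mul_smul, he1]
  rw [e1, e2, htd (z * e) z e1 w, he1, e3] at h
  have key : op z w - T z • op e w =
      (op z w + op z w + T z • w) - (T z • op e w + op z w + T z • w) := by abel
  rw [← sub_eq_zero, key, sub_eq_zero]; exact h

end gma

section gma2

variable {R₀ : Type} [CommRing R₀] {Y : Type} [AddCommGroup Y] [Module R₀ Y]
  {Γ : Type} [Ring Γ] [Algebra R₀ Γ]
  {op : Γ →ₐ[R₀] Module.End R₀ Y} {T : Γ →ₗ[R₀] R₀}

/-- Off-diagonal products land in the corner at `e`. -/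
theorem h48_gma_vu
    (hpch : ∀ (x y : Γ) (w : Y), op (x * y) w + op (y * x) w + (T x * T y) • w =
      T x • op y w + T y • op x w + T (x * y) • w)
    (htd : ∀ x x' : Γ, op x = op x' → ∀ w : Y, T x • w = T x' • w)
    (e : Γ) (hε : op e * op e = op e) (he1 : ∀ y : Y, T e • y = y)
    (x x' : Γ) (w : Y) :
    op (e * x' * (1 - e)) (op ((1 - e) * x * e) w) =
      T (e * x' * (1 - e) * ((1 - e) * x * e)) • op e w := by
  have hBA : op (e * x' * (1 - e) * ((1 - e) * x * e)) =
      op e * (op x' * op (1 - e) * (op (1 - e) * op x)) * op e := by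
    simp only [map_mul, mul_assoc]
  have h := h48_gma_corner hpch htd e hε he1 _
    (by rw [hBA]; exact h48_idem_sandwich hε _) w
  rw [map_mul, Module.End.mul_apply] at h
  exact h

/-- Off-diagonal products land in the corner at `1 - e`. -/
theorem h48_gma_uv
    (hpch : ∀ (x y : Γ) (w : Y), op (x * y) w + op (y * x) w + (T x * T y) • w =
      T x • op y w + T y • op x w + T (x * y) • w)
    (htd : ∀ x x' : Γ, op x = op x' → ∀ w : Y, T x • w = T x' • w)
    (hcomm : ∀ (x y : Γ) (w : Y), T (x * y) • w = T (y * x) • w)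
    (e : Γ) (hε : op e * op e = op e) (he1' : ∀ y : Y, T (1 - e) • y = y)
    (x x' : Γ) (w : Y) :
    op ((1 - e) * x * e) (op (e * x' * (1 - e)) w) =
      T (e * x' * (1 - e) * ((1 - e) * x * e)) • op (1 - e) w := by
  have hε' : op (1 - e) * op (1 - e) = op (1 - e) := by
    rw [map_sub, map_one]; exact IsIdempotentElem.one_sub hε
  have hAB : op ((1 - e) * x * e * (e * x' * (1 - e))) =
      op (1 - e) * (op x * op e * (op e * op x')) * op (1 - e) := by
    simp only [map_mul, mul_assoc]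
  have h := h48_gma_corner hpch htd (1 - e) hε' he1' _
    (by rw [hAB]; exact h48_idem_sandwich hε' _) w
  rw [map_mul, Module.End.mul_apply, hcomm] at h
  exact h

/-- Counting: if the off-diagonal pairing is invertible and `Z ⊇ range ε` has `|Z|² ≤ |Y|`,
then `Z = range ε`. -/
theorem h48_gma_count [Finite Y]
    (hpch : ∀ (x y : Γ) (w : Y), op (x * y) w + op (y * x) w + (T x * T y) • w =
      T x • op y w + T y • op x w + T (x * y) • w)
    (htd : ∀ x x' : Γ, op x = op x' → ∀ w : Y, T x • w = T x' • w)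
    (hcomm : ∀ (x y : Γ) (w : Y), T (x * y) • w = T (y * x) • w)
    (e : Γ) (hε : op e * op e = op e) (he1' : ∀ y : Y, T (1 - e) • y = y)
    (x x' : Γ) (s' : R₀)
    (hs : ∀ y : Y, s' • T (e * x' * (1 - e) * ((1 - e) * x * e)) • y = y)
    (Z : AddSubgroup Y) (hεZ : ∀ y, op e y ∈ Z) (hcard : Nat.card Z ^ 2 ≤ Nat.card Y)
    (z : Y) (hz : z ∈ Z) : op e z = z := by
  have hinj : ∀ y : Y, op e y = 0 → op (e * x' * (1 - e)) y = 0 → y = 0 := by
    intro y hy1 hy2
    have h := h48_gma_uv hpch htd hcomm e hε he1' x x' y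
    rw [hy2, map_zero, map_sub, map_one, LinearMap.sub_apply, Module.End.one_apply, hy1,
      sub_zero] at h
    rw [← hs y, ← h, smul_zero]
  let f : Y →+ Y := (op e).toAddMonoidHom
  have hc1 : Nat.card f.ker * Nat.card f.range = Nat.card Y := by
    rw [← AddSubgroup.index_ker, AddSubgroup.card_mul_index]
  have hc2 : Nat.card f.ker ≤ Nat.card f.range := by
    refine Nat.card_le_card_of_injective
      (fun y : f.ker => (⟨op (e * x' * (1 - e)) y.1, ?_⟩ : f.range)) ?_
    · refine ⟨op x' (op (1 - e) y.1), ?_⟩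
      show op e (op x' (op (1 - e) y.1)) = _
      rw [map_mul, map_mul]; rfl
    · intro y1 y2 h12
      have h : op (e * x' * (1 - e)) y1.1 = op (e * x' * (1 - e)) y2.1 :=
        congrArg Subtype.val h12
      have hy1 : op e y1.1 = 0 := y1.2
      have hy2 : op e y2.1 = 0 := y2.2
      have hy : (y1.1 - y2.1) = 0 :=
        hinj _ (by rw [map_sub, hy1, hy2, sub_zero]) (by rw [map_sub, h, sub_self])
      exact Subtype.ext (sub_eq_zero.mp hy)
  have hc3 : f.range ≤ Z := by
    rintro _ ⟨y, rfl⟩; exact hεZ y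
  have hc4 : Nat.card Z ≤ Nat.card f.range := by
    have h1 : Nat.card Z ^ 2 ≤ Nat.card f.range ^ 2 := by
      calc Nat.card Z ^ 2 ≤ Nat.card Y := hcard
        _ = Nat.card f.ker * Nat.card f.range := hc1.symm
        _ ≤ Nat.card f.range * Nat.card f.range := Nat.mul_le_mul_right _ hc2
        _ = Nat.card f.range ^ 2 := (sq _).symm
    exact (Nat.pow_le_pow_iff_left two_ne_zero).mp h1
  have hc5 : f.range = Z := AddSubgroup.eq_of_le_of_card_ge hc3 hc4
  rw [← hc5] at hz
  obtain ⟨y, rfl⟩ := hz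
  show op e (op e y) = op e y
  rw [← Module.End.mul_apply, hε]

/-- If `X` fixes the complement of the trace-one idempotent `e` and satisfies a quadratic
Cayley–Hamilton relation with constant term `aX`, then `X` acts on the range of `e` by `aX`. -/
theorem h48_gma_scalar
    (hpch : ∀ (x y : Γ) (w : Y), op (x * y) w + op (y * x) w + (T x * T y) • w =
      T x • op y w + T y • op x w + T (x * y) • w)
    (htd : ∀ x x' : Γ, op x = op x' → ∀ w : Y, T x • w = T x' • w)
    (hcomm : ∀ (x y : Γ) (w : Y), T (x * y) • w = T (y * x) • w)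
    (e : Γ) (hε : op e * op e = op e) (he1 : ∀ y : Y, T e • y = y)
    (he1' : ∀ y : Y, T (1 - e) • y = y)
    (x x' : Γ) (s' : R₀)
    (hs : ∀ y : Y, s' • T (e * x' * (1 - e) * ((1 - e) * x * e)) • y = y)
    (X : Γ) (aX : R₀) (hX1 : op (1 - e) * op X = op (1 - e))
    (hX2 : ∀ y : Y, op X (op X y) + aX • y = T X • op X y) (y : Y) :
    op X (op e y) = aX • op e y := by
  have hεε : ∀ w : Y, op e (op e w) = op e w := fun w => by
    rw [← Module.End.mul_apply, hε]
  have hε' : op (1 - e) * op (1 - e) = op (1 - e) := by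
    rw [map_sub, map_one]; exact IsIdempotentElem.one_sub hε
  have h0' : op (1 - e) * op e = 0 := by
    rw [map_sub, map_one, sub_mul, one_mul, hε, sub_self]
  have h0 : op e * op (1 - e) = 0 := by
    rw [map_sub, map_one, mul_sub, mul_one, hε, sub_self]
  -- the corner scalar
  have hd : ∀ w : Y, op e (op X (op e w)) = T (e * X * e) • op e w := by
    intro w
    have h := h48_gma_corner hpch htd e hε he1 (e * X * e)
      (by rw [map_mul, map_mul]; exact h48_idem_sandwich hε _) w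
    rw [map_mul, map_mul, Module.End.mul_apply, Module.End.mul_apply] at h
    exact h
  -- `X` fixes the complement
  have hX1' : ∀ w : Y, op X w - op e (op X w) = w - op e w := by
    intro w
    have h := LinearMap.congr_fun hX1 w
    rw [Module.End.mul_apply, map_sub, map_one, LinearMap.sub_apply, LinearMap.sub_apply,
      Module.End.one_apply, Module.End.one_apply] at h
    exact h
  -- the trace of `X`
  have hT : ∀ w : Y, T X • w = T (e * X * e) • w + w := by
    intro w
    have hdec : X = e * X * e + e * X * (1 - e) + (1 - e) * X * e + (1 - e) * X * (1 - e) := by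
      noncomm_ring
    have t1 : T ((1 - e) * X * (1 - e)) • w = w := by
      rw [htd ((1 - e) * X * (1 - e)) (1 - e) (by rw [map_mul, map_mul, hX1, hε']) w, he1']
    have t2 : T ((1 - e) * X * e) • w = 0 := by
      rw [htd ((1 - e) * X * e) 0 (by rw [map_mul, map_mul, hX1, h0', map_zero]) w, map_zero,
        zero_smul]
    have t3 : T (e * X * (1 - e)) • w = 0 := by
      rw [hcomm (e * X) (1 - e) w,
        htd ((1 - e) * (e * X)) 0 (by rw [map_mul, map_mul, ← mul_assoc, h0', zero_mul,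
          map_zero]) w, map_zero, zero_smul]
    have h4 : T X • w = T (e * X * e) • w + T (e * X * (1 - e)) • w + T ((1 - e) * X * e) • w +
        T ((1 - e) * X * (1 - e)) • w := by
      conv_lhs => rw [hdec]
      rw [map_add, map_add, map_add, add_smul, add_smul, add_smul]
    rw [h4, t1, t2, t3, add_zero, add_zero]
  -- on the kernel of `e`
  have hker : ∀ y : Y, op e y = 0 → aX • y = T (e * X * e) • y := by
    intro y hy
    have h1 : op X y = op e (op X y) + y := by
      have h := hX1' y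
      rw [hy, sub_zero] at h
      exact sub_eq_iff_eq_add'.mp h
    have h2 : op X (op e (op X y)) = T (e * X * e) • op e (op X y) := by
      have h := hX1' (op e (op X y))
      rw [hεε, sub_self, sub_eq_zero] at h
      rw [h, hd]
    have h3 := hX2 y
    rw [hT (op X y)] at h3
    have h4 : op X (op X y) = T (e * X * e) • op e (op X y) + op X y := by
      conv_lhs => rw [h1]
      rw [map_add, h2]
    rw [h4] at h3
    have h5 : T (e * X * e) • op X y =
        T (e * X * e) • op e (op X y) + T (e * X * e) • y := by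
      conv_lhs => rw [h1]
      rw [smul_add]
    rw [h5] at h3
    have key : aX • y - T (e * X * e) • y =
        (T (e * X * e) • op e (op X y) + op X y + aX • y) -
          (T (e * X * e) • op e (op X y) + T (e * X * e) • y + op X y) := by abel
    rw [← sub_eq_zero, key, sub_eq_zero]; exact h3
  -- on the range of `e`
  have hrange : aX • op e y = T (e * X * e) • op e y := by
    have hvu := h48_gma_vu hpch htd e hε he1 x x' (op e y)
    rw [hεε] at hvu
    have hu0 : op e (op ((1 - e) * x * e) (op e y)) = 0 := by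
      rw [map_mul, map_mul, Module.End.mul_apply, Module.End.mul_apply,
        ← Module.End.mul_apply (op e) (op (1 - e)), h0]
      rfl
    have hk := hker _ hu0
    have h6 : aX • T (e * x' * (1 - e) * ((1 - e) * x * e)) • op e y =
        T (e * X * e) • T (e * x' * (1 - e) * ((1 - e) * x * e)) • op e y := by
      rw [← hvu, ← map_smul, hk, map_smul]
    have h7 : s' • aX • T (e * x' * (1 - e) * ((1 - e) * x * e)) • op e y =
        s' • T (e * X * e) • T (e * x' * (1 - e) * ((1 - e) * x * e)) • op e y := by rw [h6]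
    rw [smul_comm s' aX, hs, smul_comm s' (T (e * X * e)), hs] at h7
    exact h7
  have h8 := hX1' (op e y)
  rw [hεε, sub_self, sub_eq_zero] at h8
  rw [h8, hd, hrange]

end gma2

section psiA

variable {G : Type} [Group G] {R₀ : Type} [CommRing R₀] {k : Type} [Field k]
  (φ : R₀ →+* k) (ρ : G →* Matrix (Fin 2) (Fin 2) k)

/-- The ring homomorphism `R₀[G] → M₂(k)`, `c g ↦ φ c • ρ g`. -/
noncomputable def h48_PsiA : MonoidAlgebra R₀ G →+* Matrix (Fin 2) (Fin 2) k :=
  MonoidAlgebra.liftNCRingHom ((Matrix.scalar (Fin 2)).comp φ) ρ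
    (fun x y => Matrix.scalar_commute _ (fun _ => Commute.all _ _) _)

theorem h48_PsiA_single (g : G) (c : R₀) :
    h48_PsiA φ ρ (MonoidAlgebra.single g c) = φ c • ρ g := by
  rw [h48_PsiA, MonoidAlgebra.liftNCRingHom_single, RingHom.comp_apply, Matrix.scalar_apply,
    ← Matrix.smul_eq_diagonal_mul]

theorem h48_PsiA_trace (t : G → R₀) (htr : ∀ g, (ρ g).trace = φ (t g))
    (x : MonoidAlgebra R₀ G) : (h48_PsiA φ ρ x).trace = φ (h48_TA t x) := by
  induction x using MonoidAlgebra.induction_linear with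
  | zero => simp
  | add x y hx hy => rw [map_add, map_add, Matrix.trace_add, hx, hy, map_add]
  | single g c =>
    rw [h48_PsiA_single, h48_TA_single, Matrix.trace_smul, htr, smul_eq_mul, map_mul]

/-- Two matrices with `A X B = 0` for all `X` have `tr A · tr B = 0`. -/
theorem h48_mat_two (A B : Matrix (Fin 2) (Fin 2) k)
    (h : ∀ X : Matrix (Fin 2) (Fin 2) k, A * X * B = 0) : A.trace * B.trace = 0 := by
  have h00 := congrFun (congrFun (h !![1, 0; 0, 0]) 0) 0
  have h01 := congrFun (congrFun (h !![0, 1; 0, 0]) 0) 1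
  have h10 := congrFun (congrFun (h !![0, 0; 1, 0]) 1) 0
  have h11 := congrFun (congrFun (h !![0, 0; 0, 1]) 1) 1
  simp [Matrix.mul_apply, Fin.sum_univ_two, -mul_eq_zero] at h00 h01 h10 h11
  rw [Matrix.trace_fin_two, Matrix.trace_fin_two]
  linear_combination h00 + h01 + h10 + h11

/-- Two trace-one idempotents of `M₂(k)` are linked through a spanning family. -/
theorem h48_offdiag {ρ : G → Matrix (Fin 2) (Fin 2) k}
    (hspan : Submodule.span k (Set.range ρ) = ⊤) (P P' : Matrix (Fin 2) (Fin 2) k)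
    (hP : P * P = P) (hP' : P' * P' = P') (htP : P.trace = 1) (htP' : P'.trace = 1) :
    ∃ g g', (P * ρ g' * P' * (P' * ρ g * P)).trace ≠ 0 := by
  by_contra hcon
  push Not at hcon
  have h1 : ∀ g', P * ρ g' * P' = 0 := by
    intro g'
    refine h48_eq_zero_of_trace hspan _ (fun g => ?_)
    have e : P * ρ g' * P' * (P' * ρ g * P) = (P * ρ g' * P' * ρ g) * P := by
      rw [show P * ρ g' * P' * (P' * ρ g * P) = P * ρ g' * (P' * P') * ρ g * P by
        simp only [mul_assoc], hP']
    have e2 : (P * ρ g' * P' * ρ g).trace = (P * ρ g' * P' * (P' * ρ g * P)).trace := by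
      rw [e, Matrix.trace_mul_comm (P * ρ g' * P' * ρ g) P]
      simp only [← mul_assoc, hP]
    rw [e2]; exact hcon g g'
  have h2 : ∀ X, P * X * P' = 0 := by
    intro X
    refine h48_span_ind hspan (fun X => P * X * P' = 0) ?_ ?_ ?_ h1 X
    · simp
    · intro X Y hX hY; rw [mul_add, add_mul, hX, hY, add_zero]
    · intro c X hX; rw [Matrix.mul_smul, Matrix.smul_mul, hX, smul_zero]
  have h3 := h48_mat_two P P' h2
  rw [htP, htP', one_mul] at h3
  exact one_ne_zero h3

end psiA

section idem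

variable {G : Type} [Group G] {Y : Type} [AddCommGroup Y] {R₀ : Type} [CommRing R₀] [Module R₀ Y]
  {r : G →* Module.End R₀ Y} {a : G → ℕ} {t : G → R₀}
  {k : Type} [Field k] [Finite k]

/-- The kernel of `R₀[G] → End Y` lies in the kernel of `R₀[G] → M₂(k)`. -/
theorem h48_PsiA_ker [Nontrivial Y] (ha1 : ∀ w : Y, a 1 • w = w)
    (hamul : ∀ (g h : G) (w : Y), a (g * h) • w = a g • a h • w)
    (ht : ∀ (g : G) (w : Y), t g • w = r g w + a g • r g⁻¹ w)
    (h2 : (2 : k) ≠ 0) (φ : R₀ →+* k) (ρ : G →* Matrix (Fin 2) (Fin 2) k)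
    (htr : ∀ g, (ρ g).trace = φ (t g)) (hspan : Submodule.span k (Set.range ρ) = ⊤)
    (j : ℕ) (hnil : ∀ c ∈ (Ideal.comap φ (IsLocalRing.maximalIdeal k)) ^ j, ∀ y : Y, c • y = 0)
    (z : MonoidAlgebra R₀ G) (hz : h48_opA r z = 0) : h48_PsiA φ ρ z = 0 := by
  refine h48_eq_zero_of_trace hspan _ (fun h => ?_)
  have e1 : h48_PsiA φ ρ z * ρ h = h48_PsiA φ ρ (z * MonoidAlgebra.single h 1) := by
    rw [map_mul, h48_PsiA_single, map_one, one_smul]
  rw [e1, h48_PsiA_trace φ ρ t htr]
  refine h48_ann_ker φ j hnil _ (fun y => ?_)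
  exact h48_tdA ha1 hamul ht h2 φ ρ htr hspan j hnil _ (by rw [map_mul, hz, zero_mul]) y

/-- The idempotent attached to `σ₀`: it lifts the residual projector `(ā - 1)⁻¹ (ρ σ₀ - 1)`. -/
theorem h48_idem_exists [Nontrivial Y] (ha1 : ∀ w : Y, a 1 • w = w)
    (hamul : ∀ (g h : G) (w : Y), a (g * h) • w = a g • a h • w)
    (ht : ∀ (g : G) (w : Y), t g • w = r g w + a g • r g⁻¹ w)
    (h2 : (2 : k) ≠ 0) (φ : R₀ →+* k) (ρ : G →* Matrix (Fin 2) (Fin 2) k)
    (htr : ∀ g, (ρ g).trace = φ (t g)) (hspan : Submodule.span k (Set.range ρ) = ⊤)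
    (j : ℕ) (hnil : ∀ c ∈ (Ideal.comap φ (IsLocalRing.maximalIdeal k)) ^ j, ∀ y : Y, c • y = 0)
    (σ0 : G) (hres1 : φ (t σ0) = 1 + (a σ0 : k)) (hres2 : (a σ0 : k) ≠ 1) :
    ∃ e : MonoidAlgebra R₀ G, h48_opA r e * h48_opA r e = h48_opA r e ∧
      (∀ y : Y, ∃ w : Y, h48_opA r e y = r σ0 w - w) ∧
      h48_PsiA φ ρ e * h48_PsiA φ ρ e = h48_PsiA φ ρ e ∧ (h48_PsiA φ ρ e).trace = 1 := by
  classical
  have hj : j ≠ 0 := by
    rintro rfl
    obtain ⟨y, hy⟩ := exists_ne (0 : Y)
    apply hy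
    have h := hnil 1 (by rw [pow_zero, Ideal.one_eq_top]; exact Submodule.mem_top) y
    rwa [one_smul] at h
  obtain ⟨i, rfl⟩ := Nat.exists_eq_succ_of_ne_zero hj
  have hφκ : φ ((a σ0 : R₀) - 1) ≠ 0 := by
    rw [map_sub, map_natCast, map_one]; exact sub_ne_zero.mpr hres2
  obtain ⟨κ', hκ'⟩ := h48_unit_on φ _ hnil ((a σ0 : R₀) - 1) hφκ
  have hφκ' : φ κ' * ((a σ0 : k) - 1) = 1 := by
    have h := h48_ann_ker φ _ hnil (κ' * ((a σ0 : R₀) - 1) - 1)
      (fun y => by rw [sub_smul, mul_smul, hκ', one_smul, sub_self])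
    rwa [map_sub, map_mul, map_one, sub_eq_zero, map_sub, map_natCast, map_one] at h
  have hφδ : φ (t σ0 - 1 - (a σ0 : R₀)) = 0 := by
    rw [map_sub, map_sub, map_one, map_natCast, hres1]; ring
  -- the element `x = κ' (σ₀ - 1)`
  obtain ⟨x, hxdef⟩ : ∃ x : MonoidAlgebra R₀ G,
      x = MonoidAlgebra.single σ0 κ' - MonoidAlgebra.single 1 κ' := ⟨_, rfl⟩
  have hxw : ∀ w : Y, h48_opA r x w = κ' • r σ0 w - κ' • w := by
    intro w
    rw [hxdef, map_sub, h48_opA_single, h48_opA_single, map_one]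
    rfl
  have hch : ∀ w : Y, r σ0 (r σ0 w) = t σ0 • r σ0 w - (a σ0 : R₀) • w := by
    intro w
    have h := ht σ0 (r σ0 w)
    rw [h48_r_inv_apply] at h
    rw [h, Nat.cast_smul_eq_nsmul]; abel
  have hxxw : ∀ w : Y, h48_opA r x w - h48_opA r x (h48_opA r x w) =
      (-(κ' * κ' * (t σ0 - 1 - (a σ0 : R₀)))) • r σ0 w := by
    intro w
    rw [hxw (h48_opA r x w), hxw w]
    simp only [map_sub, map_smul, hch]
    have key : κ' • (r σ0) w - κ' • w -
        (κ' • (κ' • (t σ0 • (r σ0) w - (a σ0 : R₀) • w) - κ' • (r σ0) w) -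
          κ' • (κ' • (r σ0) w - κ' • w)) -
        (-(κ' * κ' * (t σ0 - 1 - (a σ0 : R₀)))) • (r σ0) w =
        κ' • ((r σ0 w - w) - κ' • ((a σ0 : R₀) - 1) • (r σ0 w - w)) := by
      module
    rw [← sub_eq_zero, key, hκ', sub_self, smul_zero]
  have hxx : h48_opA r x - h48_opA r x ^ 2 =
      (-(κ' * κ' * (t σ0 - 1 - (a σ0 : R₀)))) • r σ0 := by
    apply LinearMap.ext; intro w
    rw [sq, LinearMap.sub_apply, Module.End.mul_apply, hxxw]
    rfl
  have hnilp : (h48_opA r x - h48_opA r x ^ 2) ^ (i + 1) = 0 := by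
    rw [hxx, smul_pow]
    apply LinearMap.ext; intro w
    rw [LinearMap.smul_apply, LinearMap.zero_apply]
    refine hnil _ (Ideal.pow_mem_pow ?_ _) _
    rw [Ideal.mem_comap, map_neg, map_mul, hφδ, mul_zero, neg_zero]
    exact Ideal.zero_mem _
  have hidem := isIdempotentElem_one_sub_one_sub_pow_pow (h48_opA r x) (i + 1) hnilp
  -- the residual projector
  have hPx : h48_PsiA φ ρ x = φ κ' • ρ σ0 - φ κ' • 1 := by
    rw [hxdef, map_sub, h48_PsiA_single, h48_PsiA_single, map_one]
  have hPidem : h48_PsiA φ ρ x * h48_PsiA φ ρ x = h48_PsiA φ ρ x := by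
    have hz : h48_opA r (x - x * x +
        MonoidAlgebra.single σ0 (κ' * κ' * (t σ0 - 1 - (a σ0 : R₀)))) = 0 := by
      rw [map_add, map_sub, map_mul, h48_opA_single, ← sq, hxx, neg_smul, neg_add_cancel]
    have h := h48_PsiA_ker ha1 hamul ht h2 φ ρ htr hspan _ hnil _ hz
    rw [map_add, map_sub, map_mul, h48_PsiA_single, map_mul, hφδ, mul_zero, zero_smul,
      add_zero, sub_eq_zero] at h
    exact h.symm
  have hPtr : (h48_PsiA φ ρ x).trace = 1 := by
    rw [hPx, Matrix.trace_sub, Matrix.trace_smul, Matrix.trace_smul, Matrix.trace_one, htr,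
      hres1, Fintype.card_fin, smul_eq_mul, smul_eq_mul]
    push_cast
    linear_combination hφκ'
  refine ⟨1 - (1 - x ^ (i + 1)) ^ (i + 1), ?_, ?_, ?_⟩
  · have h : h48_opA r (1 - (1 - x ^ (i + 1)) ^ (i + 1)) =
        1 - (1 - h48_opA r x ^ (i + 1)) ^ (i + 1) := by
      rw [map_sub, map_one, map_pow, map_sub, map_one, map_pow]
    rw [h]; exact hidem
  · intro y
    obtain ⟨c, hc⟩ := (Commute.one_left (1 - x ^ (i + 1))).sub_dvd_pow_sub_pow (i + 1)
    rw [one_pow, sub_sub_cancel] at hc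
    refine ⟨κ' • h48_opA r (x ^ i * c) y, ?_⟩
    rw [hc, pow_succ', mul_assoc, map_mul, Module.End.mul_apply, hxw, map_smul]
  · have hPe : h48_PsiA φ ρ (1 - (1 - x ^ (i + 1)) ^ (i + 1)) = h48_PsiA φ ρ x := by
      have h1 : IsIdempotentElem (h48_PsiA φ ρ x) := hPidem
      rw [map_sub, map_one, map_pow, map_sub, map_one, map_pow, h1.pow_succ_eq,
        h1.one_sub.pow_succ_eq, sub_sub_cancel]
    rw [hPe]
    exact ⟨hPidem, hPtr⟩

/-- All the data of the generalised matrix algebra structure on `R₀[G] → End Y`. -/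
theorem h48_ord_data [Nontrivial Y] (ha1 : ∀ w : Y, a 1 • w = w)
    (hamul : ∀ (g h : G) (w : Y), a (g * h) • w = a g • a h • w)
    (ht : ∀ (g : G) (w : Y), t g • w = r g w + a g • r g⁻¹ w)
    (h2 : (2 : k) ≠ 0) (φ : R₀ →+* k) (ρ : G →* Matrix (Fin 2) (Fin 2) k)
    (htr : ∀ g, (ρ g).trace = φ (t g)) (hspan : Submodule.span k (Set.range ρ) = ⊤)
    (j : ℕ) (hnil : ∀ c ∈ (Ideal.comap φ (IsLocalRing.maximalIdeal k)) ^ j, ∀ y : Y, c • y = 0)
    (σ0 : G) (hres1 : φ (t σ0) = 1 + (a σ0 : k)) (hres2 : (a σ0 : k) ≠ 1) :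
    ∃ (e x x' : MonoidAlgebra R₀ G) (s' : R₀), h48_opA r e * h48_opA r e = h48_opA r e ∧
      (∀ y : Y, ∃ w : Y, h48_opA r e y = r σ0 w - w) ∧ (∀ y : Y, h48_TA t e • y = y) ∧
      (∀ y : Y, h48_TA t (1 - e) • y = y) ∧
      (∀ y : Y, s' • h48_TA t (e * x' * (1 - e) * ((1 - e) * x * e)) • y = y) := by
  obtain ⟨e, he1, he2, he3, he4⟩ :=
    h48_idem_exists ha1 hamul ht h2 φ ρ htr hspan j hnil σ0 hres1 hres2
  have hpch := fun (x y : MonoidAlgebra R₀ G) (w : Y) => h48_pchA hamul ht x y w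
  have htd := fun (x x' : MonoidAlgebra R₀ G) (hx : h48_opA r x = h48_opA r x') (w : Y) =>
    h48_tdA_eq ha1 hamul ht h2 φ ρ htr hspan j hnil x x' hx w
  have hmem : ∀ c : R₀, φ c = 0 → ∀ y : Y, c ^ j • y = 0 := fun c hc y =>
    hnil _ (Ideal.pow_mem_pow (by rw [Ideal.mem_comap, hc]; exact Ideal.zero_mem _) j) y
  have htr' : (1 - h48_PsiA φ ρ e).trace = 1 := by
    rw [Matrix.trace_sub, Matrix.trace_one, he4, Fintype.card_fin]
    push_cast; ring
  have hT1 : ∀ y : Y, h48_TA t e • y = y := by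
    refine h48_gma_one hpch htd e he1 j (hmem _ ?_)
    rw [map_sub, map_one, ← h48_PsiA_trace φ ρ t htr, he4, sub_self]
  have he1' : h48_opA r (1 - e) * h48_opA r (1 - e) = h48_opA r (1 - e) := by
    rw [map_sub, map_one]; exact IsIdempotentElem.one_sub he1
  have hT1' : ∀ y : Y, h48_TA t (1 - e) • y = y := by
    refine h48_gma_one hpch htd (1 - e) he1' j (hmem _ ?_)
    rw [map_sub (φ), map_one, ← h48_PsiA_trace φ ρ t htr, map_sub, map_one, htr', sub_self]
  have hP' : (1 - h48_PsiA φ ρ e) * (1 - h48_PsiA φ ρ e) = 1 - h48_PsiA φ ρ e :=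
    IsIdempotentElem.one_sub he3
  obtain ⟨g, g', hgg⟩ := h48_offdiag hspan (h48_PsiA φ ρ e) (1 - h48_PsiA φ ρ e) he3 hP' he4 htr'
  have hs : φ (h48_TA t (e * MonoidAlgebra.single g' 1 * (1 - e) *
      ((1 - e) * MonoidAlgebra.single g 1 * e))) ≠ 0 := by
    rw [← h48_PsiA_trace φ ρ t htr]
    simp only [map_mul, map_sub, map_one, h48_PsiA_single, one_smul]
    exact hgg
  obtain ⟨s', hs'⟩ := h48_unit_on φ j hnil _ hs
  exact ⟨e, MonoidAlgebra.single g 1, MonoidAlgebra.single g' 1, s', he1, he2, hT1, hT1', hs'⟩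

end idem

/-- **Ordinarity from a count (primary form).** Let `G` act on a finite `𝔪`-primary module `Y`
with Eichler–Shimura operators, with residual representation `ρ` spanning `M₂(k)`. Let `I ≤ G`
contain `σ₀` with `tr ρ(σ₀) = 1 + a(σ₀)`, `a(σ₀) ≠ 1` in `k`. If a subgroup `Z ⊇ (I - 1) Y` has
`|Z|² ≤ |Y|`, then every `τ ∈ I` acts on `(I - 1) Y` by the scalar `a τ`. -/
theorem h48_ord_Y {G : Type} [Group G] {Y : Type} [AddCommGroup Y] [Finite Y]
    {R₀ : Type} [CommRing R₀] [Module R₀ Y]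
    (r : G →* Module.End R₀ Y) (a : G → ℕ) (t : G → R₀)
    (ha1 : ∀ w : Y, a 1 • w = w)
    (hamul : ∀ (g h : G) (w : Y), a (g * h) • w = a g • a h • w)
    (ht : ∀ (g : G) (w : Y), t g • w = r g w + a g • r g⁻¹ w)
    {k : Type} [Field k] [Finite k] (h2 : (2 : k) ≠ 0) (φ : R₀ →+* k)
    (ρ : G →* Matrix (Fin 2) (Fin 2) k)
    (htr : ∀ g, (ρ g).trace = φ (t g)) (hspan : Submodule.span k (Set.range ρ) = ⊤)
    (j : ℕ) (hnil : ∀ c ∈ (Ideal.comap φ (IsLocalRing.maximalIdeal k)) ^ j, ∀ y : Y, c • y = 0)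
    (I : Subgroup G) (σ0 : G) (hσ0 : σ0 ∈ I) (hres1 : φ (t σ0) = 1 + (a σ0 : k))
    (hres2 : (a σ0 : k) ≠ 1)
    (Z : AddSubgroup Y) (hZ : ∀ σ ∈ I, ∀ y : Y, r σ y - y ∈ Z)
    (hcard : Nat.card Z ^ 2 ≤ Nat.card Y) :
    ∀ σ ∈ I, ∀ τ ∈ I, ∀ y : Y, r τ (r σ y - y) = a τ • (r σ y - y) := by
  rcases subsingleton_or_nontrivial Y with hY | hY
  · intro σ _ τ _ y; exact Subsingleton.elim _ _
  obtain ⟨e, x, x', s', he, hrange, hT1, hT1', hs⟩ :=
    h48_ord_data (r := r) ha1 hamul ht h2 φ ρ htr hspan j hnil σ0 hres1 hres2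
  have hpch := fun (x y : MonoidAlgebra R₀ G) (w : Y) => h48_pchA hamul ht x y w
  have htd := fun (x x' : MonoidAlgebra R₀ G) (hx : h48_opA r x = h48_opA r x') (w : Y) =>
    h48_tdA_eq ha1 hamul ht h2 φ ρ htr hspan j hnil x x' hx w
  have hcomm := fun (x y : MonoidAlgebra R₀ G) (w : Y) => h48_TA_comm hamul ht x y w
  have hεZ : ∀ y : Y, h48_opA r e y ∈ Z := by
    intro y
    obtain ⟨w, hw⟩ := hrange y
    rw [hw]; exact hZ σ0 hσ0 w
  have hZε : ∀ z ∈ Z, h48_opA r e z = z :=
    h48_gma_count hpch htd hcomm e he hT1' x x' s' hs Z hεZ hcard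
  intro σ hσ τ hτ y
  have hz := hZ σ hσ y
  have hX1 : h48_opA r (1 - e) * h48_opA r (MonoidAlgebra.single τ 1) = h48_opA r (1 - e) := by
    apply LinearMap.ext; intro w
    rw [Module.End.mul_apply, h48_opA_single, one_smul, map_sub, map_one, LinearMap.sub_apply,
      LinearMap.sub_apply, Module.End.one_apply, Module.End.one_apply]
    have h := hZε _ (hZ τ hτ w)
    rw [map_sub] at h
    have key : r τ w - h48_opA r e (r τ w) - (w - h48_opA r e w) =
        (r τ w - w) - (h48_opA r e (r τ w) - h48_opA r e w) := by abel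
    rw [← sub_eq_zero, key, sub_eq_zero]; exact h.symm
  have hX2 : ∀ w : Y, h48_opA r (MonoidAlgebra.single τ 1) (h48_opA r (MonoidAlgebra.single τ 1) w)
      + (a τ : R₀) • w = h48_TA t (MonoidAlgebra.single τ 1) • h48_opA r (MonoidAlgebra.single τ 1) w := by
    intro w
    rw [h48_opA_single, one_smul, h48_TA_single, one_mul, ht τ (r τ w), h48_r_inv_apply,
      Nat.cast_smul_eq_nsmul]
  have hfin := h48_gma_scalar hpch htd hcomm e he hT1 hT1' x x' s' hs (MonoidAlgebra.single τ 1)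
    (a τ : R₀) hX1 hX2 (r σ y - y)
  rw [hZε _ hz, h48_opA_single, one_smul, Nat.cast_smul_eq_nsmul] at hfin
  exact hfin

end Fermat.Agent.S33
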