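import Fermat.Agent.S33.h48_OrdWrap

/-!
# S33, algebra core (helper48): ordinarity from the split hypotheses

`h48_ord_Y_split`: the conclusion of `h48_ord_Y` from the two geometric inputs of the S33 route
instead of a count:

* `(h_new)`: no nonzero `p`-torsion `σ₀`-fixed class of `Yns ∩ (I - 1) Y`;
* `(h_old)`: a subgroup `X0 ⊇ Yns + (I - 1) Y` with no nonzero `I`-trivial quotient modulo `Yns`;

together with the residual relation `(ρ̄ σ₀ - a σ₀)(ρ̄ σ - 1) = 0` for all `σ ∈ I`.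
-/

set_option autoImplicit false
set_option linter.unusedSimpArgs false
set_option linter.unusedVariables false
set_option linter.unusedSectionVars false
set_option linter.style.haveILetI false

namespace Fermat.Agent.S33

open Fermat.Agent.S32 Matrix

section idem2

variable {G : Type} [Group G] {Y : Type} [AddCommGroup Y] {R₀ : Type} [CommRing R₀] [Module R₀ Y]
  {r : G →* Module.End R₀ Y} {a : G → ℕ} {t : G → R₀}
  {k : Type} [Field k] [Finite k]

/-- A subgroup stable under `G` and `R₀` is stable under the group algebra. -/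
theorem h48_opA_mem (N : AddSubgroup Y) (hG : ∀ g : G, ∀ y ∈ N, r g y ∈ N)
    (hR : ∀ b : R₀, ∀ y ∈ N, b • y ∈ N) (z : MonoidAlgebra R₀ G) (y : Y) (hy : y ∈ N) :
    h48_opA r z y ∈ N := by
  induction z using MonoidAlgebra.induction_linear with
  | zero => rw [map_zero]; exact N.zero_mem
  | add z₁ z₂ h₁ h₂ => rw [map_add]; exact N.add_mem h₁ h₂
  | single g c => rw [h48_opA_single]; exact hR c _ (hG g y hy)

end idem2

section idem3

variable {G : Type} [Group G] {Y : Type} [AddCommGroup Y] {R₀ : Type} [CommRing R₀] [Module R₀ Y]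
  {r : G →* Module.End R₀ Y} {a : G → ℕ} {t : G → R₀}
  {k : Type} [Field k] [Finite k]

/-- The idempotent attached to `σ₀`, with its finer properties: `σ₀ - 1` is nilpotent on its
kernel, it lies in `R₀[σ₀]`, and its residual complement is a multiple of `ρ σ₀ - a σ₀`. -/
theorem h48_idem_exists2 [Nontrivial Y] (ha1 : ∀ w : Y, a 1 • w = w)
    (hamul : ∀ (g h : G) (w : Y), a (g * h) • w = a g • a h • w)
    (ht : ∀ (g : G) (w : Y), t g • w = r g w + a g • r g⁻¹ w)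
    (h2 : (2 : k) ≠ 0) (φ : R₀ →+* k) (ρ : G →* Matrix (Fin 2) (Fin 2) k)
    (htr : ∀ g, (ρ g).trace = φ (t g)) (hspan : Submodule.span k (Set.range ρ) = ⊤)
    (j : ℕ) (hnil : ∀ c ∈ (Ideal.comap φ (IsLocalRing.maximalIdeal k)) ^ j, ∀ y : Y, c • y = 0)
    (σ0 : G) (hres1 : φ (t σ0) = 1 + (a σ0 : k)) (hres2 : (a σ0 : k) ≠ 1) :
    ∃ (e : MonoidAlgebra R₀ G) (m : ℕ) (c : k), h48_opA r e * h48_opA r e = h48_opA r e ∧
      (∀ y : Y, ∃ w : Y, h48_opA r e y = r σ0 w - w) ∧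
      h48_PsiA φ ρ e * h48_PsiA φ ρ e = h48_PsiA φ ρ e ∧ (h48_PsiA φ ρ e).trace = 1 ∧
      (∀ y : Y, h48_opA r e y = 0 → ((r σ0 - 1) ^ m) y = 0) ∧
      (∀ N : AddSubgroup Y, (∀ y ∈ N, r σ0 y ∈ N) → (∀ (b : R₀), ∀ y ∈ N, b • y ∈ N) →
        ∀ y ∈ N, h48_opA r e y ∈ N) ∧
      1 - h48_PsiA φ ρ e = c • (ρ σ0 - (a σ0 : k) • (1 : Matrix (Fin 2) (Fin 2) k)) := by
  classical
  have hj : j ≠ 0 := by
    rintro rfl
    obtain ⟨y, hy⟩ := exists_ne (0 : Y)
    apply hy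
    have h := hnil 1 (by rw [pow_zero, Ideal.one_eq_top]; exact Submodule.mem_top) y
    rwa [one_smul] at h
  obtain ⟨i, rfl⟩ := Nat.exists_eq_succ_of_ne_zero hj
  have hφκ : φ ((a σ0 : R₀) - 1) ≠ 0 := by
    rw [map_sub, map_natCast, map_one]; exact sub_ne_zero.mpr hres2
  obtain ⟨κ', hκ'⟩ := h48_unit_on φ _ hnil ((a σ0 : R₀) - 1) hφκ
  have hφκ' : φ κ' * ((a σ0 : k) - 1) = 1 := by
    have h := h48_ann_ker φ _ hnil (κ' * ((a σ0 : R₀) - 1) - 1)
      (fun y => by rw [sub_smul, mul_smul, hκ', one_smul, sub_self])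
    rwa [map_sub, map_mul, map_one, sub_eq_zero, map_sub, map_natCast, map_one] at h
  have hφδ : φ (t σ0 - 1 - (a σ0 : R₀)) = 0 := by
    rw [map_sub, map_sub, map_one, map_natCast, hres1]; ring
  obtain ⟨x, hxdef⟩ : ∃ x : MonoidAlgebra R₀ G,
      x = MonoidAlgebra.single σ0 κ' - MonoidAlgebra.single 1 κ' := ⟨_, rfl⟩
  have hxw : ∀ w : Y, h48_opA r x w = κ' • r σ0 w - κ' • w := by
    intro w
    rw [hxdef, map_sub, h48_opA_single, h48_opA_single, map_one]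
    rfl
  have hch : ∀ w : Y, r σ0 (r σ0 w) = t σ0 • r σ0 w - (a σ0 : R₀) • w := by
    intro w
    have h := ht σ0 (r σ0 w)
    rw [h48_r_inv_apply] at h
    rw [h, Nat.cast_smul_eq_nsmul]; abel
  have hxxw : ∀ w : Y, h48_opA r x w - h48_opA r x (h48_opA r x w) =
      (-(κ' * κ' * (t σ0 - 1 - (a σ0 : R₀)))) • r σ0 w := by
    intro w
    rw [hxw (h48_opA r x w), hxw w]
    simp only [map_sub, map_smul, hch]
    have key : κ' • (r σ0) w - κ' • w -
        (κ' • (κ' • (t σ0 • (r σ0) w - (a σ0 : R₀) • w) - κ' • (r σ0) w) -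
          κ' • (κ' • (r σ0) w - κ' • w)) -
        (-(κ' * κ' * (t σ0 - 1 - (a σ0 : R₀)))) • (r σ0) w =
        κ' • ((r σ0 w - w) - κ' • ((a σ0 : R₀) - 1) • (r σ0 w - w)) := by
      module
    rw [← sub_eq_zero, key, hκ', sub_self, smul_zero]
  have hxx : h48_opA r x - h48_opA r x ^ 2 =
      (-(κ' * κ' * (t σ0 - 1 - (a σ0 : R₀)))) • r σ0 := by
    apply LinearMap.ext; intro w
    rw [sq, LinearMap.sub_apply, Module.End.mul_apply, hxxw]
    rfl
  have hnilp : (h48_opA r x - h48_opA r x ^ 2) ^ (i + 1) = 0 := by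
    rw [hxx, smul_pow]
    apply LinearMap.ext; intro w
    rw [LinearMap.smul_apply, LinearMap.zero_apply]
    refine hnil _ (Ideal.pow_mem_pow ?_ _) _
    rw [Ideal.mem_comap, map_neg, map_mul, hφδ, mul_zero, neg_zero]
    exact Ideal.zero_mem _
  have hidem := isIdempotentElem_one_sub_one_sub_pow_pow (h48_opA r x) (i + 1) hnilp
  have hPx : h48_PsiA φ ρ x = φ κ' • ρ σ0 - φ κ' • 1 := by
    rw [hxdef, map_sub, h48_PsiA_single, h48_PsiA_single, map_one]
  have hPidem : h48_PsiA φ ρ x * h48_PsiA φ ρ x = h48_PsiA φ ρ x := by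
    have hz : h48_opA r (x - x * x +
        MonoidAlgebra.single σ0 (κ' * κ' * (t σ0 - 1 - (a σ0 : R₀)))) = 0 := by
      rw [map_add, map_sub, map_mul, h48_opA_single, ← sq, hxx, neg_smul, neg_add_cancel]
    have h := h48_PsiA_ker ha1 hamul ht h2 φ ρ htr hspan _ hnil _ hz
    rw [map_add, map_sub, map_mul, h48_PsiA_single, map_mul, hφδ, mul_zero, zero_smul,
      add_zero, sub_eq_zero] at h
    exact h.symm
  have hPtr : (h48_PsiA φ ρ x).trace = 1 := by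
    rw [hPx, Matrix.trace_sub, Matrix.trace_smul, Matrix.trace_smul, Matrix.trace_one, htr,
      hres1, Fintype.card_fin, smul_eq_mul, smul_eq_mul]
    push_cast
    linear_combination hφκ'
  have hope : h48_opA r (1 - (1 - x ^ (i + 1)) ^ (i + 1)) =
      1 - (1 - h48_opA r x ^ (i + 1)) ^ (i + 1) := by
    rw [map_sub, map_one, map_pow, map_sub, map_one, map_pow]
  have hPe : h48_PsiA φ ρ (1 - (1 - x ^ (i + 1)) ^ (i + 1)) = h48_PsiA φ ρ x := by
    have h1 : IsIdempotentElem (h48_PsiA φ ρ x) := hPidem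
    rw [map_sub, map_one, map_pow, map_sub, map_one, map_pow, h1.pow_succ_eq,
      h1.one_sub.pow_succ_eq, sub_sub_cancel]
  refine ⟨1 - (1 - x ^ (i + 1)) ^ (i + 1), i + 1, -φ κ', ?_, ?_, ?_, ?_, ?_, ?_, ?_⟩
  · rw [hope]; exact hidem
  · intro y
    obtain ⟨c, hc⟩ := (Commute.one_left (1 - x ^ (i + 1))).sub_dvd_pow_sub_pow (i + 1)
    rw [one_pow, sub_sub_cancel] at hc
    refine ⟨κ' • h48_opA r (x ^ i * c) y, ?_⟩
    rw [hc, pow_succ', mul_assoc, map_mul, Module.End.mul_apply, hxw, map_smul]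
  · rw [hPe]; exact hPidem
  · rw [hPe]; exact hPtr
  · -- `σ₀ - 1` is nilpotent on the kernel
    intro y hy
    have hpoly : (Polynomial.X : Polynomial R₀) ^ (i + 1) * (1 - Polynomial.X ^ (i + 1)) ^ (i + 1) =
        (Polynomial.X - Polynomial.X ^ 2) ^ (i + 1) *
          (∑ l ∈ Finset.range (i + 1), (Polynomial.X : Polynomial R₀) ^ l) ^ (i + 1) := by
      rw [← mul_pow, ← mul_pow]
      congr 1
      rw [← mul_neg_geom_sum]; ring
    have hXQ : h48_opA r x ^ (i + 1) * (1 - h48_opA r x ^ (i + 1)) ^ (i + 1) = 0 := by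
      have h := congrArg (Polynomial.aeval (h48_opA r x)) hpoly
      simp only [map_mul, map_pow, map_sub, map_one, Polynomial.aeval_X] at h
      rw [h, hnilp, zero_mul]
    have hQy : ((1 - h48_opA r x ^ (i + 1)) ^ (i + 1)) y = y := by
      rw [hope, LinearMap.sub_apply, Module.End.one_apply, sub_eq_zero] at hy
      exact hy.symm
    have hXy : (h48_opA r x ^ (i + 1)) y = 0 := by
      rw [← hQy, ← Module.End.mul_apply, hXQ, LinearMap.zero_apply]
    have hσx : r σ0 - 1 = ((a σ0 : R₀) - 1) • h48_opA r x := by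
      apply LinearMap.ext; intro w
      rw [LinearMap.sub_apply, Module.End.one_apply, LinearMap.smul_apply, hxw, ← smul_sub,
        smul_comm, hκ']
    rw [hσx, smul_pow, LinearMap.smul_apply, hXy, smul_zero]
  · -- `e ∈ R₀[σ₀]`
    intro N hσ hR y hy
    let S : Subring (MonoidAlgebra R₀ G) :=
      { carrier := {z | ∀ y ∈ N, h48_opA r z y ∈ N}
        mul_mem' := fun {a b} ha hb y hy => by
          rw [map_mul]; exact ha _ (hb y hy)
        one_mem' := fun y hy => by rw [map_one]; exact hy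
        add_mem' := fun {a b} ha hb y hy => by
          rw [map_add]; exact N.add_mem (ha y hy) (hb y hy)
        zero_mem' := fun y hy => by rw [map_zero]; exact N.zero_mem
        neg_mem' := fun {a} ha y hy => by
          rw [map_neg]; exact N.neg_mem (ha y hy) }
    have hxS : x ∈ S := fun y hy => by
      rw [hxw]; exact N.sub_mem (hR _ _ (hσ y hy)) (hR _ _ hy)
    exact (S.sub_mem S.one_mem (S.pow_mem (S.sub_mem S.one_mem (S.pow_mem hxS _)) _)) y hy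
  · -- the residual complement
    rw [hPe, hPx, ← sub_eq_zero]
    have key : 1 - (φ κ' • ρ σ0 - φ κ' • (1 : Matrix (Fin 2) (Fin 2) k)) -
        -φ κ' • (ρ σ0 - (a σ0 : k) • (1 : Matrix (Fin 2) (Fin 2) k)) =
        (1 - φ κ' * ((a σ0 : k) - 1)) • (1 : Matrix (Fin 2) (Fin 2) k) := by
      module
    rw [key, hφκ', sub_self, zero_smul]

end idem3

section split

variable {G : Type} [Group G] {Y : Type} [AddCommGroup Y] {R₀ : Type} [CommRing R₀] [Module R₀ Y]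
  {r : G →* Module.End R₀ Y} {a : G → ℕ} {t : G → R₀}
  {k : Type} [Field k] [Finite k]

/-- The data of the generalised matrix algebra structure, with the finer properties of the
idempotent. -/
theorem h48_ord_data2 [Nontrivial Y] (ha1 : ∀ w : Y, a 1 • w = w)
    (hamul : ∀ (g h : G) (w : Y), a (g * h) • w = a g • a h • w)
    (ht : ∀ (g : G) (w : Y), t g • w = r g w + a g • r g⁻¹ w)
    (h2 : (2 : k) ≠ 0) (φ : R₀ →+* k) (ρ : G →* Matrix (Fin 2) (Fin 2) k)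
    (htr : ∀ g, (ρ g).trace = φ (t g)) (hspan : Submodule.span k (Set.range ρ) = ⊤)
    (j : ℕ) (hnil : ∀ c ∈ (Ideal.comap φ (IsLocalRing.maximalIdeal k)) ^ j, ∀ y : Y, c • y = 0)
    (σ0 : G) (hres1 : φ (t σ0) = 1 + (a σ0 : k)) (hres2 : (a σ0 : k) ≠ 1) :
    ∃ (e x x' : MonoidAlgebra R₀ G) (s' : R₀) (m : ℕ) (c : k),
      h48_opA r e * h48_opA r e = h48_opA r e ∧
      h48_PsiA φ ρ e * h48_PsiA φ ρ e = h48_PsiA φ ρ e ∧
      (∀ y : Y, h48_TA t e • y = y) ∧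
      (∀ y : Y, h48_TA t (1 - e) • y = y) ∧
      (∀ y : Y, s' • h48_TA t (e * x' * (1 - e) * ((1 - e) * x * e)) • y = y) ∧
      (∀ y : Y, h48_opA r e y = 0 → ((r σ0 - 1) ^ m) y = 0) ∧
      (∀ N : AddSubgroup Y, (∀ y ∈ N, r σ0 y ∈ N) → (∀ (b : R₀), ∀ y ∈ N, b • y ∈ N) →
        ∀ y ∈ N, h48_opA r e y ∈ N) ∧
      1 - h48_PsiA φ ρ e = c • (ρ σ0 - (a σ0 : k) • (1 : Matrix (Fin 2) (Fin 2) k)) := by
  obtain ⟨e, m, c, he1, -, he3, he4, hn1, hn2, hn3⟩ :=
    h48_idem_exists2 ha1 hamul ht h2 φ ρ htr hspan j hnil σ0 hres1 hres2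
  have hpch := fun (x y : MonoidAlgebra R₀ G) (w : Y) => h48_pchA hamul ht x y w
  have htd := fun (x x' : MonoidAlgebra R₀ G) (hx : h48_opA r x = h48_opA r x') (w : Y) =>
    h48_tdA_eq ha1 hamul ht h2 φ ρ htr hspan j hnil x x' hx w
  have hmem : ∀ c : R₀, φ c = 0 → ∀ y : Y, c ^ j • y = 0 := fun c hc y =>
    hnil _ (Ideal.pow_mem_pow (by rw [Ideal.mem_comap, hc]; exact Ideal.zero_mem _) j) y
  have htr' : (1 - h48_PsiA φ ρ e).trace = 1 := by
    rw [Matrix.trace_sub, Matrix.trace_one, he4, Fintype.card_fin]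
    push_cast; ring
  have hT1 : ∀ y : Y, h48_TA t e • y = y := by
    refine h48_gma_one hpch htd e he1 j (hmem _ ?_)
    rw [map_sub, map_one, ← h48_PsiA_trace φ ρ t htr, he4, sub_self]
  have he1' : h48_opA r (1 - e) * h48_opA r (1 - e) = h48_opA r (1 - e) := by
    rw [map_sub, map_one]; exact IsIdempotentElem.one_sub he1
  have hT1' : ∀ y : Y, h48_TA t (1 - e) • y = y := by
    refine h48_gma_one hpch htd (1 - e) he1' j (hmem _ ?_)
    rw [map_sub (φ), map_one, ← h48_PsiA_trace φ ρ t htr, map_sub, map_one, htr', sub_self]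
  have hP' : (1 - h48_PsiA φ ρ e) * (1 - h48_PsiA φ ρ e) = 1 - h48_PsiA φ ρ e :=
    IsIdempotentElem.one_sub he3
  obtain ⟨g, g', hgg⟩ := h48_offdiag hspan (h48_PsiA φ ρ e) (1 - h48_PsiA φ ρ e) he3 hP' he4 htr'
  have hs : φ (h48_TA t (e * MonoidAlgebra.single g' 1 * (1 - e) *
      ((1 - e) * MonoidAlgebra.single g 1 * e))) ≠ 0 := by
    rw [← h48_PsiA_trace φ ρ t htr]
    simp only [map_mul, map_sub, map_one, h48_PsiA_single, one_smul]
    exact hgg
  obtain ⟨s', hs'⟩ := h48_unit_on φ j hnil _ hs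
  exact ⟨e, MonoidAlgebra.single g 1, MonoidAlgebra.single g' 1, s', m, c, he1, he3, hT1, hT1',
    hs', hn1, hn2, hn3⟩

/-- Relative triviality: on a subquotient `V'/V` killed by `𝔪`, an element `σ` with
`(1 - P)(ρ σ - 1) = 0` residually acts trivially modulo the range of `e`. -/
theorem h48_rel_triv (ha1 : ∀ w : Y, a 1 • w = w)
    (hamul : ∀ (g h : G) (w : Y), a (g * h) • w = a g • a h • w)
    (ht : ∀ (g : G) (w : Y), t g • w = r g w + a g • r g⁻¹ w)
    (h2 : (2 : k) ≠ 0) (φ : R₀ →+* k) (ρ : G →* Matrix (Fin 2) (Fin 2) k)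
    (htr : ∀ g, (ρ g).trace = φ (t g)) (hspan : Submodule.span k (Set.range ρ) = ⊤)
    (j : ℕ) (hnil : ∀ c ∈ (Ideal.comap φ (IsLocalRing.maximalIdeal k)) ^ j, ∀ y : Y, c • y = 0)
    (e x x' : MonoidAlgebra R₀ G) (s' : R₀)
    (he : h48_opA r e * h48_opA r e = h48_opA r e)
    (hP : h48_PsiA φ ρ e * h48_PsiA φ ρ e = h48_PsiA φ ρ e)
    (hT1 : ∀ y : Y, h48_TA t e • y = y) (hT1' : ∀ y : Y, h48_TA t (1 - e) • y = y)
    (hs : ∀ y : Y, s' • h48_TA t (e * x' * (1 - e) * ((1 - e) * x * e)) • y = y)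
    (σ : G) (hPσ : (1 - h48_PsiA φ ρ e) * (ρ σ - 1) = 0)
    (V V' : AddSubgroup Y)
    (hV : ∀ (z : MonoidAlgebra R₀ G), ∀ y ∈ V, h48_opA r z y ∈ V)
    (hVR : ∀ (b : R₀), ∀ y ∈ V, b • y ∈ V)
    (hV' : ∀ (z : MonoidAlgebra R₀ G), ∀ y ∈ V', h48_opA r z y ∈ V')
    (h𝔪 : ∀ c : R₀, φ c = 0 → ∀ w ∈ V', c • w ∈ V)
    (w : Y) (hw : w ∈ V') : h48_opA r (1 - e) (r σ w - w) ∈ V := by
  have hpch := fun (x y : MonoidAlgebra R₀ G) (w : Y) => h48_pchA hamul ht x y w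
  have htd := fun (x x' : MonoidAlgebra R₀ G) (hx : h48_opA r x = h48_opA r x') (w : Y) =>
    h48_tdA_eq ha1 hamul ht h2 φ ρ htr hspan j hnil x x' hx w
  have hcomm := fun (x y : MonoidAlgebra R₀ G) (w : Y) => h48_TA_comm hamul ht x y w
  have he' : h48_opA r (1 - e) * h48_opA r (1 - e) = h48_opA r (1 - e) := by
    rw [map_sub, map_one]; exact IsIdempotentElem.one_sub he
  have hP' : (1 - h48_PsiA φ ρ e) * (1 - h48_PsiA φ ρ e) = 1 - h48_PsiA φ ρ e :=
    IsIdempotentElem.one_sub hP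
  have hPP : (1 - h48_PsiA φ ρ e) * h48_PsiA φ ρ e = 0 := by
    rw [sub_mul, one_mul, hP, sub_self]
  have hPσ' : (1 - h48_PsiA φ ρ e) * ρ σ = 1 - h48_PsiA φ ρ e := by
    rw [mul_sub, mul_one, sub_eq_zero] at hPσ
    exact hPσ
  obtain ⟨X, hXdef⟩ : ∃ X : MonoidAlgebra R₀ G, X = MonoidAlgebra.single σ 1 := ⟨_, rfl⟩
  have hopX : h48_opA r X = r σ := by rw [hXdef, h48_opA_single, one_smul]
  have hPX : h48_PsiA φ ρ X = ρ σ := by rw [hXdef, h48_PsiA_single, map_one, one_smul]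
  -- the off-diagonal block
  have hA : h48_opA r ((1 - e) * X * e) w ∈ V := by
    have hvu := h48_gma_vu hpch htd e he hT1 X x' w
    have hc1 : φ (h48_TA t (e * x' * (1 - e) * ((1 - e) * X * e))) = 0 := by
      rw [← h48_PsiA_trace φ ρ t htr]
      simp only [map_mul, map_sub, map_one, hPX]
      rw [hPσ', hPP, mul_zero, Matrix.trace_zero]
    have h1 : h48_opA r (e * x' * (1 - e)) (h48_opA r ((1 - e) * X * e) w) ∈ V := by
      rw [hvu]; exact h𝔪 _ hc1 _ (hV' e w hw)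
    have huv := h48_gma_uv hpch htd hcomm e he hT1' x x' (h48_opA r ((1 - e) * X * e) w)
    have h2' : h48_opA r (1 - e) (h48_opA r ((1 - e) * X * e) w) =
        h48_opA r ((1 - e) * X * e) w := by
      have h0 : h48_opA r (1 - e) * h48_opA r ((1 - e) * X * e) =
          h48_opA r ((1 - e) * X * e) := by
        rw [map_mul, map_mul, ← mul_assoc, ← mul_assoc, he']
      exact LinearMap.congr_fun h0 w
    rw [h2'] at huv
    have h3 := hV ((1 - e) * x * e) _ h1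
    rw [huv] at h3
    have h4 := hVR s' _ h3
    rwa [hs] at h4
  -- the diagonal block
  have hB : h48_opA r ((1 - e) * X * (1 - e)) w - h48_opA r (1 - e) w ∈ V := by
    have hcor := h48_gma_corner hpch htd (1 - e) he' hT1' ((1 - e) * X * (1 - e))
      (by rw [map_mul, map_mul]; exact h48_idem_sandwich he' _) w
    have hc2 : φ (h48_TA t ((1 - e) * X * (1 - e)) - h48_TA t (1 - e)) = 0 := by
      rw [map_sub, ← h48_PsiA_trace φ ρ t htr, ← h48_PsiA_trace φ ρ t htr]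
      simp only [map_mul, map_sub, map_one, hPX]
      rw [hPσ', hP', sub_self]
    have h1 := h𝔪 _ hc2 _ (hV' (1 - e) w hw)
    rw [sub_smul, hT1', ← hcor] at h1
    exact h1
  have hdec : (1 - e) * X = (1 - e) * X * e + (1 - e) * X * (1 - e) := by noncomm_ring
  have h5 : h48_opA r (1 - e) (r σ w) =
      h48_opA r ((1 - e) * X * e) w + h48_opA r ((1 - e) * X * (1 - e)) w := by
    have h6 : h48_opA r ((1 - e) * X) =
        h48_opA r ((1 - e) * X * e) + h48_opA r ((1 - e) * X * (1 - e)) := by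
      rw [← map_add, ← hdec]
    have h7 := LinearMap.congr_fun h6 w
    rw [map_mul, Module.End.mul_apply, hopX, LinearMap.add_apply] at h7
    exact h7
  have hfin : h48_opA r (1 - e) (r σ w - w) =
      h48_opA r ((1 - e) * X * e) w +
        (h48_opA r ((1 - e) * X * (1 - e)) w - h48_opA r (1 - e) w) := by
    rw [map_sub, h5]
    abel
  rw [hfin]; exact V.add_mem hA hB

/-- The final step: if `I - 1` lands in the range of the idempotent, `I` acts on it through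
`a`. -/
theorem h48_ord_Y_fix (ha1 : ∀ w : Y, a 1 • w = w)
    (hamul : ∀ (g h : G) (w : Y), a (g * h) • w = a g • a h • w)
    (ht : ∀ (g : G) (w : Y), t g • w = r g w + a g • r g⁻¹ w)
    (h2 : (2 : k) ≠ 0) (φ : R₀ →+* k) (ρ : G →* Matrix (Fin 2) (Fin 2) k)
    (htr : ∀ g, (ρ g).trace = φ (t g)) (hspan : Submodule.span k (Set.range ρ) = ⊤)
    (j : ℕ) (hnil : ∀ c ∈ (Ideal.comap φ (IsLocalRing.maximalIdeal k)) ^ j, ∀ y : Y, c • y = 0)
    (I : Subgroup G) (e x x' : MonoidAlgebra R₀ G) (s' : R₀)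
    (he : h48_opA r e * h48_opA r e = h48_opA r e)
    (hT1 : ∀ y : Y, h48_TA t e • y = y) (hT1' : ∀ y : Y, h48_TA t (1 - e) • y = y)
    (hs : ∀ y : Y, s' • h48_TA t (e * x' * (1 - e) * ((1 - e) * x * e)) • y = y)
    (hfix : ∀ σ ∈ I, ∀ y : Y, h48_opA r e (r σ y - y) = r σ y - y) :
    ∀ σ ∈ I, ∀ τ ∈ I, ∀ y : Y, r τ (r σ y - y) = a τ • (r σ y - y) := by
  have hpch := fun (x y : MonoidAlgebra R₀ G) (w : Y) => h48_pchA hamul ht x y w
  have htd := fun (x x' : MonoidAlgebra R₀ G) (hx : h48_opA r x = h48_opA r x') (w : Y) =>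
    h48_tdA_eq ha1 hamul ht h2 φ ρ htr hspan j hnil x x' hx w
  have hcomm := fun (x y : MonoidAlgebra R₀ G) (w : Y) => h48_TA_comm hamul ht x y w
  intro σ hσ τ hτ y
  have hX1 : h48_opA r (1 - e) * h48_opA r (MonoidAlgebra.single τ 1) = h48_opA r (1 - e) := by
    apply LinearMap.ext; intro w
    rw [Module.End.mul_apply, h48_opA_single, one_smul, map_sub, map_one, LinearMap.sub_apply,
      LinearMap.sub_apply, Module.End.one_apply, Module.End.one_apply]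
    have h := hfix τ hτ w
    rw [map_sub] at h
    have key : r τ w - h48_opA r e (r τ w) - (w - h48_opA r e w) =
        (r τ w - w) - (h48_opA r e (r τ w) - h48_opA r e w) := by abel
    rw [← sub_eq_zero, key, sub_eq_zero]; exact h.symm
  have hX2 : ∀ w : Y, h48_opA r (MonoidAlgebra.single τ 1) (h48_opA r (MonoidAlgebra.single τ 1) w)
      + (a τ : R₀) • w =
        h48_TA t (MonoidAlgebra.single τ 1) • h48_opA r (MonoidAlgebra.single τ 1) w := by
    intro w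
    rw [h48_opA_single, one_smul, h48_TA_single, one_mul, ht τ (r τ w), h48_r_inv_apply,
      Nat.cast_smul_eq_nsmul]
  have hfin := h48_gma_scalar hpch htd hcomm e he hT1 hT1' x x' s' hs (MonoidAlgebra.single τ 1)
    (a τ : R₀) hX1 hX2 (r σ y - y)
  rw [hfix σ hσ y, h48_opA_single, one_smul, Nat.cast_smul_eq_nsmul] at hfin
  exact hfin

end split

/-- **Ordinarity from the split hypotheses (primary form).**  In the setting of `h48_ord_Y`,
assume the residual relation `(ρ σ₀ - a σ₀)(ρ σ - 1) = 0` for all `σ ∈ I`, that `Y` is a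
`p`-group, and let `Yns ≤ Y` be a `G`- and `R₀`-stable subgroup with

* `hnew`: no nonzero `p`-torsion `σ₀`-fixed element of `Yns ∩ (I - 1) Y`;
* `hold`: a subgroup `X0 ⊇ Yns + (I - 1) Y` such that every `I`-stable `X' ≤ X0` on which `I`
  acts trivially modulo some `Z ⊇ Yns` lies in `Z`.

Then every `τ ∈ I` acts on `(I - 1) Y` by the scalar `a τ`. -/
theorem h48_ord_Y_split {G : Type} [Group G] {Y : Type} [AddCommGroup Y] [Finite Y]
    {R₀ : Type} [CommRing R₀] [Module R₀ Y]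
    (r : G →* Module.End R₀ Y) (a : G → ℕ) (t : G → R₀)
    (ha1 : ∀ w : Y, a 1 • w = w)
    (hamul : ∀ (g h : G) (w : Y), a (g * h) • w = a g • a h • w)
    (ht : ∀ (g : G) (w : Y), t g • w = r g w + a g • r g⁻¹ w)
    {k : Type} [Field k] [Finite k] (h2 : (2 : k) ≠ 0) (φ : R₀ →+* k)
    (ρ : G →* Matrix (Fin 2) (Fin 2) k)
    (htr : ∀ g, (ρ g).trace = φ (t g)) (hspan : Submodule.span k (Set.range ρ) = ⊤)
    (j : ℕ) (hnil : ∀ c ∈ (Ideal.comap φ (IsLocalRing.maximalIdeal k)) ^ j, ∀ y : Y, c • y = 0)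
    (I : Subgroup G) (σ0 : G) (hσ0 : σ0 ∈ I) (hres1 : φ (t σ0) = 1 + (a σ0 : k))
    (hres2 : (a σ0 : k) ≠ 1)
    (hresI : ∀ σ ∈ I, (ρ σ0 - (a σ0 : k) • (1 : Matrix (Fin 2) (Fin 2) k)) * (ρ σ - 1) = 0)
    (p : ℕ) (hpY : ∃ n : ℕ, ∀ y : Y, p ^ n • y = 0)
    (Yns : AddSubgroup Y) (hnsG : ∀ g : G, ∀ y ∈ Yns, r g y ∈ Yns)
    (hnsR : ∀ b : R₀, ∀ y ∈ Yns, b • y ∈ Yns)
    (hnew : ∀ z ∈ Yns, p • z = 0 → r σ0 z = z →
      z ∈ AddSubgroup.closure {w : Y | ∃ σ ∈ I, ∃ y : Y, w = r σ y - y} → z = 0)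
    (hold : ∃ X0 : AddSubgroup Y, Yns ≤ X0 ∧ (∀ σ ∈ I, ∀ y : Y, r σ y - y ∈ X0) ∧
      ∀ X' Z : AddSubgroup Y, Yns ≤ Z → Z ≤ X' → X' ≤ X0 →
        (∀ σ ∈ I, ∀ v ∈ X', r σ v ∈ X') → (∀ σ ∈ I, ∀ v ∈ X', r σ v - v ∈ Z) → X' ≤ Z) :
    ∀ σ ∈ I, ∀ τ ∈ I, ∀ y : Y, r τ (r σ y - y) = a τ • (r σ y - y) := by
  rcases subsingleton_or_nontrivial Y with hY | hY
  · intro σ _ τ _ y; exact Subsingleton.elim _ _
  obtain ⟨e, x, x', s', m, c, he, hP, hT1, hT1', hs, hn1, hn2, hn3⟩ :=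
    h48_ord_data2 (r := r) ha1 hamul ht h2 φ ρ htr hspan j hnil σ0 hres1 hres2
  obtain ⟨X0, hX0ns, hX0I, hNoTriv⟩ := hold
  refine h48_ord_Y_fix ha1 hamul ht h2 φ ρ htr hspan j hnil I e x x' s' he hT1 hT1' hs ?_
  obtain ⟨D, hDdef⟩ : ∃ D : AddSubgroup Y,
      D = AddSubgroup.closure {w : Y | ∃ σ ∈ I, ∃ y : Y, w = r σ y - y} := ⟨_, rfl⟩
  have hDgen : ∀ σ ∈ I, ∀ y : Y, r σ y - y ∈ D := fun σ hσ y => by
    rw [hDdef]; exact AddSubgroup.subset_closure ⟨σ, hσ, y, rfl⟩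
  have hDI : ∀ τ ∈ I, ∀ w ∈ D, r τ w ∈ D := by
    intro τ hτ w hw
    rw [hDdef] at hw
    induction hw using AddSubgroup.closure_induction with
    | mem w hw =>
      obtain ⟨σ, hσ, y, rfl⟩ := hw
      have h : r τ (r σ y - y) = (r (τ * σ) y - y) - (r τ y - y) := by
        rw [map_sub, h48_r_mul]; abel
      rw [h]; exact D.sub_mem (hDgen _ (I.mul_mem hτ hσ) y) (hDgen τ hτ y)
    | zero => rw [map_zero]; exact D.zero_mem
    | add w₁ w₂ _ _ h₁ h₂ => rw [map_add]; exact D.add_mem h₁ h₂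
    | neg w _ h => rw [map_neg]; exact D.neg_mem h
  have hDR : ∀ b : R₀, ∀ w ∈ D, b • w ∈ D := by
    intro b w hw
    rw [hDdef] at hw
    induction hw using AddSubgroup.closure_induction with
    | mem w hw =>
      obtain ⟨σ, hσ, y, rfl⟩ := hw
      have h : b • (r σ y - y) = r σ (b • y) - b • y := by rw [smul_sub, map_smul]
      rw [h]; exact hDgen σ hσ _
    | zero => rw [smul_zero]; exact D.zero_mem
    | add w₁ w₂ _ _ h₁ h₂ => rw [smul_add]; exact D.add_mem h₁ h₂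
    | neg w _ h => rw [smul_neg]; exact D.neg_mem h
  have hDX0 : D ≤ X0 := by
    rw [hDdef, AddSubgroup.closure_le]
    rintro w ⟨σ, hσ, y, rfl⟩; exact hX0I σ hσ y
  have hPσ : ∀ σ ∈ I, (1 - h48_PsiA φ ρ e) * (ρ σ - 1) = 0 := by
    intro σ hσ
    rw [hn3, Matrix.smul_mul, hresI σ hσ, smul_zero]
  -- the `𝔪`-adic filtration
  obtain ⟨M, hMdef⟩ : ∃ M : ℕ → AddSubgroup Y, M = fun n =>
      ((Ideal.comap φ (IsLocalRing.maximalIdeal k) ^ n • (⊤ : Submodule R₀ Y) :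
        Submodule R₀ Y)).toAddSubgroup := ⟨_, rfl⟩
  have hMmem : ∀ n (y : Y), y ∈ M n ↔
      y ∈ (Ideal.comap φ (IsLocalRing.maximalIdeal k) ^ n • (⊤ : Submodule R₀ Y) :
        Submodule R₀ Y) := by
    intro n y; rw [hMdef]; rfl
  have hMG : ∀ n (g : G), ∀ y ∈ M n, r g y ∈ M n := by
    intro n g y hy
    rw [hMmem] at hy
    refine Submodule.smul_induction_on (p := fun y => r g y ∈ M n) hy ?_ ?_
    · intro b hb y _
      rw [map_smul, hMmem]; exact Submodule.smul_mem_smul hb Submodule.mem_top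
    · intro y₁ y₂ h₁ h₂; rw [map_add]; exact (M n).add_mem h₁ h₂
  have hMR : ∀ n (b : R₀), ∀ y ∈ M n, b • y ∈ M n := by
    intro n b y hy
    rw [hMmem] at hy ⊢
    exact Submodule.smul_mem _ b hy
  have hM𝔪 : ∀ n (b : R₀), φ b = 0 → ∀ y ∈ M n, b • y ∈ M (n + 1) := by
    intro n b hb y hy
    have hb' : b ∈ Ideal.comap φ (IsLocalRing.maximalIdeal k) := by
      rw [Ideal.mem_comap, hb]; exact Ideal.zero_mem _
    rw [hMmem] at hy ⊢
    rw [pow_succ', Submodule.mul_smul]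
    exact Submodule.smul_mem_smul hb' hy
  have hM0 : ∀ y : Y, y ∈ M 0 := by
    intro y
    rw [hMmem, pow_zero, Ideal.one_eq_top, Submodule.top_smul]
    exact Submodule.mem_top
  have hMj : ∀ y ∈ M j, y = 0 := by
    intro y hy
    rw [hMmem] at hy
    refine Submodule.smul_induction_on (p := fun y => y = 0) hy ?_ ?_
    · intro b hb y _; exact hnil b hb y
    · intro y₁ y₂ h₁ h₂; rw [h₁, h₂, add_zero]
  have hVG : ∀ n (g : G), ∀ y ∈ Yns ⊔ M n, r g y ∈ Yns ⊔ M n := by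
    intro n g y hy
    obtain ⟨y₁, h₁, y₂, h₂, rfl⟩ := AddSubgroup.mem_sup.mp hy
    rw [map_add]
    exact AddSubgroup.mem_sup.mpr ⟨_, hnsG g _ h₁, _, hMG n g _ h₂, rfl⟩
  have hVR : ∀ n (b : R₀), ∀ y ∈ Yns ⊔ M n, b • y ∈ Yns ⊔ M n := by
    intro n b y hy
    obtain ⟨y₁, h₁, y₂, h₂, rfl⟩ := AddSubgroup.mem_sup.mp hy
    rw [smul_add]
    exact AddSubgroup.mem_sup.mpr ⟨_, hnsR b _ h₁, _, hMR n b _ h₂, rfl⟩
  have hVΓ : ∀ n (z : MonoidAlgebra R₀ G), ∀ y ∈ Yns ⊔ M n, h48_opA r z y ∈ Yns ⊔ M n :=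
    fun n z y hy => h48_opA_mem _ (hVG n) (hVR n) z y hy
  have hV𝔪 : ∀ n (b : R₀), φ b = 0 → ∀ w ∈ Yns ⊔ M n, b • w ∈ Yns ⊔ M (n + 1) := by
    intro n b hb w hw
    obtain ⟨y₁, h₁, y₂, h₂, rfl⟩ := AddSubgroup.mem_sup.mp hw
    rw [smul_add]
    exact AddSubgroup.mem_sup.mpr ⟨_, hnsR b _ h₁, _, hM𝔪 n b hb _ h₂, rfl⟩
  have hee : ∀ w : Y, h48_opA r e (h48_opA r e w) = h48_opA r e w := fun w => by
    rw [← Module.End.mul_apply, he]
  have hsplit : ∀ w : Y, h48_opA r (1 - e) w + h48_opA r e w = w := by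
    intro w
    rw [map_sub, map_one, LinearMap.sub_apply, Module.End.one_apply]; abel
  -- the chain argument: `D ∩ ker e ⊆ Yns + 𝔪^n Y` for all `n`
  have hchain : ∀ n : ℕ, ∀ z ∈ D, h48_opA r e z = 0 → z ∈ Yns ⊔ M n := by
    intro n
    induction n with
    | zero => intro z _ _; exact AddSubgroup.mem_sup_right (hM0 z)
    | succ n ih =>
      intro z hzD hz0
      have hzV := ih z hzD hz0
      have hst : ∀ σ ∈ I, ∀ v ∈ (D ⊔ Yns) ⊓ (Yns ⊔ M n), r σ v ∈ (D ⊔ Yns) ⊓ (Yns ⊔ M n) := by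
        intro σ hσ v hv
        refine AddSubgroup.mem_inf.mpr ⟨?_, hVG n σ v (AddSubgroup.mem_inf.mp hv).2⟩
        obtain ⟨v₁, h₁, v₂, h₂, rfl⟩ := AddSubgroup.mem_sup.mp (AddSubgroup.mem_inf.mp hv).1
        rw [map_add]
        exact AddSubgroup.mem_sup.mpr ⟨_, hDI σ hσ _ h₁, _, hnsG σ _ h₂, rfl⟩
      have hle := hNoTriv ((D ⊔ Yns) ⊓ (Yns ⊔ M n))
        (((Yns ⊔ M (n + 1)) ⊔ (Yns ⊔ M n).map (h48_opA r e).toAddMonoidHom) ⊓
          ((D ⊔ Yns) ⊓ (Yns ⊔ M n)))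
        (le_inf (le_sup_left.trans le_sup_left) (le_inf le_sup_right le_sup_left))
        inf_le_right
        (inf_le_left.trans (sup_le hDX0 hX0ns))
        hst
        (fun σ hσ v hv => by
          have hvV := (AddSubgroup.mem_inf.mp hv).2
          have h1 := h48_rel_triv ha1 hamul ht h2 φ ρ htr hspan j hnil e x x' s' he hP hT1 hT1'
            hs σ (hPσ σ hσ) (Yns ⊔ M (n + 1)) (Yns ⊔ M n) (hVΓ (n + 1)) (hVR (n + 1)) (hVΓ n)
            (hV𝔪 n) v hvV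
          have h2' : h48_opA r e (r σ v - v) ∈
              (Yns ⊔ M n).map (h48_opA r e).toAddMonoidHom :=
            ⟨r σ v - v, (Yns ⊔ M n).sub_mem (hVG n σ v hvV) hvV, rfl⟩
          exact AddSubgroup.mem_inf.mpr ⟨AddSubgroup.mem_sup.mpr ⟨_, h1, _, h2', hsplit _⟩,
            AddSubgroup.sub_mem _ (hst σ hσ v hv) hv⟩)
      obtain ⟨v₁, hv₁, v₂, hv₂, hsum⟩ := AddSubgroup.mem_sup.mp (AddSubgroup.mem_inf.mp
        (hle (AddSubgroup.mem_inf.mpr ⟨AddSubgroup.mem_sup_left hzD, hzV⟩))).1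
      obtain ⟨w, hw, rfl⟩ := hv₂
      have h3 := hsplit z
      rw [hz0, add_zero] at h3
      have h4 : h48_opA r (1 - e) (h48_opA r e w) = 0 := by
        have h := hsplit (h48_opA r e w)
        rw [hee] at h
        exact add_eq_right.mp h
      have hz1 : z = h48_opA r (1 - e) v₁ :=
        calc z = h48_opA r (1 - e) z := h3.symm
          _ = h48_opA r (1 - e) (v₁ + h48_opA r e w) := by rw [← hsum]; rfl
          _ = h48_opA r (1 - e) v₁ := by rw [map_add, h4, add_zero]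
      rw [hz1]; exact hVΓ (n + 1) (1 - e) v₁ hv₁
  -- `D ∩ ker e = 0`
  have hD0 : ∀ z ∈ D, h48_opA r e z = 0 → z = 0 := by
    intro z hzD hz0
    have hzN : z ∈ Yns := by
      obtain ⟨y₁, h₁, y₂, h₂, rfl⟩ := AddSubgroup.mem_sup.mp (hchain j z hzD hz0)
      rw [hMj y₂ h₂, add_zero]; exact h₁
    by_contra hne
    obtain ⟨n, hn⟩ := hpY
    obtain ⟨i, hi1, hi2⟩ : ∃ i : ℕ, p ^ i • z ≠ 0 ∧ p • (p ^ i • z) = 0 := by
      have hind : ∀ n : ℕ, p ^ n • z = 0 → ∃ i : ℕ, p ^ i • z ≠ 0 ∧ p • (p ^ i • z) = 0 := by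
        intro n
        induction n with
        | zero => intro h; rw [pow_zero, one_smul] at h; exact absurd h hne
        | succ n ih =>
          intro h
          by_cases h' : p ^ n • z = 0
          · exact ih h'
          · exact ⟨n, h', by rw [← mul_smul, ← pow_succ']; exact h⟩
      exact hind n (hn z)
    have hz1D : p ^ i • z ∈ D := D.nsmul_mem hzD _
    have hz1N : p ^ i • z ∈ Yns := Yns.nsmul_mem hzN _
    have hz10 : h48_opA r e (p ^ i • z) = 0 := by rw [map_nsmul, hz0, smul_zero]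
    have hnil1 := hn1 _ hz10
    obtain ⟨i', hi'1, hi'2⟩ : ∃ i' : ℕ, ((r σ0 - 1) ^ i') (p ^ i • z) ≠ 0 ∧
        (r σ0 - 1) (((r σ0 - 1) ^ i') (p ^ i • z)) = 0 := by
      have hind : ∀ n : ℕ, ((r σ0 - 1) ^ n) (p ^ i • z) = 0 →
          ∃ i' : ℕ, ((r σ0 - 1) ^ i') (p ^ i • z) ≠ 0 ∧
            (r σ0 - 1) (((r σ0 - 1) ^ i') (p ^ i • z)) = 0 := by
        intro n
        induction n with
        | zero => intro h; rw [pow_zero, Module.End.one_apply] at h; exact absurd h hi1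
        | succ n ih =>
          intro h
          by_cases h' : ((r σ0 - 1) ^ n) (p ^ i • z) = 0
          · exact ih h'
          · exact ⟨n, h', by rw [← Module.End.mul_apply, ← pow_succ']; exact h⟩
      exact hind m hnil1
    have hstab : ∀ (N : AddSubgroup Y), (∀ y ∈ N, r σ0 y ∈ N) → ∀ n : ℕ, ∀ y ∈ N,
        ((r σ0 - 1) ^ n) y ∈ N := by
      intro N hN n
      induction n with
      | zero => intro y hy; rw [pow_zero, Module.End.one_apply]; exact hy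
      | succ n ih =>
        intro y hy
        rw [pow_succ', Module.End.mul_apply, LinearMap.sub_apply, Module.End.one_apply]
        exact N.sub_mem (hN _ (ih y hy)) (ih y hy)
    have hz2N := hstab Yns (hnsG σ0) i' _ hz1N
    have hz2D := hstab D (hDI σ0 hσ0) i' _ hz1D
    have hz2p : p • ((r σ0 - 1) ^ i') (p ^ i • z) = 0 := by
      rw [← map_nsmul, hi2, map_zero]
    have hz2σ : r σ0 (((r σ0 - 1) ^ i') (p ^ i • z)) = ((r σ0 - 1) ^ i') (p ^ i • z) := by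
      rw [LinearMap.sub_apply, Module.End.one_apply, sub_eq_zero] at hi'2; exact hi'2
    exact hi'1 (hnew _ hz2N hz2p hz2σ (by rw [← hDdef]; exact hz2D))
  intro σ hσ y
  have hw := hDgen σ hσ y
  have hew : h48_opA r e (r σ y - y) ∈ D := hn2 D (hDI σ0 hσ0) hDR _ hw
  have h0 := hD0 (r σ y - y - h48_opA r e (r σ y - y)) (D.sub_mem hw hew)
    (by rw [map_sub, hee, sub_self])
  exact (sub_eq_zero.mp h0).symm

/-- From the primary form to matrices: if every `τ ∈ I` acts on `(I - 1) Y` by `a τ` on the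
`𝔪`-primary part `Y` of `W`, then `(ρ τ - a τ)(ρ σ - 1) = 0`. -/
theorem h48_core_of_tors {G : Type} [Group G] {W : Type} [AddCommGroup W]
    {R₀ : Type} [CommRing R₀] [Module R₀ W]
    (r : G →* Module.End R₀ W) (a : G → ℕ) (t : G → R₀)
    (ha1 : ∀ w : W, a 1 • w = w)
    (hamul : ∀ (g h : G) (w : W), a (g * h) • w = a g • a h • w)
    (ht : ∀ (g : G) (w : W), t g • w = r g w + a g • r g⁻¹ w)
    {A : Type} [CommRing A] [IsLocalRing A] [Finite A] (h2 : IsUnit (2 : A))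
    (φ₀ : R₀ →+* A) (hφ : ∀ c : R₀, (∀ w : W, c • w = 0) → φ₀ c = 0)
    (ρ : G →* Matrix (Fin 2) (Fin 2) A) (htr : ∀ g, (ρ g).trace = φ₀ (t g))
    (hspan : Submodule.span A (Set.range ρ) = ⊤)
    (I : Subgroup G) (j : ℕ) (e : R₀) (he : e ∈ Ideal.comap φ₀ (IsLocalRing.maximalIdeal A))
    (hje : ∀ (w : W), ∀ c ∈ (Ideal.comap φ₀ (IsLocalRing.maximalIdeal A)) ^ j,
      c • ((1 - e) • w) = 0)
    (key : ∀ σ ∈ I, ∀ τ ∈ I, ∀ w : W,
      (∀ c ∈ (Ideal.comap φ₀ (IsLocalRing.maximalIdeal A)) ^ j, c • w = 0) →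
        r τ (r σ w - w) = a τ • (r σ w - w)) :
    ∀ σ ∈ I, ∀ τ ∈ I, (ρ τ - (a τ : A) • (1 : Matrix (Fin 2) (Fin 2) A)) * (ρ σ - 1) = 0 := by
  intro σ hσ τ hτ
  have hx : ∀ w : W, (∀ c ∈ (Ideal.comap φ₀ (IsLocalRing.maximalIdeal A)) ^ j, c • w = 0) →
      h48_op r (Finsupp.single (τ * σ) 1 - Finsupp.single τ 1 - Finsupp.single σ (a τ : R₀) +
        Finsupp.single 1 (a τ : R₀)) w = 0 := by
    intro w hw
    have h := key σ hσ τ hτ w hw
    simp only [map_add, map_sub, h48_op_single, LinearMap.add_apply, LinearMap.sub_apply,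
      LinearMap.smul_apply, one_smul, map_mul, Module.End.mul_apply, map_one,
      Module.End.one_apply, Nat.cast_smul_eq_nsmul]
    rw [map_sub, smul_sub] at h
    have key2 : r τ (r σ w) - r τ w - a τ • r σ w + a τ • w =
        (r τ (r σ w) - r τ w) - (a τ • r σ w - a τ • w) := by abel
    rw [key2, h, sub_self]
  have hPsi := h48_kernel ha1 hamul ht h2 φ₀ hφ ρ htr hspan j e he hje _ hx
  simp only [map_add, map_sub, h48_Psi_single, map_one, one_smul, map_natCast, map_mul] at hPsi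
  rw [← hPsi]
  simp only [sub_mul, mul_sub, mul_one, Matrix.smul_mul, one_mul]
  abel

/-- **Ordinarity from the split hypotheses (Artinian coefficient form).** -/
theorem h48_ord_core_split {G : Type} [Group G] {W : Type} [AddCommGroup W] [Finite W]
    {R₀ : Type} [CommRing R₀] [Module R₀ W]
    (r : G →* Module.End R₀ W) (a : G → ℕ) (t : G → R₀)
    (ha1 : ∀ w : W, a 1 • w = w)
    (hamul : ∀ (g h : G) (w : W), a (g * h) • w = a g • a h • w)
    (ht : ∀ (g : G) (w : W), t g • w = r g w + a g • r g⁻¹ w)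
    {A : Type} [CommRing A] [IsLocalRing A] [Finite A] (h2 : IsUnit (2 : A))
    (φ₀ : R₀ →+* A) (hφ : ∀ c : R₀, (∀ w : W, c • w = 0) → φ₀ c = 0)
    (ρ : G →* Matrix (Fin 2) (Fin 2) A) (htr : ∀ g, (ρ g).trace = φ₀ (t g))
    (hspan : Submodule.span A (Set.range ρ) = ⊤)
    (I : Subgroup G) (σ0 : G) (hσ0 : σ0 ∈ I)
    (hres1 : φ₀ (t σ0) - (1 + (a σ0 : A)) ∈ IsLocalRing.maximalIdeal A)
    (hres2 : IsUnit ((a σ0 : A) - 1))
    (hresI : ∀ σ ∈ I, ∀ i j, ((ρ σ0 - (a σ0 : A) • (1 : Matrix (Fin 2) (Fin 2) A)) *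
      (ρ σ - 1)) i j ∈ IsLocalRing.maximalIdeal A)
    (p : ℕ) (hpW : ∃ n : ℕ, ∀ w : W, p ^ n • w = 0)
    (Yns : AddSubgroup W)
    (hnsP : ∀ z ∈ Yns, ∃ j, ∀ c ∈ (Ideal.comap φ₀ (IsLocalRing.maximalIdeal A)) ^ j, c • z = 0)
    (hnsG : ∀ g : G, ∀ y ∈ Yns, r g y ∈ Yns) (hnsR : ∀ b : R₀, ∀ y ∈ Yns, b • y ∈ Yns)
    (hnew : ∀ z ∈ Yns, p • z = 0 → r σ0 z = z →
      z ∈ AddSubgroup.closure {w : W | ∃ σ ∈ I, ∃ y : W,
        (∃ j, ∀ c ∈ (Ideal.comap φ₀ (IsLocalRing.maximalIdeal A)) ^ j, c • y = 0) ∧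
          w = r σ y - y} → z = 0)
    (hold : ∃ X0 : AddSubgroup W, Yns ≤ X0 ∧
      (∀ σ ∈ I, ∀ y : W,
        (∃ j, ∀ c ∈ (Ideal.comap φ₀ (IsLocalRing.maximalIdeal A)) ^ j, c • y = 0) →
          r σ y - y ∈ X0) ∧
      ∀ X' Z : AddSubgroup W, Yns ≤ Z → Z ≤ X' → X' ≤ X0 →
        (∀ σ ∈ I, ∀ v ∈ X', r σ v ∈ X') → (∀ σ ∈ I, ∀ v ∈ X', r σ v - v ∈ Z) → X' ≤ Z) :
    ∀ σ ∈ I, ∀ τ ∈ I, (ρ τ - (a τ : A) • (1 : Matrix (Fin 2) (Fin 2) A)) * (ρ σ - 1) = 0 := by
  classical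
  obtain ⟨j, e, he, hje⟩ := h48_localise (W := W) (Ideal.comap φ₀ (IsLocalRing.maximalIdeal A))
  refine h48_core_of_tors r a t ha1 hamul ht h2 φ₀ hφ ρ htr hspan I j e he hje ?_
  generalize h𝔪 : Ideal.comap φ₀ (IsLocalRing.maximalIdeal A) = 𝔪 at hnsP hnew hold he hje ⊢
  have hcomap : Ideal.comap ((IsLocalRing.residue A).comp φ₀)
      (IsLocalRing.maximalIdeal (IsLocalRing.ResidueField A)) = 𝔪 := by
    rw [h48_comap_res, h𝔪]
  have h2k : (2 : IsLocalRing.ResidueField A) ≠ 0 := by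
    have h := h2.map (IsLocalRing.residue A)
    rw [map_ofNat] at h
    exact h.ne_zero
  have hfin : Finite (IsLocalRing.ResidueField A) :=
    Finite.of_surjective _ IsLocalRing.residue_surjective
  have hr1 : ((IsLocalRing.residue A).comp φ₀) (t σ0) =
      1 + (a σ0 : IsLocalRing.ResidueField A) := by
    have h := (IsLocalRing.residue_eq_zero_iff _).mpr hres1
    rw [map_sub, map_add, map_one, map_natCast, sub_eq_zero] at h
    exact h
  have hr2 : (a σ0 : IsLocalRing.ResidueField A) ≠ 1 := by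
    have h := (hres2.map (IsLocalRing.residue A)).ne_zero
    rw [map_sub, map_natCast, map_one] at h
    exact sub_ne_zero.mp h
  have hrI : ∀ σ ∈ I, (h48_rhobar ρ σ0 - (a σ0 : IsLocalRing.ResidueField A) •
      (1 : Matrix (Fin 2) (Fin 2) (IsLocalRing.ResidueField A))) * (h48_rhobar ρ σ - 1) = 0 := by
    intro σ hσ
    have hM : (IsLocalRing.residue A).mapMatrix
        ((ρ σ0 - (a σ0 : A) • (1 : Matrix (Fin 2) (Fin 2) A)) * (ρ σ - 1)) = 0 := by
      ext i j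
      exact (IsLocalRing.residue_eq_zero_iff _).mpr (hresI σ hσ i j)
    rw [map_mul, map_sub, map_sub, map_one, Nat.cast_smul_eq_nsmul, map_nsmul, map_one] at hM
    rw [Nat.cast_smul_eq_nsmul]
    exact hM
  obtain ⟨X0, hX0ns, hX0I, hNoTriv⟩ := hold
  obtain ⟨n, hn⟩ := hpW
  have hY : ∀ z : W, (∃ j', ∀ c ∈ 𝔪 ^ j', c • z = 0) → z ∈ h48_tors (W := W) 𝔪 j :=
    fun z ⟨j', hz⟩ => h48_tors_stab 𝔪 j e he hje j' z hz
  have key := h48_ord_Y_split (h48_rY r 𝔪 j) a t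
    (fun y => Subtype.ext (ha1 y.1)) (fun g h y => Subtype.ext (hamul g h y.1))
    (fun g y => Subtype.ext (ht g y.1)) h2k ((IsLocalRing.residue A).comp φ₀) (h48_rhobar ρ)
    (fun g => by rw [h48_rhobar_trace, htr]; rfl) (h48_rhobar_span ρ hspan) j
    (fun c hc y => Subtype.ext (y.2 c (by rwa [hcomap] at hc))) I σ0 hσ0 hr1 hr2 hrI p
    ⟨n, fun y => Subtype.ext (hn y.1)⟩
    (Yns.comap (h48_tors (W := W) 𝔪 j).subtype.toAddMonoidHom)
    (fun g y hy => hnsG g y.1 hy) (fun b y hy => hnsR b y.1 hy)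
    (fun z hz hpz hσz hzD => by
      refine Subtype.ext (hnew z.1 hz (congrArg Subtype.val hpz) (congrArg Subtype.val hσz) ?_)
      have hle : (AddSubgroup.closure {w : h48_tors (W := W) 𝔪 j | ∃ σ ∈ I,
          ∃ y : h48_tors (W := W) 𝔪 j, w = h48_rY r 𝔪 j σ y - y}).map
            (h48_tors (W := W) 𝔪 j).subtype.toAddMonoidHom ≤
          AddSubgroup.closure {w : W | ∃ σ ∈ I, ∃ y : W,
            (∃ j, ∀ c ∈ 𝔪 ^ j, c • y = 0) ∧ w = r σ y - y} := by
        rw [AddMonoidHom.map_closure]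
        apply AddSubgroup.closure_mono
        rintro _ ⟨w, ⟨σ, hσ, y, rfl⟩, rfl⟩
        exact ⟨σ, hσ, y.1, ⟨j, y.2⟩, rfl⟩
      exact hle ⟨z, hzD, rfl⟩)
    ⟨X0.comap (h48_tors (W := W) 𝔪 j).subtype.toAddMonoidHom,
      AddSubgroup.comap_mono hX0ns, fun σ hσ y => hX0I σ hσ y.1 ⟨j, y.2⟩,
      fun X' Z hZ hZX hX hst htriv => by
        have hmap := hNoTriv (X'.map (h48_tors (W := W) 𝔪 j).subtype.toAddMonoidHom)
          (Z.map (h48_tors (W := W) 𝔪 j).subtype.toAddMonoidHom)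
          (fun z hz => ⟨⟨z, hY z (hnsP z hz)⟩, hZ hz, rfl⟩)
          (AddSubgroup.map_mono hZX)
          (AddSubgroup.map_le_iff_le_comap.mpr hX)
          (by
            rintro σ hσ _ ⟨v, hv, rfl⟩
            exact ⟨h48_rY r 𝔪 j σ v, hst σ hσ v hv, rfl⟩)
          (by
            rintro σ hσ _ ⟨v, hv, rfl⟩
            exact ⟨h48_rY r 𝔪 j σ v - v, htriv σ hσ v hv, rfl⟩)
        intro v hv
        obtain ⟨z, hz, hzv⟩ := hmap ⟨v, hv, rfl⟩
        have hzv' : z = v := Subtype.ext hzv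
        rw [← hzv']; exact hz⟩
  intro σ hσ τ hτ w hw
  exact congrArg Subtype.val (key σ hσ τ hτ ⟨w, hw⟩)

/-- **Ordinarity from the split hypotheses, kernel form** (`act : R0 →+* AddMonoid.End W`). -/
theorem h48_ordcore_ker_split {G : Type} [Group G] {W : Type} [AddCommGroup W] [Finite W]
    (r : G →* AddMonoid.End W) {R0 : Type} [CommRing R0] (act : R0 →+* AddMonoid.End W)
    (hcomm : ∀ (c : R0) (g : G) (w : W), act c (r g w) = r g (act c w)) (a : G → ℕ)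
    (ha1 : ∀ w : W, a 1 • w = w)
    (hamul : ∀ (g h : G) (w : W), a (g * h) • w = a g • a h • w) (t : G → R0)
    (ht : ∀ (g : G) (w : W), act (t g) w = r g w + a g • r g⁻¹ w)
    {A : Type} [CommRing A] [IsLocalRing A]
    [Finite A] (h2 : IsUnit (2 : A)) (φ0 : R0 →+* A) (hker : ∀ c, act c = 0 → φ0 c = 0)
    (ρ : G →* Matrix (Fin 2) (Fin 2) A) (htr : ∀ g, (ρ g).trace = φ0 (t g))
    (hspan : Submodule.span A (Set.range ρ) = ⊤)
    (I : Subgroup G) (σ0 : G) (hσ0 : σ0 ∈ I)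
    (hres1 : φ0 (t σ0) - (1 + (a σ0 : A)) ∈ IsLocalRing.maximalIdeal A)
    (hres2 : IsUnit ((a σ0 : A) - 1))
    (hresI : ∀ σ ∈ I, ∀ i j, ((ρ σ0 - (a σ0 : A) • (1 : Matrix (Fin 2) (Fin 2) A)) *
      (ρ σ - 1)) i j ∈ IsLocalRing.maximalIdeal A)
    (p : ℕ) (hpW : ∃ n : ℕ, ∀ w : W, p ^ n • w = 0)
    (Yns : AddSubgroup W)
    (hnsP : ∀ z ∈ Yns, ∃ j, ∀ c ∈ (Ideal.comap φ0 (IsLocalRing.maximalIdeal A)) ^ j,
      act c z = 0)
    (hnsG : ∀ g : G, ∀ y ∈ Yns, r g y ∈ Yns) (hnsR : ∀ b : R0, ∀ y ∈ Yns, act b y ∈ Yns)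
    (hnew : ∀ z ∈ Yns, p • z = 0 → r σ0 z = z →
      z ∈ AddSubgroup.closure {w : W | ∃ σ ∈ I, ∃ y : W,
        (∃ j, ∀ c ∈ (Ideal.comap φ0 (IsLocalRing.maximalIdeal A)) ^ j, act c y = 0) ∧
          w = r σ y - y} → z = 0)
    (hold : ∃ X0 : AddSubgroup W, Yns ≤ X0 ∧
      (∀ σ ∈ I, ∀ y : W,
        (∃ j, ∀ c ∈ (Ideal.comap φ0 (IsLocalRing.maximalIdeal A)) ^ j, act c y = 0) →
          r σ y - y ∈ X0) ∧
      ∀ X' Z : AddSubgroup W, Yns ≤ Z → Z ≤ X' → X' ≤ X0 →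
        (∀ σ ∈ I, ∀ v ∈ X', r σ v ∈ X') → (∀ σ ∈ I, ∀ v ∈ X', r σ v - v ∈ Z) → X' ≤ Z) :
    ∀ σ ∈ I, ∀ τ ∈ I, (ρ τ - (a τ : A) • (1 : Matrix (Fin 2) (Fin 2) A)) * (ρ σ - 1) = 0 := by
  letI : Module R0 W := Module.compHom W act
  have hsm : ∀ (c : R0) (w : W), c • w = act c w := fun c w => rfl
  let r' : G →* Module.End R0 W :=
    { toFun := fun g =>
        { toFun := fun w => r g w
          map_add' := fun x y => map_add (r g) x y
          map_smul' := fun c w => by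
            show r g (c • w) = c • r g w
            rw [hsm, hsm, hcomm] }
      map_one' := by
        refine LinearMap.ext fun w => ?_
        show r 1 w = w
        rw [map_one]; rfl
      map_mul' := fun g h => by
        refine LinearMap.ext fun w => ?_
        show r (g * h) w = r g (r h w)
        rw [map_mul]; rfl }
  have hr' : ∀ g w, r' g w = r g w := fun g w => rfl
  exact h48_ord_core_split r' a t ha1 hamul
    (fun g w => by rw [hsm, hr', hr']; exact ht g w) h2 φ0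
    (fun c hc => hker c (AddMonoidHom.ext fun w => hc w)) ρ htr hspan I σ0 hσ0 hres1 hres2
    hresI p hpW Yns hnsP hnsG hnsR hnew hold

end Fermat.Agent.S33
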