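import Fermat.Agent.S33.h48_OrdCore

/-!
# S33, algebra core (helper48): ordinarity from a count, Artinian coefficient form

`h48_ord_core`: in the setting of `Fermat.Agent.S32.h48_ch_core` (finite Galois module `W` with
Eichler–Shimura operators, finite local coefficient ring `A`, representation `ρ : G → GL₂(A)`
with `tr ρ = φ₀ ∘ t` spanning `M₂(A)`), let `I ≤ G` contain `σ₀` with
`tr ρ(σ₀) ≡ 1 + a(σ₀)`, `a(σ₀) ≢ 1` modulo the maximal ideal.  If a subgroup `Z` of `W` contains
`(I - 1) Y` for the `𝔪`-primary part `Y` of `W` and `|Z|² ≤ |Y|`, then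
`(ρ τ - a τ) (ρ σ - 1) = 0` for all `σ, τ ∈ I`.
-/

set_option autoImplicit false
set_option linter.unusedSimpArgs false
set_option linter.unusedVariables false
set_option linter.unusedSectionVars false
set_option linter.style.haveILetI false

namespace Fermat.Agent.S33

open Fermat.Agent.S32 Matrix

section wrap

variable {W : Type} [AddCommGroup W] {R₀ : Type} [CommRing R₀] [Module R₀ W]

/-- The `𝔪^j`-torsion submodule. -/
def h48_tors (𝔪 : Ideal R₀) (j : ℕ) : Submodule R₀ W where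
  carrier := {w | ∀ c ∈ 𝔪 ^ j, c • w = 0}
  add_mem' := fun {x y} hx hy c hc => by rw [smul_add, hx c hc, hy c hc, add_zero]
  zero_mem' := fun c _ => smul_zero c
  smul_mem' := fun b x hx c hc => by rw [smul_comm, hx c hc, smul_zero]

theorem h48_mem_tors (𝔪 : Ideal R₀) (j : ℕ) (w : W) :
    w ∈ h48_tors (W := W) 𝔪 j ↔ ∀ c ∈ 𝔪 ^ j, c • w = 0 := Iff.rfl

/-- The torsion stabilises at the exponent produced by `h48_localise`. -/
theorem h48_tors_stab (𝔪 : Ideal R₀) (j : ℕ) (e : R₀) (he : e ∈ 𝔪)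
    (hje : ∀ (w : W), ∀ c ∈ 𝔪 ^ j, c • ((1 - e) • w) = 0) (j' : ℕ) (w : W)
    (hw : ∀ c ∈ 𝔪 ^ j', c • w = 0) : w ∈ h48_tors (W := W) 𝔪 j := by
  intro c hc
  have h1 : e ^ j' • w = 0 := hw _ (Ideal.pow_mem_pow he j')
  have h2 : w = (∑ i ∈ Finset.range j', e ^ i) • (1 - e) • w := by
    rw [← mul_smul, geom_sum_mul_neg, sub_smul, one_smul, h1, sub_zero]
  rw [h2, smul_comm, hje w c hc, smul_zero]

/-- The action restricted to the torsion submodule. -/
def h48_rY {G : Type} [Group G] (r : G →* Module.End R₀ W) (𝔪 : Ideal R₀) (j : ℕ) :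
    G →* Module.End R₀ (h48_tors (W := W) 𝔪 j) where
  toFun g := (r g).restrict (fun w hw c hc => by rw [← map_smul, hw c hc, map_zero])
  map_one' := by
    refine LinearMap.ext fun w => Subtype.ext ?_
    show r 1 w.1 = w.1
    rw [map_one]; rfl
  map_mul' g h := by
    refine LinearMap.ext fun w => Subtype.ext ?_
    show r (g * h) w.1 = r g (r h w.1)
    rw [map_mul]; rfl

theorem h48_rY_coe {G : Type} [Group G] (r : G →* Module.End R₀ W) (𝔪 : Ideal R₀) (j : ℕ)
    (g : G) (y : h48_tors (W := W) 𝔪 j) : ((h48_rY r 𝔪 j g y : h48_tors (W := W) 𝔪 j) : W) =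
      r g y.1 := rfl

end wrap

section residue

variable {R₀ : Type} [CommRing R₀] {A : Type} [CommRing A] [IsLocalRing A]

theorem h48_comap_res (φ₀ : R₀ →+* A) :
    Ideal.comap ((IsLocalRing.residue A).comp φ₀)
      (IsLocalRing.maximalIdeal (IsLocalRing.ResidueField A)) =
      Ideal.comap φ₀ (IsLocalRing.maximalIdeal A) := by
  ext c
  rw [Ideal.mem_comap, Ideal.mem_comap, IsLocalRing.maximalIdeal_eq_bot, Ideal.mem_bot,
    RingHom.comp_apply, IsLocalRing.residue_eq_zero_iff]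

variable {G : Type} [Group G]

/-- The residual representation. -/
noncomputable def h48_rhobar (ρ : G →* Matrix (Fin 2) (Fin 2) A) :
    G →* Matrix (Fin 2) (Fin 2) (IsLocalRing.ResidueField A) :=
  ((IsLocalRing.residue A).mapMatrix.toMonoidHom).comp ρ

theorem h48_rhobar_apply (ρ : G →* Matrix (Fin 2) (Fin 2) A) (g : G) :
    h48_rhobar ρ g = (ρ g).map (IsLocalRing.residue A) := rfl

theorem h48_rhobar_trace (ρ : G →* Matrix (Fin 2) (Fin 2) A) (g : G) :
    (h48_rhobar ρ g).trace = IsLocalRing.residue A ((ρ g).trace) := by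
  rw [h48_rhobar_apply, Matrix.trace_fin_two, Matrix.trace_fin_two, map_add]
  rfl

theorem h48_rhobar_span (ρ : G →* Matrix (Fin 2) (Fin 2) A)
    (hspan : Submodule.span A (Set.range ρ) = ⊤) :
    Submodule.span (IsLocalRing.ResidueField A) (Set.range (h48_rhobar ρ)) = ⊤ := by
  rw [eq_top_iff]
  intro M _
  have hall : ∀ X : Matrix (Fin 2) (Fin 2) A, X.map (IsLocalRing.residue A) ∈
      Submodule.span (IsLocalRing.ResidueField A) (Set.range (h48_rhobar ρ)) := by
    intro X
    refine h48_span_ind hspan (fun X => X.map (IsLocalRing.residue A) ∈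
      Submodule.span (IsLocalRing.ResidueField A) (Set.range (h48_rhobar ρ))) ?_ ?_ ?_ ?_ X
    · rw [Matrix.map_zero _ (map_zero _)]; exact Submodule.zero_mem _
    · intro X Y hX hY
      rw [Matrix.map_add _ (map_add _)]; exact Submodule.add_mem _ hX hY
    · intro c X hX
      have h : (c • X).map (IsLocalRing.residue A) =
          IsLocalRing.residue A c • X.map (IsLocalRing.residue A) := by
        ext i j; simp
      rw [h]; exact Submodule.smul_mem _ _ hX
    · intro g; exact Submodule.subset_span ⟨g, rfl⟩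
  have hM : M = (M.map (Function.surjInv IsLocalRing.residue_surjective)).map
      (IsLocalRing.residue A) := by
    ext i j; simp [Function.surjInv_eq]
  rw [hM]; exact hall _

end residue

/-- **Ordinarity from a count (Artinian coefficient form).** -/
theorem h48_ord_core {G : Type} [Group G] {W : Type} [AddCommGroup W] [Finite W]
    {R₀ : Type} [CommRing R₀] [Module R₀ W]
    (r : G →* Module.End R₀ W) (a : G → ℕ) (t : G → R₀)
    (ha1 : ∀ w : W, a 1 • w = w)
    (hamul : ∀ (g h : G) (w : W), a (g * h) • w = a g • a h • w)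
    (ht : ∀ (g : G) (w : W), t g • w = r g w + a g • r g⁻¹ w)
    {A : Type} [CommRing A] [IsLocalRing A] [Finite A] (h2 : IsUnit (2 : A))
    (φ₀ : R₀ →+* A) (hφ : ∀ c : R₀, (∀ w : W, c • w = 0) → φ₀ c = 0)
    (ρ : G →* Matrix (Fin 2) (Fin 2) A) (htr : ∀ g, (ρ g).trace = φ₀ (t g))
    (hspan : Submodule.span A (Set.range ρ) = ⊤)
    (I : Subgroup G) (σ0 : G) (hσ0 : σ0 ∈ I)
    (hres1 : φ₀ (t σ0) - (1 + (a σ0 : A)) ∈ IsLocalRing.maximalIdeal A)
    (hres2 : IsUnit ((a σ0 : A) - 1))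
    (Z : AddSubgroup W)
    (hZ : ∀ σ ∈ I, ∀ w : W,
      (∃ j, ∀ c ∈ (Ideal.comap φ₀ (IsLocalRing.maximalIdeal A)) ^ j, c • w = 0) → r σ w - w ∈ Z)
    (hcard : Nat.card Z ^ 2 ≤ Nat.card {w : W //
      ∃ j, ∀ c ∈ (Ideal.comap φ₀ (IsLocalRing.maximalIdeal A)) ^ j, c • w = 0}) :
    ∀ σ ∈ I, ∀ τ ∈ I, (ρ τ - (a τ : A) • (1 : Matrix (Fin 2) (Fin 2) A)) * (ρ σ - 1) = 0 := by
  classical
  obtain ⟨j, e, he, hje⟩ := h48_localise (W := W) (Ideal.comap φ₀ (IsLocalRing.maximalIdeal A))
  generalize h𝔪 : Ideal.comap φ₀ (IsLocalRing.maximalIdeal A) = 𝔪 at hZ hcard he hje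
  have hcomap : Ideal.comap ((IsLocalRing.residue A).comp φ₀)
      (IsLocalRing.maximalIdeal (IsLocalRing.ResidueField A)) = 𝔪 := by
    rw [h48_comap_res, h𝔪]
  have h2k : (2 : IsLocalRing.ResidueField A) ≠ 0 := by
    have h := h2.map (IsLocalRing.residue A)
    rw [map_ofNat] at h
    exact h.ne_zero
  have hfin : Finite (IsLocalRing.ResidueField A) :=
    Finite.of_surjective _ IsLocalRing.residue_surjective
  have hr1 : ((IsLocalRing.residue A).comp φ₀) (t σ0) =
      1 + (a σ0 : IsLocalRing.ResidueField A) := by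
    have h := (IsLocalRing.residue_eq_zero_iff _).mpr hres1
    rw [map_sub, map_add, map_one, map_natCast, sub_eq_zero] at h
    exact h
  have hr2 : (a σ0 : IsLocalRing.ResidueField A) ≠ 1 := by
    have h := (hres2.map (IsLocalRing.residue A)).ne_zero
    rw [map_sub, map_natCast, map_one] at h
    exact sub_ne_zero.mp h
  have hc1 : Nat.card ((Z.comap (h48_tors (W := W) 𝔪 j).subtype.toAddMonoidHom :
      AddSubgroup (h48_tors (W := W) 𝔪 j))) ≤ Nat.card Z :=
    Nat.card_le_card_of_injective (fun y => (⟨y.1.1, y.2⟩ : Z))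
      (fun y1 y2 h => by
        have h' : (y1.1.1 : W) = y2.1.1 := congrArg (fun z : Z => (z : W)) h
        exact Subtype.ext (Subtype.ext h'))
  have hc3 : Nat.card {w : W // ∃ j, ∀ c ∈ 𝔪 ^ j, c • w = 0} =
      Nat.card (h48_tors (W := W) 𝔪 j) :=
    Nat.card_congr (Equiv.subtypeEquivRight (fun w =>
      ⟨fun ⟨j', hw⟩ => h48_tors_stab 𝔪 j e he hje j' w hw, fun hw => ⟨j, hw⟩⟩))
  have hc : Nat.card ((Z.comap (h48_tors (W := W) 𝔪 j).subtype.toAddMonoidHom :
      AddSubgroup (h48_tors (W := W) 𝔪 j))) ^ 2 ≤ Nat.card (h48_tors (W := W) 𝔪 j) :=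
    calc _ ≤ Nat.card Z ^ 2 := Nat.pow_le_pow_left hc1 2
      _ ≤ _ := hcard
      _ = _ := hc3
  have key := h48_ord_Y (h48_rY r 𝔪 j) a t
    (fun y => Subtype.ext (ha1 y.1)) (fun g h y => Subtype.ext (hamul g h y.1))
    (fun g y => Subtype.ext (ht g y.1)) h2k ((IsLocalRing.residue A).comp φ₀) (h48_rhobar ρ)
    (fun g => by rw [h48_rhobar_trace, htr]; rfl) (h48_rhobar_span ρ hspan) j
    (fun c hc y => Subtype.ext (y.2 c (by rwa [hcomap] at hc))) I σ0 hσ0 hr1 hr2
    (Z.comap (h48_tors (W := W) 𝔪 j).subtype.toAddMonoidHom)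
    (fun σ hσ y => hZ σ hσ y.1 ⟨j, y.2⟩) hc
  intro σ hσ τ hτ
  have hx : ∀ w : W, (∀ c ∈ 𝔪 ^ j, c • w = 0) →
      h48_op r (Finsupp.single (τ * σ) 1 - Finsupp.single τ 1 - Finsupp.single σ (a τ : R₀) +
        Finsupp.single 1 (a τ : R₀)) w = 0 := by
    intro w hw
    have h : r τ (r σ w - w) = a τ • (r σ w - w) :=
      congrArg Subtype.val (key σ hσ τ hτ ⟨w, hw⟩)
    simp only [map_add, map_sub, h48_op_single, LinearMap.add_apply, LinearMap.sub_apply,
      LinearMap.smul_apply, one_smul, map_mul, Module.End.mul_apply, map_one,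
      Module.End.one_apply, Nat.cast_smul_eq_nsmul]
    rw [map_sub, smul_sub] at h
    have key2 : r τ (r σ w) - r τ w - a τ • r σ w + a τ • w =
        (r τ (r σ w) - r τ w) - (a τ • r σ w - a τ • w) := by abel
    rw [key2, h, sub_self]
  subst h𝔪
  have hPsi := h48_kernel ha1 hamul ht h2 φ₀ hφ ρ htr hspan j e he hje _ hx
  simp only [map_add, map_sub, h48_Psi_single, map_one, one_smul, map_natCast, map_mul] at hPsi
  rw [← hPsi]
  simp only [sub_mul, mul_sub, mul_one, Matrix.smul_mul, one_mul]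
  abel

/-- **Ordinarity from a count, kernel form**: the Galois module is given by
`r : G →* AddMonoid.End W` and the coefficient ring acts through a ring homomorphism
`act : R0 →+* AddMonoid.End W` (as produced by `Fermat.Agent.S32.h91_level_side`). -/
theorem h48_ordcore_ker {G : Type} [Group G] {W : Type} [AddCommGroup W] [Finite W]
    (r : G →* AddMonoid.End W) {R0 : Type} [CommRing R0] (act : R0 →+* AddMonoid.End W)
    (hcomm : ∀ (c : R0) (g : G) (w : W), act c (r g w) = r g (act c w)) (a : G → ℕ)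
    (ha1 : ∀ w : W, a 1 • w = w)
    (hamul : ∀ (g h : G) (w : W), a (g * h) • w = a g • a h • w) (t : G → R0)
    (ht : ∀ (g : G) (w : W), act (t g) w = r g w + a g • r g⁻¹ w)
    {A : Type} [CommRing A] [IsLocalRing A]
    [Finite A] (h2 : IsUnit (2 : A)) (φ0 : R0 →+* A) (hker : ∀ c, act c = 0 → φ0 c = 0)
    (ρ : G →* Matrix (Fin 2) (Fin 2) A) (htr : ∀ g, (ρ g).trace = φ0 (t g))
    (hspan : Submodule.span A (Set.range ρ) = ⊤)
    (I : Subgroup G) (σ0 : G) (hσ0 : σ0 ∈ I)
    (hres1 : φ0 (t σ0) - (1 + (a σ0 : A)) ∈ IsLocalRing.maximalIdeal A)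
    (hres2 : IsUnit ((a σ0 : A) - 1))
    (Z : AddSubgroup W)
    (hZ : ∀ σ ∈ I, ∀ w : W,
      (∃ j, ∀ c ∈ (Ideal.comap φ0 (IsLocalRing.maximalIdeal A)) ^ j, act c w = 0) →
        r σ w - w ∈ Z)
    (hcard : Nat.card Z ^ 2 ≤ Nat.card {w : W //
      ∃ j, ∀ c ∈ (Ideal.comap φ0 (IsLocalRing.maximalIdeal A)) ^ j, act c w = 0}) :
    ∀ σ ∈ I, ∀ τ ∈ I, (ρ τ - (a τ : A) • (1 : Matrix (Fin 2) (Fin 2) A)) * (ρ σ - 1) = 0 := by
  letI : Module R0 W := Module.compHom W act
  have hsm : ∀ (c : R0) (w : W), c • w = act c w := fun c w => rfl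
  let r' : G →* Module.End R0 W :=
    { toFun := fun g =>
        { toFun := fun w => r g w
          map_add' := fun x y => map_add (r g) x y
          map_smul' := fun c w => by
            show r g (c • w) = c • r g w
            rw [hsm, hsm, hcomm] }
      map_one' := by
        refine LinearMap.ext fun w => ?_
        show r 1 w = w
        rw [map_one]; rfl
      map_mul' := fun g h => by
        refine LinearMap.ext fun w => ?_
        show r (g * h) w = r g (r h w)
        rw [map_mul]; rfl }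
  have hr' : ∀ g w, r' g w = r g w := fun g w => rfl
  exact h48_ord_core r' a t ha1 hamul
    (fun g w => by rw [hsm, hr', hr']; exact ht g w) h2 φ0
    (fun c hc => hker c (AddMonoidHom.ext fun w => hc w)) ρ htr hspan I σ0 hσ0 hres1 hres2 Z
    (fun σ hσ w hw => hZ σ hσ w hw) hcard

end Fermat.Agent.S33
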