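import Mathlib
import Fermat.Agent.S33.h53_ZarIdem

/-!
# S33 / (N2): the last step of the wild endgame (helper53)

* `h53_zar` : `h53_zar_idem` with the chart in explicit binders (the ZAR' row of helper85's
  (N2) skeleton, verbatim).
* `h53_sheet_false` : **a cover lattice whose special fibre is the base special fibre sheet by
  sheet does not exist.**  Base lattice `D` with reduction ring `Rb₁ × Rb₂` (two components),
  strict along the chart function `x` (`hstr`, the conclusion of `h51_strict_of_chart`); cover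
  lattice `D'` on `F'` with reduction ring `ι → Rb₁ × Rb₂` (sheets `ι`), `x'` a balanced chart
  function of `F'` with `red' x' = red x` on every sheet, and, for `n ≥ N0`,
  `red' (L'(n D0') ∩ O') = { f | ∀ a, ((f a).1, (f (σ a)).2) ∈ red (L(n D0) ∩ O) }`
  for one permutation `σ` of the sheets (the relabelling of the second component).  If there
  are two different sheets this is contradictory: the indicator of one relabelled sheet is an
  idempotent satisfying the hypotheses of `h53_zar_idem`.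
-/

set_option autoImplicit false

noncomputable section

open AlgebraicCurve Module IsLocalRing
open Fermat.Agent.S18 Fermat.Agent.S34

namespace Fermat.Agent.S33

/-- **ZAR'**, explicit chart binders. -/
theorem h53_zar {K F k Rb : Type*} [Field K] [Field F] [Algebra K F] [Field k] [CommRing Rb]
    [Algebra k Rb] (D : h22_Lat K F k Rb)
    (hON : h22_ON D) (hRk : h39_RankOne D.A) (q : K) (hq : q ∈ D.A.nonunits) (hq0 : q ≠ 0)
    (hfin : ∀ B : Divisor K F, Module.Finite K (riemannRochSpace B))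
    (hconst : ∀ f ∈ riemannRochSpace (0 : Divisor K F), ∃ c : K, f = algebraMap K F c)
    (D1 D2 : Divisor K F) (hD1 : ∀ v, 0 ≤ D1 v) (hD2 : ∀ v, 0 ≤ D2 v)
    (hdisj : ∀ v, D1 v = 0 ∨ D2 v = 0)
    (x : F) (hx0 : x ≠ 0) (hxO : x ∈ D.O) (hxinvO : x⁻¹ ∈ D.O)
    (hxdiv : ∀ v : Place K F, v.ord x = D2 v - D1 v)
    (n₁ : ℕ)
    (hstr : ∀ n, n₁ ≤ n → ∀ a ∈ h51_Rd D ((n + 1) • D1),
      ∃ b ∈ h51_Rd D (n • D1), ∃ c ∈ h51_Rd D (n • D1), a = b + D.redF x * c)
    (φ : Rb) (hφ : φ * φ = φ) (n : ℕ) (h1 : φ ∈ h51_Rd D (n • D1))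
    (h2 : D.redF x ^ n * φ ∈ h51_Rd D (n • D1)) : φ = 0 ∨ φ = 1 :=
  h53_zar_idem D hON hfin hRk q hq hq0 ⟨hx0, hxO, hxinvO, hD1, hD2, hdisj, hxdiv⟩ hconst n₁ hstr
    φ hφ n h1 h2

/-- **No cover with sheetwise special fibre.** -/
theorem h53_sheet_false
    {K F F' k Rb₁ Rb₂ ι : Type*} [Field K] [Field F] [Field F'] [Algebra K F] [Algebra K F']
    [Field k] [CommRing Rb₁] [CommRing Rb₂] [Algebra k Rb₁] [Algebra k Rb₂] [Nontrivial Rb₁]
    -- the base
    (D : h22_Lat K F k (Rb₁ × Rb₂)) (D0 D2 : Divisor K F) (hD0 : ∀ v, 0 ≤ D0 v)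
    (hD2 : ∀ v, 0 ≤ D2 v) (N : ℕ) (hN : 1 ≤ N) (x : F) (hxO : x ∈ D.O)
    (hxdiv : ∀ v : Place K F, v.ord x = D2 v - (N : ℤ) * D0 v)
    (n₁ : ℕ)
    (hstr : ∀ n, n₁ ≤ n → ∀ a ∈ h51_Rd D ((n + 1) • (N • D0)),
      ∃ b ∈ h51_Rd D (n • (N • D0)), ∃ c ∈ h51_Rd D (n • (N • D0)), a = b + D.redF x * c)
    -- the cover
    (D' : h22_Lat K F' k (ι → Rb₁ × Rb₂)) (hON' : h22_ON D')
    (hfin' : ∀ B : Divisor K F', Module.Finite K (riemannRochSpace B))
    (hRk : h39_RankOne D'.A) (q : K) (hq : q ∈ D'.A.nonunits) (hq0 : q ≠ 0)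
    (hconst' : ∀ f ∈ riemannRochSpace (0 : Divisor K F'), ∃ c : K, f = algebraMap K F' c)
    (D0' D2' : Divisor K F') (hD0' : ∀ w, 0 ≤ D0' w) (hD2' : ∀ w, 0 ≤ D2' w)
    (hdisj' : ∀ w, D0' w = 0 ∨ D2' w = 0)
    (x' : F') (hx'0 : x' ≠ 0) (hx'O : x' ∈ D'.O) (hx'invO : x'⁻¹ ∈ D'.O)
    (hx'div : ∀ w : Place K F', w.ord x' = D2' w - (N : ℤ) * D0' w)
    (hredx : ∀ a, D'.redF x' a = D.redF x)
    -- the sheets
    (σ : Equiv.Perm ι) (N0 : ℕ)
    (hrel : ∀ n, N0 ≤ n → ∀ f : ι → Rb₁ × Rb₂,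
      f ∈ h51_Rd D' (n • D0') ↔ ∀ a, ((f a).1, (f (σ a)).2) ∈ h51_Rd D (n • D0))
    (a0 a1 : ι) (hne : a0 ≠ a1) : False := by
  classical
  -- the chart of the cover
  have hD1' : ∀ w, 0 ≤ (N • D0') w := by
    intro w
    rw [Finsupp.smul_apply, nsmul_eq_mul]
    exact mul_nonneg (Nat.cast_nonneg N) (hD0' w)
  have hdisj'' : ∀ w, (N • D0') w = 0 ∨ D2' w = 0 := by
    intro w
    rcases hdisj' w with h | h
    · left
      rw [Finsupp.smul_apply, h, smul_zero]
    · exact Or.inr h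
  have hx'div' : ∀ w : Place K F', w.ord x' = D2' w - (N • D0') w := by
    intro w
    rw [hx'div w, Finsupp.smul_apply, nsmul_eq_mul]
  have C' : h53_Chart D' x' (N • D0') D2' :=
    ⟨hx'0, hx'O, hx'invO, hD1', hD2', hdisj'', hx'div'⟩
  have hle : ∀ n : ℕ, n ≤ n * N := fun n => Nat.le_mul_of_pos_right n hN
  -- elements of the base special fibre
  have hone : ∀ m : ℕ, (1 : Rb₁ × Rb₂) ∈ h51_Rd D (m • D0) := by
    intro m
    refine ⟨1, mem_riemannRochSpace_iff.mpr fun v => Or.inr ?_, D.O.one_mem, h51_redF_one D⟩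
    rw [v.ord_one, Finsupp.smul_apply, nsmul_eq_mul]
    have := mul_nonneg (Nat.cast_nonneg (α := ℤ) m) (hD0 v)
    linarith
  have hxpow : ∀ m : ℕ, D.redF x ^ m ∈ h51_Rd D ((m * N) • D0) := by
    intro m
    refine ⟨x ^ m, mem_riemannRochSpace_iff.mpr fun v => Or.inr ?_, D.O.pow_mem hxO m,
      h51_redF_pow D hxO m⟩
    rw [h53_ord_pow, hxdiv v, Finsupp.smul_apply, nsmul_eq_mul]
    have h1 : (0 : ℤ) ≤ (m : ℤ) * D2 v := mul_nonneg (Nat.cast_nonneg m) (hD2 v)
    push_cast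
    nlinarith
  -- strictness of the cover, sheet by sheet
  have hgen' : ∀ n, max n₁ N0 ≤ n → ∀ f ∈ h51_Rd D' ((n + 1) • (N • D0')),
      ∃ b ∈ h51_Rd D' (n • (N • D0')), ∃ c ∈ h51_Rd D' (n • (N • D0')),
        f = b + D'.redF x' * c := by
    intro n hn f hf
    have hn1 : n₁ ≤ n := le_trans (le_max_left _ _) hn
    have hn0 : N0 ≤ n := le_trans (le_max_right _ _) hn
    rw [smul_smul] at hf
    have hg := (hrel ((n + 1) * N) (le_trans (le_trans hn0 (Nat.le_succ n)) (hle _)) f).mp hf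
    have hex : ∀ a, ∃ b ∈ h51_Rd D (n • (N • D0)), ∃ c ∈ h51_Rd D (n • (N • D0)),
        ((f a).1, (f (σ a)).2) = b + D.redF x * c := by
      intro a
      have h := hg a
      rw [← smul_smul] at h
      exact hstr n hn1 _ h
    choose B hB Cc hC hBC using hex
    have hrel' := hrel (n * N) (le_trans hn0 (hle n))
    refine ⟨fun a => ((B a).1, (B (σ.symm a)).2), ?_, fun a => ((Cc a).1, (Cc (σ.symm a)).2),
      ?_, ?_⟩
    · rw [smul_smul]
      refine (hrel' _).mpr fun a => ?_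
      have h := hB a
      rw [smul_smul] at h
      simpa using h
    · rw [smul_smul]
      refine (hrel' _).mpr fun a => ?_
      have h := hC a
      rw [smul_smul] at h
      simpa using h
    · funext a
      have h1 := congrArg Prod.fst (hBC a)
      have h2 := congrArg Prod.snd (hBC (σ.symm a))
      simp only [Equiv.apply_symm_apply, Prod.fst_add, Prod.snd_add, Prod.fst_mul,
        Prod.snd_mul] at h1 h2
      refine Prod.ext ?_ ?_
      · simp only [Pi.add_apply, Pi.mul_apply, Prod.fst_add, Prod.fst_mul, hredx a]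
        exact h1
      · simp only [Pi.add_apply, Pi.mul_apply, Prod.snd_add, Prod.snd_mul, hredx a]
        exact h2
  -- the indicator of one relabelled sheet
  let φ : ι → Rb₁ × Rb₂ := fun a => (if a = a0 then 1 else 0, if σ.symm a = a0 then 1 else 0)
  have hφ : φ * φ = φ := by
    funext a
    refine Prod.ext ?_ ?_
    · show (if a = a0 then (1 : Rb₁) else 0) * (if a = a0 then (1 : Rb₁) else 0) =
        if a = a0 then (1 : Rb₁) else 0
      split_ifs <;> simp
    · show (if σ.symm a = a0 then (1 : Rb₂) else 0) * (if σ.symm a = a0 then (1 : Rb₂) else 0) =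
        if σ.symm a = a0 then (1 : Rb₂) else 0
      split_ifs <;> simp
  have hrel0 := hrel (N0 * N) (hle N0)
  have h1 : φ ∈ h51_Rd D' (N0 • (N • D0')) := by
    rw [smul_smul]
    refine (hrel0 φ).mpr fun a => ?_
    show ((if a = a0 then (1 : Rb₁) else 0), (if σ.symm (σ a) = a0 then (1 : Rb₂) else 0)) ∈
      h51_Rd D ((N0 * N) • D0)
    rw [Equiv.symm_apply_apply]
    by_cases ha : a = a0
    · rw [if_pos ha, if_pos ha]
      exact hone _
    · rw [if_neg ha, if_neg ha]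
      exact Submodule.zero_mem _
  have h2 : D'.redF x' ^ N0 * φ ∈ h51_Rd D' (N0 • (N • D0')) := by
    rw [smul_smul]
    refine (hrel0 _).mpr fun a => ?_
    have e1 : ((D'.redF x' ^ N0 * φ) a).1 = (D.redF x ^ N0).1 * (if a = a0 then (1 : Rb₁) else 0) := by
      show ((D'.redF x' ^ N0) a * φ a).1 = _
      rw [Pi.pow_apply, hredx a]
      rfl
    have e2 : ((D'.redF x' ^ N0 * φ) (σ a)).2 =
        (D.redF x ^ N0).2 * (if a = a0 then (1 : Rb₂) else 0) := by
      show ((D'.redF x' ^ N0) (σ a) * φ (σ a)).2 = _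
      rw [Pi.pow_apply, hredx (σ a)]
      show (D.redF x ^ N0).2 * (if σ.symm (σ a) = a0 then (1 : Rb₂) else 0) = _
      rw [Equiv.symm_apply_apply]
    rw [e1, e2]
    by_cases ha : a = a0
    · rw [if_pos ha, if_pos ha, mul_one, mul_one]
      exact hxpow N0
    · rw [if_neg ha, if_neg ha, mul_zero, mul_zero]
      exact Submodule.zero_mem _
  rcases h53_zar_idem D' hON' hfin' hRk q hq hq0 C' hconst' (max n₁ N0) hgen' φ hφ N0 h1 h2
    with h | h
  · have h3 := congrArg Prod.fst (congrFun h a0)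
    have h4 : (φ a0).1 = 1 := if_pos rfl
    rw [h4] at h3
    exact one_ne_zero h3
  · have h3 := congrArg Prod.fst (congrFun h a1)
    have h4 : (φ a1).1 = 0 := if_neg (fun h' => hne h'.symm)
    rw [h4] at h3
    exact zero_ne_one h3

end Fermat.Agent.S33

end
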