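import Mathlib
import Fermat.Agent.S33.h18_Depth

/-!
# S33, (N1): the norm core in single-ring form (helper54)

`B` a commutative ring, `R` a `B`-algebra with a `B`-basis `e, (1 - e) x^i (i < p)` for an
idempotent `e` (so `R = R e × R (1 - e)`, `R e ≅ B`, `R (1 - e)` of rank `p` with power basis),
such that `(1 - e) (x ^ p - j) ∈ ϖ R` for some `ϖ ∣ p` ("the second component is purely
inseparable of degree `p` modulo `ϖ`").

* `h54_det_one_add` : DEPTH in matrix form: if the middle coefficients of the characteristic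
  polynomial of `L` are divisible by `ϖ`, then `det (1 + c L) - 1 ∈ (ϖ c, c ^ p)`;
* `h54_split_norm` : **SPLIT-NORM**: `N(1 + c y) ≡ b` modulo `(ϖ c, c ^ p)`, where
  `b e = (1 + c y) e` (local norm decomposition `N(u) = u₁ · N₂(u₂)` and DEPTH in one statement);
* `h54_n1_step`, `h54_n1_core` : **N1-CORE**: with a ring automorphism `sw` of `R`, `sw e = 1 - e`
  (the swap; it turns the second `B`-structure into the first), total divisibility in `B`, and
  nilpotent `ϖ`, `c` fixed by `sw`: a `u ∈ 1 + c R` whose norms `N(u)`, `N(sw u)` are `p`-th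
  powers in `B` is a `p`-th power in `R`.

Intended use: `B = O_M / p^D`, `R = (O₁ ∩ O₂) / p^D` at level `(M, p)` via `α`, `x = β(j)`,
`e` the idempotent lifting `(1, 0)`, `sw` the Atkin–Lehner swap, `ϖ ∈ 𝔪_A` dividing `p`.  Only the
reductions modulo `𝔪_A` are needed (no Kronecker congruence modulo `p`).
-/

set_option autoImplicit false

open Polynomial Matrix

namespace Fermat.Agent.S33

section MatrixDepth

variable {B : Type*} [CommRing B]

/-- **DEPTH, matrix form.** If the middle coefficients of the characteristic polynomial of the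
`p × p` matrix `L` are divisible by `ϖ`, then `det (1 + c L) ≡ 1` modulo `(ϖ c, c ^ p)`. -/
theorem h54_det_one_add (p : ℕ) (L : Matrix (Fin p) (Fin p) B) (ϖ : B)
    (hL : ∀ i : ℕ, 0 < i → i < p → ϖ ∣ L.charpoly.coeff i) (c : B) :
    (1 + c • L).det - 1 ∈ Ideal.span {ϖ * c, c ^ p} := by
  rcases subsingleton_or_nontrivial B with hR | hR
  · have h0 : (1 + c • L).det - 1 = 0 := Subsingleton.elim _ _
    rw [h0]
    exact Ideal.zero_mem _
  have hrev : (1 + c • L).det = L.charpolyRev.eval (-c) := by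
    rw [Matrix.charpolyRev, ← Polynomial.coe_evalRingHom, RingHom.map_det]
    congr 1
    ext r s
    simp [RingHom.mapMatrix_apply, Matrix.one_apply, Matrix.sub_apply, Matrix.smul_apply,
      apply_ite]
    exact mul_comm _ _
  have hχm : L.charpoly.Monic := Matrix.charpoly_monic L
  have hχd : L.charpoly.natDegree = p := by
    rw [Matrix.charpoly_natDegree_eq_dim, Fintype.card_fin]
  rw [hrev, ← Matrix.reverse_charpoly,
    Polynomial.eval_eq_sum_range' (n := p + 1)
      (lt_of_le_of_lt (Polynomial.reverse_natDegree_le _) (by omega)),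
    Finset.sum_range_succ']
  have h0 : L.charpoly.reverse.coeff 0 * (-c) ^ 0 = 1 := by
    rw [Polynomial.coeff_reverse, hχd, Polynomial.revAt_le (Nat.zero_le p), Nat.sub_zero,
      pow_zero, mul_one]
    have h1 := hχm.coeff_natDegree
    rw [hχd] at h1
    exact h1
  rw [h0, add_sub_cancel_right]
  refine Ideal.sum_mem _ fun k hk => ?_
  rw [Finset.mem_range] at hk
  rw [Polynomial.coeff_reverse, hχd, Polynomial.revAt_le (by omega)]
  by_cases hkp : k + 1 = p
  · rw [hkp, Nat.sub_self, neg_pow]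
    exact Ideal.mul_mem_left _ _ (Ideal.mul_mem_left _ _ (Ideal.subset_span (by simp)))
  · obtain ⟨d, hd⟩ := hL (p - (k + 1)) (by omega) (by omega)
    have e : L.charpoly.coeff (p - (k + 1)) * (-c) ^ (k + 1) =
        (-(d * (-c) ^ k)) * (ϖ * c) := by
      rw [hd]; ring
    rw [e]
    exact Ideal.mul_mem_left _ _ (Ideal.subset_span (by simp))

/-- Middle coefficients of the characteristic polynomial of a matrix which is `h18_mat` modulo
`ϖ ∣ p`. -/
theorem h54_charpoly_coeff_dvd (p : ℕ) [Fact p.Prime] (ϖ : B) (hϖ : ϖ ∣ (p : B))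
    (L : Matrix (Fin p) (Fin p) B) (a : Fin p → B) (j : B)
    (hL : L.map (Ideal.Quotient.mk (Ideal.span {ϖ})) =
      (h18_mat p a j).map (Ideal.Quotient.mk (Ideal.span {ϖ})))
    (i : ℕ) (h0 : 0 < i) (hi : i < p) : ϖ ∣ L.charpoly.coeff i := by
  by_cases hu : IsUnit ϖ
  · exact hu.dvd
  have hne : Ideal.span {ϖ} ≠ ⊤ := fun h => hu (Ideal.span_singleton_eq_top.1 h)
  haveI : Nontrivial (B ⧸ Ideal.span {ϖ}) := Ideal.Quotient.nontrivial_iff.2 hne
  have hp0 : ((p : ℕ) : B ⧸ Ideal.span {ϖ}) = 0 := by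
    obtain ⟨t, ht⟩ := hϖ
    have : (Ideal.Quotient.mk (Ideal.span {ϖ})) (p : B) = 0 := by
      rw [ht]
      exact Ideal.Quotient.eq_zero_iff_mem.2
        (Ideal.mul_mem_right _ _ (Ideal.mem_span_singleton_self _))
    simpa using this
  haveI : CharP (B ⧸ Ideal.span {ϖ}) p :=
    (CharP.charP_iff_prime_eq_zero (Fact.out : p.Prime)).2 hp0
  have h2 := Matrix.charpoly_map L (Ideal.Quotient.mk (Ideal.span {ϖ}))
  rw [hL, h18_mat_map, h18_charpoly_charP] at h2
  have h3 := congrArg (fun f => f.coeff i) h2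
  simp only [Polynomial.coeff_map, Polynomial.coeff_sub, Polynomial.coeff_X_pow,
    Polynomial.coeff_C] at h3
  rw [if_neg (by omega), if_neg (by omega), sub_zero] at h3
  exact Ideal.mem_span_singleton.1 (Ideal.Quotient.eq_zero_iff_mem.1 h3.symm)

end MatrixDepth

section Split

variable {B R : Type*} [CommRing B] [CommRing R] [Algebra B R] (p : ℕ)
  (bas : Module.Basis (Unit ⊕ Fin p) B R) (e x : R) (he : IsIdempotentElem e)
  (hbas0 : bas (Sum.inl ()) = e) (hbas1 : ∀ i : Fin p, bas (Sum.inr i) = (1 - e) * x ^ (i : ℕ))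

include he hbas0 hbas1

/-- `u e` is a `B`-multiple of `e`. -/
theorem h54_mul_e (u : R) : u * e = bas.repr (u * e) (Sum.inl ()) • e := by
  have h := bas.sum_repr (u * e)
  have h2 : e * (u * e) = u * e := by rw [mul_comm e, mul_assoc, he.eq]
  have h0 : ∀ i : Fin p, e * ((1 - e) * x ^ (i : ℕ)) = 0 := fun i => by
    rw [← mul_assoc, mul_sub, mul_one, he.eq, sub_self, zero_mul]
  calc u * e = e * (u * e) := h2.symm
    _ = e * ∑ k, bas.repr (u * e) k • bas k := by rw [h]
    _ = bas.repr (u * e) (Sum.inl ()) • e := by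
      rw [Fintype.sum_sum_type, mul_add, Finset.mul_sum, Finset.mul_sum]
      simp only [Finset.univ_unique, Finset.sum_singleton, PUnit.default_eq_unit, hbas0, hbas1,
        mul_smul_comm, h0, smul_zero, Finset.sum_const_zero, add_zero, he.eq]

/-- `u (1 - e) x^k` lies in the span of the `(1 - e) x^i`. -/
theorem h54_mul_one_sub_e (v : R) (hv : (1 - e) * v = v) :
    v = ∑ i : Fin p, bas.repr v (Sum.inr i) • bas (Sum.inr i) := by
  have h := bas.sum_repr v
  have hee : (1 - e) * (1 - e) = 1 - e := he.one_sub.eq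
  have h0 : (1 - e) * e = 0 := by rw [sub_mul, one_mul, he.eq, sub_self]
  have h1 : ∀ i : Fin p, (1 - e) * ((1 - e) * x ^ (i : ℕ)) = (1 - e) * x ^ (i : ℕ) := fun i => by
    rw [← mul_assoc, hee]
  calc v = (1 - e) * v := hv.symm
    _ = (1 - e) * ∑ k, bas.repr v k • bas k := by rw [h]
    _ = ∑ i : Fin p, bas.repr v (Sum.inr i) • bas (Sum.inr i) := by
      rw [Fintype.sum_sum_type, mul_add, Finset.mul_sum, Finset.mul_sum]
      simp only [Finset.univ_unique, Finset.sum_singleton, PUnit.default_eq_unit, hbas0, hbas1,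
        mul_smul_comm, h0, h1, smul_zero, zero_add]

theorem h54_block21 (u : R) (i : Fin p) :
    Algebra.leftMulMatrix bas u (Sum.inr i) (Sum.inl ()) = 0 := by
  have h := h54_mul_e p bas e x he hbas0 hbas1 u
  have h1 : bas.repr e (Sum.inr i) = 0 := by
    rw [← hbas0, bas.repr_self, Finsupp.single_apply, if_neg (by simp)]
  rw [Algebra.leftMulMatrix_eq_repr_mul, hbas0, h, map_smul, Finsupp.smul_apply, h1, smul_zero]

theorem h54_block12 (u : R) (k : Fin p) :
    Algebra.leftMulMatrix bas u (Sum.inl ()) (Sum.inr k) = 0 := by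
  rw [Algebra.leftMulMatrix_eq_repr_mul]
  have hee : (1 - e) * (1 - e) = 1 - e := he.one_sub.eq
  have hv : (1 - e) * (u * bas (Sum.inr k)) = u * bas (Sum.inr k) := by
    rw [hbas1]
    calc (1 - e) * (u * ((1 - e) * x ^ (k : ℕ))) = u * (((1 - e) * (1 - e)) * x ^ (k : ℕ)) := by
          ring
      _ = u * ((1 - e) * x ^ (k : ℕ)) := by rw [hee]
  have h := h54_mul_one_sub_e p bas e x he hbas0 hbas1 _ hv
  rw [h, map_sum, Finsupp.finset_sum_apply]
  refine Finset.sum_eq_zero fun i _ => ?_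
  rw [map_smul, Finsupp.smul_apply, bas.repr_self, Finsupp.single_apply, if_neg (by simp),
    smul_zero]

/-- The lower right `p × p` block of the matrix of multiplication by `u`, as an algebra
homomorphism (`R → R (1 - e) → End_B (R (1 - e))`). -/
noncomputable def h54_blk : R →ₐ[B] Matrix (Fin p) (Fin p) B where
  toFun u := (Algebra.leftMulMatrix bas u).toBlocks₂₂
  map_one' := by
    rw [map_one]
    ext i k
    simp [Matrix.toBlocks₂₂, Matrix.one_apply]
  map_mul' u v := by
    ext i k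
    rw [map_mul]
    show ((Algebra.leftMulMatrix bas u) * (Algebra.leftMulMatrix bas v)) (Sum.inr i) (Sum.inr k) =
      _
    rw [Matrix.mul_apply, Fintype.sum_sum_type, Matrix.mul_apply]
    simp only [Finset.univ_unique, Finset.sum_singleton, PUnit.default_eq_unit,
      h54_block21 p bas e x he hbas0 hbas1, zero_mul, zero_add]
    rfl
  map_zero' := by
    rw [map_zero]
    rfl
  map_add' u v := by
    rw [map_add]
    rfl
  commutes' b := by
    rw [AlgHom.commutes]
    ext i k
    simp [Matrix.toBlocks₂₂, Matrix.algebraMap_matrix_apply]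

theorem h54_blk_apply (u : R) (i k : Fin p) :
    h54_blk p bas e x he hbas0 hbas1 u i k = bas.repr (u * bas (Sum.inr k)) (Sum.inr i) := by
  show (Algebra.leftMulMatrix bas u) (Sum.inr i) (Sum.inr k) = _
  rw [Algebra.leftMulMatrix_eq_repr_mul]

/-- **Norm splitting**: `N(u) = u₁ · N₂(u₂)`. -/
theorem h54_norm_eq (u : R) :
    Algebra.norm B u =
      bas.repr (u * e) (Sum.inl ()) * (h54_blk p bas e x he hbas0 hbas1 u).det := by
  rw [Algebra.norm_eq_matrix_det bas]
  have h12 : (Algebra.leftMulMatrix bas u).toBlocks₁₂ = 0 := by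
    ext i k
    rcases i with ⟨⟩
    exact h54_block12 p bas e x he hbas0 hbas1 u k
  have h21 : (Algebra.leftMulMatrix bas u).toBlocks₂₁ = 0 := by
    ext i k
    rcases k with ⟨⟩
    exact h54_block21 p bas e x he hbas0 hbas1 u i
  have h := Matrix.fromBlocks_toBlocks (Algebra.leftMulMatrix bas u)
  rw [h12, h21] at h
  rw [← h, Matrix.det_fromBlocks_zero₂₁, Matrix.det_unique]
  congr 1
  show (Algebra.leftMulMatrix bas u) (Sum.inl ()) (Sum.inl ()) = _
  rw [Algebra.leftMulMatrix_eq_repr_mul, hbas0]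

theorem h54_blk_one_sub_e : h54_blk p bas e x he hbas0 hbas1 (1 - e) = 1 := by
  have hee : (1 - e) * (1 - e) = 1 - e := he.one_sub.eq
  ext i k
  rw [h54_blk_apply, hbas1, ← mul_assoc, hee, ← hbas1, bas.repr_self, Finsupp.single_apply,
    Matrix.one_apply]
  by_cases h : i = k
  · subst h; simp
  · rw [if_neg h, if_neg (fun h' => h (Sum.inr.inj h').symm)]

/-- The block of `u` is a polynomial in the block of `x`. -/
theorem h54_blk_eq_sum (u : R) :
    h54_blk p bas e x he hbas0 hbas1 u =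
      ∑ i : Fin p, bas.repr (u * (1 - e)) (Sum.inr i) •
        h54_blk p bas e x he hbas0 hbas1 x ^ (i : ℕ) := by
  have hee : (1 - e) * (1 - e) = 1 - e := he.one_sub.eq
  have hv : (1 - e) * (u * (1 - e)) = u * (1 - e) := by
    calc (1 - e) * (u * (1 - e)) = u * ((1 - e) * (1 - e)) := by ring
      _ = u * (1 - e) := by rw [hee]
  have h := h54_mul_one_sub_e p bas e x he hbas0 hbas1 _ hv
  have h1 : h54_blk p bas e x he hbas0 hbas1 u =
      h54_blk p bas e x he hbas0 hbas1 (u * (1 - e)) := by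
    rw [map_mul, h54_blk_one_sub_e, mul_one]
  rw [h1]
  conv_lhs => rw [h]
  rw [map_sum]
  refine Finset.sum_congr rfl fun i _ => ?_
  rw [map_smul, hbas1]
  congr 1
  rw [map_mul, h54_blk_one_sub_e, one_mul, map_pow]

end Split

section SplitNorm

variable {B R : Type*} [CommRing B] [CommRing R] [Algebra B R] (p : ℕ) [Fact p.Prime]
  (bas : Module.Basis (Unit ⊕ Fin p) B R) (e x : R) (he : IsIdempotentElem e)
  (hbas0 : bas (Sum.inl ()) = e) (hbas1 : ∀ i : Fin p, bas (Sum.inr i) = (1 - e) * x ^ (i : ℕ))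
  (j ϖ : B) (hx : (1 - e) * (x ^ p - algebraMap B R j) ∈ Ideal.span {algebraMap B R ϖ})

include hx in
/-- Modulo `ϖ`, the block of `x` is the companion matrix of `X ^ p - j`. -/
theorem h54_blk_x_map {Q : Type*} [CommRing Q] (π : B →+* Q) (hπ : π ϖ = 0) :
    (h54_blk p bas e x he hbas0 hbas1 x).map π = h18_comp p (π j) := by
  have hp0 : 0 < p := (Fact.out : p.Prime).pos
  obtain ⟨r, hr⟩ := Ideal.mem_span_singleton'.1 hx
  ext i k
  have hi := i.2
  have hk := k.2
  rw [Matrix.map_apply, h54_blk_apply, hbas1, h18_comp_apply]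
  have e1 : x * ((1 - e) * x ^ (k : ℕ)) = (1 - e) * x ^ ((k : ℕ) + 1) := by ring
  rw [e1]
  by_cases hk1 : (k : ℕ) + 1 < p
  · have e2 : (1 - e) * x ^ ((k : ℕ) + 1) = bas (Sum.inr ⟨(k : ℕ) + 1, hk1⟩) :=
      (hbas1 ⟨(k : ℕ) + 1, hk1⟩).symm
    rw [e2, bas.repr_self, Finsupp.single_apply]
    by_cases h : (k : ℕ) + 1 = (i : ℕ)
    · rw [if_pos h, if_pos (by rw [Sum.inr.injEq]; exact Fin.ext h), map_one]
    · rw [if_neg h, if_neg (fun e' => h (congrArg Fin.val (Sum.inr.inj e'))), if_neg (by omega),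
        map_zero]
  · have hkp : (k : ℕ) + 1 = p := by omega
    have e2 : (1 - e) * x ^ ((k : ℕ) + 1) = ϖ • r + j • bas (Sum.inr ⟨0, hp0⟩) := by
      rw [hkp, hbas1, Algebra.smul_def, Algebra.smul_def, mul_comm (algebraMap B R ϖ) r, hr]
      simp only [pow_zero, mul_one]
      ring
    rw [e2, map_add, map_smul, map_smul, bas.repr_self, Finsupp.add_apply, Finsupp.smul_apply,
      Finsupp.smul_apply, Finsupp.single_apply, map_add, smul_eq_mul, smul_eq_mul, map_mul,
      map_mul, hπ, zero_mul, zero_add]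
    have hne : ¬ ((k : ℕ) + 1 = (i : ℕ)) := by omega
    rw [if_neg hne]
    by_cases h : (i : ℕ) = 0
    · rw [if_pos (by rw [Sum.inr.injEq]; exact Fin.ext h.symm), if_pos ⟨hkp, h⟩, map_one, mul_one]
    · rw [if_neg (fun e' => h (congrArg Fin.val (Sum.inr.inj e')).symm),
        if_neg (fun h' => h h'.2), map_zero, mul_zero]

include hx in
/-- Modulo `ϖ`, the block of `u` is `h18_mat`. -/
theorem h54_blk_map {Q : Type*} [CommRing Q] (π : B →+* Q) (hπ : π ϖ = 0) (u : R) :
    (h54_blk p bas e x he hbas0 hbas1 u).map π =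
      h18_mat p (fun i => π (bas.repr (u * (1 - e)) (Sum.inr i))) (π j) := by
  rw [h54_blk_eq_sum p bas e x he hbas0 hbas1 u]
  unfold h18_mat
  have hm : ∀ N : Matrix (Fin p) (Fin p) B, N.map π = π.mapMatrix N := fun _ => rfl
  rw [hm, map_sum]
  refine Finset.sum_congr rfl fun i _ => ?_
  have e1 : π.mapMatrix (h54_blk p bas e x he hbas0 hbas1 x ^ (i : ℕ)) =
      h18_comp p (π j) ^ (i : ℕ) := by
    rw [map_pow]
    congr 1
    exact h54_blk_x_map p bas e x he hbas0 hbas1 j ϖ hx π hπ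
  rw [← e1]
  ext r s
  simp [RingHom.mapMatrix_apply, Matrix.smul_apply]

include hx in
/-- Middle coefficients of the characteristic polynomial of the block are divisible by `ϖ`. -/
theorem h54_blk_charpoly_dvd (hϖ : ϖ ∣ (p : B)) (u : R) (i : ℕ) (h0 : 0 < i) (hi : i < p) :
    ϖ ∣ (h54_blk p bas e x he hbas0 hbas1 u).charpoly.coeff i := by
  have hπ : Ideal.Quotient.mk (Ideal.span {ϖ}) ϖ = 0 :=
    Ideal.Quotient.eq_zero_iff_mem.2 (Ideal.mem_span_singleton_self _)
  refine h54_charpoly_coeff_dvd p ϖ hϖ _ (fun i => bas.repr (u * (1 - e)) (Sum.inr i)) j ?_ i h0 hi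
  rw [h54_blk_map p bas e x he hbas0 hbas1 j ϖ hx _ hπ u, h18_mat_map]

include he hbas0 hbas1 hx in
/-- **SPLIT-NORM.** `N(1 + c y) ≡ b` modulo `(ϖ c, c ^ p)`, where `b e = (1 + c y) e`. -/
theorem h54_split_norm (hϖ : ϖ ∣ (p : B)) (c : B) (y : R) :
    ∃ b : B, algebraMap B R b * e = (1 + c • y) * e ∧
      Algebra.norm B (1 + c • y) - b ∈ Ideal.span {ϖ * c, c ^ p} := by
  refine ⟨bas.repr ((1 + c • y) * e) (Sum.inl ()), ?_, ?_⟩
  · rw [← Algebra.smul_def]
    exact (h54_mul_e p bas e x he hbas0 hbas1 _).symm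
  · rw [h54_norm_eq p bas e x he hbas0 hbas1]
    have h1 : h54_blk p bas e x he hbas0 hbas1 (1 + c • y) =
        1 + c • h54_blk p bas e x he hbas0 hbas1 y := by
      rw [map_add, map_one, map_smul]
    have h2 := h54_det_one_add p (h54_blk p bas e x he hbas0 hbas1 y) ϖ
      (h54_blk_charpoly_dvd p bas e x he hbas0 hbas1 j ϖ hx hϖ y) c
    rw [h1]
    have e3 : ∀ m d : B, m * d - m = m * (d - 1) := fun m d => by ring
    rw [e3]
    exact Ideal.mul_mem_left _ _ h2

end SplitNorm

section Core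

/-- Powers of `a e + a' (1 - e)` for an idempotent `e`. -/
theorem h54_idem_pow {R : Type*} [CommRing R] (e a a' : R) (he : IsIdempotentElem e) (n : ℕ)
    (hn : 0 < n) : (a * e + a' * (1 - e)) ^ n = a ^ n * e + a' ^ n * (1 - e) := by
  have h1 : e * e = e := he.eq
  induction n, hn using Nat.le_induction with
  | base => simp
  | succ n _ ih =>
    rw [pow_succ, ih]
    linear_combination (a ^ (n + 1) - a ^ n * a' - a' ^ n * a + a' ^ (n + 1)) * h1

/-- Elements of the ideal generated by a nilpotent constant are nilpotent. -/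
theorem h54_nil_of_mem {B R : Type*} [CommRing B] [CommRing R] [Algebra B R] (d : B)
    (hd : IsNilpotent d) (z : R) (hz : z ∈ Ideal.span {algebraMap B R d}) : IsNilpotent z := by
  obtain ⟨r, rfl⟩ := Ideal.mem_span_singleton'.1 hz
  obtain ⟨n, hn⟩ := hd
  exact ⟨n, by rw [mul_pow, ← map_pow, hn, map_zero, mul_zero]⟩

variable {B R : Type*} [CommRing B] [CommRing R] [Algebra B R] (p : ℕ) [Fact p.Prime]
  (bas : Module.Basis (Unit ⊕ Fin p) B R) (e x : R) (he : IsIdempotentElem e)
  (hbas0 : bas (Sum.inl ()) = e) (hbas1 : ∀ i : Fin p, bas (Sum.inr i) = (1 - e) * x ^ (i : ℕ))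
  (j ϖ : B) (hx : (1 - e) * (x ^ p - algebraMap B R j) ∈ Ideal.span {algebraMap B R ϖ})
  (hϖ : ϖ ∣ (p : B)) (sw : R ≃+* R) (hsw : sw e = 1 - e)
  (hswϖ : sw (algebraMap B R ϖ) = algebraMap B R ϖ)

include he hbas0 hbas1 hx hϖ hsw hswϖ in
/-- **ONE STEP.** A unit `u ∈ 1 + d R` whose norms `N(u)`, `N(sw u)` are `p`-th powers is a
`p`-th power modulo `(ϖ d, d ^ p)`. -/
theorem h54_n1_step (d : B) (hswd : sw (algebraMap B R d) = algebraMap B R d) (u : R)
    (hu : u - 1 ∈ Ideal.span {algebraMap B R d}) (h h' : B) (hN : Algebra.norm B u = h ^ p)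
    (hN' : Algebra.norm B (sw u) = h' ^ p) :
    ∃ g : R, u - g ^ p ∈ Ideal.span {algebraMap B R (ϖ * d), algebraMap B R (d ^ p)} := by
  have hp0 : 0 < p := (Fact.out : p.Prime).pos
  obtain ⟨y, hy⟩ := Ideal.mem_span_singleton'.1 hu
  have hu1 : u = 1 + d • y := by
    rw [Algebra.smul_def, mul_comm, hy]; ring
  have hu2 : sw u = 1 + d • sw y := by
    rw [hu1, map_add, map_one, Algebra.smul_def, map_mul, hswd, ← Algebra.smul_def]
  obtain ⟨b₁, hb₁e, hb₁N⟩ := h54_split_norm p bas e x he hbas0 hbas1 j ϖ hx hϖ d y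
  obtain ⟨b₂, hb₂e, hb₂N⟩ := h54_split_norm p bas e x he hbas0 hbas1 j ϖ hx hϖ d (sw y)
  rw [← hu1, hN] at hb₁N
  rw [← hu2, hN'] at hb₂N
  rw [← hu1] at hb₁e
  rw [← hu2] at hb₂e
  set J : Ideal R := Ideal.span {algebraMap B R (ϖ * d), algebraMap B R (d ^ p)} with hJ
  have hJ1 : algebraMap B R (ϖ * d) ∈ J := Ideal.subset_span (by simp)
  have hJ2 : algebraMap B R (d ^ p) ∈ J := Ideal.subset_span (by simp)
  have hJmap : ∀ z : B, z ∈ Ideal.span {ϖ * d, d ^ p} → algebraMap B R z ∈ J := by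
    intro z hz
    obtain ⟨r₁, r₂, rfl⟩ := Ideal.mem_span_pair.1 hz
    rw [map_add, map_mul (algebraMap B R) r₁, map_mul (algebraMap B R) r₂]
    exact J.add_mem (J.mul_mem_left _ hJ1) (J.mul_mem_left _ hJ2)
  have hswsymm : ∀ z : R, sw z = z → sw.symm z = z := fun z hz => by
    rw [RingEquiv.symm_apply_eq]; exact hz.symm
  have f1 : sw.symm (algebraMap B R (ϖ * d)) = algebraMap B R (ϖ * d) :=
    hswsymm _ (by rw [map_mul, map_mul, hswϖ, hswd])
  have f2 : sw.symm (algebraMap B R (d ^ p)) = algebraMap B R (d ^ p) :=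
    hswsymm _ (by rw [map_pow, map_pow, hswd])
  have hJsw : ∀ z : B, z ∈ Ideal.span {ϖ * d, d ^ p} → sw.symm (algebraMap B R z) ∈ J := by
    intro z hz
    obtain ⟨r₁, r₂, rfl⟩ := Ideal.mem_span_pair.1 hz
    rw [map_add (algebraMap B R), map_mul (algebraMap B R) r₁, map_mul (algebraMap B R) r₂,
      map_add sw.symm, map_mul sw.symm, map_mul sw.symm, f1, f2]
    exact J.add_mem (J.mul_mem_left _ hJ1) (J.mul_mem_left _ hJ2)
  have hsymm_e : sw.symm e = 1 - e := by
    rw [RingEquiv.symm_apply_eq, map_sub, map_one, hsw]; ring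
  have hue' : u * (1 - e) = sw.symm (algebraMap B R b₂) * (1 - e) := by
    have h3 := congrArg sw.symm hb₂e
    rw [map_mul, map_mul, RingEquiv.symm_apply_apply, hsymm_e] at h3
    exact h3.symm
  refine ⟨algebraMap B R h * e + sw.symm (algebraMap B R h') * (1 - e), ?_⟩
  rw [h54_idem_pow e _ _ he p hp0]
  have key : u - (algebraMap B R h ^ p * e + sw.symm (algebraMap B R h') ^ p * (1 - e)) =
      algebraMap B R (b₁ - h ^ p) * e + sw.symm (algebraMap B R (b₂ - h' ^ p)) * (1 - e) := by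
    have hdecomp : u = u * e + u * (1 - e) := by ring
    conv_lhs => rw [hdecomp, ← hb₁e, hue']
    simp only [map_sub, map_pow]
    ring
  rw [key]
  refine J.add_mem (J.mul_mem_right _ (hJmap _ ?_)) (J.mul_mem_right _ (hJsw _ ?_))
  · have h4 := (Ideal.span {ϖ * d, d ^ p}).neg_mem hb₁N
    rwa [neg_sub] at h4
  · have h4 := (Ideal.span {ϖ * d, d ^ p}).neg_mem hb₂N
    rwa [neg_sub] at h4

include he hbas0 hbas1 hx hϖ hsw hswϖ in
/-- **N1-CORE.** Total divisibility in `B`, `ϖ` and `c` nilpotent and fixed by the swap: a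
`u ∈ 1 + c R` whose norms `N(u)`, `N(sw u)` are `p`-th powers in `B` is a `p`-th power in `R`. -/
theorem h54_n1_core (hB : ∀ a b : B, a ∣ b ∨ b ∣ a) (hϖn : IsNilpotent ϖ) (c : B)
    (hc : IsNilpotent c) (hswc : sw (algebraMap B R c) = algebraMap B R c) (u : R)
    (hu : u - 1 ∈ Ideal.span {algebraMap B R c})
    (hN : ∃ h : B, Algebra.norm B u = h ^ p) (hN' : ∃ h' : B, Algebra.norm B (sw u) = h' ^ p) :
    ∃ g : R, u = g ^ p := by
  have hp : p.Prime := Fact.out
  obtain ⟨n₁, hn₁⟩ := hc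
  obtain ⟨n₂, hn₂⟩ := hϖn
  set n := n₁ + n₂ with hn
  have hcn : ∀ m, n ≤ m → c ^ m = 0 := fun m hm =>
    pow_eq_zero_of_le (le_trans (Nat.le_add_right _ _) hm) hn₁
  have hϖm : ∀ m, n ≤ m → ϖ ^ m = 0 := fun m hm =>
    pow_eq_zero_of_le (le_trans (Nat.le_add_left _ _) hm) hn₂
  have hnil : ∀ a b : ℕ, 1 ≤ b → IsNilpotent (ϖ ^ a * c ^ b) := fun a b hb =>
    ⟨n, by rw [mul_pow, ← pow_mul, ← pow_mul, hcn (b * n) (Nat.le_mul_of_pos_left n hb),
      mul_zero]⟩
  have key : ∀ k a b : ℕ, 1 ≤ b → 2 * n ≤ a + b + k → ∀ u : R,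
      u - 1 ∈ Ideal.span {algebraMap B R (ϖ ^ a * c ^ b)} →
      (∃ h : B, Algebra.norm B u = h ^ p) → (∃ h' : B, Algebra.norm B (sw u) = h' ^ p) →
      ∃ g : R, u = g ^ p := by
    intro k
    induction k with
    | zero =>
      intro a b hb hab u hu _ _
      have h0 : ϖ ^ a * c ^ b = 0 := by
        rcases le_or_gt n a with h | h
        · rw [hϖm a h, zero_mul]
        · rw [hcn b (by omega), mul_zero]
      rw [h0, map_zero] at hu
      obtain ⟨r, hr⟩ := Ideal.mem_span_singleton'.1 hu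
      rw [mul_zero] at hr
      exact ⟨1, by rw [one_pow]; exact (sub_eq_zero.1 hr.symm)⟩
    | succ k ih =>
      intro a b hb hab u hu hN hN'
      obtain ⟨h, hN⟩ := hN
      obtain ⟨h', hN'⟩ := hN'
      set d := ϖ ^ a * c ^ b with hd
      have hswd : sw (algebraMap B R d) = algebraMap B R d := by
        rw [hd, map_mul, map_pow, map_pow, map_mul, map_pow, map_pow, hswϖ, hswc]
      obtain ⟨g, hg⟩ := h54_n1_step p bas e x he hbas0 hbas1 j ϖ hx hϖ sw hsw hswϖ d hswd u hu
        h h' hN hN'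
      have hunit : IsUnit u := by
        have h1 : IsNilpotent (u - 1) := h54_nil_of_mem d (hnil a b hb) _ hu
        have h2 := h1.isUnit_add_one
        rwa [sub_add_cancel] at h2
      obtain ⟨a', b', hb', hab', hmem⟩ : ∃ a' b' : ℕ, 1 ≤ b' ∧ 2 * n ≤ a' + b' + k ∧
          u - g ^ p ∈ Ideal.span {algebraMap B R (ϖ ^ a' * c ^ b')} := by
        rcases hB (ϖ * d) (d ^ p) with hdiv | hdiv
        · refine ⟨a + 1, b, hb, by omega, ?_⟩
          have e1 : ϖ ^ (a + 1) * c ^ b = ϖ * d := by rw [hd]; ring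
          rw [e1]
          refine (Ideal.span_le.2 ?_) hg
          intro z hz
          rw [Set.mem_insert_iff, Set.mem_singleton_iff] at hz
          rw [SetLike.mem_coe]
          rcases hz with rfl | rfl
          · exact Ideal.mem_span_singleton_self _
          · exact Ideal.mem_span_singleton.2 (map_dvd (algebraMap B R) hdiv)
        · refine ⟨a * p, b * p, ?_, ?_, ?_⟩
          · have h2 := hp.two_le
            nlinarith
          · have h2 := hp.two_le
            nlinarith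
          · have e1 : ϖ ^ (a * p) * c ^ (b * p) = d ^ p := by
              rw [hd, mul_pow, ← pow_mul, ← pow_mul]
            rw [e1]
            refine (Ideal.span_le.2 ?_) hg
            intro z hz
            rw [Set.mem_insert_iff, Set.mem_singleton_iff] at hz
            rw [SetLike.mem_coe]
            rcases hz with rfl | rfl
            · exact Ideal.mem_span_singleton.2 (map_dvd (algebraMap B R) hdiv)
            · exact Ideal.mem_span_singleton_self _
      have hgp : IsUnit (g ^ p) := by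
        have h1 : IsNilpotent (u - g ^ p) := h54_nil_of_mem _ (hnil a' b' hb') _ hmem
        have h2 := h1.neg.isUnit_add_left_of_commute hunit (Commute.all _ _)
        have e2 : u + -(u - g ^ p) = g ^ p := by ring
        rwa [e2] at h2
      have hgu : IsUnit g := (isUnit_pow_iff hp.ne_zero).1 hgp
      obtain ⟨γ, hγ⟩ := hgu.exists_left_inv
      have hγp : γ ^ p * g ^ p = 1 := by rw [← mul_pow, hγ, one_pow]
      have hu'1 : u * γ ^ p - 1 ∈ Ideal.span {algebraMap B R (ϖ ^ a' * c ^ b')} := by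
        have e3 : u * γ ^ p - 1 = (u - g ^ p) * γ ^ p := by
          rw [sub_mul, mul_comm (g ^ p), hγp]
        rw [e3]
        exact Ideal.mul_mem_right _ _ hmem
      have hNu' : ∃ h₁ : B, Algebra.norm B (u * γ ^ p) = h₁ ^ p :=
        ⟨h * Algebra.norm B γ, by rw [map_mul, map_pow, hN, mul_pow]⟩
      have hNu'' : ∃ h₁ : B, Algebra.norm B (sw (u * γ ^ p)) = h₁ ^ p :=
        ⟨h' * Algebra.norm B (sw γ), by
          rw [map_mul sw, map_pow sw, map_mul, map_pow, hN', mul_pow]⟩
      obtain ⟨g', hg'⟩ := ih a' b' hb' hab' (u * γ ^ p) hu'1 hNu' hNu''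
      refine ⟨g' * g, ?_⟩
      rw [mul_pow, ← hg', mul_assoc, hγp, mul_one]
  exact key (2 * n) 0 1 le_rfl (by omega) u (by simpa using hu) hN hN'

end Core

end Fermat.Agent.S33
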