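import Mathlib
import Fermat.Agent.S18.Defs
import Fermat.Agent.S18.GR_RedAPI
import Fermat.Agent.S34.h44_KummerSplit
import Fermat.Agent.S34.h44_KummerTower

/-!
# S33 / (N2) COVER: complete splitting of reduction data in WILD Kummer extensions of exponent `p`
(helper68)

`(R j)_{j ∈ J}` a family of S18 reduction data on `F`, residue characteristic `p`, `ζ ∈ K` a
primitive `p`-th root of unity, `F' = F(θ₁, …, θ_r)` with `θ_i ^ p = 1 + (ζ - 1)^p * π * h_i`,
`π` a non-unit constant, `h_i` integral at every `R j` (the DEEP NORMAL FORM of the Kummer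
functions of formal new classes).  Then every `(R j).O` splits completely in `F'`: with the
Artin–Schreier generators `y_i = (θ_i - 1) / (ζ - 1) + a` (`a` a constant whose residue is not in
`𝔽_p`) the conclusion is literally helper44's `h44_KummerSplitConcl R F' (Set.range y)`.

* `h68_constStep`: split step with constant roots (instance of `h44_splitStep`):
  `∏ (y - r i) = g` with `r i` constants with pairwise distinct residues and `g` in the maximal
  ideal.
* `h68_wildStep`, `h68_wildStep_one`: the step for a wild generator of degree `p`, resp. `1`.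
* `h68_wildSplit_step`, `h68_wildSplit_finset`, `h68_wildSplit`: the tower.
-/

set_option autoImplicit false

noncomputable section

namespace Fermat.Agent.S33

open Polynomial IntermediateField Fermat.Agent.S18 Fermat.Agent.S34

universe u

section Step

variable {K F F' k Fb : Type*} [Field K] [Field F] [Algebra K F] [Field F'] [Algebra K F']
  [Algebra F F'] [IsScalarTower K F F'] [Field k] [Field Fb] [Algebra k Fb]

/-- **Split step with constant roots.**  `∏ i, (y - r i) = g`, the `r i` constants of `R.A` with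
pairwise distinct residues, `g` in the maximal ideal of `R.O`: `R.O` splits completely in
`F' = F(y)`. -/
theorem h68_constStep (R : h39_RedDatum K F k Fb) (hA1 : h39_RankOne R.A)
    (y : F') (n : ℕ) (r : Fin n → K) (hr : ∀ i, r i ∈ R.A)
    (hinj : Function.Injective fun i => R.resK (r i))
    (g : F) (hg : g ∈ R.O) (hg0 : R.redF g = 0)
    (hy : ∏ i, (y - algebraMap K F' (r i)) = algebraMap F F' g)
    (hspan : ∀ f : F', ∃ c : Fin n → F, f = ∑ l, algebraMap F F' (c l) * y ^ (l : ℕ))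
    (hli : ∀ c : Fin n → F, ∑ l, algebraMap F F' (c l) * y ^ (l : ℕ) = 0 → ∀ l, c l = 0) :
    ∃ R' : Fin n → h39_RedDatum K F' k Fb,
      (∀ i, (R' i).A = R.A) ∧ (∀ i a, (R' i).resK a = R.resK a) ∧
      (∀ i (f : F), algebraMap F F' f ∈ (R' i).O ↔ f ∈ R.O) ∧
      (∀ i (f : F), (R' i).redF (algebraMap F F' f) = R.redF f) ∧
      (∀ i, y ∈ (R' i).O ∧ (R' i).redF y = algebraMap k Fb (R.resK (r i))) ∧
      (∀ i j, i ≠ j → ¬ (R' i).O ≤ (R' j).O) ∧
      (∀ O' : ValuationSubring F', (∀ f : F, algebraMap F F' f ∈ O' ↔ f ∈ R.O) →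
        ∃ i, O' = (R' i).O) ∧
      (∀ c : Fin n → F, (∀ i, ∑ l, algebraMap F F' (c l) * y ^ (l : ℕ) ∈ (R' i).O) ↔
        ∀ l, c l ∈ R.O) := by
  classical
  have hn : 0 < n := by
    apply Nat.pos_of_ne_zero
    rintro rfl
    rw [Finset.univ_eq_empty, Finset.prod_empty] at hy
    have h1 : g = 1 := by
      apply (algebraMap F F').injective
      rw [← hy, map_one]
    rw [h1, h39_redF_one] at hg0
    exact one_ne_zero hg0
  have hrO : ∀ i, algebraMap K F (r i) ∈ R.O := fun i => (R.mem_iff _).mp (hr i)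
  set P : Polynomial R.O := ∏ i, (X - C (⟨algebraMap K F (r i), hrO i⟩ : R.O)) with hP
  have hPmon : P.Monic := monic_prod_of_monic _ _ (fun i _ => monic_X_sub_C _)
  have hPdeg : P.natDegree = n := by
    rw [hP, natDegree_prod_of_monic _ _ (fun i _ => monic_X_sub_C _)]
    simp
  let Φ : Polynomial R.O := P - C (⟨g, hg⟩ : R.O)
  have hlt : (C (⟨g, hg⟩ : R.O)).natDegree < P.natDegree := by
    rw [natDegree_C, hPdeg]
    exact hn
  have hmon : Φ.Monic := by
    apply Monic.sub_of_left hPmon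
    exact degree_lt_degree hlt
  have hdeg : Φ.natDegree = n := by
    change (P - C (⟨g, hg⟩ : R.O)).natDegree = n
    rw [natDegree_sub_eq_left_of_natDegree_lt hlt, hPdeg]
  have hroot : Φ.eval₂ ((algebraMap F F').comp R.O.subtype) y = 0 := by
    change (P - C (⟨g, hg⟩ : R.O)).eval₂ ((algebraMap F F').comp R.O.subtype) y = 0
    rw [eval₂_sub, eval₂_C, hP, eval₂_finsetProd]
    have e1 : ∀ i : Fin n, (X - C (⟨algebraMap K F (r i), hrO i⟩ : R.O)).eval₂
        ((algebraMap F F').comp R.O.subtype) y = y - algebraMap K F' (r i) := by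
      intro i
      rw [eval₂_sub, eval₂_X, eval₂_C]
      change y - algebraMap F F' (algebraMap K F (r i)) = _
      rw [← IsScalarTower.algebraMap_apply K F F']
    rw [Finset.prod_congr rfl (fun i _ => e1 i), hy]
    exact sub_self _
  let β : Fin n → Fb := fun i => algebraMap k Fb (R.resK (r i))
  have hβ : Function.Injective β := fun i j hij => hinj ((algebraMap k Fb).injective hij)
  have hprod : Φ.map R.red = ∏ i, (X - C (β i)) := by
    change (P - C (⟨g, hg⟩ : R.O)).map R.red = _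
    rw [Polynomial.map_sub, Polynomial.map_C, ← R.redF_of_mem hg, hg0, map_zero, sub_zero, hP,
      Polynomial.map_prod]
    refine Finset.prod_congr rfl fun i _ => ?_
    rw [Polynomial.map_sub, Polynomial.map_X, Polynomial.map_C, ← R.redF_of_mem (hrO i),
      h39_redF_algebraMap R (hr i)]
  exact h44_splitStep R hA1 y n Φ hmon hdeg hroot hspan hli β hβ hprod

/-- The constants `r_i = (ζ^i - 1) / (ζ - 1) + a` (the roots of the Artin–Schreier-type equation
of `y = (θ - 1)/(ζ - 1) + a`). -/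
def h68_root (ζ a : K) (i : ℕ) : K := (ζ ^ i - 1) * (ζ - 1)⁻¹ + a

section Consts

variable (R : h39_RedDatum K F k Fb) (p : ℕ) [hp : Fact p.Prime] [CharP k p]
  (ζ : K) (hζ : IsPrimitiveRoot ζ p)

include hζ

theorem h68_zeta_mem : ζ ∈ R.A := by
  rw [← ValuationSubring.valuation_le_one_iff]
  have h1 : R.A.valuation ζ ^ p ≤ 1 := by
    rw [← map_pow, hζ.pow_eq_one, map_one]
  exact (pow_le_one_iff_of_nonneg zero_le hp.out.ne_zero).mp h1

theorem h68_res_zeta : R.res ⟨ζ, h68_zeta_mem R p ζ hζ⟩ = 1 := by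
  have h1 : (R.res ⟨ζ, h68_zeta_mem R p ζ hζ⟩) ^ p = 1 := by
    rw [← map_pow]
    have e : (⟨ζ, h68_zeta_mem R p ζ hζ⟩ : R.A) ^ p = 1 := Subtype.ext hζ.pow_eq_one
    rw [e, map_one]
  have h2 : (R.res ⟨ζ, h68_zeta_mem R p ζ hζ⟩ - 1) ^ p = 0 := by
    rw [sub_pow_char, h1, one_pow, sub_self]
  exact sub_eq_zero.mp (pow_eq_zero_iff hp.out.ne_zero |>.mp h2)

theorem h68_root_eq (a : K) (i : ℕ) :
    h68_root ζ a i = ∑ t ∈ Finset.range i, ζ ^ t + a := by
  have h1 : ζ ≠ 1 := hζ.ne_one hp.out.one_lt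
  rw [h68_root, geom_sum_eq h1, div_eq_mul_inv]

theorem h68_root_mem (a : K) (ha : a ∈ R.A) (i : ℕ) : h68_root ζ a i ∈ R.A := by
  rw [h68_root_eq p ζ hζ]
  exact R.A.add_mem _ _ (R.A.sum_mem fun t _ => R.A.pow_mem (h68_zeta_mem R p ζ hζ) t) ha

theorem h68_res_root (a : K) (ha : a ∈ R.A) (i : ℕ) :
    R.resK (h68_root ζ a i) = (i : k) + R.resK a := by
  have e : (⟨h68_root ζ a i, h68_root_mem R p ζ hζ a ha i⟩ : R.A)
      = ∑ t ∈ Finset.range i, (⟨ζ, h68_zeta_mem R p ζ hζ⟩ : R.A) ^ t + ⟨a, ha⟩ := by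
    apply Subtype.ext
    change h68_root ζ a i = _
    rw [h68_root_eq p ζ hζ]
    push_cast
    rfl
  rw [R.resK_of_mem (h68_root_mem R p ζ hζ a ha i), e, map_add, map_sum, R.resK_of_mem ha]
  simp only [map_pow, h68_res_zeta R p ζ hζ, one_pow, Finset.sum_const, Finset.card_range,
    nsmul_eq_mul, mul_one]

theorem h68_res_root_ne_zero (a : K) (ha : a ∈ R.A) (ha' : R.resK a ^ p ≠ R.resK a) (i : ℕ) :
    R.resK (h68_root ζ a i) ≠ 0 := by
  rw [h68_res_root R p ζ hζ a ha]
  intro h0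
  apply ha'
  have e : R.resK a = ((i * (p - 1) : ℕ) : k) := by
    have h1 : R.resK a = -(i : k) := by linear_combination h0
    have hp1 : 1 ≤ p := hp.out.one_lt.le
    rw [h1, Nat.cast_mul, Nat.cast_sub hp1, CharP.cast_eq_zero k p]
    simp
  rw [e]
  have h2 := map_natCast (frobenius k p) (i * (p - 1))
  rwa [frobenius_def] at h2

theorem h68_res_root_injective (a : K) (ha : a ∈ R.A) :
    Function.Injective fun i : Fin p => R.resK (h68_root ζ a (i : ℕ)) := by
  intro i j hij
  simp only [h68_res_root R p ζ hζ a ha] at hij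
  have h1 : ((i : ℕ) : k) = ((j : ℕ) : k) := add_right_cancel hij
  exact Fin.ext (CharP.natCast_injOn_Iio k p i.2 j.2 h1)

/-- The Artin–Schreier-type equation of `y = (θ - 1)/(ζ - 1) + a`. -/
theorem h68_prod_eq (a : K) (θ : F') :
    ∏ i : Fin p, ((θ - 1) * algebraMap K F' (ζ - 1)⁻¹ + algebraMap K F' a
        - algebraMap K F' (h68_root ζ a (i : ℕ)))
      = (θ ^ p - 1) * algebraMap K F' ((ζ - 1)⁻¹ ^ p) := by
  have hζ' : IsPrimitiveRoot (algebraMap K F' ζ) p :=
    hζ.map_of_injective (algebraMap K F').injective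
  have h1 : ∀ i : Fin p, (θ - 1) * algebraMap K F' (ζ - 1)⁻¹ + algebraMap K F' a
      - algebraMap K F' (h68_root ζ a (i : ℕ))
      = (θ - algebraMap K F' ζ ^ (i : ℕ)) * algebraMap K F' (ζ - 1)⁻¹ := by
    intro i
    rw [h68_root, map_add, map_mul, map_sub, map_pow, map_one]
    ring
  rw [Finset.prod_congr rfl (fun i _ => h1 i), Finset.prod_mul_distrib, Finset.prod_const,
    Finset.card_univ, Fintype.card_fin, ← map_pow]
  congr 1
  have h2 := X_pow_sub_C_eq_prod hζ' hp.out.pos (one_pow p)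
  have h3 := congrArg (Polynomial.eval θ) h2
  rw [eval_sub, eval_pow, eval_X, eval_C, eval_prod] at h3
  rw [h3, Fin.prod_univ_eq_prod_range (fun i : ℕ => θ - algebraMap K F' ζ ^ i) p]
  refine Finset.prod_congr rfl fun i _ => ?_
  rw [eval_sub, eval_X, eval_C, mul_one]

end Consts

/-- **Wild step, degree `p`.**  `θ ^ p = 1 + (ζ - 1)^p π h` with `π` a non-unit constant and `h`
integral, `y = (θ - 1)/(ζ - 1) + a` with power basis `1, …, y^(p-1)`: `R.O` splits completely in
`F' = F(y) = F(θ)`, and `y` has nonzero constant reductions, pairwise distinct on the sheets. -/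
theorem h68_wildStep (R : h39_RedDatum K F k Fb) (hA1 : h39_RankOne R.A) (p : ℕ)
    [hp : Fact p.Prime] [CharP k p] (ζ : K) (hζ : IsPrimitiveRoot ζ p) (a : K) (ha : a ∈ R.A)
    (ha' : R.resK a ^ p ≠ R.resK a) (π : K) (hπ : π ∈ R.A) (hπ0 : R.resK π = 0) (h : F)
    (hh : h ∈ R.O) (θ : F')
    (hθ : θ ^ p = algebraMap F F' (1 + algebraMap K F ((ζ - 1) ^ p * π) * h))
    (y : F') (hy : y = (θ - 1) * algebraMap K F' (ζ - 1)⁻¹ + algebraMap K F' a)
    (hspan : ∀ f : F', ∃ c : Fin p → F, f = ∑ l, algebraMap F F' (c l) * y ^ (l : ℕ))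
    (hli : ∀ c : Fin p → F, ∑ l, algebraMap F F' (c l) * y ^ (l : ℕ) = 0 → ∀ l, c l = 0) :
    ∃ R' : Fin p → h39_RedDatum K F' k Fb,
      (∀ i, (R' i).A = R.A) ∧ (∀ i a, (R' i).resK a = R.resK a) ∧
      (∀ i (f : F), algebraMap F F' f ∈ (R' i).O ↔ f ∈ R.O) ∧
      (∀ i (f : F), (R' i).redF (algebraMap F F' f) = R.redF f) ∧
      (∀ i, y ∈ (R' i).O ∧ ∃ ξ : k, ξ ≠ 0 ∧ (R' i).redF y = algebraMap k Fb ξ) ∧
      (∀ i j, i ≠ j → (R' i).redF y ≠ (R' j).redF y) ∧
      (∀ i j, i ≠ j → ¬ (R' i).O ≤ (R' j).O) ∧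
      (∀ O' : ValuationSubring F', (∀ f : F, algebraMap F F' f ∈ O' ↔ f ∈ R.O) →
        ∃ i, O' = (R' i).O) ∧
      (∀ c : Fin p → F, (∀ i, ∑ l, algebraMap F F' (c l) * y ^ (l : ℕ) ∈ (R' i).O) ↔
        ∀ l, c l ∈ R.O) := by
  have hlam : ζ - 1 ≠ 0 := sub_ne_zero.mpr (hζ.ne_one hp.out.one_lt)
  have hg : algebraMap K F π * h ∈ R.O := R.O.mul_mem _ _ ((R.mem_iff π).mp hπ) hh
  have hg0 : R.redF (algebraMap K F π * h) = 0 := by
    rw [h39_redF_mul R ((R.mem_iff π).mp hπ) hh, h39_redF_algebraMap R hπ, hπ0, map_zero,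
      zero_mul]
  have hprod : ∏ i : Fin p, (y - algebraMap K F' (h68_root ζ a (i : ℕ)))
      = algebraMap F F' (algebraMap K F π * h) := by
    have e1 : algebraMap F F' (1 + algebraMap K F ((ζ - 1) ^ p * π) * h) - 1
        = algebraMap F F' (algebraMap K F ((ζ - 1) ^ p * π) * h) := by
      rw [map_add, map_one, add_sub_cancel_left]
    have e2 : (ζ - 1) ^ p * π * (ζ - 1)⁻¹ ^ p = π := by
      rw [inv_pow, mul_right_comm, mul_inv_cancel₀ (pow_ne_zero p hlam), one_mul]
    rw [hy, h68_prod_eq p ζ hζ a θ, hθ, e1,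
      IsScalarTower.algebraMap_apply K F F' ((ζ - 1)⁻¹ ^ p), ← map_mul, mul_right_comm,
      ← map_mul, e2]
  obtain ⟨R', h1, h2, h3, h4, h5, h6, h7, h8⟩ :=
    h68_constStep R hA1 y p (fun i => h68_root ζ a (i : ℕ))
      (fun i => h68_root_mem R p ζ hζ a ha i) (h68_res_root_injective R p ζ hζ a ha)
      (algebraMap K F π * h) hg hg0 hprod hspan hli
  refine ⟨R', h1, h2, h3, h4, ?_, ?_, h6, h7, h8⟩
  · intro i
    exact ⟨(h5 i).1, _, h68_res_root_ne_zero R p ζ hζ a ha ha' i, (h5 i).2⟩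
  · intro i j hij hE
    rw [(h5 i).2, (h5 j).2] at hE
    exact hij (h68_res_root_injective R p ζ hζ a ha ((algebraMap k Fb).injective hE))

/-- **Wild step, degree `1`.**  Same data, but `y` already lies in `F` (power basis of length
`1`): the datum extends uniquely, and `y` has a nonzero constant reduction. -/
theorem h68_wildStep_one (R : h39_RedDatum K F k Fb) (hA1 : h39_RankOne R.A) (p : ℕ)
    [hp : Fact p.Prime] [CharP k p] (ζ : K) (hζ : IsPrimitiveRoot ζ p) (a : K) (ha : a ∈ R.A)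
    (ha' : R.resK a ^ p ≠ R.resK a) (π : K) (hπ : π ∈ R.A) (hπ0 : R.resK π = 0) (h : F)
    (hh : h ∈ R.O) (θ : F')
    (hθ : θ ^ p = algebraMap F F' (1 + algebraMap K F ((ζ - 1) ^ p * π) * h))
    (y : F') (hy : y = (θ - 1) * algebraMap K F' (ζ - 1)⁻¹ + algebraMap K F' a)
    (hspan : ∀ f : F', ∃ c : Fin 1 → F, f = ∑ l, algebraMap F F' (c l) * y ^ (l : ℕ))
    (hli : ∀ c : Fin 1 → F, ∑ l, algebraMap F F' (c l) * y ^ (l : ℕ) = 0 → ∀ l, c l = 0) :
    ∃ R' : Fin 1 → h39_RedDatum K F' k Fb,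
      (∀ i, (R' i).A = R.A) ∧ (∀ i a, (R' i).resK a = R.resK a) ∧
      (∀ i (f : F), algebraMap F F' f ∈ (R' i).O ↔ f ∈ R.O) ∧
      (∀ i (f : F), (R' i).redF (algebraMap F F' f) = R.redF f) ∧
      (∀ i, y ∈ (R' i).O ∧ ∃ ξ : k, ξ ≠ 0 ∧ (R' i).redF y = algebraMap k Fb ξ) ∧
      (∀ i j, i ≠ j → (R' i).redF y ≠ (R' j).redF y) ∧
      (∀ i j, i ≠ j → ¬ (R' i).O ≤ (R' j).O) ∧
      (∀ O' : ValuationSubring F', (∀ f : F, algebraMap F F' f ∈ O' ↔ f ∈ R.O) →
        ∃ i, O' = (R' i).O) ∧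
      (∀ c : Fin 1 → F, (∀ i, ∑ l, algebraMap F F' (c l) * y ^ (l : ℕ) ∈ (R' i).O) ↔
        ∀ l, c l ∈ R.O) := by
  classical
  have hlam : ζ - 1 ≠ 0 := sub_ne_zero.mpr (hζ.ne_one hp.out.one_lt)
  have hg : algebraMap K F π * h ∈ R.O := R.O.mul_mem _ _ ((R.mem_iff π).mp hπ) hh
  have hg0 : R.redF (algebraMap K F π * h) = 0 := by
    rw [h39_redF_mul R ((R.mem_iff π).mp hπ) hh, h39_redF_algebraMap R hπ, hπ0, map_zero,
      zero_mul]
  have hprod : ∏ i : Fin p, (y - algebraMap K F' (h68_root ζ a (i : ℕ)))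
      = algebraMap F F' (algebraMap K F π * h) := by
    have e1 : algebraMap F F' (1 + algebraMap K F ((ζ - 1) ^ p * π) * h) - 1
        = algebraMap F F' (algebraMap K F ((ζ - 1) ^ p * π) * h) := by
      rw [map_add, map_one, add_sub_cancel_left]
    have e2 : (ζ - 1) ^ p * π * (ζ - 1)⁻¹ ^ p = π := by
      rw [inv_pow, mul_right_comm, mul_inv_cancel₀ (pow_ne_zero p hlam), one_mul]
    rw [hy, h68_prod_eq p ζ hζ a θ, hθ, e1,
      IsScalarTower.algebraMap_apply K F F' ((ζ - 1)⁻¹ ^ p), ← map_mul, mul_right_comm,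
      ← map_mul, e2]
  -- `y` comes from `F`
  obtain ⟨c, hc⟩ := hspan y
  rw [Fin.sum_univ_one, Fin.val_zero, pow_zero, mul_one] at hc
  set y₀ : F := c 0 with hy₀
  have hrO : ∀ i : ℕ, algebraMap K F (h68_root ζ a i) ∈ R.O :=
    fun i => (R.mem_iff _).mp (h68_root_mem R p ζ hζ a ha i)
  have hprodF : ∏ i : Fin p, (y₀ - algebraMap K F (h68_root ζ a (i : ℕ)))
      = algebraMap K F π * h := by
    apply (algebraMap F F').injective
    rw [← hprod, map_prod]
    refine Finset.prod_congr rfl fun i _ => ?_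
    rw [map_sub, ← hc, ← IsScalarTower.algebraMap_apply K F F']
  -- `y₀` is integral at `R`
  have hy₀O : y₀ ∈ R.O := by
    by_contra hn
    have hv : 1 < R.O.valuation y₀ := by
      rw [← ValuationSubring.valuation_le_one_iff] at hn
      exact not_le.mp hn
    have h1 : ∀ i : Fin p, R.O.valuation (y₀ - algebraMap K F (h68_root ζ a (i : ℕ)))
        = R.O.valuation y₀ := by
      intro i
      apply Valuation.map_sub_eq_of_lt_left
      exact lt_of_le_of_lt ((ValuationSubring.valuation_le_one_iff _ _).mpr (hrO i)) hv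
    have h2 : R.O.valuation (algebraMap K F π * h) = R.O.valuation y₀ ^ p := by
      rw [← hprodF, map_prod, Finset.prod_congr rfl (fun i _ => h1 i), Finset.prod_const,
        Finset.card_univ, Fintype.card_fin]
    have h3 : R.O.valuation y₀ ^ p ≤ 1 := by
      rw [← h2]
      exact (ValuationSubring.valuation_le_one_iff _ _).mpr hg
    exact absurd ((pow_le_one_iff_of_nonneg zero_le hp.out.ne_zero).mp h3) (not_le.mpr hv)
  -- its reduction is one of the roots
  have hred : ∏ i : Fin p, (R.redF y₀ - R.redF (algebraMap K F (h68_root ζ a (i : ℕ)))) = 0 := by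
    have e1 : (⟨algebraMap K F π * h, hg⟩ : R.O)
        = ∏ i : Fin p, ((⟨y₀, hy₀O⟩ : R.O) - ⟨algebraMap K F (h68_root ζ a (i : ℕ)), hrO i⟩) := by
      apply Subtype.ext
      change algebraMap K F π * h = R.O.subtype (∏ i : Fin p, _)
      rw [map_prod, ← hprodF]
      rfl
    have e2 : R.red (⟨algebraMap K F π * h, hg⟩ : R.O) = 0 := by
      rw [← R.redF_of_mem hg]
      exact hg0
    rw [e1, map_prod] at e2
    rw [← e2]
    refine Finset.prod_congr rfl fun i _ => ?_
    rw [map_sub, R.redF_of_mem hy₀O, R.redF_of_mem (hrO i)]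
  obtain ⟨i₀, -, hi₀⟩ := Finset.prod_eq_zero_iff.mp hred
  have hg' : y₀ - algebraMap K F (h68_root ζ a (i₀ : ℕ)) ∈ R.O := sub_mem hy₀O (hrO i₀)
  have hg'0 : R.redF (y₀ - algebraMap K F (h68_root ζ a (i₀ : ℕ))) = 0 := by
    rw [h39_redF_sub R hy₀O (hrO i₀)]
    exact hi₀
  have hy1 : ∏ _i : Fin 1, (y - algebraMap K F' (h68_root ζ a (i₀ : ℕ)))
      = algebraMap F F' (y₀ - algebraMap K F (h68_root ζ a (i₀ : ℕ))) := by
    rw [Fin.prod_univ_one, map_sub, ← hc, ← IsScalarTower.algebraMap_apply K F F']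
  obtain ⟨R', h1, h2, h3, h4, h5, h6, h7, h8⟩ :=
    h68_constStep R hA1 y 1 (fun _ => h68_root ζ a (i₀ : ℕ))
      (fun _ => h68_root_mem R p ζ hζ a ha i₀) (fun i j _ => Subsingleton.elim i j)
      (y₀ - algebraMap K F (h68_root ζ a (i₀ : ℕ))) hg' hg'0 hy1 hspan hli
  refine ⟨R', h1, h2, h3, h4, ?_, ?_, h6, h7, h8⟩
  · intro i
    exact ⟨(h5 i).1, _, h68_res_root_ne_zero R p ζ hζ a ha ha' i₀, (h5 i).2⟩
  · intro i j hij
    exact absurd (Subsingleton.elim i j) hij

end Step

section Tower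

variable {K F k : Type*} [Field K] [Field F] [Algebra K F] [Field k]
  {J : Type*} {Fb : J → Type*} [∀ j, Field (Fb j)] [∀ j, Algebra k (Fb j)]

/-- Inductive step: one more wild generator `θ`, `θ ^ p = 1 + (ζ - 1)^p π h`; the generator added
to the list is `y = (θ - 1)/(ζ - 1) + a`. -/
theorem h68_wildSplit_step (R : ∀ j, h39_RedDatum K F k (Fb j))
    (hA1 : ∀ j, h39_RankOne (R j).A) (p : ℕ) [hp : Fact p.Prime] [CharP k p] (ζ : K)
    (hζ : IsPrimitiveRoot ζ p) (a : K)
    (ha : ∀ j, a ∈ (R j).A ∧ (R j).resK a ^ p ≠ (R j).resK a)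
    (π : K) (hπ : ∀ j, π ∈ (R j).A ∧ (R j).resK π = 0)
    {F' : Type u} [Field F'] [Algebra K F'] [Algebra F F'] [IsScalarTower K F F']
    (E : IntermediateField F F') (T₀ : Set E) (h0 : h44_KummerSplitConcl R E T₀) (θ : F')
    (htop : IntermediateField.adjoin E ({θ} : Set F') = ⊤) (h : F) (hh : ∀ j, h ∈ (R j).O)
    (hθ : θ ^ p = algebraMap F F' (1 + algebraMap K F ((ζ - 1) ^ p * π) * h)) :
    h44_KummerSplitConcl R F'
      (insert ((θ - 1) * algebraMap K F' (ζ - 1)⁻¹ + algebraMap K F' a)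
        ((fun x : E => (x : F')) '' T₀)) := by
  classical
  obtain ⟨Ω₀, hΩ₀, B₀, hB₀, b₀, hcard, hspan₀, hli₀, hmon₀, R₀, c1, c2, c3, c4, c5, csep, c6, c7,
    c8⟩ := h0
  let _ : Fintype Ω₀ := hΩ₀
  let _ : Fintype B₀ := hB₀
  have : IsScalarTower K E F' := IsScalarTower.of_algebraMap_eq (fun a => rfl)
  have hpp : p.Prime := hp.out
  have hlam : ζ - 1 ≠ 0 := sub_ne_zero.mpr (hζ.ne_one hpp.one_lt)
  set y : F' := (θ - 1) * algebraMap K F' (ζ - 1)⁻¹ + algebraMap K F' a with hy
  -- the equation over `E`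
  have hθE : θ ^ p = algebraMap E F'
      (1 + algebraMap K E ((ζ - 1) ^ p * π) * algebraMap F E h) := by
    rw [hθ]
    change algebraMap F F' _ = algebraMap E F' _
    rw [IsScalarTower.algebraMap_apply F E F']
    congr 1
    rw [map_add, map_one, map_mul, ← IsScalarTower.algebraMap_apply K F E]
  have hconst : ∀ x : K, algebraMap K F' x = algebraMap E F' (algebraMap K E x) := fun x => rfl
  -- integrality and degrees
  have hintθ : IsIntegral E θ := by
    refine ⟨X ^ p - C (1 + algebraMap K E ((ζ - 1) ^ p * π) * algebraMap F E h),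
      monic_X_pow_sub_C _ hpp.ne_zero, ?_⟩
    rw [eval₂_sub, eval₂_pow, eval₂_X, eval₂_C, hθE, sub_self]
  have hinty : IsIntegral E y := by
    rw [hy, hconst, hconst]
    exact ((hintθ.sub isIntegral_one).mul isIntegral_algebraMap).add isIntegral_algebraMap
  have htopy : IntermediateField.adjoin E ({y} : Set F') = ⊤ := by
    rw [eq_top_iff, ← htop, IntermediateField.adjoin_le_iff, Set.singleton_subset_iff]
    have h1 : θ = 1 + algebraMap E F' (algebraMap K E (ζ - 1))
        * (y - algebraMap E F' (algebraMap K E a)) := by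
      rw [hy, ← hconst, ← hconst, map_inv₀]
      have h2 : algebraMap K F' (ζ - 1) ≠ 0 := (_root_.map_ne_zero _).mpr hlam
      field_simp
      ring
    have hyE : y ∈ E⟮y⟯ := IntermediateField.mem_adjoin_simple_self E y
    change θ ∈ E⟮y⟯
    rw [h1]
    exact add_mem (one_mem _) (mul_mem (IntermediateField.algebraMap_mem _ _)
      (sub_mem hyE (IntermediateField.algebraMap_mem _ _)))
  have hdeg : (minpoly E y).natDegree = (minpoly E θ).natDegree := by
    rw [← IntermediateField.adjoin.finrank hinty, ← IntermediateField.adjoin.finrank hintθ,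
      htopy, htop]
  have hdθ : (minpoly E θ).natDegree = 1 ∨ (minpoly E θ).natDegree = p := by
    by_cases hθ0 : θ = 0
    · left
      rw [hθ0, minpoly.zero, natDegree_X]
    · have hζE : IsPrimitiveRoot (algebraMap K E ζ) p :=
        hζ.map_of_injective (algebraMap K E).injective
      obtain ⟨d, v, -, hdp, -, hnat⟩ := h44_kummer_degree p hpp.pos _ hζE θ hθ0 _ hθE
      rw [hnat]
      exact (Nat.dvd_prime hpp).mp hdp
  obtain ⟨d, hd1p, hnat⟩ : ∃ d : ℕ, (d = 1 ∨ d = p) ∧ (minpoly E y).natDegree = d :=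
    ⟨_, by rw [hdeg]; exact hdθ, rfl⟩
  have hspan := h44_span_of_natDegree y hinty d hnat htopy
  have hli := h44_li_of_natDegree (E := E) y d hnat
  have step : ∀ j w, ∃ R' : Fin d → h39_RedDatum K F' k (Fb j),
      (∀ i, (R' i).A = (R₀ j w).A) ∧ (∀ i a, (R' i).resK a = (R₀ j w).resK a) ∧
      (∀ i (f : E), algebraMap E F' f ∈ (R' i).O ↔ f ∈ (R₀ j w).O) ∧
      (∀ i (f : E), (R' i).redF (algebraMap E F' f) = (R₀ j w).redF f) ∧
      (∀ i, y ∈ (R' i).O ∧ ∃ ξ : k, ξ ≠ 0 ∧ (R' i).redF y = algebraMap k (Fb j) ξ) ∧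
      (∀ i i', i ≠ i' → (R' i).redF y ≠ (R' i').redF y) ∧
      (∀ i i', i ≠ i' → ¬ (R' i).O ≤ (R' i').O) ∧
      (∀ O' : ValuationSubring F', (∀ f : E, algebraMap E F' f ∈ O' ↔ f ∈ (R₀ j w).O) →
        ∃ i, O' = (R' i).O) ∧
      (∀ c : Fin d → E, (∀ i, ∑ l, algebraMap E F' (c l) * y ^ (l : ℕ) ∈ (R' i).O) ↔
        ∀ l, c l ∈ (R₀ j w).O) := by
    intro j w
    have hA : h39_RankOne (R₀ j w).A := by
      rw [c1 j w]
      exact hA1 j
    have haA : a ∈ (R₀ j w).A := by
      rw [c1 j w]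
      exact (ha j).1
    have haR : (R₀ j w).resK a ^ p ≠ (R₀ j w).resK a := by
      rw [c2 j w a]
      exact (ha j).2
    have hπA : π ∈ (R₀ j w).A := by
      rw [c1 j w]
      exact (hπ j).1
    have hπR : (R₀ j w).resK π = 0 := by
      rw [c2 j w π]
      exact (hπ j).2
    have hhO : algebraMap F E h ∈ (R₀ j w).O := (c3 j w h).mpr (hh j)
    rcases hd1p with rfl | rfl
    · exact h68_wildStep_one (R₀ j w) hA p ζ hζ a haA haR π hπA hπR (algebraMap F E h) hhO θ hθE
        y hy hspan hli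
    · exact h68_wildStep (R₀ j w) hA d ζ hζ a haA haR π hπA hπR (algebraMap F E h) hhO θ hθE
        y hy hspan hli
  choose R₁ s1 s2 s3 s4 s5 s6 s7 s8 s9 using step
  -- resummation
  have hsum : ∀ c : B₀ × Fin d → F,
      ∑ q, algebraMap F F' (c q) * (algebraMap E F' (b₀ q.1) * y ^ (q.2 : ℕ)) =
        ∑ l : Fin d, algebraMap E F' (∑ i, algebraMap F E (c (i, l)) * b₀ i) * y ^ (l : ℕ) := by
    intro c
    rw [Fintype.sum_prod_type_right]
    refine Finset.sum_congr rfl fun l _ => ?_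
    rw [map_sum, Finset.sum_mul]
    refine Finset.sum_congr rfl fun i _ => ?_
    rw [map_mul, ← mul_assoc]
    rfl
  refine ⟨Ω₀ × Fin d, inferInstance, B₀ × Fin d, inferInstance,
    fun q => algebraMap E F' (b₀ q.1) * y ^ (q.2 : ℕ), ?_, ?_, ?_, ?_,
    fun j q => R₁ j q.1 q.2, ?_, ?_, ?_, ?_, ?_, ?_, ?_, ?_, ?_⟩
  · rw [Fintype.card_prod, Fintype.card_prod, hcard]
  · intro f
    obtain ⟨C, hC⟩ := hspan f
    choose c hc using fun l => hspan₀ (C l)
    refine ⟨fun q => c q.2 q.1, ?_⟩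
    rw [hsum, hC]
    refine Finset.sum_congr rfl fun l _ => ?_
    rw [hc l]
  · intro c h q
    rw [hsum] at h
    exact hli₀ (fun i => c (i, q.2)) (hli _ h q.2) q.1
  · intro q
    refine mul_mem ?_ (pow_mem (Submonoid.subset_closure (Set.mem_insert _ _)) _)
    have key : ∀ x : E, x ∈ Submonoid.closure T₀ →
        (x : F') ∈ Submonoid.closure (insert y ((fun x : E => (x : F')) '' T₀)) := by
      intro x hx
      induction hx using Submonoid.closure_induction with
      | mem x hx => exact Submonoid.subset_closure (Set.mem_insert_of_mem _ ⟨x, hx, rfl⟩)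
      | one => exact Submonoid.one_mem _
      | mul x y _ _ hx hy => exact mul_mem hx hy
    exact key _ (hmon₀ q.1)
  · exact fun j q => (s1 j q.1 q.2).trans (c1 j q.1)
  · exact fun j q a => (s2 j q.1 q.2 a).trans (c2 j q.1 a)
  · exact fun j q f => (s3 j q.1 q.2 (algebraMap F E f)).trans (c3 j q.1 f)
  · exact fun j q f => (s4 j q.1 q.2 (algebraMap F E f)).trans (c4 j q.1 f)
  · rintro j q θ' (rfl | ⟨x, hx, rfl⟩)
    · exact s5 j q.1 q.2
    · obtain ⟨h1, c, hc0, hc⟩ := c5 j q.1 x hx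
      exact ⟨(s3 j q.1 q.2 x).mpr h1, c, hc0, (s4 j q.1 q.2 x).trans hc⟩
  · rintro j ⟨w, i⟩ ⟨w', i'⟩ hne
    by_cases h : w = w'
    · subst h
      have hii : i ≠ i' := fun h => hne (by rw [h])
      exact ⟨y, Set.mem_insert _ _, s6 j w i i' hii⟩
    · obtain ⟨x, hx, hxne⟩ := csep j w w' h
      refine ⟨(x : F'), Set.mem_insert_of_mem _ ⟨x, hx, rfl⟩, ?_⟩
      change (R₁ j w i).redF (algebraMap E F' x) ≠ (R₁ j w' i').redF (algebraMap E F' x)
      rw [s4, s4]
      exact hxne
  · rintro j ⟨w, i⟩ ⟨w', i'⟩ hne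
    by_cases h : w = w'
    · subst h
      have hii : i ≠ i' := fun h => hne (by rw [h])
      exact s7 j w i i' hii
    · intro hle
      apply c6 j w w' h
      intro x hx
      exact (s3 j w' i' x).mp (hle ((s3 j w i x).mpr hx))
  · intro j O' hO'
    obtain ⟨w, hw⟩ := c7 j (O'.comap (algebraMap E F')) (fun f => hO' f)
    obtain ⟨i, hi⟩ := s8 j w O' (fun x => by rw [← hw]; exact Iff.rfl)
    exact ⟨(w, i), hi⟩
  · intro j c
    simp only [hsum c]
    constructor
    · intro h q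
      have h1 : ∀ w l, (∑ i, algebraMap F E (c (i, l)) * b₀ i) ∈ (R₀ j w).O :=
        fun w => (s9 j w _).mp (fun i => h (w, i))
      exact (c8 j (fun i => c (i, q.2))).mp (fun w => h1 w q.2) q.1
    · intro h q
      exact (s9 j q.1 _).mpr (fun l => (c8 j (fun i => c (i, l))).mpr (fun i => h (i, l)) q.1) q.2

/-- **Wild Kummer splitting, finset form.** -/
theorem h68_wildSplit_finset (R : ∀ j, h39_RedDatum K F k (Fb j))
    (hA1 : ∀ j, h39_RankOne (R j).A) (p : ℕ) [hp : Fact p.Prime] [CharP k p] (ζ : K)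
    (hζ : IsPrimitiveRoot ζ p) (a : K)
    (ha : ∀ j, a ∈ (R j).A ∧ (R j).resK a ^ p ≠ (R j).resK a)
    (π : K) (hπ : ∀ j, π ∈ (R j).A ∧ (R j).resK π = 0) :
    ∀ (n : ℕ) (F' : Type u) [Field F'] [Algebra K F'] [Algebra F F'] [IsScalarTower K F F']
      (S : Finset F'), S.card ≤ n →
      (∀ θ ∈ S, ∃ h : F, (∀ j, h ∈ (R j).O) ∧
        θ ^ p = algebraMap F F' (1 + algebraMap K F ((ζ - 1) ^ p * π) * h)) →
      IntermediateField.adjoin F (S : Set F') = ⊤ →
      h44_KummerSplitConcl R F'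
        ((fun θ : F' => (θ - 1) * algebraMap K F' (ζ - 1)⁻¹ + algebraMap K F' a) ''
          (S : Set F')) := by
  have hbase : ∀ (F' : Type u) [Field F'] [Algebra K F'] [Algebra F F'] [IsScalarTower K F F'],
      IntermediateField.adjoin F ((∅ : Finset F') : Set F') = ⊤ →
      h44_KummerSplitConcl R F'
        ((fun θ : F' => (θ - 1) * algebraMap K F' (ζ - 1)⁻¹ + algebraMap K F' a) ''
          ((∅ : Finset F') : Set F')) := by
    intro F' _ _ _ _ hgen
    rw [Finset.coe_empty] at hgen ⊢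
    rw [Set.image_empty]
    refine h44_kummerSplit_base R hA1 F' ?_
    intro f
    have hf : f ∈ (⊤ : IntermediateField F F') := IntermediateField.mem_top
    rw [← hgen, IntermediateField.adjoin_empty] at hf
    exact IntermediateField.mem_bot.mp hf
  intro n
  induction n with
  | zero =>
    intro F' _ _ _ _ S hcard _ hgen
    have hS0 : S = ∅ := Finset.card_eq_zero.mp (Nat.le_zero.mp hcard)
    subst hS0
    exact hbase F' hgen
  | succ n ih =>
    intro F' _ _ _ _ S hcard hS hgen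
    classical
    by_cases hSe : S = ∅
    · subst hSe
      exact hbase F' hgen
    obtain ⟨θ, hθS⟩ := Finset.nonempty_iff_ne_empty.mpr hSe
    let E : IntermediateField F F' :=
      IntermediateField.adjoin F ((S.erase θ : Finset F') : Set F')
    let S₀' : Finset E := (S.erase θ).subtype (fun x => x ∈ E)
    have hcard' : S₀'.card ≤ n := by
      have h1 : S₀'.card ≤ (S.erase θ).card := by
        rw [Finset.card_subtype]
        exact Finset.card_filter_le _ _
      have h2 : (S.erase θ).card = S.card - 1 := Finset.card_erase_of_mem hθS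
      omega
    have hS' : ∀ θ' ∈ S₀', ∃ h : F, (∀ j, h ∈ (R j).O) ∧
        θ' ^ p = algebraMap F E (1 + algebraMap K F ((ζ - 1) ^ p * π) * h) := by
      intro θ' hθ'
      have h1 : (θ' : F') ∈ S := Finset.mem_of_mem_erase (Finset.mem_subtype.mp hθ')
      obtain ⟨h, hh, hu⟩ := hS _ h1
      exact ⟨h, hh, Subtype.ext hu⟩
    have himg : ((fun x : E => (x : F')) '' (S₀' : Set E)) =
        ((S.erase θ : Finset F') : Set F') := by
      ext x
      constructor
      · rintro ⟨y, hy, rfl⟩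
        exact Finset.mem_coe.mpr (Finset.mem_subtype.mp (Finset.mem_coe.mp hy))
      · intro hx
        exact ⟨⟨x, IntermediateField.subset_adjoin F _ hx⟩,
          Finset.mem_coe.mpr (Finset.mem_subtype.mpr (Finset.mem_coe.mp hx)), rfl⟩
    have hgen' : IntermediateField.adjoin F (S₀' : Set E) = ⊤ := by
      apply IntermediateField.map_injective E.val
      rw [IntermediateField.adjoin_map, ← AlgHom.fieldRange_eq_map,
        IntermediateField.fieldRange_val]
      have h1 : (E.val '' (S₀' : Set E)) = ((S.erase θ : Finset F') : Set F') := himg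
      rw [h1]
    have h0 := ih E S₀' hcard' hS' hgen'
    have htop : IntermediateField.adjoin E ({θ} : Set F') = ⊤ := by
      apply IntermediateField.restrictScalars_injective F
      rw [IntermediateField.restrictScalars_top]
      change (IntermediateField.adjoin
        (IntermediateField.adjoin F ((S.erase θ : Finset F') : Set F'))
        ({θ} : Set F')).restrictScalars F = ⊤
      rw [IntermediateField.adjoin_adjoin_left, ← hgen, Finset.coe_erase, Set.sdiff_union_self,
        Set.union_singleton, Set.insert_eq_of_mem (Finset.mem_coe.mpr hθS)]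
    obtain ⟨h, hh, hu⟩ := hS θ hθS
    have key := h68_wildSplit_step R hA1 p ζ hζ a ha π hπ E _ h0 θ htop h hh hu
    have hset : (insert ((θ - 1) * algebraMap K F' (ζ - 1)⁻¹ + algebraMap K F' a)
        ((fun x : E => (x : F')) ''
          ((fun θ : E => (θ - 1) * algebraMap K E (ζ - 1)⁻¹ + algebraMap K E a) ''
            (S₀' : Set E))) : Set F')
        = (fun θ : F' => (θ - 1) * algebraMap K F' (ζ - 1)⁻¹ + algebraMap K F' a) ''
          (S : Set F') := by
      have e1 : ((fun x : E => (x : F')) ''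
          ((fun θ : E => (θ - 1) * algebraMap K E (ζ - 1)⁻¹ + algebraMap K E a) ''
            (S₀' : Set E)))
          = (fun θ : F' => (θ - 1) * algebraMap K F' (ζ - 1)⁻¹ + algebraMap K F' a) ''
            ((fun x : E => (x : F')) '' (S₀' : Set E)) := by
        rw [Set.image_image, Set.image_image]
        rfl
      have e2 := Set.image_insert_eq
        (f := fun θ : F' => (θ - 1) * algebraMap K F' (ζ - 1)⁻¹ + algebraMap K F' a)
        (a := θ) (s := ((S.erase θ : Finset F') : Set F'))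
      rw [e1, himg]
      refine e2.symm.trans ?_
      rw [Finset.coe_erase, Set.insert_sdiff_singleton,
        Set.insert_eq_of_mem (Finset.mem_coe.mpr hθS)]
    rw [hset] at key
    exact key

/-- **Wild Kummer splitting.**  `F' = F(θ i : i)`, `θ i ^ p = 1 + (ζ - 1)^p π h i`, `π` a non-unit
constant, every `h i` integral at every `R j`, residue characteristic `p`: every `R j` splits
completely in `F'`, with the Artin–Schreier generators `y i = (θ i - 1)/(ζ - 1) + a` in the role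
of the Kummer generators of `h44_kummerSplit`. -/
theorem h68_wildSplit (R : ∀ j, h39_RedDatum K F k (Fb j))
    (hA1 : ∀ j, h39_RankOne (R j).A) (p : ℕ) [hp : Fact p.Prime] [CharP k p] (ζ : K)
    (hζ : IsPrimitiveRoot ζ p) (a : K)
    (ha : ∀ j, a ∈ (R j).A ∧ (R j).resK a ^ p ≠ (R j).resK a)
    (π : K) (hπ : ∀ j, π ∈ (R j).A ∧ (R j).resK π = 0)
    {F' : Type u} [Field F'] [Algebra K F'] [Algebra F F'] [IsScalarTower K F F']
    {ι : Type*} [Fintype ι] (h : ι → F) (θ : ι → F') (hh : ∀ i j, h i ∈ (R j).O)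
    (hθ : ∀ i, θ i ^ p = algebraMap F F' (1 + algebraMap K F ((ζ - 1) ^ p * π) * h i))
    (hgen : Algebra.adjoin F (Set.range θ) = ⊤) :
    h44_KummerSplitConcl R F'
      (Set.range fun i => (θ i - 1) * algebraMap K F' (ζ - 1)⁻¹ + algebraMap K F' a) := by
  classical
  have hcoe : ((Finset.univ.image θ : Finset F') : Set F') = Set.range θ := by
    rw [Finset.coe_image, Finset.coe_univ, Set.image_univ]
  have hgen' : IntermediateField.adjoin F ((Finset.univ.image θ : Finset F') : Set F') = ⊤ := by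
    rw [hcoe, eq_top_iff]
    intro x _
    have h1 := IntermediateField.algebra_adjoin_le_adjoin F (Set.range θ)
    have h2 : x ∈ Algebra.adjoin F (Set.range θ) := by
      rw [hgen]
      exact Algebra.mem_top
    exact h1 h2
  have key := h68_wildSplit_finset R hA1 p ζ hζ a ha π hπ (Finset.univ.image θ).card F'
    (Finset.univ.image θ) le_rfl ?_ hgen'
  · rw [hcoe, ← Set.range_comp] at key
    exact key
  · intro θ' hθ'
    obtain ⟨i, -, rfl⟩ := Finset.mem_image.mp hθ'
    exact ⟨h i, hh i, hθ i⟩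

end Tower

end Fermat.Agent.S33
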