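import Mathlib
import Fermat.Agent.S33.h70_NewBridge

/-!
# S33: `(N*)` in the shape of the modular instance gives the new-part input (helper70)

`h70_newMin_of_nstar` : the statement `(N*)` at the charted levels, with the binders of the
modular instance (level `M p`, chart condition, a prime `A` above `p`, an inertia element `σ0`
acting on the `p`-th roots of unity by `μ ↦ μ ^ a` with `a ≢ 1 mod p`), gives
`h70_NewMin N p A σ0` at every level `N` with `p ∥ N`, with `p` given by `hp : p.Prime` as in the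
frozen statement.
-/

set_option autoImplicit false
set_option synthInstance.maxHeartbeats 400000

noncomputable section

open ModularCurve AlgebraicCurve

namespace Fermat.Agent.S33

open Fermat.Agent.S35

local notation "Qb" => AlgebraicClosure ℚ
local notation "Γℚ" => (AlgebraicClosure ℚ ≃ₐ[ℚ] AlgebraicClosure ℚ)

/-- **The new-part input from `(N*)` in the binder shape of the modular instance.** -/
theorem h70_newMin_of_nstar (p : ℕ) [NeZero p] (hp : p.Prime)
    (hnstar : ∀ (M p : ℕ) [NeZero M] [NeZero p] [Fact p.Prime] (hpM : ¬ p ∣ M)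
      (_ : 5 ≤ p ∨ 2 ∣ M ∨ 3 ∣ M) (A : ValuationSubring Qb) (hA : A.LiesOverPrime p)
      (σ0 : Qb ≃ₐ[ℚ] Qb) (_ : σ0 ∈ A.inertiaSubgroupIn ℚ) (a : ℕ)
      (_ : ∀ μ : Qb, μ ^ p = 1 → σ0 μ = μ ^ a) (_ : ¬ (p : ℤ) ∣ (a : ℤ) - 1)
      (z : JZero (M * p)) (_ : p • z = 0)
      (_ : Fermat.Agent.S35.h29_Toric M p hpM A hA p z)
      (_ : Fermat.Agent.S35.h67_Jnew M p z) (_ : σ0 • z = z), z = 0)
    (A : ValuationSubring Qb) (hA : A.LiesOverPrime p) (σ0 : Γℚ)
    (hσ0 : σ0 ∈ A.inertiaSubgroupIn ℚ) (a : ℕ) (hcyc : ∀ μ : Qb, μ ^ p = 1 → σ0 μ = μ ^ a)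
    (ha : ¬ (p : ℤ) ∣ (a : ℤ) - 1) (N : ℕ) [NeZero N] (hpN : p ∣ N) (hp2 : ¬ p ^ 2 ∣ N) :
    h70_NewMin N p A σ0 := by
  have : Fact p.Prime := ⟨hp⟩
  exact h70_newMin_all p A hA σ0
    (fun M _ hpM hch z hpz htor hnew hfix =>
      hnstar M p hpM hch A hA σ0 hσ0 a hcyc ha z hpz htor hnew hfix) N hpN hp2

end Fermat.Agent.S33

end
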