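import Mathlib
import Fermat.Agent.S34.h87_Toric

/-!
# S33: operations on toric classes (helper70)

Generic (no modular input), in the language of `Fermat.Agent.S34.h87_IsToric`.

* `h70_toric_zero`, `h70_toric_add`, `h70_toric_neg`, `h70_toric_sub`, `h70_toric_closure` :
  the toric classes for a fixed exponent `m` form a subgroup;
* `h70_toric_exp_reduce` : a class that is toric for the exponent `m * k` and is killed by `m` is
  toric for the exponent `m`, when `x ^ k = 1 → x = 1` in the residue fields (e.g. `k = p ^ j` in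
  residue characteristic `p`), the constants have `k`-th roots and a function without zeros and
  poles is constant.
-/

set_option autoImplicit false

noncomputable section

open AlgebraicCurve

namespace Fermat.Agent.S33

open Fermat.Agent.S34

variable {K F : Type*} [Field K] [Field F] [Algebra K F]
variable {ι : Type*} {κ : ι → Type*} [∀ i, Field (κ i)]
variable (O : ι → ValuationSubring F) (red : ∀ i, O i →+* κ i)

/-- An element of `O i` with reduction `1` has its inverse in `O i`, with reduction `1`. -/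
theorem h70_inv_of_red_one {i : ι} {u : F} (h : u ∈ O i) (hr : red i ⟨u, h⟩ = 1) :
    ∃ h' : u⁻¹ ∈ O i, red i ⟨u⁻¹, h'⟩ = 1 := by
  have hunit : IsUnit (⟨u, h⟩ : O i) := by
    by_contra hnu
    have h1 : IsUnit (1 - (⟨u, h⟩ : O i)) :=
      IsLocalRing.isUnit_one_sub_self_of_mem_nonunits _ hnu
    have h2 : IsUnit (red i (1 - (⟨u, h⟩ : O i))) := h1.map (red i)
    rw [map_sub, map_one, hr, sub_self] at h2
    exact not_isUnit_zero h2
  obtain ⟨w, hw⟩ := hunit
  have hmul : (⟨u, h⟩ : O i) * ((w⁻¹ : (O i)ˣ) : O i) = 1 := by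
    rw [← hw]
    exact w.mul_inv
  have hu0 : u ≠ 0 := by
    rintro rfl
    have h0 : (⟨0, h⟩ : O i) = 0 := rfl
    rw [h0, map_zero] at hr
    exact zero_ne_one hr
  have hval : (((w⁻¹ : (O i)ˣ) : O i) : F) = u⁻¹ := by
    have h3 := congrArg (fun x : O i => (x : F)) hmul
    simp only [MulMemClass.coe_mul, OneMemClass.coe_one] at h3
    exact eq_inv_of_mul_eq_one_right h3
  have hmem : u⁻¹ ∈ O i := by
    rw [← hval]
    exact ((w⁻¹ : (O i)ˣ) : O i).2
  refine ⟨hmem, ?_⟩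
  have hsub : (⟨u⁻¹, hmem⟩ : O i) = ((w⁻¹ : (O i)ˣ) : O i) := Subtype.ext hval.symm
  have h4 := congrArg (red i) hmul
  rw [map_mul, hr, one_mul, map_one] at h4
  rw [hsub, h4]

variable {O red}

/-- The zero class is toric. -/
theorem h70_toric_zero (m : ℕ) : h87_IsToric O red m (0 : Pic0 K F) := by
  refine ⟨0, 1, one_ne_zero, Pic0.mk_zero, fun v => ?_, fun i => ⟨(O i).one_mem, ?_⟩⟩
  · rw [v.ord_one]
    simp
  · have h1 : (⟨1, (O i).one_mem⟩ : O i) = 1 := rfl
    rw [h1, map_one]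

/-- The sum of two toric classes is toric. -/
theorem h70_toric_add {m : ℕ} {y₁ y₂ : Pic0 K F} (h₁ : h87_IsToric O red m y₁)
    (h₂ : h87_IsToric O red m y₂) : h87_IsToric O red m (y₁ + y₂) := by
  obtain ⟨E₁, u₁, hu₁, rfl, hd₁, hr₁⟩ := h₁
  obtain ⟨E₂, u₂, hu₂, rfl, hd₂, hr₂⟩ := h₂
  refine ⟨E₁ + E₂, u₁ * u₂, mul_ne_zero hu₁ hu₂, Pic0.mk_add E₁ E₂, fun v => ?_, fun i => ?_⟩
  · rw [v.ord_mul hu₁ hu₂, ← hd₁ v, ← hd₂ v]
    simp only [AddSubgroup.coe_add, Finsupp.coe_add, Pi.add_apply]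
    ring
  · obtain ⟨a₁, b₁⟩ := hr₁ i
    obtain ⟨a₂, b₂⟩ := hr₂ i
    refine ⟨(O i).mul_mem _ _ a₁ a₂, ?_⟩
    have h1 : (⟨u₁ * u₂, (O i).mul_mem _ _ a₁ a₂⟩ : O i) = ⟨u₁, a₁⟩ * ⟨u₂, a₂⟩ := rfl
    rw [h1, map_mul, b₁, b₂, one_mul]

/-- The negative of a toric class is toric. -/
theorem h70_toric_neg {m : ℕ} {y : Pic0 K F} (h : h87_IsToric O red m y) :
    h87_IsToric O red m (-y) := by
  obtain ⟨E, u, hu, rfl, hd, hr⟩ := h
  refine ⟨-E, u⁻¹, inv_ne_zero hu, rfl, fun v => ?_, fun i => ?_⟩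
  · rw [v.ord_inv, ← hd v]
    simp only [NegMemClass.coe_neg, Finsupp.coe_neg, Pi.neg_apply]
    ring
  · obtain ⟨a, b⟩ := hr i
    exact h70_inv_of_red_one O red a b

/-- The difference of two toric classes is toric. -/
theorem h70_toric_sub {m : ℕ} {y₁ y₂ : Pic0 K F} (h₁ : h87_IsToric O red m y₁)
    (h₂ : h87_IsToric O red m y₂) : h87_IsToric O red m (y₁ - y₂) := by
  rw [sub_eq_add_neg]
  exact h70_toric_add h₁ (h70_toric_neg h₂)

/-- The subgroup generated by toric classes consists of toric classes. -/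
theorem h70_toric_closure {m : ℕ} {S : Set (Pic0 K F)} (hS : ∀ w ∈ S, h87_IsToric O red m w)
    {z : Pic0 K F} (hz : z ∈ AddSubgroup.closure S) : h87_IsToric O red m z := by
  induction hz using AddSubgroup.closure_induction with
  | mem w hw => exact hS w hw
  | zero => exact h70_toric_zero m
  | add a b _ _ ha hb => exact h70_toric_add ha hb
  | neg a _ ha => exact h70_toric_neg ha

/-- **Reduction of the exponent.** A class that is toric for the exponent `m * k` and killed by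
`m` is toric for the exponent `m`. -/
theorem h70_toric_exp_reduce (m k : ℕ) (hk : k ≠ 0)
    (hconst : ∀ g : F, g ≠ 0 → (∀ v : Place K F, v.ord g = 0) → ∃ c : K, g = algebraMap K F c)
    (hroot : ∀ c : K, ∃ d : K, d ^ k = c)
    (hκ : ∀ i (x : κ i), x ^ k = 1 → x = 1)
    {y : Pic0 K F} (hy : h87_IsToric O red (m * k) y) (hmy : m • y = 0) :
    h87_IsToric O red m y := by
  obtain ⟨E, u, hu, rfl, hd, hr⟩ := hy
  -- `m E` is principal
  have hprin : (m • (E : Divisor K F)).IsPrincipal := by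
    have h1 : Pic0.mk (m • E) = (0 : Pic0 K F) := hmy
    have h2 := (QuotientAddGroup.eq_zero_iff (m • E)).1 h1
    exact h2
  obtain ⟨v0, hv0, hdv0⟩ := hprin
  have hdv0' : ∀ P : Place K F, (m : ℤ) * (E : Divisor K F) P = P.ord v0 := by
    intro P
    rw [← hdv0 P, Finsupp.smul_apply, nsmul_eq_mul]
  -- `v0 ^ k / u` has no zeros and poles
  have hpow : ∀ (P : Place K F) (f : F), P.ord (f ^ k) = (k : ℤ) * P.ord f := by
    intro P f
    have := P.ord_zpow f (k : ℤ)
    simpa using this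
  have hg0 : v0 ^ k * u⁻¹ ≠ 0 := mul_ne_zero (pow_ne_zero k hv0) (inv_ne_zero hu)
  have hgord : ∀ P : Place K F, P.ord (v0 ^ k * u⁻¹) = 0 := by
    intro P
    rw [P.ord_mul (pow_ne_zero k hv0) (inv_ne_zero hu), P.ord_inv, hpow, ← hdv0' P, ← hd P]
    push_cast
    ring
  obtain ⟨c, hc⟩ := hconst _ hg0 hgord
  have hc0 : c ≠ 0 := by
    rintro rfl
    rw [map_zero] at hc
    exact hg0 hc
  obtain ⟨d, hdk⟩ := hroot c⁻¹
  have hd0 : d ≠ 0 := by
    rintro rfl
    rw [zero_pow hk] at hdk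
    exact inv_ne_zero hc0 hdk.symm
  set v' : F := algebraMap K F d * v0 with hv'
  have hv'0 : v' ≠ 0 := mul_ne_zero ((map_ne_zero _).mpr hd0) hv0
  have hv'k : v' ^ k = u := by
    have h1 : v0 ^ k = algebraMap K F c * u := by
      rw [← hc]
      field_simp
    rw [hv', mul_pow, ← map_pow, hdk, h1, ← mul_assoc, ← map_mul, inv_mul_cancel₀ hc0, map_one,
      one_mul]
  refine ⟨E, v', hv'0, rfl, fun P => ?_, fun i => ?_⟩
  · have h1 : (k : ℤ) * P.ord v' = (k : ℤ) * ((m : ℤ) * (E : Divisor K F) P) := by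
      rw [← hpow, hv'k, ← hd P]
      push_cast
      ring
    have hk' : (k : ℤ) ≠ 0 := by exact_mod_cast hk
    exact (mul_left_cancel₀ hk' h1).symm
  · obtain ⟨a, b⟩ := hr i
    obtain ⟨a', -⟩ := h70_inv_of_red_one O red a b
    have hmem : v' ∈ O i := (h87_root_mem O hk hv'k a a' hu).1
    refine ⟨hmem, hκ i _ ?_⟩
    rw [← map_pow]
    have h1 : (⟨v', hmem⟩ : O i) ^ k = ⟨u, a⟩ := Subtype.ext hv'k
    rw [h1, b]

end Fermat.Agent.S33

end
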