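import Mathlib
import Fermat.Agent.S34.h44_ValApprox

/-!
# S33 (N2), wild Kummer covers: ROOT-DEPTH and the deep approximation theorem (helper81)

Mathlib + `h44_ValApprox` only.

* `h81_prod_root_sub` : `∏_{ξ ≠ ξ₀} (ξ₀ - ξ) = n ξ₀^(n-1)` over the `n`-th roots of unity.
* `h81_root_depth` : **(ROOT-DEPTH)** for a valuation `v` (of a valuation subring) and `x` in a
  field containing a primitive `n`-th root of unity there is an `n`-th root of unity `ξ` with
  `v (x - ξ) * v n ≤ v (x ^ n - 1)`.  (With `n = p^s` and `x ^ n ∈ 1 + p^N O` this is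
  `x ∈ ξ + p^(N-s) O`: an element whose `p^s`-th power is deep is a root of unity times a deep
  unit, with a loss of depth `s`.)
* `h81_val_one_of_pow_eq_one` : roots of unity are units of every valuation subring.
* `h81_val_crt_deep` : **(deep CRT)** for finitely many pairwise incomparable valuation subrings
  which are archimedean with respect to `δ`, every family `a i` of common integral elements is
  approximated by ONE element `b` with `v_i (b - a i) ≤ v_i δ` for all `i`.
-/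

set_option autoImplicit false

namespace Fermat.Agent.S33

open Polynomial Finset Fermat.Agent.S34

section RootDepth

variable {E : Type*} [Field E]

/-- `∏_{ξ ≠ ξ₀} (ξ₀ - ξ) = n ξ₀^(n-1)` over the `n`-th roots of unity. -/
theorem h81_prod_root_sub [DecidableEq E] (n : ℕ) (hn : 0 < n) (ζ : E)
    (hζ : IsPrimitiveRoot ζ n) (ξ₀ : E) (hξ₀ : ξ₀ ^ n = 1) :
    ∏ ξ ∈ (nthRootsFinset n (1 : E)).erase ξ₀, (ξ₀ - ξ) = (n : E) * ξ₀ ^ (n - 1) := by
  have hmem : ξ₀ ∈ nthRootsFinset n (1 : E) := (mem_nthRootsFinset hn 1).mpr hξ₀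
  have h1 : (X ^ n - 1 : E[X]) =
      (X - C ξ₀) * ∏ ξ ∈ (nthRootsFinset n (1 : E)).erase ξ₀, (X - C ξ) := by
    rw [X_pow_sub_one_eq_prod hn hζ]
    exact (Finset.mul_prod_erase _ (fun ξ => (X - C ξ : E[X])) hmem).symm
  have h2 : (X ^ n - 1 : E[X]) =
      (X - C ξ₀) * ∑ i ∈ range n, X ^ i * (C ξ₀) ^ (n - 1 - i) := by
    rw [mul_comm, geom_sum₂_mul, ← C_pow, hξ₀, C_1]
  have hne : (X - C ξ₀ : E[X]) ≠ 0 := X_sub_C_ne_zero ξ₀
  have h3 : ∏ ξ ∈ (nthRootsFinset n (1 : E)).erase ξ₀, (X - C ξ) =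
      ∑ i ∈ range n, X ^ i * (C ξ₀ : E[X]) ^ (n - 1 - i) :=
    mul_left_cancel₀ hne (h1.symm.trans h2)
  have h4 := congrArg (Polynomial.eval ξ₀) h3
  rw [eval_prod, eval_finsetSum] at h4
  simp only [eval_sub, eval_X, eval_C, eval_mul, eval_pow] at h4
  rw [h4]
  have h5 : ∀ i ∈ range n, ξ₀ ^ i * ξ₀ ^ (n - 1 - i) = ξ₀ ^ (n - 1) := by
    intro i hi
    rw [← pow_add]
    congr 1
    have := Finset.mem_range.mp hi
    omega
  rw [Finset.sum_congr rfl h5, Finset.sum_const, Finset.card_range, nsmul_eq_mul]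

/-- Roots of unity are units of every valuation subring. -/
theorem h81_val_one_of_pow_eq_one (O : ValuationSubring E) (m : ℕ) (hm : 0 < m) (x : E)
    (hx : x ^ m = 1) : O.valuation x = 1 := by
  have h1 : O.valuation x ^ m = 1 := by rw [← map_pow, hx, map_one]
  exact (pow_eq_one_iff_of_nonneg zero_le hm.ne').mp h1

/-- **ROOT-DEPTH.** -/
theorem h81_root_depth (O : ValuationSubring E) (n : ℕ) (hn : 0 < n) (ζ : E)
    (hζ : IsPrimitiveRoot ζ n) (x : E) :
    ∃ ξ : E, ξ ^ n = 1 ∧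
      O.valuation (x - ξ) * O.valuation (n : E) ≤ O.valuation (x ^ n - 1) := by
  classical
  set S := nthRootsFinset n (1 : E) with hS
  have hne : S.Nonempty := ⟨1, (mem_nthRootsFinset hn 1).mpr (one_pow n)⟩
  obtain ⟨ξ₀, hξ₀S, hmin⟩ := Finset.exists_min_image S (fun ξ => O.valuation (x - ξ)) hne
  have hξ₀ : ξ₀ ^ n = 1 := (mem_nthRootsFinset hn 1).mp hξ₀S
  refine ⟨ξ₀, hξ₀, ?_⟩
  have hle : ∀ ξ ∈ S.erase ξ₀, O.valuation (ξ₀ - ξ) ≤ O.valuation (x - ξ) := by
    intro ξ hξ
    by_contra hlt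
    rw [not_le] at hlt
    have h1 : O.valuation (x - ξ₀) ≤ O.valuation (x - ξ) := hmin ξ (Finset.mem_of_mem_erase hξ)
    have e : ξ₀ - ξ = (x - ξ) - (x - ξ₀) := by ring
    have h2 : O.valuation (ξ₀ - ξ) ≤ max (O.valuation (x - ξ)) (O.valuation (x - ξ₀)) := by
      rw [e]
      exact Valuation.map_sub _ _ _
    have h3 : max (O.valuation (x - ξ)) (O.valuation (x - ξ₀)) < O.valuation (ξ₀ - ξ) :=
      max_lt hlt (lt_of_le_of_lt h1 hlt)
    exact absurd h2 (not_le.mpr h3)
  have hev : x ^ n - 1 = (x - ξ₀) * ∏ ξ ∈ S.erase ξ₀, (x - ξ) := by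
    have h1 := congrArg (Polynomial.eval x) (X_pow_sub_one_eq_prod hn hζ)
    rw [eval_prod] at h1
    simp only [eval_sub, eval_X, eval_C, eval_pow, eval_one] at h1
    rw [h1, hS]
    exact (Finset.mul_prod_erase _ (fun ξ => x - ξ) hξ₀S).symm
  have hprod : O.valuation (n : E) = ∏ ξ ∈ S.erase ξ₀, O.valuation (ξ₀ - ξ) := by
    rw [← map_prod, hS, h81_prod_root_sub n hn ζ hζ ξ₀ hξ₀, map_mul, map_pow,
      h81_val_one_of_pow_eq_one O n hn ξ₀ hξ₀, one_pow, mul_one]
  rw [hev, map_mul, map_prod, hprod]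
  exact mul_le_mul_right (Finset.prod_le_prod' hle) _

end RootDepth

section DeepCRT

variable {L : Type*} [Field L] {ι : Type*} [Finite ι] (O : ι → ValuationSubring L)

/-- **Deep CRT** for pairwise incomparable valuation subrings, archimedean with respect to `δ`. -/
theorem h81_val_crt_deep (hinc : ∀ i j, i ≠ j → ¬ O i ≤ O j) (δ : L)
    (harch : ∀ i (a : L), (O i).valuation a < 1 →
      ∃ N : ℕ, (O i).valuation a ^ N ≤ (O i).valuation δ)
    (a : ι → L) (ha : ∀ i j, a i ∈ O j) :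
    ∃ b : L, (∀ j, b ∈ O j) ∧ ∀ i, (O i).valuation (b - a i) ≤ (O i).valuation δ := by
  classical
  have := Fintype.ofFinite ι
  have hle : ∀ (j : ι) (z : L), z ∈ O j → (O j).valuation z ≤ 1 :=
    fun j z hz => (ValuationSubring.valuation_le_one_iff _ _).mpr hz
  -- approximate idempotents modulo the maximal ideals
  choose t ht ht1 ht2 using fun i => h44_val_approx O hinc i 1 ((O i).one_mem)
  -- the exponents
  have hr : ∀ i j, ∃ N : ℕ, (j = i → (O j).valuation (t i - 1) ^ N ≤ (O j).valuation δ) ∧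
      (j ≠ i → (O j).valuation (t i) ^ N ≤ (O j).valuation δ) := by
    intro i j
    by_cases h : j = i
    · subst h
      obtain ⟨N, hN⟩ := harch j _ (ht1 j)
      exact ⟨N, fun _ => hN, fun h => absurd rfl h⟩
    · obtain ⟨N, hN⟩ := harch j _ (ht2 i j h)
      exact ⟨N, fun h' => absurd h' h, fun _ => hN⟩
  choose n hn1 hn2 using hr
  set N : ℕ := 1 + ∑ i, ∑ j, n i j with hN
  have hnN : ∀ i j, n i j ≤ N := by
    intro i j
    have h1 : n i j ≤ ∑ j', n i j' :=
      Finset.single_le_sum (f := fun j' => n i j') (fun _ _ => Nat.zero_le _) (Finset.mem_univ j)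
    have h2 : ∑ j', n i j' ≤ ∑ i', ∑ j', n i' j' :=
      Finset.single_le_sum (f := fun i' => ∑ j', n i' j') (fun _ _ => Nat.zero_le _)
        (Finset.mem_univ i)
    omega
  have hN0 : N ≠ 0 := by omega
  have hpow : ∀ (j : ι) (z : L) (m : ℕ), (O j).valuation z < 1 → m ≤ N →
      (O j).valuation z ^ m ≤ (O j).valuation δ → (O j).valuation z ^ N ≤ (O j).valuation δ := by
    intro j z m hz hm h
    exact le_trans (pow_le_pow_right_of_le_one' hz.le hm) h
  -- deep idempotents
  let Ed : ι → L := fun i => 1 - (1 - t i ^ N) ^ N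
  have hgeom : ∀ (r : L) (M : ℕ), 1 - r ^ M = (1 - r) * ∑ l ∈ range M, r ^ l := by
    intro r M
    exact (mul_neg_geom_sum r M).symm
  have hEmem : ∀ i j, Ed i ∈ O j := by
    intro i j
    exact (O j).sub_mem (O j).one_mem ((O j).pow_mem ((O j).sub_mem (O j).one_mem
      ((O j).pow_mem (ht i j) N)) N)
  have hE1 : ∀ i, (O i).valuation (Ed i - 1) ≤ (O i).valuation δ := by
    intro i
    have e : Ed i - 1 = -((1 - t i) * ∑ l ∈ range N, t i ^ l) ^ N := by
      change 1 - (1 - t i ^ N) ^ N - 1 = _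
      rw [← hgeom]
      ring
    rw [e, Valuation.map_neg, map_pow, map_mul, mul_pow]
    have h1 : (O i).valuation (∑ l ∈ range N, t i ^ l) ≤ 1 :=
      hle i _ (sum_mem fun l _ => (O i).pow_mem (ht i i) l)
    have h2 : (O i).valuation (1 - t i) ^ N ≤ (O i).valuation δ := by
      have e2 : (O i).valuation (1 - t i) = (O i).valuation (t i - 1) := by
        rw [← Valuation.map_neg, neg_sub]
      rw [e2]
      exact hpow i _ (n i i) (ht1 i) (hnN i i) (hn1 i i rfl)
    calc (O i).valuation (1 - t i) ^ N * (O i).valuation (∑ l ∈ range N, t i ^ l) ^ N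
        ≤ (O i).valuation (1 - t i) ^ N * 1 :=
          mul_le_mul_right (pow_le_one' h1 N) _
      _ = (O i).valuation (1 - t i) ^ N := mul_one _
      _ ≤ (O i).valuation δ := h2
  have hE2 : ∀ i j, j ≠ i → (O j).valuation (Ed i) ≤ (O j).valuation δ := by
    intro i j hji
    have e : Ed i = t i ^ N * ∑ l ∈ range N, (1 - t i ^ N) ^ l := by
      change 1 - (1 - t i ^ N) ^ N = _
      rw [hgeom]
      ring
    rw [e, map_mul, map_pow]
    have h1 : (O j).valuation (∑ l ∈ range N, (1 - t i ^ N) ^ l) ≤ 1 :=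
      hle j _ (sum_mem fun l _ => (O j).pow_mem ((O j).sub_mem (O j).one_mem
        ((O j).pow_mem (ht i j) N)) l)
    have h2 : (O j).valuation (t i) ^ N ≤ (O j).valuation δ :=
      hpow j _ (n i j) (ht2 i j hji) (hnN i j) (hn2 i j hji)
    calc (O j).valuation (t i) ^ N * (O j).valuation (∑ l ∈ range N, (1 - t i ^ N) ^ l)
        ≤ (O j).valuation (t i) ^ N * 1 := mul_le_mul_right h1 _
      _ = (O j).valuation (t i) ^ N := mul_one _
      _ ≤ (O j).valuation δ := h2
  refine ⟨∑ i, a i * Ed i, fun j => sum_mem fun i _ => (O j).mul_mem _ _ (ha i j) (hEmem i j), ?_⟩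
  intro i
  have e : ∑ l, a l * Ed l - a i = a i * (Ed i - 1) + ∑ l ∈ Finset.univ.erase i, a l * Ed l := by
    rw [← Finset.add_sum_erase _ _ (Finset.mem_univ i)]
    ring
  rw [e]
  refine le_trans (Valuation.map_add _ _ _) (max_le ?_ ?_)
  · rw [map_mul]
    calc (O i).valuation (a i) * (O i).valuation (Ed i - 1)
        ≤ 1 * (O i).valuation (Ed i - 1) := mul_le_mul_left (hle i _ (ha i i)) _
      _ = (O i).valuation (Ed i - 1) := one_mul _
      _ ≤ (O i).valuation δ := hE1 i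
  · refine Valuation.map_sum_le _ ?_
    intro l hl
    rw [map_mul]
    calc (O i).valuation (a l) * (O i).valuation (Ed l)
        ≤ 1 * (O i).valuation (Ed l) := mul_le_mul_left (hle i _ (ha l i)) _
      _ = (O i).valuation (Ed l) := one_mul _
      _ ≤ (O i).valuation δ := hE2 l i (Finset.ne_of_mem_erase hl).symm

end DeepCRT

end Fermat.Agent.S33
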