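import Mathlib
import Fermat.Agent.S18.Defs
import Fermat.Agent.S34.h44_KummerTower
import Fermat.Agent.S33.h81_RootDepth

/-!
# S33 (N2): complete splitting of reduction data in WILD multi-Kummer extensions (helper81)

`(R j)_{j ∈ J}` a finite family of S18 reduction data on `F` (rank-one constants, pairwise
incomparable), `p` an odd prime which is a non-unit of the constants, `F' = F(θ₁, …, θ_r)` with
`θ_i ^ (p ^ n) = u_i ∈ F` and every `u_i ∈ 1 + p^(n+1) (R j).O` ("deep": this is what the norm
argument (N1) of the S33 route supplies, after `h44_val_crt`).  Then every `(R j).O` has exactly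
`[F' : F]` extensions to `F'`, each a reduction datum with the same residue field, and `F'` has an
`F`-basis which is orthonormal for the sup-norm over the extensions of each `R j`
(`h81_wildSplit`, conclusion `h81_SplitConcl`).

This is the residue-characteristic analogue of `h44_kummerSplit` (which needs `m` prime to the
residue characteristic).  Differences: the sheets are NOT separated by the residues of the
Kummer generators (all of `μ_{p^n}` reduces to `1`), the integral closure is NOT generated by the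
`θ_i`, and the orthonormal basis is not monomial.  No completions are used:

* `h81_family_step` : the generic step — a power basis `1, …, y^(n-1)` over a field `E` for which
  the conclusion holds, and at every sheet a monic integral equation for `y` whose reduction has
  `n` distinct roots (`h44_splitStep` at every sheet, then resummation);
* `h81_wild_step` : the degree-`p` step `θ^p = v`, `v ∈ c^p (1 + p² O)` at every sheet (`c` a root
  of unity depending on the sheet): with `G ≡ c` modulo `p²` at every sheet (deep CRT),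
  `y = (θ/G - 1)/λ`, `λ^(p-1) = -p`, satisfies an Artin–Schreier type equation with reduction
  `Y^p - Y = ∏_{i ∈ 𝔽_p} (Y - i)`;
* `h81_wildSplit_seq` : the tower, for a sequence `x 0, …, x (r-1)` of generators with
  `(x t)^p ∈ F(x s : s < t)` and `(x t)^(p^e) = u ∈ 1 + p^(e+1) O`; the depth at each step comes
  from ROOT-DEPTH (`h81_root_depth`);
* `h81_wildSplit` : the statement above.
-/

set_option autoImplicit false

noncomputable section

namespace Fermat.Agent.S33

open Polynomial IntermediateField Fermat.Agent.S18 Fermat.Agent.S34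

universe u

section Aux

/-- A surjective ring homomorphism from a valuation subring onto a field kills the non-units. -/
theorem h81_map_eq_zero_of_nonunit {L κ : Type*} [Field L] [Field κ] (V : ValuationSubring L)
    (φ : V →+* κ) (hφ : Function.Surjective φ) (x : L) (hx : x ∈ V) (hx' : x⁻¹ ∉ V) :
    φ ⟨x, hx⟩ = 0 := by
  have hmax : (RingHom.ker φ).IsMaximal := RingHom.ker_isMaximal_of_surjective φ hφ
  have hker : RingHom.ker φ = IsLocalRing.maximalIdeal V := IsLocalRing.eq_maximalIdeal hmax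
  have hmem : (⟨x, hx⟩ : V) ∈ IsLocalRing.maximalIdeal V := by
    rw [IsLocalRing.mem_maximalIdeal, mem_nonunits_iff]
    rintro ⟨u, hu⟩
    apply hx'
    have h0 : (⟨x, hx⟩ : V) * ((u⁻¹ : Vˣ) : V) = 1 := by
      rw [← hu]
      exact u.mul_inv
    have h1 : x * (((u⁻¹ : Vˣ) : V) : L) = 1 := congrArg Subtype.val h0
    rw [inv_eq_of_mul_eq_one_right h1]
    exact ((u⁻¹ : Vˣ) : V).2
  rw [← hker] at hmem
  exact RingHom.mem_ker.mp hmem

variable {K F k Fb : Type*} [Field K] [Field F] [Algebra K F] [Field k] [Field Fb] [Algebra k Fb]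

/-- The residue map of the constants kills the non-units. -/
theorem h81_res_eq_zero (R : h39_RedDatum K F k Fb) (a : K) (ha : a ∈ R.A) (hna : a⁻¹ ∉ R.A) :
    R.res ⟨a, ha⟩ = 0 :=
  h81_map_eq_zero_of_nonunit R.A R.res R.res_surjective a ha hna

/-- The reduction map kills the non-units. -/
theorem h81_red_eq_zero (R : h39_RedDatum K F k Fb) (f : F) (hf : f ∈ R.O) (hnf : f⁻¹ ∉ R.O) :
    R.red ⟨f, hf⟩ = 0 :=
  h81_map_eq_zero_of_nonunit R.O R.red R.red_surjective f hf hnf

/-- The reduction map kills the elements of valuation `< 1`. -/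
theorem h81_red_eq_zero_of_val_lt (R : h39_RedDatum K F k Fb) (f : F) (hf : f ∈ R.O)
    (hlt : R.O.valuation f < 1) : R.red ⟨f, hf⟩ = 0 := by
  by_cases h0 : f = 0
  · have e : (⟨f, hf⟩ : R.O) = 0 := Subtype.ext h0
    rw [e, map_zero]
  · apply h81_red_eq_zero R f hf
    intro h
    have h1 := (ValuationSubring.valuation_le_one_iff _ _).mpr h
    rw [map_inv₀] at h1
    exact absurd h1 (not_le.mpr ((one_lt_inv₀ (pos_iff_ne_zero.mpr
      ((_root_.map_ne_zero _).mpr h0))).mpr hlt))

/-- Non-units of the constants have valuation `< 1` on the function field. -/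
theorem h81_val_const_lt_one (R : h39_RedDatum K F k Fb) (a : K) (ha : a⁻¹ ∉ R.A) :
    R.O.valuation (algebraMap K F a) < 1 :=
  h44_val_algebraMap_lt_one R.A R.O (fun a => (R.mem_iff a).symm) a ha

/-- If `p` is a non-unit of the constants then the residue field has characteristic `p`. -/
theorem h81_natCast_eq_zero (R : h39_RedDatum K F k Fb) (p : ℕ) (hpA : ((p : K))⁻¹ ∉ R.A) :
    ((p : ℕ) : Fb) = 0 := by
  have hp : (p : K) ∈ R.A := natCast_mem R.A p
  have h1 := h81_res_eq_zero R (p : K) hp hpA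
  have h2 : (⟨(p : K), hp⟩ : R.A) = ((p : ℕ) : R.A) := Subtype.ext (by simp)
  rw [h2, map_natCast] at h1
  have h3 : algebraMap k Fb ((p : ℕ) : k) = 0 := by rw [h1, map_zero]
  rwa [map_natCast] at h3

/-- In characteristic `p`: `X^p - X = ∏_{i < p} (X - i)`. -/
theorem h81_X_pow_sub_X (κ : Type*) [Field κ] (p : ℕ) (hp : p.Prime) (hchar : ((p : ℕ) : κ) = 0) :
    (X ^ p - X : κ[X]) = ∏ i : Fin p, (X - C (((i : ℕ) : κ))) ∧
      Function.Injective (fun i : Fin p => (((i : ℕ) : κ))) := by
  have : Fact p.Prime := ⟨hp⟩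
  have hcp : CharP κ p := by
    obtain ⟨q, hq⟩ := CharP.exists κ
    have hdvd : q ∣ p := (CharP.cast_eq_zero_iff κ q p).mp hchar
    rcases (Nat.dvd_prime hp).mp hdvd with h1 | h1
    · subst h1
      exact absurd (CharP.cast_eq_zero κ 1) (by rw [Nat.cast_one]; exact one_ne_zero)
    · subst h1
      exact hq
  have hinj : Function.Injective (fun i : Fin p => (((i : ℕ) : κ))) := by
    intro i i' h
    have h1 : ((i : ℕ) : κ) = ((i' : ℕ) : κ) := h
    rw [CharP.natCast_eq_natCast κ p] at h1
    exact Fin.ext (Nat.ModEq.eq_of_lt_of_lt h1 i.2 i'.2)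
  refine ⟨?_, hinj⟩
  set Q : κ[X] := ∏ i : Fin p, (X - C (((i : ℕ) : κ))) with hQ
  have hQm : Q.Monic := monic_prod_of_monic _ _ fun i _ => monic_X_sub_C _
  have hQd : Q.natDegree = p := by
    rw [hQ, natDegree_prod_of_monic _ _ fun i _ => monic_X_sub_C _]
    simp only [natDegree_X_sub_C, Finset.sum_const, Finset.card_univ, Fintype.card_fin,
      smul_eq_mul, mul_one]
  have hXd : (X : κ[X]).degree < (p : WithBot ℕ) := by
    rw [degree_X]
    exact_mod_cast hp.one_lt
  have hPm : (X ^ p - X : κ[X]).Monic := monic_X_pow_sub hXd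
  have hPd : (X ^ p - X : κ[X]).natDegree = p := by
    have h1 : (X : κ[X]).natDegree < (X ^ p : κ[X]).natDegree := by
      rw [natDegree_X, natDegree_X_pow]
      exact hp.one_lt
    rw [natDegree_sub_eq_left_of_natDegree_lt h1, natDegree_X_pow]
  have hpow : ∀ n : ℕ, ((n : ℕ) : κ) ^ p = (n : κ) := by
    intro n
    induction n with
    | zero => rw [Nat.cast_zero, zero_pow hp.ne_zero]
    | succ n ih => rw [Nat.cast_succ, add_pow_char, ih, one_pow]
  rw [← sub_eq_zero]
  apply eq_zero_of_natDegree_lt_card_of_eval_eq_zero _ hinj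
  · intro i
    rw [eval_sub, eval_sub, eval_pow, eval_X, hpow, sub_self, zero_sub, neg_eq_zero, hQ,
      eval_prod]
    apply Finset.prod_eq_zero (Finset.mem_univ i)
    rw [eval_sub, eval_X, eval_C, sub_self]
  · rw [Fintype.card_fin]
    by_cases h0 : (X ^ p - X : κ[X]) - Q = 0
    · rw [h0, natDegree_zero]
      exact hp.pos
    · rw [natDegree_lt_iff_degree_lt h0]
      have h1 : (X ^ p - X : κ[X]).degree = Q.degree := by
        rw [degree_eq_natDegree hPm.ne_zero, degree_eq_natDegree hQm.ne_zero, hPd, hQd]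
      have h2 := degree_sub_lt_left h1 hPm.ne_zero (hPm.leadingCoeff.trans hQm.leadingCoeff.symm)
      rw [degree_eq_natDegree hPm.ne_zero, hPd] at h2
      exact h2

end Aux

section Tower

variable {K F k : Type*} [Field K] [Field F] [Algebra K F] [Field k]
  {J : Type*} {Fb : J → Type*} [∀ j, Field (Fb j)] [∀ j, Algebra k (Fb j)]

/-- The conclusion of the splitting theorems for the family `R` on `F` and the extension `F'`:
a finite set `Ω` of sheets, data `R' j w` on `F'` extending `R j` (all of them, pairwise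
incomparable, same constants and residue fields), and an `F`-basis `b` of `F'` orthonormal over
each `j`.  (`h44_KummerSplitConcl` without its three clauses about the Kummer generators.) -/
def h81_SplitConcl (R : ∀ j, h39_RedDatum K F k (Fb j)) (F' : Type u) [Field F']
    [Algebra K F'] [Algebra F F'] : Prop :=
  ∃ (Ω : Type) (_ : Fintype Ω) (B : Type) (_ : Fintype B) (b : B → F'),
    Fintype.card Ω = Fintype.card B ∧
    (∀ f : F', ∃ c : B → F, f = ∑ l, algebraMap F F' (c l) * b l) ∧
    (∀ c : B → F, ∑ l, algebraMap F F' (c l) * b l = 0 → ∀ l, c l = 0) ∧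
    ∃ R' : ∀ j : J, Ω → h39_RedDatum K F' k (Fb j),
      (∀ j w, (R' j w).A = (R j).A) ∧ (∀ j w a, (R' j w).resK a = (R j).resK a) ∧
      (∀ j w (f : F), algebraMap F F' f ∈ (R' j w).O ↔ f ∈ (R j).O) ∧
      (∀ j w (f : F), (R' j w).redF (algebraMap F F' f) = (R j).redF f) ∧
      (∀ j w w', w ≠ w' → ¬ (R' j w).O ≤ (R' j w').O) ∧
      (∀ j (O' : ValuationSubring F'), (∀ f : F, algebraMap F F' f ∈ O' ↔ f ∈ (R j).O) →
        ∃ w, O' = (R' j w).O) ∧
      (∀ j (c : B → F), (∀ w, ∑ l, algebraMap F F' (c l) * b l ∈ (R' j w).O) ↔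
        ∀ l, c l ∈ (R j).O)

/-- The tame conclusion implies the general one. -/
theorem h81_splitConcl_of_kummer (R : ∀ j, h39_RedDatum K F k (Fb j)) (F' : Type u) [Field F']
    [Algebra K F'] [Algebra F F'] (T : Set F') (h : h44_KummerSplitConcl R F' T) :
    h81_SplitConcl R F' := by
  obtain ⟨Ω, hΩ, B, hB, b, hcard, hspan, hli, -, R', c1, c2, c3, c4, -, -, c6, c7, c8⟩ := h
  exact ⟨Ω, hΩ, B, hB, b, hcard, hspan, hli, R', c1, c2, c3, c4, c6, c7, c8⟩

/-- Base case: `F' = F`. -/
theorem h81_split_base (R : ∀ j, h39_RedDatum K F k (Fb j))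
    (hA1 : ∀ j, h39_RankOne (R j).A) (F' : Type u) [Field F'] [Algebra K F'] [Algebra F F']
    [IsScalarTower K F F'] (hsurj : Function.Surjective (algebraMap F F')) :
    h81_SplitConcl R F' :=
  h81_splitConcl_of_kummer R F' ∅ (h44_kummerSplit_base R hA1 F' hsurj)

/-- **Generic step.** `E` an intermediate field for which the conclusion holds, `F' = E(y)` with
power basis `1, …, y^(n-1)`, and at every datum on `E` extending some `R j` a monic integral
equation of degree `n` for `y` whose reduction is `∏ (X - β j i)` with distinct `β j i`. -/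
theorem h81_family_step (R : ∀ j, h39_RedDatum K F k (Fb j))
    (hA1 : ∀ j, h39_RankOne (R j).A) {F' : Type u} [Field F'] [Algebra K F'] [Algebra F F']
    [IsScalarTower K F F'] (E : IntermediateField F F') (h0 : h81_SplitConcl R E)
    (y : F') (n : ℕ)
    (hspan : ∀ f : F', ∃ c : Fin n → E, f = ∑ l, algebraMap E F' (c l) * y ^ (l : ℕ))
    (hli : ∀ c : Fin n → E, ∑ l, algebraMap E F' (c l) * y ^ (l : ℕ) = 0 → ∀ l, c l = 0)
    (β : ∀ j, Fin n → Fb j) (hβ : ∀ j, Function.Injective (β j))
    (hΦ : ∀ j (R' : h39_RedDatum K E k (Fb j)), R'.A = (R j).A →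
      (∀ a, R'.resK a = (R j).resK a) →
      (∀ f : F, algebraMap F E f ∈ R'.O ↔ f ∈ (R j).O) →
      ∃ Φ : Polynomial R'.O, Φ.Monic ∧ Φ.natDegree = n ∧
        Φ.eval₂ ((algebraMap E F').comp R'.O.subtype) y = 0 ∧
        Φ.map R'.red = ∏ i, (X - C (β j i))) :
    h81_SplitConcl R F' := by
  classical
  obtain ⟨Ω₀, hΩ₀, B₀, hB₀, b₀, hcard, hspan₀, hli₀, R₀, c1, c2, c3, c4, c6, c7, c8⟩ := h0
  let _ : Fintype Ω₀ := hΩ₀
  let _ : Fintype B₀ := hB₀
  have : IsScalarTower K E F' := IsScalarTower.of_algebraMap_eq (fun a => rfl)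
  have step : ∀ j w, ∃ R' : Fin n → h39_RedDatum K F' k (Fb j),
      (∀ i, (R' i).A = (R₀ j w).A) ∧ (∀ i a, (R' i).resK a = (R₀ j w).resK a) ∧
      (∀ i (f : E), algebraMap E F' f ∈ (R' i).O ↔ f ∈ (R₀ j w).O) ∧
      (∀ i (f : E), (R' i).redF (algebraMap E F' f) = (R₀ j w).redF f) ∧
      (∀ i, y ∈ (R' i).O ∧ (R' i).redF y = β j i) ∧
      (∀ i i', i ≠ i' → ¬ (R' i).O ≤ (R' i').O) ∧
      (∀ O' : ValuationSubring F', (∀ f : E, algebraMap E F' f ∈ O' ↔ f ∈ (R₀ j w).O) →
        ∃ i, O' = (R' i).O) ∧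
      (∀ c : Fin n → E, (∀ i, ∑ l, algebraMap E F' (c l) * y ^ (l : ℕ) ∈ (R' i).O) ↔
        ∀ l, c l ∈ (R₀ j w).O) := by
    intro j w
    have hA : h39_RankOne (R₀ j w).A := by
      rw [c1 j w]
      exact hA1 j
    obtain ⟨Φ, hmon, hdeg, hroot, hprod⟩ := hΦ j (R₀ j w) (c1 j w) (c2 j w) (c3 j w)
    exact h44_splitStep (R₀ j w) hA y n Φ hmon hdeg hroot hspan hli (β j) (hβ j) hprod
  choose R₁ s1 s2 s3 s4 s5 s7 s8 s9 using step
  -- resummation
  have hsum : ∀ c : B₀ × Fin n → F,
      ∑ p, algebraMap F F' (c p) * (algebraMap E F' (b₀ p.1) * y ^ (p.2 : ℕ)) =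
        ∑ l : Fin n, algebraMap E F' (∑ i, algebraMap F E (c (i, l)) * b₀ i) * y ^ (l : ℕ) := by
    intro c
    rw [Fintype.sum_prod_type_right]
    refine Finset.sum_congr rfl fun l _ => ?_
    rw [map_sum, Finset.sum_mul]
    refine Finset.sum_congr rfl fun i _ => ?_
    rw [map_mul, ← mul_assoc]
    rfl
  refine ⟨Ω₀ × Fin n, inferInstance, B₀ × Fin n, inferInstance,
    fun p => algebraMap E F' (b₀ p.1) * y ^ (p.2 : ℕ), ?_, ?_, ?_,
    fun j p => R₁ j p.1 p.2, ?_, ?_, ?_, ?_, ?_, ?_, ?_⟩
  · rw [Fintype.card_prod, Fintype.card_prod, hcard]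
  · intro f
    obtain ⟨C, hC⟩ := hspan f
    choose c hc using fun l => hspan₀ (C l)
    refine ⟨fun p => c p.2 p.1, ?_⟩
    rw [hsum, hC]
    refine Finset.sum_congr rfl fun l _ => ?_
    rw [hc l]
  · intro c h p
    rw [hsum] at h
    exact hli₀ (fun i => c (i, p.2)) (hli _ h p.2) p.1
  · exact fun j p => (s1 j p.1 p.2).trans (c1 j p.1)
  · exact fun j p a => (s2 j p.1 p.2 a).trans (c2 j p.1 a)
  · exact fun j p f => (s3 j p.1 p.2 (algebraMap F E f)).trans (c3 j p.1 f)
  · exact fun j p f => (s4 j p.1 p.2 (algebraMap F E f)).trans (c4 j p.1 f)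
  · rintro j ⟨w, i⟩ ⟨w', i'⟩ hne
    by_cases h : w = w'
    · subst h
      have hii : i ≠ i' := fun h => hne (by rw [h])
      exact s7 j w i i' hii
    · intro hle
      apply c6 j w w' h
      intro x hx
      exact (s3 j w' i' x).mp (hle ((s3 j w i x).mpr hx))
  · intro j O' hO'
    obtain ⟨w, hw⟩ := c7 j (O'.comap (algebraMap E F')) (fun f => hO' f)
    obtain ⟨i, hi⟩ := s8 j w O' (fun x => by rw [← hw]; exact Iff.rfl)
    exact ⟨(w, i), hi⟩
  · intro j c
    simp only [hsum c]
    constructor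
    · intro h p
      have h1 : ∀ w l, (∑ i, algebraMap F E (c (i, l)) * b₀ i) ∈ (R₀ j w).O :=
        fun w => (s9 j w _).mp (fun i => h (w, i))
      exact (c8 j (fun i => c (i, p.2))).mp (fun w => h1 w p.2) p.1
    · intro h p
      exact (s9 j p.1 _).mpr (fun l => (c8 j (fun i => c (i, l))).mpr (fun i => h (i, l)) p.1) p.2

/-- **Wild step.** `E` an intermediate field for which the conclusion holds, `F' = E(θ)` with
`θ ^ p = v ∈ E`, and at every valuation ring `O'` of `E` over some `(R j).O` the element `v` is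
`c ^ p` times an element of `1 + p² O'`, `c` a root of unity of the constants. -/
theorem h81_wild_step [Finite J] (R : ∀ j, h39_RedDatum K F k (Fb j))
    (hA1 : ∀ j, h39_RankOne (R j).A) (hincJ : ∀ j j', j ≠ j' → ¬ (R j).O ≤ (R j').O)
    (p : ℕ) (hp : p.Prime) (hp2 : p ≠ 2) (hpK : (p : K) ≠ 0)
    (hpA : ∀ j, ((p : K))⁻¹ ∉ (R j).A)
    (lam : K) (hlam : lam ^ (p - 1) = -(p : K)) (ζ : K) (hζ : IsPrimitiveRoot ζ p)
    {F' : Type u} [Field F'] [Algebra K F'] [Algebra F F'] [IsScalarTower K F F']
    (E : IntermediateField F F') (h0 : h81_SplitConcl R E) (θ : F')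
    (htop : IntermediateField.adjoin E ({θ} : Set F') = ⊤) (v : E)
    (hθ : θ ^ p = algebraMap E F' v)
    (hdeep : ∀ j (O' : ValuationSubring E), (∀ f : F, algebraMap F E f ∈ O' ↔ f ∈ (R j).O) →
      ∃ c : K, (∃ m : ℕ, 0 < m ∧ c ^ m = 1) ∧
        (v - algebraMap K E c ^ p) / algebraMap K E ((p : K) ^ 2) ∈ O') :
    h81_SplitConcl R F' := by
  classical
  have : IsScalarTower K E F' := IsScalarTower.of_algebraMap_eq (fun a => rfl)
  by_cases hθE : ∃ e : E, algebraMap E F' e = θ
  · -- the trivial step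
    obtain ⟨e, he⟩ := hθE
    have hsurj : Function.Surjective (algebraMap E F') := by
      intro f
      have hf : f ∈ (⊤ : IntermediateField E F') := IntermediateField.mem_top
      have h1 : IntermediateField.adjoin E ({θ} : Set F') = ⊥ := by
        rw [IntermediateField.adjoin_simple_eq_bot_iff, IntermediateField.mem_bot]
        exact ⟨e, he⟩
      rw [← htop, h1] at hf
      exact IntermediateField.mem_bot.mp hf
    refine h81_family_step R hA1 E h0 1 1 ?_ ?_ (fun j _ => 1)
      (fun j => Function.injective_of_subsingleton _) ?_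
    · intro f
      obtain ⟨f₀, rfl⟩ := hsurj f
      exact ⟨fun _ => f₀, by rw [Fin.sum_univ_one, one_pow, mul_one]⟩
    · intro c h l
      rw [Fin.sum_univ_one, one_pow, mul_one] at h
      have h0 : c 0 = 0 := (_root_.map_eq_zero _).mp h
      rw [Subsingleton.elim l 0]
      exact h0
    · intro j R' _ _ _
      refine ⟨X - C 1, monic_X_sub_C 1, natDegree_X_sub_C 1, ?_, ?_⟩
      · rw [eval₂_sub, eval₂_X, eval₂_C, map_one, sub_self]
      · rw [Polynomial.map_sub, Polynomial.map_X, Polynomial.map_C, map_one, Fin.prod_univ_one]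
  · -- the step of degree `p`
    have hp3 : 3 ≤ p := by
      have := hp.two_le
      omega
    have hθ0 : θ ≠ 0 := by
      rintro rfl
      exact hθE ⟨0, map_zero _⟩
    have hζE : IsPrimitiveRoot (algebraMap K E ζ) p :=
      hζ.map_of_injective (algebraMap K E).injective
    obtain ⟨d, v', hd, hdp, hθd, hnat⟩ := h44_kummer_degree p hp.pos _ hζE θ hθ0 v hθ
    have hdp' : d = p := by
      rcases (Nat.dvd_prime hp).mp hdp with h1 | h1
      · exfalso
        rw [h1, pow_one] at hθd
        exact hθE ⟨v', hθd.symm⟩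
      · exact h1
    rw [hdp'] at hnat
    have hintθ : IsIntegral E θ := by
      refine ⟨X ^ p - C v, monic_X_pow_sub_C v hp.ne_zero, ?_⟩
      rw [eval₂_sub, eval₂_pow, eval₂_X, eval₂_C, hθ, sub_self]
    have hlam0 : lam ≠ 0 := by
      rintro rfl
      rw [zero_pow (by omega)] at hlam
      exact hpK (neg_eq_zero.mp hlam.symm)
    have einv : ((p : K))⁻¹ = -(lam⁻¹) ^ (p - 1) := by
      rw [inv_pow, hlam, inv_neg, neg_neg]
    have h0' := h0
    obtain ⟨Ω₀, hΩ₀, B₀, hB₀, b₀, hcard, hspan₀, hli₀, R₀, c1, c2, c3, c4, c6, c7, c8⟩ := h0'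
    let _ : Fintype Ω₀ := hΩ₀
    -- the sheets of `E`
    let OO : J × Ω₀ → ValuationSubring E := fun q => (R₀ q.1 q.2).O
    have hincO : ∀ q q' : J × Ω₀, q ≠ q' → ¬ OO q ≤ OO q' := by
      rintro ⟨j, w⟩ ⟨j', w'⟩ hne hle
      by_cases hj : j = j'
      · subst hj
        exact c6 j w w' (fun h => hne (by rw [h])) hle
      · apply hincJ j j' hj
        intro f hf
        exact (c3 j' w' f).mp (hle ((c3 j w f).mpr hf))
    have hP20 : algebraMap K E ((p : K) ^ 2) ≠ 0 := (_root_.map_ne_zero _).mpr (pow_ne_zero 2 hpK)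
    have harch : ∀ (q : J × Ω₀) (a : E), (OO q).valuation a < 1 →
        ∃ N : ℕ, (OO q).valuation a ^ N ≤ (OO q).valuation (algebraMap K E ((p : K) ^ 2)) := by
      intro q a ha
      by_cases ha0 : a = 0
      · refine ⟨1, ?_⟩
        rw [ha0, map_zero, pow_one]
        exact zero_le
      · have hA : h39_RankOne (R₀ q.1 q.2).A := by
          rw [c1]
          exact hA1 q.1
        have haO : a ∈ (R₀ q.1 q.2).O := (ValuationSubring.valuation_le_one_iff _ _).mp ha.le
        have hainv : a⁻¹ ∉ (R₀ q.1 q.2).O := by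
          intro h
          have h1 := (ValuationSubring.valuation_le_one_iff _ _).mpr h
          rw [map_inv₀] at h1
          exact absurd h1 (not_le.mpr ((one_lt_inv₀ (pos_iff_ne_zero.mpr
            ((_root_.map_ne_zero _).mpr ha0))).mpr ha))
        obtain ⟨N, hN⟩ := h44_rankOne_O (R₀ q.1 q.2) hA a haO hainv _ hP20
        refine ⟨N, ?_⟩
        have h1 := (ValuationSubring.valuation_le_one_iff _ _).mpr hN
        rw [map_mul, map_pow, map_inv₀] at h1
        have hpos : 0 < (R₀ q.1 q.2).O.valuation (algebraMap K E ((p : K) ^ 2)) :=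
          pos_iff_ne_zero.mpr ((_root_.map_ne_zero _).mpr hP20)
        rwa [mul_inv_le_iff₀ hpos, one_mul] at h1
    -- the constants and the approximation
    have hc : ∀ q : J × Ω₀, ∃ c : K, (∃ m : ℕ, 0 < m ∧ c ^ m = 1) ∧
        (v - algebraMap K E c ^ p) / algebraMap K E ((p : K) ^ 2) ∈ OO q :=
      fun q => hdeep q.1 (OO q) (c3 q.1 q.2)
    choose cc hcc1 hcc2 using hc
    have hccval : ∀ (q : J × Ω₀) (O' : ValuationSubring E),
        O'.valuation (algebraMap K E (cc q)) = 1 := by
      intro q O'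
      obtain ⟨m, hm, h1⟩ := hcc1 q
      exact h81_val_one_of_pow_eq_one O' m hm _ (by rw [← map_pow, h1, map_one])
    obtain ⟨G₀, hG₀mem, hG₀⟩ := h81_val_crt_deep OO hincO (algebraMap K E ((p : K) ^ 2)) harch
      (fun q => algebraMap K E (cc q))
      (fun q q' => (ValuationSubring.valuation_le_one_iff _ _).mp (hccval q (OO q')).le)
    obtain ⟨G, hG0, hGmem, hGdeep⟩ : ∃ G : E, G ≠ 0 ∧ (∀ q, G ∈ OO q) ∧
        ∀ q, (OO q).valuation (G - algebraMap K E (cc q)) ≤
          (OO q).valuation (algebraMap K E ((p : K) ^ 2)) := by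
      by_cases hG : G₀ = 0
      · refine ⟨1, one_ne_zero, fun q => (OO q).one_mem, ?_⟩
        intro q
        exfalso
        have h1 := hG₀ q
        rw [hG, zero_sub, Valuation.map_neg, hccval q (OO q)] at h1
        have h2 : (R₀ q.1 q.2).O.valuation (algebraMap K E ((p : K) ^ 2)) < 1 := by
          rw [map_pow, map_pow]
          refine pow_lt_one₀ zero_le (h81_val_const_lt_one (R₀ q.1 q.2) (p : K) ?_) two_ne_zero
          rw [c1]
          exact hpA q.1
        exact absurd h1 (not_le.mpr h2)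
      · exact ⟨G₀, hG, hG₀mem, hG₀⟩
    -- the generator
    have hGF0 : algebraMap E F' G ≠ 0 := (_root_.map_ne_zero _).mpr hG0
    have hlamE0 : algebraMap K E lam ≠ 0 := (_root_.map_ne_zero _).mpr hlam0
    have hLF0 : algebraMap E F' (algebraMap K E lam) ≠ 0 := (_root_.map_ne_zero _).mpr hlamE0
    set a : F' := algebraMap E F' G with ha
    set l : F' := algebraMap E F' (algebraMap K E lam) with hl
    set y : F' := (θ * a⁻¹ - 1) * l⁻¹ with hy
    have hθy : θ = a * (1 + l * y) := by
      rw [hy]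
      field_simp
      ring
    have hinty : IsIntegral E y := by
      rw [hy, ha, hl, ← map_inv₀, ← map_inv₀]
      exact ((hintθ.mul isIntegral_algebraMap).sub isIntegral_one).mul isIntegral_algebraMap
    have hadj : IntermediateField.adjoin E ({y} : Set F') =
        IntermediateField.adjoin E ({θ} : Set F') := by
      apply le_antisymm
      · rw [IntermediateField.adjoin_simple_le_iff, hy]
        exact mul_mem (sub_mem (mul_mem (IntermediateField.mem_adjoin_simple_self E θ)
          (inv_mem (IntermediateField.algebraMap_mem _ G))) (one_mem _))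
          (inv_mem (IntermediateField.algebraMap_mem _ _))
      · rw [IntermediateField.adjoin_simple_le_iff, hθy]
        exact mul_mem (IntermediateField.algebraMap_mem _ G) (add_mem (one_mem _)
          (mul_mem (IntermediateField.algebraMap_mem _ _)
            (IntermediateField.mem_adjoin_simple_self E y)))
    have hfin : (minpoly E y).natDegree = p := by
      rw [← IntermediateField.adjoin.finrank hinty, ← hnat,
        ← IntermediateField.adjoin.finrank hintθ]
      exact congrArg (fun S : IntermediateField E F' => Module.finrank E S) hadj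
    have hspan := h44_span_of_natDegree y hinty p hfin (hadj.trans htop)
    have hli := h44_li_of_natDegree (E := E) y p hfin
    -- the Artin–Schreier equation of `y`
    have hpF : ((p : ℕ) : F') = -l ^ (p - 1) := by
      have h1 := congrArg (fun z => algebraMap E F' (algebraMap K E z)) hlam
      simp only [map_pow, map_neg, map_natCast] at h1
      rw [hl, h1, neg_neg]
    have hαF : ∀ m : ℕ, algebraMap E F' (algebraMap K E (-(((p.choose m / p : ℕ)) : K) *
        lam ^ (m - 1))) = -(((p.choose m / p : ℕ)) : F') * l ^ (m - 1) := by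
      intro m
      rw [hl]
      simp only [map_mul, map_neg, map_natCast, map_pow]
    have hkey : ∀ m ∈ Finset.Ico 1 p, (l * y) ^ m * 1 ^ (p - m) * ((p.choose m : ℕ) : F') =
        l ^ p * (algebraMap E F' (algebraMap K E (-(((p.choose m / p : ℕ)) : K) *
          lam ^ (m - 1))) * y ^ m) := by
      intro m hm
      obtain ⟨hm1, hmp⟩ := Finset.mem_Ico.mp hm
      have hdvd : p ∣ p.choose m := hp.dvd_choose_self (by omega) hmp
      have e1 : ((p.choose m : ℕ) : F') = ((p : ℕ) : F') * (((p.choose m / p : ℕ)) : F') := by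
        rw [← Nat.cast_mul, Nat.mul_div_cancel' hdvd]
      have e2 : l ^ m = l ^ (m - 1) * l := by
        rw [← pow_succ]
        congr 1
        omega
      have e3 : l ^ p = l ^ (p - 1) * l := by
        rw [← pow_succ]
        congr 1
        omega
      rw [hαF, e1, hpF, one_pow, mul_one, mul_pow, e2, e3]
      ring
    have heq : l ^ p * (y ^ p + ∑ m ∈ Finset.Ico 1 p, algebraMap E F' (algebraMap K E
        (-(((p.choose m / p : ℕ)) : K) * lam ^ (m - 1))) * y ^ m) = (1 + l * y) ^ p - 1 := by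
      have h1 : (l * y + 1) ^ p = 1 + l ^ p * (∑ m ∈ Finset.Ico 1 p, algebraMap E F'
          (algebraMap K E (-(((p.choose m / p : ℕ)) : K) * lam ^ (m - 1))) * y ^ m) +
          l ^ p * y ^ p := by
        rw [add_pow, Finset.sum_range_succ, Finset.range_eq_Ico,
          Finset.sum_eq_sum_Ico_succ_bot hp.pos, Finset.sum_congr rfl hkey, ← Finset.mul_sum,
          mul_pow l y p]
        simp only [pow_zero, Nat.choose_zero_right, Nat.cast_one, Nat.sub_self, Nat.choose_self,
          one_pow, mul_one, Nat.sub_zero]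
      rw [add_comm 1 (l * y), h1, mul_add]
      abel
    have hpow : (1 + l * y) ^ p = algebraMap E F' (v / G ^ p) := by
      have h1 : θ ^ p = a ^ p * (1 + l * y) ^ p := by
        rw [← mul_pow, ← hθy]
      rw [map_div₀, map_pow, ← hθ, h1, ← ha]
      field_simp
    have hrootval : algebraMap E F' ((v / G ^ p - 1) / algebraMap K E (lam ^ p)) =
        y ^ p + ∑ m ∈ Finset.Ico 1 p, algebraMap E F' (algebraMap K E
          (-(((p.choose m / p : ℕ)) : K) * lam ^ (m - 1))) * y ^ m := by
      have h1 : algebraMap E F' (algebraMap K E (lam ^ p)) = l ^ p := by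
        rw [hl, map_pow, map_pow]
      rw [map_div₀, map_sub, map_one, ← hpow, h1, ← heq]
      field_simp
    -- the family step
    refine h81_family_step R hA1 E h0 y p hspan hli (fun j i => (((i : ℕ) : Fb j)))
      (fun j => (h81_X_pow_sub_X (Fb j) p hp (h81_natCast_eq_zero (R j) p (hpA j))).2) ?_
    intro j R' hA' hres' hext'
    obtain ⟨w, hw⟩ := c7 j R'.O hext'
    have hOO : OO (j, w) = R'.O := hw.symm
    have hpA' : ((p : K))⁻¹ ∉ R'.A := by
      rw [hA']
      exact hpA j
    have hlamA : lam ∈ R'.A := by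
      rcases R'.A.mem_or_inv_mem lam with h | h
      · exact h
      · exfalso
        apply hpA'
        rw [einv]
        exact neg_mem (pow_mem h _)
    have hlamA' : lam⁻¹ ∉ R'.A := by
      intro h
      apply hpA'
      rw [einv]
      exact neg_mem (pow_mem h _)
    -- valuations at `R'`
    have hWlam : R'.O.valuation (algebraMap K E lam) < 1 := h81_val_const_lt_one R' lam hlamA'
    have hWc : R'.O.valuation (algebraMap K E (cc (j, w))) = 1 := hccval (j, w) R'.O
    have hWGc : R'.O.valuation (G - algebraMap K E (cc (j, w))) ≤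
        R'.O.valuation (algebraMap K E ((p : K) ^ 2)) := by
      have h1 := hGdeep (j, w)
      rw [hOO] at h1
      exact h1
    have hWv : R'.O.valuation (v - algebraMap K E (cc (j, w)) ^ p) ≤
        R'.O.valuation (algebraMap K E ((p : K) ^ 2)) := by
      have h1 := hcc2 (j, w)
      rw [hOO] at h1
      have h2 := (ValuationSubring.valuation_le_one_iff _ _).mpr h1
      rw [map_div₀] at h2
      exact (div_le_one₀ (pos_iff_ne_zero.mpr ((_root_.map_ne_zero _).mpr hP20))).mp h2
    have hGO : G ∈ R'.O := by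
      have h1 := hGmem (j, w)
      rw [hOO] at h1
      exact h1
    have hP2lt : R'.O.valuation (algebraMap K E ((p : K) ^ 2)) < 1 := by
      rw [map_pow, map_pow]
      exact pow_lt_one₀ zero_le (h81_val_const_lt_one R' (p : K) hpA') two_ne_zero
    have hWG : R'.O.valuation G = 1 := by
      have e : G = algebraMap K E (cc (j, w)) + (G - algebraMap K E (cc (j, w))) := by ring
      rw [e, Valuation.map_add_eq_of_lt_left, hWc]
      rw [hWc]
      exact lt_of_le_of_lt hWGc hP2lt
    have hcO : algebraMap K E (cc (j, w)) ∈ R'.O :=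
      (ValuationSubring.valuation_le_one_iff _ _).mp hWc.le
    have hWGp : R'.O.valuation (G ^ p - algebraMap K E (cc (j, w)) ^ p) ≤
        R'.O.valuation (algebraMap K E ((p : K) ^ 2)) := by
      rw [← geom_sum₂_mul, map_mul]
      have h1 : R'.O.valuation (∑ i ∈ Finset.range p,
          G ^ i * algebraMap K E (cc (j, w)) ^ (p - 1 - i)) ≤ 1 :=
        (ValuationSubring.valuation_le_one_iff _ _).mpr (sum_mem fun i _ =>
          R'.O.mul_mem _ _ (R'.O.pow_mem hGO i) (R'.O.pow_mem hcO _))
      calc R'.O.valuation (∑ i ∈ Finset.range p,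
            G ^ i * algebraMap K E (cc (j, w)) ^ (p - 1 - i)) *
            R'.O.valuation (G - algebraMap K E (cc (j, w)))
          ≤ 1 * R'.O.valuation (G - algebraMap K E (cc (j, w))) := mul_le_mul_left h1 _
        _ = R'.O.valuation (G - algebraMap K E (cc (j, w))) := one_mul _
        _ ≤ R'.O.valuation (algebraMap K E ((p : K) ^ 2)) := hWGc
    have hWvG : R'.O.valuation (v - G ^ p) ≤ R'.O.valuation (algebraMap K E ((p : K) ^ 2)) := by
      have e : v - G ^ p = (v - algebraMap K E (cc (j, w)) ^ p) -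
          (G ^ p - algebraMap K E (cc (j, w)) ^ p) := by ring
      rw [e]
      exact Valuation.map_sub_le _ hWv hWGp
    -- the constant coefficient
    have hWcE : R'.O.valuation ((v / G ^ p - 1) / algebraMap K E (lam ^ p)) < 1 := by
      have e1 : v / G ^ p - 1 = (v - G ^ p) / G ^ p := by
        field_simp
      have e2 : algebraMap K E ((p : K) ^ 2) =
          algebraMap K E (lam ^ p) * algebraMap K E (lam ^ (p - 2)) := by
        rw [← map_mul]
        congr 1
        have h1 : (p : K) = -lam ^ (p - 1) := by rw [hlam, neg_neg]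
        rw [h1, neg_sq, ← pow_mul, ← pow_add]
        congr 1
        omega
      have hLp0 : R'.O.valuation (algebraMap K E (lam ^ p)) ≠ 0 :=
        (_root_.map_ne_zero _).mpr ((_root_.map_ne_zero _).mpr (pow_ne_zero _ hlam0))
      have h1 : R'.O.valuation ((v / G ^ p - 1) / algebraMap K E (lam ^ p)) ≤
          R'.O.valuation (algebraMap K E (lam ^ (p - 2))) := by
        rw [e1, map_div₀, map_div₀, map_pow, hWG, one_pow, div_one,
          div_le_iff₀ (pos_iff_ne_zero.mpr hLp0), mul_comm, ← map_mul, ← e2]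
        exact hWvG
      refine lt_of_le_of_lt h1 ?_
      rw [map_pow, map_pow]
      exact pow_lt_one₀ zero_le hWlam (by omega)
    have hcEO : (v / G ^ p - 1) / algebraMap K E (lam ^ p) ∈ R'.O :=
      (ValuationSubring.valuation_le_one_iff _ _).mp hWcE.le
    -- the polynomial
    have hαA : ∀ m : ℕ, -(((p.choose m / p : ℕ)) : K) * lam ^ (m - 1) ∈ R'.A :=
      fun m => R'.A.mul_mem _ _ (R'.A.neg_mem _ (natCast_mem R'.A _)) (R'.A.pow_mem hlamA _)
    let κ : ℕ → R'.O := fun m =>
      ⟨algebraMap K E (-(((p.choose m / p : ℕ)) : K) * lam ^ (m - 1)), (R'.mem_iff _).mp (hαA m)⟩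
    let low : Polynomial R'.O := ∑ m ∈ Finset.Ico 1 p, C (κ m) * X ^ m -
      C ⟨(v / G ^ p - 1) / algebraMap K E (lam ^ p), hcEO⟩
    have hlow : low.degree < (p : WithBot ℕ) := by
      rw [← Polynomial.mem_degreeLT]
      refine Submodule.sub_mem _ (Submodule.sum_mem _ fun m hm => ?_) ?_
      · rw [Polynomial.mem_degreeLT]
        refine lt_of_le_of_lt (degree_C_mul_X_pow_le m _) ?_
        exact_mod_cast (Finset.mem_Ico.mp hm).2
      · rw [Polynomial.mem_degreeLT]
        exact lt_of_le_of_lt degree_C_le (by exact_mod_cast hp.pos)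
    refine ⟨X ^ p + low, monic_X_pow_add hlow, ?_, ?_, ?_⟩
    · rw [natDegree_add_eq_left_of_degree_lt, natDegree_X_pow]
      rw [degree_X_pow]
      exact hlow
    · rw [eval₂_add, eval₂_pow, eval₂_X, eval₂_sub, eval₂_finsetSum, eval₂_C]
      simp only [eval₂_mul, eval₂_C, eval₂_pow, eval₂_X]
      change y ^ p + (∑ m ∈ Finset.Ico 1 p, algebraMap E F' (algebraMap K E
        (-(((p.choose m / p : ℕ)) : K) * lam ^ (m - 1))) * y ^ m -
        algebraMap E F' ((v / G ^ p - 1) / algebraMap K E (lam ^ p))) = 0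
      rw [hrootval]
      ring
    · have hredc : R'.red ⟨(v / G ^ p - 1) / algebraMap K E (lam ^ p), hcEO⟩ = 0 :=
        h81_red_eq_zero_of_val_lt R' _ hcEO hWcE
      have hredκ : ∀ m, R'.red (κ m) = algebraMap k (Fb j) (R'.res ⟨_, hαA m⟩) :=
        fun m => R'.red_algebraMap _ (hαA m) _
      have hreslam : R'.res ⟨lam, hlamA⟩ = 0 := h81_res_eq_zero R' lam hlamA hlamA'
      have hres1 : R'.res ⟨_, hαA 1⟩ = -1 := by
        have e : (⟨-(((p.choose 1 / p : ℕ)) : K) * lam ^ (1 - 1), hαA 1⟩ : R'.A) = -1 := by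
          apply Subtype.ext
          change -(((p.choose 1 / p : ℕ)) : K) * lam ^ (1 - 1) = -1
          rw [Nat.choose_one_right, Nat.div_self hp.pos, Nat.cast_one, Nat.sub_self, pow_zero,
            mul_one]
        rw [e, map_neg, map_one]
      have hresm : ∀ m, 2 ≤ m → R'.res ⟨_, hαA m⟩ = 0 := by
        intro m hm
        have e : (⟨-(((p.choose m / p : ℕ)) : K) * lam ^ (m - 1), hαA m⟩ : R'.A) =
            -(((p.choose m / p : ℕ)) : R'.A) * ⟨lam, hlamA⟩ ^ (m - 1) := by
          apply Subtype.ext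
          simp
        rw [e, map_mul, map_pow, hreslam, zero_pow (by omega), mul_zero]
      rw [Polynomial.map_add, Polynomial.map_pow, Polynomial.map_X, Polynomial.map_sub,
        Polynomial.map_sum, Polynomial.map_C, hredc, C_0, sub_zero,
        Finset.sum_eq_sum_Ico_succ_bot hp.one_lt, Finset.sum_eq_zero, add_zero]
      · rw [Polynomial.map_mul, Polynomial.map_C, Polynomial.map_pow, Polynomial.map_X,
          hredκ 1, hres1, map_neg, map_one, pow_one, C_neg, C_1, neg_one_mul, ← sub_eq_add_neg]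
        exact (h81_X_pow_sub_X (Fb j) p hp (h81_natCast_eq_zero (R j) p (hpA j))).1
      · intro m hm
        have hm2 : 2 ≤ m := (Finset.mem_Ico.mp hm).1
        rw [Polynomial.map_mul, Polynomial.map_C, hredκ m, hresm m hm2, map_zero, C_0, zero_mul]

/-- **Wild splitting, sequence form.** Generators `x 0, …, x (r-1)` of `F'/F` with
`(x t)^p ∈ F(x s : s < t)` and `(x t)^(p^e) = u ∈ 1 + p^(e+1) (R j).O` for all `j`, `1 ≤ e ≤ n`. -/
theorem h81_wildSplit_seq [Finite J] (R : ∀ j, h39_RedDatum K F k (Fb j))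
    (hA1 : ∀ j, h39_RankOne (R j).A) (hincJ : ∀ j j', j ≠ j' → ¬ (R j).O ≤ (R j').O)
    (p : ℕ) (hp : p.Prime) (hp2 : p ≠ 2) (hpK : (p : K) ≠ 0)
    (hpA : ∀ j, ((p : K))⁻¹ ∉ (R j).A)
    (lam : K) (hlam : lam ^ (p - 1) = -(p : K)) (n : ℕ) (hn : 0 < n) (ζ : K)
    (hζ : IsPrimitiveRoot ζ (p ^ n)) :
    ∀ (r : ℕ) (F' : Type u) [Field F'] [Algebra K F'] [Algebra F F'] [IsScalarTower K F F']
      (x : ℕ → F'),
      IntermediateField.adjoin F (x '' Set.Iio r) = ⊤ →
      (∀ t < r, (x t) ^ p ∈ IntermediateField.adjoin F (x '' Set.Iio t)) →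
      (∀ t < r, ∃ (e : ℕ) (u : F), 1 ≤ e ∧ e ≤ n ∧ (x t) ^ (p ^ e) = algebraMap F F' u ∧
        ∀ j, (u - 1) / algebraMap K F ((p : K) ^ (e + 1)) ∈ (R j).O) →
      h81_SplitConcl R F' := by
  have hζp : IsPrimitiveRoot (ζ ^ (p ^ (n - 1))) p := by
    have h1 := hζ.pow_of_dvd (pow_ne_zero (n - 1) hp.ne_zero) (pow_dvd_pow p (Nat.sub_le n 1))
    rw [Nat.pow_div (Nat.sub_le n 1) hp.pos] at h1
    have h2 : n - (n - 1) = 1 := by omega
    rwa [h2, pow_one] at h1
  intro r
  induction r with
  | zero =>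
    intro F' _ _ _ _ x hgen _ _
    refine h81_split_base R hA1 F' ?_
    intro f
    have hf : f ∈ (⊤ : IntermediateField F F') := IntermediateField.mem_top
    have h1 : x '' Set.Iio 0 = ∅ := by
      rw [Set.image_eq_empty]
      ext t
      simp
    rw [← hgen, h1, IntermediateField.adjoin_empty] at hf
    exact IntermediateField.mem_bot.mp hf
  | succ r ih =>
    intro F' _ _ _ _ x hgen hpow hdepth
    classical
    let E : IntermediateField F F' := IntermediateField.adjoin F (x '' Set.Iio r)
    have hxE : ∀ t, t < r → x t ∈ E := fun t ht =>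
      IntermediateField.subset_adjoin F _ ⟨t, ht, rfl⟩
    let x' : ℕ → E := fun t => if h : t < r then ⟨x t, hxE t h⟩ else 0
    have hx' : ∀ t, t < r → ((x' t : E) : F') = x t := by
      intro t ht
      change ((if h : t < r then (⟨x t, hxE t h⟩ : E) else 0 : E) : F') = x t
      rw [dif_pos ht]
    have himg : ∀ t, t ≤ r → (E.val '' (x' '' Set.Iio t)) = x '' Set.Iio t := by
      intro t ht
      ext z
      constructor
      · rintro ⟨_, ⟨s, hs, rfl⟩, rfl⟩
        exact ⟨s, hs, (hx' s (lt_of_lt_of_le hs ht)).symm⟩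
      · rintro ⟨s, hs, rfl⟩
        exact ⟨x' s, ⟨s, hs, rfl⟩, hx' s (lt_of_lt_of_le hs ht)⟩
    have hgen' : IntermediateField.adjoin F (x' '' Set.Iio r) = ⊤ := by
      apply IntermediateField.map_injective E.val
      rw [IntermediateField.adjoin_map, ← AlgHom.fieldRange_eq_map,
        IntermediateField.fieldRange_val, himg r le_rfl]
    have hpow' : ∀ t < r, (x' t) ^ p ∈ IntermediateField.adjoin F (x' '' Set.Iio t) := by
      intro t ht
      have h1 := hpow t (Nat.lt_succ_of_lt ht)
      rw [← himg t ht.le, ← IntermediateField.adjoin_map] at h1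
      obtain ⟨z, hz, hzeq⟩ := (IntermediateField.mem_map _).mp h1
      have h2 : z = (x' t) ^ p := by
        apply Subtype.ext
        have h3 : ((z : E) : F') = x t ^ p := hzeq
        rw [h3, IntermediateField.coe_pow, hx' t ht]
      rw [← h2]
      exact hz
    have hdepth' : ∀ t < r, ∃ (e : ℕ) (u : F), 1 ≤ e ∧ e ≤ n ∧
        (x' t) ^ (p ^ e) = algebraMap F E u ∧
        ∀ j, (u - 1) / algebraMap K F ((p : K) ^ (e + 1)) ∈ (R j).O := by
      intro t ht
      obtain ⟨e, u, he1, hen, hxe, hu⟩ := hdepth t (Nat.lt_succ_of_lt ht)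
      refine ⟨e, u, he1, hen, ?_, hu⟩
      apply Subtype.ext
      rw [IntermediateField.coe_pow, hx' t ht, hxe]
      rfl
    have h0 : h81_SplitConcl R E := ih E x' hgen' hpow' hdepth'
    have : IsScalarTower K E F' := IsScalarTower.of_algebraMap_eq (fun a => rfl)
    have htop : IntermediateField.adjoin E ({x r} : Set F') = ⊤ := by
      apply IntermediateField.restrictScalars_injective F
      rw [IntermediateField.restrictScalars_top]
      change (IntermediateField.adjoin (IntermediateField.adjoin F (x '' Set.Iio r))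
        ({x r} : Set F')).restrictScalars F = ⊤
      rw [IntermediateField.adjoin_adjoin_left, ← hgen]
      congr 1
      ext z
      constructor
      · rintro (⟨s, hs, rfl⟩ | h)
        · exact ⟨s, Nat.lt_succ_of_lt hs, rfl⟩
        · rw [Set.mem_singleton_iff] at h
          exact ⟨r, Nat.lt_succ_self r, h.symm⟩
      · rintro ⟨s, hs, rfl⟩
        rcases Nat.lt_succ_iff_lt_or_eq.mp hs with h | h
        · exact Or.inl ⟨s, h, rfl⟩
        · right
          rw [h]
          exact Set.mem_singleton _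
    have hvE : x r ^ p ∈ E := hpow r (Nat.lt_succ_self r)
    obtain ⟨e, u, he1, hen, hxe, hu⟩ := hdepth r (Nat.lt_succ_self r)
    refine h81_wild_step R hA1 hincJ p hp hp2 hpK hpA lam hlam (ζ ^ (p ^ (n - 1))) hζp E h0
      (x r) htop ⟨x r ^ p, hvE⟩ rfl ?_
    intro j O' hO'
    -- the primitive root of unity of order `p ^ (e - 1)`
    have hζe : IsPrimitiveRoot (ζ ^ (p ^ (n - e + 1))) (p ^ (e - 1)) := by
      have h1 := hζ.pow_of_dvd (pow_ne_zero (n - e + 1) hp.ne_zero)
        (pow_dvd_pow p (by omega : n - e + 1 ≤ n))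
      rw [Nat.pow_div (by omega : n - e + 1 ≤ n) hp.pos] at h1
      have h2 : n - (n - e + 1) = e - 1 := by omega
      rwa [h2] at h1
    have hζeE : IsPrimitiveRoot (algebraMap K E (ζ ^ (p ^ (n - e + 1)))) (p ^ (e - 1)) :=
      hζe.map_of_injective (algebraMap K E).injective
    have hpe : 0 < p ^ (e - 1) := pow_pos hp.pos _
    obtain ⟨ξ, hξ, hξv⟩ := h81_root_depth O' (p ^ (e - 1)) hpe _ hζeE (⟨x r ^ p, hvE⟩ : E)
    have : NeZero (p ^ (e - 1)) := ⟨hpe.ne'⟩
    obtain ⟨i, -, hi⟩ := hζeE.eq_pow_of_pow_eq_one hξ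
    refine ⟨(ζ ^ (p ^ (n - e))) ^ i, ⟨p ^ n, pow_pos hp.pos n, ?_⟩, ?_⟩
    · have h1 : ((ζ ^ (p ^ (n - e))) ^ i) ^ (p ^ n) = (ζ ^ (p ^ n)) ^ (p ^ (n - e) * i) := by
        rw [← pow_mul, ← pow_mul, ← pow_mul]
        congr 1
        ring
      rw [h1, hζ.pow_eq_one, one_pow]
    · have hcp : algebraMap K E ((ζ ^ (p ^ (n - e))) ^ i) ^ p = ξ := by
        rw [← hi, ← map_pow, ← map_pow]
        congr 1
        rw [← pow_mul, ← pow_mul, ← pow_mul]
        congr 1
        have h1 : p ^ (n - e + 1) = p ^ (n - e) * p := pow_succ p (n - e)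
        rw [h1]
        ring
      rw [hcp]
      -- the power equation in `E`
      have hvpow : (⟨x r ^ p, hvE⟩ : E) ^ (p ^ (e - 1)) = algebraMap F E u := by
        apply Subtype.ext
        rw [IntermediateField.coe_pow]
        change (x r ^ p) ^ (p ^ (e - 1)) = algebraMap F F' u
        rw [← pow_mul, ← pow_succ', ← hxe]
        congr 2
        omega
      rw [hvpow] at hξv
      -- valuations
      have hpE0 : O'.valuation (algebraMap K E (p : K)) ≠ 0 :=
        (_root_.map_ne_zero _).mpr ((_root_.map_ne_zero _).mpr hpK)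
      have hdep : O'.valuation (algebraMap F E u - 1) ≤
          O'.valuation (algebraMap K E (p : K)) ^ (e + 1) := by
        have h1 : algebraMap F E ((u - 1) / algebraMap K F ((p : K) ^ (e + 1))) ∈ O' :=
          (hO' _).mpr (hu j)
        have h2 := (ValuationSubring.valuation_le_one_iff _ _).mpr h1
        rw [map_div₀, map_sub, map_one, ← IsScalarTower.algebraMap_apply K F E, map_div₀,
          map_pow, map_pow] at h2
        exact (div_le_one₀ (pos_iff_ne_zero.mpr (pow_ne_zero _ hpE0))).mp h2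
      have hnat : O'.valuation (((p ^ (e - 1) : ℕ) : E)) =
          O'.valuation (algebraMap K E (p : K)) ^ (e - 1) := by
        rw [Nat.cast_pow, ← map_natCast (algebraMap K E) p, map_pow]
      rw [hnat] at hξv
      have h3 : O'.valuation ((⟨x r ^ p, hvE⟩ : E) - ξ) *
          O'.valuation (algebraMap K E (p : K)) ^ (e - 1) ≤
          O'.valuation (algebraMap K E (p : K)) ^ 2 *
            O'.valuation (algebraMap K E (p : K)) ^ (e - 1) := by
        rw [← pow_add]
        have h4 : 2 + (e - 1) = e + 1 := by omega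
        rw [h4]
        exact le_trans hξv hdep
      have h5 := le_of_mul_le_mul_right h3 (pos_iff_ne_zero.mpr (pow_ne_zero _ hpE0))
      rw [← ValuationSubring.valuation_le_one_iff, map_div₀, map_pow, map_pow]
      exact (div_le_one₀ (pos_iff_ne_zero.mpr (pow_ne_zero _ hpE0))).mpr h5

/-- **Wild splitting.** `F' = F(θ i : i)`, `θ i ^ (p ^ n) = u i`, every `u i` in
`1 + p^(n+1) (R j).O` for every `j`: every `R j` splits completely in `F'`. -/
theorem h81_wildSplit [Finite J] (R : ∀ j, h39_RedDatum K F k (Fb j))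
    (hA1 : ∀ j, h39_RankOne (R j).A) (hincJ : ∀ j j', j ≠ j' → ¬ (R j).O ≤ (R j').O)
    (p : ℕ) (hp : p.Prime) (hp2 : p ≠ 2) (hpK : (p : K) ≠ 0)
    (hpA : ∀ j, ((p : K))⁻¹ ∉ (R j).A)
    (lam : K) (hlam : lam ^ (p - 1) = -(p : K)) (n : ℕ) (hn : 0 < n) (ζ : K)
    (hζ : IsPrimitiveRoot ζ (p ^ n))
    {F' : Type u} [Field F'] [Algebra K F'] [Algebra F F'] [IsScalarTower K F F']
    (m : ℕ) (u : Fin m → F) (θ : Fin m → F')
    (hθ : ∀ i, θ i ^ (p ^ n) = algebraMap F F' (u i))
    (hu : ∀ i j, (u i - 1) / algebraMap K F ((p : K) ^ (n + 1)) ∈ (R j).O)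
    (hgen : IntermediateField.adjoin F (Set.range θ) = ⊤) :
    h81_SplitConcl R F' := by
  classical
  let x : ℕ → F' := fun t =>
    if h : t / n < m then θ ⟨t / n, h⟩ ^ (p ^ (n - 1 - t % n)) else 0
  have hdiv : ∀ t, t < m * n → t / n < m := fun t ht => Nat.div_lt_of_lt_mul (by rwa [mul_comm])
  have hx : ∀ t (ht : t < m * n), x t = θ ⟨t / n, hdiv t ht⟩ ^ (p ^ (n - 1 - t % n)) := by
    intro t ht
    change (if h : t / n < m then θ ⟨t / n, h⟩ ^ (p ^ (n - 1 - t % n)) else 0) = _
    rw [dif_pos (hdiv t ht)]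
  refine h81_wildSplit_seq R hA1 hincJ p hp hp2 hpK hpA lam hlam n hn ζ hζ (m * n) F' x ?_ ?_ ?_
  · -- generation
    rw [eq_top_iff, ← hgen]
    apply IntermediateField.adjoin.mono
    rintro _ ⟨i, rfl⟩
    have hlt : i.1 * n + (n - 1) < m * n := by
      have h1 : (i.1 + 1) * n ≤ m * n := Nat.mul_le_mul_right n i.2
      have h2 : (i.1 + 1) * n = i.1 * n + n := by ring
      omega
    refine ⟨i.1 * n + (n - 1), hlt, ?_⟩
    rw [hx _ hlt]
    have h1 : (i.1 * n + (n - 1)) / n = i.1 := by
      rw [Nat.mul_comm, Nat.mul_add_div hn, Nat.div_eq_of_lt (by omega), add_zero]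
    have h2 : (i.1 * n + (n - 1)) % n = n - 1 := by
      rw [Nat.mul_comm, Nat.mul_add_mod, Nat.mod_eq_of_lt (by omega)]
    have h3 : (⟨(i.1 * n + (n - 1)) / n, hdiv _ hlt⟩ : Fin m) = i := Fin.ext h1
    rw [h3, h2, Nat.sub_self, pow_zero, pow_one]
  · -- `p`-th powers
    intro t ht
    have hmod := Nat.mod_lt t hn
    have hdm := Nat.div_add_mod t n
    rw [hx t ht, ← pow_mul, ← pow_succ]
    by_cases hs : t % n = 0
    · have h1 : n - 1 - t % n + 1 = n := by omega
      rw [h1, hθ]
      exact IntermediateField.algebraMap_mem _ _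
    · apply IntermediateField.subset_adjoin
      have ht0 : 0 < t := by
        apply Nat.pos_of_ne_zero
        rintro rfl
        exact hs (Nat.zero_mod n)
      have ht1 : t - 1 < m * n := by omega
      refine ⟨t - 1, by
        change t - 1 < t
        omega, ?_⟩
      rw [hx (t - 1) ht1]
      have e1 : t - 1 = n * (t / n) + (t % n - 1) := by omega
      have h1 : (t - 1) / n = t / n := by
        rw [e1, Nat.mul_add_div hn, Nat.div_eq_of_lt (show t % n - 1 < n by omega), add_zero]
      have h2 : (t - 1) % n = t % n - 1 := by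
        rw [e1, Nat.mul_add_mod, Nat.mod_eq_of_lt (show t % n - 1 < n by omega)]
      have h3 : (⟨(t - 1) / n, hdiv _ ht1⟩ : Fin m) = ⟨t / n, hdiv t ht⟩ := Fin.ext h1
      rw [h3, h2]
      congr 2
      omega
  · -- depth
    intro t ht
    have hmod := Nat.mod_lt t hn
    refine ⟨t % n + 1, u ⟨t / n, hdiv t ht⟩, by omega, by omega, ?_, ?_⟩
    · rw [hx t ht, ← pow_mul, ← pow_add]
      have h1 : n - 1 - t % n + (t % n + 1) = n := by omega
      rw [h1, hθ]
    · intro j
      have h1 := hu ⟨t / n, hdiv t ht⟩ j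
      have hp0 : algebraMap K F (p : K) ≠ 0 := (_root_.map_ne_zero _).mpr hpK
      have e : (u ⟨t / n, hdiv t ht⟩ - 1) / algebraMap K F ((p : K) ^ (t % n + 1 + 1)) =
          (u ⟨t / n, hdiv t ht⟩ - 1) / algebraMap K F ((p : K) ^ (n + 1)) *
            algebraMap K F ((p : K) ^ (n - 1 - t % n)) := by
        have h2 : (p : K) ^ (n + 1) = (p : K) ^ (t % n + 1 + 1) * (p : K) ^ (n - 1 - t % n) := by
          rw [← pow_add]
          congr 1
          omega
        rw [h2, map_mul]
        have h3 : algebraMap K F ((p : K) ^ (t % n + 1 + 1)) ≠ 0 :=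
          (_root_.map_ne_zero _).mpr (pow_ne_zero _ hpK)
        have h4 : algebraMap K F ((p : K) ^ (n - 1 - t % n)) ≠ 0 :=
          (_root_.map_ne_zero _).mpr (pow_ne_zero _ hpK)
        field_simp
      rw [e]
      refine (R j).O.mul_mem _ _ h1 ?_
      rw [map_pow]
      exact (R j).O.pow_mem (((R j).mem_iff _).mp (natCast_mem (R j).A p)) _

end Tower

end Fermat.Agent.S33
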