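import Mathlib
import Fermat.Agent.S33.h9_Crux
import Fermat.Agent.S33.h24_NoTrivPair

/-!
# S33 / (D1) generic core: CRUX ⟹ NoTriv for the kernel of reduction

(helper82.)  Abstract setting of `h9_crux_abs`: `H` a commutative cocommutative bialgebra over
`O`, `Ω` a field over `O`, `A ⊆ Ω` a subring with "maximal ideal" `m`, a family `toHom s` of
`O`-algebra endomorphisms of `Ω` (inertia).  The group of points `WithConv (H →ₐ[O] Ω)` is
identified with an additive group `G` by a multiplicative bijection `e` (the shape of the frozen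
S19 statement), on which the inertia elements act through `actG`.

* `h82_exists_kernel` : the classes whose point is congruent to the unit point modulo `m` form
  a subgroup `K` of `G`, and `actG s z - z ∈ K` for all `s`, `z` (if `toHom s a - a ∈ m` on `A`);
* `h82_notriv_of_crux` : `h24_NoTriv actG K` for every subgroup `K` of such classes
  (`p` odd, `G` finite of `p`-power torsion, `hunr`, `hsep` as in `h9_crux_abs`): by induction on
  the exponent, `x ∈ X'`, `p x ∈ Z` ⟹ `x ∈ Z`, which is exactly CRUX for `N := X' ⊓ Z`.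
-/

set_option autoImplicit false

namespace Fermat.Agent.S33

open WithConv TensorProduct Coalgebra Fermat.Agent.S56

section generic

variable {O : Type*} [CommRing O] {H : Type*} [CommRing H] [Bialgebra O H]
  [Coalgebra.IsCocomm O H] {Ω : Type*} [Field Ω] [Algebra O Ω]

omit [Coalgebra.IsCocomm O H] in
theorem h82_e_one {G : Type*} [AddCommGroup G] (e : WithConv (H →ₐ[O] Ω) ≃ G)
    (hmul : ∀ f g, e (f * g) = e f + e g) : e 1 = 0 := by
  have h := hmul 1 1
  rw [mul_one] at h
  exact left_eq_add.mp h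

omit [Coalgebra.IsCocomm O H] in
theorem h82_e_pow {G : Type*} [AddCommGroup G] (e : WithConv (H →ₐ[O] Ω) ≃ G)
    (hmul : ∀ f g, e (f * g) = e f + e g) (x : WithConv (H →ₐ[O] Ω)) (n : ℕ) :
    e (x ^ n) = n • e x := by
  induction n with
  | zero => rw [pow_zero, zero_smul, h82_e_one e hmul]
  | succ n ih => rw [pow_succ, hmul, ih, succ_nsmul]

omit [Coalgebra.IsCocomm O H] in
theorem h82_symm_add {G : Type*} [AddCommGroup G] (e : WithConv (H →ₐ[O] Ω) ≃ G)
    (hmul : ∀ f g, e (f * g) = e f + e g) (z w : G) :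
    e.symm (z + w) = e.symm z * e.symm w := by
  apply e.injective
  rw [hmul, e.apply_symm_apply, e.apply_symm_apply, e.apply_symm_apply]

/-- **CRUX ⟹ NoTriv** (abstract form): the subgroup of points congruent to the unit point
modulo `m` has no quotient with trivial inertia action. -/
theorem h82_notriv_of_crux (p : ℕ) (hp : p.Prime) (hp2 : p ≠ 2) (hpΩ : (p : Ω) ≠ 0)
    (A : Subring Ω) (m : AddSubgroup Ω) (hmA : ∀ a ∈ m, ∀ b ∈ A, a * b ∈ m)
    {ι : Type*} (toHom : ι → (Ω →ₐ[O] Ω))
    (hunr : ∀ a ∈ m, (∀ s, toHom s a = a) → ∃ b ∈ A, a = (p : Ω) * b)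
    (hsep : ∀ a : Ω, (∀ n : ℕ, ∃ b ∈ A, a = (p : Ω) ^ n * b) → a = 0)
    {G : Type*} [AddCommGroup G] [Finite G]
    (e : WithConv (H →ₐ[O] Ω) ≃ G) (hmul : ∀ f g, e (f * g) = e f + e g)
    (hval : ∀ (x : WithConv (H →ₐ[O] Ω)) (h : H), x.ofConv h ∈ A)
    (htor : ∀ z : G, ∃ k : ℕ, p ^ k • z = 0)
    (actG : ι → G → G) (hact : ∀ s x, e (h9_conj (toHom s) x) = actG s (e x))
    (K : AddSubgroup G)
    (hK : ∀ z ∈ K, ∀ h, (e.symm z).ofConv h - algebraMap O Ω (counit (R := O) h) ∈ m) :
    h24_NoTriv actG K := by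
  classical
  intro X' Z hX'K hstab hI
  have : Finite (WithConv (H →ₐ[O] Ω)) := Finite.of_equiv G e.symm
  have : Fintype (WithConv (H →ₐ[O] Ω)) := Fintype.ofFinite _
  have he1 : e 1 = 0 := h82_e_one e hmul
  have key : ∀ k : ℕ, ∀ z ∈ X', p ^ k • z = 0 → z ∈ Z := by
    intro k
    induction k with
    | zero =>
      intro z _ hz
      rw [pow_zero, one_smul] at hz
      rw [hz]
      exact Z.zero_mem
    | succ k ih =>
      intro z hzX hz
      have hpz : p • z ∈ Z := by
        refine ih (p • z) (X'.nsmul_mem hzX p) ?_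
        rw [← mul_smul, ← pow_succ]
        exact hz
      let N : Finset (WithConv (H →ₐ[O] Ω)) := Finset.univ.filter (fun x => e x ∈ X' ∧ e x ∈ Z)
      have hN : ∀ x, x ∈ N ↔ e x ∈ X' ∧ e x ∈ Z := by
        intro x
        simp [N]
      have hZst : ∀ s, ∀ x ∈ X', x ∈ Z → actG s x ∈ Z := by
        intro s x hx hxZ
        have := Z.add_mem (hI s x hx) hxZ
        rwa [sub_add_cancel] at this
      have hx : e.symm z ∈ N := by
        refine h9_crux_abs p hp hp2 hpΩ A m hmA (Set.range toHom) ?_ hsep N ?_ ?_ ?_ ?_ ?_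
          (e.symm z) (hval _) ?_ ?_ ?_
        · intro a ha hfix
          exact hunr a ha fun s => hfix _ ⟨s, rfl⟩
        · rw [hN, he1]
          exact ⟨X'.zero_mem, Z.zero_mem⟩
        · intro a ha b hb
          rw [hN] at ha hb ⊢
          rw [hmul]
          exact ⟨X'.add_mem ha.1 hb.1, Z.add_mem ha.2 hb.2⟩
        · intro a ha
          rw [hN] at ha
          refine ⟨e.symm (-e a), ?_, ?_⟩
          · rw [hN, e.apply_symm_apply]
            exact ⟨X'.neg_mem ha.1, Z.neg_mem ha.2⟩
          · apply e.injective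
            rw [hmul, e.apply_symm_apply, he1, add_neg_cancel]
        · intro n _ h
          exact hval n h
        · rintro _ ⟨s, rfl⟩ n hn
          rw [hN] at hn ⊢
          rw [hact]
          exact ⟨hstab s _ hn.1, hZst s _ hn.1 hn.2⟩
        · exact hK z (hX'K hzX)
        · rw [hN, h82_e_pow e hmul, e.apply_symm_apply]
          exact ⟨X'.nsmul_mem hzX p, hpz⟩
        · rintro _ ⟨s, rfl⟩
          refine ⟨e.symm (actG s z - z), ?_, ?_⟩
          · rw [hN, e.apply_symm_apply]
            exact ⟨X'.sub_mem (hstab s z hzX) hzX, hI s z hzX⟩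
          · apply e.injective
            rw [hact, hmul, e.apply_symm_apply, e.apply_symm_apply, add_sub_cancel]
      have h2 := (hN _).mp hx
      rw [e.apply_symm_apply] at h2
      exact h2.2
  intro z hz
  obtain ⟨k, hk⟩ := htor z
  exact key k z hz hk

/-- the predicate "congruent to the unit point modulo `m`". -/
def h82_Red (m : AddSubgroup Ω) (x : WithConv (H →ₐ[O] Ω)) : Prop :=
  ∀ h, x.ofConv h - algebraMap O Ω (counit (R := O) h) ∈ m

omit [Coalgebra.IsCocomm O H] in
theorem h82_red_one (m : AddSubgroup Ω) : h82_Red m (1 : WithConv (H →ₐ[O] Ω)) := by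
  intro h
  have h0 : (1 : WithConv (H →ₐ[O] Ω)).ofConv h - algebraMap O Ω (counit (R := O) h) = 0 :=
    sub_self _
  rw [h0]
  exact m.zero_mem

theorem h82_red_mul (A : Subring Ω) (m : AddSubgroup Ω) (hmA : ∀ a ∈ m, ∀ b ∈ A, a * b ∈ m)
    (hmle : ∀ a ∈ m, a ∈ A) {x y : WithConv (H →ₐ[O] Ω)} (hx : h82_Red m x)
    (hy : h82_Red m y) : h82_Red m (x * y) := by
  intro h
  have key : h9_pt (x * y) - 1 = (h9_pt x - 1) * (h9_pt y - 1) + (h9_pt x - 1) + (h9_pt y - 1) := by
    rw [h9_pt_mul]
    ring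
  have h1 : ((h9_pt x - 1) * (h9_pt y - 1)) h ∈ m.toAddSubmonoid :=
    h9_val_mul (m : Set Ω) (m : Set Ω) m.toAddSubmonoid
      (fun a ha b hb => hmA a ha b (hmle b hb)) (h9_pt x - 1) (h9_pt y - 1)
      (fun h' => hx h') (fun h' => hy h') h
  have h2 : (h9_pt (x * y) - 1) h ∈ m := by
    rw [key]
    exact m.add_mem (m.add_mem h1 (hx h)) (hy h)
  exact h2

theorem h82_red_pow (A : Subring Ω) (m : AddSubgroup Ω) (hmA : ∀ a ∈ m, ∀ b ∈ A, a * b ∈ m)
    (hmle : ∀ a ∈ m, a ∈ A) {x : WithConv (H →ₐ[O] Ω)} (hx : h82_Red m x) (n : ℕ) :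
    h82_Red m (x ^ n) := by
  induction n with
  | zero =>
    rw [pow_zero]
    exact h82_red_one m
  | succ n ih =>
    rw [pow_succ]
    exact h82_red_mul A m hmA hmle ih hx

/-- the "kernel of reduction" is a subgroup which contains `(σ - 1) G` for the inertia
elements `σ`. -/
theorem h82_exists_kernel (A : Subring Ω) (m : AddSubgroup Ω)
    (hmA : ∀ a ∈ m, ∀ b ∈ A, a * b ∈ m) (hmle : ∀ a ∈ m, a ∈ A)
    {ι : Type*} (toHom : ι → (Ω →ₐ[O] Ω)) (hin : ∀ s, ∀ a ∈ A, toHom s a - a ∈ m)
    {G : Type*} [AddCommGroup G]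
    (e : WithConv (H →ₐ[O] Ω) ≃ G) (hmul : ∀ f g, e (f * g) = e f + e g)
    (hval : ∀ (x : WithConv (H →ₐ[O] Ω)) (h : H), x.ofConv h ∈ A)
    (htor : ∀ z : G, ∃ k : ℕ, 0 < k ∧ k • z = 0)
    (actG : ι → G → G) (hact : ∀ s x, e (h9_conj (toHom s) x) = actG s (e x)) :
    ∃ K : AddSubgroup G,
      (∀ z ∈ K, ∀ h, (e.symm z).ofConv h - algebraMap O Ω (counit (R := O) h) ∈ m) ∧
      ∀ s z, actG s z - z ∈ K := by
  have he1 : e 1 = 0 := h82_e_one e hmul
  have hsymm0 : e.symm 0 = 1 := by
    rw [← he1, e.symm_apply_apply]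
  let K : AddSubgroup G :=
    { carrier := {z | h82_Red m (e.symm z)}
      zero_mem' := by
        show h82_Red m (e.symm 0)
        rw [hsymm0]
        exact h82_red_one m
      add_mem' := by
        intro z w hz hw
        show h82_Red m (e.symm (z + w))
        rw [h82_symm_add e hmul]
        exact h82_red_mul A m hmA hmle hz hw
      neg_mem' := by
        intro z hz
        show h82_Red m (e.symm (-z))
        obtain ⟨k, hk0, hk⟩ := htor z
        have h1 : e.symm (-z) = e.symm z ^ (k - 1) := by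
          apply e.injective
          rw [h82_e_pow e hmul, e.apply_symm_apply, e.apply_symm_apply]
          have h2 : (k - 1) • z + z = 0 := by
            rw [← succ_nsmul, Nat.sub_add_cancel hk0, hk]
          exact (eq_neg_of_add_eq_zero_left h2).symm
        rw [h1]
        exact h82_red_pow A m hmA hmle hz _ }
  refine ⟨K, fun z hz => hz, ?_⟩
  intro s z
  show h82_Red m (e.symm (actG s z - z))
  set x := e.symm z with hx
  set y := e.symm (actG s z - z) with hy
  set w := e.symm (-z) with hw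
  have hxy : h9_conj (toHom s) x = x * y := by
    apply e.injective
    rw [hact, hmul, hx, hy, e.apply_symm_apply, e.apply_symm_apply, add_sub_cancel]
  have hwx : w * x = 1 := by
    apply e.injective
    rw [hmul, hw, hx, e.apply_symm_apply, e.apply_symm_apply, he1, neg_add_cancel]
  have key : h9_pt y - 1 = h9_pt w * (h9_pt (h9_conj (toHom s) x) - h9_pt x) := by
    rw [hxy, h9_pt_mul, mul_sub, ← mul_assoc, ← h9_pt_mul, hwx, h9_pt_one, one_mul]
  intro h
  have h1 : (h9_pt w * (h9_pt (h9_conj (toHom s) x) - h9_pt x)) h ∈ m.toAddSubmonoid :=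
    h9_val_mul (A : Set Ω) (m : Set Ω) m.toAddSubmonoid
      (fun a ha b hb => by rw [mul_comm]; exact hmA b hb a ha) (h9_pt w)
      (h9_pt (h9_conj (toHom s) x) - h9_pt x) (fun h' => hval w h')
      (fun h' => hin s _ (hval x h')) h
  have h2 : (h9_pt y - 1) h ∈ m := by
    rw [key]
    exact h1
  exact h2

end generic

end Fermat.Agent.S33
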