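import Mathlib
import Fermat.Agent.S33.h84_NMinEnd
import Fermat.Agent.S33.h15_ASLat
import Fermat.Agent.S37.h82_FI

/-!
# S33 / (N2) "N-min": the PULLBACK PACKAGE and the one-call tail (helper84)

`S : h15_ASData D F' p` the Artin–Schreier model of a degree-`p` cover `F'/F` over a lattice
datum `D` with two-component special fibre.

* `h84_lat_redF_algebraMap` : `S.lat.redF (algebraMap F F' f) a = D.redF f` for `f ∈ O`;
* `h84_pullback_pkg` : the balanced chart function `x` of the base (`div x = D2 - N • D0`, both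
  reductions with a pole of order `≥ N` at `Qinf`) pulled back to the cover: exactly the chart
  binders `hD0' hdegD0' hD2' hdisj' hx0 hxO hxinvO hxdiv hxb1 hxb2` of `h84_nmin_end` for
  `D' := S.lat`, `D0' := Divisor.pullback F' D0`, `D2' := Divisor.pullback F' D2`,
  `x' := algebraMap F F' x`;
* `h84_nmin_end_S` : the tail of `h85_nmin` in ONE call: base chart + the outputs of the rows
  NODE' (+ COMMUTE), SHIFT, TAU for `S.lat` are contradictory.
-/

set_option autoImplicit false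

noncomputable section

open AlgebraicCurve Module Polynomial

namespace Fermat.Agent.S33

open Fermat.Agent.S34 Fermat.Agent.S18 Fermat.Agent.S24 Fermat.Agent.S27 Fermat.Agent.S37

variable {K F k Fb : Type*} [Field K] [Field F] [Algebra K F] [Field k] [Field Fb] [Algebra k Fb]
variable {F' : Type*} [Field F'] [Algebra F F'] [Algebra K F'] [IsScalarTower K F F']

/-- The reduction of the cover lattice on the base field is the diagonal of the reduction of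
the base lattice (`redF` form). -/
theorem h84_lat_redF_algebraMap {Rb : Type*} [CommRing Rb] [Algebra k Rb] {n : ℕ}
    {D : h22_Lat K F k Rb} (S : h15_ASData D F' n) (f : F) (hf : f ∈ D.O) (a : Fin n) :
    S.lat.redF (algebraMap F F' f) a = D.redF f := by
  have h : algebraMap F F' f ∈ S.lat.O := (S.algebraMap_mem_O'_iff f).mpr hf
  rw [S.lat.redF_of_mem h, D.redF_of_mem hf]
  exact S.lat_red_algebraMap f hf h a

/-- **The PULLBACK PACKAGE**: the chart binders of `h84_nmin_end` for the cover lattice `S.lat`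
from the chart binders of the base. -/
theorem h84_pullback_pkg [IsAlgClosed K] [CharZero K] {xF : F} (hxF : h75_IsChart K xF)
    [FiniteDimensional F F'] [Algebra.IsIntegral F F'] [HasPrincipalDivisors K F']
    {p : ℕ} {D : h22_Lat K F k (Fb × Fb)} (S : h15_ASData D F' p)
    (D0 D2 : Divisor K F) (hD0 : ∀ v, 0 ≤ D0 v) (hdegD0 : 1 ≤ Divisor.degree D0)
    (hD2 : ∀ v, 0 ≤ D2 v) (hdisj : ∀ v, D0 v = 0 ∨ D2 v = 0)
    (N : ℕ) (x : F) (hx0 : x ≠ 0) (hxO : x ∈ D.O) (hxinvO : x⁻¹ ∈ D.O)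
    (hxdiv : ∀ v : Place K F, v.ord x = D2 v - (N : ℤ) * D0 v)
    (Qinf : Place k Fb)
    (hxb1 : Qinf.ord (D.redF x).1 ≤ -(N : ℤ)) (hxb2 : Qinf.ord (D.redF x).2 ≤ -(N : ℤ)) :
    (∀ w, 0 ≤ Divisor.pullback F' D0 w) ∧ 1 ≤ Divisor.degree (Divisor.pullback F' D0) ∧
    (∀ w, 0 ≤ Divisor.pullback F' D2 w) ∧
    (∀ w, Divisor.pullback F' D0 w = 0 ∨ Divisor.pullback F' D2 w = 0) ∧
    algebraMap F F' x ≠ 0 ∧ algebraMap F F' x ∈ S.lat.O ∧ (algebraMap F F' x)⁻¹ ∈ S.lat.O ∧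
    (∀ w : Place K F', w.ord (algebraMap F F' x) =
      Divisor.pullback F' D2 w - (N : ℤ) * Divisor.pullback F' D0 w) ∧
    (∀ a, Qinf.ord (S.lat.redF (algebraMap F F' x) a).1 ≤ -(N : ℤ)) ∧
    (∀ a, Qinf.ord (S.lat.redF (algebraMap F F' x) a).2 ≤ -(N : ℤ)) := by
  refine ⟨?_, ?_, ?_, ?_, ?_, ?_, ?_, ?_, ?_, ?_⟩
  · intro w
    rw [Divisor.pullback_apply]
    exact mul_nonneg (Int.natCast_nonneg _) (hD0 _)
  · haveI : FundamentalIdentity K F F' := h82_FI ⟨xF, hxF.fin⟩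
    rw [Divisor.degree_pullback]
    have h1 : (1 : ℤ) ≤ (Module.finrank F F' : ℤ) := by
      have : 0 < Module.finrank F F' := Module.finrank_pos
      exact_mod_cast this
    nlinarith
  · intro w
    rw [Divisor.pullback_apply]
    exact mul_nonneg (Int.natCast_nonneg _) (hD2 _)
  · intro w
    rw [Divisor.pullback_apply, Divisor.pullback_apply]
    rcases hdisj (w.restrict F) with h | h
    · left
      rw [h, mul_zero]
    · right
      rw [h, mul_zero]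
  · rw [Ne, map_eq_zero]
    exact hx0
  · exact (S.algebraMap_mem_O'_iff x).mpr hxO
  · rw [← map_inv₀]
    exact (S.algebraMap_mem_O'_iff x⁻¹).mpr hxinvO
  · intro w
    exact h53_ord_pullback N hxdiv w
  · intro a
    rw [h84_lat_redF_algebraMap S x hxO a]
    exact hxb1
  · intro a
    rw [h84_lat_redF_algebraMap S x hxO a]
    exact hxb2

/-- **(N2) tail in one call.**  For the Artin–Schreier model `S` of a charted cover `F'/F`:
the base chart data together with the outputs of NODE' (+ COMMUTE), SHIFT and TAU for `S.lat`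
are contradictory. -/
theorem h84_nmin_end_S [IsAlgClosed K] [IsAlgClosed k] [CharZero K] {xF : F}
    (hxF : h75_IsChart K xF) {xF' : F'} (hxF' : h75_IsChart K xF')
    {xb : Fb} (hxb : h75_IsChart k xb)
    [FiniteDimensional F F'] [Algebra.IsIntegral F F'] [HasPrincipalDivisors K F']
    {p : ℕ} (hp : p.Prime) [CharP k p]
    {D : h22_Lat K F k (Fb × Fb)} (S : h15_ASData D F' p) (hON' : h22_ON S.lat)
    (hRk : h39_RankOne D.A) (q : K) (hq : q ∈ D.A.nonunits) (hq0 : q ≠ 0)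
    (D0 D2 : Divisor K F) (hD0 : ∀ v, 0 ≤ D0 v) (hdegD0 : 1 ≤ Divisor.degree D0)
    (hD2 : ∀ v, 0 ≤ D2 v) (hdisj : ∀ v, D0 v = 0 ∨ D2 v = 0)
    (N : ℕ) (hN : 1 ≤ N)
    (x : F) (hx0 : x ≠ 0) (hxO : x ∈ D.O) (hxinvO : x⁻¹ ∈ D.O)
    (hxdiv : ∀ v : Place K F, v.ord x = D2 v - (N : ℤ) * D0 v)
    (Qinf : Place k Fb)
    (hxb1 : Qinf.ord (D.redF x).1 ≤ -(N : ℤ)) (hxb2 : Qinf.ord (D.redF x).2 ≤ -(N : ℤ))
    (Sg : Finset (Place k Fb)) (Φ : Place k Fb → Place k Fb) (hΦ : Function.Injective Φ)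
    (hSg : ∀ Q ∈ Sg, Q ≠ Qinf ∧ Φ Q ≠ Qinf)
    (σ : {Q // Q ∈ Sg} → Equiv.Perm (Fin p)) (n1 : ℕ)
    (hσ : ∀ n, n1 ≤ n → ∀ f : Fin p → Fb × Fb,
      f ∈ h51_Rd S.lat (n • Divisor.pullback F' D0) ↔ (∀ a, f a ∈ h20_P Qinf n) ∧
        ∀ Q (hQ : Q ∈ Sg), ∀ a, ∃ c : k, h39_Val (Φ Q) (f a).1 c ∧
          h39_Val Q (f (σ ⟨Q, hQ⟩ a)).2 c)
    (hcomm : ∀ s1 s2 : Fin p → Fin p,
      (∀ n : ℕ, ∀ f ∈ h51_Rd S.lat (n • Divisor.pullback F' D0),
        (fun a => ((f (s1 a)).1, (f (s2 a)).2)) ∈ h51_Rd S.lat (n • Divisor.pullback F' D0)) →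
      ∀ ν a, σ ν (s1 a) = s2 (σ ν a))
    (s : Fin p → Fin p) (hs : ∀ a, S.r (s a) = S.r a + 1)
    (hsstab : ∀ n : ℕ, ∀ f ∈ h51_Rd S.lat (n • Divisor.pullback F' D0),
      (fun a => f (s a)) ∈ h51_Rd S.lat (n • Divisor.pullback F' D0))
    (c : ℕ) (hc : ¬ c ≡ 1 [MOD p]) (s1 s2 : Fin p → Fin p) (β1 β2 : k)
    (hs1 : ∀ a, (c : k) * S.r (s1 a) = S.r a + β1)
    (hs2 : ∀ a, (c : k) * S.r (s2 a) = S.r a + β2)
    (hτstab : ∀ n : ℕ, ∀ f ∈ h51_Rd S.lat (n • Divisor.pullback F' D0),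
      (fun a => ((f (s1 a)).1, (f (s2 a)).2)) ∈ h51_Rd S.lat (n • Divisor.pullback F' D0)) :
    False := by
  obtain ⟨hD0', hdegD0', hD2', hdisj', hx0', hxO', hxinvO', hxdiv', hxb1', hxb2'⟩ :=
    h84_pullback_pkg hxF S D0 D2 hD0 hdegD0 hD2 hdisj N x hx0 hxO hxinvO hxdiv Qinf hxb1 hxb2
  exact h84_nmin_end hxF' hxb hp S.lat hON' hRk q hq hq0 (Divisor.pullback F' D0)
    (Divisor.pullback F' D2) hD0' hdegD0' hD2' hdisj' N hN (algebraMap F F' x) hx0' hxO'
    hxinvO' hxdiv' Qinf hxb1' hxb2' Sg Φ hΦ hSg σ n1 hσ hcomm S.r S.r_injective s hs hsstab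
    c hc s1 s2 β1 β2 hs1 hs2 hτstab

end Fermat.Agent.S33

end
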