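import Mathlib
import Fermat.Agent.GAL.h67_GalPlace
import Fermat.Prelude.Def_AlgebraicCurve_DivisorPushPull
import Fermat.Prelude.Def_AlgebraicCurve_Repartitions

/-!
# S33 (N2): Riemann-Roch spaces of pulled-back divisors under semilinear automorphisms

`F'/F` an integral extension of function fields over `K`, `g` a semilinear automorphism of `F`,
`g'` a semilinear automorphism of `F'` extending `g`.  Then restriction of places, ramification
indices and pull-back of divisors are equivariant, and `g'` maps `L'(π^* B)` into
`L'(π^* (g • B))`.  (Generic: Prelude + `GAL/h67_GalPlace`.)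
-/

set_option autoImplicit false

noncomputable section

open AlgebraicCurve

namespace Fermat.Agent.S33

open Fermat.Agent.GAL

variable {K F F' : Type*} [Field K] [Field F] [Field F'] [Algebra K F] [Algebra K F']
  [Algebra F F'] [IsScalarTower K F F']

/-- the inverse of an extension extends the inverse -/
theorem h85_ext_inv {g : SemilinearAut K F} {g' : SemilinearAut K F'}
    (hext : ∀ a : F, g' • algebraMap F F' a = algebraMap F F' (g • a)) (a : F) :
    g'⁻¹ • algebraMap F F' a = algebraMap F F' (g⁻¹ • a) := by
  have h := hext (g⁻¹ • a)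
  rw [smul_inv_smul] at h
  rw [← h, inv_smul_smul]

variable [Algebra.IsIntegral F F']

/-- **Restriction of places is equivariant.** -/
theorem h85_restrict_smul {g : SemilinearAut K F} {g' : SemilinearAut K F'}
    (hext : ∀ a : F, g' • algebraMap F F' a = algebraMap F F' (g • a)) (w : Place K F') :
    (g' • w).restrict F = g • (w.restrict F) := by
  apply Place.ext
  ext x
  change x ∈ ((g' • w).restrict F).toValuationSubring ↔
    x ∈ (g • w.restrict F).toValuationSubring
  rw [Place.mem_restrict_iff, h67_mem_smul_place, h67_mem_smul_place, Place.mem_restrict_iff,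
    h85_ext_inv hext]

omit [Algebra.IsIntegral F F'] in
theorem h85_ord_smul_algebraMap {g : SemilinearAut K F} {g' : SemilinearAut K F'}
    (hext : ∀ a : F, g' • algebraMap F F' a = algebraMap F F' (g • a)) (w : Place K F') (f : F) :
    (g' • w).ord (algebraMap F F' (g • f)) = w.ord (algebraMap F F' f) := by
  rw [← hext f]
  exact SemilinearAut.ord_smul g' w (algebraMap F F' f)

omit [Algebra.IsIntegral F F'] in
/-- **Ramification indices are invariant.** -/
theorem h85_ramificationIndex_smul {g : SemilinearAut K F} {g' : SemilinearAut K F'}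
    (hext : ∀ a : F, g' • algebraMap F F' a = algebraMap F F' (g • a)) (w : Place K F') :
    (g' • w).ramificationIndex F = w.ramificationIndex F := by
  unfold Place.ramificationIndex
  congr 1
  ext n
  simp only [Set.mem_setOf_eq]
  constructor
  · rintro ⟨hn, f, hf, hfo⟩
    refine ⟨hn, g⁻¹ • f, ?_, ?_⟩
    · intro h0
      apply hf
      have := congrArg (g • ·) h0
      simpa using this
    · rw [← hfo, ← h85_ord_smul_algebraMap hext w (g⁻¹ • f), smul_inv_smul]
  · rintro ⟨hn, f, hf, hfo⟩
    refine ⟨hn, g • f, ?_, ?_⟩
    · intro h0
      apply hf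
      have := congrArg (g⁻¹ • ·) h0
      simpa using this
    · rw [← hfo, h85_ord_smul_algebraMap hext w f]

variable [HasPrincipalDivisors K F']

/-- **Pull-back of divisors is equivariant** (pointwise form). -/
theorem h85_pullback_smul_apply {g : SemilinearAut K F} {g' : SemilinearAut K F'}
    (hext : ∀ a : F, g' • algebraMap F F' a = algebraMap F F' (g • a)) (B : Divisor K F)
    (w : Place K F') :
    Divisor.pullback F' (g • B) w = Divisor.pullback F' B (g'⁻¹ • w) := by
  rw [Divisor.pullback_apply, Divisor.pullback_apply, SemilinearAut.divisor_smul_apply,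
    h85_restrict_smul (h85_ext_inv hext), h85_ramificationIndex_smul (h85_ext_inv hext)]

/-- **Pull-back of divisors is equivariant.** -/
theorem h85_pullback_smul {g : SemilinearAut K F} {g' : SemilinearAut K F'}
    (hext : ∀ a : F, g' • algebraMap F F' a = algebraMap F F' (g • a)) (B : Divisor K F) :
    Divisor.pullback F' (g • B) = g' • Divisor.pullback F' B := by
  ext w
  rw [h85_pullback_smul_apply hext, SemilinearAut.divisor_smul_apply]

/-- **`g'` maps `L'(π^* B)` into `L'(π^* (g • B))`.** -/
theorem h85_smul_mem_rr_pullback {g : SemilinearAut K F} {g' : SemilinearAut K F'}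
    (hext : ∀ a : F, g' • algebraMap F F' a = algebraMap F F' (g • a)) (B : Divisor K F)
    {f : F'} (hf : f ∈ riemannRochSpace (Divisor.pullback F' B)) :
    g' • f ∈ riemannRochSpace (Divisor.pullback F' (g • B)) := by
  rw [mem_riemannRochSpace_iff] at hf ⊢
  intro w
  rcases hf (g'⁻¹ • w) with h0 | h1
  · left
    rw [h0, smul_zero]
  · right
    rw [h85_pullback_smul_apply hext]
    have h2 := SemilinearAut.ord_smul g' (g'⁻¹ • w) f
    rw [smul_inv_smul] at h2
    rw [h2]
    exact h1

/-- the invariant case -/
theorem h85_smul_mem_rr_pullback_of_fix {g : SemilinearAut K F} {g' : SemilinearAut K F'}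
    (hext : ∀ a : F, g' • algebraMap F F' a = algebraMap F F' (g • a)) (B : Divisor K F)
    (hB : g • B = B)
    {f : F'} (hf : f ∈ riemannRochSpace (Divisor.pullback F' B)) :
    g' • f ∈ riemannRochSpace (Divisor.pullback F' B) := by
  have h := h85_smul_mem_rr_pullback hext B hf
  rwa [hB] at h

end Fermat.Agent.S33
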