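import Mathlib
import Fermat.Agent.S34.h34_ExtAut
import Fermat.Agent.S18.RR_Riemann
import Fermat.Prelude.Def_AlgebraicCurve_BaseChangeGalois

/-!
# S33 (N2), row R9 (TAU), part 1: the semilinear lift of an automorphism fixing a Kummer class

`F/K` a function field with a chart (`K` algebraically closed), `(E₀, u₀)` a Kummer pair
(`p E₀ = div u₀`), `g'` a semilinear automorphism of `F` with `g' • E₀ - E₀` principal.  Then

* `h85_exists_pow_of_fix` : `g' • u₀ = H ^ p * u₀` for some `H ∈ Fˣ`;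
* `h85_exists_lift` : for `F' = F(θ)`, `θ ^ p = u₀`, `ζ ∈ K` a primitive `p`-th root of unity,
  `g'` lifts to a semilinear automorphism `τ'` of `F'` with `τ' • θ = H θ`, `H ^ p u₀ = g' • u₀`.
-/

set_option autoImplicit false

noncomputable section

open AlgebraicCurve

namespace Fermat.Agent.S33

open Fermat.Agent.S18 Fermat.Agent.S34

variable {K F : Type*} [Field K] [Field F] [Algebra K F]

/-- the order of a translate -/
theorem h85_ord_smul' (g : SemilinearAut K F) (v : Place K F) (f : F) :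
    v.ord (g • f) = (g⁻¹ • v).ord f := by
  have h := SemilinearAut.ord_smul g (g⁻¹ • v) f
  rwa [smul_inv_smul] at h

theorem h85_ord_pow (v : Place K F) {f : F} (hf : f ≠ 0) (n : ℕ) :
    v.ord (f ^ n) = (n : ℤ) * v.ord f := by
  induction n with
  | zero => simp
  | succ n ih =>
    rw [pow_succ, v.ord_mul (pow_ne_zero n hf) hf, ih]
    push_cast
    ring

/-- a function without zeros and poles is a nonzero constant -/
theorem h85_const_of_ord_zero [IsAlgClosed K] {xF : F} (hxF : h75_IsChart K xF) (f : F)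
    (hf : f ≠ 0) (h : ∀ v : Place K F, v.ord f = 0) :
    ∃ c : K, c ≠ 0 ∧ f = algebraMap K F c := by
  have hmem : f ∈ riemannRochSpace (0 : Divisor K F) := by
    rw [mem_riemannRochSpace_iff]
    intro v
    right
    rw [h v, Finsupp.zero_apply, neg_zero]
  rw [h7_rr_zero_eq hxF, Submodule.mem_span_singleton] at hmem
  obtain ⟨c, hc⟩ := hmem
  refine ⟨c, ?_, ?_⟩
  · rintro rfl
    rw [zero_smul] at hc
    exact hf hc.symm
  · rw [← hc, Algebra.smul_def, mul_one]

/-- **A fixed Kummer class: `g' • u₀ = H ^ p * u₀`.** -/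
theorem h85_exists_pow_of_fix [IsAlgClosed K] {xF : F} (hxF : h75_IsChart K xF) {p : ℕ}
    (hp : 0 < p) (g' : SemilinearAut K F) (E₀ : Divisor K F) (u₀ : F) (hu₀ : u₀ ≠ 0)
    (hdiv : ∀ v : Place K F, (p : ℤ) * E₀ v = v.ord u₀)
    (hfix : g' • E₀ - E₀ ∈ Divisor.principal (K := K) (F := F)) :
    ∃ H : F, H ≠ 0 ∧ g' • u₀ = H ^ p * u₀ := by
  obtain ⟨w₀, hw₀, hw⟩ := hfix
  have hgu : g' • u₀ ≠ 0 := by
    intro h0
    apply hu₀
    have := congrArg (g'⁻¹ • ·) h0
    simpa using this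
  have hwp : w₀ ^ p ≠ 0 := pow_ne_zero p hw₀
  set f : F := g' • u₀ * (u₀ * w₀ ^ p)⁻¹ with hfdef
  have hf0 : f ≠ 0 := mul_ne_zero hgu (inv_ne_zero (mul_ne_zero hu₀ hwp))
  have hford : ∀ v : Place K F, v.ord f = 0 := by
    intro v
    rw [hfdef, v.ord_mul hgu (inv_ne_zero (mul_ne_zero hu₀ hwp)), v.ord_inv,
      v.ord_mul hu₀ hwp, h85_ord_smul', ← hdiv, ← hdiv, h85_ord_pow v hw₀, ← hw v,
      Finsupp.sub_apply, SemilinearAut.divisor_smul_apply]
    ring
  obtain ⟨c, hc0, hc⟩ := h85_const_of_ord_zero hxF f hf0 hford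
  obtain ⟨d, hd⟩ := IsAlgClosed.exists_pow_nat_eq c hp
  have hd0 : d ≠ 0 := by
    rintro rfl
    rw [zero_pow hp.ne'] at hd
    exact hc0 hd.symm
  refine ⟨algebraMap K F d * w₀, mul_ne_zero (by rwa [Ne, map_eq_zero]) hw₀, ?_⟩
  have h1 : g' • u₀ = f * (u₀ * w₀ ^ p) := by
    rw [hfdef, mul_assoc, inv_mul_cancel₀ (mul_ne_zero hu₀ hwp), mul_one]
  rw [h1, hc, ← hd, map_pow]
  ring

section Lift

variable {F' : Type*} [Field F'] [Algebra F F'] [Algebra K F'] [IsScalarTower K F F']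

/-- **The semilinear lift.**  `F' = F(θ)`, `θ ^ p = u₀`: a semilinear automorphism `g'` of `F`
with `g' • E₀ - E₀` principal lifts to `τ'` with `τ' • θ = H θ`, `g' • u₀ = H ^ p u₀`. -/
theorem h85_exists_lift [IsAlgClosed K] {xF : F} (hxF : h75_IsChart K xF) {p : ℕ}
    (hp : p.Prime) (ζ : K) (hζ : IsPrimitiveRoot ζ p)
    (θ : F') (u₀ : F) (hu₀ : u₀ ≠ 0) (hθ : θ ^ p = algebraMap F F' u₀)
    (hgen : Algebra.adjoin F {θ} = ⊤)
    (g' : SemilinearAut K F) (E₀ : Divisor K F)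
    (hdiv : ∀ v : Place K F, (p : ℤ) * E₀ v = v.ord u₀)
    (hfix : g' • E₀ - E₀ ∈ Divisor.principal (K := K) (F := F)) :
    ∃ (τ' : SemilinearAut K F') (H : F), H ≠ 0 ∧ g' • u₀ = H ^ p * u₀ ∧
      (∀ a : F, τ' • algebraMap F F' a = algebraMap F F' (g' • a)) ∧
      SemilinearAut.baseAut τ' = SemilinearAut.baseAut g' ∧
      τ' • θ = algebraMap F F' H * θ := by
  obtain ⟨H₀, hH₀, hgu⟩ := h85_exists_pow_of_fix hxF hp.pos g' E₀ u₀ hu₀ hdiv hfix
  have hζF : IsPrimitiveRoot (algebraMap K F ζ) p :=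
    hζ.map_of_injective (algebraMap K F).injective
  have hζF' : IsPrimitiveRoot (algebraMap F F' (algebraMap K F ζ)) p :=
    hζF.map_of_injective (algebraMap F F').injective
  obtain ⟨τ, hτ⟩ := h34_exists_ext_kummer (F := F) (F' := F') hp.pos hζF
    (fun _ : Unit => u₀) (fun _ : Unit => θ) (fun _ => hθ)
    (by
      have : Set.range (fun _ : Unit => θ) = {θ} := by
        ext z
        simp
      rw [this]
      exact hgen)
    (SemilinearAut.toRingAut g') id Function.surjective_id (fun _ => H₀) (fun _ => hH₀)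
    (fun _ => hgu)
  have hθ0 : θ ≠ 0 := by
    rintro rfl
    rw [zero_pow hp.ne_zero] at hθ
    exact hu₀ ((map_eq_zero _).mp hθ.symm)
  have hHθ0 : algebraMap F F' H₀ * θ ≠ 0 :=
    mul_ne_zero (by rwa [Ne, map_eq_zero]) hθ0
  have hpow : (τ θ * (algebraMap F F' H₀ * θ)⁻¹) ^ p = 1 := by
    rw [mul_pow, inv_pow, ← map_pow τ, hθ, hτ, mul_pow, ← map_pow, hθ, ← map_mul]
    have h1 : (SemilinearAut.toRingAut g') u₀ = H₀ ^ p * u₀ := hgu
    rw [h1]
    exact mul_inv_cancel₀ (by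
      rw [Ne, map_eq_zero]
      exact mul_ne_zero (pow_ne_zero p hH₀) hu₀)
  have : NeZero p := ⟨hp.ne_zero⟩
  obtain ⟨i, -, hi⟩ := hζF'.eq_pow_of_pow_eq_one hpow
  let τ' : SemilinearAut K F' := ⟨(τ, SemilinearAut.baseAut g'), by
    rw [SemilinearAut.mem_iff]
    intro a
    show τ (algebraMap K F' a) = algebraMap K F' (SemilinearAut.baseAut g' a)
    rw [IsScalarTower.algebraMap_apply K F F', hτ, SemilinearAut.commutes,
      ← IsScalarTower.algebraMap_apply]⟩
  refine ⟨τ', algebraMap K F (ζ ^ i) * H₀, mul_ne_zero ?_ hH₀, ?_, fun a => hτ a, rfl, ?_⟩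
  · rw [Ne, map_eq_zero]
    exact pow_ne_zero i (hζ.ne_zero hp.ne_zero)
  · rw [hgu, mul_pow, ← map_pow, ← pow_mul, mul_comm i p, pow_mul, hζ.pow_eq_one, one_pow,
      map_one, one_mul]
  · show τ θ = algebraMap F F' (algebraMap K F (ζ ^ i) * H₀) * θ
    have h2 : τ θ = (algebraMap F F' (algebraMap K F ζ)) ^ i * (algebraMap F F' H₀ * θ) := by
      rw [hi, mul_assoc, inv_mul_cancel₀ hHθ0, mul_one]
    rw [h2, map_mul, map_pow, map_pow]
    ring

end Lift

end Fermat.Agent.S33
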