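import Mathlib
import Fermat.Agent.S33.h85_TauLift
import Fermat.Agent.S33.h15_ASInst
import Fermat.Agent.S33.h35_LatIntClosed
import Fermat.Agent.S33.h35_PullEquiv

/-!
# S33 (N2), row R9 (TAU): the inertia lift acts on the sheets of the Artin-Schreier cover

Context of `h15_ASInst.lean`: `D` a lattice datum on `F/K`, `p = char k`, `ζ` a primitive `p`-th
root of unity, `λ = ζ - 1`, `u₀ = 1 + λ^p h` with `h ∈ O`, `red h = 0`, `F' = F(θ)`, `θ^p = u₀`,
`S = h15_asInst ..` the Artin-Schreier model (`y = (θ - 1)/λ`, sheets `r a = a ∈ 𝔽_p`).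

`g'` a semilinear automorphism of `F` preserving `O` and the reductions, `g' ζ = ζ^c`.

* `h85_as_hom_ext` : two ring homs out of `S.O'` agreeing on `O` and at `y` are equal;
* `h85_wild_root` : if `g' • u₀ = H^p u₀` then `H = 1 + λ t` with `t ∈ O` and
  `∏_{i<p} (red t - i) = 0`;
* `h85_tau_red_y` : for a lift `τ'` with `τ' θ = H θ`: `red'(τ' y) a * c = r a + red t`;
* `h85_tau_stab` : **row R9** in the shape of the skeleton `h85sk_tau_stab` (`Rb = Fb × Fb`).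
-/

set_option autoImplicit false

noncomputable section

open AlgebraicCurve Polynomial

namespace Fermat.Agent.S33

open Fermat.Agent.S18 Fermat.Agent.S34

section HomExt

variable {K F k Rb : Type*} [Field K] [Field F] [Algebra K F] [Field k] [CommRing Rb]
  [Algebra k Rb] {D : h22_Lat K F k Rb} {F' : Type*} [Field F'] [Algebra F F'] {n : ℕ}

/-- the inclusion `O → O'` -/
def h85_inclO (S : h15_ASData D F' n) : D.O →+* S.O' :=
  (h15_incl D F').codRestrict S.O' (fun c => (S.algebraMap_mem_O'_iff (c : F)).mpr c.2)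

theorem h85_inclO_coe (S : h15_ASData D F' n) (c : D.O) :
    ((h85_inclO S c : S.O') : F') = algebraMap F F' (c : F) := rfl

/-- **Two ring homs out of `O' = O[y]` that agree on `O` and at `y` are equal.** -/
theorem h85_as_hom_ext (S : h15_ASData D F' n) {L : Type*} [CommRing L] (φ₁ φ₂ : S.O' →+* L)
    (hO : ∀ c : D.O, φ₁ (h85_inclO S c) = φ₂ (h85_inclO S c))
    (hy : φ₁ ⟨S.y, S.y_mem⟩ = φ₂ ⟨S.y, S.y_mem⟩) : φ₁ = φ₂ := by
  ext ⟨f, hf⟩
  obtain ⟨q, rfl⟩ := (S.mem_O' f).mp hf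
  have e : (⟨S.ev q, hf⟩ : S.O') = Polynomial.eval₂ (h85_inclO S) ⟨S.y, S.y_mem⟩ q := by
    apply Subtype.ext
    have h1 := Polynomial.hom_eval₂ q (h85_inclO S) S.O'.subtype ⟨S.y, S.y_mem⟩
    have h2 : S.O'.subtype.comp (h85_inclO S) = h15_incl D F' := by
      ext c
      rfl
    rw [h2] at h1
    exact h1.symm
  rw [e, Polynomial.hom_eval₂, Polynomial.hom_eval₂, hy]
  congr 1
  ext c
  exact hO c

end HomExt

section Wild

variable {K F k Rb : Type*} [Field K] [Field F] [Algebra K F] [Field k] [CommRing Rb]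
  [Algebra k Rb]

/-- **The wild unit.**  If `g' • u₀ = H ^ p * u₀` for `u₀ = 1 + λ^p h` (`h ∈ O`, `red h = 0`),
then `H = 1 + λ t` with `t ∈ O` and `∏_{i<p} (red t - i) = 0`. -/
theorem h85_wild_root (D : h22_Lat K F k Rb) [IsReduced Rb] (p : ℕ) [hp : Fact p.Prime]
    [CharP k p] {ζ : K} (hζ : IsPrimitiveRoot ζ p)
    (hinv : ∀ (f : F) (hf : f ∈ D.O), IsUnit (D.red ⟨f, hf⟩) → f⁻¹ ∈ D.O)
    (h : D.O) (hred : D.red h = 0)
    (hu₀ : (1 + algebraMap K F ((ζ - 1) ^ p) * (h : F) : F) ≠ 0)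
    (g' : SemilinearAut K F) (hgO : ∀ f, f ∈ D.O → g' • f ∈ D.O)
    (hgred : ∀ f, f ∈ D.O → D.redF (g' • f) = D.redF f)
    (c : ℕ) (hgζ : SemilinearAut.baseAut g' ζ = ζ ^ c) (H : F)
    (hH : g' • (1 + algebraMap K F ((ζ - 1) ^ p) * (h : F) : F) =
      H ^ p * (1 + algebraMap K F ((ζ - 1) ^ p) * (h : F))) :
    ∃ t : D.O, algebraMap K F (ζ - 1) * (t : F) = H - 1 ∧
      ∏ i ∈ Finset.range p, (D.red t - algebraMap k Rb (i : k)) = 0 := by
  have hlam0 : ζ - 1 ≠ 0 := sub_ne_zero.mpr (hζ.ne_one hp.out.one_lt)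
  have hlamF0 : algebraMap K F (ζ - 1) ≠ 0 := by
    rw [Ne, map_eq_zero]
    exact hlam0
  have hL0 : algebraMap K F ((ζ - 1) ^ p) ≠ 0 := by
    rw [Ne, map_eq_zero]
    exact pow_ne_zero p hlam0
  have hlamA : ζ - 1 ∈ D.A := h15_zeta_sub_one_mem D p hζ
  have hLO : algebraMap K F ((ζ - 1) ^ p) ∈ D.O := (D.mem_iff _).mp (D.A.pow_mem hlamA p)
  obtain ⟨u₀, hu₀def⟩ : ∃ u₀ : F, u₀ = 1 + algebraMap K F ((ζ - 1) ^ p) * (h : F) := ⟨_, rfl⟩
  rw [← hu₀def] at hu₀ hH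
  have hu₀O : u₀ ∈ D.O := by
    rw [hu₀def]
    exact D.O.add_mem D.O.one_mem (D.O.mul_mem hLO h.2)
  have hu₀red : D.red ⟨u₀, hu₀O⟩ = 1 := by
    have e : (⟨u₀, hu₀O⟩ : D.O) = 1 + ⟨algebraMap K F ((ζ - 1) ^ p), hLO⟩ * h :=
      Subtype.ext hu₀def
    rw [e, map_add, map_one, map_mul, hred, mul_zero, add_zero]
  have hu₀inv : u₀⁻¹ ∈ D.O := hinv u₀ hu₀O (by rw [hu₀red]; exact isUnit_one)
  -- the translate of `u₀`
  have hQA : h15_qint ζ c ∈ D.A := by
    rw [← h15_qA_coe D p hζ c]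
    exact (h15_qA D p hζ c).2
  have hQO : algebraMap K F (h15_qint ζ c ^ p) ∈ D.O := (D.mem_iff _).mp (D.A.pow_mem hQA p)
  have hghO : g' • (h : F) ∈ D.O := hgO _ h.2
  have hgu : g' • u₀ = u₀ + algebraMap K F ((ζ - 1) ^ p) *
      (algebraMap K F (h15_qint ζ c ^ p) * g' • (h : F) - (h : F)) := by
    have h1 : SemilinearAut.baseAut g' ((ζ - 1) ^ p) = (ζ - 1) ^ p * h15_qint ζ c ^ p := by
      rw [map_pow, map_sub, map_one, hgζ, ← h15_qint_mul, mul_pow]
    rw [hu₀def, smul_add, smul_one, smul_mul', SemilinearAut.smul_algebraMap, h1, map_mul]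
    ring
  -- the element `t`
  obtain ⟨t, htdef⟩ : ∃ t : F, t = (algebraMap K F (ζ - 1))⁻¹ * (H - 1) := ⟨_, rfl⟩
  have ht : algebraMap K F (ζ - 1) * t = H - 1 := by
    rw [htdef, ← mul_assoc, mul_inv_cancel₀ hlamF0, one_mul]
  have hid := h15_as_identity hp.out.pos hζ (R := F) H t ht
  obtain ⟨h₃, hh₃⟩ : ∃ h₃ : F, h₃ =
      (algebraMap K F (h15_qint ζ c ^ p) * g' • (h : F) - (h : F)) * u₀⁻¹ := ⟨_, rfl⟩
  have hh₃O : h₃ ∈ D.O := by
    rw [hh₃]
    exact D.O.mul_mem (D.O.sub_mem (D.O.mul_mem hQO hghO) h.2) hu₀inv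
  have hprod : ∏ i ∈ Finset.range p, (t - algebraMap K F (h15_qint ζ i)) = h₃ := by
    apply mul_left_cancel₀ hL0
    rw [hid]
    have hHp : H ^ p = g' • u₀ * u₀⁻¹ := by
      rw [hH, mul_assoc, mul_inv_cancel₀ hu₀, mul_one]
    rw [hHp, hgu, add_mul, mul_inv_cancel₀ hu₀, hh₃]
    ring
  have hroot : Polynomial.eval₂ D.O.subtype t (h15_asPoly D p hζ ⟨h₃, hh₃O⟩) = 0 := by
    unfold h15_asPoly
    rw [Polynomial.eval₂_sub, Polynomial.eval₂_C, Polynomial.eval₂_finsetProd, sub_eq_zero]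
    rw [show D.O.subtype ⟨h₃, hh₃O⟩ = h₃ from rfl, ← hprod]
    refine Finset.prod_congr rfl fun i _ => ?_
    rw [Polynomial.eval₂_sub, Polynomial.eval₂_X, Polynomial.eval₂_C]
    congr 1
    show algebraMap K F (h15_qA D p hζ i : K) = _
    rw [h15_qA_coe]
  have htO : t ∈ D.O := h35_lat_mem_of_monic D _ (h15_asPoly_monic D p hζ _) hroot
  refine ⟨⟨t, htO⟩, ht, ?_⟩
  have hred₃ : D.red ⟨h₃, hh₃O⟩ = 0 := by
    have e : (⟨h₃, hh₃O⟩ : D.O) =
        (⟨_, hQO⟩ * ⟨g' • (h : F), hghO⟩ - h) * ⟨u₀⁻¹, hu₀inv⟩ := Subtype.ext hh₃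
    have h2 : D.red ⟨g' • (h : F), hghO⟩ = 0 := by
      have h3 := hgred _ h.2
      rw [D.redF_of_mem hghO, D.redF_of_mem h.2, Subtype.coe_eta, hred] at h3
      exact h3
    rw [e, map_mul, map_sub, map_mul, hred, h2, mul_zero, sub_zero, zero_mul]
  have hprodO : ∏ i ∈ Finset.range p, ((⟨t, htO⟩ : D.O) - h15_qO D p hζ i) = ⟨h₃, hh₃O⟩ := by
    apply Subtype.ext
    refine Eq.trans ?_ hprod
    have h4 : ((∏ i ∈ Finset.range p, ((⟨t, htO⟩ : D.O) - h15_qO D p hζ i) : D.O) : F) =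
        ∏ i ∈ Finset.range p, (((⟨t, htO⟩ : D.O) - h15_qO D p hζ i : D.O) : F) :=
      map_prod D.O.subtype _ _
    rw [h4]
    refine Finset.prod_congr rfl fun i _ => ?_
    show t - algebraMap K F (h15_qA D p hζ i : K) = _
    rw [h15_qA_coe]
  have h5 := congrArg D.red hprodO
  rw [map_prod, hred₃] at h5
  rw [← h5]
  refine Finset.prod_congr rfl fun i _ => ?_
  rw [map_sub, h15_red_qO]

end Wild

section Main

variable {K F k Fb : Type*} [Field K] [Field F] [Algebra K F] [Field k] [Field Fb] [Algebra k Fb]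
  {F' : Type*} [Field F'] [Algebra F F'] [Algebra K F'] [IsScalarTower K F F']

/-- the components of a root of `∏_{i<p} (X - i)` in `Fb × Fb` are in the prime field -/
theorem h85_prod_components (p : ℕ) (x : Fb × Fb)
    (hx : ∏ i ∈ Finset.range p, (x - algebraMap k (Fb × Fb) (i : k)) = 0) :
    (∃ i : ℕ, x.1 = algebraMap k Fb (i : k)) ∧ (∃ i : ℕ, x.2 = algebraMap k Fb (i : k)) := by
  constructor
  · have h1 := congrArg Prod.fst hx
    rw [Prod.fst_prod, Prod.fst_zero] at h1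
    obtain ⟨i, -, hi⟩ := Finset.prod_eq_zero_iff.mp h1
    exact ⟨i, sub_eq_zero.mp hi⟩
  · have h1 := congrArg Prod.snd hx
    rw [Prod.snd_prod, Prod.snd_zero] at h1
    obtain ⟨i, -, hi⟩ := Finset.prod_eq_zero_iff.mp h1
    exact ⟨i, sub_eq_zero.mp hi⟩

variable (D : h22_Lat K F k (Fb × Fb)) (p : ℕ) [hp : Fact p.Prime] [CharP k p]
  {ζ : K} (hζ : IsPrimitiveRoot ζ p)
  (h : D.O) (hred : D.red h = 0) (θ : F')
  (hθ : θ ^ p - 1 = algebraMap K F' ((ζ - 1) ^ p) * algebraMap F F' (h : F))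
  (hli : LinearIndependent F (fun j : Fin p => θ ^ (j : ℕ)))
  (hspan : ∀ f : F', ∃ c : Fin p → F, f = ∑ j, algebraMap F F' (c j) * θ ^ (j : ℕ))

/-- **The lift acts on the sheets.**  `τ'` a semilinear automorphism of `F'` over `g'` with
`τ' θ = H θ`, `H = 1 + λ t`, `t ∈ O`, `red t = (i₁, i₂)`, and sheet maps `s1`, `s2` with
`c * r (s_j a) = r a + i_j`: then `τ'` preserves `O'` and
`red'(τ' f) a = ((red' f (s1 a)).1, (red' f (s2 a)).2)`. -/
theorem h85_tau_red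
    (g' : SemilinearAut K F) (hgO : ∀ f, f ∈ D.O → g' • f ∈ D.O)
    (hgred : ∀ f, f ∈ D.O → D.redF (g' • f) = D.redF f)
    (c : ℕ) (hgζ : SemilinearAut.baseAut g' ζ = ζ ^ c) (hck : (c : k) ≠ 0)
    (τ' : SemilinearAut K F')
    (hext : ∀ a : F, τ' • algebraMap F F' a = algebraMap F F' (g' • a))
    (H : F) (hτθ : τ' • θ = algebraMap F F' H * θ)
    (t : D.O) (ht : algebraMap K F (ζ - 1) * (t : F) = H - 1)
    (i₁ i₂ : ℕ) (ht1 : (D.red t).1 = algebraMap k Fb (i₁ : k))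
    (ht2 : (D.red t).2 = algebraMap k Fb (i₂ : k))
    (s1 s2 : Fin p → Fin p)
    (hs1 : ∀ a, (c : k) * (h15_asInst D p hζ h hred θ hθ hli hspan).r (s1 a) =
      (h15_asInst D p hζ h hred θ hθ hli hspan).r a + (i₁ : k))
    (hs2 : ∀ a, (c : k) * (h15_asInst D p hζ h hred θ hθ hli hspan).r (s2 a) =
      (h15_asInst D p hζ h hred θ hθ hli hspan).r a + (i₂ : k))
    (f : F') (hf : f ∈ (h15_asInst D p hζ h hred θ hθ hli hspan).lat.O) :
    τ' • f ∈ (h15_asInst D p hζ h hred θ hθ hli hspan).lat.O ∧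
      (h15_asInst D p hζ h hred θ hθ hli hspan).lat.redF (τ' • f) =
        fun a => (((h15_asInst D p hζ h hred θ hθ hli hspan).lat.redF f (s1 a)).1,
          ((h15_asInst D p hζ h hred θ hθ hli hspan).lat.redF f (s2 a)).2) := by
  obtain ⟨S, hS⟩ : ∃ S : h15_ASData D F' p, S = h15_asInst D p hζ h hred θ hθ hli hspan :=
    ⟨_, rfl⟩
  rw [← hS] at hs1 hs2 hf ⊢
  have hlam0 : ζ - 1 ≠ 0 := sub_ne_zero.mpr (hζ.ne_one hp.out.one_lt)
  have hlamA : ζ - 1 ∈ D.A := h15_zeta_sub_one_mem D p hζ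
  have hlamO : algebraMap K F (ζ - 1) ∈ D.O := (D.mem_iff _).mp hlamA
  have hΛ0 : algebraMap F F' (algebraMap K F (ζ - 1)) ≠ 0 := by
    rw [Ne, map_eq_zero, map_eq_zero]
    exact hlam0
  -- `τ'` preserves `O'`
  have hψO : ∀ f : F, f ∈ D.O →
      (SemilinearAut.toRingAut τ' : F' →+* F') (algebraMap F F' f) ∈ S.O' := by
    intro f hf
    show τ' • algebraMap F F' f ∈ S.O'
    rw [hext, S.algebraMap_mem_O'_iff]
    exact hgO f hf
  have hmem : ∀ f : F', f ∈ S.O' → τ' • f ∈ S.O' := fun f hf =>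
    h35_as_map_mem S (SemilinearAut.toRingAut τ' : F' →+* F') hψO hf
  refine ⟨hmem f hf, ?_⟩
  -- the restricted endomorphism and the sheet evaluations
  let ψ : S.O' →+* S.O' :=
    ((SemilinearAut.toRingAut τ' : F' →+* F').comp S.O'.subtype).codRestrict S.O'
      (fun f => hmem f.1 f.2)
  have hψcoe : ∀ f : S.O', ((ψ f : S.O') : F') = τ' • (f : F') := fun f => rfl
  let ρ : Fin p → S.O' →+* Fb × Fb := fun a =>
    (Pi.evalRingHom (fun _ : Fin p => Fb × Fb) a).comp S.lat.red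
  have hρ : ∀ (a : Fin p) (f : S.O'), ρ a f = S.lat.red f a := fun a f => rfl
  -- (F1) on `O`
  have hF1 : ∀ (a : Fin p) (x : D.O), ρ a (h85_inclO S x) = D.red x := by
    intro a x
    rw [hρ]
    exact S.lat_red_algebraMap (x : F) x.2 _ a
  -- (F2) at `y`
  have hF2 : ∀ a : Fin p, ρ a ⟨S.y, S.y_mem⟩ = algebraMap k (Fb × Fb) (S.r a) := by
    intro a
    rw [hρ]
    exact S.lat_red_y _ a
  -- (F3) `ψ` on `O`
  have hF3 : ∀ (a : Fin p) (x : D.O), ρ a (ψ (h85_inclO S x)) = D.red x := by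
    intro a x
    have e : ψ (h85_inclO S x) = h85_inclO S ⟨g' • (x : F), hgO _ x.2⟩ := by
      apply Subtype.ext
      rw [hψcoe, h85_inclO_coe, h85_inclO_coe, hext]
    rw [e, hF1]
    have h3 := hgred _ x.2
    rw [D.redF_of_mem (hgO _ x.2), D.redF_of_mem x.2] at h3
    exact h3
  -- (F4) `ψ` at `y`
  have hθy : θ = algebraMap F F' (algebraMap K F (ζ - 1)) * S.y + 1 := by
    rw [hS]
    exact h15_asInst_theta D p hζ h hred θ hθ hli hspan
  have hbase : SemilinearAut.baseAut g' (ζ - 1) = (ζ - 1) * h15_qint ζ c := by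
    rw [map_sub, map_one, hgζ, h15_qint_mul]
  have hy_id : τ' • S.y * algebraMap F F' (algebraMap K F (h15_qint ζ c)) =
      S.y + algebraMap F F' (t : F) +
        algebraMap F F' (algebraMap K F (ζ - 1)) * S.y * algebraMap F F' (t : F) := by
    apply mul_left_cancel₀ hΛ0
    have h1 : τ' • θ = algebraMap F F' (algebraMap K F (ζ - 1)) *
        algebraMap F F' (algebraMap K F (h15_qint ζ c)) * τ' • S.y + 1 := by
      conv_lhs => rw [hθy]
      rw [smul_add, smul_one, smul_mul', hext, SemilinearAut.smul_algebraMap, hbase, map_mul,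
        map_mul]
    have h2 : algebraMap F F' H =
        1 + algebraMap F F' (algebraMap K F (ζ - 1)) * algebraMap F F' (t : F) := by
      rw [← map_mul, ht, map_sub, map_one]
      ring
    rw [hτθ, h2] at h1
    have h3 : (1 + algebraMap F F' (algebraMap K F (ζ - 1)) * algebraMap F F' (t : F)) * θ =
        (1 + algebraMap F F' (algebraMap K F (ζ - 1)) * algebraMap F F' (t : F)) *
          (algebraMap F F' (algebraMap K F (ζ - 1)) * S.y + 1) := by
      rw [← hθy]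
    rw [h3] at h1
    linear_combination -h1
  have hQO : algebraMap K F (h15_qint ζ c) ∈ D.O := by
    rw [← h15_qA_coe D p hζ c]
    exact (D.mem_iff _).mp (h15_qA D p hζ c).2
  have hF4 : ∀ a : Fin p, ρ a (ψ ⟨S.y, S.y_mem⟩) * algebraMap k (Fb × Fb) (c : k) =
      algebraMap k (Fb × Fb) (S.r a) + D.red t := by
    intro a
    have e : ψ ⟨S.y, S.y_mem⟩ * h85_inclO S (h15_qO D p hζ c) =
        ⟨S.y, S.y_mem⟩ + h85_inclO S t +
          h85_inclO S ⟨algebraMap K F (ζ - 1), hlamO⟩ * ⟨S.y, S.y_mem⟩ * h85_inclO S t := by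
      apply Subtype.ext
      have h4 : ((h85_inclO S (h15_qO D p hζ c) : S.O') : F') =
          algebraMap F F' (algebraMap K F (h15_qint ζ c)) := by
        rw [h85_inclO_coe]
        show algebraMap F F' (algebraMap K F (h15_qA D p hζ c : K)) = _
        rw [h15_qA_coe]
      show ((ψ ⟨S.y, S.y_mem⟩ : S.O') : F') * ((h85_inclO S (h15_qO D p hζ c) : S.O') : F') =
        S.y + ((h85_inclO S t : S.O') : F') +
          ((h85_inclO S ⟨algebraMap K F (ζ - 1), hlamO⟩ : S.O') : F') * S.y *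
            ((h85_inclO S t : S.O') : F')
      rw [h4, hψcoe, h85_inclO_coe, h85_inclO_coe]
      exact hy_id
    have h5 := congrArg (ρ a) e
    rw [map_mul, map_add, map_add, map_mul, map_mul, hF1, hF1, hF1, hF2, h15_red_qO] at h5
    have h6 : D.red ⟨algebraMap K F (ζ - 1), hlamO⟩ = 0 := by
      rw [D.red_algebraMap _ hlamA, h15_res_zeta_sub_one D p hζ, map_zero]
    rw [h6, zero_mul, zero_mul, add_zero] at h5
    exact h5
  have hcFb : algebraMap k Fb (c : k) ≠ 0 := by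
    rw [Ne, map_eq_zero]
    exact hck
  -- (F5) the two components at `y`
  have hF5a : ∀ a : Fin p, (ρ a (ψ ⟨S.y, S.y_mem⟩)).1 = algebraMap k Fb (S.r (s1 a)) := by
    intro a
    have h7 := congrArg Prod.fst (hF4 a)
    rw [Prod.fst_mul, Prod.fst_add, ht1] at h7
    have h8 : (algebraMap k (Fb × Fb) (c : k)).1 = algebraMap k Fb (c : k) := rfl
    have h9 : (algebraMap k (Fb × Fb) (S.r a)).1 = algebraMap k Fb (S.r a) := rfl
    rw [h8, h9, ← map_add, ← hs1 a, map_mul, mul_comm] at h7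
    exact mul_left_cancel₀ hcFb h7
  have hF5b : ∀ a : Fin p, (ρ a (ψ ⟨S.y, S.y_mem⟩)).2 = algebraMap k Fb (S.r (s2 a)) := by
    intro a
    have h7 := congrArg Prod.snd (hF4 a)
    rw [Prod.snd_mul, Prod.snd_add, ht2] at h7
    have h8 : (algebraMap k (Fb × Fb) (c : k)).2 = algebraMap k Fb (c : k) := rfl
    have h9 : (algebraMap k (Fb × Fb) (S.r a)).2 = algebraMap k Fb (S.r a) := rfl
    rw [h8, h9, ← map_add, ← hs2 a, map_mul, mul_comm] at h7
    exact mul_left_cancel₀ hcFb h7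
  -- (F6) extension to `O'`
  have hF6a : ∀ a : Fin p, (RingHom.fst Fb Fb).comp ((ρ a).comp ψ) =
      (RingHom.fst Fb Fb).comp (ρ (s1 a)) := by
    intro a
    apply h85_as_hom_ext S
    · intro x
      show (ρ a (ψ (h85_inclO S x))).1 = (ρ (s1 a) (h85_inclO S x)).1
      rw [hF3, hF1]
    · show (ρ a (ψ ⟨S.y, S.y_mem⟩)).1 = (ρ (s1 a) ⟨S.y, S.y_mem⟩).1
      rw [hF5a, hF2]
      rfl
  have hF6b : ∀ a : Fin p, (RingHom.snd Fb Fb).comp ((ρ a).comp ψ) =
      (RingHom.snd Fb Fb).comp (ρ (s2 a)) := by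
    intro a
    apply h85_as_hom_ext S
    · intro x
      show (ρ a (ψ (h85_inclO S x))).2 = (ρ (s2 a) (h85_inclO S x)).2
      rw [hF3, hF1]
    · show (ρ a (ψ ⟨S.y, S.y_mem⟩)).2 = (ρ (s2 a) ⟨S.y, S.y_mem⟩).2
      rw [hF5b, hF2]
      rfl
  -- conclusion
  have hfO : f ∈ S.O' := hf
  rw [S.lat.redF_of_mem (hmem f hfO), S.lat.redF_of_mem hf]
  funext a
  have e1 : S.lat.red ⟨τ' • f, hmem f hfO⟩ a = ρ a (ψ ⟨f, hfO⟩) := rfl
  rw [e1]
  refine Prod.ext ?_ ?_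
  · exact DFunLike.congr_fun (hF6a a) ⟨f, hfO⟩
  · exact DFunLike.congr_fun (hF6b a) ⟨f, hfO⟩

/-- **ROW R9 (TAU)** of the (N2) skeleton (`h85sk_tau_stab`, for `S = h15_asInst ..`): an
inertia element `g'` (`g' ζ = ζ^c`) fixing the Kummer class of `(E₀, u₀)`, `u₀ = 1 + λ^p h`,
lifts to the cover and acts on the sheets over the first component by `a ↦ (a + β₁)/c` and over
the second by `a ↦ (a + β₂)/c`; the reductions `red'(L'(n π^* D0) ∩ O')` are stable under the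
corresponding sheet map. -/
theorem h85_tau_stab [IsAlgClosed K] [Algebra.IsIntegral F F'] [HasPrincipalDivisors K F']
    {xF : F} (hxF : h75_IsChart K xF)
    (hinv : ∀ (f : F) (hf : f ∈ D.O), IsUnit (D.red ⟨f, hf⟩) → f⁻¹ ∈ D.O)
    (g' : SemilinearAut K F) (hgO : ∀ f, f ∈ D.O → g' • f ∈ D.O)
    (hgred : ∀ f, f ∈ D.O → D.redF (g' • f) = D.redF f)
    (D0 : Divisor K F) (hgD0 : g' • D0 = D0)
    (c : ℕ) (hgζ : SemilinearAut.baseAut g' ζ = ζ ^ c)
    (E₀ : Divisor K F)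
    (hdiv : ∀ v : Place K F,
      (p : ℤ) * E₀ v = v.ord (1 + algebraMap K F ((ζ - 1) ^ p) * (h : F)))
    (hfix : g' • E₀ - E₀ ∈ Divisor.principal (K := K) (F := F)) :
    ∃ (s1 s2 : Fin p → Fin p) (β1 β2 : k),
      (∀ a, (c : k) * (h15_asInst D p hζ h hred θ hθ hli hspan).r (s1 a) =
        (h15_asInst D p hζ h hred θ hθ hli hspan).r a + β1) ∧
      (∀ a, (c : k) * (h15_asInst D p hζ h hred θ hθ hli hspan).r (s2 a) =
        (h15_asInst D p hζ h hred θ hθ hli hspan).r a + β2) ∧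
      ∀ n : ℕ, ∀ f ∈ h51_Rd (h15_asInst D p hζ h hred θ hθ hli hspan).lat
          (n • Divisor.pullback F' D0),
        (fun a => ((f (s1 a)).1, (f (s2 a)).2)) ∈
          h51_Rd (h15_asInst D p hζ h hred θ hθ hli hspan).lat (n • Divisor.pullback F' D0) := by
  have hpp : p.Prime := hp.out
  obtain ⟨u₀, hu₀def⟩ : ∃ u₀ : F, u₀ = 1 + algebraMap K F ((ζ - 1) ^ p) * (h : F) := ⟨_, rfl⟩
  have hθu : θ ^ p = algebraMap F F' u₀ := by
    rw [hu₀def, map_add, map_one, map_mul, ← IsScalarTower.algebraMap_apply, ← hθ]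
    ring
  have hu₀ : u₀ ≠ 0 := by
    intro h0
    rw [h0, map_zero] at hθu
    have hθ0 : θ = 0 := (pow_eq_zero_iff hpp.ne_zero).mp hθu
    have h1 := hli.ne_zero (⟨1, hpp.one_lt⟩ : Fin p)
    apply h1
    show θ ^ 1 = 0
    rw [pow_one, hθ0]
  have hgen : Algebra.adjoin F {θ} = ⊤ := by
    rw [eq_top_iff]
    rintro f -
    obtain ⟨cf, rfl⟩ := hspan f
    refine Subalgebra.sum_mem _ fun j _ => ?_
    refine Subalgebra.mul_mem _ ?_ ?_
    · exact Subalgebra.algebraMap_mem (Algebra.adjoin F {θ}) (cf j)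
    · exact Subalgebra.pow_mem _ (Algebra.subset_adjoin (Set.mem_singleton θ)) _
  rw [← hu₀def] at hdiv
  obtain ⟨τ', H, -, hHu, hext, -, hτθ⟩ :=
    h85_exists_lift hxF hpp ζ hζ θ u₀ hu₀ hθu hgen g' E₀ hdiv hfix
  rw [hu₀def] at hu₀ hHu
  obtain ⟨t, ht, htprod⟩ := h85_wild_root D p hζ hinv h hred hu₀ g' hgO hgred c hgζ H hHu
  obtain ⟨⟨i₁, ht1⟩, ⟨i₂, ht2⟩⟩ := h85_prod_components p (D.red t) htprod
  -- `c` is prime to `p`
  have hcop : Nat.Coprime c p := by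
    have h1 : IsPrimitiveRoot (ζ ^ c) p := by
      rw [← hgζ]
      exact hζ.map_of_injective (SemilinearAut.baseAut g').injective
    exact (hζ.pow_iff_coprime hpp.pos c).mp h1
  obtain ⟨c', -, hc'⟩ := Nat.exists_mul_mod_eq_one_of_coprime hcop hpp.one_lt
  have hcc' : (c : k) * (c' : k) = 1 := by
    rw [← Nat.cast_mul, CharP.cast_eq_mod k p, hc', Nat.cast_one]
  have hck : (c : k) ≠ 0 := left_ne_zero_of_mul_eq_one hcc'
  -- the sheet maps
  obtain ⟨sh, hsh⟩ : ∃ sh : ℕ → Fin p → Fin p, ∀ i a,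
      (c : k) * (h15_asInst D p hζ h hred θ hθ hli hspan).r (sh i a) =
        (h15_asInst D p hζ h hred θ hθ hli hspan).r a + (i : k) := by
    refine ⟨fun i a => ⟨(c' * ((a : ℕ) + i)) % p, Nat.mod_lt _ hpp.pos⟩, fun i a => ?_⟩
    show (c : k) * (((c' * ((a : ℕ) + i)) % p : ℕ) : k) = ((a : ℕ) : k) + (i : k)
    rw [← CharP.cast_eq_mod k p, Nat.cast_mul, ← mul_assoc, hcc', one_mul, Nat.cast_add]
  refine ⟨sh i₁, sh i₂, (i₁ : k), (i₂ : k), hsh i₁, hsh i₂, ?_⟩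
  intro n f hf
  have hE : g' • (n • D0) = n • D0 := by
    rw [smul_comm, hgD0]
  have key := h35_Rd_stable (h15_asInst D p hζ h hred θ hθ hli hspan).lat (σ := g') (σ' := τ')
    hext (n • D0) hE
    (fun f a => ((f (sh i₁ a)).1, (f (sh i₂ a)).2))
    (fun f hf => h85_tau_red D p hζ h hred θ hθ hli hspan g' hgO hgred c hgζ hck τ' hext H hτθ
      t ht i₁ i₂ ht1 ht2 (sh i₁) (sh i₂) (hsh i₁) (hsh i₂) f hf)
  rw [map_nsmul] at key
  exact key f hf

end Main

end Fermat.Agent.S33
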