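import Fermat.Agent.S32.h91_Subquot
import Fermat.Agent.S32.h21_LevelBasis
import Fermat.Agent.S33.h48_OrdSplit
import Fermat.Agent.S33.h14_DetCyc
import Fermat.Agent.S33.h14_ResOrd

/-!
# S33, MACHINE INSTANCE (helper91)

The bridge between the abstract ordinary core (`h48_ordcore_ker`, helper48) and the algebraic
top of S33 (`h14_S33_of_one_limit`, helper14):

* `h91_level_side_cyc` : the level side of S32 (`h91_level_side`) with the extra exports needed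
  for S33: `k ≤ n`, the cyclotomic property of `a`, `p ^ n`-torsion of the Galois span `W`, and
  the compatibility of the Hecke action on `W` with the operators `tM ℓ` of the level module;
* `h91_ord_of_core` : if for every `k` the abstract data `(W, act, a, t, φ₀, ρbar)` at level
  `n ≥ k` satisfy the conclusion of the ordinary core modulo `𝔪 ^ k`, then
  `(ρ σ₀ - det ρ σ₀) (ρ σ - 1) v ∈ 𝔪 ^ k V` for all `k` — the `hone` clause of
  `h14_S33_of_one_limit`;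
* `h91_ord_of_split` : the same with the core discharged by `h48_ordcore_ker_split`
  (hypotheses `(h_new)`, `(h_old)` at every level `n`, stated with the `θ`-ideal `π⁻¹ 𝔪_T`).
-/

set_option autoImplicit false
set_option linter.style.haveILetI false

open Polynomial

namespace Fermat.Agent.S33

open Fermat.Agent.GAL Fermat.Agent.S32

local notation "Qb" => AlgebraicClosure ℚ
local notation "Γℚ" => (AlgebraicClosure ℚ ≃ₐ[ℚ] AlgebraicClosure ℚ)

section main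

variable {p : ℕ} {N : ℕ} [NeZero N] {S : Finset ℕ}
  {𝒪 : Type} [CommRing 𝒪] [IsDomain 𝒪] [IsDiscreteValuationRing 𝒪]
  [IsAdicComplete (IsLocalRing.maximalIdeal 𝒪) 𝒪]
  {θ : CuspForm.heckeAlgebra N 2 (↑S : Set ℕ) →+* IsLocalRing.ResidueField 𝒪}
  {T : Type} [CommRing T] [IsLocalRing T] [IsNoetherianRing T]
  [IsAdicComplete (IsLocalRing.maximalIdeal T) T] [Algebra 𝒪 T] [IsLocalHom (algebraMap 𝒪 T)]
  [Module.Finite 𝒪 T] [Module.Free 𝒪 T]

/-- **LEVEL SIDE with the cyclotomic exports.** The statement of `h91_level_side` together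
with: `k ≤ n`; `a g` is a cyclotomic exponent of `g` on the `p ^ n`-th roots of unity; the
Galois span `W` is killed by `p ^ n`; the Hecke action on `W` restricts the operators `tM ℓ`. -/
theorem h91_level_side_cyc (hp : p.Prime) (hp𝒪 : (p : 𝒪) ∈ IsLocalRing.maximalIdeal 𝒪)
    (hpS : p ∈ S) (hNS : ∀ q : ℕ, q.Prime → q ∣ N → q ∈ S)
    (H : CuspForm.HeckeGaloisRepDatum N (↑S : Set ℕ) 𝒪 θ T)
    {Λ : Type} [AddCommGroup Λ] [Module.Free ℤ Λ] [Module.Finite ℤ Λ]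
    (ι : CuspForm.heckeAlgebra N 2 (↑S : Set ℕ) →+* Module.End ℤ Λ)
    (hι : Function.Injective ι)
    (M : ℕ → Type) [instM : ∀ n, AddCommGroup (M n)] (qM : ∀ n, Λ →+ M n)
    (r : ∀ n, Γℚ →* AddMonoid.End (M n)) (tM : ∀ n, Nat.Primes → M n →+ M n)
    (hlevel : ∀ n : ℕ, h31_IsLevel p N S ι n (qM n) (r n) (tM n)) (hcheb : h65_WCheb) (k : ℕ) :
    ∃ (n : ℕ)
      (act : CuspForm.heckeAlgebra N 2 (↑S : Set ℕ) →+* AddMonoid.End ↥(h91_W (qM n) (r n)))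
      (a : Γℚ → ℕ) (t : Γℚ → CuspForm.heckeAlgebra N 2 (↑S : Set ℕ)),
      k ≤ n ∧
      (∀ z g w, act z (h91_rW (qM n) (r n) g w) = h91_rW (qM n) (r n) g (act z w)) ∧
      (∀ w : ↥(h91_W (qM n) (r n)), a 1 • w = w) ∧
      (∀ g h (w : ↥(h91_W (qM n) (r n))), a (g * h) • w = a g • a h • w) ∧
      (∀ g w, act (t g) w =
        h91_rW (qM n) (r n) g w + a g • h91_rW (qM n) (r n) g⁻¹ w) ∧
      (∀ z, act z = 0 → H.π z ∈ IsLocalRing.maximalIdeal T ^ k) ∧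
      (∀ g, LinearMap.trace T H.ρ.V (H.ρ.ρ g) - H.π (t g) ∈ IsLocalRing.maximalIdeal T ^ k) ∧
      (∀ g, h31_Cyc (p ^ n) g (a g)) ∧
      (∀ w : ↥(h91_W (qM n) (r n)), p ^ n • w = 0) ∧
      (∀ (ℓ : ℕ) (hℓ : ℓ.Prime) (hℓN : ¬ ℓ ∣ N) (hℓS : ℓ ∉ (↑S : Set ℕ))
        (w : ↥(h91_W (qM n) (r n))),
        ((act (CuspForm.heckeAlgebra.T hℓ hℓN hℓS) w : ↥(h91_W (qM n) (r n))) : M n) =
          tM n ⟨ℓ, hℓ⟩ (w : M n)) := by
  classical
  obtain ⟨c, hc⟩ := h65_saturation ι hι p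
  set n := k + c with hn
  obtain ⟨hker, htors, hstab, hhecke, hfrob, hinert, hcomm⟩ := hlevel n
  have hppos : 0 < p ^ n := pow_pos hp.pos n
  have hpT : (p : T) ∈ IsLocalRing.maximalIdeal T := by
    have e : (p : T) = algebraMap 𝒪 T (p : 𝒪) := (map_natCast _ _).symm
    rw [e, IsLocalRing.mem_maximalIdeal, mem_nonunits_iff]
    intro hu
    exact hp𝒪 (isUnit_of_map_unit (algebraMap 𝒪 T) _ hu)
  -- induced operators
  have hex : ∀ z, ∃ f, h91_Ind (qM n) (r n) ι z f := fun z => by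
    obtain ⟨F, hF, hq⟩ := h91_exists_end hNS ι (qM n) (r n) (tM n) hhecke hcomm z
    exact h91_Ind_of_end z F hF hq
  -- the level field
  obtain ⟨L₁, hL₁fin, hL₁gal, hL₁⟩ := h31_exists_isLev (qM n) (r n) hppos hstab
  obtain ⟨L₂, hL₂fin, hL₂⟩ := H.ρ.isAdicContinuous k
  obtain ⟨L, hLfin, hLgal, hL₁L, hL₂L, -⟩ := h65_exists_galois_level L₁ L₂ hL₁fin hL₂fin 1
  have hLnor : Normal ℚ L := hLgal.to_normal
  have hLn : h31_IsLev (qM n) (r n) (p ^ n) L := hL₁.mono hL₁L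
  have fact : ∀ g : Γℚ, ∃ (D : CuspForm.heckeAlgebra N 2 (↑S : Set ℕ)) (e : ℕ),
      LinearMap.trace T H.ρ.V (H.ρ.ρ g) - H.π D ∈ IsLocalRing.maximalIdeal T ^ k ∧
        h31_Good ι (qM n) (r n) (p ^ n) g D e := by
    intro g
    obtain ⟨ℓ, A, σ, b, hℓ, hℓS, hA, hσ, hσg⟩ := hcheb L hLfin hLgal g S
    have hℓN : ¬ ℓ ∣ N := fun h => hℓS (hNS ℓ hℓ h)
    have hℓS' : ℓ ∉ (↑S : Set ℕ) := by simpa using hℓS
    have hℓp : ℓ ≠ p := fun h => hℓS (h ▸ hpS)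
    have hℓpn : ¬ ℓ ∣ p ^ n := fun h =>
      hℓp ((Nat.prime_dvd_prime_iff_eq hℓ hp).mp (hℓ.dvd_of_dvd_pow h))
    set tℓ := CuspForm.heckeAlgebra.T hℓ hℓN hℓS' with ht
    have hcyc : h31_Cyc (p ^ n) σ ℓ := fun ζ hζ => h65_frob_root A hℓ hA hσ hℓpn hζ
    refine ⟨Polynomial.aeval tℓ (Polynomial.dickson 1 (ℓ : ℤ) b), ℓ ^ b, ?_, ?_⟩
    · have e1 := h65_trace_frob_pow H.ρ σ (H.π tℓ) ℓ
        (H.charpoly_frob ℓ hℓ hℓN hℓS' A hA σ hσ) b
      have e2 : H.π (Polynomial.aeval tℓ (Polynomial.dickson 1 (ℓ : ℤ) b)) =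
          Polynomial.aeval (H.π tℓ) (Polynomial.dickson 1 (ℓ : ℤ) b) :=
        (Polynomial.aeval_algHom_apply H.π.toIntAlgHom tℓ _).symm
      rw [e2, ← e1]
      exact h65_trace_congr H.ρ k L₂ hL₂ g (σ ^ b) (fun x hx => hσg x (hL₂L hx))
    · exact h31_good_of_agree hLnor hLn hσg
        (h31_good_pow tℓ (tM n ⟨ℓ, hℓ⟩) ℓ σ hcyc (hhecke ℓ hℓ hℓN hℓS')
          (hfrob ℓ hℓ hℓN hℓS' A hA σ hσ) (fun g m => hcomm ⟨ℓ, hℓ⟩ g m) b)
  choose t a htr hgood using fact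
  have htorsW : ∀ w : ↥(h91_W (qM n) (r n)), p ^ n • w = 0 := fun w =>
    Subtype.ext (by rw [AddSubgroup.coe_nsmul]; exact htors _)
  refine ⟨n, h91_act (qM n) (r n) ι hex, a, t, Nat.le_add_right k c, ?_, ?_, ?_, ?_, ?_, htr,
    fun g => (hgood g).1, htorsW, ?_⟩
  · exact fun z g w => h91_act_comm (qM n) (r n) ι hex z g w
  · intro w
    have hm : a 1 ≡ 1 [MOD p ^ n] := h31_Cyc_modEq hppos (hgood 1).1 (h31_Cyc_one _)
    rw [h65_nsmul_eq_of_modEq hm w (htorsW w), one_smul]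
  · intro g h w
    have hm : a (g * h) ≡ a g * a h [MOD p ^ n] :=
      h31_Cyc_modEq hppos (hgood (g * h)).1 (h31_Cyc_mul (hgood g).1 (hgood h).1)
    rw [h65_nsmul_eq_of_modEq hm w (htorsW w), mul_smul]
  · intro g w
    have h := h91_W_ext (qM n) (r n) (h91_act (qM n) (r n) ι hex (t g))
      (h91_rW (qM n) (r n) g + a g • h91_rW (qM n) (r n) g⁻¹) (fun γ y =>
        (h91_act_gen (qM n) (r n) ι hex (t g) γ y).trans (Subtype.ext ((hgood g).2 γ y)))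
    exact congrArg (fun F : ↥(h91_W (qM n) (r n)) →+ ↥(h91_W (qM n) (r n)) => F w) h
  · intro z hz
    have hv : ∀ v : Λ, ∃ w : Λ, ι z v = (p ^ n : ℤ) • w := by
      intro v
      apply hker
      have h1 := h91_act_gen (qM n) (r n) ι hex z 1 v
      rw [hz] at h1
      have h2 := congrArg (fun w : ↥(h91_W (qM n) (r n)) => (w : M n)) h1
      simp only [h91_gen_coe] at h2
      rw [h31_r_one] at h2
      exact h2.symm
    obtain ⟨y, hy⟩ := hc n z hv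
    rw [hy, show n - c = k by omega, zsmul_eq_mul, map_mul, map_intCast]
    push_cast
    exact Ideal.mul_mem_right _ _ (Ideal.pow_mem_pow hpT k)
  · intro ℓ hℓ hℓN hℓS w
    have h := h91_W_ext (qM n) (r n)
      ((h91_W (qM n) (r n)).subtype.comp
        (h91_act (qM n) (r n) ι hex (CuspForm.heckeAlgebra.T hℓ hℓN hℓS)))
      ((tM n ⟨ℓ, hℓ⟩).comp (h91_W (qM n) (r n)).subtype) (fun γ y => by
        show ((h91_act (qM n) (r n) ι hex (CuspForm.heckeAlgebra.T hℓ hℓN hℓS)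
          (h91_gen (qM n) (r n) γ y) : ↥(h91_W (qM n) (r n))) : M n) =
            tM n ⟨ℓ, hℓ⟩ (r n γ (qM n y))
        have e := h91_act_gen (qM n) (r n) ι hex (CuspForm.heckeAlgebra.T hℓ hℓN hℓS) γ y
        rw [congrArg (fun w : ↥(h91_W (qM n) (r n)) => (w : M n)) e]
        show r n γ (qM n (ι (CuspForm.heckeAlgebra.T hℓ hℓN hℓS) y)) = _
        rw [hhecke ℓ hℓ hℓN hℓS y, hcomm ⟨ℓ, hℓ⟩ γ])
    exact congrArg (fun F : ↥(h91_W (qM n) (r n)) →+ M n => F w) h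

end main

/-- The preimage of the maximal ideal of a quotient `T ⧸ I` of a local ring is the maximal
ideal. -/
theorem h91_comap_maximal {T : Type} [CommRing T] [IsLocalRing T] (I : Ideal T)
    [IsLocalRing (T ⧸ I)] (hItop : I ≠ ⊤) :
    Ideal.comap (Ideal.Quotient.mk I) (IsLocalRing.maximalIdeal (T ⧸ I)) =
      IsLocalRing.maximalIdeal T := by
  ext x
  rw [Ideal.mem_comap, IsLocalRing.mem_maximalIdeal, IsLocalRing.mem_maximalIdeal,
    mem_nonunits_iff, mem_nonunits_iff, not_iff_not]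
  constructor
  · intro hu
    by_contra hx
    have hxm : x ∈ IsLocalRing.maximalIdeal T := hx
    obtain ⟨z, hz⟩ := hu.exists_right_inv
    obtain ⟨z', rfl⟩ := Ideal.Quotient.mk_surjective z
    rw [← map_mul, ← map_one (Ideal.Quotient.mk I), Ideal.Quotient.eq] at hz
    have h1 : x * z' - 1 ∈ IsLocalRing.maximalIdeal T := IsLocalRing.le_maximalIdeal hItop hz
    have h2 : x * z' ∈ IsLocalRing.maximalIdeal T := Ideal.mul_mem_right _ _ hxm
    have h3 : (1 : T) ∈ IsLocalRing.maximalIdeal T := by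
      have := Ideal.sub_mem _ h2 h1
      rwa [sub_sub_cancel] at this
    exact (Ideal.ne_top_iff_one _).mp (IsLocalRing.maximalIdeal.isMaximal T).ne_top h3
  · intro hu
    exact hu.map (Ideal.Quotient.mk I)

/-- The level basis of `h21_level_basis`, with the matrices of `ρbar` made explicit: they are
the matrices of `ρ` in a basis `b` of `V`, reduced modulo `I`. -/
theorem h91_level_basis_mat {T : Type} [CommRing T] [IsLocalRing T] (ρ : GaloisRepAdic T)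
    (habs : ρ.residual.IsAbsolutelyIrreducible) (I : Ideal T) :
    ∃ (b : Module.Basis (Fin 2) T ρ.V) (ρbar : Γℚ →* Matrix (Fin 2) (Fin 2) (T ⧸ I))
      (c : (Fin 2 → T ⧸ I) ≃+ (ρ.V ⧸ (I • (⊤ : Submodule T ρ.V)))),
      (∀ g, ρbar g = (Ideal.Quotient.mk I).mapMatrix (LinearMap.toMatrix b b (ρ.ρ g))) ∧
      (∀ g, (ρbar g).trace = Ideal.Quotient.mk I (LinearMap.trace T ρ.V (ρ.ρ g))) ∧
      Submodule.span (T ⧸ I) (Set.range ρbar) = ⊤ ∧
      ∀ g v, c ((ρbar g).mulVec v) = ρ.levelAction I g (c v) := by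
  classical
  let b : Module.Basis (Fin 2) T ρ.V := Module.finBasisOfFinrankEq T ρ.V ρ.finrank_eq
  let ρbar : Γℚ →* Matrix (Fin 2) (Fin 2) (T ⧸ I) :=
    ((Ideal.Quotient.mk I).mapMatrix :
        Matrix (Fin 2) (Fin 2) T →+* Matrix (Fin 2) (Fin 2) (T ⧸ I)).toMonoidHom.comp
      (((LinearMap.toMatrixAlgEquiv b :
        Module.End T ρ.V ≃ₐ[T] Matrix (Fin 2) (Fin 2) T) : Module.End T ρ.V →* _).comp ρ.ρ)
  have hρbar : ∀ g, ρbar g = (LinearMap.toMatrix b b (ρ.ρ g)).map (Ideal.Quotient.mk I) :=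
    fun g => rfl
  refine ⟨b, ρbar, (h54_levelEquiv b I).symm.toAddEquiv, fun g => rfl, fun g => ?_, ?_,
    fun g v => ?_⟩
  · rw [hρbar, LinearMap.trace_eq_matrix_trace T b]
    exact (AddMonoidHom.map_trace (Ideal.Quotient.mk I).toAddMonoidHom _).symm
  · rw [eq_top_iff]
    intro N _
    choose t ht using fun i j => Ideal.Quotient.mk_surjective (N i j)
    have hN : N = (Matrix.of t).map (Ideal.Quotient.mk I) := by
      ext i j
      rw [Matrix.map_apply, Matrix.of_apply, ht]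
    have hmem : (Matrix.of t : Matrix (Fin 2) (Fin 2) T) ∈
        Submodule.span T (Set.range fun g => LinearMap.toMatrix b b (ρ.ρ g)) := by
      rw [h65_span_matrix_eq_top ρ habs b]
      exact Submodule.mem_top
    have key : ∀ X : Matrix (Fin 2) (Fin 2) T,
        X ∈ Submodule.span T (Set.range fun g => LinearMap.toMatrix b b (ρ.ρ g)) →
        X.map (Ideal.Quotient.mk I) ∈ Submodule.span (T ⧸ I) (Set.range ρbar) := by
      intro X hX
      induction hX using Submodule.span_induction with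
      | mem x hx =>
        obtain ⟨g, rfl⟩ := hx
        exact Submodule.subset_span ⟨g, rfl⟩
      | zero =>
        have h0 : (0 : Matrix (Fin 2) (Fin 2) T).map (Ideal.Quotient.mk I) = 0 := by
          ext i j
          simp
        rw [h0]
        exact Submodule.zero_mem _
      | add x y _ _ hx hy =>
        have h1 : (x + y).map (Ideal.Quotient.mk I)
            = x.map (Ideal.Quotient.mk I) + y.map (Ideal.Quotient.mk I) := by
          ext i j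
          simp
        rw [h1]
        exact Submodule.add_mem _ hx hy
      | smul a x _ hx =>
        have h1 : (a • x).map (Ideal.Quotient.mk I)
            = Ideal.Quotient.mk I a • x.map (Ideal.Quotient.mk I) := by
          ext i j
          simp
        rw [h1]
        exact Submodule.smul_mem _ _ hx
    rw [hN]
    exact key _ hmem
  · apply (h54_levelEquiv b I).injective
    show h54_levelEquiv b I ((h54_levelEquiv b I).symm ((ρbar g).mulVec v))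
      = h54_levelEquiv b I (ρ.levelAction I g ((h54_levelEquiv b I).symm v))
    rw [LinearEquiv.apply_symm_apply]
    obtain ⟨u, hu⟩ := Submodule.Quotient.mk_surjective _ ((h54_levelEquiv b I).symm v)
    have hv : v = h54_coordMod b I u := by
      have h1 : h54_levelEquiv b I (Submodule.Quotient.mk u) = v := by
        rw [hu, LinearEquiv.apply_symm_apply]
      rw [← h1, h54_levelEquiv_mk]
    rw [← hu]
    have h2 : ρ.levelAction I g (Submodule.Quotient.mk u) = Submodule.Quotient.mk (ρ.ρ g u) :=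
      rfl
    rw [h2, h54_levelEquiv_mk, hv]
    funext i
    rw [h54_coordMod_apply, hρbar, ← LinearMap.toMatrix_mulVec_repr b b (ρ.ρ g) u]
    simp only [Matrix.mulVec, dotProduct, Matrix.map_apply, h54_coordMod_apply, map_sum, map_mul]

section core

variable {p : ℕ} {N : ℕ} [NeZero N] {S : Finset ℕ}
  {𝒪 : Type} [CommRing 𝒪] [IsDomain 𝒪] [IsDiscreteValuationRing 𝒪]
  [IsAdicComplete (IsLocalRing.maximalIdeal 𝒪) 𝒪]
  {θ : CuspForm.heckeAlgebra N 2 (↑S : Set ℕ) →+* IsLocalRing.ResidueField 𝒪}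
  {T : Type} [CommRing T] [IsLocalRing T] [IsNoetherianRing T]
  [IsAdicComplete (IsLocalRing.maximalIdeal T) T] [Algebra 𝒪 T] [IsLocalHom (algebraMap 𝒪 T)]
  [Module.Finite 𝒪 T] [Module.Free 𝒪 T]

/-- **The statement of the ordinary core at `(k, n)`**: for all data
`(act, a, t, ρbar)` on the Galois span `W = h91_W (qM n) (r n)` with coefficients
`A = T ⧸ 𝔪 ^ k`, `φ₀ = (mk (𝔪 ^ k)) ∘ π`, satisfying the hypotheses of `h48_ordcore_ker` up to
`hres2` and the residual relation `hresI` of `h48_ordcore_ker_split` (together with: `a`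
cyclotomic on `μ_{p^n}`, `W` killed by `p ^ n`, the Hecke action on
`W` restricts the operators `tM ℓ`, and the `θ`-ideal `φ₀⁻¹ 𝔪_A` is `π⁻¹ 𝔪_T`), the relation
`(ρbar σ₀ - a σ₀) (ρbar σ - 1) = 0` holds for all `σ` in the inertia group of `P`. -/
def h91_OrdCoreStmt (p : ℕ) (H : CuspForm.HeckeGaloisRepDatum N (↑S : Set ℕ) 𝒪 θ T)
    {Λ : Type} [AddCommGroup Λ]
    (M : ℕ → Type) [instM : ∀ n, AddCommGroup (M n)] (qM : ∀ n, Λ →+ M n)
    (r : ∀ n, Γℚ →* AddMonoid.End (M n)) (tM : ∀ n, Nat.Primes → M n →+ M n)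
    (P : ValuationSubring Qb) (σ0 : Γℚ) (k n : ℕ) : Prop :=
  ∀ [IsLocalRing (T ⧸ IsLocalRing.maximalIdeal T ^ k)]
    [Finite (T ⧸ IsLocalRing.maximalIdeal T ^ k)]
    (act : CuspForm.heckeAlgebra N 2 (↑S : Set ℕ) →+* AddMonoid.End ↥(h91_W (qM n) (r n)))
    (a : Γℚ → ℕ) (t : Γℚ → CuspForm.heckeAlgebra N 2 (↑S : Set ℕ))
    (ρbar : Γℚ →* Matrix (Fin 2) (Fin 2) (T ⧸ IsLocalRing.maximalIdeal T ^ k)),
    (∀ z g w, act z (h91_rW (qM n) (r n) g w) = h91_rW (qM n) (r n) g (act z w)) →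
    (∀ w : ↥(h91_W (qM n) (r n)), a 1 • w = w) →
    (∀ g h (w : ↥(h91_W (qM n) (r n))), a (g * h) • w = a g • a h • w) →
    (∀ g w, act (t g) w =
      h91_rW (qM n) (r n) g w + a g • h91_rW (qM n) (r n) g⁻¹ w) →
    IsUnit (2 : T ⧸ IsLocalRing.maximalIdeal T ^ k) →
    (∀ z, act z = 0 →
      ((Ideal.Quotient.mk (IsLocalRing.maximalIdeal T ^ k)).comp H.π) z = 0) →
    (∀ g, (ρbar g).trace =
      ((Ideal.Quotient.mk (IsLocalRing.maximalIdeal T ^ k)).comp H.π) (t g)) →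
    Submodule.span (T ⧸ IsLocalRing.maximalIdeal T ^ k) (Set.range ρbar) = ⊤ →
    ((Ideal.Quotient.mk (IsLocalRing.maximalIdeal T ^ k)).comp H.π) (t σ0) -
        (1 + (a σ0 : T ⧸ IsLocalRing.maximalIdeal T ^ k)) ∈
      IsLocalRing.maximalIdeal (T ⧸ IsLocalRing.maximalIdeal T ^ k) →
    IsUnit ((a σ0 : T ⧸ IsLocalRing.maximalIdeal T ^ k) - 1) →
    (∀ σ ∈ P.inertiaSubgroupIn ℚ, ∀ i j,
      ((ρbar σ0 - (a σ0 : T ⧸ IsLocalRing.maximalIdeal T ^ k) •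
          (1 : Matrix (Fin 2) (Fin 2) (T ⧸ IsLocalRing.maximalIdeal T ^ k))) *
        (ρbar σ - 1)) i j ∈
        IsLocalRing.maximalIdeal (T ⧸ IsLocalRing.maximalIdeal T ^ k)) →
    (∀ g, h31_Cyc (p ^ n) g (a g)) →
    (∀ w : ↥(h91_W (qM n) (r n)), p ^ n • w = 0) →
    (∀ (ℓ : ℕ) (hℓ : ℓ.Prime) (hℓN : ¬ ℓ ∣ N) (hℓS : ℓ ∉ (↑S : Set ℕ))
      (w : ↥(h91_W (qM n) (r n))),
      ((act (CuspForm.heckeAlgebra.T hℓ hℓN hℓS) w : ↥(h91_W (qM n) (r n))) : M n) =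
        tM n ⟨ℓ, hℓ⟩ (w : M n)) →
    Ideal.comap ((Ideal.Quotient.mk (IsLocalRing.maximalIdeal T ^ k)).comp H.π)
        (IsLocalRing.maximalIdeal (T ⧸ IsLocalRing.maximalIdeal T ^ k)) =
      Ideal.comap H.π (IsLocalRing.maximalIdeal T) →
    ∀ σ ∈ P.inertiaSubgroupIn ℚ,
      (ρbar σ0 - (a σ0 : T ⧸ IsLocalRing.maximalIdeal T ^ k) • 1) * (ρbar σ - 1) = 0

/-- **S33, machine instance.** If the ordinary core holds at every `(k, n)`, `0 < k ≤ n`, then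
`(ρ σ₀ - det ρ σ₀) (ρ σ - 1) V ⊆ 𝔪 ^ k V` for all `k` and all `σ` in the inertia group: the
`hone` clause of `h14_S33_of_one_limit`. -/
theorem h91_ord_of_core [Finite (IsLocalRing.ResidueField 𝒪)]
    (hp : p.Prime) (hp2 : p ≠ 2)
    (hp𝒪 : (p : 𝒪) ∈ IsLocalRing.maximalIdeal 𝒪) (hpS : p ∈ S)
    (hNS : ∀ q : ℕ, q.Prime → q ∣ N → q ∈ S)
    (H : CuspForm.HeckeGaloisRepDatum N (↑S : Set ℕ) 𝒪 θ T)
    {Λ : Type} [AddCommGroup Λ] [Module.Free ℤ Λ] [Module.Finite ℤ Λ]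
    (ι : CuspForm.heckeAlgebra N 2 (↑S : Set ℕ) →+* Module.End ℤ Λ)
    (hι : Function.Injective ι)
    (M : ℕ → Type) [instM : ∀ n, AddCommGroup (M n)] (qM : ∀ n, Λ →+ M n)
    (r : ∀ n, Γℚ →* AddMonoid.End (M n)) (tM : ∀ n, Nat.Primes → M n →+ M n)
    (hlevel : ∀ n : ℕ, h31_IsLevel p N S ι n (qM n) (r n) (tM n)) (hcheb : h65_WCheb)
    (P : ValuationSubring Qb) (σ0 : Γℚ)
    (hu : IsUnit (LinearMap.det (H.ρ.ρ σ0) - 1))
    (hres1 : LinearMap.trace T H.ρ.V (H.ρ.ρ σ0) - (1 + LinearMap.det (H.ρ.ρ σ0)) ∈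
      IsLocalRing.maximalIdeal T)
    (hresI : ∀ σ ∈ P.inertiaSubgroupIn ℚ, ∀ v : H.ρ.V,
      ((H.ρ.ρ σ0 - LinearMap.det (H.ρ.ρ σ0) • 1) * (H.ρ.ρ σ - 1)) v ∈
        IsLocalRing.maximalIdeal T • (⊤ : Submodule T H.ρ.V))
    (hcore : ∀ k n : ℕ, 0 < k → k ≤ n → h91_OrdCoreStmt p H M qM r tM P σ0 k n) :
    ∀ σ ∈ P.inertiaSubgroupIn ℚ, ∀ (k : ℕ) (v : H.ρ.V),
      ((H.ρ.ρ σ0 - LinearMap.det (H.ρ.ρ σ0) • 1) * (H.ρ.ρ σ - 1)) v ∈
        IsLocalRing.maximalIdeal T ^ k • (⊤ : Submodule T H.ρ.V) := by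
  classical
  intro σ hσ k v
  rcases Nat.eq_zero_or_pos k with rfl | hk
  · rw [pow_zero, Ideal.one_eq_top, Submodule.top_smul]
    exact Submodule.mem_top
  have hItop : IsLocalRing.maximalIdeal T ^ k ≠ ⊤ := by
    intro h
    have h1 : (1 : T) ∈ IsLocalRing.maximalIdeal T ^ k := by rw [h]; exact Submodule.mem_top
    have h2 : (1 : T) ∈ IsLocalRing.maximalIdeal T := Ideal.pow_le_self hk.ne' h1
    exact (Ideal.ne_top_iff_one _).mp (IsLocalRing.maximalIdeal.isMaximal T).ne_top h2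
  have hfinres : Finite (IsLocalRing.ResidueField T) := by
    refine Finite.of_surjective (IsLocalRing.ResidueField.map (algebraMap 𝒪 T)) ?_
    intro y
    obtain ⟨x, hx⟩ := H.residue_surjective y
    exact ⟨IsLocalRing.residue 𝒪 x, by rw [IsLocalRing.ResidueField.map_residue]; exact hx⟩
  haveI : Finite (T ⧸ IsLocalRing.maximalIdeal T) := hfinres
  have hfin : Finite (T ⧸ IsLocalRing.maximalIdeal T ^ k) :=
    Ideal.finite_quotient_pow (IsNoetherian.noetherian _) k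
  obtain ⟨⟨hloc⟩, -⟩ := h91_exists_pow_le (IsLocalRing.maximalIdeal T ^ k) hfin hItop
  haveI : IsLocalRing (T ⧸ IsLocalRing.maximalIdeal T ^ k) := hloc
  have hpT : (p : T) ∈ IsLocalRing.maximalIdeal T := by
    have e : (p : T) = algebraMap 𝒪 T (p : 𝒪) := (map_natCast _ _).symm
    rw [e, IsLocalRing.mem_maximalIdeal, mem_nonunits_iff]
    intro hu
    exact hp𝒪 (isUnit_of_map_unit (algebraMap 𝒪 T) _ hu)
  have h2T : IsUnit (2 : T) := by
    by_contra h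
    have h2m : (2 : T) ∈ IsLocalRing.maximalIdeal T := h
    obtain ⟨m, hm⟩ := hp.odd_of_ne_two hp2
    have h1 : (1 : T) = (p : T) - 2 * (m : T) := by
      rw [hm]; push_cast; ring
    have h3 : (1 : T) ∈ IsLocalRing.maximalIdeal T := by
      rw [h1]
      exact Ideal.sub_mem _ hpT (Ideal.mul_mem_right _ _ h2m)
    exact (Ideal.ne_top_iff_one _).mp (IsLocalRing.maximalIdeal.isMaximal T).ne_top h3
  have h2 : IsUnit (2 : T ⧸ IsLocalRing.maximalIdeal T ^ k) := by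
    have := h2T.map (Ideal.Quotient.mk (IsLocalRing.maximalIdeal T ^ k))
    rwa [map_ofNat] at this
  obtain ⟨n, act, a, t, hkn, hcomm, ha1, hamul, ht, hkerπ, htr, hcyc, htorsW, hheckeW⟩ :=
    h91_level_side_cyc hp hp𝒪 hpS hNS H ι hι M qM r tM hlevel hcheb k
  obtain ⟨b, ρbar, c, hρb, hρtr, hρspan, hρc⟩ :=
    h91_level_basis_mat H.ρ H.residual_absIrr (IsLocalRing.maximalIdeal T ^ k)
  -- `det ρ σ₀ ≡ a σ₀` modulo `𝔪 ^ k`
  obtain ⟨-, hdetcyc⟩ := h14_det_cyclotomic hp hp𝒪 hNS H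
  have hdet_a : LinearMap.det (H.ρ.ρ σ0) - (a σ0 : T) ∈ IsLocalRing.maximalIdeal T ^ k := by
    have h1 := hdetcyc n σ0 (a σ0) (hcyc σ0)
    obtain ⟨b, hb⟩ := Ideal.mem_span_singleton'.1 h1
    rw [← hb]
    refine Ideal.mul_mem_left _ _ ?_
    have h3 : ((p ^ n : ℕ) : T) ∈ IsLocalRing.maximalIdeal T ^ n := by
      push_cast
      exact Ideal.pow_mem_pow hpT n
    exact Ideal.pow_le_pow_right hkn h3
  have hdet_a' : LinearMap.det (H.ρ.ρ σ0) - (a σ0 : T) ∈ IsLocalRing.maximalIdeal T :=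
    Ideal.pow_le_self hk.ne' hdet_a
  have hcomapmk := h91_comap_maximal (IsLocalRing.maximalIdeal T ^ k) hItop
  have hmk : ∀ x ∈ IsLocalRing.maximalIdeal T,
      Ideal.Quotient.mk (IsLocalRing.maximalIdeal T ^ k) x ∈
        IsLocalRing.maximalIdeal (T ⧸ IsLocalRing.maximalIdeal T ^ k) := by
    intro x hx
    rw [← hcomapmk] at hx
    exact hx
  have hcomap : Ideal.comap ((Ideal.Quotient.mk (IsLocalRing.maximalIdeal T ^ k)).comp H.π)
      (IsLocalRing.maximalIdeal (T ⧸ IsLocalRing.maximalIdeal T ^ k)) =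
      Ideal.comap H.π (IsLocalRing.maximalIdeal T) := by
    rw [← Ideal.comap_comap, hcomapmk]
  have htr' : ∀ g, (ρbar g).trace =
      ((Ideal.Quotient.mk (IsLocalRing.maximalIdeal T ^ k)).comp H.π) (t g) :=
    fun g => (hρtr g).trans (Ideal.Quotient.eq.mpr (htr g))
  have hres1' : ((Ideal.Quotient.mk (IsLocalRing.maximalIdeal T ^ k)).comp H.π) (t σ0) -
      (1 + (a σ0 : T ⧸ IsLocalRing.maximalIdeal T ^ k)) ∈
      IsLocalRing.maximalIdeal (T ⧸ IsLocalRing.maximalIdeal T ^ k) := by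
    have e : ((Ideal.Quotient.mk (IsLocalRing.maximalIdeal T ^ k)).comp H.π) (t σ0) -
        (1 + (a σ0 : T ⧸ IsLocalRing.maximalIdeal T ^ k)) =
        Ideal.Quotient.mk (IsLocalRing.maximalIdeal T ^ k)
          (H.π (t σ0) - (1 + (a σ0 : T))) := by
      rw [RingHom.comp_apply, map_sub, map_add, map_one, map_natCast]
    rw [e]
    apply hmk
    have e2 : H.π (t σ0) - (1 + (a σ0 : T)) =
        (LinearMap.trace T H.ρ.V (H.ρ.ρ σ0) - (1 + LinearMap.det (H.ρ.ρ σ0))) +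
          (LinearMap.det (H.ρ.ρ σ0) - (a σ0 : T)) -
          (LinearMap.trace T H.ρ.V (H.ρ.ρ σ0) - H.π (t σ0)) := by ring
    rw [e2]
    exact Ideal.sub_mem _ (Ideal.add_mem _ hres1 hdet_a') (Ideal.pow_le_self hk.ne' (htr σ0))
  have hres2' : IsUnit ((a σ0 : T ⧸ IsLocalRing.maximalIdeal T ^ k) - 1) := by
    have hT : IsUnit ((a σ0 : T) - 1) := by
      by_contra h
      have hm : (a σ0 : T) - 1 ∈ IsLocalRing.maximalIdeal T := h
      have e3 : LinearMap.det (H.ρ.ρ σ0) - 1 =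
          (LinearMap.det (H.ρ.ρ σ0) - (a σ0 : T)) + ((a σ0 : T) - 1) := by ring
      have hm2 : LinearMap.det (H.ρ.ρ σ0) - 1 ∈ IsLocalRing.maximalIdeal T := by
        rw [e3]
        exact Ideal.add_mem _ hdet_a' hm
      exact hm2 hu
    have := hT.map (Ideal.Quotient.mk (IsLocalRing.maximalIdeal T ^ k))
    rwa [map_sub, map_natCast, map_one] at this
  have hresI' : ∀ τ ∈ P.inertiaSubgroupIn ℚ, ∀ i j,
      ((ρbar σ0 - (a σ0 : T ⧸ IsLocalRing.maximalIdeal T ^ k) •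
          (1 : Matrix (Fin 2) (Fin 2) (T ⧸ IsLocalRing.maximalIdeal T ^ k))) *
        (ρbar τ - 1)) i j ∈
        IsLocalRing.maximalIdeal (T ⧸ IsLocalRing.maximalIdeal T ^ k) := by
    intro τ hτ i j
    have hφa : ((a σ0 : T ⧸ IsLocalRing.maximalIdeal T ^ k) •
        (1 : Matrix (Fin 2) (Fin 2) (T ⧸ IsLocalRing.maximalIdeal T ^ k))) =
        (Ideal.Quotient.mk (IsLocalRing.maximalIdeal T ^ k)).mapMatrix
          ((a σ0 : T) • (1 : Matrix (Fin 2) (Fin 2) T)) := by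
      rw [Nat.cast_smul_eq_nsmul, Nat.cast_smul_eq_nsmul, map_nsmul, map_one]
    have e : (ρbar σ0 - (a σ0 : T ⧸ IsLocalRing.maximalIdeal T ^ k) •
          (1 : Matrix (Fin 2) (Fin 2) (T ⧸ IsLocalRing.maximalIdeal T ^ k))) * (ρbar τ - 1) =
        (Ideal.Quotient.mk (IsLocalRing.maximalIdeal T ^ k)).mapMatrix
          (LinearMap.toMatrix b b
              ((H.ρ.ρ σ0 - LinearMap.det (H.ρ.ρ σ0) • 1) * (H.ρ.ρ τ - 1)) +
            (LinearMap.det (H.ρ.ρ σ0) - (a σ0 : T)) •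
              (LinearMap.toMatrix b b (H.ρ.ρ τ) - 1)) := by
      rw [hρb σ0, hρb τ, hφa,
        ← map_one ((Ideal.Quotient.mk (IsLocalRing.maximalIdeal T ^ k)).mapMatrix
          (m := Fin 2)), ← map_sub, ← map_sub, ← map_mul]
      congr 1
      rw [LinearMap.toMatrix_mul, map_sub, map_sub, map_smul, LinearMap.toMatrix_one]
      have e5 : LinearMap.toMatrix b b (H.ρ.ρ σ0) -
          (a σ0 : T) • (1 : Matrix (Fin 2) (Fin 2) T) =
          (LinearMap.toMatrix b b (H.ρ.ρ σ0) - LinearMap.det (H.ρ.ρ σ0) • 1) +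
            (LinearMap.det (H.ρ.ρ σ0) - (a σ0 : T)) • 1 := by
        rw [sub_smul]; abel
      rw [e5, add_mul, smul_mul_assoc, one_mul]
    rw [e, RingHom.mapMatrix_apply, Matrix.map_apply]
    apply hmk
    rw [Matrix.add_apply, Matrix.smul_apply, LinearMap.toMatrix_apply, smul_eq_mul]
    exact Ideal.add_mem _ (h14_repr_mem b _ (hresI τ hτ (b j)) i)
      (Ideal.mul_mem_right _ _ hdet_a')
  have hmat := hcore k n hk hkn act a t ρbar hcomm ha1 hamul ht h2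
    (fun z hz => Ideal.Quotient.eq_zero_iff_mem.mpr (hkerπ z hz)) htr' hρspan hres1' hres2'
    hresI' hcyc htorsW hheckeW hcomap σ hσ
  -- back to `V`
  rw [← Submodule.Quotient.mk_eq_zero]
  have hLA : ∀ (g : Γℚ) (x : H.ρ.V),
      H.ρ.levelAction (IsLocalRing.maximalIdeal T ^ k) g (Submodule.Quotient.mk x) =
        Submodule.Quotient.mk (H.ρ.ρ g x) := fun g x => rfl
  obtain ⟨u, hu'⟩ := c.surjective (Submodule.Quotient.mk v)
  set w : Fin 2 → T ⧸ IsLocalRing.maximalIdeal T ^ k := (ρbar σ).mulVec u - u with hw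
  have e1 : (Submodule.Quotient.mk (H.ρ.ρ σ v - v) :
      H.ρ.V ⧸ (IsLocalRing.maximalIdeal T ^ k • (⊤ : Submodule T H.ρ.V))) = c w := by
    rw [Submodule.Quotient.mk_sub, ← hLA, ← hu', ← hρc, hw, map_sub]
  have e2 : (((H.ρ.ρ σ0 - LinearMap.det (H.ρ.ρ σ0) • 1) * (H.ρ.ρ σ - 1)) v) =
      H.ρ.ρ σ0 (H.ρ.ρ σ v - v) - LinearMap.det (H.ρ.ρ σ0) • (H.ρ.ρ σ v - v) := by
    simp only [Module.End.mul_apply, LinearMap.sub_apply, LinearMap.smul_apply,
      Module.End.one_apply]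
  rw [e2, Submodule.Quotient.mk_sub, ← hLA, Submodule.Quotient.mk_smul, e1, ← hρc]
  -- the scalar `det` acts as `a σ₀` on `V / 𝔪 ^ k V`
  have e3 : LinearMap.det (H.ρ.ρ σ0) • c w = c ((a σ0) • w) := by
    obtain ⟨x', hx'⟩ := Submodule.Quotient.mk_surjective _ (c w)
    have h4 : (LinearMap.det (H.ρ.ρ σ0) - (a σ0 : T)) • c w = 0 := by
      rw [← hx', ← Submodule.Quotient.mk_smul, Submodule.Quotient.mk_eq_zero]
      exact Submodule.smul_mem_smul hdet_a Submodule.mem_top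
    rw [sub_smul, sub_eq_zero] at h4
    rw [h4, Nat.cast_smul_eq_nsmul, map_nsmul]
  rw [e3, ← map_sub]
  have e4 : (ρbar σ0).mulVec w - (a σ0) • w =
      ((ρbar σ0 - (a σ0 : T ⧸ IsLocalRing.maximalIdeal T ^ k) • 1) * (ρbar σ - 1)).mulVec u := by
    rw [← Matrix.mulVec_mulVec, Matrix.sub_mulVec (ρbar σ) 1 u, Matrix.one_mulVec, ← hw,
      Matrix.sub_mulVec, Matrix.smul_mulVec, Matrix.one_mulVec, Nat.cast_smul_eq_nsmul]
  rw [e4, hmat, Matrix.zero_mulVec, map_zero]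

/-- **The split hypothesis at level `n`**: for every Hecke action `act` on the Galois span
`W = h91_W (qM n) (r n)` which commutes with the Galois action and restricts the operators
`tM ℓ`, there is a subgroup `Yns` of the `θ`-primary part of `W`, stable under Galois and
Hecke, satisfying `(h_new)` and `(h_old)` of `h48_ordcore_ker_split` for the inertia group of
`P` and the element `σ₀`. The `θ`-ideal is `π⁻¹ 𝔪_T` (independent of any auxiliary level). -/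
def h91_SplitStmt (p : ℕ) (H : CuspForm.HeckeGaloisRepDatum N (↑S : Set ℕ) 𝒪 θ T)
    {Λ : Type} [AddCommGroup Λ]
    (M : ℕ → Type) [instM : ∀ n, AddCommGroup (M n)] (qM : ∀ n, Λ →+ M n)
    (r : ∀ n, Γℚ →* AddMonoid.End (M n)) (tM : ∀ n, Nat.Primes → M n →+ M n)
    (P : ValuationSubring Qb) (σ0 : Γℚ) (n : ℕ) : Prop :=
  ∀ (act : CuspForm.heckeAlgebra N 2 (↑S : Set ℕ) →+* AddMonoid.End ↥(h91_W (qM n) (r n))),
    (∀ z g w, act z (h91_rW (qM n) (r n) g w) = h91_rW (qM n) (r n) g (act z w)) →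
    (∀ (ℓ : ℕ) (hℓ : ℓ.Prime) (hℓN : ¬ ℓ ∣ N) (hℓS : ℓ ∉ (↑S : Set ℕ))
      (w : ↥(h91_W (qM n) (r n))),
      ((act (CuspForm.heckeAlgebra.T hℓ hℓN hℓS) w : ↥(h91_W (qM n) (r n))) : M n) =
        tM n ⟨ℓ, hℓ⟩ (w : M n)) →
    ∃ Yns : AddSubgroup ↥(h91_W (qM n) (r n)),
      (∀ z ∈ Yns, ∃ j, ∀ c ∈ (Ideal.comap H.π (IsLocalRing.maximalIdeal T)) ^ j,
        act c z = 0) ∧
      (∀ g : Γℚ, ∀ y ∈ Yns, h91_rW (qM n) (r n) g y ∈ Yns) ∧
      (∀ b : CuspForm.heckeAlgebra N 2 (↑S : Set ℕ), ∀ y ∈ Yns, act b y ∈ Yns) ∧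
      (∀ z ∈ Yns, p • z = 0 → h91_rW (qM n) (r n) σ0 z = z →
        z ∈ AddSubgroup.closure {w : ↥(h91_W (qM n) (r n)) | ∃ σ ∈ P.inertiaSubgroupIn ℚ,
          ∃ y : ↥(h91_W (qM n) (r n)),
            (∃ j, ∀ c ∈ (Ideal.comap H.π (IsLocalRing.maximalIdeal T)) ^ j, act c y = 0) ∧
              w = h91_rW (qM n) (r n) σ y - y} → z = 0) ∧
      ∃ X0 : AddSubgroup ↥(h91_W (qM n) (r n)), Yns ≤ X0 ∧
        (∀ σ ∈ P.inertiaSubgroupIn ℚ, ∀ y : ↥(h91_W (qM n) (r n)),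
          (∃ j, ∀ c ∈ (Ideal.comap H.π (IsLocalRing.maximalIdeal T)) ^ j, act c y = 0) →
            h91_rW (qM n) (r n) σ y - y ∈ X0) ∧
        ∀ X' Z : AddSubgroup ↥(h91_W (qM n) (r n)), Yns ≤ Z → Z ≤ X' → X' ≤ X0 →
          (∀ σ ∈ P.inertiaSubgroupIn ℚ, ∀ v ∈ X', h91_rW (qM n) (r n) σ v ∈ X') →
          (∀ σ ∈ P.inertiaSubgroupIn ℚ, ∀ v ∈ X', h91_rW (qM n) (r n) σ v - v ∈ Z) → X' ≤ Z

/-- **S33, machine instance, split form.** If the split hypothesis (`(h_new)` + `(h_old)`,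
`h91_SplitStmt`) holds at every level `n ≥ 1`, then
`(ρ σ₀ - det ρ σ₀) (ρ σ - 1) V ⊆ 𝔪 ^ k V` for all `k` and all `σ` in the inertia group: the
`hone` clause of `h14_S33_of_one_limit`. -/
theorem h91_ord_of_split [Finite (IsLocalRing.ResidueField 𝒪)]
    (hp : p.Prime) (hp2 : p ≠ 2)
    (hp𝒪 : (p : 𝒪) ∈ IsLocalRing.maximalIdeal 𝒪) (hpS : p ∈ S)
    (hNS : ∀ q : ℕ, q.Prime → q ∣ N → q ∈ S)
    (H : CuspForm.HeckeGaloisRepDatum N (↑S : Set ℕ) 𝒪 θ T)
    {Λ : Type} [AddCommGroup Λ] [Module.Free ℤ Λ] [Module.Finite ℤ Λ]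
    (ι : CuspForm.heckeAlgebra N 2 (↑S : Set ℕ) →+* Module.End ℤ Λ)
    (hι : Function.Injective ι)
    (M : ℕ → Type) [instM : ∀ n, AddCommGroup (M n)] (hfinM : ∀ n, Finite (M n))
    (qM : ∀ n, Λ →+ M n)
    (r : ∀ n, Γℚ →* AddMonoid.End (M n)) (tM : ∀ n, Nat.Primes → M n →+ M n)
    (hlevel : ∀ n : ℕ, h31_IsLevel p N S ι n (qM n) (r n) (tM n)) (hcheb : h65_WCheb)
    (P : ValuationSubring Qb) (σ0 : Γℚ) (hσ0 : σ0 ∈ P.inertiaSubgroupIn ℚ)
    (hu : IsUnit (LinearMap.det (H.ρ.ρ σ0) - 1))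
    (hres1 : LinearMap.trace T H.ρ.V (H.ρ.ρ σ0) - (1 + LinearMap.det (H.ρ.ρ σ0)) ∈
      IsLocalRing.maximalIdeal T)
    (hresI : ∀ σ ∈ P.inertiaSubgroupIn ℚ, ∀ v : H.ρ.V,
      ((H.ρ.ρ σ0 - LinearMap.det (H.ρ.ρ σ0) • 1) * (H.ρ.ρ σ - 1)) v ∈
        IsLocalRing.maximalIdeal T • (⊤ : Submodule T H.ρ.V))
    (hsplit : ∀ n : ℕ, 0 < n → h91_SplitStmt p H M qM r tM P σ0 n) :
    ∀ σ ∈ P.inertiaSubgroupIn ℚ, ∀ (k : ℕ) (v : H.ρ.V),
      ((H.ρ.ρ σ0 - LinearMap.det (H.ρ.ρ σ0) • 1) * (H.ρ.ρ σ - 1)) v ∈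
        IsLocalRing.maximalIdeal T ^ k • (⊤ : Submodule T H.ρ.V) := by
  refine h91_ord_of_core hp hp2 hp𝒪 hpS hNS H ι hι M qM r tM hlevel hcheb P σ0 hu hres1 hresI ?_
  intro k n hk hkn
  unfold h91_OrdCoreStmt
  intro _ _ act a t ρbar hcomm ha1 hamul ht h2 hker htr hspan hr1 hr2 hrI hcyc htors hhecke
    hcomap σ hσ
  haveI : Finite (M n) := hfinM n
  haveI : Finite ↥(h91_W (qM n) (r n)) := inferInstance
  obtain ⟨Yns, hnsP, hnsG, hnsR, hnew, X0, hX0, hX0I, hnotriv⟩ :=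
    hsplit n (lt_of_lt_of_le hk hkn) act hcomm hhecke
  rw [← hcomap] at hnsP hnew hX0I
  exact h48_ordcore_ker_split (h91_rW (qM n) (r n)) act hcomm a ha1 hamul t ht h2 _ hker ρbar
    htr hspan (P.inertiaSubgroupIn ℚ) σ0 hσ0 hr1 hr2 hrI p ⟨n, htors⟩ Yns hnsP hnsG hnsR hnew
    ⟨X0, hX0, hX0I, hnotriv⟩ σ hσ σ0 hσ0

end core

end Fermat.Agent.S33
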