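import Fermat.Agent.S33.h91_S33Top
import Fermat.Agent.S33.h48_OrdGeom

/-!
# S33, row TOP, final form (helper91)

`h91_S33_of_geom` : the frozen statement S33 from the per-level geometric statement
`h9_GeomStmt N p P σ0 n` on `J₀(N)[p ^ n]` alone
(`h91_S33_of_geom_trans` with the transport `h48_split_of_geom` of helper48).
-/

set_option autoImplicit false

open ModularCurve

namespace Fermat.Agent.S33

open Fermat.Agent.GAL

local notation "Qb" => AlgebraicClosure ℚ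
local notation "Γℚ" => (AlgebraicClosure ℚ ≃ₐ[ℚ] AlgebraicClosure ℚ)

variable {p : ℕ} {N : ℕ} [NeZero N] {S : Finset ℕ}
  {𝒪 : Type} [CommRing 𝒪] [IsDomain 𝒪] [IsDiscreteValuationRing 𝒪]
  [IsAdicComplete (IsLocalRing.maximalIdeal 𝒪) 𝒪]
  {θ : CuspForm.heckeAlgebra N 2 (↑S : Set ℕ) →+* IsLocalRing.ResidueField 𝒪}
  {T : Type} [CommRing T] [IsLocalRing T] [IsNoetherianRing T]
  [IsAdicComplete (IsLocalRing.maximalIdeal T) T] [Algebra 𝒪 T] [IsLocalHom (algebraMap 𝒪 T)]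
  [Module.Finite 𝒪 T] [Module.Free 𝒪 T]

/-- **S33 from the per-level geometric statement.** In a Hecke–Galois datum of level `N` with
`p` odd, `p ∥ N`, whose residual representation is ordinary at `p`: if for every place `P` over
`p`, every `σ0` in its inertia group acting on `μ_p` through an exponent `a ≢ 1 mod p`, and
every `n ≥ 1`, the geometric statement `h9_GeomStmt N p P σ0 n` holds on `J₀(N)[p ^ n]`, then
the representation is ordinary at `p`. -/
theorem h91_S33_of_geom [Finite (IsLocalRing.ResidueField 𝒪)] [CharZero 𝒪]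
    (hp : p.Prime) (hp2 : p ≠ 2) (hp𝒪 : (p : 𝒪) ∈ IsLocalRing.maximalIdeal 𝒪)
    (hN : p ∣ N ∧ ¬ p ^ 2 ∣ N)
    (hNS : ∀ q : ℕ, q.Prime → q ∣ N → q ∈ S)
    (H : CuspForm.HeckeGaloisRepDatum N (↑S : Set ℕ) 𝒪 θ T)
    (hres : (GaloisRepAdic.ofResidualGaloisRep H.ρ.residual).IsOrdinaryAt p)
    (hgeom : ∀ P : ValuationSubring Qb, P.LiesOverPrime p →
      ∀ σ0 ∈ P.inertiaSubgroupIn ℚ, ∀ a : ℕ, (∀ μ : Qb, μ ^ p = 1 → σ0 μ = μ ^ a) →
        ¬ (p : ℤ) ∣ (a : ℤ) - 1 → ∀ n : ℕ, 0 < n → h9_GeomStmt N p P σ0 n) :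
    H.ρ.IsOrdinaryAt p :=
  h91_S33_of_geom_trans hp hp2 hp𝒪 hN.1 hNS H hres
    (fun hNS' qM hlevel P σ0 n _ _ _ hg =>
      h48_split_of_geom hNS H (h65_iota N (↑S : Set ℕ) hNS') qM P σ0 n (hlevel n) hg)
    hgeom

end Fermat.Agent.S33
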