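/-
S33 / (N2) "N-min", TAIL of the top theorem (helper92).

Input  = the conclusions of the rows SHIFT (`s`), TAU (`s1 s2 β1 β2`), NODE' (`σ`, description of
         `red'(L'(n D0') ∩ O')`, COMMUTE), the node description and the strictness of the base
         lattice, and the inputs of ZAR' (`h53_zar_idem`) for the lattice `S.lat` of the cover.
Output = `False`.

Steps:
* `h92_sigma_const`  : the partner bijections `σ ν` are translations of the sheet labels by a
                       constant `κ` with `(c - 1) κ = β₂ - β₁`; hence `σ ν` does not depend on `ν`.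
* `h92_descr`        : hence `red'(L'(n D0') ∩ O') = {f | ∀ a, ((f a).1, (f (π a)).2) ∈ red(L(n D0) ∩ O)}`.
* `h92_strict_sheet` : strictness of the cover lattice from the strictness of the base, sheet by
                       sheet.
* `h92_nmin_tail`    : the indicator of one sheet pair is an idempotent `≠ 0, 1` satisfying the
                       hypotheses of ZAR'.
-/
import Mathlib
import Fermat.Agent.S33.h15_ASLat
import Fermat.Agent.S33.h53_ZarIdem
import Fermat.Agent.S34.h51_MidSF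

set_option autoImplicit false

noncomputable section

open AlgebraicCurve Module Polynomial

namespace Fermat.Agent.S33

open Fermat.Agent.S18 Fermat.Agent.S24 Fermat.Agent.S27 Fermat.Agent.S34

/-- **(a)** the affine algebra on the sheet labels: the partner bijections commute with the shift
and intertwine the two affine maps of the lift of the inertia element, whose multiplier is
`≠ 1`; hence they do not depend on the node. -/
theorem h92_sigma_const {k : Type*} [Field k] (p : ℕ) (hp : p.Prime) [CharP k p]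
    (r : Fin p → k) (hr : ∀ a : Fin p, r a = ((a : ℕ) : k))
    {Z : Type*} (σ : Z → Equiv.Perm (Fin p))
    (s : Fin p → Fin p) (hs : ∀ a, r (s a) = r a + 1)
    (hσs : ∀ ν a, σ ν (s a) = s (σ ν a))
    (c : ℕ) (hc : ¬ c ≡ 1 [MOD p])
    (s1 s2 : Fin p → Fin p) (β1 β2 : k)
    (h1 : ∀ a, (c : k) * r (s1 a) = r a + β1) (h2 : ∀ a, (c : k) * r (s2 a) = r a + β2)
    (hσt : ∀ ν a, σ ν (s1 a) = s2 (σ ν a)) :
    ∀ ν ν' a, σ ν a = σ ν' a := by
  have hrinj : Function.Injective r := by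
    intro a b hab
    rw [hr, hr] at hab
    have h := (CharP.natCast_eq_natCast k p).1 hab
    exact Fin.ext (Nat.ModEq.eq_of_lt_of_lt h a.2 b.2)
  let a0 : Fin p := ⟨0, hp.pos⟩
  have hr0 : r a0 = 0 := by
    rw [hr]
    simp [a0]
  have hiter : ∀ i : ℕ, r (s^[i] a0) = (i : k) := by
    intro i
    induction i with
    | zero => simpa using hr0
    | succ i ih =>
      rw [Function.iterate_succ_apply', hs, ih]
      push_cast
      rfl
  have hreach : ∀ a : Fin p, s^[(a : ℕ)] a0 = a := fun a => hrinj (by rw [hiter, hr])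
  have hκ : ∀ ν a, r (σ ν a) = r a + (r (σ ν a0) - r a0) := by
    intro ν a
    have hi : ∀ i : ℕ, r (σ ν (s^[i] a0)) - r (s^[i] a0) = r (σ ν a0) - r a0 := by
      intro i
      induction i with
      | zero => rfl
      | succ i ih =>
        rw [Function.iterate_succ_apply', hσs, hs, hs]
        linear_combination ih
    have := hi (a : ℕ)
    rw [hreach] at this
    linear_combination this
  have hc1 : ((c : k) - 1) ≠ 0 := by
    intro h
    apply hc
    have h' : ((c : ℕ) : k) = ((1 : ℕ) : k) := by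
      rw [Nat.cast_one]
      exact sub_eq_zero.1 h
    exact (CharP.natCast_eq_natCast k p).1 h'
  have hκeq : ∀ ν, ((c : k) - 1) * (r (σ ν a0) - r a0) = β2 - β1 := by
    intro ν
    have e1 := hκ ν (s1 a0)
    have e2 := h2 (σ ν a0)
    have e3 := h1 a0
    rw [hσt ν a0] at e1
    linear_combination e2 - e3 - (c : k) * e1
  intro ν ν' a
  apply hrinj
  rw [hκ ν a, hκ ν' a]
  have := mul_left_cancel₀ hc1 ((hκeq ν).trans (hκeq ν').symm)
  rw [this]

section Descr

variable {k Fb : Type*} [Field k] [Field Fb] [Algebra k Fb] {ι : Type*}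

/-- **(b)** with one partner bijection `π` for all nodes, the node description of the cover is
the node description of the base on every sheet pair `(a, π a)`. -/
theorem h92_descr (Qinf : Place k Fb) (Sg : Finset (Place k Fb)) (Φ : Place k Fb → Place k Fb)
    (n : ℕ) (B : Submodule k (Fb × Fb)) (B' : Submodule k (ι → Fb × Fb))
    (hbase : ∀ a : Fb × Fb, a ∈ B ↔
      (a ∈ h20_P Qinf n ∧ ∀ Q ∈ Sg, ∃ c : k, h39_Val (Φ Q) a.1 c ∧ h39_Val Q a.2 c))
    (σ : {Q // Q ∈ Sg} → Equiv.Perm ι) (π : Equiv.Perm ι) (hπ : ∀ ν, σ ν = π)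
    (hcov : ∀ f : ι → Fb × Fb, f ∈ B' ↔ (∀ a, f a ∈ h20_P Qinf n) ∧
      ∀ Q (hQ : Q ∈ Sg), ∀ a, ∃ c : k, h39_Val (Φ Q) (f a).1 c ∧
        h39_Val Q (f (σ ⟨Q, hQ⟩ a)).2 c) :
    ∀ f : ι → Fb × Fb, f ∈ B' ↔ ∀ a, ((f a).1, (f (π a)).2) ∈ B := by
  intro f
  rw [hcov]
  constructor
  · rintro ⟨hP, hN⟩ a
    rw [hbase]
    refine ⟨h20_mem_P.2 ⟨(h20_mem_P.1 (hP a)).1, (h20_mem_P.1 (hP (π a))).2⟩, fun Q hQ => ?_⟩
    have := hN Q hQ a
    rw [hπ] at this
    exact this
  · intro h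
    refine ⟨fun a => ?_, fun Q hQ a => ?_⟩
    · have ha := ((hbase _).1 (h a)).1
      have hb := ((hbase _).1 (h (π.symm a))).1
      rw [h20_mem_P] at ha hb ⊢
      simp only [Equiv.apply_symm_apply] at hb
      exact ⟨ha.1, hb.2⟩
    · rw [hπ]
      exact ((hbase _).1 (h a)).2 Q hQ

/-- **(c)** strictness passes from the base to the cover, sheet pair by sheet pair. -/
theorem h92_strict_sheet {R₁ R₂ : Type*} [CommRing R₁] [CommRing R₂] [Algebra k R₁]
    [Algebra k R₂] (U V : Submodule k (R₁ × R₂)) (U' V' : Submodule k (ι → R₁ × R₂))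
    (π : Equiv.Perm ι)
    (hU : ∀ f : ι → R₁ × R₂, f ∈ U' ↔ ∀ a, ((f a).1, (f (π a)).2) ∈ U)
    (hV : ∀ f : ι → R₁ × R₂, f ∈ V' ↔ ∀ a, ((f a).1, (f (π a)).2) ∈ V)
    (xb : R₁ × R₂) (hstr : ∀ a ∈ V, ∃ b ∈ U, ∃ c ∈ U, a = b + xb * c) :
    ∀ f ∈ V', ∃ b ∈ U', ∃ c ∈ U', f = b + (fun _ => xb) * c := by
  intro f hf
  have h := (hV f).1 hf
  choose b hb c hc hbc using fun a => hstr _ (h a)
  refine ⟨fun a => ((b a).1, (b (π.symm a)).2), (hU _).2 fun a => ?_,
    fun a => ((c a).1, (c (π.symm a)).2), (hU _).2 fun a => ?_, ?_⟩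
  · simp only [Equiv.symm_apply_apply]
    exact hb a
  · simp only [Equiv.symm_apply_apply]
    exact hc a
  · funext a
    have e1 := hbc a
    have e2 := hbc (π.symm a)
    simp only [Equiv.apply_symm_apply] at e2
    apply Prod.ext
    · have := congrArg Prod.fst e1
      simpa using this
    · have := congrArg Prod.snd e2
      simpa using this

end Descr

variable {K F k Fb : Type*} [Field K] [Field F] [Algebra K F] [Field k] [Field Fb] [Algebra k Fb]
variable {F' : Type*} [Field F'] [Algebra F F'] [Algebra K F'] [IsScalarTower K F F']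

/-- **TAIL of the top theorem of (N2) "N-min".**  From the conclusions of the rows SHIFT, TAU,
NODE' (with COMMUTE), the node description and the strictness of the base, and the ZAR' inputs
for the lattice `S.lat` of the cover: a contradiction. -/
theorem h92_nmin_tail {p : ℕ} {D : h22_Lat K F k (Fb × Fb)} (S : h15_ASData D F' p)
    (hp : p.Prime) [CharP k p] (hSr : ∀ a : Fin p, S.r a = ((a : ℕ) : k))
    -- ZAR' inputs for the cover
    (hON' : h22_ON S.lat) (hfinL' : ∀ B : Divisor K F', Module.Finite K (riemannRochSpace B))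
    (hR1 : h39_RankOne D.A) (q : K) (hq : q ∈ D.A.nonunits) (hq0 : q ≠ 0)
    (hconst' : ∀ f ∈ riemannRochSpace (0 : Divisor K F'), ∃ c : K, f = algebraMap K F' c)
    -- the balanced chart of the base and of the cover
    (D0 D2 : Divisor K F) (hD0 : ∀ v, 0 ≤ D0 v) (N : ℕ) (hN : 1 ≤ N) (x : F)
    (C : h53_Chart D x (N • D0) D2)
    (D0' D2' : Divisor K F') (C' : h53_Chart S.lat (algebraMap F F' x) (N • D0') D2')
    -- base: node description and strictness
    (Qinf : Place k Fb) (Sg : Finset (Place k Fb)) (Φ : Place k Fb → Place k Fb) (n0 : ℕ)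
    (hnode : ∀ n, n0 ≤ n → ∀ a : Fb × Fb, a ∈ h51_Rd D (n • D0) ↔
      (a ∈ h20_P Qinf n ∧ ∀ Q ∈ Sg, ∃ c : k, h39_Val (Φ Q) a.1 c ∧ h39_Val Q a.2 c))
    (n₁ : ℕ) (hstr : ∀ n, n₁ ≤ n → ∀ a ∈ h51_Rd D ((n + 1) • (N • D0)),
      ∃ b ∈ h51_Rd D (n • (N • D0)), ∃ c ∈ h51_Rd D (n • (N • D0)), a = b + D.redF x * c)
    -- NODE' (description + COMMUTE)
    (σ : {Q // Q ∈ Sg} → Equiv.Perm (Fin p)) (N1 : ℕ)
    (hσ : ∀ n, N1 ≤ n → ∀ f : Fin p → Fb × Fb,
      f ∈ h51_Rd S.lat (n • D0') ↔ (∀ a, f a ∈ h20_P Qinf n) ∧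
        ∀ Q (hQ : Q ∈ Sg), ∀ a, ∃ c : k, h39_Val (Φ Q) (f a).1 c ∧
          h39_Val Q (f (σ ⟨Q, hQ⟩ a)).2 c)
    (hcomm : ∀ s1 s2 : Fin p → Fin p,
      (∀ n : ℕ, ∀ f ∈ h51_Rd S.lat (n • D0'),
        (fun a => ((f (s1 a)).1, (f (s2 a)).2)) ∈ h51_Rd S.lat (n • D0')) →
      ∀ ν a, σ ν (s1 a) = s2 (σ ν a))
    -- SHIFT
    (s : Fin p → Fin p) (hs : ∀ a, S.r (s a) = S.r a + 1)
    (hsR : ∀ n : ℕ, ∀ f ∈ h51_Rd S.lat (n • D0'), (fun a => f (s a)) ∈ h51_Rd S.lat (n • D0'))
    -- TAU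
    (c : ℕ) (hc : ¬ c ≡ 1 [MOD p]) (s1 s2 : Fin p → Fin p) (β1 β2 : k)
    (h1 : ∀ a, (c : k) * S.r (s1 a) = S.r a + β1) (h2 : ∀ a, (c : k) * S.r (s2 a) = S.r a + β2)
    (hτR : ∀ n : ℕ, ∀ f ∈ h51_Rd S.lat (n • D0'),
      (fun a => ((f (s1 a)).1, (f (s2 a)).2)) ∈ h51_Rd S.lat (n • D0')) :
    False := by
  classical
  -- (a) one partner bijection
  have hσs : ∀ ν a, σ ν (s a) = s (σ ν a) := hcomm s s (fun n f hf => hsR n f hf)
  have hσt : ∀ ν a, σ ν (s1 a) = s2 (σ ν a) := hcomm s1 s2 hτR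
  have hconst := h92_sigma_const p hp S.r hSr σ s hs hσs c hc s1 s2 β1 β2 h1 h2 hσt
  obtain ⟨π, hπ⟩ : ∃ π : Equiv.Perm (Fin p), ∀ ν, σ ν = π := by
    by_cases hne : Nonempty {Q // Q ∈ Sg}
    · obtain ⟨ν0⟩ := hne
      exact ⟨σ ν0, fun ν => Equiv.ext fun a => hconst ν ν0 a⟩
    · exact ⟨1, fun ν => absurd ⟨ν⟩ hne⟩
  -- (b) description of the cover
  set M : ℕ := max N1 n0 with hM
  have hdescr : ∀ m, M ≤ m → ∀ f : Fin p → Fb × Fb,
      f ∈ h51_Rd S.lat (m • D0') ↔ ∀ a, ((f a).1, (f (π a)).2) ∈ h51_Rd D (m • D0) := by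
    intro m hm
    exact h92_descr Qinf Sg Φ m _ _ (hnode m (le_trans (le_max_right _ _) hm)) σ π hπ
      (hσ m (le_trans (le_max_left _ _) hm))
  -- the chart function on the cover
  have hx'O : algebraMap F F' x ∈ S.lat.O := (S.algebraMap_mem_O'_iff x).2 C.mem
  have hredx : S.lat.redF (algebraMap F F' x) = fun _ => D.redF x := by
    rw [S.lat.redF_of_mem hx'O, D.redF_of_mem C.mem]
    funext a
    exact S.lat_red_algebraMap x C.mem hx'O a
  -- (c) strictness of the cover
  have hgen' : ∀ n, max n₁ M ≤ n → ∀ a ∈ h51_Rd S.lat ((n + 1) • (N • D0')),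
      ∃ b ∈ h51_Rd S.lat (n • (N • D0')), ∃ c ∈ h51_Rd S.lat (n • (N • D0')),
        a = b + S.lat.redF (algebraMap F F' x) * c := by
    intro n hn
    have hn1 : n₁ ≤ n := le_trans (le_max_left _ _) hn
    have hnM : M ≤ n * N := le_trans (le_trans (le_max_right _ _) hn) (Nat.le_mul_of_pos_right n hN)
    have hnM1 : M ≤ (n + 1) * N := le_trans hnM (Nat.mul_le_mul_right N (Nat.le_succ n))
    rw [hredx, ← mul_nsmul' D0' (n + 1) N, ← mul_nsmul' D0' n N]
    refine h92_strict_sheet (h51_Rd D ((n * N) • D0)) (h51_Rd D (((n + 1) * N) • D0)) _ _ π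
      (hdescr _ hnM) (hdescr _ hnM1) (D.redF x) ?_
    rw [mul_nsmul' D0 (n + 1) N, mul_nsmul' D0 n N]
    exact hstr n hn1
  -- constants and powers of the chart function on the base
  have hone : ∀ m : ℕ, (1 : Fb × Fb) ∈ h51_Rd D (m • D0) := by
    intro m
    refine ⟨1, mem_riemannRochSpace_iff.2 fun v => Or.inr ?_, D.O.one_mem, h51_redF_one D⟩
    rw [v.ord_one, Finsupp.smul_apply, nsmul_eq_mul]
    have := mul_nonneg (Nat.cast_nonneg (α := ℤ) m) (hD0 v)
    linarith
  have hxL : x ∈ riemannRochSpace (N • D0) := by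
    rw [mem_riemannRochSpace_iff]
    intro v
    right
    rw [C.ord_eq v]
    have := C.nonneg₂ v
    linarith
  have hxRd : D.redF x ∈ h51_Rd D (N • D0) := ⟨x, hxL, C.mem, rfl⟩
  have hxpow : ∀ m : ℕ, D.redF x ^ m ∈ h51_Rd D (m • (N • D0)) := by
    intro m
    induction m with
    | zero =>
      rw [pow_zero, zero_nsmul]
      have := hone 0
      rwa [zero_nsmul] at this
    | succ m ih =>
      rw [pow_succ, succ_nsmul]
      exact h51_Rd_mul D ih hxRd
  -- the indicator of one sheet pair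
  let a0 : Fin p := ⟨0, hp.pos⟩
  let a1 : Fin p := ⟨1, hp.one_lt⟩
  have ha01 : a1 ≠ a0 := by
    intro h
    have := congrArg Fin.val h
    simp [a0, a1] at this
  let φ : Fin p → Fb × Fb := fun a => (if a = a0 then 1 else 0, if a = π a0 then 1 else 0)
  have hφ : φ * φ = φ := by
    funext a
    apply Prod.ext <;> simp [φ]
  set n : ℕ := max n₁ M with hn
  have hnM : M ≤ n * N := le_trans (le_max_right _ _) (Nat.le_mul_of_pos_right n hN)
  have hpair : ∀ a, ((φ a).1, (φ (π a)).2) = if a = a0 then (1 : Fb × Fb) else 0 := by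
    intro a
    by_cases ha : a = a0
    · simp [φ, ha]
    · simp [φ, ha]
  have hφ1 : φ ∈ h51_Rd S.lat (n • (N • D0')) := by
    rw [← mul_nsmul' D0' n N, hdescr _ hnM]
    intro a
    rw [hpair a]
    split_ifs
    · exact hone _
    · exact Submodule.zero_mem _
  have hφ2 : S.lat.redF (algebraMap F F' x) ^ n * φ ∈ h51_Rd S.lat (n • (N • D0')) := by
    rw [hredx, ← mul_nsmul' D0' n N, hdescr _ hnM]
    intro a
    have he : ((((fun _ => D.redF x) ^ n * φ : Fin p → Fb × Fb) a).1,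
        (((fun _ => D.redF x) ^ n * φ : Fin p → Fb × Fb) (π a)).2) =
        D.redF x ^ n * ((φ a).1, (φ (π a)).2) := by
      apply Prod.ext <;> simp
    rw [he, hpair a]
    split_ifs
    · rw [mul_one, mul_nsmul' D0 n N]
      exact hxpow n
    · rw [mul_zero]
      exact Submodule.zero_mem _
  rcases h53_zar_idem S.lat hON' hfinL' hR1 q hq hq0 C' hconst' (max n₁ M) hgen' φ hφ n hφ1 hφ2
    with h | h
  · have := congrArg Prod.fst (congrFun h a0)
    simp [φ] at this
  · have := congrArg Prod.fst (congrFun h a1)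
    simp [φ, ha01] at this

end Fermat.Agent.S33
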