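/-
S33 / (N2) NODE' core (helper92).  Mathlib + the pairing lemma `h98_pairing_*` of S34.

Linear-algebra core of "the node bijections of the cover come out of the count".
Setting: chart data `(Bs, P, e1, e2)` of a lattice datum on `Rb` (pole-order spaces `P n`, node
values `e1 ν`, `e2 ν` on the two branches, independence `hind`), a finite set `Ω` of sheets and
spaces `B n ⊆ (Ω → P n)` ("reductions of integral functions of the cover with poles `≤ n`"),
multiplicative and increasing, such that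

* `hpoly` : for `a ∈ B n` and every node `ν` the two value polynomials
  `∏_w (X - e1 ν (a w))` and `∏_w (X - e2 ν (a w))` coincide (reduced characteristic polynomial
  over the base + the node conditions of the base);
* `hcount` : `#Ω * dim P n ≤ dim B n + #Ω * #Z` (Riemann's inequality on the base).

Then there are permutations `σ ν` of the sheets with
`B n = {a ∈ (Ω → P n) | e1 ν (a w) = e2 ν (a (σ ν w))}` for all `n ≥ n0`.
No hypothesis on the characteristic: "totally ramified nodes" are excluded by the count.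
-/
import Mathlib
import Fermat.Agent.S34.h98_Pairing

set_option autoImplicit false

open Polynomial

namespace Fermat.Agent.S33

open Fermat.Agent.S34

section NodeCore

variable {k : Type*} [Field k] {Rb : Type*} [CommRing Rb] [Algebra k Rb]

/-- evaluation of a sheet-tuple at a node: the values on the first branch (`Sum.inl w`) and on
the second branch (`Sum.inr w`). -/
noncomputable def h92_evNode (Bs : Subalgebra k Rb) (Ω : Type*) (e1 e2 : Bs →ₐ[k] k) :
    (Ω → Bs) →ₐ[k] (Ω ⊕ Ω → k) :=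
  AlgHom.pi (fun x : Ω ⊕ Ω =>
    Sum.elim (fun w => e1.comp (Pi.evalAlgHom k (fun _ : Ω => Bs) w))
      (fun w => e2.comp (Pi.evalAlgHom k (fun _ : Ω => Bs) w)) x)

theorem h92_evNode_inl (Bs : Subalgebra k Rb) (Ω : Type*) (e1 e2 : Bs →ₐ[k] k) (a : Ω → Bs)
    (w : Ω) : h92_evNode Bs Ω e1 e2 a (Sum.inl w) = e1 (a w) := rfl

theorem h92_evNode_inr (Bs : Subalgebra k Rb) (Ω : Type*) (e1 e2 : Bs →ₐ[k] k) (a : Ω → Bs)
    (w : Ω) : h92_evNode Bs Ω e1 e2 a (Sum.inr w) = e2 (a w) := rfl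

/-- **NODE' core.** -/
theorem h92_node_core (Bs : Subalgebra k Rb) (P : ℕ → Submodule k Rb)
    [∀ n, FiniteDimensional k (P n)] (hPB : ∀ n, ∀ a ∈ P n, a ∈ Bs)
    {Z : Type*} [Fintype Z] (e1 e2 : Z → (Bs →ₐ[k] k)) (n0 : ℕ)
    (hind : ∀ n, n0 ≤ n → ∀ s t : Z → k, ∃ a, ∃ h : a ∈ P n,
        (∀ ν, e1 ν ⟨a, hPB n a h⟩ = s ν) ∧ (∀ ν, e2 ν ⟨a, hPB n a h⟩ = t ν))
    {Ω : Type*} [Fintype Ω]
    (B : ℕ → Submodule k (Ω → Rb))
    (hBP : ∀ n, ∀ a ∈ B n, ∀ w, a w ∈ P n)
    (hB1 : (1 : Ω → Rb) ∈ B 0)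
    (hBmono : ∀ n m, n ≤ m → B n ≤ B m)
    (hBmul : ∀ n m, ∀ a ∈ B n, ∀ b ∈ B m, a * b ∈ B (n + m))
    (hpoly : ∀ n, ∀ a, ∀ ha : a ∈ B n, ∀ ν,
        ∏ w : Ω, (X - C (e1 ν ⟨a w, hPB n _ (hBP n a ha w)⟩)) =
        ∏ w : Ω, (X - C (e2 ν ⟨a w, hPB n _ (hBP n a ha w)⟩)))
    (hcount : ∀ n, n0 ≤ n → Fintype.card Ω * Module.finrank k (P n) ≤
        Module.finrank k (B n) + Fintype.card Ω * Fintype.card Z) :
    ∃ σ : Z → Equiv.Perm Ω, ∀ n, n0 ≤ n → ∀ a : Ω → Rb,
      a ∈ B n ↔ ∃ h : ∀ w, a w ∈ P n,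
        ∀ ν w, e1 ν ⟨a w, hPB n _ (h w)⟩ = e2 ν ⟨a (σ ν w), hPB n _ (h (σ ν w))⟩ := by
  classical
  -- the algebra of all reductions, inside `Ω → Bs`
  let U : Subalgebra k (Ω → Bs) :=
    { carrier := {a | ∃ n, (fun w => (a w : Rb)) ∈ B n}
      mul_mem' := by
        rintro a b ⟨n, ha⟩ ⟨m, hb⟩
        exact ⟨n + m, hBmul n m _ ha _ hb⟩
      add_mem' := by
        rintro a b ⟨n, ha⟩ ⟨m, hb⟩
        exact ⟨max n m, (B (max n m)).add_mem (hBmono n _ (le_max_left n m) ha)
          (hBmono m _ (le_max_right n m) hb)⟩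
      algebraMap_mem' := by
        intro c
        refine ⟨0, ?_⟩
        have h := (B 0).smul_mem c hB1
        have e : (fun w : Ω => ((algebraMap k (Ω → Bs) c w : Bs) : Rb)) = c • (1 : Ω → Rb) := by
          funext w
          simp [Algebra.smul_def]
        rw [e]
        exact h }
  have hU : ∀ a : Ω → Bs, a ∈ U ↔ ∃ n, (fun w => (a w : Rb)) ∈ B n := fun a => Iff.rfl
  let ev : Z → ((Ω → Bs) →ₐ[k] (Ω ⊕ Ω → k)) := fun ν => h92_evNode Bs Ω (e1 ν) (e2 ν)
  let V : Z → Subalgebra k (Ω ⊕ Ω → k) := fun ν => U.map (ev ν)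
  have hV : ∀ ν, ∀ g ∈ V ν, ∏ w : Ω, (X - C (g (Sum.inl w))) =
      ∏ w : Ω, (X - C (g (Sum.inr w))) := by
    rintro ν g ⟨a, ⟨n, ha⟩, rfl⟩
    exact hpoly n _ ha ν
  have hle : ∀ ν, Module.finrank k (V ν) ≤ Fintype.card Ω :=
    fun ν => h98_pairing_finrank_le (V ν) (hV ν)
  -- the lift of a tuple with values in `P n` to `Ω → Bs`
  let inc : ∀ n, (Ω → P n) →ₗ[k] (Ω → Bs) := fun n =>
    { toFun := fun a w => ⟨(a w : Rb), hPB n _ (a w).2⟩
      map_add' := fun _ _ => rfl
      map_smul' := fun _ _ => rfl }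
  have hinc : ∀ n (a : Ω → P n) (w : Ω), ((inc n a w : Bs) : Rb) = (a w : Rb) := fun n a w => rfl
  let Ψ : ∀ n, (Ω → P n) →ₗ[k] (∀ ν : Z, (Ω ⊕ Ω → k) ⧸ Subalgebra.toSubmodule (V ν)) := fun n =>
    LinearMap.pi (fun ν => (Subalgebra.toSubmodule (V ν)).mkQ ∘ₗ (ev ν).toLinearMap ∘ₗ inc n)
  have hΨ : ∀ n a ν, Ψ n a ν = Submodule.Quotient.mk (ev ν (inc n a)) := fun n a ν => rfl
  have hΨ0 : ∀ n a, Ψ n a = 0 ↔ ∀ ν, ev ν (inc n a) ∈ V ν := by
    intro n a
    constructor
    · intro h ν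
      have := congrFun h ν
      rw [hΨ, Pi.zero_apply, Submodule.Quotient.mk_eq_zero] at this
      exact this
    · intro h
      funext ν
      rw [hΨ, Pi.zero_apply, Submodule.Quotient.mk_eq_zero]
      exact h ν
  have hΨsurj : ∀ n, n0 ≤ n → Function.Surjective (Ψ n) := by
    intro n hn t
    choose g hg using fun ν => Submodule.mkQ_surjective (Subalgebra.toSubmodule (V ν)) (t ν)
    choose a ha ha1 ha2 using fun w : Ω =>
      hind n hn (fun ν => g ν (Sum.inl w)) (fun ν => g ν (Sum.inr w))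
    refine ⟨fun w => ⟨a w, ha w⟩, ?_⟩
    funext ν
    rw [hΨ, ← hg ν]
    have e : ev ν (inc n fun w => ⟨a w, ha w⟩) = g ν := by
      funext x
      rcases x with w | w
      · exact ha1 w ν
      · exact ha2 w ν
    rw [e]
    rfl
  -- `B n` inside `Ω → P n`
  let j : ∀ n, B n →ₗ[k] (Ω → P n) := fun n =>
    { toFun := fun a w => ⟨(a : Ω → Rb) w, hBP n _ a.2 w⟩
      map_add' := fun _ _ => rfl
      map_smul' := fun _ _ => rfl }
  have hj : ∀ n, Function.Injective (j n) := by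
    intro n a b hab
    apply Subtype.ext
    funext w
    exact congrArg Subtype.val (congrFun hab w)
  have hjker : ∀ n (a : B n), Ψ n (j n a) = 0 := by
    intro n a
    rw [hΨ0]
    intro ν
    exact ⟨inc n (j n a), ⟨n, a.2⟩, rfl⟩
  have hq : ∀ ν, Module.finrank k ((Ω ⊕ Ω → k) ⧸ Subalgebra.toSubmodule (V ν)) +
      Module.finrank k (V ν) = Fintype.card Ω + Fintype.card Ω := by
    intro ν
    have h1 := Submodule.finrank_quotient_add_finrank (Subalgebra.toSubmodule (V ν))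
    rw [Module.finrank_fintype_fun_eq_card, Fintype.card_sum] at h1
    exact h1
  have hge : ∀ ν, Fintype.card Ω ≤
      Module.finrank k ((Ω ⊕ Ω → k) ⧸ Subalgebra.toSubmodule (V ν)) := by
    intro ν
    have h1 := hq ν
    have h2 := hle ν
    omega
  have hT : Module.finrank k (∀ ν : Z, (Ω ⊕ Ω → k) ⧸ Subalgebra.toSubmodule (V ν)) =
      ∑ ν : Z, Module.finrank k ((Ω ⊕ Ω → k) ⧸ Subalgebra.toSubmodule (V ν)) :=
    Module.finrank_pi_fintype k
  have hW : ∀ n, Module.finrank k (Ω → P n) = Fintype.card Ω * Module.finrank k (P n) := by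
    intro n
    rw [Module.finrank_pi_fintype k, Finset.sum_const, Finset.card_univ, smul_eq_mul]
  -- rank-nullity for `Ψ n`
  have hrn : ∀ n, n0 ≤ n → Module.finrank k (LinearMap.ker (Ψ n)) +
      Module.finrank k (∀ ν : Z, (Ω ⊕ Ω → k) ⧸ Subalgebra.toSubmodule (V ν)) =
      Fintype.card Ω * Module.finrank k (P n) := by
    intro n hn
    have h1 := LinearMap.finrank_range_add_finrank_ker (Ψ n)
    rw [LinearMap.range_eq_top.2 (hΨsurj n hn), finrank_top, hW n] at h1
    omega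
  have hBker : ∀ n, Module.finrank k (B n) ≤ Module.finrank k (LinearMap.ker (Ψ n)) := by
    intro n
    let j' : B n →ₗ[k] LinearMap.ker (Ψ n) :=
      LinearMap.codRestrict _ (j n) (fun a => LinearMap.mem_ker.mpr (hjker n a))
    have hj' : Function.Injective j' := by
      intro a b hab
      apply hj n
      exact congrArg Subtype.val hab
    exact LinearMap.finrank_le_finrank_of_injective hj'
  have hsumd : ∑ _ν : Z, Fintype.card Ω = Fintype.card Ω * Fintype.card Z := by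
    rw [Finset.sum_const, Finset.card_univ, smul_eq_mul, mul_comm]
  have hTle : Module.finrank k (∀ ν : Z, (Ω ⊕ Ω → k) ⧸ Subalgebra.toSubmodule (V ν)) ≤
      Fintype.card Ω * Fintype.card Z := by
    have h1 := hrn n0 le_rfl
    have h2 := hBker n0
    have h3 := hcount n0 le_rfl
    omega
  have heach : ∀ ν, Module.finrank k ((Ω ⊕ Ω → k) ⧸ Subalgebra.toSubmodule (V ν)) =
      Fintype.card Ω := by
    intro ν
    by_contra hne
    have hlt : Fintype.card Ω <
        Module.finrank k ((Ω ⊕ Ω → k) ⧸ Subalgebra.toSubmodule (V ν)) :=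
      lt_of_le_of_ne (hge ν) (Ne.symm hne)
    have := Finset.sum_lt_sum (fun Q _ => hge Q) ⟨ν, Finset.mem_univ _, hlt⟩
    rw [hsumd, ← hT] at this
    exact absurd hTle (not_le.mpr this)
  have hfinV : ∀ ν, Fintype.card Ω ≤ Module.finrank k (V ν) := by
    intro ν
    have h1 := hq ν
    have h2 := heach ν
    omega
  choose σ hσ using fun ν => h98_pairing_eq (V ν) (hV ν) (hfinV ν)
  have hTeq : Module.finrank k (∀ ν : Z, (Ω ⊕ Ω → k) ⧸ Subalgebra.toSubmodule (V ν)) =
      Fintype.card Ω * Fintype.card Z := by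
    rw [hT, Finset.sum_congr rfl (fun ν _ => heach ν), hsumd]
  refine ⟨σ, fun n hn a => ⟨fun ha => ?_, ?_⟩⟩
  · refine ⟨hBP n a ha, fun ν w => ?_⟩
    have hmem : ev ν (inc n (j n ⟨a, ha⟩)) ∈ V ν := ⟨inc n (j n ⟨a, ha⟩), ⟨n, ha⟩, rfl⟩
    exact (hσ ν _).mp hmem w
  · rintro ⟨h, hh⟩
    -- the tuple lies in the kernel of `Ψ n`, which is the image of `B n`
    let a' : Ω → P n := fun w => ⟨a w, h w⟩
    have hker : a' ∈ LinearMap.ker (Ψ n) := by
      rw [LinearMap.mem_ker, hΨ0]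
      intro ν
      exact (hσ ν _).mpr (fun w => hh ν w)
    let j' : B n →ₗ[k] LinearMap.ker (Ψ n) :=
      LinearMap.codRestrict _ (j n) (fun a => LinearMap.mem_ker.mpr (hjker n a))
    have hj' : Function.Injective j' := by
      intro a b hab
      apply hj n
      exact congrArg Subtype.val hab
    have : FiniteDimensional k ↥(B n) := FiniteDimensional.of_injective (j n) (hj n)
    have hdim : Module.finrank k (B n) = Module.finrank k (LinearMap.ker (Ψ n)) := by
      have h1 := hrn n hn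
      have h2 := hBker n
      have h3 := hcount n hn
      rw [hTeq] at h1
      omega
    have hiff := LinearMap.injective_iff_surjective_of_finrank_eq_finrank (K := k)
      (V := ↥(B n)) (V₂ := ↥(LinearMap.ker (Ψ n))) hdim (f := j')
    have hsurj' : Function.Surjective j' := hiff.mp hj'
    obtain ⟨b, hb⟩ := hsurj' ⟨a', hker⟩
    have hba : (b : Ω → Rb) = a := by
      funext w
      have := congrArg (fun x : LinearMap.ker (Ψ n) => ((x : Ω → P n) w : Rb)) hb
      exact this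
    rw [← hba]
    exact b.2

end NodeCore

end Fermat.Agent.S33
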