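/-
S33 / (N2) TOR core (helper92).  Mathlib + `h98_torsor_fix` (S34) only.

End of the N-min argument: the special fibre of the degree-`p` cover is a `ℤ/p`-torsor over the
two components glued along the node bijections `σ ν`; the sheet graph is connected (ZAR'); a lift
`τ~` of an inertia element `σ0` with `χ(σ0) ≠ 1 mod p` normalises the covering group with
multiplier `≠ 1`, hence has a fixed sheet; commuting with the gluing it fixes every sheet, which
forces the multiplier to be `1`.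

* `h92_node_equiv`       : (EQUIV) a symmetry of the glued space `B` acting on the node values
                           through sheet maps `s1`, `s2` commutes with the gluing:
                           `σ ν (s1 w) = s2 (σ ν w)`.
* `h92_fix_perm`         : (FIX, group form) `t γ = γ^c t`, `γ` transitive of order `p`,
                           `c ≠ 1 mod p` ⟹ `t` has a fixed point.
* `h92_fix_label`        : (FIX, label form) sheets labelled by the prime field, `t` affine in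
                           the label with multiplier `c ≠ 1` ⟹ `t` has a fixed point.
* `h92_tor_contra_perm`, `h92_tor_contra_label` : (CONTRA) the contradiction.
-/
import Mathlib
import Fermat.Agent.S34.h98_TorsorCore

set_option autoImplicit false

namespace Fermat.Agent.S33

open Fermat.Agent.S34

/-! ### (EQUIV) -/

section Equiv

variable {k : Type*} [Field k] {Rb : Type*} [CommRing Rb] [Algebra k Rb]

/-- **(EQUIV).**  `B` is the glued space `{a : Ω → P | e1 ν (a w) = e2 ν (a (σ ν w))}`; a map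
`T` preserving `B` which acts on the node values through sheet maps `s1` (first branch) and
`s2` (second branch) satisfies `σ ν ∘ s1 = s2 ∘ σ ν`. -/
theorem h92_node_equiv (Bs : Subalgebra k Rb) (P : Submodule k Rb) (hPB : ∀ a ∈ P, a ∈ Bs)
    {Z : Type*} (e1 e2 : Z → (Bs →ₐ[k] k))
    (hind : ∀ s t : Z → k, ∃ a, ∃ h : a ∈ P,
        (∀ ν, e1 ν ⟨a, hPB a h⟩ = s ν) ∧ (∀ ν, e2 ν ⟨a, hPB a h⟩ = t ν))
    {Ω : Type*} (B : Set (Ω → Rb)) (σ : Z → Equiv.Perm Ω)
    (hB : ∀ a : Ω → Rb, a ∈ B ↔ ∃ h : ∀ w, a w ∈ P,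
        ∀ ν w, e1 ν ⟨a w, hPB _ (h w)⟩ = e2 ν ⟨a (σ ν w), hPB _ (h (σ ν w))⟩)
    (T : (Ω → Rb) → (Ω → Rb)) (hT : ∀ a ∈ B, T a ∈ B) (s1 s2 : Ω → Ω)
    (hT1 : ∀ a (h : ∀ w, a w ∈ P) (h' : ∀ w, T a w ∈ P) ν w,
        e1 ν ⟨T a w, hPB _ (h' w)⟩ = e1 ν ⟨a (s1 w), hPB _ (h (s1 w))⟩)
    (hT2 : ∀ a (h : ∀ w, a w ∈ P) (h' : ∀ w, T a w ∈ P) ν w,
        e2 ν ⟨T a w, hPB _ (h' w)⟩ = e2 ν ⟨a (s2 w), hPB _ (h (s2 w))⟩) :
    ∀ ν w, σ ν (s1 w) = s2 (σ ν w) := by
  classical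
  intro ν w
  by_contra hne
  set b0 : Ω := σ ν (s1 w) with hb0
  -- a test element: on the second branch the indicator of the sheet `b0`
  have hex : ∀ b : Ω, ∃ a, ∃ h : a ∈ P,
      (∀ ν', e1 ν' ⟨a, hPB a h⟩ = if σ ν' b = b0 then 1 else 0) ∧
      (∀ ν', e2 ν' ⟨a, hPB a h⟩ = if b = b0 then 1 else 0) :=
    fun b => hind (fun ν' => if σ ν' b = b0 then 1 else 0) (fun _ => if b = b0 then 1 else 0)
  choose f hfP hf1 hf2 using hex
  have hfB : f ∈ B := by
    rw [hB]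
    refine ⟨hfP, fun ν' w' => ?_⟩
    rw [hf1 w' ν', hf2 (σ ν' w') ν']
  obtain ⟨hTP, hTn⟩ := (hB (T f)).1 (hT f hfB)
  have h := hTn ν w
  rw [hT1 f hfP hTP ν w, hT2 f hfP hTP ν (σ ν w), hf1 (s1 w) ν, hf2 (s2 (σ ν w)) ν] at h
  rw [if_pos hb0.symm, if_neg (fun h' => hne h'.symm)] at h
  exact one_ne_zero h

end Equiv

/-! ### (FIX) -/

/-- **(FIX), group form.**  `γ` a transitive permutation with `γ ^ p = 1`, `t` a self-map with
`t ∘ γ = γ ^ c ∘ t` and `c ≠ 1` modulo `p`: then `t` has a fixed point. -/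
theorem h92_fix_perm {Ω : Type*} [Nonempty Ω] (p : ℕ) [Fact p.Prime] (γ : Equiv.Perm Ω)
    (hγp : γ ^ p = 1) (htrans : ∀ w w' : Ω, ∃ i : ℕ, (γ ^ i) w = w')
    (t : Ω → Ω) (c : ℕ) (hc : (c : ZMod p) ≠ 1) (hconj : ∀ w, t (γ w) = (γ ^ c) (t w)) :
    ∃ w, t w = w := by
  obtain ⟨w0⟩ := ‹Nonempty Ω›
  obtain ⟨b, hb⟩ := htrans w0 (t w0)
  have key : ∀ a : ℕ, t ((γ ^ a) w0) = (γ ^ (c * a + b)) w0 := by
    intro a
    induction a with
    | zero => simp [hb]
    | succ a ih =>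
      rw [pow_succ', Equiv.Perm.mul_apply, hconj, ih, ← Equiv.Perm.mul_apply, ← pow_add]
      congr 2
      ring
  have hc1 : ((c : ZMod p) - 1) ≠ 0 := sub_ne_zero.2 hc
  let a : ZMod p := -(b : ZMod p) / ((c : ZMod p) - 1)
  have ha : (c : ZMod p) * a + b = a := by
    have h1 : a * ((c : ZMod p) - 1) = -(b : ZMod p) := div_mul_cancel₀ _ hc1
    linear_combination h1
  refine ⟨(γ ^ a.val) w0, ?_⟩
  rw [key]
  have hmod : c * a.val + b ≡ a.val [MOD p] := by
    rw [← ZMod.natCast_eq_natCast_iff]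
    push_cast
    rw [ZMod.natCast_zmod_val]
    exact ha
  have hpow : γ ^ (c * a.val + b) = γ ^ a.val :=
    pow_eq_pow_iff_modEq.2 (hmod.of_dvd (orderOf_dvd_of_pow_eq_one hγp))
  rw [hpow]

/-- the elements of a field of characteristic `p` with `x ^ p = x` are the labels. -/
theorem h92_label_surj (p : ℕ) [Fact p.Prime] {L : Type*} [Field L]
    {Ω : Type*} [Fintype Ω] (hcard : Fintype.card Ω = p) (ℓ : Ω → L)
    (hℓ : Function.Injective ℓ) (hℓp : ∀ w, ℓ w ^ p = ℓ w) (x : L) (hx : x ^ p = x) :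
    ∃ w, ℓ w = x := by
  classical
  have hp : 1 < p := (Fact.out : p.Prime).one_lt
  set q : Polynomial L := Polynomial.X ^ p - Polynomial.X with hq
  have hdeg : q.natDegree = p := by
    rw [hq]
    exact FiniteField.X_pow_card_sub_X_natDegree_eq L hp
  have hq0 : q ≠ 0 := by
    intro h
    rw [h, Polynomial.natDegree_zero] at hdeg
    omega
  have hroot : ∀ y : L, y ^ p = y → y ∈ q.roots.toFinset := by
    intro y hy
    rw [Multiset.mem_toFinset, Polynomial.mem_roots hq0, Polynomial.IsRoot, hq]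
    simp [hy]
  have hsub : (Finset.univ.image ℓ) ⊆ q.roots.toFinset := by
    intro y hy
    obtain ⟨w, -, rfl⟩ := Finset.mem_image.1 hy
    exact hroot _ (hℓp w)
  have hcard' : q.roots.toFinset.card ≤ (Finset.univ.image ℓ).card := by
    rw [Finset.card_image_of_injective _ hℓ, Finset.card_univ, hcard]
    calc q.roots.toFinset.card ≤ Multiset.card q.roots := Multiset.toFinset_card_le _
      _ ≤ q.natDegree := Polynomial.card_roots' q
      _ = p := hdeg
  have heq := Finset.eq_of_subset_of_card_le hsub hcard'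
  have hxm := hroot x hx
  rw [← heq] at hxm
  obtain ⟨w, -, hw⟩ := Finset.mem_image.1 hxm
  exact ⟨w, hw⟩

/-- **(FIX), label form.**  The `p` sheets are labelled injectively by elements of the prime
field of a field `L` of characteristic `p`; a self-map `t` which is affine in the label,
`ℓ (t w) = c * ℓ w + j` with `c ≠ 1`, has a fixed point. -/
theorem h92_fix_label (p : ℕ) [Fact p.Prime] {L : Type*} [Field L] [CharP L p]
    {Ω : Type*} [Fintype Ω] (hcard : Fintype.card Ω = p) (ℓ : Ω → L)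
    (hℓ : Function.Injective ℓ) (hℓp : ∀ w, ℓ w ^ p = ℓ w)
    (t : Ω → Ω) (c j : L) (hc : c ≠ 1) (ht : ∀ w, ℓ (t w) = c * ℓ w + j) :
    ∃ w, t w = w := by
  have hp0 : p ≠ 0 := (Fact.out : p.Prime).ne_zero
  obtain ⟨w0, hw0⟩ := h92_label_surj p hcard ℓ hℓ hℓp 0 (zero_pow hp0)
  obtain ⟨w1, hw1⟩ := h92_label_surj p hcard ℓ hℓ hℓp 1 (one_pow p)
  have hj : j ^ p = j := by
    have := hℓp (t w0)
    rwa [ht, hw0, mul_zero, zero_add] at this
  have hcp : c ^ p = c := by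
    have := hℓp (t w1)
    rw [ht, hw1, mul_one, add_pow_char, hj] at this
    exact add_right_cancel this
  have h1c : (1 - c) ≠ 0 := sub_ne_zero.2 (Ne.symm hc)
  have hb : (j / (1 - c)) ^ p = j / (1 - c) := by
    rw [div_pow, sub_pow_char, one_pow, hj, hcp]
  obtain ⟨w, hw⟩ := h92_label_surj p hcard ℓ hℓ hℓp _ hb
  refine ⟨w, hℓ ?_⟩
  rw [ht, hw]
  field_simp
  ring

/-! ### (CONTRA) -/

/-- **(CONTRA), group form.**  Connected sheet graph, a pair `(t₁, t₂)` of sheet maps commuting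
with the gluing, `γ` a transitive permutation of the sheets of the first component of order
`p`, and `t₁ ∘ γ = γ ^ c ∘ t₁` with `c ≠ 1` modulo `p`: impossible. -/
theorem h92_tor_contra_perm {Ω₁ Ω₂ ι : Type*} [Nonempty Ω₁] (σ : ι → Ω₁ ≃ Ω₂)
    (hconn : ∀ S : Set (Ω₁ ⊕ Ω₂),
      (∀ P w, Sum.inl w ∈ S ↔ Sum.inr (σ P w) ∈ S) → S = ∅ ∨ S = Set.univ)
    (t₁ : Ω₁ → Ω₁) (t₂ : Ω₂ → Ω₂) (hcomm : ∀ P w, σ P (t₁ w) = t₂ (σ P w))
    (p : ℕ) [Fact p.Prime] (γ : Equiv.Perm Ω₁) (hγp : γ ^ p = 1) (hγ1 : γ ≠ 1)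
    (htrans : ∀ w w' : Ω₁, ∃ i : ℕ, (γ ^ i) w = w')
    (c : ℕ) (hc : (c : ZMod p) ≠ 1) (hconj : ∀ w, t₁ (γ w) = (γ ^ c) (t₁ w)) : False := by
  obtain ⟨w0, h0⟩ := h92_fix_perm p γ hγp htrans t₁ c hc hconj
  have hid := (h98_torsor_fix σ hconn t₁ t₂ hcomm w0 h0).1
  have h1 : γ ^ c = γ ^ 1 := by
    rw [pow_one]
    ext w
    have := hconj w
    rw [hid, hid] at this
    exact this.symm
  have hord : orderOf γ = p := orderOf_eq_prime hγp hγ1
  have hmod : c ≡ 1 [MOD p] := by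
    rw [← hord]
    exact pow_eq_pow_iff_modEq.1 h1
  apply hc
  have := (ZMod.natCast_eq_natCast_iff c 1 p).2 hmod
  simpa using this

/-- **(CONTRA), label form.**  Connected sheet graph, a pair `(t₁, t₂)` of sheet maps commuting
with the gluing, the `p` sheets of the first component labelled by the prime field and `t₁`
affine in the label with multiplier `c ≠ 1`: impossible. -/
theorem h92_tor_contra_label {Ω₁ Ω₂ ι : Type*} [Fintype Ω₁] (σ : ι → Ω₁ ≃ Ω₂)
    (hconn : ∀ S : Set (Ω₁ ⊕ Ω₂),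
      (∀ P w, Sum.inl w ∈ S ↔ Sum.inr (σ P w) ∈ S) → S = ∅ ∨ S = Set.univ)
    (t₁ : Ω₁ → Ω₁) (t₂ : Ω₂ → Ω₂) (hcomm : ∀ P w, σ P (t₁ w) = t₂ (σ P w))
    (p : ℕ) [Fact p.Prime] {L : Type*} [Field L] [CharP L p]
    (hcard : Fintype.card Ω₁ = p) (ℓ : Ω₁ → L) (hℓ : Function.Injective ℓ)
    (hℓp : ∀ w, ℓ w ^ p = ℓ w) (c j : L) (hc : c ≠ 1)
    (ht : ∀ w, ℓ (t₁ w) = c * ℓ w + j) : False := by
  have hp0 : p ≠ 0 := (Fact.out : p.Prime).ne_zero
  obtain ⟨w, h0⟩ := h92_fix_label p hcard ℓ hℓ hℓp t₁ c j hc ht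
  have hid := (h98_torsor_fix σ hconn t₁ t₂ hcomm w h0).1
  obtain ⟨w0, hw0⟩ := h92_label_surj p hcard ℓ hℓ hℓp 0 (zero_pow hp0)
  obtain ⟨w1, hw1⟩ := h92_label_surj p hcard ℓ hℓ hℓp 1 (one_pow p)
  have hj : j = 0 := by
    have := ht w0
    rw [hid, hw0, mul_zero, zero_add] at this
    exact this.symm
  have := ht w1
  rw [hid, hw1, mul_one, hj, add_zero] at this
  exact hc this.symm

end Fermat.Agent.S33
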